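import Mathlib
import Fermat.Prelude.Def_ModularCurve_LaurentCoeff

/-!
# The Gauss valuation on Laurent series over the fraction field of a discrete valuation ring

For a base `W ⊆ K` with uniformiser and residue map (`Base`), `Base.gaussRing` is the ring of
fractions `u / v` of series over `W` with `v` primitive and `Base.res` its residue map onto the
series over `k`, with kernel the multiples of the uniformiser (`res_eq_zero_iff`). A nonzero
fraction of integral series is a power of the uniformiser times a unit (`exists_zpow_mul_unit`).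
-/

set_option autoImplicit false

noncomputable section

open HahnSeries ModularCurve

namespace FLTAgent.BadQ

/-- A discretely valued base: `W ⊆ K` with uniformiser `ϖ` and residue map `π : W → k`. -/
structure Base (K k : Type*) [Field K] [Field k] where
  W : ValuationSubring K
  dvr : IsDiscreteValuationRing W
  π : W →+* k
  π_surjective : Function.Surjective π
  ϖ : W
  ϖ_ne_zero : ϖ ≠ 0
  ker_π : RingHom.ker π = Ideal.span {ϖ}

variable {K k : Type*} [Field K] [Field k] (b : Base K k)

namespace Base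

/-- coefficientwise inclusion -/
def ι : LaurentSeries b.W →+* LaurentSeries K := coeffMap b.W.subtype

/-- coefficientwise reduction -/
def red : LaurentSeries b.W →+* LaurentSeries k := coeffMap b.π

theorem π_eq_zero_iff (a : b.W) : b.π a = 0 ↔ b.ϖ ∣ a := by
  rw [← RingHom.mem_ker, b.ker_π, Ideal.mem_span_singleton]

theorem π_ϖ : b.π b.ϖ = 0 := (b.π_eq_zero_iff _).mpr dvd_rfl

theorem ι_injective : Function.Injective b.ι := by
  intro x y h
  ext i
  have := congrArg (fun z : LaurentSeries K => z.coeff i) h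
  simpa [ι] using this

theorem ι_C (a : b.W) : b.ι (HahnSeries.C a) = algebraMap K (LaurentSeries K) (a : K) := by
  rw [HahnSeries.C_apply, ι, coeffMap_single, algebraMap_laurentSeries_eq_single]
  rfl

theorem red_C (a : b.W) : b.red (HahnSeries.C a) = algebraMap k (LaurentSeries k) (b.π a) := by
  rw [HahnSeries.C_apply, red, coeffMap_single, algebraMap_laurentSeries_eq_single]

theorem exists_red_eq (z : LaurentSeries k) : ∃ u, b.red u = z := by
  classical
  choose f hf using b.π_surjective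
  refine ⟨{ coeff := fun i => if z.coeff i = 0 then 0 else f (z.coeff i)
            isPWO_support' := z.isPWO_support'.mono fun i hi => ?_ }, ?_⟩
  · simp only [Function.mem_support, ne_eq, ite_eq_left_iff, not_forall] at hi ⊢
    exact hi.1
  · ext i
    simp only [red, coeffMap_coeff]
    split_ifs with h
    · simp [h]
    · rw [hf]

/-- An integral series with zero reduction is divisible by the uniformiser. -/
theorem exists_eq_ϖ_mul {u : LaurentSeries b.W} (hu : b.red u = 0) :
    ∃ u', u = HahnSeries.C b.ϖ * u' := by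
  have h : ∀ i, b.ϖ ∣ u.coeff i := fun i => by
    rw [← b.π_eq_zero_iff]
    have := congrArg (fun z : LaurentSeries k => z.coeff i) hu
    simpa [red] using this
  choose f hf using h
  refine ⟨{ coeff := f, isPWO_support' := u.isPWO_support'.mono fun i hi => ?_ }, ?_⟩
  · simp only [Function.mem_support, ne_eq] at hi ⊢
    rw [hf i]
    exact mul_ne_zero b.ϖ_ne_zero hi
  · ext i
    rw [HahnSeries.C_apply, HahnSeries.coeff_single_mul, sub_zero]
    exact congrArg Subtype.val (hf i)

/-- A nonzero integral series is a power of `ϖ` times a primitive one. -/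
theorem exists_primitive {u : LaurentSeries b.W} (hu : u ≠ 0) :
    ∃ (n : ℕ) (u' : LaurentSeries b.W), u = HahnSeries.C (b.ϖ ^ n) * u' ∧ b.red u' ≠ 0 := by
  have := b.dvr
  obtain ⟨i, hi⟩ : ∃ i, u.coeff i ≠ 0 := by
    by_contra h
    push Not at h
    exact hu (HahnSeries.ext (funext h))
  have hnu : ¬ IsUnit b.ϖ := fun hun => by
    have h1 : (1 : b.W) ∈ RingHom.ker b.π := by
      rw [b.ker_π, Ideal.span_singleton_eq_top.mpr hun]; trivial
    simp at h1
  have hfin : FiniteMultiplicity b.ϖ (u.coeff i) :=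
    FiniteMultiplicity.of_not_isUnit hnu hi
  obtain ⟨m, hm⟩ := hfin
  have key : ∀ j : ℕ, (∃ (n : ℕ) (u' : LaurentSeries b.W),
      u = HahnSeries.C (b.ϖ ^ n) * u' ∧ b.red u' ≠ 0) ∨
      ∃ u', u = HahnSeries.C (b.ϖ ^ j) * u' := by
    intro j
    induction j with
    | zero => exact Or.inr ⟨u, by simp⟩
    | succ j ih =>
      rcases ih with h | ⟨u', hu'⟩
      · exact Or.inl h
      · by_cases h0 : b.red u' = 0
        · obtain ⟨u'', hu''⟩ := b.exists_eq_ϖ_mul h0
          exact Or.inr ⟨u'', by rw [hu', hu'', pow_succ, map_mul]; ring⟩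
        · exact Or.inl ⟨j, u', hu', h0⟩
  rcases key (m + 1) with h | ⟨u', hu'⟩
  · exact h
  · refine absurd ⟨u'.coeff i, ?_⟩ hm
    rw [hu', HahnSeries.C_apply, HahnSeries.coeff_single_mul, sub_zero]

/-- Fractions `u / v` of integral series with `v` primitive: the Gauss valuation ring. -/
def gaussRing : Subring (LaurentSeries K) where
  carrier := {x | ∃ u v, b.red v ≠ 0 ∧ x * b.ι v = b.ι u}
  mul_mem' := by
    rintro x y ⟨u, v, hv, hx⟩ ⟨u', v', hv', hy⟩
    refine ⟨u * u', v * v', by rw [map_mul]; exact mul_ne_zero hv hv', ?_⟩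
    rw [map_mul, map_mul, ← hx, ← hy]; ring
  one_mem' := ⟨1, 1, by simp, by simp⟩
  add_mem' := by
    rintro x y ⟨u, v, hv, hx⟩ ⟨u', v', hv', hy⟩
    refine ⟨u * v' + u' * v, v * v', by rw [map_mul]; exact mul_ne_zero hv hv', ?_⟩
    rw [map_add, map_mul, map_mul, map_mul, ← hx, ← hy]; ring
  zero_mem' := ⟨0, 1, by simp, by simp⟩
  neg_mem' := by
    rintro x ⟨u, v, hv, hx⟩
    exact ⟨-u, v, hv, by rw [map_neg, neg_mul, hx]⟩

theorem mem_gaussRing {x : LaurentSeries K} :
    x ∈ b.gaussRing ↔ ∃ u v, b.red v ≠ 0 ∧ x * b.ι v = b.ι u := Iff.rfl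

theorem ι_mem_gaussRing (u : LaurentSeries b.W) : b.ι u ∈ b.gaussRing :=
  ⟨u, 1, by simp, by simp⟩

theorem const_mem_gaussRing (a : b.W) :
    algebraMap K (LaurentSeries K) (a : K) ∈ b.gaussRing :=
  b.ι_C a ▸ b.ι_mem_gaussRing _

/-- the numerator of a chosen presentation -/
def resFun (x : b.gaussRing) : LaurentSeries k :=
  b.red x.2.choose / b.red x.2.choose_spec.choose

theorem resFun_eq (x : b.gaussRing) {u v : LaurentSeries b.W} (hv : b.red v ≠ 0)
    (h : (x : LaurentSeries K) * b.ι v = b.ι u) : b.resFun x = b.red u / b.red v := by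
  obtain ⟨hv', h'⟩ := x.2.choose_spec.choose_spec
  rw [resFun, div_eq_div_iff hv' hv, ← map_mul, ← map_mul]
  congr 1
  apply b.ι_injective
  rw [map_mul, map_mul]
  linear_combination (b.ι x.2.choose_spec.choose) * h - (b.ι v) * h'

/-- The residue map of the Gauss valuation. -/
def res : b.gaussRing →+* LaurentSeries k where
  toFun := b.resFun
  map_one' := by
    rw [b.resFun_eq 1 (u := 1) (v := 1) (by simp) (by simp)]; simp
  map_zero' := by
    rw [b.resFun_eq 0 (u := 0) (v := 1) (by simp) (by simp)]; simp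
  map_mul' x y := by
    obtain ⟨u, v, hv, hx⟩ := x.2
    obtain ⟨u', v', hv', hy⟩ := y.2
    rw [b.resFun_eq (x * y) (u := u * u') (v := v * v')
        (by rw [map_mul]; exact mul_ne_zero hv hv')
        (by rw [Subring.coe_mul, map_mul, map_mul, ← hx, ← hy]; ring),
      b.resFun_eq x hv hx, b.resFun_eq y hv' hy, map_mul, map_mul, div_mul_div_comm]
  map_add' x y := by
    obtain ⟨u, v, hv, hx⟩ := x.2
    obtain ⟨u', v', hv', hy⟩ := y.2
    rw [b.resFun_eq (x + y) (u := u * v' + u' * v) (v := v * v')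
        (by rw [map_mul]; exact mul_ne_zero hv hv')
        (by rw [Subring.coe_add, map_add, map_mul, map_mul, map_mul, ← hx, ← hy]; ring),
      b.resFun_eq x hv hx, b.resFun_eq y hv' hy, map_add, map_mul, map_mul, map_mul,
      div_add_div _ _ hv hv', mul_comm (b.red v) (b.red u')]

theorem res_eq {x : b.gaussRing} {u v : LaurentSeries b.W} (hv : b.red v ≠ 0)
    (h : (x : LaurentSeries K) * b.ι v = b.ι u) : b.res x = b.red u / b.red v :=
  b.resFun_eq x hv h

theorem res_ι (u : LaurentSeries b.W) : b.res ⟨b.ι u, b.ι_mem_gaussRing u⟩ = b.red u := by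
  rw [b.res_eq (u := u) (v := 1) (by simp) (by simp)]; simp

theorem res_const (a : b.W) :
    b.res ⟨algebraMap K (LaurentSeries K) (a : K), b.const_mem_gaussRing a⟩ =
      algebraMap k (LaurentSeries k) (b.π a) := by
  rw [b.res_eq (u := HahnSeries.C a) (v := 1) (by simp)
    (by rw [map_one, mul_one]; exact (b.ι_C a).symm), b.red_C]
  simp

theorem res_surjective : Function.Surjective b.res := fun z => by
  obtain ⟨u, rfl⟩ := b.exists_red_eq z
  exact ⟨_, b.res_ι u⟩

/-- The residue map kills exactly the multiples of `ϖ`. -/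
theorem res_eq_zero_iff (x : b.gaussRing) :
    b.res x = 0 ↔ ∃ y : b.gaussRing,
      (x : LaurentSeries K) = algebraMap K (LaurentSeries K) (b.ϖ : K) * y := by
  constructor
  · intro h
    obtain ⟨u, v, hv, hx⟩ := x.2
    rw [b.res_eq hv hx, div_eq_zero_iff] at h
    obtain ⟨u', rfl⟩ := b.exists_eq_ϖ_mul (h.resolve_right hv)
    have hιv : b.ι v ≠ 0 := fun h0 => hv (by rw [b.ι_injective (h0.trans b.ι.map_zero.symm)]; simp)
    refine ⟨⟨b.ι u' / b.ι v, u', v, hv, div_mul_cancel₀ _ hιv⟩, ?_⟩
    show (x : LaurentSeries K) = _ * (b.ι u' / b.ι v)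
    rw [← b.ι_C, mul_div_assoc', ← map_mul, eq_div_iff hιv, hx]
  · rintro ⟨y, hy⟩
    have : x = ⟨_, b.const_mem_gaussRing b.ϖ⟩ * y := Subtype.ext hy
    rw [this, map_mul, b.res_const, b.π_ϖ, map_zero, zero_mul]

/-- The field of fractions of integral series inside `K((X))`. -/
def fracField : Subfield (LaurentSeries K) :=
  Subfield.closure (Set.range b.ι)

theorem ι_mem_fracField (u : LaurentSeries b.W) : b.ι u ∈ b.fracField :=
  Subfield.subset_closure ⟨u, rfl⟩

theorem exists_frac {x : LaurentSeries K} (hx : x ∈ b.fracField) :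
    ∃ u v, b.ι v ≠ 0 ∧ x * b.ι v = b.ι u := by
  induction hx using Subfield.closure_induction with
  | mem y hy => obtain ⟨u, rfl⟩ := hy; exact ⟨u, 1, by simp, by simp⟩
  | one => exact ⟨1, 1, by simp, by simp⟩
  | add x y _ _ hx hy =>
    obtain ⟨u, v, hv, hx⟩ := hx
    obtain ⟨u', v', hv', hy⟩ := hy
    refine ⟨u * v' + u' * v, v * v', by rw [map_mul]; exact mul_ne_zero hv hv', ?_⟩
    rw [map_add, map_mul, map_mul, map_mul, ← hx, ← hy]; ring
  | neg x _ hx =>
    obtain ⟨u, v, hv, hx⟩ := hx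
    exact ⟨-u, v, hv, by rw [map_neg, neg_mul, hx]⟩
  | inv x _ hx =>
    obtain ⟨u, v, hv, hx⟩ := hx
    rcases eq_or_ne x 0 with h | h
    · exact ⟨0, 1, by simp, by simp [h]⟩
    · refine ⟨v, u, by rw [← hx]; exact mul_ne_zero h hv, ?_⟩
      rw [← hx]; field_simp
  | mul x y _ _ hx hy =>
    obtain ⟨u, v, hv, hx⟩ := hx
    obtain ⟨u', v', hv', hy⟩ := hy
    refine ⟨u * u', v * v', by rw [map_mul]; exact mul_ne_zero hv hv', ?_⟩
    rw [map_mul, map_mul, ← hx, ← hy]; ring

theorem const_mem_fracField (a : K) : algebraMap K (LaurentSeries K) a ∈ b.fracField := by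
  obtain ha | ha := b.W.mem_or_inv_mem a
  · exact b.ι_C ⟨a, ha⟩ ▸ b.ι_mem_fracField _
  · have := b.fracField.inv_mem (b.ι_mem_fracField (HahnSeries.C ⟨a⁻¹, ha⟩))
    rw [b.ι_C, ← map_inv₀] at this
    simpa using this

/-- Every nonzero element of `fracField` is a power of `ϖ` times a unit of the Gauss ring. -/
theorem exists_zpow_mul_unit {x : LaurentSeries K} (hx : x ∈ b.fracField) (hx0 : x ≠ 0) :
    ∃ (n : ℤ) (y : b.gaussRing), b.res y ≠ 0 ∧
      x = algebraMap K (LaurentSeries K) ((b.ϖ : K) ^ n) * y := by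
  obtain ⟨u, v, hv, h⟩ := b.exists_frac hx
  have hu : u ≠ 0 := fun h0 => by rw [h0, map_zero] at h; exact hx0 ((mul_eq_zero.mp h).resolve_right hv)
  have hv0 : v ≠ 0 := fun h0 => hv (by rw [h0, map_zero])
  obtain ⟨n, u', hu', hu''⟩ := b.exists_primitive hu
  obtain ⟨m, v', hv', hv''⟩ := b.exists_primitive hv0
  have hιv' : b.ι v' ≠ 0 := fun h0 => hv'' (by rw [b.ι_injective (h0.trans b.ι.map_zero.symm)]; simp)
  have hιC : ∀ i : ℕ, b.ι (HahnSeries.C (b.ϖ ^ i)) =
      algebraMap K (LaurentSeries K) (b.ϖ : K) ^ i := by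
    intro i
    rw [map_pow, map_pow, b.ι_C]
  have hA : algebraMap K (LaurentSeries K) (b.ϖ : K) ≠ 0 :=
    (map_ne_zero (algebraMap K (LaurentSeries K))).mpr fun h0 => b.ϖ_ne_zero (Subtype.ext h0)
  rw [hu', hv', map_mul b.ι, map_mul b.ι, hιC, hιC] at h
  let y : b.gaussRing := ⟨b.ι u' / b.ι v', u', v', hv'', div_mul_cancel₀ _ hιv'⟩
  have hy : (y : LaurentSeries K) * b.ι v' = b.ι u' := div_mul_cancel₀ _ hιv'
  refine ⟨(n : ℤ) - m, y, ?_, ?_⟩
  · rw [b.res_eq (x := y) hv'' hy]
    exact div_ne_zero hu'' hv''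
  · show x = _ * (b.ι u' / b.ι v')
    rw [map_zpow₀, zpow_sub₀ hA, zpow_natCast, zpow_natCast, div_mul_div_comm,
      eq_div_iff (mul_ne_zero (pow_ne_zero m hA) hιv')]
    exact h

end Base

end FLTAgent.BadQ
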