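import Mathlib
import Fermat.Agent.BadQ.Gauss
import Fermat.Agent.TwoChart.DescentDefs
import Fermat.Agent.EllP.Unramified
import Fermat.Agent.EllP.Reduce
import Fermat.Agent.GalCommon.Frobenius

/-!
# The coefficient ring of the models at a place over `q`

The valuation ring `W0` of the fixed field `K0` of inertia is a discrete valuation ring with
uniformiser `q` (`isDiscreteValuationRing_W0`, `qW_irreducible`) and residue field that of the
place (`redW_surjective`), and `K0` contains the roots of unity of order prime to `q`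
(`mem_K0_of_pow_eq_one`). `base` packages it as a `Base`.
-/

set_option autoImplicit false
set_option linter.style.haveILetI false
set_option linter.unusedSectionVars false

noncomputable section

namespace FLTAgent.BadQ.TwoInst

local notation "Qb" => AlgebraicClosure ℚ
local notation "GQ" => (AlgebraicClosure ℚ ≃ₐ[ℚ] AlgebraicClosure ℚ)

/-- The inertia group of the place. -/
abbrev inert (A : ValuationSubring Qb) : Subgroup GQ := A.inertiaSubgroupIn ℚ

/-- The fixed field of inertia. -/
abbrev K0 (A : ValuationSubring Qb) : IntermediateField ℚ Qb := TwoChart.fixedK (inert A)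

/-- The valuation ring of the fixed field of inertia. -/
abbrev W0 (A : ValuationSubring Qb) : ValuationSubring (K0 A) := TwoChart.baseW A (inert A)

/-- The residue field of the place. -/
abbrev kres (A : ValuationSubring Qb) : Type _ := IsLocalRing.ResidueField A

variable (A : ValuationSubring Qb)

theorem mem_W0 {a : K0 A} : a ∈ W0 A ↔ (a : Qb) ∈ A := Iff.rfl

/-- `W₀ ⊆ A`. -/
def toA : W0 A →+* A :=
  ((algebraMap (K0 A) Qb).comp (W0 A).subtype).codRestrict A.toSubring fun a => a.2

theorem coe_toA (a : W0 A) : ((toA A a : A) : Qb) = ((a : K0 A) : Qb) := rfl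

/-- Reduction of coefficients. -/
def redW : W0 A →+* kres A := (IsLocalRing.residue A).comp (toA A)

instance instAlgebraKres : Algebra (W0 A) (kres A) := (redW A).toAlgebra

theorem algebraMap_kres : algebraMap (W0 A) (kres A) = redW A := rfl

variable {A} {q : ℕ} [hq : Fact q.Prime] (hA : A.LiesOverPrime q)

include hA in
theorem valuation_q_lt : A.valuation (q : Qb) < 1 := hA

include hq in
theorem valuation_q_ne : A.valuation (q : Qb) ≠ 0 := by simpa using hq.out.ne_zero

variable (A q) in
/-- `q` as an element of `W₀`. -/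
abbrev qW : W0 A := (q : W0 A)

theorem coe_qW : ((qW A q : K0 A) : Qb) = (q : Qb) := by simp

include hA in
theorem exists_zpow {y : K0 A} (hy : y ≠ 0) :
    ∃ n : ℤ, A.valuation (y : Qb) = A.valuation (q : Qb) ^ n :=
  EllP.exists_valuation_eq_zpow hq.out hA (by simpa using hy)
    fun σ hσ => TwoChart.mem_fixedK.1 y.2 σ hσ

include hA in
theorem q_dvd_iff (a : W0 A) : qW A q ∣ a ↔ A.valuation ((a : K0 A) : Qb) < 1 := by
  constructor
  · rintro ⟨b, rfl⟩
    have hb : A.valuation ((b : K0 A) : Qb) ≤ 1 := (A.valuation_le_one_iff _).2 b.2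
    push_cast
    rw [map_mul]
    exact mul_lt_one_of_lt_of_le (valuation_q_lt hA) hb
  · intro h
    rcases eq_or_ne ((a : K0 A) : K0 A) 0 with h0 | h0
    · exact ⟨0, by rw [mul_zero]; exact Subtype.ext h0⟩
    obtain ⟨n, hn⟩ := exists_zpow hA h0
    have hn0 : 0 < n := by
      by_contra hle
      push Not at hle
      rw [hn] at h
      exact absurd h (not_lt.2 (one_le_zpow_of_nonpos₀ (pos_of_ne_zero (valuation_q_ne (q := q)))
        (valuation_q_lt hA).le hle))
    have hb : ((a : K0 A) / (q : K0 A)) ∈ W0 A := by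
      rw [mem_W0, ← A.valuation_le_one_iff]
      push_cast
      rw [map_div₀, hn, div_eq_mul_inv, ← zpow_sub_one₀ (valuation_q_ne (q := q)) n]
      exact zpow_le_one₀ (pos_of_ne_zero (valuation_q_ne (q := q))) (valuation_q_lt hA).le (by omega)
    exact ⟨⟨_, hb⟩, Subtype.ext (by
      push_cast
      rw [mul_div_cancel₀]
      exact_mod_cast hq.out.ne_zero)⟩

include hA in
theorem redW_eq_zero_iff (a : W0 A) : redW A a = 0 ↔ qW A q ∣ a := by
  rw [q_dvd_iff hA, ← ValuationSubring.mem_nonunits_iff, redW, RingHom.comp_apply,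
    ← GalCommon.coe_mem_nonunits_iff_residue, coe_toA]

theorem qW_ne_zero : qW A q ≠ 0 := by
  intro h
  have h2 := congrArg (fun a : W0 A => ((a : K0 A) : Qb)) h
  simp only [coe_qW] at h2
  exact hq.out.ne_zero (by simpa using h2)

include hA in
theorem qW_irreducible : Irreducible (qW A q) := by
  have hunit : ∀ a : W0 A, ¬ qW A q ∣ a → IsUnit a := fun a ha => by
    have h1 : A.valuation ((a : K0 A) : Qb) = 1 :=
      le_antisymm ((A.valuation_le_one_iff _).2 a.2) (not_lt.1 ((q_dvd_iff hA a).not.1 ha))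
    have hinv : (a : K0 A)⁻¹ ∈ W0 A := by
      rw [mem_W0, ← A.valuation_le_one_iff]
      push_cast
      rw [map_inv₀, h1, inv_one]
    refine IsUnit.of_mul_eq_one ⟨_, hinv⟩ (Subtype.ext ?_)
    push_cast
    refine mul_inv_cancel₀ fun h0 => ?_
    rw [h0] at h1
    simp at h1
  refine ⟨fun h => ?_, fun a b hab => ?_⟩
  · have := (q_dvd_iff hA (1 : W0 A)).1 (h.dvd)
    simp at this
  · by_contra h
    push Not at h
    obtain ⟨a', ha⟩ := by_contra fun h1 => h.1 (hunit a h1)
    obtain ⟨b', hb⟩ := by_contra fun h1 => h.2 (hunit b h1)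
    have h3 : (1 : W0 A) = qW A q * (a' * b') :=
      mul_left_cancel₀ qW_ne_zero (by rw [mul_one]; nth_rw 1 [hab, ha, hb]; ring)
    have := (q_dvd_iff hA (1 : W0 A)).1 ⟨_, h3⟩
    simp at this

include hA in
theorem isDiscreteValuationRing_W0 : IsDiscreteValuationRing (W0 A) := by
  refine IsDiscreteValuationRing.ofHasUnitMulPowIrreducibleFactorization
    ⟨qW A q, qW_irreducible hA, fun {a} ha => ?_⟩
  have ha0 : (a : K0 A) ≠ 0 := fun h => ha (Subtype.ext h)
  obtain ⟨n, hn⟩ := exists_zpow hA ha0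
  have hn0 : 0 ≤ n := by
    by_contra hlt
    push Not at hlt
    have h1 : A.valuation ((a : K0 A) : Qb) ≤ 1 := (A.valuation_le_one_iff _).2 a.2
    rw [hn] at h1
    exact absurd h1 (not_le.2 (one_lt_zpow_of_neg₀ (pos_of_ne_zero (valuation_q_ne (q := q)))
      (valuation_q_lt hA) hlt))
  lift n to ℕ using hn0
  rw [zpow_natCast] at hn
  refine ⟨n, ?_⟩
  have hval : ∀ z : K0 A, A.valuation ((z : Qb) / (q : Qb) ^ n) = A.valuation (z : Qb) /
      A.valuation (q : Qb) ^ n := fun z => by rw [map_div₀, map_pow]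
  have hv1 : A.valuation ((a : K0 A) : Qb) / A.valuation (q : Qb) ^ n = 1 := by
    rw [hn, div_self (pow_ne_zero _ (valuation_q_ne (q := q)))]
  have hu : (a : K0 A) / (q : K0 A) ^ n ∈ W0 A := by
    rw [mem_W0, ← A.valuation_le_one_iff]
    push_cast
    rw [hval, hv1]
  have hui : ((a : K0 A) / (q : K0 A) ^ n)⁻¹ ∈ W0 A := by
    rw [mem_W0, ← A.valuation_le_one_iff]
    push_cast
    rw [map_inv₀, hval, hv1, inv_one]
  have hq0 : (q : K0 A) ≠ 0 := by exact_mod_cast hq.out.ne_zero
  refine Associated.symm ⟨⟨⟨_, hui⟩, ⟨_, hu⟩, Subtype.ext ?_, Subtype.ext ?_⟩, Subtype.ext ?_⟩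
  · push_cast
    exact inv_mul_cancel₀ (div_ne_zero ha0 (pow_ne_zero _ hq0))
  · push_cast
    exact mul_inv_cancel₀ (div_ne_zero ha0 (pow_ne_zero _ hq0))
  · push_cast
    field_simp

include hA in
/-- The roots of unity of order prime to `q` are fixed by inertia. -/
theorem mem_K0_of_pow_eq_one {n : ℕ} (hn : ¬ q ∣ n) {ζ : Qb} (hζ : ζ ^ n = 1) : ζ ∈ K0 A := by
  rw [TwoChart.mem_fixedK]
  intro σ hσ
  have hζA : ζ ∈ A := GalCommon.mem_of_isIntegral A (IsIntegral.of_pow
    (Nat.pos_of_ne_zero fun h => hn (by rw [h]; exact dvd_zero q)) (hζ ▸ isIntegral_one))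
  exact GalCommon.eq_of_pow_eq_one_of_sub_mem hq.out hA hn (by rw [← map_pow, hζ, map_one]) hζ
    ((GalCommon.mem_inertiaSubgroupIn_iff.1 hσ).2 ζ hζA)

include hA in
theorem redW_surjective : Function.Surjective (redW A) := by
  intro y
  haveI : Fact q.Prime := hq
  haveI := GalCommon.charP_residueField hq.out hA
  letI : Algebra (ZMod q) (kres A) := ZMod.algebra _ q
  rcases eq_or_ne y 0 with rfl | hy
  · exact ⟨0, map_zero _⟩
  haveI := GalCommon.isAlgebraic_residueField A hq.out hA
  -- `y` lies in a finite field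
  set F := IntermediateField.adjoin (ZMod q) ({y} : Set (kres A))
  haveI : FiniteDimensional (ZMod q) F :=
    IntermediateField.adjoin.finiteDimensional (Algebra.IsAlgebraic.isAlgebraic y).isIntegral
  haveI : Finite F := Module.finite_of_finite (ZMod q)
  haveI : Fintype F := Fintype.ofFinite F
  set n := Fintype.card F - 1
  let y' : F := ⟨y, IntermediateField.mem_adjoin_simple_self _ y⟩
  have hy' : y' ≠ 0 := fun h => hy (congrArg Subtype.val h)
  have hn : ¬ q ∣ n := by
    obtain ⟨r, hr⟩ : q ∣ Fintype.card F := by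
      rw [Module.card_eq_pow_finrank (K := ZMod q), ZMod.card]
      exact dvd_pow_self q (Module.finrank_pos (R := ZMod q) (M := F)).ne'
    intro h
    have h1 : 0 < Fintype.card F := Fintype.card_pos
    have : q ∣ Fintype.card F - n := Nat.dvd_sub ⟨r, hr⟩ h
    rw [Nat.sub_sub_self h1] at this
    exact hq.out.not_dvd_one this
  haveI : NeZero n := ⟨fun h => hn (h ▸ dvd_zero q)⟩
  have hyn : y ^ n = 1 := congrArg Subtype.val (FiniteField.pow_card_sub_one_eq_one y' hy')
  haveI : NeZero (n : Qb) := ⟨by exact_mod_cast NeZero.ne n⟩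
  obtain ⟨ω, hω⟩ := HasEnoughRootsOfUnity.exists_primitiveRoot Qb n
  have hωA : ω ∈ A := GalCommon.mem_of_isIntegral A
    (IsIntegral.of_pow (NeZero.pos n) (hω.pow_eq_one ▸ isIntegral_one))
  set ωb := IsLocalRing.residue A ⟨ω, hωA⟩
  have hωb : IsPrimitiveRoot ωb n := by
    refine IsPrimitiveRoot.mk_of_lt ωb (NeZero.pos n) ?_ fun l hl0 hl h => ?_
    · rw [← map_pow, ← map_one (IsLocalRing.residue A)]
      exact congrArg _ (Subtype.ext (by simpa using hω.pow_eq_one))
    · refine hω.pow_ne_one_of_pos_of_lt hl0.ne' hl ?_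
      refine GalCommon.eq_one_of_pow_eq_one_of_sub_mem hq.out hA hn
        (by rw [← pow_mul, mul_comm, pow_mul, hω.pow_eq_one, one_pow]) ?_
      rw [show ω ^ l - 1 = (((⟨ω, hωA⟩ : A) ^ l - 1 : A) : Qb) by simp,
        GalCommon.coe_mem_nonunits_iff_residue, map_sub, map_pow, h, map_one, sub_self]
  obtain ⟨i, -, hi⟩ := hωb.eq_pow_of_pow_eq_one hyn
  have hK : ω ^ i ∈ K0 A :=
    mem_K0_of_pow_eq_one hA hn (by rw [← pow_mul, mul_comm, pow_mul, hω.pow_eq_one, one_pow])
  refine ⟨⟨⟨_, hK⟩, pow_mem hωA i⟩, ?_⟩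
  rw [← hi, ← map_pow]
  rfl

/-- The coefficient ring, with residue map. -/
def base : Base (K0 A) (kres A) where
  W := W0 A
  dvr := isDiscreteValuationRing_W0 hA
  π := redW A
  π_surjective := redW_surjective hA
  ϖ := qW A q
  ϖ_ne_zero := qW_ne_zero
  ker_π := by
    ext a
    rw [RingHom.mem_ker, redW_eq_zero_iff hA, Ideal.mem_span_singleton]

theorem base_W : (base hA).W = W0 A := rfl

theorem base_π : (base hA).π = redW A := rfl

theorem base_ϖ : (base hA).ϖ = qW A q := rfl

include hA in
theorem isNoetherianRing_W0 : IsNoetherianRing (W0 A) := by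
  haveI := isDiscreteValuationRing_W0 hA
  infer_instance

include hA in
theorem infinite_kres : Infinite (kres A) := by
  haveI := GalCommon.isAlgClosed_residueField A hq.out hA
  infer_instance

end FLTAgent.BadQ.TwoInst
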