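import Mathlib
import Fermat.Agent.Kronecker.Swap
import Fermat.Agent.Reduction.GaussField
import Fermat.Prelude.Def_ModularCurve_ArithmeticGalois

/-!
# The Atkin–Lehner involution at `q` of the function field of level `Mq`

For a prime `q ∤ M`, `exists_atkinLehner` gives the `ℚ̄`-automorphism `atkinLehner` of the function
field of level `Mq` which sends `j (d z)` to `j (d' z)`, `d'` being `d` with the factor `q` swapped
(`atkinLehner_jAt`). It is an involution (`atkinLehner_atkinLehner`), exchanges the two degeneracy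
embeddings of level `M` (`atkinLehner_alpha`, `atkinLehner_beta`) and commutes with the Galois
action (`atkinLehner_galois`).
-/

set_option autoImplicit false
set_option linter.style.haveILetI false
set_option linter.unusedSectionVars false
set_option synthInstance.maxHeartbeats 400000
set_option maxHeartbeats 1000000

noncomputable section

open ModularCurve AlgebraicCurve

namespace FLTAgent.BadQ

open FLTAgent.Kronecker (jSeries swapIdx laurentBaseChange_full_eq_adjoin)
open FLTAgent.ModularCosets (DivIdx qScale qScale_eq qScale_qScale)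

local notation "Qb" => AlgebraicClosure ℚ

variable (M q : ℕ) [NeZero M] [NeZero q]

theorem swapIdx_dvd (hq : q.Prime) {d : ℕ} (hd : d ∣ M * q) :
    swapIdx q d ∣ M * q := by
  unfold swapIdx
  split_ifs with h
  · exact (Nat.div_dvd_of_dvd h).trans hd
  · exact mul_dvd_mul_right ((Nat.Coprime.dvd_of_dvd_mul_right
      ((hq.coprime_iff_not_dvd.mpr h).symm) hd)) q

theorem swapIdx_swapIdx (hq : q.Prime) (hqM : ¬ q ∣ M) {d : ℕ} (hd : d ∣ M * q) :
    swapIdx q (swapIdx q d) = d := by
  by_cases h : q ∣ d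
  · obtain ⟨c, rfl⟩ := h
    have hc : c ∣ M := Nat.dvd_of_mul_dvd_mul_left hq.pos (by rwa [mul_comm q M])
    rw [mul_comm q c, FLTAgent.Kronecker.swapIdx_mul hq.pos, swapIdx,
      if_neg fun h' => hqM (h'.trans hc)]
  · rw [show swapIdx q d = d * q by rw [swapIdx, if_neg h], FLTAgent.Kronecker.swapIdx_mul hq.pos]

theorem jSeries_mem_bar {N : ℕ} [NeZero N] {d : ℕ} (hd : d ∣ N) :
    jSeries Qb d ∈ modularFunctionFieldBar N := by
  show _ ∈ laurentBaseChange Qb (modularFunctionFieldFull N)
  rw [laurentBaseChange_full_eq_adjoin]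
  exact IntermediateField.subset_adjoin _ _
    ⟨⟨d, Nat.mem_divisors.mpr ⟨hd, NeZero.ne N⟩⟩, rfl⟩

/-- The function `j (d z)`. -/
def jAt {N : ℕ} [NeZero N] (d : DivIdx N) : modularFunctionFieldBar N :=
  ⟨jSeries Qb (d : ℕ), jSeries_mem_bar d.dvd⟩

theorem algHom_ext_bar {N : ℕ} [NeZero N]
    {φ ψ : modularFunctionFieldBar N →ₐ[Qb] LaurentSeries Qb}
    (h : ∀ d : DivIdx N, φ (jAt d) = ψ (jAt d)) : φ = ψ := by
  have hle := laurentBaseChange_full_eq_adjoin Qb N
  let c := (IntermediateField.equivOfEq hle).symm.toAlgHom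
  have h1 := IntermediateField.algHom_ext_of_eq_adjoin Qb rfl
    (φ₁ := φ.comp c) (φ₂ := ψ.comp c) (fun z hz => by
      obtain ⟨d, rfl⟩ := hz
      exact h d)
  refine AlgHom.ext fun z => ?_
  have hz := DFunLike.congr_fun h1 (IntermediateField.equivOfEq hle z)
  simpa [c] using hz

variable {M q}

/-- There is an automorphism of level `Mq` swapping the factor `q` of the `j (d z)`. -/
theorem exists_atkinLehner (hq : q.Prime) (hqM : ¬ q ∣ M) :
    ∃ w : modularFunctionFieldBar (M * q) →ₐ[Qb] modularFunctionFieldBar (M * q),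
      ∀ d : DivIdx (M * q), (w (jAt d) : LaurentSeries Qb) = jSeries Qb (swapIdx q (d : ℕ)) := by
  obtain ⟨e, he⟩ := FLTAgent.Kronecker.exists_ringHom_of_relations (K := Qb)
    (fun d : DivIdx (M * q) => jSeries Qb (d : ℕ))
    (fun d : DivIdx (M * q) => jSeries Qb (swapIdx q (d : ℕ)))
    (FLTAgent.Kronecker.aeval_swap_eq_zero_iff Qb hq hqM
      (FLTAgent.Reduction.barToC : Qb →+* ℂ))
  let c := IntermediateField.equivOfEq (laurentBaseChange_full_eq_adjoin Qb (M * q))
  let φ : modularFunctionFieldBar (M * q) →ₐ[Qb] LaurentSeries Qb := e.comp c.toAlgHom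
  have hmem : ∀ x, φ x ∈ (modularFunctionFieldBar (M * q)).toSubalgebra := fun x => by
    show e (c x) ∈ modularFunctionFieldBar (M * q)
    generalize c x = z
    obtain ⟨z, hz⟩ := z
    induction hz using IntermediateField.adjoin_induction with
    | mem y hy =>
      obtain ⟨d, rfl⟩ := hy
      rw [he d]
      exact jSeries_mem_bar (swapIdx_dvd M q hq d.dvd)
    | algebraMap r =>
      change e (algebraMap Qb (IntermediateField.adjoin Qb _) r) ∈ _
      rw [AlgHom.commutes]
      exact IntermediateField.algebraMap_mem _ _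
    | add y y' hy hy' ihy ihy' =>
      have := add_mem ihy ihy'
      rw [← map_add] at this
      exact this
    | inv y hy ihy =>
      have := inv_mem ihy
      rw [← map_inv₀] at this
      exact this
    | mul y y' hy hy' ihy ihy' =>
      have := mul_mem ihy ihy'
      rw [← map_mul] at this
      exact this
  refine ⟨φ.codRestrict _ hmem, fun d => ?_⟩
  show e (c (jAt d)) = _
  rw [← he d]
  exact congrArg e (Subtype.ext rfl)

/-- The Atkin–Lehner involution at `q`. -/
def atkinLehner (hq : q.Prime) (hqM : ¬ q ∣ M) :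
    modularFunctionFieldBar (M * q) →ₐ[Qb] modularFunctionFieldBar (M * q) :=
  (exists_atkinLehner hq hqM).choose

variable (hq : q.Prime) (hqM : ¬ q ∣ M)

theorem atkinLehner_jAt (d : DivIdx (M * q)) :
    (atkinLehner hq hqM (jAt d) : LaurentSeries Qb) = jSeries Qb (swapIdx q (d : ℕ)) :=
  (exists_atkinLehner hq hqM).choose_spec d

theorem atkinLehner_atkinLehner (y : modularFunctionFieldBar (M * q)) :
    atkinLehner hq hqM (atkinLehner hq hqM y) = y := by
  have h := algHom_ext_bar (N := M * q)
    (φ := (modularFunctionFieldBar (M * q)).val.comp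
      ((atkinLehner hq hqM).comp (atkinLehner hq hqM)))
    (ψ := (modularFunctionFieldBar (M * q)).val) fun d => by
      have h1 : atkinLehner hq hqM (jAt d) =
          jAt ⟨swapIdx q (d : ℕ), Nat.mem_divisors.mpr
            ⟨swapIdx_dvd M q hq d.dvd, NeZero.ne _⟩⟩ := Subtype.ext (atkinLehner_jAt hq hqM d)
      show ((atkinLehner hq hqM (atkinLehner hq hqM (jAt d)) :
        modularFunctionFieldBar (M * q)) : LaurentSeries Qb) = _
      rw [h1, atkinLehner_jAt]
      show jSeries Qb (swapIdx q (swapIdx q (d : ℕ))) = _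
      rw [swapIdx_swapIdx M q hq hqM d.dvd]
      rfl
  exact Subtype.ext (DFunLike.congr_fun h y)

theorem atkinLehner_alpha (f : modularFunctionFieldBar M) :
    atkinLehner hq hqM (heckeAlphaBar Qb M q f) = heckeBetaBar Qb M q f := by
  have h := algHom_ext_bar (N := M)
    (φ := (modularFunctionFieldBar (M * q)).val.comp
      ((atkinLehner hq hqM).comp (heckeAlphaBar Qb M q)))
    (ψ := (modularFunctionFieldBar (M * q)).val.comp (heckeBetaBar Qb M q)) fun d => by
      have hd : (d : ℕ) ∣ M * q := d.dvd.mul_right q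
      have h1 : heckeAlphaBar Qb M q (jAt d) = jAt ⟨(d : ℕ), Nat.mem_divisors.mpr
          ⟨hd, NeZero.ne _⟩⟩ := Subtype.ext (coe_heckeAlphaBar M q _)
      show ((atkinLehner hq hqM (heckeAlphaBar Qb M q (jAt d)) :
        modularFunctionFieldBar (M * q)) : LaurentSeries Qb) = _
      rw [h1, atkinLehner_jAt]
      show jSeries Qb (swapIdx q (d : ℕ)) = qExpand Qb q (jSeries Qb (d : ℕ))
      rw [swapIdx, if_neg fun h' => hqM (h'.trans d.dvd), jSeries, jSeries, ← qScale_eq q,
        qScale_qScale hq.ne_zero (NeZero.ne _), mul_comm q]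
  exact Subtype.ext (DFunLike.congr_fun h f)

theorem atkinLehner_beta (f : modularFunctionFieldBar M) :
    atkinLehner hq hqM (heckeBetaBar Qb M q f) = heckeAlphaBar Qb M q f := by
  rw [← atkinLehner_alpha hq hqM, atkinLehner_atkinLehner]

theorem atkinLehner_ringAut (σ : Qb ≃ₐ[ℚ] Qb) (y : modularFunctionFieldBar (M * q)) :
    atkinLehner hq hqM (arithmeticRingAut (modularFunctionFieldFull (M * q)) σ y) =
      arithmeticRingAut (modularFunctionFieldFull (M * q)) σ (atkinLehner hq hqM y) := by
  let F := modularFunctionFieldBar (M * q)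
  let w : F →+* F := (atkinLehner hq hqM).toRingHom
  let τ : F →+* F := (arithmeticRingAut (modularFunctionFieldFull (M * q)) σ).toRingHom
  show w (τ y) = τ (w y)
  obtain ⟨x, hx⟩ := y
  have hx' : x ∈ IntermediateField.adjoin Qb
      (Set.range fun d : DivIdx (M * q) => jSeries Qb (d : ℕ)) := by
    rw [← laurentBaseChange_full_eq_adjoin]; exact hx
  induction hx' using IntermediateField.adjoin_induction with
  | mem a ha =>
    obtain ⟨d, rfl⟩ := ha
    have hτ : τ (jAt d) = jAt d :=
      Subtype.ext (FLTAgent.Kronecker.coeffMap_jSeries Qb _ _)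
    show w (τ (jAt d)) = τ (w (jAt d))
    rw [hτ]
    refine Subtype.ext ?_
    show (atkinLehner hq hqM (jAt d) : LaurentSeries Qb) =
      coeffMap (σ : Qb →+* Qb) (atkinLehner hq hqM (jAt d) : LaurentSeries Qb)
    rw [atkinLehner_jAt, FLTAgent.Kronecker.coeffMap_jSeries]
  | algebraMap c =>
    show w (τ (algebraMap Qb F c)) = τ (w (algebraMap Qb F c))
    have hτ : ∀ r, τ (algebraMap Qb F r) = algebraMap Qb F (σ r) :=
      arithmeticRingAut_algebraMap _ σ
    have hw : ∀ r, w (algebraMap Qb F r) = algebraMap Qb F r := (atkinLehner hq hqM).commutes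
    rw [hτ, hw, hw, hτ]
  | add a b ha hb iha ihb =>
    rw [← laurentBaseChange_full_eq_adjoin] at ha hb
    rw [show (⟨a + b, hx⟩ : F) = ⟨a, ha⟩ + ⟨b, hb⟩ from rfl, map_add τ, map_add w, iha, ihb,
      map_add w, map_add τ]
  | inv a ha iha =>
    rw [← laurentBaseChange_full_eq_adjoin] at ha
    rw [show (⟨a⁻¹, hx⟩ : F) = (⟨a, ha⟩)⁻¹ from rfl, map_inv₀ τ, map_inv₀ w, iha, map_inv₀ w,
      map_inv₀ τ]
  | mul a b ha hb iha ihb =>
    rw [← laurentBaseChange_full_eq_adjoin] at ha hb
    rw [show (⟨a * b, hx⟩ : F) = ⟨a, ha⟩ * ⟨b, hb⟩ from rfl, map_mul τ, map_mul w, iha, ihb,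
      map_mul w, map_mul τ]

/-- The involution commutes with the Galois action. -/
theorem atkinLehner_galois (σ : Qb ≃ₐ[ℚ] Qb) (y : modularFunctionFieldBar (M * q)) :
    atkinLehner hq hqM (arithmeticGalois (modularFunctionFieldFull (M * q)) σ • y) =
      arithmeticGalois (modularFunctionFieldFull (M * q)) σ • atkinLehner hq hqM y :=
  atkinLehner_ringAut hq hqM σ y

end FLTAgent.BadQ
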