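import Mathlib
import Fermat.Agent.ModularCosets.Descent
import Fermat.Agent.BadQ.AtkinLehner
import Fermat.Agent.FF.PlacesBasic

/-!
# `j (d z)` is integral over `ℚ̄[j]`: it has no pole where `j` is finite

`exists_relation_descent` descends a monic relation over `ℂ[j]` between series with coefficients
in a subfield, `hasRelation_jAt` gives the relation of `j (d z)` over `ℚ̄[j]`, and
`HasRelation.ord_nonneg` turns a monic relation into the absence of poles.
-/

set_option autoImplicit false
set_option linter.style.haveILetI false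
set_option linter.unusedSectionVars false
set_option synthInstance.maxHeartbeats 400000
set_option maxHeartbeats 1000000

noncomputable section

open ModularCurve Polynomial AlgebraicCurve

namespace FLTAgent.BadQ

open FLTAgent.Kronecker (jSeries coeffMap_jSeries)
open FLTAgent.ModularCosets (DivIdx)

local notation "Qb" => AlgebraicClosure ℚ

/-- A monic algebraic relation over `L[j]`, descended from `ℂ[j]`. -/
theorem exists_relation_descent {L : Type*} [Field L] (f : L →+* ℂ) {x y : LaurentSeries L}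
    {n D : ℕ} {c : Fin D → Fin n → ℂ}
    (h : coeffMap f y ^ n =
      ∑ a : Fin D, ∑ i : Fin n,
        c a i • (coeffMap f x ^ (a : ℕ) * coeffMap f y ^ (i : ℕ))) :
    y ^ n ∈ Submodule.span L
      (Set.range fun p : Fin D × Fin n => x ^ (p.1 : ℕ) * y ^ (p.2 : ℕ)) := by
  by_contra hno
  set S := Submodule.span L
    (Set.range fun p : Fin D × Fin n => x ^ (p.1 : ℕ) * y ^ (p.2 : ℕ)) with hS
  haveI : FiniteDimensional L S := FiniteDimensional.span_of_finite L (Set.finite_range _)
  let b := Module.finBasis L S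
  have hli : LinearIndependent L
      (Fin.cons (y ^ n) (fun i => ((b i : S) : LaurentSeries L))) := by
    rw [linearIndependent_finCons]
    refine ⟨b.linearIndependent.map' S.subtype (Submodule.ker_subtype S), fun hmem => hno ?_⟩
    refine Submodule.span_le.mpr ?_ hmem
    rintro _ ⟨i, rfl⟩
    exact (b i).2
  have hC := FLTAgent.ModularCosets.linearIndependent_coeffMap f hli
  set T := Submodule.span ℂ (Set.range fun i => coeffMap f ((b i : S) : LaurentSeries L))
  have hsub : ∀ z : S, coeffMap f (z : LaurentSeries L) ∈ T := by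
    intro z
    rw [← b.sum_repr z, AddSubmonoidClass.coe_finsetSum, map_sum]
    refine sum_mem fun i _ => ?_
    rw [SetLike.val_smul, FLTAgent.ModularCosets.smul_laurent, map_mul,
      algebraMap_laurentSeries_eq_single, coeffMap_single, ← algebraMap_laurentSeries_eq_single,
      ← FLTAgent.ModularCosets.smul_laurent]
    exact Submodule.smul_mem _ _ (Submodule.subset_span ⟨i, rfl⟩)
  have hmem : coeffMap f y ^ n ∈ T := by
    rw [h]
    refine sum_mem fun a _ => sum_mem fun i _ => Submodule.smul_mem _ _ ?_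
    have := hsub ⟨x ^ (a : ℕ) * y ^ (i : ℕ), Submodule.subset_span ⟨(a, i), rfl⟩⟩
    simpa [map_mul, map_pow] using this
  rw [show (fun i => coeffMap f
      ((Fin.cons (y ^ n) (fun i => ((b i : S) : LaurentSeries L)) : Fin _ → LaurentSeries L) i)) =
      Fin.cons (coeffMap f y ^ n) (fun i => coeffMap f ((b i : S) : LaurentSeries L)) from
    funext fun i => Fin.cases (by simp) (fun j => by simp) i, linearIndependent_finCons] at hC
  exact hC.2 hmem

variable {N : ℕ} [NeZero N]

theorem jSeries_mem_span (d : DivIdx N) :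
    ∃ n D : ℕ, jSeries Qb (d : ℕ) ^ n ∈ Submodule.span Qb
      (Set.range fun p : Fin D × Fin n =>
        jSeries Qb 1 ^ (p.1 : ℕ) * jSeries Qb (d : ℕ) ^ (p.2 : ℕ)) := by
  obtain ⟨R, hm, hdeg, -, hR⟩ :=
    FLTAgent.ModularCosets.exists_monic_relation (MvPolynomial.X d : MvPolynomial (DivIdx N) ℂ)
  let f : Qb →+* ℂ := FLTAgent.Reduction.barToC
  have hy : FLTAgent.ModularCosets.baseEval N (MvPolynomial.X d) =
      coeffMap f (jSeries Qb (d : ℕ)) := by
    rw [FLTAgent.ModularCosets.baseEval, MvPolynomial.aeval_X, coeffMap_jSeries]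
    rfl
  have hx : jqModC ℂ = coeffMap f (jSeries Qb 1) := by
    rw [coeffMap_jSeries, jSeries, FLTAgent.ModularCosets.qScale_one]
  set n := R.natDegree
  set D := (Finset.range n).sup (fun i => (R.coeff i).natDegree) + 1
  refine ⟨n, D, exists_relation_descent f (c := fun a i => -((R.coeff i).coeff a)) ?_⟩
  rw [hy] at hR
  rw [eval₂_eq_sum_range, Finset.sum_range_succ, hm.coeff_natDegree, map_one, one_mul,
    add_eq_zero_iff_eq_neg'] at hR
  rw [hR, Finset.sum_comm, Finset.sum_range, ← Finset.sum_neg_distrib]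
  refine Finset.sum_congr rfl fun i _ => ?_
  have hdi : (R.coeff i).natDegree < D := Nat.lt_succ_of_le
    (Finset.le_sup (f := fun i => (R.coeff i).natDegree) (Finset.mem_range.mpr i.2))
  have he : (FLTAgent.ModularCosets.evalJ : ℂ[X] →+* LaurentSeries ℂ) (R.coeff i) =
      ∑ a : Fin D, algebraMap ℂ (LaurentSeries ℂ) ((R.coeff i).coeff a) *
        jqModC ℂ ^ (a : ℕ) := by
    show aeval (jqModC ℂ) (R.coeff i) = _
    rw [aeval_eq_sum_range' hdi, Finset.sum_range]
    exact Finset.sum_congr rfl fun a _ => Algebra.smul_def _ _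
  rw [he, hx, Finset.sum_mul, ← Finset.sum_neg_distrib]
  refine Finset.sum_congr rfl fun a _ => ?_
  rw [FLTAgent.ModularCosets.smul_laurent, map_neg, neg_mul, mul_assoc]

/-- `y` is a root of a monic polynomial over `K[x]`, written out. -/
def HasRelation (K : Type*) {F : Type*} [Field K] [Field F] [Algebra K F] (x y : F) : Prop :=
  ∃ (n D : ℕ) (c : Fin D × Fin n → K),
    y ^ n = ∑ p : Fin D × Fin n, c p • (x ^ (p.1 : ℕ) * y ^ (p.2 : ℕ))

theorem HasRelation.map {K F F' : Type*} [Field K] [Field F] [Algebra K F] [Field F']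
    [Algebra K F'] {x y : F} (h : HasRelation K x y) (φ : F →ₐ[K] F') :
    HasRelation K (φ x) (φ y) := by
  obtain ⟨n, D, c, hc⟩ := h
  exact ⟨n, D, c, by rw [← map_pow, hc]; simp⟩

/-- `j (d z)` satisfies a monic relation over `ℚ̄[j]`. -/
theorem hasRelation_jAt (d : DivIdx N) :
    HasRelation Qb (jAt (N := N) ⟨1, Nat.mem_divisors.mpr ⟨one_dvd N, NeZero.ne N⟩⟩) (jAt d) := by
  obtain ⟨n, D, hspan⟩ := jSeries_mem_span d
  obtain ⟨c, hc⟩ := (Submodule.mem_span_range_iff_exists_fun Qb).mp hspan
  refine ⟨n, D, c, Subtype.ext ?_⟩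
  rw [SubmonoidClass.coe_pow, AddSubmonoidClass.coe_finsetSum]
  refine hc.symm.trans (Finset.sum_congr rfl fun p _ => ?_)
  rw [IntermediateField.coe_smul, MulMemClass.coe_mul, SubmonoidClass.coe_pow,
    SubmonoidClass.coe_pow, FLTAgent.ModularCosets.smul_laurent]
  exact (Algebra.smul_def _ _).symm

/-- An integral element has no pole where `x` has none. -/
theorem HasRelation.ord_nonneg {K F : Type*} [Field K] [Field F] [Algebra K F] {x y : F}
    (hr : HasRelation K x y) (P : Place K F) (h : 0 ≤ P.ord x) : 0 ≤ P.ord y := by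
  obtain ⟨n, D, c, hrel⟩ := hr
  by_contra hneg
  push Not at hneg
  have hy0 : y ≠ 0 := fun h0 => by rw [h0, Place.ord_zero] at hneg; exact lt_irrefl _ hneg
  set O := P.toValuationSubring
  have hmem : ∀ z, z ≠ 0 → 0 ≤ P.ord z → z ∈ O := fun z hz hz' =>
    (FF.mem_iff_ord_nonneg P hz).mpr hz'
  have hxO : x ∈ O := by
    rcases eq_or_ne x 0 with h0 | h0
    · rw [h0]; exact zero_mem O
    · exact hmem x h0 h
  have hiO : y⁻¹ ∈ O := (O.mem_or_inv_mem y).resolve_left fun hyO => by
    have := (FF.mem_iff_ord_nonneg P hy0).mp hyO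
    omega
  have hn : n ≠ 0 := by
    rintro rfl
    simp at hrel
  -- divide the relation by `y ^ (n - 1)`
  have hyO : y ∈ O := by
    have he : y = ∑ p : Fin D × Fin n, c p • (x ^ (p.1 : ℕ) * y⁻¹ ^ (n - 1 - (p.2 : ℕ))) := by
      have h1 : y = y ^ n * y⁻¹ ^ (n - 1) := by
        rw [inv_pow]
        conv_rhs => rw [show n = (n - 1) + 1 by omega, pow_succ']
        rw [Nat.add_sub_cancel, mul_assoc, mul_inv_cancel₀ (pow_ne_zero _ hy0), mul_one]
      conv_lhs => rw [h1, hrel, Finset.sum_mul]
      refine Finset.sum_congr rfl fun p _ => ?_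
      have hp := p.2.isLt
      rw [smul_mul_assoc, mul_assoc]
      congr 2
      rw [show n - 1 = (p.2 : ℕ) + (n - 1 - (p.2 : ℕ)) by omega, pow_add, ← mul_assoc,
        ← mul_pow, mul_inv_cancel₀ hy0, one_pow, one_mul, Nat.add_sub_cancel_left]
    rw [he]
    refine sum_mem fun p _ => ?_
    rw [Algebra.smul_def]
    refine mul_mem ?_ (mul_mem (pow_mem hxO _) (pow_mem hiO _))
    exact P.algebraMap_mem' _
  have := (FF.mem_iff_ord_nonneg P hy0).mp hyO
  omega

end FLTAgent.BadQ
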