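import Mathlib
import Fermat.Agent.GalCommon.Basic

/-!
# Valuation subrings of `ℚ̄` over a prime have rank one

`rank_one_valuation`: for a valuation subring over `q`, every nonzero element divides a power of
any non-unit. Both are compared with powers of `q` (`exists_pow_div_natCast_mem`,
`exists_natCast_pow_div_mem`).
-/

set_option autoImplicit false

noncomputable section

open Polynomial

namespace FLTAgent.BadQ

local notation "Qb" => AlgebraicClosure ℚ

variable {A : ValuationSubring Qb} {q : ℕ}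

theorem exists_unit_pow_add (hq : q.Prime) (hA : A.LiesOverPrime q) {a : A}
    (ha : (a : Qb) ∈ A.nonunits) :
    ∀ (n : ℕ) (P : ℤ[X]), P.natDegree ≤ n → ¬ C (q : ℤ) ∣ P →
      ∃ (m : ℕ) (u v : A), IsUnit u ∧ aeval a P = a ^ m * u + (q : A) * v := by
  intro n
  induction n with
  | zero =>
    intro P hP hd
    rw [eq_C_of_natDegree_le_zero hP] at hd ⊢
    refine ⟨0, (P.coeff 0 : A), 0, ?_, by simp⟩
    have h : ¬ (q : ℤ) ∣ P.coeff 0 := fun h => hd (map_dvd C h)
    rw [← IsLocalRing.residue_ne_zero_iff_isUnit]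
    intro h0
    exact h ((GalCommon.intCast_mem_nonunits_iff hq hA _).mp (by
      have := (GalCommon.coe_mem_nonunits_iff_residue A).mpr h0
      simpa using this))
  | succ n ih =>
    intro P hP hd
    have hsplit : aeval a P = a * aeval a P.divX + (P.coeff 0 : A) := by
      conv_lhs => rw [← X_mul_divX_add P]
      simp
    by_cases hc : (q : ℤ) ∣ P.coeff 0
    · have hd' : ¬ C (q : ℤ) ∣ P.divX := fun h => hd (by
        rw [← X_mul_divX_add P]
        exact dvd_add (h.mul_left X) (map_dvd C hc))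
      obtain ⟨m, u, v, hu, huv⟩ := ih P.divX (by
        rw [natDegree_divX_eq_natDegree_tsub_one]; omega) hd'
      obtain ⟨c, hc'⟩ := hc
      refine ⟨m + 1, u, a * v + (c : A), hu, ?_⟩
      rw [hsplit, huv, hc']
      push_cast
      ring
    · refine ⟨0, aeval a P, 0, ?_, by ring⟩
      rw [← IsLocalRing.residue_ne_zero_iff_isUnit, hsplit, map_add, map_mul,
        (GalCommon.coe_mem_nonunits_iff_residue A).mp ha, zero_mul, zero_add]
      intro h0
      exact hc ((GalCommon.intCast_mem_nonunits_iff hq hA _).mp (by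
        have := (GalCommon.coe_mem_nonunits_iff_residue A).mpr h0
        simpa using this))

theorem exists_pow_div_natCast_mem (hq : q.Prime) (hA : A.LiesOverPrime q) {a : Qb}
    (ha : a ∈ A.nonunits) : ∃ m : ℕ, a ^ m / (q : Qb) ∈ A := by
  have haA : a ∈ A := A.nonunits_subset ha
  obtain ⟨P, hPp, hP⟩ := GalCommon.exists_isPrimitive_aeval_eq_zero a
  have hd : ¬ C (q : ℤ) ∣ P := fun h =>
    GalCommon.natCast_dvd_coeff_false hq hPp ((C_dvd_iff_dvd_coeff _ _).mp h)
  obtain ⟨m, u, v, hu, huv⟩ :=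
    exists_unit_pow_add hq hA (a := ⟨a, haA⟩) ha P.natDegree P le_rfl hd
  have h0 : aeval (⟨a, haA⟩ : A) P = 0 := by
    apply Subtype.val_injective
    show A.subtype (aeval (⟨a, haA⟩ : A) P) = 0
    rw [← hP, aeval_def, aeval_def, hom_eval₂]
    exact eval₂_congr (RingHom.ext_int _ _) rfl rfl
  rw [huv] at h0
  obtain ⟨w, rfl⟩ := hu
  refine ⟨m, ?_⟩
  have h1 : (⟨a, haA⟩ : A) ^ m = (q : A) * (-v * ↑w⁻¹) := by
    have h2 : (⟨a, haA⟩ : A) ^ m * w = -((q : A) * v) := eq_neg_of_add_eq_zero_left h0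
    rw [← mul_one ((⟨a, haA⟩ : A) ^ m), ← Units.mul_inv w, ← mul_assoc, h2]
    ring
  have h3 : a ^ m = (q : Qb) * ((-v * ↑w⁻¹ : A) : Qb) := by
    simpa using congrArg Subtype.val h1
  rw [h3, mul_div_cancel_left₀ _ (Nat.cast_ne_zero.mpr hq.ne_zero)]
  exact SetLike.coe_mem _

theorem exists_natCast_pow_div_mem (hq : q.Prime) (hA : A.LiesOverPrime q) {c : Qb}
    (hc : c ∈ A) (hc0 : c ≠ 0) : ∃ r : ℕ, (q : Qb) ^ r / c ∈ A := by
  obtain ⟨P, hPp, hP⟩ := GalCommon.exists_isPrimitive_aeval_eq_zero c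
  have key : ∀ (n : ℕ) (P : ℤ[X]), P.natDegree ≤ n → P ≠ 0 → aeval c P = 0 →
      ∃ b : ℤ, b ≠ 0 ∧ (b : Qb) / c ∈ A := by
    intro n
    induction n with
    | zero =>
      intro P hPn h0 hP0
      rw [eq_C_of_natDegree_le_zero hPn] at h0 hP0
      simp at hP0
      exact absurd (by simp [hP0]) h0
    | succ n ih =>
      intro P hPn h0 hP0
      have hsplit : c * aeval c P.divX + (P.coeff 0 : Qb) = 0 := by
        rw [← hP0]
        conv_rhs => rw [← X_mul_divX_add P]
        simp
      rcases eq_or_ne (P.coeff 0) 0 with hb | hb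
      · rw [hb, Int.cast_zero, add_zero, mul_eq_zero] at hsplit
        refine ih P.divX (by rw [natDegree_divX_eq_natDegree_tsub_one]; omega) ?_
          (hsplit.resolve_left hc0)
        intro h
        apply h0
        rw [← X_mul_divX_add P, h, mul_zero, zero_add, hb, map_zero]
      · refine ⟨P.coeff 0, hb, ?_⟩
        rw [show (P.coeff 0 : Qb) = c * -aeval c P.divX by linear_combination hsplit,
          mul_div_cancel_left₀ _ hc0]
        refine neg_mem ?_
        let c' : A := ⟨c, hc⟩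
        have : aeval c P.divX = ((aeval c' P.divX : A) : Qb) := by
          show _ = A.subtype (aeval c' P.divX)
          rw [aeval_def, aeval_def, hom_eval₂]
          exact eval₂_congr (RingHom.ext_int _ _) rfl rfl
        rw [this]
        exact SetLike.coe_mem _
  obtain ⟨b, hb, hbc⟩ := key P.natDegree P le_rfl hPp.ne_zero hP
  obtain ⟨r, t, hrt, hbe⟩ : ∃ (r : ℕ) (t : ℤ), ¬ (q : ℤ) ∣ t ∧ b = (q : ℤ) ^ r * t := by
    obtain ⟨r, t, ht, he⟩ := WfDvdMonoid.max_power_factor hb
      (Nat.prime_iff_prime_int.mp hq).irreducible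
    exact ⟨r, t, ht, he⟩
  refine ⟨r, ?_⟩
  have htu : IsUnit (t : A) := by
    rw [← IsLocalRing.residue_ne_zero_iff_isUnit]
    intro h0
    exact hrt ((GalCommon.intCast_mem_nonunits_iff hq hA _).mp (by
      have := (GalCommon.coe_mem_nonunits_iff_residue A).mpr h0
      simpa using this))
  obtain ⟨w, hw⟩ := htu
  have hwK : (t : Qb) * ((↑w⁻¹ : A) : Qb) = 1 := by
    have := congrArg Subtype.val (Units.mul_inv w)
    rw [hw] at this
    simpa using this
  have : (q : Qb) ^ r / c = (b : Qb) / c * ((↑w⁻¹ : A) : Qb) := by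
    rw [hbe]
    push_cast
    rw [div_mul_eq_mul_div, mul_assoc, hwK, mul_one]
  rw [this]
  exact mul_mem hbc (SetLike.coe_mem _)

/-- **Rank one**: every nonzero element divides a power of any non-unit. -/
theorem rank_one_valuation (hq : q.Prime) (hA : A.LiesOverPrime q) (a c : Qb)
    (ha : a ∈ A.nonunits) (hc : c ≠ 0) : ∃ M : ℕ, a ^ M / c ∈ A := by
  by_cases hcA : c ∈ A
  · obtain ⟨m, hm⟩ := exists_pow_div_natCast_mem hq hA ha
    obtain ⟨r, hr⟩ := exists_natCast_pow_div_mem hq hA hcA hc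
    refine ⟨m * r, ?_⟩
    have hq0 : (q : Qb) ≠ 0 := Nat.cast_ne_zero.mpr hq.ne_zero
    rw [show a ^ (m * r) / c = (a ^ m / (q : Qb)) ^ r * ((q : Qb) ^ r / c) by
      rw [pow_mul, div_pow, div_mul_div_cancel₀ (pow_ne_zero _ hq0)]]
    exact mul_mem (pow_mem hm r) hr
  · refine ⟨0, ?_⟩
    rw [pow_zero, one_div]
    exact (A.mem_or_inv_mem c).resolve_left hcA

end FLTAgent.BadQ
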