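import Mathlib
import Fermat.Prelude.Def_ModularCurve_LaurentCoeff
import Fermat.Prelude.Def_ModularCurve_X0
import Fermat.Prelude.Thm_ModularCurve_coeffMap_qExpand

/-!
# The coefficientwise Gauss reduction over an arbitrary valuation subring

`gV` is the ring of quotients `u / v` of series with coefficients in `A`, `v` primitive, and
`gval` its reduction.  Combinations over `K` of series with integer coefficients can be scaled to
have nonzero reduction.
-/

set_option autoImplicit false
set_option linter.unusedSectionVars false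

noncomputable section

open HahnSeries ModularCurve

namespace FLTAgent.BadQ

variable {K k : Type*} [Field K] [Field k] (A : ValuationSubring K) (π : A →+* k)

/-- coefficientwise inclusion -/
def incl : LaurentSeries A →+* LaurentSeries K := coeffMap A.subtype

/-- coefficientwise reduction -/
def redSer : LaurentSeries A →+* LaurentSeries k := coeffMap π

theorem incl_injective : Function.Injective (incl A) := by
  intro x y h
  ext i
  have := congrArg (fun z : LaurentSeries K => z.coeff i) h
  simpa [incl] using this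

theorem incl_C (a : A) : incl A (HahnSeries.C a) = HahnSeries.C (a : K) :=
  coeffMap_single A.subtype 0 a

theorem redSer_C (a : A) : redSer A π (HahnSeries.C a) = HahnSeries.C (π a) :=
  coeffMap_single π 0 a

/-- Fractions `u / v` of integral series with `v` primitive. -/
def gV : Subring (LaurentSeries K) where
  carrier := {x | ∃ u v, redSer A π v ≠ 0 ∧ x * incl A v = incl A u}
  mul_mem' := by
    rintro x y ⟨u, v, hv, hx⟩ ⟨u', v', hv', hy⟩
    refine ⟨u * u', v * v', by rw [map_mul]; exact mul_ne_zero hv hv', ?_⟩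
    rw [map_mul, map_mul, ← hx, ← hy]; ring
  one_mem' := ⟨1, 1, by simp, by simp⟩
  add_mem' := by
    rintro x y ⟨u, v, hv, hx⟩ ⟨u', v', hv', hy⟩
    refine ⟨u * v' + u' * v, v * v', by rw [map_mul]; exact mul_ne_zero hv hv', ?_⟩
    rw [map_add, map_mul, map_mul, map_mul, ← hx, ← hy]; ring
  zero_mem' := ⟨0, 1, by simp, by simp⟩
  neg_mem' := by
    rintro x ⟨u, v, hv, hx⟩
    exact ⟨-u, v, hv, by rw [map_neg, neg_mul, hx]⟩

theorem mem_gV {x : LaurentSeries K} :
    x ∈ gV A π ↔ ∃ u v, redSer A π v ≠ 0 ∧ x * incl A v = incl A u := Iff.rfl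

open Classical in
/-- The reduction, zero outside `gV`. -/
def gval (x : LaurentSeries K) : LaurentSeries k :=
  if h : x ∈ gV A π then redSer A π h.choose / redSer A π h.choose_spec.choose else 0

theorem gval_eq {x : LaurentSeries K} {u v : LaurentSeries A} (hv : redSer A π v ≠ 0)
    (h : x * incl A v = incl A u) : gval A π x = redSer A π u / redSer A π v := by
  have hx : x ∈ gV A π := ⟨u, v, hv, h⟩
  obtain ⟨hv', h'⟩ := hx.choose_spec.choose_spec
  rw [gval, dif_pos hx, div_eq_div_iff hv' hv, ← map_mul, ← map_mul]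
  refine congrArg _ (incl_injective A ?_)
  rw [map_mul, map_mul]
  linear_combination incl A hx.choose_spec.choose * h - incl A v * h'

theorem gval_incl (u : LaurentSeries A) :
    incl A u ∈ gV A π ∧ gval A π (incl A u) = redSer A π u := by
  have h : incl A u * incl A 1 = incl A u := by simp
  exact ⟨⟨u, 1, by simp, h⟩, by rw [gval_eq A π (by simp) h, map_one, div_one]⟩

theorem gval_zero : gval A π 0 = 0 := by
  have := (gval_incl A π 0).2
  rwa [map_zero, map_zero] at this

theorem gval_one : gval A π 1 = 1 := by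
  have := (gval_incl A π 1).2
  rwa [map_one, map_one] at this

theorem gval_add {x y : LaurentSeries K} (hx : x ∈ gV A π) (hy : y ∈ gV A π) :
    gval A π (x + y) = gval A π x + gval A π y := by
  obtain ⟨u, v, hv, h⟩ := hx
  obtain ⟨u', v', hv', h'⟩ := hy
  rw [gval_eq A π hv h, gval_eq A π hv' h',
    gval_eq A π (u := u * v' + v * u') (v := v * v') (by rw [map_mul]; exact mul_ne_zero hv hv') (by
      rw [map_add, map_mul, map_mul, map_mul, ← h, ← h']; ring),
    div_add_div _ _ hv hv', map_add, map_mul, map_mul, map_mul]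

theorem gval_mul {x y : LaurentSeries K} (hx : x ∈ gV A π) (hy : y ∈ gV A π) :
    gval A π (x * y) = gval A π x * gval A π y := by
  obtain ⟨u, v, hv, h⟩ := hx
  obtain ⟨u', v', hv', h'⟩ := hy
  rw [gval_eq A π hv h, gval_eq A π hv' h',
    gval_eq A π (u := u * u') (v := v * v') (by rw [map_mul]; exact mul_ne_zero hv hv') (by
      rw [map_mul, map_mul, ← h, ← h']; ring),
    div_mul_div_comm, map_mul, map_mul]

theorem gval_C (a : A) : HahnSeries.C (a : K) ∈ gV A π ∧
    gval A π (HahnSeries.C (a : K)) = HahnSeries.C (π a) := by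
  rw [← incl_C, ← redSer_C]
  exact gval_incl A π _

theorem inv_mem_gV {x : LaurentSeries K} (hx : x ∈ gV A π) (h : gval A π x ≠ 0) :
    x⁻¹ ∈ gV A π ∧ gval A π x⁻¹ = (gval A π x)⁻¹ := by
  obtain ⟨u, v, hv, hxu⟩ := hx
  rw [gval_eq A π hv hxu] at h ⊢
  have hu : redSer A π u ≠ 0 := fun h0 => h (by rw [h0, zero_div])
  have hx0 : x ≠ 0 := by
    rintro rfl
    rw [zero_mul] at hxu
    exact hu (by rw [(map_eq_zero_iff (incl A) (incl_injective A)).mp hxu.symm, map_zero])
  have h' : x⁻¹ * incl A u = incl A v := by rw [← hxu, inv_mul_cancel_left₀ hx0]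
  exact ⟨⟨v, u, hu, h'⟩, by rw [gval_eq A π hu h', inv_div]⟩

theorem mem_of_C_mem_gV {c : K} (hπ : Function.Surjective π) (h : HahnSeries.C c ∈ gV A π) :
    c ∈ A := by
  by_contra hc
  have hinv : c⁻¹ ∈ A := (A.mem_or_inv_mem c).resolve_left hc
  have hc0 : c ≠ 0 := fun h0 => hc (h0 ▸ A.zero_mem)
  have h1 := gval_mul A π h (gval_C A π ⟨c⁻¹, hinv⟩).1
  rw [← map_mul, show c * ((⟨c⁻¹, hinv⟩ : A) : K) = 1 from mul_inv_cancel₀ hc0, map_one,
    gval_one, (gval_C A π ⟨c⁻¹, hinv⟩).2] at h1
  have hker : π ⟨c⁻¹, hinv⟩ = 0 := by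
    have hmax := IsLocalRing.eq_maximalIdeal (RingHom.ker_isMaximal_of_surjective π hπ)
    rw [← RingHom.mem_ker, hmax, IsLocalRing.mem_maximalIdeal, mem_nonunits_iff]
    intro hu
    obtain ⟨w, hw⟩ := hu.exists_right_inv
    have h2 : c⁻¹ * (w : K) = 1 := congrArg Subtype.val hw
    rw [inv_mul_eq_iff_eq_mul₀ hc0, mul_one] at h2
    exact hc (h2 ▸ w.2)
  rw [hker, map_zero, mul_zero] at h1
  exact one_ne_zero h1

/-- A constant times a series with coefficients in `A` and nonzero reduction. -/
def Prim (x : LaurentSeries K) : Prop :=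
  ∃ d : K, d ≠ 0 ∧ ∃ u, redSer A π u ≠ 0 ∧ x = HahnSeries.C d * incl A u

/-- A constant times an element with nonzero reduction. -/
def Scalable (x : LaurentSeries K) : Prop :=
  ∃ d : K, d ≠ 0 ∧ ∃ y ∈ gV A π, gval A π y ≠ 0 ∧ x = HahnSeries.C d * y

theorem Prim.scalable {x : LaurentSeries K} (h : Prim A π x) : Scalable A π x := by
  obtain ⟨d, hd, u, hu, rfl⟩ := h
  exact ⟨d, hd, _, (gval_incl A π u).1, (gval_incl A π u).2.symm ▸ hu, rfl⟩

theorem Scalable.div {x y : LaurentSeries K} (hx : Scalable A π x) (hy : Scalable A π y) :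
    Scalable A π (x / y) := by
  obtain ⟨d, hd, u, hu, hu0, rfl⟩ := hx
  obtain ⟨e, he, v, hv, hv0, rfl⟩ := hy
  obtain ⟨hvi, hvr⟩ := inv_mem_gV A π hv hv0
  refine ⟨d / e, div_ne_zero hd he, u * v⁻¹, mul_mem hu hvi, ?_, ?_⟩
  · rw [gval_mul A π hu hvi, hvr]
    exact mul_ne_zero hu0 (inv_ne_zero hv0)
  · rw [map_div₀ HahnSeries.C, ← div_eq_mul_inv, div_mul_div_comm]

theorem Scalable.mem_or_inv_mem {x : LaurentSeries K} (hπ : Function.Surjective π)
    (hx : Scalable A π x) : x ∈ gV A π ∨ (x⁻¹ ∈ gV A π ∧ gval A π x⁻¹ = 0) := by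
  obtain ⟨d, hd, y, hy, hy0, rfl⟩ := hx
  by_cases hA : d ∈ A
  · exact Or.inl (mul_mem (gval_C A π ⟨d, hA⟩).1 hy)
  · have hinv : d⁻¹ ∈ A := (A.mem_or_inv_mem d).resolve_left hA
    obtain ⟨hyi, hyr⟩ := inv_mem_gV A π hy hy0
    have hker : π ⟨d⁻¹, hinv⟩ = 0 := by
      have hmax := IsLocalRing.eq_maximalIdeal (RingHom.ker_isMaximal_of_surjective π hπ)
      rw [← RingHom.mem_ker, hmax, IsLocalRing.mem_maximalIdeal, mem_nonunits_iff]
      intro hu
      obtain ⟨w, hw⟩ := hu.exists_right_inv
      have h2 : d⁻¹ * (w : K) = 1 := congrArg Subtype.val hw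
      rw [inv_mul_eq_iff_eq_mul₀ hd, mul_one] at h2
      exact hA (h2 ▸ w.2)
    refine Or.inr ?_
    rw [mul_inv, ← map_inv₀ HahnSeries.C]
    refine ⟨mul_mem (gval_C A π ⟨d⁻¹, hinv⟩).1 hyi, ?_⟩
    rw [gval_mul A π (gval_C A π ⟨d⁻¹, hinv⟩).1 hyi, (gval_C A π ⟨d⁻¹, hinv⟩).2, hker, map_zero,
      zero_mul]

theorem Scalable.exists_smul {x : LaurentSeries K} (hx : Scalable A π x) :
    ∃ c : K, c ≠ 0 ∧ HahnSeries.C c * x ∈ gV A π ∧ gval A π (HahnSeries.C c * x) ≠ 0 := by
  obtain ⟨d, hd, y, hy, hy0, rfl⟩ := hx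
  refine ⟨d⁻¹, inv_ne_zero hd, ?_⟩
  rw [← mul_assoc, ← map_mul, inv_mul_cancel₀ hd, map_one, one_mul]
  exact ⟨hy, hy0⟩

/-! ### Integer series -/

/-- a series with integer coefficients, read in `R` -/
abbrev intSer (R : Type*) [CommRing R] : LaurentSeries ℤ →+* LaurentSeries R :=
  coeffMap (Int.castRingHom R)

theorem incl_intSer (f : LaurentSeries ℤ) : incl A (intSer A f) = intSer K f := by
  ext i; simp [incl]

theorem redSer_intSer (f : LaurentSeries ℤ) : redSer A π (intSer A f) = intSer k f := by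
  ext i; simp [redSer]

theorem gval_intSer (f : LaurentSeries ℤ) :
    intSer K f ∈ gV A π ∧ gval A π (intSer K f) = intSer k f := by
  rw [← incl_intSer A, ← redSer_intSer A π]
  exact gval_incl A π _

theorem exists_primitive_intSer {q : ℕ} (hq : 2 ≤ q) {f : LaurentSeries ℤ} (hf : f ≠ 0) :
    ∃ (r : ℕ) (g : LaurentSeries ℤ) (s : ℤ),
      f = HahnSeries.C ((q : ℤ) ^ r) * g ∧ ¬ (q : ℤ) ∣ g.coeff s := by
  classical
  obtain ⟨i, hi⟩ : ∃ i, f.coeff i ≠ 0 := by
    by_contra h
    push Not at h
    exact hf (HahnSeries.ext (funext h))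
  have hex : ∃ r : ℕ, ∃ j, ¬ (q : ℤ) ^ (r + 1) ∣ f.coeff j := by
    refine ⟨(f.coeff i).natAbs, i, fun h => ?_⟩
    have h1 := Int.natAbs_dvd_natAbs.mpr h
    rw [Int.natAbs_pow, Int.natAbs_natCast] at h1
    have h2 := Nat.le_of_dvd (Int.natAbs_pos.mpr hi) h1
    have h3 := Nat.lt_pow_self (n := (f.coeff i).natAbs + 1) (a := q) hq
    omega
  obtain ⟨s, hs⟩ := Nat.find_spec hex
  have hall : ∀ j, (q : ℤ) ^ Nat.find hex ∣ f.coeff j := by
    intro j
    rcases Nat.eq_zero_or_eq_succ_pred (Nat.find hex) with h | h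
    · rw [h, pow_zero]; exact one_dvd _
    · have h' := Nat.find_min hex (m := (Nat.find hex).pred) (by omega)
      push Not at h'
      rw [h]
      exact h' j
  choose g hg using hall
  let G : LaurentSeries ℤ :=
    { coeff := g
      isPWO_support' := f.isPWO_support'.mono fun j hj => by
        simp only [Function.mem_support, ne_eq] at hj ⊢
        rw [hg j]
        exact mul_ne_zero (pow_ne_zero _ (by omega)) hj }
  refine ⟨Nat.find hex, G, s, ?_, fun h => hs ?_⟩
  · ext j
    rw [HahnSeries.C_apply, HahnSeries.coeff_single_mul, sub_zero]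
    exact hg j
  · rw [hg s, pow_succ]
    exact mul_dvd_mul_left _ h

theorem prim_sum {q : ℕ} [CharP k q] [CharZero K] (hq : 2 ≤ q) :
    ∀ (n : ℕ) (f : Fin n → LaurentSeries ℤ) (c : Fin n → K),
      (∑ i, HahnSeries.C (c i) * intSer K (f i)) ≠ 0 →
        Prim A π (∑ i, HahnSeries.C (c i) * intSer K (f i)) := by
  intro n
  induction n with
  | zero => intro f c h; simp at h
  | succ n ih =>
    intro f c hx
    rw [Fin.sum_univ_succ] at hx ⊢
    rcases eq_or_ne (f 0) 0 with h0 | h0
    · rw [h0, map_zero, mul_zero, zero_add] at hx ⊢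
      exact ih _ _ hx
    obtain ⟨r, g, s, hf0, hs⟩ := exists_primitive_intSer hq h0
    set m : ℤ := g.coeff s with hm
    have hmK : (m : K) ≠ 0 := by
      simpa using fun h : m = 0 => hs (h ▸ dvd_zero _)
    have hmk : (m : k) ≠ 0 := fun h => hs ((CharP.intCast_eq_zero_iff k q m).mp h)
    let f' : Fin n → LaurentSeries ℤ := fun i =>
      HahnSeries.C m * f i.succ - HahnSeries.C ((f i.succ).coeff s) * g
    let c' : Fin n → K := fun i => c i.succ / m
    set y := ∑ i, HahnSeries.C (c' i) * intSer K (f' i) with hy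
    set a : K := c 0 * (q : K) ^ r + ∑ i, c' i * ((f i.succ).coeff s : K) with ha
    have hC : ∀ z : ℤ, intSer K (HahnSeries.C z) = HahnSeries.C (z : K) := fun z =>
      coeffMap_single (Int.castRingHom K) 0 z
    have hterm : ∀ i : Fin n, HahnSeries.C (c i.succ) * intSer K (f i.succ) =
        HahnSeries.C (c' i) * intSer K (f' i) +
          HahnSeries.C (c' i * ((f i.succ).coeff s : K)) * intSer K g := by
      intro i
      simp only [f', map_sub, map_mul, hC]
      rw [show c i.succ = c' i * (m : K) from (div_mul_cancel₀ _ hmK).symm, map_mul]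
      ring
    have hxe : HahnSeries.C (c 0) * intSer K (f 0) +
        ∑ i : Fin n, HahnSeries.C (c i.succ) * intSer K (f i.succ) =
          HahnSeries.C a * intSer K g + y := by
      rw [Finset.sum_congr rfl fun i _ => hterm i, Finset.sum_add_distrib, ← hy, ← Finset.sum_mul,
        ← map_sum, ha, map_add, map_mul, add_mul, hf0, map_mul, hC]
      push_cast
      rw [mul_assoc]
      abel
    rw [hxe] at hx ⊢
    have hys : y.coeff s = 0 := by
      rw [hy, HahnSeries.coeff_sum]
      refine Finset.sum_eq_zero fun i _ => ?_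
      simp only [f', HahnSeries.C_apply, map_sub, map_mul, coeffMap_single,
        HahnSeries.coeff_single_mul, sub_zero, HahnSeries.coeff_sub, coeffMap_coeff]
      simp [hm, mul_comm]
    have hgs : ∀ z : K, (HahnSeries.C z * intSer K g).coeff s = z * m := fun z => by
      rw [HahnSeries.C_apply, HahnSeries.coeff_single_mul, sub_zero]
      rfl
    have hgk : (intSer k g).coeff s = (m : k) := rfl
    rcases eq_or_ne y 0 with hy0 | hy0
    · rw [hy0, add_zero] at hx ⊢
      refine ⟨a, fun h => hx (by rw [h, map_zero, zero_mul]), intSer A g, ?_,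
        by rw [incl_intSer]⟩
      rw [redSer_intSer]
      exact fun h => hmk (by rw [← hgk, h, HahnSeries.coeff_zero])
    obtain ⟨d, hd, u, hu, hyu⟩ := ih f' c' hy0
    rw [← hy] at hyu
    have hus : u.coeff s = 0 := by
      have h := hys
      rw [hyu, HahnSeries.C_apply, HahnSeries.coeff_single_mul, sub_zero, mul_eq_zero] at h
      exact Subtype.ext (h.resolve_left hd)
    rcases A.mem_or_inv_mem (a / d) with hA | hA
    · refine ⟨d, hd, HahnSeries.C ⟨a / d, hA⟩ * intSer A g + u, fun h => ?_, ?_⟩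
      · rw [map_add, map_mul, redSer_C, redSer_intSer] at h
        have h1 := congrArg (fun z : LaurentSeries k => z.coeff s) h
        simp only [HahnSeries.coeff_add, HahnSeries.C_apply, HahnSeries.coeff_single_mul, sub_zero,
          hgk, HahnSeries.coeff_zero] at h1
        rw [show (redSer A π u).coeff s = π (u.coeff s) from rfl, hus, map_zero, add_zero,
          mul_eq_zero, or_iff_left hmk] at h1
        rw [h1, map_zero, zero_mul, zero_add] at h
        exact hu h
      · have e : incl A (HahnSeries.C ⟨a / d, hA⟩ * intSer A g + u) =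
            HahnSeries.C (a / d) * intSer K g + incl A u := by
          rw [map_add (incl A), map_mul (incl A), incl_C, incl_intSer]
        rw [e, mul_add, ← mul_assoc, ← map_mul HahnSeries.C, ← hyu, mul_div_cancel₀ _ hd]
    · rw [inv_div] at hA
      rcases eq_or_ne a 0 with ha0 | ha0
      · exact ⟨d, hd, u, hu, by rw [ha0, map_zero, zero_mul, zero_add, hyu]⟩
      refine ⟨a, ha0, intSer A g + HahnSeries.C ⟨d / a, hA⟩ * u, fun h => ?_, ?_⟩
      · rw [map_add, map_mul, redSer_C, redSer_intSer] at h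
        have h1 := congrArg (fun z : LaurentSeries k => z.coeff s) h
        simp only [HahnSeries.coeff_add, HahnSeries.C_apply, HahnSeries.coeff_single_mul, sub_zero,
          hgk, HahnSeries.coeff_zero] at h1
        rw [show (redSer A π u).coeff s = π (u.coeff s) from rfl, hus, map_zero, mul_zero,
          add_zero] at h1
        exact hmk h1
      · have e : incl A (intSer A g + HahnSeries.C ⟨d / a, hA⟩ * u) =
            intSer K g + HahnSeries.C (d / a) * incl A u := by
          rw [map_add (incl A), map_mul (incl A), incl_C, incl_intSer]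
        rw [e, mul_add, ← mul_assoc, ← map_mul HahnSeries.C, hyu, mul_div_cancel₀ _ ha0]

/-- Elements of a field generated by integer series are scalable. -/
theorem scalable_of_mem_adjoin {q : ℕ} [CharP k q] [CharZero K] (hq : 2 ≤ q)
    {S : Set (LaurentSeries K)} (hS : S ⊆ Set.range (intSer K)) {x : LaurentSeries K}
    (hx : x ∈ IntermediateField.adjoin K S) (h0 : x ≠ 0) : Scalable A π x := by
  have key : ∀ z ∈ Algebra.adjoin K S, z ≠ 0 → Prim A π z := by
    intro z hz hz0
    obtain ⟨n, f, c, rfl⟩ : ∃ (n : ℕ) (f : Fin n → LaurentSeries ℤ) (c : Fin n → K),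
        z = ∑ i, HahnSeries.C (c i) * intSer K (f i) := by
      induction hz using Algebra.adjoin_induction with
      | mem y hy =>
        obtain ⟨f, rfl⟩ := hS hy
        exact ⟨1, fun _ => f, fun _ => 1, by simp⟩
      | algebraMap r =>
        exact ⟨1, fun _ => 1, fun _ => r, by
          simp [algebraMap_laurentSeries_eq_single, HahnSeries.C_apply]⟩
      | add y y' _ _ hy hy' =>
        rcases eq_or_ne y 0 with rfl | hy0
        · rw [zero_add] at hz0 ⊢
          exact hy' hz0
        rcases eq_or_ne y' 0 with rfl | hy0'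
        · rw [add_zero] at hz0 ⊢
          exact hy hz0
        obtain ⟨n, f, c, rfl⟩ := hy hy0
        obtain ⟨n', f', c', rfl⟩ := hy' hy0'
        exact ⟨n + n', Fin.append f f', Fin.append c c', by simp [Fin.sum_univ_add]⟩
      | mul y y' _ _ hy hy' =>
        obtain ⟨hy0, hy0'⟩ := mul_ne_zero_iff.mp hz0
        obtain ⟨n, f, c, rfl⟩ := hy hy0
        obtain ⟨n', f', c', rfl⟩ := hy' hy0'
        refine ⟨n * n', fun i => f (finProdFinEquiv.symm i).1 * f' (finProdFinEquiv.symm i).2,
          fun i => c (finProdFinEquiv.symm i).1 * c' (finProdFinEquiv.symm i).2, ?_⟩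
        rw [← finProdFinEquiv.sum_comp, Fintype.sum_prod_type, Finset.sum_mul_sum]
        simp only [Equiv.symm_apply_apply, map_mul, mul_mul_mul_comm]
    exact prim_sum A π hq n f c hz0
  obtain ⟨a, ha, b, hb, rfl⟩ := IntermediateField.mem_adjoin_iff_div.mp hx
  have ha0 : a ≠ 0 := fun h => h0 (by rw [h, zero_div])
  have hb0 : b ≠ 0 := fun h => h0 (by rw [h, div_zero])
  exact (key a ha ha0).scalable.div A π (key b hb hb0).scalable

/-! ### Functoriality -/

theorem gval_coeffMap (τ : K →+* K) (τA : A →+* A) (τk : k →+* k)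
    (hA : ∀ a, ((τA a : A) : K) = τ a) (hk : ∀ a, π (τA a) = τk (π a)) {x : LaurentSeries K}
    (hx : x ∈ gV A π) :
    coeffMap τ x ∈ gV A π ∧ gval A π (coeffMap τ x) = coeffMap τk (gval A π x) := by
  obtain ⟨u, v, hv, h⟩ := hx
  have hi : ∀ w, incl A (coeffMap τA w) = coeffMap τ (incl A w) := fun w => by
    ext i; simp [incl, hA]
  have hr : ∀ w, redSer A π (coeffMap τA w) = coeffMap τk (redSer A π w) := fun w => by
    ext i; simp [redSer, hk]
  have hv' : redSer A π (coeffMap τA v) ≠ 0 := by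
    rw [hr]; exact (map_ne_zero_iff _ (coeffMap τk).injective).mpr hv
  have h' : coeffMap τ x * incl A (coeffMap τA v) = incl A (coeffMap τA u) := by
    rw [hi, hi, ← map_mul, h]
  exact ⟨⟨_, _, hv', h'⟩, by rw [gval_eq A π hv' h', gval_eq A π hv h, map_div₀, hr, hr]⟩

theorem gval_qExpand (n : ℕ) [NeZero n] {x : LaurentSeries K} (hx : x ∈ gV A π) :
    qExpand K n x ∈ gV A π ∧ gval A π (qExpand K n x) = qExpand k n (gval A π x) := by
  obtain ⟨u, v, hv, h⟩ := hx
  have hi : ∀ w, incl A (qExpand A n w) = qExpand K n (incl A w) := fun w =>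
    coeffMap_qExpand A.subtype n w
  have hr : ∀ w, redSer A π (qExpand A n w) = qExpand k n (redSer A π w) := fun w =>
    coeffMap_qExpand π n w
  have hv' : redSer A π (qExpand A n v) ≠ 0 := by
    rw [hr]; exact (map_ne_zero_iff _ (qExpand_injective n)).mpr hv
  have h' : qExpand K n x * incl A (qExpand A n v) = incl A (qExpand A n u) := by
    rw [hi, hi, ← map_mul, h]
  exact ⟨⟨_, _, hv', h'⟩, by rw [gval_eq A π hv' h', gval_eq A π hv h, map_div₀, hr, hr]⟩

end FLTAgent.BadQ
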