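import Mathlib
import Fermat.Agent.BadQ.CoeffGauss
import Fermat.Agent.BadQ.AtkinLehner
import Fermat.Agent.Reduction.PlacesGauss
import Fermat.Agent.Kronecker.CoeffGalois
import Fermat.Agent.ModularCosets.Corollaries
import Fermat.Agent.GalCommon.Basic

/-!
# The two Gauss reductions of the function field of level `Mq` at a place over `q`

`redI` is the coefficientwise Gauss reduction of the expansion at `∞` and `redO` is `redI` after
the Atkin–Lehner involution. Every nonzero function can be scaled to be integral with nonzero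
reduction (`scalable_coe`), and the reduction is onto the function field of level `M` in
characteristic `q` (`redI_mem`, `redI_surjective`). The proof uses a family of `(q + 1) ψ(M)`
functions adapted to the two components.
-/

set_option autoImplicit false
set_option linter.style.haveILetI false
set_option linter.unusedSectionVars false
set_option synthInstance.maxHeartbeats 400000
set_option maxHeartbeats 1000000

noncomputable section

open ModularCurve Polynomial IntermediateField
open scoped IntermediateField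

namespace FLTAgent.BadQ

open FLTAgent.Kronecker (jSeries swapIdx)
open FLTAgent.ModularCosets (DivIdx qScale qScale_eq qScale_qScale qScale_one)

/-! ### Preliminaries -/

theorem jSeries_one (L : Type*) [Field L] : jSeries L 1 = jqModC L := qScale_one _

theorem jSeries_eq_intSer (L : Type*) [Field L] (d : ℕ) :
    jSeries L d = intSer L (qScale ℤ d (jqModC ℤ)) := by
  rw [jSeries, FLTAgent.ModularCosets.coeffMap_qScale, coeffMap_jqModC]

theorem jSeries_mul_char (L : Type*) [Field L] (q : ℕ) [Fact q.Prime] [CharP L q] [NeZero q]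
    (d : ℕ) [NeZero d] : jSeries L (d * q) = jSeries L d ^ q := by
  rw [FLTAgent.Kronecker.pow_char_eq_qExpand q, FLTAgent.Kronecker.coeffMap_jSeries, jSeries,
    jSeries, ← qScale_eq q, qScale_qScale (NeZero.ne q) (NeZero.ne d), mul_comm q d]

theorem gval_jSeries {K k : Type*} [Field K] [Field k] (A : ValuationSubring K) (π : A →+* k)
    (d : ℕ) : jSeries K d ∈ gV A π ∧ gval A π (jSeries K d) = jSeries k d := by
  rw [jSeries_eq_intSer, jSeries_eq_intSer]
  exact gval_intSer A π _

/-- A relation with polynomial coefficients from a failure of independence over `K(x)`. -/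
theorem exists_poly_relation {K F : Type*} [Field K] [Field F] [Algebra K F] (x : F) {ι : Type*}
    [Fintype ι] (v : ι → F) [FiniteDimensional K⟮x⟯ F]
    (hcard : Module.finrank K⟮x⟯ F < Fintype.card ι) :
    ∃ P : ι → K[X], P ≠ 0 ∧ ∑ i, aeval x (P i) * v i = 0 := by
  classical
  have hnot : ¬ LinearIndependent K⟮x⟯ v := fun h =>
    absurd h.fintype_card_le_finrank (not_le.mpr hcard)
  obtain ⟨g, hg, i₀, hi₀⟩ := Fintype.not_linearIndependent_iff.mp hnot
  choose r s hrs using fun i => (mem_adjoin_simple_iff K (g i : F)).mp (g i).2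
  let r' : ι → K[X] := fun i => if aeval x (s i) = 0 then 0 else r i
  let s' : ι → K[X] := fun i => if aeval x (s i) = 0 then 1 else s i
  have hs : ∀ i, aeval x (s' i) ≠ 0 := fun i => by
    simp only [s']
    split_ifs with h
    · simp
    · exact h
  have hr : ∀ i, aeval x (r' i) = (g i : F) * aeval x (s' i) := fun i => by
    simp only [r', s']
    split_ifs with h
    · rw [hrs i, h, div_zero, map_zero, zero_mul]
    · rw [hrs i, div_mul_cancel₀ _ h]
  let P : ι → K[X] := fun i => r' i * ∏ j ∈ Finset.univ.erase i, s' j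
  have hP : ∀ i, aeval x (P i) = (g i : F) * ∏ j, aeval x (s' j) := fun i => by
    simp only [P, map_mul, map_prod, hr]
    rw [mul_assoc, ← Finset.mul_prod_erase _ (fun j => aeval x (s' j)) (Finset.mem_univ i)]
  refine ⟨P, fun h => hi₀ ?_, ?_⟩
  · have := hP i₀
    rw [h, Pi.zero_apply, map_zero, eq_comm, mul_eq_zero] at this
    exact Subtype.ext (this.resolve_right (Finset.prod_ne_zero_iff.mpr fun j _ => hs j))
  · simp only [hP, mul_right_comm, ← Finset.sum_mul]
    rw [show ∑ i, (g i : F) * v i = 0 from hg, zero_mul]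

/-- Common scaling of finitely many polynomials into `A[X]` with nonzero reduction. -/
theorem exists_scaled {K k : Type*} [Field K] [Field k] (A : ValuationSubring K) (π : A →+* k)
    {ι : Type*} [Fintype ι] (P : ι → K[X]) (hP : P ≠ 0) :
    ∃ (c : K) (Q : ι → A[X]), c ≠ 0 ∧
      (∀ i, (Q i).map A.subtype = C c * P i) ∧ ∃ i, (Q i).map π ≠ 0 := by
  classical
  set s := Finset.univ.biUnion fun i => (P i).coeffs with hs
  obtain ⟨i₁, hi₁⟩ := Function.ne_iff.mp hP
  have hne : s.Nonempty := ⟨(P i₁).leadingCoeff, Finset.mem_biUnion.mpr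
    ⟨i₁, Finset.mem_univ _, coeff_mem_coeffs (leadingCoeff_ne_zero.mpr hi₁)⟩⟩
  obtain ⟨c₀, hc₀, hmax⟩ := Finset.exists_max_image s A.valuation hne
  have hc0 : c₀ ≠ 0 := by
    intro h0
    have := hmax _ (Finset.mem_biUnion.mpr
      ⟨i₁, Finset.mem_univ _, coeff_mem_coeffs (leadingCoeff_ne_zero.mpr hi₁)⟩)
    rw [h0, map_zero, le_zero_iff, map_eq_zero] at this
    exact hi₁ (leadingCoeff_eq_zero.mp this)
  have hmem : ∀ i n, c₀⁻¹ * (P i).coeff n ∈ A := fun i n => by
    rcases eq_or_ne ((P i).coeff n) 0 with h | h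
    · rw [h, mul_zero]; exact zero_mem A
    · rw [← A.valuation_le_one_iff, map_mul, map_inv₀]
      refine inv_mul_le_one_of_le₀ (hmax _ ?_) zero_le
      exact Finset.mem_biUnion.mpr ⟨i, Finset.mem_univ _, coeff_mem_coeffs h⟩
  have hl : ∀ i, C c₀⁻¹ * P i ∈ Polynomial.lifts A.subtype := fun i => by
    rw [lifts_iff_coeff_lifts]
    intro n
    rw [coeff_C_mul]
    exact ⟨⟨_, hmem i n⟩, rfl⟩
  choose Q hQ using hl
  refine ⟨c₀⁻¹, Q, inv_ne_zero hc0, hQ, ?_⟩
  obtain ⟨i₀, -, hi₀⟩ := Finset.mem_biUnion.mp hc₀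
  obtain ⟨n, -, hn⟩ := mem_coeffs_iff.mp hi₀
  refine ⟨i₀, fun h => ?_⟩
  have h1 := congrArg (fun p : K[X] => p.coeff n) (hQ i₀)
  simp only [coe_mapRingHom, coeff_map, coeff_C_mul, ← hn, inv_mul_cancel₀ hc0] at h1
  have h2 : (Q i₀).coeff n = 1 := Subtype.ext h1
  have h3 := congrArg (fun p : k[X] => p.coeff n) h
  simp [coeff_map, h2] at h3

/-! ### The two reductions -/

local notation "Qb" => AlgebraicClosure ℚ

variable (A : ValuationSubring Qb) (M q : ℕ) [NeZero M] [NeZero q]

local notation "k" => IsLocalRing.ResidueField A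
local notation "π" => IsLocalRing.residue A
local notation "FQ" => modularFunctionFieldBar (M * q)

/-- integrality at the first component -/
def VI : Subring FQ := (gV A π).comap (modularFunctionFieldBar (M * q)).val.toRingHom

/-- reduction on the first component -/
def redI (y : FQ) : LaurentSeries k := gval A π (y : LaurentSeries Qb)

theorem mem_VI {y : FQ} : y ∈ VI A M q ↔ (y : LaurentSeries Qb) ∈ gV A π := Iff.rfl

theorem redI_add {y z : FQ} (hy : y ∈ VI A M q) (hz : z ∈ VI A M q) :
    redI A M q (y + z) = redI A M q y + redI A M q z := gval_add A π hy hz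

theorem redI_mul {y z : FQ} (hy : y ∈ VI A M q) (hz : z ∈ VI A M q) :
    redI A M q (y * z) = redI A M q y * redI A M q z := gval_mul A π hy hz

theorem redI_one : redI A M q 1 = 1 := gval_one A π

theorem redI_zero : redI A M q 0 = 0 := gval_zero A π

theorem inv_mem_VI {y : FQ} (hy : y ∈ VI A M q) (h : redI A M q y ≠ 0) :
    y⁻¹ ∈ VI A M q ∧ redI A M q y⁻¹ = (redI A M q y)⁻¹ := by
  obtain ⟨h1, h2⟩ := inv_mem_gV A π hy h
  exact ⟨show ((y⁻¹ : FQ) : LaurentSeries Qb) ∈ _ from h1, h2⟩

theorem redI_const (a : A) : algebraMap Qb FQ a ∈ VI A M q ∧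
    redI A M q (algebraMap Qb FQ a) = algebraMap k (LaurentSeries k) (π a) := by
  have h : ((algebraMap Qb FQ a : FQ) : LaurentSeries Qb) = HahnSeries.C (a : Qb) := by
    show algebraMap Qb (LaurentSeries Qb) a = _
    rw [algebraMap_laurentSeries_eq_single]; rfl
  rw [mem_VI, redI, h, algebraMap_laurentSeries_eq_single]
  exact gval_C A π a

theorem redI_jAt (d : DivIdx (M * q)) :
    jAt d ∈ VI A M q ∧ redI A M q (jAt d) = jSeries k (d : ℕ) := gval_jSeries A π _

variable (hq : q.Prime) (hqM : ¬ q ∣ M) (hA : A.LiesOverPrime q)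

/-- reduction on the second component -/
def redO (y : FQ) : LaurentSeries k := redI A M q (atkinLehner hq hqM y)

/-- integrality at the second component -/
def VO : Subring FQ := (VI A M q).comap (atkinLehner hq hqM).toRingHom

theorem mem_VO {y : FQ} : y ∈ VO A M q hq hqM ↔ atkinLehner hq hqM y ∈ VI A M q := Iff.rfl

theorem redO_jAt {d : DivIdx (M * q)} : jAt d ∈ VO A M q hq hqM ∧
    redO A M q hq hqM (jAt d) = jSeries k (swapIdx q (d : ℕ)) := by
  rw [mem_VO, redO, mem_VI, redI, atkinLehner_jAt]
  exact gval_jSeries A π _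

/-- Elements integral at both components, with both reductions as ring maps. -/
def bothV : Subring FQ := VI A M q ⊓ VO A M q hq hqM

/-- the first reduction on `bothV` -/
def rIHom : bothV A M q hq hqM →+* LaurentSeries k where
  toFun y := redI A M q y
  map_one' := redI_one A M q
  map_mul' y z := redI_mul A M q y.2.1 z.2.1
  map_zero' := redI_zero A M q
  map_add' y z := redI_add A M q y.2.1 z.2.1

/-- the second reduction on `bothV` -/
def rOHom : bothV A M q hq hqM →+* LaurentSeries k where
  toFun y := redO A M q hq hqM y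
  map_one' := by
    show redI A M q (atkinLehner hq hqM 1) = 1
    rw [map_one]; exact redI_one A M q
  map_mul' y z := by
    show redI A M q (atkinLehner hq hqM ((y : FQ) * z)) = _
    rw [map_mul]
    exact redI_mul A M q (show atkinLehner hq hqM y ∈ VI A M q from y.2.2) z.2.2
  map_zero' := by
    show redI A M q (atkinLehner hq hqM 0) = 0
    rw [map_zero]; exact redI_zero A M q
  map_add' y z := by
    show redI A M q (atkinLehner hq hqM ((y : FQ) + z)) = _
    rw [map_add]
    exact redI_add A M q (show atkinLehner hq hqM y ∈ VI A M q from y.2.2) z.2.2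

/-- `j (d z)` as an element of `bothV`. -/
def jV (d : ℕ) (hd : d ∣ M * q) : bothV A M q hq hqM :=
  ⟨jAt ⟨d, Nat.mem_divisors.mpr ⟨hd, NeZero.ne _⟩⟩,
    (redI_jAt A M q _).1, (redO_jAt A M q hq hqM).1⟩

theorem rI_jV (d : ℕ) (hd : d ∣ M * q) :
    rIHom A M q hq hqM (jV A M q hq hqM d hd) = jSeries k d := (redI_jAt A M q _).2

theorem rO_jV (d : ℕ) (hd : d ∣ M * q) :
    rOHom A M q hq hqM (jV A M q hq hqM d hd) = jSeries k (swapIdx q d) :=
  (redO_jAt A M q hq hqM).2

/-- the constants in `bothV` -/
def constV : A →+* bothV A M q hq hqM :=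
  ((algebraMap Qb FQ).comp A.subtype).codRestrict (bothV A M q hq hqM) fun a =>
    ⟨(redI_const A M q a).1, by
      show atkinLehner hq hqM (algebraMap Qb FQ (a : Qb)) ∈ VI A M q
      rw [AlgHom.commutes]
      exact (redI_const A M q a).1⟩

theorem rI_constV (a : A) :
    rIHom A M q hq hqM (constV A M q hq hqM a) = algebraMap k (LaurentSeries k) (π a) :=
  (redI_const A M q a).2

theorem rO_constV (a : A) :
    rOHom A M q hq hqM (constV A M q hq hqM a) = algebraMap k (LaurentSeries k) (π a) := by
  show redI A M q (atkinLehner hq hqM (algebraMap Qb FQ a)) = _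
  rw [AlgHom.commutes]
  exact (redI_const A M q a).2

/-- `P ↦ P (j)` into `bothV`. -/
def polyV : A[X] →+* bothV A M q hq hqM :=
  eval₂RingHom (constV A M q hq hqM) (jV A M q hq hqM 1 (one_dvd _))

theorem swapIdx_one (hq : q.Prime) : swapIdx q 1 = q := by
  rw [swapIdx, if_neg (fun h => hq.not_dvd_one h), one_mul]

include hq hA in
theorem jSeries_q_pow : jSeries k q = jSeries k 1 ^ q := by
  haveI := Fact.mk hq
  haveI := GalCommon.charP_residueField hq hA
  have h := jSeries_mul_char k q 1
  rwa [one_mul] at h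

theorem rI_polyV (P : A[X]) : rIHom A M q hq hqM (polyV A M q hq hqM P) =
    aeval (jSeries k 1) (P.map π) := by
  rw [polyV, coe_eval₂RingHom, hom_eval₂, rI_jV, aeval_def, eval₂_map]
  exact eval₂_congr (RingHom.ext fun a => rI_constV A M q hq hqM a) rfl rfl

include hA in
theorem rO_polyV (P : A[X]) : rOHom A M q hq hqM (polyV A M q hq hqM P) =
    aeval (jSeries k 1) (expand k q (P.map π)) := by
  rw [polyV, coe_eval₂RingHom, hom_eval₂, rO_jV, swapIdx_one q hq, jSeries_q_pow A q hq hA,
    expand_aeval, aeval_def, eval₂_map]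
  exact eval₂_congr (RingHom.ext fun a => rO_constV A M q hq hqM a) rfl rfl

theorem coe_polyV (P : A[X]) : (polyV A M q hq hqM P : FQ) =
    aeval (jAt ⟨1, Nat.mem_divisors.mpr ⟨one_dvd _, NeZero.ne _⟩⟩) (P.map A.subtype) := by
  rw [polyV, coe_eval₂RingHom, aeval_def, eval₂_map]
  refine Eq.trans (hom_eval₂ P _ (bothV A M q hq hqM).subtype _) ?_
  exact eval₂_congr (RingHom.ext fun a => rfl) rfl rfl

include hq hqM hA in
theorem indep_powers (P : Fin (dedekindPsi M) → k[X])
    (h : ∑ i, aeval (jSeries k 1) (P i) * jSeries k M ^ (i : ℕ) = 0) : P = 0 := by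
  haveI := Fact.mk hq
  have hdeg := (FLTAgent.Reduction.minpoly_jTopF (N := M)
    (FLTAgent.Reduction.zetaToResidue M A hA hqM)).2
  have hli := linearIndependent_pow (K := k⟮FLTAgent.Reduction.jF M k⟯)
    (FLTAgent.Reduction.jTopF M k)
  have hj : ((FLTAgent.Reduction.jF M k : modularFunctionFieldFullC k M) : LaurentSeries k) =
      jSeries k 1 := (jSeries_one k).symm
  have hJ : ((FLTAgent.Reduction.jTopF M k : modularFunctionFieldFullC k M) : LaurentSeries k) =
      jSeries k M := by
    show qExpand k M (jqModC k) = _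
    rw [jSeries, qScale_eq]
  let b : Fin (minpoly k⟮FLTAgent.Reduction.jF M k⟯ (FLTAgent.Reduction.jTopF M k)).natDegree →
      k⟮FLTAgent.Reduction.jF M k⟯ := fun i =>
    ⟨aeval (FLTAgent.Reduction.jF M k) (P (Fin.cast hdeg i)),
      Algebra.adjoin_le (S := (k⟮FLTAgent.Reduction.jF M k⟯).toSubalgebra)
        (Set.singleton_subset_iff.mpr (mem_adjoin_simple_self k _))
        (aeval_mem_adjoin_singleton k _)⟩
  have hsum : ∑ i, b i • FLTAgent.Reduction.jTopF M k ^ (i : ℕ) = 0 := by
    apply (modularFunctionFieldFullC k M).val.injective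
    rw [map_sum, map_zero, ← h, ← Equiv.sum_comp (finCongr hdeg)]
    refine Finset.sum_congr rfl fun i _ => ?_
    show (modularFunctionFieldFullC k M).val
      (aeval (FLTAgent.Reduction.jF M k) (P (Fin.cast hdeg i)) *
        FLTAgent.Reduction.jTopF M k ^ (i : ℕ)) = _
    rw [map_mul, map_pow, ← aeval_algHom_apply]
    exact congrArg₂ (fun u v => aeval u (P (Fin.cast hdeg i)) * v ^ (i : ℕ)) hj hJ
  funext i
  have h0 := Fintype.linearIndependent_iff.mp hli b hsum (Fin.cast hdeg.symm i)
  have h1 : aeval (FLTAgent.Reduction.jF M k) (P i) = 0 := congrArg Subtype.val h0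
  by_contra hne
  exact (transcendental_iff.mp (FLTAgent.Reduction.transcendental_jF M k) _).mt hne h1

/-- index type of the adapted family -/
abbrev FamIdx : Type := Fin (dedekindPsi M) ⊕ (Fin (dedekindPsi M) × Fin q)

/-- vanishes on the second component -/
def zI : bothV A M q hq hqM :=
  jV A M q hq hqM 1 (one_dvd _) - jV A M q hq hqM q (dvd_mul_left q M) ^ q

/-- vanishes on the first component -/
def zO : bothV A M q hq hqM :=
  jV A M q hq hqM q (dvd_mul_left q M) - jV A M q hq hqM 1 (one_dvd _) ^ q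

/-- the adapted family -/
def famV : FamIdx M q → bothV A M q hq hqM
  | Sum.inl i => jV A M q hq hqM M (dvd_mul_right M q) ^ (i : ℕ) * zI A M q hq hqM
  | Sum.inr (i, l) => jV A M q hq hqM (M * q) dvd_rfl ^ (i : ℕ) *
      jV A M q hq hqM q (dvd_mul_left q M) ^ (l : ℕ) * zO A M q hq hqM

/-- the nonzero reduction of `zI` and `zO` -/
def zeta : LaurentSeries k := jSeries k 1 - jSeries k 1 ^ (q * q)

theorem swapIdx_q (hq : q.Prime) : swapIdx q q = 1 := by
  simpa using FLTAgent.Kronecker.swapIdx_mul hq.pos 1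

include hq hA in
theorem zeta_ne_zero : zeta A q ≠ 0 := by
  intro h
  have ht : Transcendental k (jSeries k 1) := by
    rw [jSeries_one]; exact FLTAgent.ModularCosets.transcendental_jqModC k
  refine ht ⟨X - X ^ (q * q), fun h0 => ?_, by simpa [zeta] using h⟩
  have h1 := congrArg (fun P : k[X] => P.coeff 1) h0
  have h4 : 1 ≠ q * q := by nlinarith [hq.two_le]
  simp [coeff_X_pow, h4] at h1

include hA in
theorem r_fam (j : FamIdx M q) :
    (rIHom A M q hq hqM (famV A M q hq hqM j) = match j with
      | Sum.inl i => jSeries k M ^ (i : ℕ) * zeta A q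
      | Sum.inr _ => 0) ∧
    rOHom A M q hq hqM (famV A M q hq hqM j) = match j with
      | Sum.inl _ => 0
      | Sum.inr (i, l) => jSeries k M ^ (i : ℕ) * jSeries k 1 ^ (l : ℕ) * zeta A q := by
  have hjq := jSeries_q_pow A q hq hA
  rcases j with i | ⟨i, l⟩
  · constructor
    · simp only [famV, zI, map_mul, map_sub, map_pow, rI_jV, hjq, zeta, ← pow_mul]
    · simp only [famV, zI, map_mul, map_sub, map_pow, rO_jV, swapIdx_one q hq, swapIdx_q q hq, hjq,
        sub_self, mul_zero]
  · constructor
    · simp only [famV, zO, map_mul, map_sub, map_pow, rI_jV, hjq, sub_self, mul_zero]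
    · simp only [famV, zO, map_mul, map_sub, map_pow, rO_jV, swapIdx_one q hq, swapIdx_q q hq, hjq,
        FLTAgent.Kronecker.swapIdx_mul hq.pos, zeta, ← pow_mul]

include hqM hA in
/-- A reduction of an element integral at both components lies in the field of level `M`. -/
theorem rI_mem (y : bothV A M q hq hqM) :
    rIHom A M q hq hqM y ∈ modularFunctionFieldFullC k M := by
  classical
  haveI := Fact.mk hq
  set E := modularFunctionFieldFullC k M
  have hfr := FLTAgent.ModularCosets.finrank_bar_over_j (M * q)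
    (jAt ⟨1, Nat.mem_divisors.mpr ⟨one_dvd _, NeZero.ne _⟩⟩) (by
      show jSeries Qb 1 = _
      rw [jSeries_one, ← FLTAgent.ModularCosets.coeffEmb_jq_eq])
  haveI : FiniteDimensional Qb⟮jAt (N := M * q) ⟨1, Nat.mem_divisors.mpr ⟨one_dvd _, NeZero.ne _⟩⟩⟯
      FQ := FiniteDimensional.of_finrank_pos (by
    rw [hfr]; exact FLTAgent.ModularCosets.dedekindPsi_pos _)
  let v : Option (FamIdx M q) → FQ := fun o =>
    o.elim (y : FQ) fun j => (famV A M q hq hqM j : FQ)
  obtain ⟨P, hP, hrel⟩ := exists_poly_relation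
    (jAt (N := M * q) ⟨1, Nat.mem_divisors.mpr ⟨one_dvd _, NeZero.ne _⟩⟩) v (by
      rw [hfr, FLTAgent.ModularCosets.dedekindPsi_mul_prime M hq, if_neg hqM]
      simp only [Fintype.card_option, Fintype.card_sum, Fintype.card_prod, Fintype.card_fin]
      rw [add_mul, one_mul, mul_comm q]
      omega)
  obtain ⟨c, Q, hc, hQ, o₀, ho₀⟩ := exists_scaled A π P hP
  have hV : polyV A M q hq hqM (Q none) * y +
      ∑ j, polyV A M q hq hqM (Q (some j)) * famV A M q hq hqM j = 0 := by
    refine Subtype.ext ?_
    push_cast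
    rw [coe_polyV, ← zero_mul (algebraMap Qb FQ c)]
    simp only [coe_polyV, hQ, map_mul, aeval_C]
    rw [← hrel, Fintype.sum_option, add_mul, Finset.sum_mul]
    exact congrArg₂ _ (by simp [v]; ring) (Finset.sum_congr rfl fun j _ => by simp [v]; ring)
  have hI := congrArg (rIHom A M q hq hqM) hV
  have hO := congrArg (rOHom A M q hq hqM) hV
  simp only [map_add, map_mul, map_sum, map_zero, rI_polyV] at hI
  simp only [map_add, map_mul, map_sum, map_zero, rO_polyV A M q hq hqM hA] at hO
  rw [Fintype.sum_sum_type] at hI hO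
  simp only [(r_fam A M q hq hqM hA _).1, mul_zero, Finset.sum_const_zero, add_zero] at hI
  simp only [(r_fam A M q hq hqM hA _).2, mul_zero, Finset.sum_const_zero, zero_add] at hO
  have hj1 : jSeries k 1 ∈ E := by rw [jSeries_one]; exact jqModC_mem_full k M
  have hjM : jSeries k M ∈ E := by
    rw [jSeries, qScale_eq]; exact jqModCd_mem_full k M dvd_rfl
  have haE : ∀ R : k[X], aeval (jSeries k 1) R ∈ E := fun R =>
    Algebra.adjoin_le (S := E.toSubalgebra) (Set.singleton_subset_iff.mpr hj1)
      (aeval_mem_adjoin_singleton k _)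
  by_cases h0 : (Q none).map π = 0
  · exfalso
    rw [h0, map_zero, zero_mul, zero_add] at hI
    rw [h0, map_zero, map_zero, zero_mul, zero_add] at hO
    simp only [← mul_assoc, ← Finset.sum_mul] at hI
    rw [Fintype.sum_prod_type] at hO
    simp only [← mul_assoc, ← Finset.sum_mul] at hO
    have hPI := indep_powers A M q hq hqM hA _
      ((mul_eq_zero.mp hI).resolve_right (zeta_ne_zero A q hq hA))
    have hO' : ∑ i : Fin (dedekindPsi M), aeval (jSeries k 1)
        (∑ l : Fin q, expand k q ((Q (some (Sum.inr (i, l)))).map π) * X ^ (l : ℕ)) *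
          jSeries k M ^ (i : ℕ) = 0 := by
      refine Eq.trans (Finset.sum_congr rfl fun i _ => ?_)
        ((mul_eq_zero.mp hO).resolve_right (zeta_ne_zero A q hq hA))
      rw [map_sum, Finset.sum_mul]
      exact Finset.sum_congr rfl fun l _ => by rw [map_mul, aeval_X_pow]; ring
    have hPO := indep_powers A M q hq hqM hA _ hO'
    rcases o₀ with _ | (i | ⟨i, l⟩)
    · exact ho₀ h0
    · exact ho₀ (congrFun hPI i)
    · refine ho₀ (Polynomial.ext fun m => ?_)
      have h2 := congrArg (fun R : k[X] => R.coeff (m * q + (l : ℕ))) (congrFun hPO i)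
      simp only [Pi.zero_apply, finsetSum_coeff, coeff_zero, coeff_mul_X_pow'] at h2
      rw [Finset.sum_eq_single l] at h2
      · simpa [coeff_expand_mul hq.pos] using h2
      · intro l' _ hl'
        split_ifs with hle
        · rw [coeff_expand hq.pos, if_neg]
          rintro ⟨t, ht⟩
          refine hl' (Fin.ext ?_)
          have h1 := l'.isLt
          have h3 := l.isLt
          have e1 : m * q + (l : ℕ) = t * q + (l' : ℕ) := by rw [mul_comm t, ← ht]; omega
          have := congrArg (· % q) e1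
          simpa [Nat.mod_eq_of_lt h1, Nat.mod_eq_of_lt h3] using this.symm
        · rfl
      · simp
  · have ha : aeval (jSeries k 1) ((Q none).map π) ≠ 0 := fun h => h0 (by
      have ht : Transcendental k (jSeries k 1) := by
        rw [jSeries_one]; exact FLTAgent.ModularCosets.transcendental_jqModC k
      exact transcendental_iff.mp ht _ h)
    have hz : zeta A q ∈ E := sub_mem hj1 (pow_mem hj1 _)
    rw [← eq_neg_iff_add_eq_zero, mul_comm, ← eq_div_iff ha] at hI
    rw [hI]
    exact div_mem (neg_mem (sum_mem fun i _ =>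
      mul_mem (haE _) (mul_mem (pow_mem hjM _) hz))) (haE _)

include hq hA in
/-- Every nonzero function can be scaled to have nonzero reduction. -/
theorem scalable_coe {y : FQ} (hy : y ≠ 0) : Scalable A π (y : LaurentSeries Qb) := by
  haveI := GalCommon.charP_residueField hq hA
  refine scalable_of_mem_adjoin A π (q := q) hq.two_le
    (S := Set.range fun d : DivIdx (M * q) => jSeries Qb (d : ℕ)) ?_ ?_
    (fun h => hy (Subtype.ext h))
  · rintro _ ⟨d, rfl⟩
    exact ⟨_, (jSeries_eq_intSer Qb _).symm⟩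
  · rw [← FLTAgent.Kronecker.laurentBaseChange_full_eq_adjoin]
    exact y.2

include hq hqM hA in
theorem redI_mem (y : FQ) : redI A M q y ∈ modularFunctionFieldFullC k M := by
  haveI := Fact.mk hq
  set E := modularFunctionFieldFullC k M
  by_cases hyI : y ∈ VI A M q
  swap
  · rw [redI, gval, dif_neg (by exact hyI)]
    exact zero_mem _
  by_cases hyO : y ∈ VO A M q hq hqM
  · exact rI_mem A M q hq hqM hA ⟨y, hyI, hyO⟩
  have hy0 : y ≠ 0 := fun h => hyO (h ▸ zero_mem _)
  have hw0 : atkinLehner hq hqM y ≠ 0 := by simpa using hy0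
  rcases (scalable_coe A M q hq hA hw0).mem_or_inv_mem A π IsLocalRing.residue_surjective with
    h | ⟨hiV, hi0⟩
  · exact absurd h hyO
  by_cases he : (1 : LaurentSeries k) + redI A M q y = 0
  · rw [show redI A M q y = -1 from (neg_eq_of_add_eq_zero_right he).symm]
    exact neg_mem (one_mem _)
  have h1I : (1 : FQ) + y ∈ VI A M q := add_mem (one_mem _) hyI
  have hr1 : redI A M q (1 + y) = 1 + redI A M q y := by
    rw [redI_add A M q (one_mem _) hyI, redI_one]
  obtain ⟨hdI, hdr⟩ := inv_mem_VI A M q h1I (hr1 ▸ he)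
  have hI : y * (1 + y)⁻¹ ∈ VI A M q := mul_mem hyI hdI
  have hO : y * (1 + y)⁻¹ ∈ VO A M q hq hqM := by
    have hwi : (atkinLehner hq hqM y)⁻¹ ∈ VI A M q := hiV
    have hwr : redI A M q (atkinLehner hq hqM y)⁻¹ = 0 := hi0
    have hm : (atkinLehner hq hqM y)⁻¹ + 1 ∈ VI A M q := add_mem hwi (one_mem _)
    have hr : redI A M q ((atkinLehner hq hqM y)⁻¹ + 1) ≠ 0 := by
      rw [redI_add A M q hwi (one_mem _), hwr, redI_one, zero_add]
      exact one_ne_zero
    have := (inv_mem_VI A M q hm hr).1
    rw [mem_VO, map_mul, map_inv₀, map_add, map_one]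
    have e : (atkinLehner hq hqM y)⁻¹ + 1 =
        (1 + atkinLehner hq hqM y) * (atkinLehner hq hqM y)⁻¹ := by
      rw [add_mul, one_mul, mul_inv_cancel₀ hw0]
    rwa [e, mul_inv, inv_inv, mul_comm (1 + atkinLehner hq hqM y)⁻¹] at this
  have h2 := rI_mem A M q hq hqM hA ⟨_, hI, hO⟩
  change redI A M q (y * (1 + y)⁻¹) ∈ E at h2
  rw [redI_mul A M q hyI hdI, hdr, hr1] at h2
  set e := redI A M q y with he'
  set f := e * (1 + e)⁻¹ with hf
  have hf1 : 1 - f = (1 + e)⁻¹ := by rw [hf]; field_simp; ring
  have : e = f / (1 - f) := by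
    rw [hf1, hf, div_inv_eq_mul, inv_mul_cancel_right₀ he]
  rw [this]
  exact div_mem h2 (sub_mem (one_mem _) h2)

include hq hqM hA in
/-- The reduction is onto the function field of level `M`. -/
theorem redI_surjective (w : modularFunctionFieldFullC k M) :
    ∃ y ∈ VI A M q, redI A M q y = (w : LaurentSeries k) := by
  haveI := Fact.mk hq
  let S : Subfield (LaurentSeries k) :=
    { carrier := {z | ∃ y ∈ VI A M q, redI A M q y = z}
      mul_mem' := fun ⟨a, ha, ha'⟩ ⟨b, hb, hb'⟩ =>
        ⟨a * b, mul_mem ha hb, by rw [redI_mul A M q ha hb, ha', hb']⟩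
      one_mem' := ⟨1, one_mem _, redI_one A M q⟩
      add_mem' := fun ⟨a, ha, ha'⟩ ⟨b, hb, hb'⟩ =>
        ⟨a + b, add_mem ha hb, by rw [redI_add A M q ha hb, ha', hb']⟩
      zero_mem' := ⟨0, zero_mem _, redI_zero A M q⟩
      neg_mem' := fun {z} ⟨a, ha, ha'⟩ => ⟨-a, neg_mem ha, by
        have := redI_add A M q ha (neg_mem ha)
        rw [add_neg_cancel, redI_zero, ha'] at this
        exact eq_neg_of_add_eq_zero_right this.symm⟩
      inv_mem' := fun z ⟨a, ha, ha'⟩ => by
        rcases eq_or_ne z 0 with rfl | hz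
        · exact ⟨0, zero_mem _, by rw [redI_zero, inv_zero]⟩
        · obtain ⟨hi, hr⟩ := inv_mem_VI A M q ha (ha' ▸ hz)
          exact ⟨a⁻¹, hi, by rw [hr, ha']⟩ }
  have hc : ∀ c : k, algebraMap k (LaurentSeries k) c ∈ S := fun c => by
    obtain ⟨a, rfl⟩ := IsLocalRing.residue_surjective c
    exact ⟨_, (redI_const A M q a).1, (redI_const A M q a).2⟩
  have hd : ∀ d, d ∣ M → jSeries k d ∈ S := fun d hd =>
    ⟨jAt ⟨d, Nat.mem_divisors.mpr ⟨hd.mul_right q, NeZero.ne _⟩⟩,
      (redI_jAt A M q _).1, (redI_jAt A M q _).2⟩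
  obtain ⟨w, hw⟩ := w
  suffices h : w ∈ S from h
  unfold modularFunctionFieldFullC at hw
  induction hw using IntermediateField.adjoin_induction with
  | mem z hz =>
    obtain ⟨d, hne, hdM, rfl⟩ := hz
    have := hd d hdM
    rw [jSeries, qScale_eq] at this
    exact this
  | algebraMap c => exact hc c
  | add a b _ _ ha hb => exact add_mem ha hb
  | inv a _ ha => exact inv_mem ha
  | mul a b _ _ ha hb => exact mul_mem ha hb

end FLTAgent.BadQ
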