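import Mathlib
import Fermat.Agent.BadQ.ReductionQM
import Fermat.Agent.BadQ.RankOne
import Fermat.Agent.BadQ.ModularEquation
import Fermat.Agent.Lift.Defs
import Fermat.Agent.Reduction.InputsLevel
import Fermat.Agent.Kronecker.Specialization

/-!
# The lifting data of the modular curve of level `Mq` at a place over `q`

`gaussInf` and `gaussZero` are the Gauss reductions of the function field of level `Mq` on the
components of the cusps `∞` and `0`, both with residue field that of level `M`. `liftData` puts
them together into a `Lift.Data`, given that the genus of level `M` does not drop under reduction;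
`compat_resAut`, `compat_inertia` and `compat_frobenius` describe the action of the decomposition
group, of inertia and of Frobenius on it.
-/

set_option autoImplicit false
set_option linter.style.haveILetI false
set_option linter.unusedSectionVars false
set_option synthInstance.maxHeartbeats 400000
set_option maxHeartbeats 1600000

noncomputable section

open ModularCurve AlgebraicCurve IntermediateField

namespace FLTAgent.BadQ

open FLTAgent.Reduction FLTAgent.Kronecker

local notation "Qb" => AlgebraicClosure ℚ

variable (A : ValuationSubring Qb) (M q : ℕ) [NeZero M] [NeZero q]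

local notation "k" => IsLocalRing.ResidueField A
local notation "π" => IsLocalRing.residue A
local notation "FQ" => modularFunctionFieldBar (M * q)
local notation "F0" => modularFunctionFieldBar M
local notation "E0" => modularFunctionFieldFullC k M

variable (hq : q.Prime) (hqM : ¬ q ∣ M) (hA : A.LiesOverPrime q)

/-- The reduction on the component of the cusp `∞`. -/
def gaussInf : GaussRed A π FQ E0 where
  V := VI A M q
  red y := ⟨redI A M q y, redI_mem A M q hq hqM hA y⟩
  red_one := Subtype.ext (redI_one A M q)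
  red_add hy hz := Subtype.ext (redI_add A M q hy hz)
  red_mul hy hz := Subtype.ext (redI_mul A M q hy hz)
  const_mem a := (redI_const A M q a).1
  red_const a := Subtype.ext (redI_const A M q a).2
  inv_mem {y} hy h := (inv_mem_VI A M q hy fun h0 => h (Subtype.ext h0)).1
  red_surj w := by
    obtain ⟨y, hy, hw⟩ := redI_surjective A M q hq hqM hA w
    exact ⟨y, hy, Subtype.ext hw⟩
  res_surj := IsLocalRing.residue_surjective

/-- The reduction on the component of the cusp `0`. -/
def gaussZero : GaussRed A π FQ E0 where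
  V := VO A M q hq hqM
  red y := (gaussInf A M q hq hqM hA).red (atkinLehner hq hqM y)
  red_one := by rw [map_one]; exact (gaussInf A M q hq hqM hA).red_one
  red_add hy hz := by rw [map_add]; exact (gaussInf A M q hq hqM hA).red_add hy hz
  red_mul hy hz := by rw [map_mul]; exact (gaussInf A M q hq hqM hA).red_mul hy hz
  const_mem a := by
    rw [mem_VO, AlgHom.commutes]
    exact (gaussInf A M q hq hqM hA).const_mem a
  red_const a := by rw [AlgHom.commutes]; exact (gaussInf A M q hq hqM hA).red_const a
  inv_mem {y} hy h := by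
    rw [mem_VO, map_inv₀]
    exact (gaussInf A M q hq hqM hA).inv_mem hy h
  red_surj w := by
    obtain ⟨y, hy, hw⟩ := (gaussInf A M q hq hqM hA).red_surj w
    refine ⟨atkinLehner hq hqM y, ?_, ?_⟩
    · rw [mem_VO, atkinLehner_atkinLehner]; exact hy
    · rw [atkinLehner_atkinLehner]; exact hw
  res_surj := IsLocalRing.residue_surjective

include hq hqM hA in
theorem gaussInf_scale (f : FQ) (hf : f ≠ 0) : ∃ c : Qb, c ≠ 0 ∧
    c • f ∈ (gaussInf A M q hq hqM hA).V ∧ (gaussInf A M q hq hqM hA).red (c • f) ≠ 0 := by
  obtain ⟨c, hc, h1, h2⟩ := (scalable_coe A M q hq hA hf).exists_smul A π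
  have he : ((c • f : FQ) : LaurentSeries Qb) = HahnSeries.C c * (f : LaurentSeries Qb) := by
    rw [Algebra.smul_def]
    show algebraMap Qb (LaurentSeries Qb) c * (f : LaurentSeries Qb) = _
    rw [algebraMap_laurentSeries_eq_single]; rfl
  refine ⟨c, hc, ?_, fun h => ?_⟩
  · show ((c • f : FQ) : LaurentSeries Qb) ∈ gV A π
    rw [he]; exact h1
  · refine h2 ?_
    rw [← he]
    exact congrArg Subtype.val h

include hq hqM hA in
theorem gaussZero_scale (f : FQ) (hf : f ≠ 0) : ∃ c : Qb, c ≠ 0 ∧
    c • f ∈ (gaussZero A M q hq hqM hA).V ∧ (gaussZero A M q hq hqM hA).red (c • f) ≠ 0 := by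
  obtain ⟨c, hc, h1, h2⟩ := gaussInf_scale A M q hq hqM hA (atkinLehner hq hqM f)
    (by simpa using hf)
  have he : atkinLehner hq hqM (c • f) = c • atkinLehner hq hqM f := by
    rw [Algebra.smul_def, Algebra.smul_def, map_mul, AlgHom.commutes]
  refine ⟨c, hc, ?_, ?_⟩
  · show atkinLehner hq hqM (c • f) ∈ VI A M q
    rw [he]; exact h1
  · show (gaussInf A M q hq hqM hA).red (atkinLehner hq hqM (c • f)) ≠ 0
    rw [he]; exact h2

/-- The `q`-power Frobenius on coefficients. -/
def frobQ : SemilinearAut k E0 :=
  haveI := Fact.mk hq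
  haveI := GalCommon.charP_residueField hq hA
  haveI : ExpChar k q := .prime hq
  haveI := GalCommon.isAlgClosed_residueField A hq hA
  coeffGalois M (frobeniusEquiv k q)

include hq hA in
theorem frob_inv_pow (a : E0) :
    ((((frobQ A M q hq hA)⁻¹ • a) ^ q : E0) : LaurentSeries k) =
      qExpand k q (a : LaurentSeries k) := by
  haveI := Fact.mk hq
  haveI := GalCommon.charP_residueField hq hA
  haveI : ExpChar k q := .prime hq
  haveI := GalCommon.isAlgClosed_residueField A hq hA
  rw [SubmonoidClass.coe_pow, frobQ, ← map_inv, coe_coeffGalois_smul,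
    pow_char_eq_qExpand q, coeffMap_coeffMap]
  refine congrArg (qExpand k q) ((coeffMap_congr (g := RingHom.id k) ?_ _).trans (coeffMap_id _))
  refine RingHom.ext fun x => ?_
  exact (frobenius_def q _).trans (frobeniusEquiv_symm_pow_p k q x)

theorem coe_alpha_mem {a : F0} (ha : a ∈ (modularGauss A M).V) :
    heckeAlphaBar Qb M q a ∈ VI A M q ∧
      redI A M q (heckeAlphaBar Qb M q a) = ((modularGauss A M).red a : LaurentSeries k) := by
  obtain ⟨u, v, hv, h⟩ := modularGauss_mem.mp ha
  have hv' : redSer A π (v : LaurentSeries A) ≠ 0 := fun h0 => hv (Subtype.ext h0)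
  have h' : (a : LaurentSeries Qb) * incl A (v : LaurentSeries A) = incl A (u : LaurentSeries A) :=
    congrArg Subtype.val h
  rw [mem_VI, redI, coe_heckeAlphaBar]
  refine ⟨⟨_, _, hv', h'⟩, ?_⟩
  rw [gval_eq A π hv' h', modularGauss_red hv h, IntermediateField.coe_div]
  rfl

theorem coe_beta_mem {a : F0} (ha : a ∈ (modularGauss A M).V) :
    heckeBetaBar Qb M q a ∈ VI A M q ∧
      redI A M q (heckeBetaBar Qb M q a) =
        qExpand k q ((modularGauss A M).red a : LaurentSeries k) := by
  obtain ⟨h1, h2⟩ := coe_alpha_mem A M q ha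
  rw [mem_VI, coe_heckeAlphaBar] at h1
  rw [redI, coe_heckeAlphaBar] at h2
  obtain ⟨h3, h4⟩ := gval_qExpand A π q h1
  rw [mem_VI, redI, coe_heckeBetaBar]
  exact ⟨h3, h4.trans (congrArg _ h2)⟩

theorem coe_alpha_jParam :
    (heckeAlphaBar Qb M q (jParam A M) : LaurentSeries Qb) = jSeries Qb 1 := by
  rw [coe_heckeAlphaBar, coe_jParam, jSeries_one, ModularCosets.coeffEmb_jq_eq]

theorem alpha_jParam_eq : heckeAlphaBar Qb M q (jParam A M) =
    jAt ⟨1, Nat.mem_divisors.mpr ⟨one_dvd _, NeZero.ne _⟩⟩ :=
  Subtype.ext (coe_alpha_jParam A M q)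

theorem beta_jParam_eq : heckeBetaBar Qb M q (jParam A M) =
    jAt ⟨q, Nat.mem_divisors.mpr ⟨dvd_mul_left q M, NeZero.ne _⟩⟩ := by
  refine Subtype.ext ?_
  rw [coe_heckeBetaBar, coe_jParam, ModularCosets.coeffEmb_jq_eq]
  show qExpand Qb q (jqModC Qb) = jSeries Qb q
  rw [jSeries, ModularCosets.qScale_eq]

include hq hqM in
theorem ord_same_sign_j (P : Place Qb FQ) :
    0 ≤ P.ord (heckeAlphaBar Qb M q (jParam A M)) *
      P.ord (heckeBetaBar Qb M q (jParam A M)) := by
  have h1 : HasRelation Qb (heckeAlphaBar Qb M q (jParam A M))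
      (heckeBetaBar Qb M q (jParam A M)) := by
    rw [alpha_jParam_eq, beta_jParam_eq]
    exact hasRelation_jAt _
  have h2 := h1.map (atkinLehner hq hqM)
  rw [atkinLehner_alpha, atkinLehner_beta] at h2
  rcases le_or_gt 0 (P.ord (heckeAlphaBar Qb M q (jParam A M))) with h | h
  · exact mul_nonneg h (h1.ord_nonneg P h)
  · rcases le_or_gt 0 (P.ord (heckeBetaBar Qb M q (jParam A M))) with h' | h'
    · exact absurd (h2.ord_nonneg P h') (not_le.mpr h)
    · exact mul_nonneg_of_nonpos_of_nonpos h.le h'.le

include hq hqM in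
theorem degree_alpha_j :
    Divisor.degree (poleDiv (heckeAlphaBar Qb M q (jParam A M)) : Divisor Qb FQ) =
      (q + 1 : ℕ) * Divisor.degree (poleDiv (jParam A M) : Divisor Qb F0) := by
  haveI := isFF_bar_curve (M * q)
  have hx : heckeAlphaBar Qb M q (jParam A M) = jParam A (M * q) :=
    Subtype.ext (by rw [coe_heckeAlphaBar, coe_jParam, coe_jParam])
  rw [hx, degree_poleDiv_jParam, degree_poleDiv_jParam,
    ModularCosets.dedekindPsi_mul_prime M hq, if_neg hqM, Nat.cast_mul]

include hq hqM in
theorem degree_beta_j :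
    Divisor.degree (poleDiv (heckeBetaBar Qb M q (jParam A M)) : Divisor Qb FQ) =
      (q + 1 : ℕ) * Divisor.degree (poleDiv (jParam A M) : Divisor Qb F0) := by
  haveI := isFF_bar_curve (M * q)
  have hαβ : heckeBetaBar Qb M q (jParam A M) =
      atkinLehner hq hqM (jParam A (M * q)) := by
    rw [← atkinLehner_alpha hq hqM]
    exact congrArg _ (Subtype.ext (by rw [coe_heckeAlphaBar, coe_jParam, coe_jParam]))
  let e : FQ ≃ₐ[Qb] FQ := AlgEquiv.ofAlgHom (atkinLehner hq hqM) (atkinLehner hq hqM)
    (AlgHom.ext (atkinLehner_atkinLehner hq hqM)) (AlgHom.ext (atkinLehner_atkinLehner hq hqM))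
  have ht : Transcendental Qb (atkinLehner hq hqM (jParam A (M * q))) := fun h =>
    transcendental_jParam A (M * q) (h.of_ringHom_of_comp_eq (RingHom.id Qb)
      (atkinLehner hq hqM : FQ →+* FQ) Function.surjective_id (atkinLehner hq hqM).injective
      (RingHom.ext fun c => ((atkinLehner hq hqM).commutes c).symm))
  haveI : Algebra.IsSeparable Qb⟮atkinLehner hq hqM (jParam A (M * q))⟯ FQ :=
    FF.isSeparable_adjoin_of_charZero ht
  rw [hαβ, degree_poleDiv_eq ht, degree_poleDiv_jParam]
  have hmap : (Qb⟮jParam A (M * q)⟯).map e.toAlgHom =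
      Qb⟮atkinLehner hq hqM (jParam A (M * q))⟯ := by
    rw [IntermediateField.adjoin_map, Set.image_singleton]; rfl
  have hfin : Module.finrank Qb⟮jParam A (M * q)⟯ FQ =
      Module.finrank Qb⟮atkinLehner hq hqM (jParam A (M * q))⟯ FQ :=
    Algebra.finrank_eq_of_equiv_equiv
      (((Qb⟮jParam A (M * q)⟯).equivMap e.toAlgHom).trans
        (IntermediateField.equivOfEq hmap)).toRingEquiv
      e.toRingEquiv (RingHom.ext fun _ => rfl)
  rw [← hfin, finrank_jParam, ModularCosets.dedekindPsi_mul_prime M hq, if_neg hqM, Nat.cast_mul]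

theorem mapDomain_restrictAlong {K F F' : Type*} [Field K] [IsAlgClosed K] [Field F] [Field F']
    [Algebra K F] [Algebra K F'] [FF.IsFF K F'] (φ : F →ₐ[K] F') (hφ : φ.toRingHom.IsIntegral)
    (D : Divisor K F') :
    Finsupp.mapDomain (fun w => w.restrictAlong φ hφ) D = Divisor.pushforwardAlong φ hφ D := by
  induction D using Finsupp.induction with
  | zero => simp
  | single_add w n D hw hn ih =>
    rw [Finsupp.mapDomain_add, Finsupp.mapDomain_single, map_add, ih,
      Divisor.pushforwardAlong_single, FF.inertiaDegAlong_eq_one, Nat.cast_one, mul_one]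

include hqM hA in
/-- The lifting data at level `Mq`, given that the genus does not drop at level `M`. -/
def liftData (hg : genusFF k E0 = genusFF Qb F0) :
    Lift.Data A π q FQ F0 E0 (genusFF Qb FQ) (genusFF Qb F0) :=
  haveI := Fact.mk hq
  haveI := isFF_bar_curve M
  haveI := isFF_bar_curve (M * q)
  { q_prime := hq
    charP := GalCommon.charP_residueField hq hA
    rank_one := rank_one_valuation hq hA
    Ginf := gaussInf A M q hq hqM hA
    Gzero := gaussZero A M q hq hqM hA
    G := modularGauss A M
    j := jParam A M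
    param := goodParam_of_genus A M hA hqM hg
    curve := curveData_bar (M * q)
    scale_inf := gaussInf_scale A M q hq hqM hA
    scale_zero := gaussZero_scale A M q hq hqM hA
    α := heckeAlphaBar Qb M q
    β := heckeBetaBar Qb M q
    frob := frobQ A M q hq hA
    frob_base := fun x => by
      haveI := GalCommon.charP_residueField hq hA
      exact frobenius_def q x
    frob_param := by
      rw [red_jParam]
      refine Subtype.ext ?_
      show coeffMap _ (jqModC k) = jqModC k
      exact coeffMap_jqModC _
    alpha_mem_inf := fun a ha => (coe_alpha_mem A M q ha).1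
    beta_mem_inf := fun a ha => (coe_beta_mem A M q ha).1
    alpha_mem_zero := fun a ha => by
      show atkinLehner hq hqM _ ∈ VI A M q
      rw [atkinLehner_alpha]; exact (coe_beta_mem A M q ha).1
    beta_mem_zero := fun a ha => by
      show atkinLehner hq hqM _ ∈ VI A M q
      rw [atkinLehner_beta]; exact (coe_alpha_mem A M q ha).1
    red_alpha_inf := fun a ha => Subtype.ext (coe_alpha_mem A M q ha).2
    red_beta_inf := fun a ha => Subtype.ext
      ((coe_beta_mem A M q ha).2.trans (frob_inv_pow A M q hq hA _).symm)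
    red_alpha_zero := fun a ha => Subtype.ext (by
      show redI A M q (atkinLehner hq hqM (heckeAlphaBar Qb M q a)) = _
      rw [atkinLehner_alpha]
      exact (coe_beta_mem A M q ha).2.trans (frob_inv_pow A M q hq hA _).symm)
    red_beta_zero := fun a ha => Subtype.ext (by
      show redI A M q (atkinLehner hq hqM (heckeBetaBar Qb M q a)) = _
      rw [atkinLehner_beta]
      exact (coe_alpha_mem A M q ha).2)
    ord_same_sign := ord_same_sign_j A M q hq hqM
    degree_alpha := degree_alpha_j A M q hq hqM
    degree_beta := degree_beta_j A M q hq hqM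
    resα := fun w => w.restrictAlong (heckeAlphaBar Qb M q) (FF.isIntegral_alongFF _)
    resβ := fun w => w.restrictAlong (heckeBetaBar Qb M q) (FF.isIntegral_alongFF _)
    ord_resα := fun P => ⟨_, FF.ramificationIndexAlong_pos (heckeAlphaBar Qb M q)
      (FF.isIntegral_alongFF _) P, fun a => Place.ord_restrictAlong _ (FF.isIntegral_alongFF _) P a⟩
    ord_resβ := fun P => ⟨_, FF.ramificationIndexAlong_pos (heckeBetaBar Qb M q)
      (FF.isIntegral_alongFF _) P, fun a => Place.ord_restrictAlong _ (FF.isIntegral_alongFF _) P a⟩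
    principal_resα := fun f hf => by
      rw [mapDomain_restrictAlong]
      exact Divisor.isPrincipal_pushforwardAlong _ _ (FF.finiteAlong _)
        (FF.normFormulaAlong _ (FF.finiteAlong _) (FF.separableAlong _))
        ((curveData_bar (M * q)).isPrincipal_divOf hf)
    principal_resβ := fun f hf => by
      rw [mapDomain_restrictAlong]
      exact Divisor.isPrincipal_pushforwardAlong _ _ (FF.finiteAlong _)
        (FF.normFormulaAlong _ (FF.finiteAlong _) (FF.separableAlong _))
        ((curveData_bar (M * q)).isPrincipal_divOf hf) }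

include hqM hA in
/-- Elements of the decomposition group act compatibly. -/
theorem compat_resAut (hg : genusFF k E0 = genusFF Qb F0) (g : A.decompositionSubgroup ℚ) :
    (liftData A M q hq hqM hA hg).Compat
      (arithmeticGalois (modularFunctionFieldFull (M * q)) (g : Qb ≃ₐ[ℚ] Qb))
      (coeffGalois M (resAut A g)) := by
  have key : ∀ (h : A.decompositionSubgroup ℚ) (f : FQ), f ∈ VI A M q →
      arithmeticGalois (modularFunctionFieldFull (M * q)) (h : Qb ≃ₐ[ℚ] Qb) • f ∈ VI A M q ∧
      redI A M q (arithmeticGalois (modularFunctionFieldFull (M * q)) (h : Qb ≃ₐ[ℚ] Qb) • f) =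
        coeffMap (resAut A h : k →+* k) (redI A M q f) := fun h f hf => by
    rw [mem_VI, redI, coe_arithmeticGalois_smul]
    exact gval_coeffMap A π _ (MulSemiringAction.toRingHom (A.decompositionSubgroup ℚ) A h)
      (resAut A h : k →+* k) (fun _ => rfl) (fun a => (GalCommon.smul_residue_eq h a).symm) hf
  have hiff : ∀ f : FQ, arithmeticGalois (modularFunctionFieldFull (M * q)) (g : Qb ≃ₐ[ℚ] Qb) • f
      ∈ VI A M q ↔ f ∈ VI A M q := fun f =>
    ⟨fun h => by
      have := (key g⁻¹ _ h).1
      rwa [Subgroup.coe_inv, map_inv, inv_smul_smul] at this, fun h => (key g f h).1⟩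
  refine ⟨hiff, fun f => ?_, fun f hf => Subtype.ext (key g f hf).2, fun f hf => ?_, ?_, ?_⟩
  · show atkinLehner hq hqM _ ∈ VI A M q ↔ atkinLehner hq hqM f ∈ VI A M q
    rw [atkinLehner_galois]
    exact hiff _
  · refine Subtype.ext ?_
    show redI A M q (atkinLehner hq hqM _) = coeffMap _ (redI A M q (atkinLehner hq hqM f))
    rw [atkinLehner_galois]
    exact (key g _ hf).2
  · show _ • heckeAlphaBar Qb M q (jParam A M) = _
    refine Subtype.ext ?_
    rw [coe_arithmeticGalois_smul]
    show coeffMap _ (heckeAlphaBar Qb M q (jParam A M) : LaurentSeries Qb) =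
      (heckeAlphaBar Qb M q (jParam A M) : LaurentSeries Qb)
    rw [coe_alpha_jParam, coeffMap_jSeries]
  · show _ • heckeBetaBar Qb M q (jParam A M) = _
    refine Subtype.ext ?_
    rw [coe_arithmeticGalois_smul]
    show coeffMap _ (heckeBetaBar Qb M q (jParam A M) : LaurentSeries Qb) =
      (heckeBetaBar Qb M q (jParam A M) : LaurentSeries Qb)
    rw [beta_jParam_eq]
    exact coeffMap_jSeries Qb _ _

include hqM hA in
theorem compat_inertia (hg : genusFF k E0 = genusFF Qb F0) {σ : Qb ≃ₐ[ℚ] Qb}
    (hσ : σ ∈ A.inertiaSubgroupIn ℚ) :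
    (liftData A M q hq hqM hA hg).Compat (arithmeticGalois (modularFunctionFieldFull (M * q)) σ)
      1 := by
  obtain ⟨g, rfl, hg1⟩ := resAut_eq_one_of_mem_inertia hσ
  have := compat_resAut A M q hq hqM hA hg g
  rwa [hg1, map_one] at this

include hqM hA in
theorem compat_frobenius (hg : genusFF k E0 = genusFF Qb F0) {σ : Qb ≃ₐ[ℚ] Qb}
    (hσ : A.IsFrobeniusAt σ q) :
    (liftData A M q hq hqM hA hg).Compat (arithmeticGalois (modularFunctionFieldFull (M * q)) σ)
      (liftData A M q hq hqM hA hg).frob := by
  haveI := Fact.mk hq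
  haveI := GalCommon.charP_residueField hq hA
  haveI : ExpChar k q := .prime hq
  haveI := GalCommon.isAlgClosed_residueField A hq hA
  have := compat_resAut A M q hq hqM hA hg ⟨σ, hσ.mem_decompositionSubgroup⟩
  rw [resAut_eq_frobenius hσ] at this
  exact this

end FLTAgent.BadQ
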