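import Fermat.Agent.BadQ.LiftData
import Fermat.Agent.Lift.Main
import Fermat.Agent.Lift.LinearAlgebra
import Fermat.Agent.RedSurj.Main
import Fermat.Agent.Reduction.GaussGenusAll
import Fermat.Agent.Degen.Model
import Fermat.Agent.Local.Interface

/-!
# The toric part of the Tate module of `J₀(qM)` at a place over `q`

In the coordinates of a canonical model of the Tate module, `exists_toric_matrix` finds
`g(qM) - 2 g(M)` independent vectors fixed by inertia on which the square of Frobenius is `q²`, by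
lifting along the two Gauss reductions of `liftData`. `exists_toric_of_eq` restates this as
`Local.HasToricPart`. Only finitely many classes of level `M` are fixed by the square of Frobenius
(`exists_frobQ_bound`).
-/

set_option autoImplicit false
set_option linter.style.haveILetI false
set_option linter.unusedSectionVars false
set_option synthInstance.maxHeartbeats 400000
set_option maxHeartbeats 1600000

noncomputable section

open ModularCurve AlgebraicCurve Matrix

namespace FLTAgent.BadQ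

local notation "Qb" => AlgebraicClosure ℚ

variable (A : ValuationSubring Qb) (M q : ℕ) [NeZero M] [NeZero q]

local notation "kA" => IsLocalRing.ResidueField A
local notation "E0" => modularFunctionFieldFullC kA M

/-- Only finitely many classes are fixed by the square of Frobenius. -/
theorem exists_frobQ_bound (hq : q.Prime) (hqM : ¬ q ∣ M) (hA : A.LiesOverPrime q) :
    ∃ B : ℕ, B ≠ 0 ∧ ∀ x : Pic0 kA E0,
      frobQ A M q hq hA • frobQ A M q hq hA • x = x → B • x = 0 := by
  haveI := Fact.mk hq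
  haveI := GalCommon.charP_residueField hq hA
  haveI := GalCommon.isAlgClosed_residueField A hq hA
  haveI : PerfectRing kA q := PerfectField.toPerfectRing q
  haveI := Reduction.isFF_fullC_residue M A hA hqM
  have hfin := (RedSurj.effCard_eq
    ((RedSurj.isFrob_coeffFrob kA M q (RedSurj.exists_pow_eq_residue A hA)).npow two_ne_zero)).1
  let H : AddSubgroup (Pic0 kA E0) :=
    { carrier := {x | (RedSurj.coeffFrob kA M q ^ 2) • x = x}
      zero_mem' := smul_zero (A := Pic0 kA E0) (RedSurj.coeffFrob kA M q ^ 2)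
      add_mem' := fun {x y} hx hy => by
        show _ • (x + y) = x + y
        rw [smul_add, show _ = x from hx, show _ = y from hy]
      neg_mem' := fun {x} hx => by
        show _ • (-x) = -x
        rw [smul_neg, show _ = x from hx] }
  haveI : Finite H := hfin.to_subtype
  refine ⟨Nat.card H, Nat.card_pos.ne', fun x hx => ?_⟩
  have hmem : x ∈ H := by
    show (RedSurj.coeffFrob kA M q ^ 2) • x = x
    rw [pow_two, mul_smul]
    exact hx
  exact congrArg Subtype.val (card_nsmul_eq_zero' (G := H) (x := ⟨x, hmem⟩))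

theorem two_mul_genusFF_bar (N : ℕ) [NeZero N] :
    2 * genusFF Qb ↥(modularFunctionFieldBar N) = Period.rankH N := by
  have h := Period.rankH_eq N
  rw [← ModularPlaces.genusFF_bar N] at h
  exact_mod_cast h.symm

theorem natCard_torsion_bar (N : ℕ) [NeZero N] (p m : ℕ) [Fact p.Prime] :
    Nat.card (Pic0.torsion Qb ↥(modularFunctionFieldBar N) (p ^ m)) =
      p ^ (2 * genusFF Qb ↥(modularFunctionFieldBar N) * m) := by
  haveI : NeZero (p ^ m) := ⟨pow_ne_zero _ (Fact.out : p.Prime).ne_zero⟩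
  rw [Torsion.natCard_jTorsion (p ^ m) (genusFF Qb ↥(modularFunctionFieldBar N))
    (ModularPlaces.genusFF_bar N), ← pow_mul]
  ring_nf

variable {p : ℕ} [Fact p.Prime] {ι : Qb →+* ℂ}

/-- The toric vectors in the coordinates of a canonical model. -/
theorem exists_toric_matrix (hq : q.Prime) (hqp : q ≠ p) (hqM : ¬ q ∣ M)
    (hA : A.LiesOverPrime q) (h₁ : Degen.CanModel ι (M * q) p) :
    ∃ B : Matrix (Fin (Period.rankH (M * q)))
        (Fin (genusFF Qb ↥(modularFunctionFieldBar (M * q)) -
          2 * genusFF Qb ↥(modularFunctionFieldBar M))) ℤ_[p],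
      Function.Injective (fun v => B *ᵥ v) ∧
      (∀ i ∈ A.inertiaSubgroupIn ℚ, h₁.MM i * B = B) ∧
      ∀ F : Qb ≃ₐ[ℚ] Qb, A.IsFrobeniusAt F q →
        h₁.MM F * (h₁.MM F * B) = (q ^ 2 : ℕ) • B := by
  classical
  haveI := Fact.mk hq
  haveI := GalCommon.isAlgClosed_residueField A hq hA
  have hg := Reduction.genusFF_fullC_eq M A hA hqM
  set D := liftData A M q hq hqM hA hg
  obtain ⟨B₀, hB₀, hfix⟩ := exists_frobQ_bound A M q hq hqM hA
  obtain ⟨C, hC⟩ := Lift.exists_toric_subgroups D (Fact.out : p.Prime) (Ne.symm hqp)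
    (fun m => natCard_torsion_bar (M * q) p m) (fun m => natCard_torsion_bar M p m) hB₀ hfix
  set R : Set (Fin (Period.rankH (M * q)) → ℤ_[p]) :=
    {v | ∃ i ∈ A.inertiaSubgroupIn ℚ, ∃ a, v = (h₁.MM i - 1) a} ∪
      {v | ∃ F : Qb ≃ₐ[ℚ] Qb, A.IsFrobeniusAt F q ∧
        ∃ a, v = (h₁.MM F * h₁.MM F - ((q ^ 2 : ℕ) : Matrix (Fin (Period.rankH (M * q)))
          (Fin (Period.rankH (M * q))) ℤ_[p])) a} with hR
  obtain ⟨B, hinj, hker⟩ := Lift.exists_kernel_matrix (p := p)
    (k := genusFF Qb ↥(modularFunctionFieldBar (M * q)) -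
      2 * genusFF Qb ↥(modularFunctionFieldBar M)) R C (fun m => by
    haveI : NeZero (p ^ m) := ⟨pow_ne_zero _ (Fact.out : p.Prime).ne_zero⟩
    obtain ⟨S, hS, hcount, hI, hF⟩ := hC m
    let e := (HeckeH.heckeTorsionEquiv (M * q) ι (p ^ m)).trans
      (Period.evalEquiv (M * q) (ZMod (p ^ m)) (ZMod (p ^ m))).toAddEquiv
    let emb : S → (Fin (Period.rankH (M * q)) → ZMod (p ^ m)) := fun z => e ⟨z.1, hS z.2⟩
    have hembinj : Function.Injective emb := fun a b h =>
      Subtype.ext (congrArg Subtype.val (e.injective h) :)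
    refine ⟨Set.range emb, ?_, ?_⟩
    · rwa [← Nat.card_coe_set_eq, Nat.card_range_of_injective hembinj]
    rintro _ ⟨z, rfl⟩ v hv
    have hgal : ∀ (σ : Qb ≃ₐ[ℚ] Qb) (x : Pic0.torsion Qb ↥(modularFunctionFieldBar (M * q)) (p ^ m)),
        (PadicInt.toZModPow m).mapMatrix (h₁.MM σ) *ᵥ e x =
          e (JZero.torsionGaloisRep (M * q) (p ^ m) σ x) := fun σ x => (h₁.isGal m σ x).symm
    set zt : Pic0.torsion Qb ↥(modularFunctionFieldBar (M * q)) (p ^ m) := ⟨z.1, hS z.2⟩
    rcases hv with ⟨i, hi, a, rfl⟩ | ⟨F, hFr, a, rfl⟩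
    · have h1 : JZero.torsionGaloisRep (M * q) (p ^ m) i zt = zt :=
        Subtype.ext (hI _ (compat_inertia A M q hq hqM hA hg hi) z.1 z.2)
      show ((PadicInt.toZModPow m).mapMatrix (h₁.MM i - 1) *ᵥ emb z) a = 0
      rw [map_sub, map_one, Matrix.sub_mulVec, Matrix.one_mulVec, hgal, h1, sub_self, Pi.zero_apply]
    · have h1 : JZero.torsionGaloisRep (M * q) (p ^ m) F
          (JZero.torsionGaloisRep (M * q) (p ^ m) F zt) = (q ^ 2) • zt :=
        Subtype.ext (by
          rw [AddSubgroupClass.coe_nsmul]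
          exact hF _ (compat_frobenius A M q hq hqM hA hg hFr) z.1 z.2)
      show ((PadicInt.toZModPow m).mapMatrix
        (h₁.MM F * h₁.MM F - ((q ^ 2 : ℕ) : Matrix _ _ ℤ_[p])) *ᵥ emb z) a = 0
      rw [map_sub, map_mul, map_natCast, Matrix.sub_mulVec, ← Matrix.mulVec_mulVec, hgal, hgal, h1,
        map_nsmul, Matrix.natCast_mulVec]
      simp [nsmul_eq_mul]
      exact sub_self _)
  refine ⟨B, hinj, fun i hi => ?_, fun F hFr => ?_⟩
  · have h : (h₁.MM i - 1) * B = 0 := by
      ext a b
      exact congrFun (hker _ (Or.inl ⟨i, hi, a, rfl⟩)) b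
    rwa [Matrix.sub_mul, Matrix.one_mul, sub_eq_zero] at h
  · have h : (h₁.MM F * h₁.MM F - ((q ^ 2 : ℕ) : Matrix (Fin (Period.rankH (M * q)))
        (Fin (Period.rankH (M * q))) ℤ_[p])) * B = 0 := by
      ext a b
      exact congrFun (hker _ (Or.inr ⟨F, hFr, a, rfl⟩)) b
    rw [Matrix.sub_mul, sub_eq_zero, Matrix.mul_assoc] at h
    rw [h, ← nsmul_one (A := Matrix (Fin (Period.rankH (M * q))) (Fin (Period.rankH (M * q))) ℤ_[p]),
      Matrix.smul_mul, Matrix.one_mul]

/-- **The toric part at level `q M`.** -/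
theorem exists_toric_of_eq {N : ℕ} [NeZero N] (hN : N = M * q) (hq : q.Prime) (hqp : q ≠ p)
    (hqM : ¬ q ∣ M) (h₁ : Degen.CanModel ι N p) :
    ∃ j : ℕ, Period.rankH N ≤ 2 * Period.rankH M + 2 * j ∧
      Local.HasToricPart h₁.toGalModel q j := by
  subst hN
  refine ⟨genusFF Qb ↥(modularFunctionFieldBar (M * q)) -
    2 * genusFF Qb ↥(modularFunctionFieldBar M), ?_, fun A hA =>
      exists_toric_matrix A M q hq hqp hqM hA h₁⟩
  have h1 := two_mul_genusFF_bar (M * q)
  have h2 := two_mul_genusFF_bar M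
  omega

end FLTAgent.BadQ
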