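import Fermat.Agent.BadQ.TwoGens

/-!
# A crossing of level `qM` is not a cusp

`not_crossing_of_cusp`: a point of the special fibre on a cusp section is not a crossing of the two
components. The proof uses the relation between the two cusp parameters there (`cusp_relation'`).
-/

set_option autoImplicit false

namespace FLTAgent.BadQ.Two

open Ideal

variable {q : ℕ} {W A₀ A₁ C F₁ : Type*} [CommRing W] [CommRing A₀] [CommRing A₁]
  [CommRing C] [Field F₁] [Algebra W A₀] [Algebra W A₁] [Algebra W C]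
  [Algebra W F₁] [Algebra A₁ F₁] [IsDedekindDomain C]
  [IsDomain A₀] [IsDomain A₁] [IsNoetherianRing A₀] [IsNoetherianRing A₁]
  [IsIntegrallyClosed A₁] [IsFractionRing A₁ F₁]

namespace StepData

variable (h : StepData q W A₀ A₁ C F₁) {Q : Ideal C} [hQ : Q.IsMaximal]
include h

/-- Two parameters of the same cusp differ locally by units. -/
theorem cusp_param_assoc {c : Ideal A₀} (hc : c ∈ h.cusp) (hcQ : c ≤ h.mA Q) {u u' : A₀}
    (hu : IsUnif Q (h.red u)) (hu' : u' ∈ c)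
    (hgen : ∀ a ∈ c, ∃ s ∉ h.mA Q, s * a ∈ Ideal.span {u}) (hu'' : IsUnif Q (h.red u')) :
    ∃ s t : A₀, s ∉ h.mA Q ∧ t ∉ h.mA Q ∧ s * u' = t * u := by
  obtain ⟨s, hs, hsu⟩ := hgen u' hu'
  obtain ⟨t, ht⟩ := Ideal.mem_span_singleton'.1 hsu
  refine ⟨s, t, hs, fun htm => ?_, ht.symm⟩
  have e : h.red t * h.red u = h.red s * h.red u' := by rw [← map_mul, ← map_mul, ht]
  have : h.red s * h.red u' ∈ Q ^ 2 := by
    rw [← e, pow_two]; exact mul_mem_mul htm hu.1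
  exact hu''.2 (notMem_pow_of_mul (Q := Q) (s := h.red s) hs 2 this)

theorem cusp_relation' {c : Ideal A₀} (hc : c ∈ h.cusp) (hcQ : c ≤ h.mA Q) :
    ∃ c' ∈ h.cusp, c' ≤ h.mA (h.fr Q) ∧ ∀ u ∈ c, IsUnif Q (h.red u) → ∀ v ∈ c', IsUnif (h.fr Q) (h.red v) →
      ∃ s n : A₁, s ∉ h.xI Q ∧ n ∉ h.xI Q ∧ s * h.α u ^ q = n * h.β v := by
  obtain ⟨c', hc', hc'Q, u₁, v₁, hu₁, hv₁, hu₁c, hv₁c, s, n, hs, hn, e⟩ := h.cusp_relation hc hcQ
  refine ⟨c', hc', hc'Q, fun u hu huu v hv hvv => ?_⟩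
  obtain ⟨g, hgc, hg, hggen⟩ := h.exists_cusp_gen hc hcQ
  obtain ⟨g', hgc', hg', hggen'⟩ := h.exists_cusp_gen hc' hc'Q
  obtain ⟨a, b, ha, hb, hab⟩ := h.cusp_param_assoc hc hcQ hg hu hggen huu
  obtain ⟨a₁, b₁, ha₁, hb₁, hab₁⟩ := h.cusp_param_assoc hc hcQ hg hu₁c hggen hu₁
  obtain ⟨d, e', hd, he', hde⟩ := h.cusp_param_assoc hc' hc'Q hg' hv hggen' hvv
  obtain ⟨d₁, e₁, hd₁, he₁, hde₁⟩ := h.cusp_param_assoc hc' hc'Q hg' hv₁c hggen' hv₁
  have hα : ∀ t, t ∉ h.mA Q → h.α t ∉ h.xI Q := fun t ht hm => ht (h.comap_α_xI.le hm)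
  have hβ : ∀ t, t ∉ h.mA (h.fr Q) → h.β t ∉ h.xI Q := fun t ht hm => ht (h.comap_β_xI.le hm)
  refine ⟨s * (h.α a * h.α b₁) ^ q * (h.β d₁ * h.β e'),
    n * (h.α a₁ * h.α b) ^ q * (h.β d * h.β e₁), ?_, ?_, ?_⟩
  · simp only [Ideal.IsPrime.mul_mem_iff_mem_or_mem inferInstance,
      Ideal.IsPrime.pow_mem_iff_mem inferInstance q h.prime.pos, not_or]
    exact ⟨⟨hs, hα _ ha, hα _ hb₁⟩, hβ _ hd₁, hβ _ he'⟩
  · simp only [Ideal.IsPrime.mul_mem_iff_mem_or_mem inferInstance,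
      Ideal.IsPrime.pow_mem_iff_mem inferInstance q h.prime.pos, not_or]
    exact ⟨⟨hn, hα _ ha₁, hα _ hb⟩, hβ _ hd, hβ _ he₁⟩
  · have h1 : (h.α a * h.α b₁) * h.α u = (h.α a₁ * h.α b) * h.α u₁ := by
      rw [← map_mul, ← map_mul, ← map_mul, ← map_mul]
      congr 1
      linear_combination b₁ * hab - b * hab₁
    have h2 : (h.β d₁ * h.β e') * h.β v₁ = (h.β d * h.β e₁) * h.β v := by
      rw [← map_mul, ← map_mul, ← map_mul, ← map_mul]
      congr 1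
      linear_combination e' * hde₁ - e₁ * hde
    have h1' := congrArg (· ^ q) h1
    simp only [mul_pow] at h1' ⊢
    linear_combination (s * (h.β d₁ * h.β e')) * h1' + ((h.α a₁) ^ q * (h.α b) ^ q * (h.β d₁ * h.β e')) * e +
      ((h.α a₁) ^ q * (h.α b) ^ q * n) * h2

/-- A point on a cusp section is not a crossing. -/
theorem not_crossing_of_cusp {c : Ideal A₀} (hc : c ∈ h.cusp) (hcQ : c ≤ h.mA Q) :
    ¬ h.Crossing Q := by
  intro hx
  obtain ⟨hfr, hxz⟩ := h.crossing_iff.1 hx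
  obtain ⟨u, huc, hu, _⟩ := h.exists_cusp_gen hc hcQ
  obtain ⟨c', hc', hc'Q, H⟩ := h.cusp_relation' hc hcQ
  obtain ⟨v, hvc, hv, _⟩ := h.exists_cusp_gen hc' hc'Q
  obtain ⟨s, n, hs, hn, e⟩ := H u huc hu v hvc hv
  obtain ⟨c'', hc'', hc''Q, H'⟩ := h.cusp_relation' (Q := h.fr Q) hc' hc'Q
  obtain rfl : c'' = c := h.cusp_unique _ hc'' _ hc Q hQ (by rw [hfr] at hc''Q; exact hc''Q) hcQ
  obtain ⟨s', n', hs', hn', e'⟩ := H' v hvc hv u huc (by rw [hfr]; exact hu)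
  have hι : ∀ a, a ∉ h.xI (h.fr Q) → h.ι a ∉ h.xI Q := by
    intro a ha hm
    rw [← hxz] at hm
    exact ha ((h.comap_ι_xZ (Q := h.fr Q)).le hm)
  have e2 := congrArg h.ι e'
  rw [map_mul, map_mul, map_pow, h.ι_α, h.ι_β] at e2
  have hux : h.α u ∈ h.xI Q := h.α_mem_xI hu.1
  have hu0 : h.α u ≠ 0 := fun e0 => hu.ne_zero (by rw [← h.piInf_α, e0, map_zero])
  have key : h.α u * (h.ι s' * s ^ q * h.α u ^ (q * q - 1) - n ^ q * h.ι n') = 0 := by
    have hq1 : h.α u * h.α u ^ (q * q - 1) = (h.α u ^ q) ^ q := by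
      rw [← pow_succ', Nat.sub_add_cancel (Nat.mul_pos h.prime.pos h.prime.pos), pow_mul]
    have h3 := congrArg (· ^ q) e
    simp only [mul_pow] at h3
    linear_combination (h.ι s' * s ^ q) * hq1 + h.ι s' * h3 + n ^ q * e2
  have h4 := sub_eq_zero.1 ((mul_eq_zero.1 key).resolve_left hu0)
  have h5 : n ^ q * h.ι n' ∈ h.xI Q := by
    rw [← h4]
    exact mul_mem_left _ _ (Ideal.pow_mem_of_mem _ hux _
      (Nat.sub_pos_of_lt (Nat.one_lt_mul_iff.2 ⟨h.prime.pos, h.prime.pos, Or.inl h.prime.one_lt⟩)))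
  rcases Ideal.IsPrime.mem_or_mem inferInstance h5 with hm | hm
  · exact hn (Ideal.IsPrime.mem_of_pow_mem inferInstance q hm)
  · exact hι _ hn' hm

end StepData

end FLTAgent.BadQ.Two
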