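import Mathlib

/-!
# The local structure of level `q²M`: abstract input and output

Everything is stated for one chart, in pure commutative algebra: `StepData` is what has to be known
about levels `M` and `qM`, `TowerData` what has to be known about level `q²M`, and `ModelTwo` is
the conclusion, proved in `BadQ/TwoModel`.

Dictionary: `W` = coefficient ring (residue field algebraically closed of characteristic `q`),
`A₀`, `A₁`, `A₂` = chart rings of levels `M`, `qM`, `q²M`, `C` = coordinate ring of the special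
fibre at level `M`; `α f = f(z)`, `β f = f(qz)` from `A₀` to `A₁`; `ι` = Atkin–Lehner at `q`;
`lam g = g(z)`, `rho g = g(qz)` from `A₁` to `A₂`; `φ` = reduction of `f ↦ f(qz)`.
`cusp` = set of primes of `A₀` of the cusp sections in the chart.
`der` = any derivation over `W` (for example `q d/dq` or `d/dt`) injective modulo constants.
-/

set_option autoImplicit false

namespace FLTAgent.BadQ.Two

/-- Local generation of an ideal: `I` becomes equal to `(s)` after localising at `y`. -/
def GeneratesAt {A : Type*} [CommRing A] (I : Ideal A) (s : Set A) (y : Ideal A) [y.IsPrime] :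
    Prop :=
  I.map (algebraMap A (Localization.AtPrime y)) =
    (Ideal.span s).map (algebraMap A (Localization.AtPrime y))

/-- Equality up to a unit after localising at `y`. -/
def AssociatedAt {A : Type*} [CommRing A] (a b : A) (y : Ideal A) [y.IsPrime] : Prop :=
  Associated (algebraMap A (Localization.AtPrime y) a) (algebraMap A (Localization.AtPrime y) b)

variable (q : ℕ) (W A₀ A₁ A₂ C F₁ : Type*) [CommRing W] [CommRing A₀] [CommRing A₁] [CommRing A₂]
  [CommRing C] [Field F₁] [Algebra W A₀] [Algebra W A₁] [Algebra W A₂] [Algebra W C]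
  [Algebra W F₁] [Algebra A₁ F₁]

/-- What has to be known about the step from level `M` to level `qM` (one chart). -/
structure StepData where
  /-- `f ↦ f(z)` -/
  α : A₀ →ₐ[W] A₁
  /-- `f ↦ f(qz)` -/
  β : A₀ →ₐ[W] A₁
  /-- Atkin–Lehner involution at `q` -/
  ι : A₁ ≃ₐ[W] A₁
  /-- reduction at level `M` -/
  red : A₀ →ₐ[W] C
  /-- the relative Frobenius of the special fibre at level `M` -/
  φ : C →ₐ[W] C
  /-- restriction to the component of the cusp `∞` -/
  piInf : A₁ →ₐ[W] C
  /-- the cusp sections at level `M` -/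
  cusp : Set (Ideal A₀)
  /-- a derivation over `W` -/
  der : Derivation W A₁ F₁
  prime : q.Prime
  q_ne_zero : (q : A₁) ≠ 0
  ι_α : ∀ a, ι (α a) = β a
  ι_β : ∀ a, ι (β a) = α a
  α_finite : α.toRingHom.Finite
  α_injective : Function.Injective α
  red_surjective : Function.Surjective red
  ker_red : RingHom.ker red = Ideal.span {(q : A₀)}
  /-- every closed point of the special fibre is rational over the residue field -/
  closed_point_rational : ∀ Q : Ideal C, Q.IsMaximal →
    Function.Surjective fun w : W => Ideal.Quotient.mk Q (algebraMap W C w)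
  not_isField : ¬ IsField C
  φ_injective : Function.Injective φ
  φ_range : Set.range φ = Set.range fun a : C => a ^ q
  piInf_α : ∀ a, piInf (α a) = red a
  piInf_β : ∀ a, piInf (β a) = φ (red a)
  /-- the special fibre is reduced with only the two components -/
  reduced : ∀ a : A₁, piInf a = 0 → piInf (ι a) = 0 → (q : A₁) ∣ a
  /-- the derivation is not trivial on a function which is non-constant on the special fibre -/
  der_ne : ∀ a : A₀, der (α a) = 0 → ∃ w : W, red a = algebraMap W C w
  /-- `β` is unramified off the cusps on the generic fibre -/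
  etale : ∀ P : Ideal A₁, P.IsPrime → (q : A₁) ∉ P → P.comap β ∉ cusp →
    ∀ a : A₁, ∃ s ∉ P,
      s • KaehlerDifferential.D W A₁ a ∈
        Submodule.span A₁ (Set.range fun b : A₀ => KaehlerDifferential.D W A₁ (β b))
  cusp_prime : ∀ c ∈ cusp, c.IsPrime ∧ (q : A₀) ∉ c
  /-- each cusp meets the special fibre in this chart transversally -/
  cusp_gen : ∀ c ∈ cusp, ∀ Q : Ideal C, Q.IsMaximal → c ≤ Q.comap red →
    ∃ u ∈ c, (∀ a ∈ c, ∃ s ∉ Q.comap red, s * a ∈ Ideal.span {u}) ∧
      red u ∈ Q ∧ ∀ a ∈ Q, ∃ s ∉ Q, s * a ∈ Ideal.span {red u}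
  /-- distinct cusps have distinct reductions -/
  cusp_unique : ∀ c ∈ cusp, ∀ c' ∈ cusp, ∀ Q : Ideal C, Q.IsMaximal → c ≤ Q.comap red →
    c' ≤ Q.comap red → c = c'
  /-- there is a point which is neither a cusp nor fixed by the square of Frobenius -/
  exists_ordinary : ∃ Q : Ideal C, Q.IsMaximal ∧ (Q.comap φ).comap φ ≠ Q ∧
    ∀ c ∈ cusp, ¬ c ≤ Q.comap red
  exists_cusp : ∃ c ∈ cusp, ∃ Q : Ideal C, Q.IsMaximal ∧ c ≤ Q.comap red
  cusp_iff : ∀ P : Ideal A₁, P.IsPrime → (P.comap α ∈ cusp ↔ P.comap β ∈ cusp)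
  /-- over a cusp the ramification indices of `(α, β)` are `(1, q)` or `(q, 1)` -/
  cusp_ramified : ∀ P : Ideal A₁, ∀ _ : P.IsPrime, P.comap α ∈ cusp →
    (((P.comap α).map α).map (algebraMap A₁ (Localization.AtPrime P))) ^ q =
        ((P.comap β).map β).map (algebraMap A₁ (Localization.AtPrime P)) ∨
      (((P.comap β).map β).map (algebraMap A₁ (Localization.AtPrime P))) ^ q =
        ((P.comap α).map α).map (algebraMap A₁ (Localization.AtPrime P))

variable {q W A₀ A₁ A₂ C F₁}

/-- restriction to the component of the cusp `0` -/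
def StepData.piZero (h : StepData q W A₀ A₁ C F₁) : A₁ →ₐ[W] C := h.piInf.comp h.ι.toAlgHom

/-- A closed point `Q` of the special fibre of level `M` whose two images at level `qM` meet. -/
def StepData.Crossing (h : StepData q W A₀ A₁ C F₁) (Q : Ideal C) : Prop :=
  ∃ Q' : Ideal C, Q'.IsMaximal ∧ Q'.comap h.piZero = Q.comap h.piInf

/-- The step from level `qM` to level `q²M`. -/
structure TowerData (h : StepData q W A₀ A₁ C F₁) (A₂ : Type*) [CommRing A₂] [Algebra W A₂] where
  /-- `g ↦ g(z)` -/
  lam : A₁ →ₐ[W] A₂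
  /-- `g ↦ g(qz)` -/
  rho : A₁ →ₐ[W] A₂
  compat : ∀ a, lam (h.β a) = rho (h.α a)
  lam_finite : lam.toRingHom.Finite
  rho_finite : rho.toRingHom.Finite
  lam_injective : Function.Injective lam
  rho_injective : Function.Injective rho
  lam_not_surjective : ¬ Function.Surjective lam
  /-- the two images generate the fraction field -/
  generates : ∀ a : A₂, ∃ s ∈ Algebra.adjoin W (Set.range lam ∪ Set.range rho), s ≠ 0 ∧
    s * a ∈ Algebra.adjoin W (Set.range lam ∪ Set.range rho)
  /-- `f(z) = f(q²z)` only for constants -/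
  ne : ∀ a : A₀, lam (h.α a) = rho (h.β a) → ∃ w : W, h.red a = algebraMap W C w

variable (q) in
/-- Multiplicities of `C₂₀`, `C₁₁`, `C₀₂`. -/
def mult : Fin 3 → ℕ := ![1, q - 1, 1]

/-- The local structure of the chart of level `q²M`: components `0 = C₂₀`, `1 = C₁₁`, `2 = C₀₂`,
each isomorphic to the special fibre `C` of level `M`. -/
structure ModelTwo {h : StepData q W A₀ A₁ C F₁} (t : TowerData h A₂) where
  comp : Fin 3 → A₂ →ₐ[W] C
  comp_surjective : ∀ i, Function.Surjective (comp i)
  comp_lam_zero : ∀ a, comp 0 (t.lam a) = h.piInf a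
  comp_rho_zero : ∀ a, comp 0 (t.rho a) = h.φ (h.piInf a)
  comp_lam_one : ∀ a, comp 1 (t.lam a) = h.piInf a
  comp_rho_one : ∀ a, comp 1 (t.rho a) = h.piZero a
  comp_lam_two : ∀ a, comp 2 (t.lam a) = h.φ (h.piZero a)
  comp_rho_two : ∀ a, comp 2 (t.rho a) = h.piZero a
  /-- the kernels are pairwise incomparable -/
  ker_injective : ∀ i j, RingHom.ker (comp i) ≤ RingHom.ker (comp j) → i = j
  /-- the whole special fibre -/
  exists_ker_le : ∀ P : Ideal A₂, P.IsPrime → (q : A₂) ∈ P → ∃ i, RingHom.ker (comp i) ≤ P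
  q_mem : ∀ i, comp i (q : A₂) = 0
  /-- closed points with `q` are rational over the residue field -/
  closed_point_rational : ∀ y : Ideal A₂, y.IsMaximal → (q : A₂) ∈ y →
    Function.Surjective fun w : W => Ideal.Quotient.mk y (algebraMap W A₂ w)
  /-- a homomorphism with the same restrictions is the given one (gives naturality) -/
  comp_ext : ∀ i (f : A₂ →+* C), (∀ a, f (t.lam a) = comp i (t.lam a)) →
    (∀ a, f (t.rho a) = comp i (t.rho a)) → f = (comp i).toRingHom
  /-- away from crossings: one component, regular -/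
  smooth : ∀ i (Q : Ideal C), ∀ _ : Q.IsMaximal, ¬ h.Crossing Q →
    (∀ j (Q' : Ideal C), Q'.IsMaximal → Q'.comap (comp j) = Q.comap (comp i) → j = i ∧ Q' = Q) ∧
    ∃ g u : A₂, comp i g = 0 ∧
      GeneratesAt (Q.comap (comp i)) {g, u} (Q.comap (comp i)) ∧
      GeneratesAt (RingHom.ker (comp i)) {g} (Q.comap (comp i)) ∧
      AssociatedAt (q : A₂) (g ^ mult q i) (Q.comap (comp i))
  /-- at a crossing: one point, three branches, pairwise transversal -/
  crossing : ∀ (Q : Ideal C), ∀ _ : Q.IsMaximal, h.Crossing Q →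
    (∀ i j, Q.comap (comp i) = Q.comap (comp j)) ∧
    ∃ g : Fin 3 → A₂, (∀ i, comp i (g i) = 0) ∧
      (∀ i j, i ≠ j → GeneratesAt (Q.comap (comp 0)) {g i, g j} (Q.comap (comp 0))) ∧
      (∀ i, GeneratesAt (RingHom.ker (comp i)) {g i} (Q.comap (comp 0))) ∧
      AssociatedAt (q : A₂) (g 0 * g 1 ^ (q - 1) * g 2) (Q.comap (comp 0))
  /-- no other coincidences of points -/
  eq_of_comap_eq : ∀ i j (Q Q' : Ideal C), Q.IsMaximal → Q'.IsMaximal →
    Q.comap (comp i) = Q'.comap (comp j) → Q = Q'
  /-- regularity (hence factoriality) everywhere on the special fibre -/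
  factorial : ∀ y : Ideal A₂, ∀ _ : y.IsMaximal, (q : A₂) ∈ y → ∃ _ : IsDomain A₂,
    UniqueFactorizationMonoid (Localization.AtPrime y)

end FLTAgent.BadQ.Two
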