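import Mathlib

/-!
# Subalgebras of `C × C` glued along Frobenius twisted point pairs

A subalgebra `B` of `C × C` containing both twisted graphs `(c, Fr c)`, `(Fr c, c)` glues only
finitely many pairs of points (`nodes_finite`) and is the set of pairs which agree at all of them
(`mem_iff_forall_nodes`): the ideals supported on one component are radical as `Fr c` is a `q`-th
power.
-/

set_option autoImplicit false
set_option linter.unusedSectionVars false

noncomputable section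

namespace FLTAgent.BadQ

variable {k C : Type*} [Field k] [CommRing C] [Algebra k C]

/-- Pairs of points of `C` on which `B` glues. -/
def nodes (B : Subalgebra k (C × C)) : Set ((C →ₐ[k] k) × (C →ₐ[k] k)) :=
  {p | ∀ z ∈ B, p.1 z.1 = p.2 z.2}

theorem exists_algHom_ne_zero {A : Type*} [CommRing A] [Algebra k A] [IsAlgClosed k]
    [Module.Finite k A] [IsReduced A] {a : A} (ha : a ≠ 0) : ∃ e : A →ₐ[k] k, e a ≠ 0 := by
  obtain ⟨P, hP, haP⟩ : ∃ P : Ideal A, P.IsPrime ∧ a ∉ P := by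
    by_contra h
    push Not at h
    have : a ∈ nilradical A := by
      rw [nilradical_eq_sInf]
      exact Submodule.mem_sInf.mpr fun P hP => h P hP
    rw [nilradical_eq_zero] at this
    exact ha this
  have : IsArtinianRing A := .of_finite k A
  have hmax : P.IsMaximal := IsArtinianRing.isMaximal_of_isPrime P
  let _ := Ideal.Quotient.field P
  have hbij : Function.Bijective (algebraMap k (A ⧸ P)) :=
    IsAlgClosed.algebraMap_bijective_of_isIntegral
  refine ⟨(AlgEquiv.ofBijective (Algebra.ofId k (A ⧸ P)) hbij).symm.toAlgHom.comp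
    (Ideal.Quotient.mkₐ k P), ?_⟩
  simpa [Ideal.Quotient.eq_zero_iff_mem] using haP

theorem finite_algHom_of_moduleFinite {A : Type*} [CommRing A] [Algebra k A]
    [Module.Finite k A] : Finite (A →ₐ[k] k) := by
  have : IsArtinianRing A := .of_finite k A
  refine Finite.of_injective (β := PrimeSpectrum A)
    (fun e => ⟨RingHom.ker e.toRingHom, RingHom.ker_isPrime _⟩) fun e e' h => ?_
  ext a
  have h1 : a - algebraMap k A (e a) ∈ RingHom.ker e.toRingHom := by
    simp [RingHom.mem_ker]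
  rw [PrimeSpectrum.mk.injEq] at h
  rw [h] at h1
  have h2 : e' a - e a = 0 := by simpa [RingHom.mem_ker] using h1
  exact (sub_eq_zero.mp h2).symm

section glue

variable (B : Subalgebra k (C × C)) (Fr : C →ₐ[k] C)

/-- the elements supported on the first component -/
def leftIdeal (hgr : ∀ c, (c, Fr c) ∈ B) : Ideal C where
  carrier := {a | (a, 0) ∈ B}
  add_mem' {a a'} ha ha' := by
    have := B.add_mem ha ha'
    simpa using this
  zero_mem' := B.zero_mem
  smul_mem' c a ha := by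
    have := B.mul_mem (hgr c) ha
    simpa using this

/-- the elements supported on the second component -/
def rightIdeal (hgl : ∀ c, (Fr c, c) ∈ B) : Ideal C where
  carrier := {a | (0, a) ∈ B}
  add_mem' {a a'} ha ha' := by
    have := B.add_mem ha ha'
    simpa using this
  zero_mem' := B.zero_mem
  smul_mem' c a ha := by
    have := B.mul_mem (hgl c) ha
    simpa using this

variable (hgr : ∀ c, (c, Fr c) ∈ B) (hgl : ∀ c, (Fr c, c) ∈ B)

include hgr hgl

theorem mem_leftIdeal {a : C} : a ∈ leftIdeal B Fr hgr ↔ (a, 0) ∈ B := Iff.rfl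

theorem mem_rightIdeal {a : C} : a ∈ rightIdeal B Fr hgl ↔ (0, a) ∈ B := Iff.rfl

/-- membership in `B` through the twist -/
theorem mem_iff_sub_mem_rightIdeal {a b : C} :
    (a, b) ∈ B ↔ b - Fr a ∈ rightIdeal B Fr hgl := by
  rw [mem_rightIdeal B Fr hgr hgl]
  constructor
  · intro h
    simpa using B.sub_mem h (hgr a)
  · intro h
    simpa using B.add_mem h (hgr a)

theorem map_mem_rightIdeal_iff {a : C} :
    Fr a ∈ rightIdeal B Fr hgl ↔ a ∈ leftIdeal B Fr hgr := by
  rw [mem_leftIdeal B Fr hgr hgl, mem_iff_sub_mem_rightIdeal B Fr hgr hgl, zero_sub, neg_mem_iff]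

theorem rightIdeal_ne_bot (hne : ∃ c, Fr (Fr c) ≠ c) : rightIdeal B Fr hgl ≠ ⊥ := by
  obtain ⟨c, hc⟩ := hne
  have : c - Fr (Fr c) ∈ rightIdeal B Fr hgl :=
    (mem_iff_sub_mem_rightIdeal B Fr hgr hgl).mp (hgl c)
  intro h
  rw [h, Ideal.mem_bot, sub_eq_zero] at this
  exact hc this.symm

theorem leftIdeal_ne_bot (hne : ∃ c, Fr (Fr c) ≠ c) : leftIdeal B Fr hgr ≠ ⊥ := by
  obtain ⟨c, hc⟩ := hne
  have h : (Fr (Fr c) - c, 0) ∈ B := by simpa using B.sub_mem (hgl (Fr c)) (hgr c)
  intro hb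
  rw [← mem_leftIdeal B Fr hgr hgl, hb, Ideal.mem_bot, sub_eq_zero] at h
  exact hc h

theorem rightIdeal_radical [IsNoetherianRing C] {q : ℕ} (hq : 2 ≤ q)
    (hpow : ∀ c, ∃ d, Fr c = d ^ q) :
    (rightIdeal B Fr hgl).IsRadical := by
  set J := rightIdeal B Fr hgl with hJ
  set R := J.radical with hR
  have hle : J ≤ R := Ideal.le_radical
  have hstep : R ≤ J ⊔ R ^ 2 := by
    intro n hn
    obtain ⟨m, hm⟩ := hn
    have hleft : Fr n ^ m ∈ leftIdeal B Fr hgr := by
      rw [← map_pow, mem_leftIdeal B Fr hgr hgl, mem_iff_sub_mem_rightIdeal B Fr hgr hgl, zero_sub, neg_mem_iff]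
      have h2 : n ^ m - Fr (Fr (n ^ m)) ∈ J :=
        (mem_iff_sub_mem_rightIdeal B Fr hgr hgl).mp (hgl _)
      have := J.sub_mem hm h2
      simpa using this
    obtain ⟨d, hd⟩ := hpow (Fr n)
    have h3 : Fr (Fr n) ∈ R := by
      refine ⟨m, ?_⟩
      rw [← map_pow]
      exact (map_mem_rightIdeal_iff B Fr hgr hgl).mpr hleft
    have h4 : d ∈ R := by
      obtain ⟨i, hi⟩ := h3
      exact ⟨q * i, by rw [pow_mul, ← hd]; exact hi⟩
    have h5 : Fr (Fr n) ∈ R ^ 2 := by
      rw [hd]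
      exact Ideal.pow_le_pow_right hq (Ideal.pow_mem_pow h4 q)
    have h6 : n - Fr (Fr n) ∈ J := (mem_iff_sub_mem_rightIdeal B Fr hgr hgl).mp (hgl n)
    rw [← sub_add_cancel n (Fr (Fr n))]
    exact Submodule.add_mem_sup h6 h5
  have hind : ∀ j : ℕ, R ≤ J ⊔ R ^ (j + 1) := by
    intro j
    induction j with
    | zero => rw [zero_add, pow_one]; exact le_sup_right
    | succ j ih =>
      have h1 : R * R ≤ R * (J ⊔ R ^ (j + 1)) := Ideal.mul_mono le_rfl ih
      rw [Ideal.mul_sup, ← pow_succ', ← pow_two] at h1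
      have h2 : R * J ≤ J := Ideal.mul_le_right
      exact hstep.trans (sup_le le_sup_left (h1.trans (sup_le_sup_right h2 _)))
  obtain ⟨N, hN⟩ := J.exists_radical_pow_le_of_fg (IsNoetherian.noetherian _)
  have : R ≤ J :=
    (hind N).trans (sup_le le_rfl ((Ideal.pow_le_pow_right (Nat.le_succ N)).trans hN))
  exact Ideal.radical_eq_iff.mp (le_antisymm this hle)

theorem leftIdeal_radical [IsNoetherianRing C] {q : ℕ} (hq : 2 ≤ q)
    (hpow : ∀ c, ∃ d, Fr c = d ^ q) :
    (leftIdeal B Fr hgr).IsRadical := by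
  intro n hn
  obtain ⟨m, hm⟩ := hn
  rw [← map_mem_rightIdeal_iff B Fr hgr hgl]
  refine rightIdeal_radical B Fr hgr hgl hq hpow ⟨m, ?_⟩
  rw [← map_pow]
  exact (map_mem_rightIdeal_iff B Fr hgr hgl).mpr hm

theorem node_right_twist {p : (C →ₐ[k] k) × (C →ₐ[k] k)} (hp : p ∈ nodes B) (c : C) :
    p.2 (Fr c) = p.1 c :=
  (hp _ (hgr c)).symm

theorem node_left_twist {p : (C →ₐ[k] k) × (C →ₐ[k] k)} (hp : p ∈ nodes B) (c : C) :
    p.1 (Fr c) = p.2 c :=
  hp _ (hgl c)

theorem node_ext {p p' : (C →ₐ[k] k) × (C →ₐ[k] k)} (hp : p ∈ nodes B) (hp' : p' ∈ nodes B)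
    (h : p.1 = p'.1) : p = p' := by
  refine Prod.ext h (AlgHom.ext fun c => ?_)
  rw [← node_left_twist B Fr hgr hgl hp, ← node_left_twist B Fr hgr hgl hp', h]

theorem node_ext' {p p' : (C →ₐ[k] k) × (C →ₐ[k] k)} (hp : p ∈ nodes B) (hp' : p' ∈ nodes B)
    (h : p.2 = p'.2) : p = p' := by
  refine Prod.ext (AlgHom.ext fun c => ?_) h
  rw [← node_right_twist B Fr hgr hgl hp, ← node_right_twist B Fr hgr hgl hp', h]

variable [IsAlgClosed k] [IsNoetherianRing C]
  (hfin : ∀ I : Ideal C, I ≠ ⊥ → Module.Finite k (C ⧸ I))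
  (hne : ∃ c, Fr (Fr c) ≠ c)

include hfin hne in
theorem nodes_finite : (nodes B).Finite := by
  have := hfin _ (leftIdeal_ne_bot B Fr hgr hgl hne)
  have := finite_algHom_of_moduleFinite (k := k) (A := C ⧸ leftIdeal B Fr hgr)
  rw [Set.finite_coe_iff.symm]
  refine Finite.of_injective
    (fun p : nodes B => Ideal.Quotient.liftₐ (leftIdeal B Fr hgr) p.1.1
      (fun a ha => by simpa using p.2 _ ha)) fun p p' h => ?_
  refine Subtype.ext (node_ext B Fr hgr hgl p.2 p'.2 (AlgHom.ext fun c => ?_))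
  exact congrArg (fun e => e (Ideal.Quotient.mk (leftIdeal B Fr hgr) c)) h

include hfin hne in
theorem mem_iff_forall_nodes {q : ℕ} (hq : 2 ≤ q) (hpow : ∀ c, ∃ d, Fr c = d ^ q) (z : C × C) :
    z ∈ B ↔ ∀ p ∈ nodes B, p.1 z.1 = p.2 z.2 := by
  refine ⟨fun hz p hp => hp z hz, fun h => ?_⟩
  obtain ⟨a, b⟩ := z
  rw [mem_iff_sub_mem_rightIdeal B Fr hgr hgl]
  by_contra hab
  set J := rightIdeal B Fr hgl
  have := hfin J (rightIdeal_ne_bot B Fr hgr hgl hne)
  have : IsReduced (C ⧸ J) :=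
    (Ideal.isRadical_iff_quotient_reduced J).mp (rightIdeal_radical B Fr hgr hgl hq hpow)
  obtain ⟨e, he⟩ := exists_algHom_ne_zero (k := k) (A := C ⧸ J) (a := Ideal.Quotient.mk J (b - Fr a))
    (by rwa [ne_eq, Ideal.Quotient.eq_zero_iff_mem])
  set e' : C →ₐ[k] k := e.comp (Ideal.Quotient.mkₐ k J) with he'
  have hp : ((e'.comp Fr), e') ∈ nodes B := by
    rintro ⟨a', b'⟩ hz
    have h1 := (mem_iff_sub_mem_rightIdeal B Fr hgr hgl).mp hz
    show e' (Fr a') = e' b'
    rw [eq_comm, ← sub_eq_zero, ← map_sub, he']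
    simp only [AlgHom.comp_apply, Ideal.Quotient.mkₐ_eq_mk]
    rw [Ideal.Quotient.eq_zero_iff_mem.mpr h1, map_zero]
  have h2 := h _ hp
  apply he
  have : e' (b - Fr a) = 0 := by
    rw [map_sub, sub_eq_zero]; exact h2.symm
  exact this

end glue

end FLTAgent.BadQ
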