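import Fermat.Agent.BadQ.Gauss
import Fermat.Agent.BadQ.OneGlue

/-!
# Bad reduction at `q`: abstract one step models

A one step model `OneModel` packages what is needed at level `qM`: a function field `F / K` over a
discretely valued base, a coordinate `x`, two embeddings into Laurent series over `K` (the
expansions along the two components) and the function field `E / k` of the fibre of level `M`
together with its Frobenius twist `Fr` (`q ↦ q^q`). The chart `Base.chart` consists of the elements
integral over `W[x]`. The special fibre of such a model is computed in `BadQ/One`.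
-/

set_option autoImplicit false

noncomputable section

open Polynomial

namespace FLTAgent.BadQ

variable {K k F : Type*} [Field K] [Field k] [Field F] [Algebra K F]

namespace Base

variable (b : Base K k)

/-- `P ↦ P(x)` for `P` with coefficients in `W`. -/
def evalAt (x : F) : b.W[X] →+* F :=
  eval₂RingHom ((algebraMap K F).comp b.W.subtype) x

/-- the chart: elements integral over `W[x]`. -/
def chart (x : F) : Subring F where
  carrier := {y | (b.evalAt x).IsIntegralElem y}
  mul_mem' hy hz := hy.mul (b.evalAt x) hz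
  one_mem' := (b.evalAt x).isIntegralElem_one
  add_mem' hy hz := hy.add (b.evalAt x) hz
  zero_mem' := (b.evalAt x).isIntegralElem_zero
  neg_mem' hy := hy.neg (b.evalAt x)

theorem mem_chart {x y : F} : y ∈ b.chart x ↔ (b.evalAt x).IsIntegralElem y := Iff.rfl

theorem evalAt_mem_chart (x : F) (P : b.W[X]) : b.evalAt x P ∈ b.chart x :=
  (b.evalAt x).isIntegralElem_map

end Base

/-- The coordinate ring upstairs: integral closure of `k[x]` in `E`. -/
def intCl {L : Type*} [Field L] [Algebra k L] (x : L) : Subalgebra k L :=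
  (integralClosure (Algebra.adjoin k ({x} : Set L)) L).restrictScalars k

theorem mem_intCl {L : Type*} [Field L] [Algebra k L] {x y : L} :
    y ∈ intCl (k := k) x ↔ IsIntegral (Algebra.adjoin k ({x} : Set L)) y := Iff.rfl

/-- The data and hypotheses of a one step model (level `qM` over level `M`). -/
structure OneModel (b : Base K k) (F : Type*) [Field F] [Algebra K F] where
  /-- the prime -/
  q : ℕ
  two_le_q : 2 ≤ q
  /-- expansion along the first component -/
  ψI : F →ₐ[K] LaurentSeries K
  /-- expansion along the second component -/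
  ψO : F →ₐ[K] LaurentSeries K
  ψI_mem : ∀ y, ψI y ∈ b.fracField
  ψO_mem : ∀ y, ψO y ∈ b.fracField
  /-- the coordinate -/
  x : F
  /-- the function field of the fibre of level `M` -/
  E : IntermediateField k (LaurentSeries k)
  /-- the coordinate on the fibre -/
  xbar : E
  transcendental_xbar : Transcendental k xbar
  /-- the relative Frobenius `y(q) ↦ y(q^q)` -/
  Fr : E →ₐ[k] E
  Fr_xbar : Fr xbar = xbar ^ q
  Fr_pow : ∀ c : E, ∃ d : E, Fr c = d ^ q
  xI_mem : ψI x ∈ b.gaussRing
  xI_res : b.res ⟨ψI x, xI_mem⟩ = (xbar : LaurentSeries k)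
  xO_mem : ψO x ∈ b.gaussRing
  xO_res : b.res ⟨ψO x, xO_mem⟩ = (xbar : LaurentSeries k) ^ q
  /-- the degree `[E : k(x̄)]` -/
  n : ℕ
  /-- a family in the fibre chart, independent over `k[x̄]` -/
  basis : Fin n → intCl (k := k) xbar
  basis_indep : ∀ P : Fin n → k[X],
    ∑ i, Polynomial.aeval xbar (P i) * (basis i : E) = 0 → P = 0
  /-- `[F : K(x)] ≤ (q + 1) n` -/
  deg_le : ∀ v : Fin ((q + 1) * n + 1) → F, ∃ P : Fin ((q + 1) * n + 1) → K[X],
    P ≠ 0 ∧ ∑ i, Polynomial.aeval x (P i) * v i = 0
  finite_intCl : ∃ s : Finset E, ∀ c ∈ intCl (k := k) xbar,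
    c ∈ Submodule.span (Algebra.adjoin k ({xbar} : Set E)) (s : Set E)
  /-- functions of level `M` pulled back along the forgetful map -/
  liftI : ∀ c : intCl (k := k) xbar, ∃ y ∈ b.chart x,
    ∃ (hI : ψI y ∈ b.gaussRing) (hO : ψO y ∈ b.gaussRing),
      b.res ⟨ψI y, hI⟩ = ((c : E) : LaurentSeries k) ∧
      b.res ⟨ψO y, hO⟩ = ((Fr c : E) : LaurentSeries k)
  /-- functions of level `M` pulled back along the other degeneracy map -/
  liftO : ∀ c : intCl (k := k) xbar, ∃ y ∈ b.chart x,
    ∃ (hI : ψI y ∈ b.gaussRing) (hO : ψO y ∈ b.gaussRing),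
      b.res ⟨ψI y, hI⟩ = ((Fr c : E) : LaurentSeries k) ∧
      b.res ⟨ψO y, hO⟩ = ((c : E) : LaurentSeries k)

end FLTAgent.BadQ
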