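import Mathlib
import Fermat.Agent.Reduction.GaussField

/-!
# The coordinate of the models as a series

`tSer` is the expansion at `∞` of the modular unit of level `M` with its only pole at that cusp,
a series with integer coefficients (`coeffMap_tSer`); it lies in every function field of level
`M` (`tSer_mem_fullC`, through `mem_fullC_of_family`).
-/

set_option autoImplicit false
set_option linter.style.haveILetI false

noncomputable section

open ModularCurve IntermediateField
open scoped IntermediateField

namespace FLTAgent.BadQ.TwoInst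

open FLTAgent.ModularCosets FLTAgent.Reduction

section Series

variable (R : Type*) [CommRing R] (M : ℕ)

/-- The series of `∏ (Δ (d z) / Δ (z)) ^ (- r_d)` at `∞`. -/
def tUnit [NeZero M] : (LaurentSeries R)ˣ :=
  ∏ d : DivIdx M,
    (Units.map (qScale R (d : ℕ)).toMonoidHom (etaUnit R) * (etaUnit R)⁻¹) ^ (-unitExp M d)

/-- The series as an element. -/
def tSer [NeZero M] : LaurentSeries R := (tUnit R M : LaurentSeries R)

variable {R M} [NeZero M] {S : Type*} [CommRing S] (f : R →+* S)

theorem map_tUnit : Units.map (coeffMap f).toMonoidHom (tUnit R M) = tUnit S M := by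
  rw [tUnit, tUnit, map_prod]
  refine Finset.prod_congr rfl fun d _ => ?_
  rw [map_zpow, map_mul, map_inv, map_etaUnit]
  congr 3
  refine Units.ext ?_
  show coeffMap f (qScale R (d : ℕ) (etaSer R)) = qScale S (d : ℕ) (etaSer S)
  rw [coeffMap_qScale, coeffMap_etaSer]

theorem coeffMap_tSer : coeffMap f (tSer R M) = tSer S M := by
  rw [tSer, tSer, ← map_tUnit f]
  rfl

theorem tSer_mem_subring {L : Type*} [CommRing L] (B : Subring L) (i : ℤ) :
    (tSer L M).coeff i ∈ B := by
  rw [← coeffMap_tSer (M := M) (Int.castRingHom L), coeffMap_coeff, eq_intCast]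
  exact intCast_mem B _

theorem triData_cosetInf_aux {d : ℕ} [NeZero d] (hd : d ∣ M) :
    (triData d (cosetInf M).rep).a = d ∧ (triData d (cosetInf M).rep).b = 0 ∧
      (triData d (cosetInf M).rep).D = 1 := by
  have t := triData d (cosetInf M).rep
  have ha : (triData d (cosetInf M).rep).a = d := by
    rw [triData_a_rep]
    exact Nat.gcd_eq_left hd
  have hD : (triData d (cosetInf M).rep).D = 1 := by
    have h := (triData d (cosetInf M).rep).mul_eq
    rw [ha] at h
    exact (Nat.mul_eq_left (NeZero.ne d)).mp h
  refine ⟨ha, ?_, hD⟩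
  have hb := (triData d (cosetInf M).rep).b_lt
  rw [hD] at hb
  omega

theorem gaussUnit_cosetInf (ζ : Rˣ) :
    gaussUnit R ζ (cosetInf M) = Units.map (qScale R M).toMonoidHom (tUnit R M) := by
  rw [gaussUnit, tUnit, map_prod]
  refine Finset.prod_congr rfl fun d _ => ?_
  obtain ⟨ha, hb, hD⟩ := triData_cosetInf_aux (M := M) (d := (d : ℕ)) d.dvd
  rw [map_zpow, ha, hb, hD, deltaQuot, map_mul, map_inv]
  congr 2
  have h1 : natU R 1 = 1 := Units.ext (by rw [natU_val (by simp)]; simp)
  rw [h1, one_pow, map_one, inv_one, one_mul]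
  refine Units.ext ?_
  show cuspExp ζ M (d : ℕ) ((0 : ℕ) : ℤ) 1 (etaSer R) = qScale R M (qScale R (d : ℕ) (etaSer R))
  rw [cuspExp_apply, qScale_qScale (NeZero.ne M) (NeZero.ne _), Nat.div_one, Nat.cast_zero, zero_mul, zpow_zero,
    twist_one, mul_comm (d : ℕ) M]

end Series

section Membership

variable {N : ℕ} [NeZero N] {k : Type*} [Field k] (φ : zetaRing N →+* k)

include φ in
/-- A family with expansions over `ℤ[ζ, 1/N]` gives an element of every function field. -/
theorem mem_fullC_of_family (V : CosetFamily N) {y : LaurentSeries k}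
    (hy : coeffMap φ (V.ser (cosetInf N)) = upHom N k y) :
    y ∈ modularFunctionFieldFullC k N := by
  classical
  set E := IntermediateField.adjoin k {jUp N k, rootsOf φ (cosetInf N)}
  have hsym := isSymFamily_map φ V
  have hle : ∀ z ∈ polyJ (jUp N k), z ∈ E := fun z hz =>
    IntermediateField.adjoin.mono k _ _ (Set.singleton_subset_iff.mpr (Set.mem_insert _ _))
      (polyJ_le_adjoin _ hz)
  have hr : rootsOf φ (cosetInf N) ∈ E := subset_adjoin k _ (Set.mem_insert_of_mem _ rfl)
  have heval : ∀ P : Polynomial (LaurentSeries k), (∀ i, P.coeff i ∈ E) →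
      P.eval (rootsOf φ (cosetInf N)) ∈ E := fun P hP => by
    rw [Polynomial.eval_eq_sum, Polynomial.sum_def]
    exact sum_mem fun i _ => mul_mem (hP i) (pow_mem hr i)
  have hder : (Polynomial.derivative (famPoly (rootsOf φ))).eval (rootsOf φ (cosetInf N)) ≠ 0 := by
    rw [famPoly_derivative_eval]
    exact Finset.prod_ne_zero_iff.mpr fun δ hδ =>
      sub_ne_zero.mpr fun h => (Finset.mem_erase.mp hδ).1 (rootsOf_injective φ h).symm
  have hmem : upHom N k y ∈ E := by
    have h := famLagrange_eval (rootsOf φ) (coeffMap φ ∘ V.ser) (cosetInf N)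
    rw [Function.comp_apply, hy] at h
    rw [← mul_div_cancel_right₀ (upHom N k y) hder, ← h]
    refine div_mem (heval _ fun i => hle _ (hsym.coeff_lagrange i)) (heval _ fun i => ?_)
    rw [Polynomial.coeff_derivative]
    exact mul_mem (hle _ (hsym.coeff_root (i + 1)))
      (by exact_mod_cast IntermediateField.natCast_mem E (i + 1))
  have hE : E = (modularFunctionFieldFullC k N).map (upHom N k) := by
    rw [fullC_eq_adjoin_pair φ, adjoin_map, Set.image_pair, upHom_jTopC, upHom_apply,
      ← rootsOf_cosetInf φ]
    rfl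
  rw [hE, mem_map] at hmem
  obtain ⟨z, hz, hzy⟩ := hmem
  rw [← (upHom N k).toRingHom.injective hzy]
  exact hz

theorem upHom_tSer : upHom N k (tSer k N) = coeffMap φ ((unitFamily N).ser (cosetInf N)) := by
  rw [coeffMap_unit_ser, gaussUnit_cosetInf, upHom_apply]
  rfl

include φ in
theorem tSer_mem_fullC : tSer k N ∈ modularFunctionFieldFullC k N :=
  mem_fullC_of_family φ (unitFamily N) (upHom_tSer φ).symm

end Membership

end FLTAgent.BadQ.TwoInst
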