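import Mathlib
import Fermat.Agent.BadQ.TwoInstBase
import Fermat.Agent.BadQ.TwoInstUnit
import Fermat.Agent.BadQ.Defs
import Fermat.Agent.TwoChart.Basic
import Fermat.Agent.ModularCosets.Corollaries

/-!
# The function fields over the fixed field of inertia

`Fn A N` is the field of functions of level `N` with expansion over `K0`, `ser` its expansion,
`incl` and `scale` the maps `f(z) ↦ f(z)` and `f(z) ↦ f(dz)`. `coord` is the coordinate `t` or
`1/t` of level `M` given by the modular unit `tSer`, and `coordBar` its reduction.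
-/

set_option autoImplicit false
set_option linter.style.haveILetI false
set_option linter.unusedSectionVars false

noncomputable section

open ModularCurve IntermediateField

namespace FLTAgent.BadQ.TwoInst

open FLTAgent.ModularCosets FLTAgent.Reduction

local notation "Qb" => AlgebraicClosure ℚ

/-- The homomorphism `ℤ[ζ, 1/N] → ℚ̄`. -/
def phiQ (N : ℕ) [NeZero N] : zetaRing N →+* Qb :=
  (⊤ : ValuationSubring Qb).subtype.comp (zetaToValuation N ⊤ (by
    refine IsUnit.of_mul_eq_one ⟨(N : Qb)⁻¹, ValuationSubring.mem_top _⟩ (Subtype.ext ?_)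
    push_cast
    exact mul_inv_cancel₀ (by exact_mod_cast NeZero.ne N)))

theorem bar_eq_fullC (N : ℕ) [NeZero N] :
    modularFunctionFieldBar N = modularFunctionFieldFullC Qb N :=
  ModularCosets.laurentBaseChange_full (N := N) Qb

theorem mem_bar_iff {N : ℕ} [NeZero N] {y : LaurentSeries Qb} :
    y ∈ modularFunctionFieldBar N ↔ y ∈ modularFunctionFieldFullC Qb N :=
  SetLike.ext_iff.1 (bar_eq_fullC N) y

variable (A : ValuationSubring Qb)

/-- The function field over the fixed field of inertia. -/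
abbrev Fn (N : ℕ) : IntermediateField (K0 A) (modularFunctionFieldBar N) :=
  TwoChart.fixedF (modularFunctionFieldFull N) (inert A)

variable {A} {N : ℕ} [NeZero N]

theorem coeff_mem_K0 (y : Fn A N) (i : ℤ) :
    ((y : modularFunctionFieldBar N) : LaurentSeries Qb).coeff i ∈ K0 A :=
  TwoChart.mem_fixedF_iff_coeff.1 y.2 i

/-- The element given by a series with coefficients in the fixed field. -/
def mkFn (y : LaurentSeries Qb) (hy : y ∈ modularFunctionFieldFullC Qb N)
    (hc : ∀ i, y.coeff i ∈ K0 A) : Fn A N :=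
  ⟨⟨y, mem_bar_iff.2 hy⟩, TwoChart.mem_fixedF_iff_coeff.2 hc⟩

@[simp] theorem coe_mkFn (y : LaurentSeries Qb) (hy : y ∈ modularFunctionFieldFullC Qb N)
    (hc : ∀ i, y.coeff i ∈ K0 A) :
    (((mkFn y hy hc : Fn A N) : modularFunctionFieldBar N) : LaurentSeries Qb) = y := rfl

theorem coe_mem_fullC (y : Fn A N) :
    ((y : modularFunctionFieldBar N) : LaurentSeries Qb) ∈ modularFunctionFieldFullC Qb N :=
  mem_bar_iff.1 (y : modularFunctionFieldBar N).2

theorem ext_Fn {y z : Fn A N}
    (h : ((y : modularFunctionFieldBar N) : LaurentSeries Qb) =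
      ((z : modularFunctionFieldBar N) : LaurentSeries Qb)) : y = z :=
  Subtype.ext (Subtype.ext h)

theorem coe_algebraMap_Fn (a : K0 A) :
    (((algebraMap (K0 A) (Fn A N) a : Fn A N) : modularFunctionFieldBar N) : LaurentSeries Qb) =
      HahnSeries.C (a : Qb) := by
  rw [← algebraMap_eq_HC]
  rfl

/-- The expansion over the fixed field. -/
def serFun (y : Fn A N) : LaurentSeries (K0 A) where
  coeff i := ⟨_, coeff_mem_K0 y i⟩
  isPWO_support' := ((y : modularFunctionFieldBar N) : LaurentSeries Qb).isPWO_support.mono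
    fun _ hi h => hi (Subtype.ext h)

theorem coeffMap_serFun (y : Fn A N) :
    coeffMap (algebraMap (K0 A) Qb) (serFun y) =
      ((y : modularFunctionFieldBar N) : LaurentSeries Qb) := HahnSeries.ext (funext fun _ => rfl)

theorem coeffMap_K0_injective :
    Function.Injective (coeffMap (algebraMap (K0 A) Qb) : LaurentSeries (K0 A) → LaurentSeries Qb) :=
  Reduction.coeffMap_injective (algebraMap (K0 A) Qb).injective

variable (A N) in
/-- The expansion over the fixed field, as an algebra map. -/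
def ser : Fn A N →ₐ[K0 A] LaurentSeries (K0 A) where
  toFun := serFun
  map_one' := coeffMap_K0_injective (by rw [coeffMap_serFun, map_one]; rfl)
  map_zero' := coeffMap_K0_injective (by rw [coeffMap_serFun, map_zero]; rfl)
  map_mul' y z := coeffMap_K0_injective (by
    rw [map_mul, coeffMap_serFun, coeffMap_serFun, coeffMap_serFun]; rfl)
  map_add' y z := coeffMap_K0_injective (by
    rw [map_add, coeffMap_serFun, coeffMap_serFun, coeffMap_serFun]; rfl)
  commutes' a := coeffMap_K0_injective (by
    rw [coeffMap_serFun, coe_algebraMap_Fn, algebraMap_eq_HC, Reduction.coeffMap_C]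
    rfl)

theorem coeffMap_ser (y : Fn A N) :
    coeffMap (algebraMap (K0 A) Qb) (ser A N y) =
      ((y : modularFunctionFieldBar N) : LaurentSeries Qb) := coeffMap_serFun y

theorem ser_injective : Function.Injective (ser A N) :=
  (ser A N).toRingHom.injective

/-- `f (z) ↦ f (z)` from level `N` to a multiple. -/
def incl {N' : ℕ} [NeZero N'] (h : N ∣ N') : Fn A N →ₐ[K0 A] Fn A N' where
  toFun y := mkFn _ (full_degeneracyC_le Qb h (coe_mem_fullC y)) (coeff_mem_K0 y)
  map_one' := ext_Fn rfl
  map_zero' := ext_Fn rfl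
  map_mul' _ _ := ext_Fn rfl
  map_add' _ _ := ext_Fn rfl
  commutes' _ := ext_Fn rfl

theorem ser_incl {N' : ℕ} [NeZero N'] (h : N ∣ N') (y : Fn A N) :
    ser A N' (incl h y) = ser A N y := by
  refine coeffMap_K0_injective ?_
  rw [coeffMap_ser, coeffMap_ser]
  exact coe_mkFn _ (full_degeneracyC_le Qb h (coe_mem_fullC y)) (coeff_mem_K0 y)

theorem qExpand_mem_fullC {d N' : ℕ} [NeZero d] [NeZero N'] (h : N * d ∣ N')
    {y : LaurentSeries Qb} (hy : y ∈ modularFunctionFieldFullC Qb N) :
    qExpand Qb d y ∈ modularFunctionFieldFullC Qb N' := by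
  haveI : NeZero (N * d) := ⟨Nat.mul_ne_zero (NeZero.ne N) (NeZero.ne d)⟩
  exact full_degeneracyC_le Qb h (full_degeneracyC_map_le Qb N d ⟨y, hy, rfl⟩)

theorem qExpand_coeff_mem {d : ℕ} [NeZero d] {y : LaurentSeries Qb} (hy : ∀ i, y.coeff i ∈ K0 A)
    (i : ℤ) : (qExpand Qb d y).coeff i ∈ K0 A := by
  rw [← qScale_eq]
  by_cases hd : (d : ℤ) ∣ i
  · obtain ⟨j, rfl⟩ := hd
    rw [qScale_coeff_mul (NeZero.ne d)]
    exact hy j
  · rw [qScale_coeff_of_not_dvd (NeZero.ne d) _ hd]
    exact zero_mem _

/-- `f (z) ↦ f (d z)`. -/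
def scale (d : ℕ) [NeZero d] {N' : ℕ} [NeZero N'] (h : N * d ∣ N') : Fn A N →ₐ[K0 A] Fn A N' where
  toFun y := mkFn _ (qExpand_mem_fullC h (coe_mem_fullC y)) (qExpand_coeff_mem (coeff_mem_K0 y))
  map_one' := ext_Fn (by simp)
  map_zero' := ext_Fn (by simp)
  map_mul' _ _ := ext_Fn (by simp)
  map_add' _ _ := ext_Fn (by simp)
  commutes' a := ext_Fn (by
    simp only [coe_mkFn, coe_algebraMap_Fn]
    exact (qExpandAlgHomC Qb d).commutes (a : Qb) |>.trans (by rw [algebraMap_eq_HC]) |> fun e => by
      rw [algebraMap_eq_HC] at e; exact e)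

theorem coe_incl {N' : ℕ} [NeZero N'] (h : N ∣ N') (y : Fn A N) :
    (((incl h y : Fn A N') : modularFunctionFieldBar N') : LaurentSeries Qb) =
      ((y : modularFunctionFieldBar N) : LaurentSeries Qb) :=
  coe_mkFn _ (full_degeneracyC_le Qb h (coe_mem_fullC y)) (coeff_mem_K0 y)

theorem coe_scale (d : ℕ) [NeZero d] {N' : ℕ} [NeZero N'] (h : N * d ∣ N') (y : Fn A N) :
    (((scale d h y : Fn A N') : modularFunctionFieldBar N') : LaurentSeries Qb) =
      qExpand Qb d ((y : modularFunctionFieldBar N) : LaurentSeries Qb) :=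
  coe_mkFn _ (qExpand_mem_fullC h (coe_mem_fullC y)) (qExpand_coeff_mem (coeff_mem_K0 y))

theorem ser_scale (d : ℕ) [NeZero d] {N' : ℕ} [NeZero N'] (h : N * d ∣ N') (y : Fn A N) :
    ser A N' (scale d h y) = qExpand (K0 A) d (ser A N y) := by
  refine coeffMap_K0_injective ?_
  rw [coeffMap_ser, coe_scale, ModularCurve.coeffMap_qExpand, coeffMap_ser]

/-! ### The coordinate -/

variable (A) (M : ℕ) [NeZero M]

/-- The coordinate of level `M`. -/
def tFn : Fn A M :=
  mkFn (tSer Qb M) (tSer_mem_fullC (phiQ M)) (tSer_mem_subring (K0 A).toSubfield.toSubring)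

theorem ser_tFn : ser A M (tFn A M) = tSer (K0 A) M := by
  refine coeffMap_K0_injective ?_
  rw [coeffMap_ser, coeffMap_tSer]
  rfl

/-- The two coordinates: `t` and `1 / t`. -/
def coord (b : Bool) : Fn A M := if b then tFn A M else (tFn A M)⁻¹

variable {A} {q : ℕ} [Fact q.Prime] (hA : A.LiesOverPrime q) (hqM : ¬ q ∣ M)

/-- `ℤ[ζ, 1/M] → k`. -/
abbrev phiK : zetaRing M →+* kres A := zetaToResidue M A hA hqM

/-- The coordinate on the special fibre. -/
def tBar : modularFunctionFieldFullC (kres A) M :=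
  ⟨tSer (kres A) M, tSer_mem_fullC (phiK M hA hqM)⟩

/-- The two coordinates on the special fibre. -/
def coordBar (b : Bool) : modularFunctionFieldFullC (kres A) M :=
  if b then tBar M hA hqM else (tBar M hA hqM)⁻¹

end FLTAgent.BadQ.TwoInst
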