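import Mathlib
import Fermat.Agent.BadQ.TwoInstFields

/-!
# The chart rings of levels `M`, `qM`, `q²M`

`chart0`, `chart1`, `chart2` are the integral closures of the polynomials over `W0` in the
coordinate `t` or `1/t` of level `M`, and `fibre` is the coordinate ring of the special fibre of
level `M`. `GoodLevel` (`4 ∣ M` or `9 ∣ M`) excludes elliptic points; `alpha0` is the inclusion
`f(z) ↦ f(z)` of charts.
-/

set_option autoImplicit false
set_option linter.style.haveILetI false
set_option linter.unusedSectionVars false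
set_option synthInstance.maxHeartbeats 400000
set_option maxHeartbeats 1000000

noncomputable section

open ModularCurve

namespace FLTAgent.BadQ.TwoInst

local notation "Qb" => AlgebraicClosure ℚ

/-- The auxiliary levels: without elliptic points. -/
def GoodLevel (M : ℕ) : Prop := 4 ∣ M ∨ 9 ∣ M

theorem GoodLevel.two_le {M : ℕ} [NeZero M] (h : GoodLevel M) : 2 ≤ M := by
  rcases h with h | h <;> have := Nat.le_of_dvd (NeZero.pos M) h <;> omega

instance instNeZeroMul (q M : ℕ) [hq : Fact q.Prime] [NeZero M] : NeZero (q * M) :=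
  ⟨Nat.mul_ne_zero hq.out.ne_zero (NeZero.ne M)⟩

instance instNeZeroSqMul (q M : ℕ) [hq : Fact q.Prime] [NeZero M] : NeZero (q ^ 2 * M) :=
  ⟨Nat.mul_ne_zero (pow_ne_zero 2 hq.out.ne_zero) (NeZero.ne M)⟩

/-- The structure of an algebra over `W₀` on a subalgebra of a `k`-algebra. -/
instance instAlgebraSub (A : ValuationSubring Qb) {E : Type*} [CommRing E] [Algebra (kres A) E]
    (S : Subalgebra (kres A) E) : Algebra (W0 A) S :=
  ((algebraMap (kres A) S).comp (redW A)).toAlgebra

theorem algebraMap_sub (A : ValuationSubring Qb) {E : Type*} [CommRing E] [Algebra (kres A) E]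
    (S : Subalgebra (kres A) E) (w : W0 A) :
    algebraMap (W0 A) S w = algebraMap (kres A) S (redW A w) := rfl

theorem dvd_qM (q M : ℕ) : M ∣ q * M := dvd_mul_left M q

theorem mul_q_dvd (q M : ℕ) : M * q ∣ q * M := by rw [mul_comm]

theorem dvd_qqM (q M : ℕ) : q * M ∣ q ^ 2 * M := ⟨q, by ring⟩

theorem mul_q_dvd_qq (q M : ℕ) : q * M * q ∣ q ^ 2 * M := ⟨1, by ring⟩

variable (A : ValuationSubring Qb) (q : ℕ) [Fact q.Prime] (M : ℕ) [NeZero M]

/-- The chart of level `M` for the coordinate `t` or `1 / t`. -/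
abbrev chart0 (b : Bool) : Subalgebra (W0 A) (Fn A M) :=
  TwoChart.intCl (W0 A) {coord A M b}

/-- The chart of level `qM`. -/
abbrev chart1 (b : Bool) : Subalgebra (W0 A) (Fn A (q * M)) :=
  TwoChart.intCl (W0 A) {incl (dvd_qM q M) (coord A M b)}

/-- The chart of level `q²M`. -/
abbrev chart2 (b : Bool) : Subalgebra (W0 A) (Fn A (q ^ 2 * M)) :=
  TwoChart.intCl (W0 A) {incl (dvd_qqM q M) (incl (dvd_qM q M) (coord A M b))}

variable {A q} (hA : A.LiesOverPrime q) (hqM : ¬ q ∣ M)

/-- The coordinate ring of the special fibre of level `M`. -/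
abbrev fibre (b : Bool) : Subalgebra (kres A) (modularFunctionFieldFullC (kres A) M) :=
  BadQ.intCl (k := kres A) (coordBar M hA hqM b)

omit hA hqM in
theorem algebraMap_W0_Fn {N : ℕ} (w : W0 A) :
    algebraMap (W0 A) (Fn A N) w = algebraMap (K0 A) (Fn A N) (w : K0 A) := rfl

omit hA hqM in
/-- An algebra map of function fields maps charts to charts. -/
theorem map_mem_intCl {N N' : ℕ} (f : Fn A N →ₐ[K0 A] Fn A N') {s : Fn A N} {s' : Fn A N'}
    (hs : f s ∈ TwoChart.intCl (W0 A) {s'}) {y : Fn A N}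
    (hy : y ∈ TwoChart.intCl (W0 A) {s}) : f y ∈ TwoChart.intCl (W0 A) {s'} := by
  obtain ⟨p, hp, hp0⟩ := hy
  have hle : ∀ c : Algebra.adjoin (W0 A) ({s} : Set (Fn A N)),
      f (c : Fn A N) ∈ integralClosure (Algebra.adjoin (W0 A) ({s'} : Set (Fn A N'))) (Fn A N') := by
    rintro ⟨c, hc⟩
    induction hc using Algebra.adjoin_induction with
    | mem z hz => show f z ∈ _; rw [Set.mem_singleton_iff.1 hz]; exact hs
    | algebraMap r =>
      show f (algebraMap (W0 A) (Fn A N) r) ∈ _
      rw [algebraMap_W0_Fn, f.commutes, ← algebraMap_W0_Fn]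
      exact Subalgebra.algebraMap_mem (TwoChart.intCl (W0 A) {s'}) r
    | add z w _ _ hz hw => show f (z + w) ∈ _; rw [map_add]; exact add_mem hz hw
    | mul z w _ _ hz hw => show f (z * w) ∈ _; rw [map_mul]; exact mul_mem hz hw
  refine TwoChart.mem_intCl_of_isIntegral ⟨p.map
    ((f.toRingHom.comp (Algebra.adjoin (W0 A) ({s} : Set (Fn A N))).val.toRingHom).codRestrict
      (integralClosure (Algebra.adjoin (W0 A) ({s'} : Set (Fn A N'))) (Fn A N')).toSubring hle),
    hp.map _, ?_⟩
  rw [Polynomial.eval₂_map]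
  refine Eq.trans ?_ ((congrArg f hp0).trans (map_zero f))
  exact (Polynomial.hom_eval₂ p _ f.toRingHom y).symm

omit hA hqM in
/-- `f (z) ↦ f (z)` on the charts. -/
def alpha0 (A : ValuationSubring Qb) (q : ℕ) [Fact q.Prime] (M : ℕ) [NeZero M] (b : Bool) :
    chart0 A M b →ₐ[W0 A] chart1 A q M b :=
  AlgHom.codRestrict (((incl (dvd_qM q M)).restrictScalars (W0 A)).comp (chart0 A M b).val)
    (chart1 A q M b) fun y =>
      map_mem_intCl (incl (dvd_qM q M)) (TwoChart.subset_intCl _ (Set.mem_singleton _)) y.2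

omit hA hqM in
@[simp] theorem coe_alpha0 (b : Bool) (y : chart0 A M b) :
    ((alpha0 A q M b y : chart1 A q M b) : Fn A (q * M)) = incl (dvd_qM q M) (y : Fn A M) := rfl

end FLTAgent.BadQ.TwoInst
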