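import Mathlib
import Fermat.Agent.BadQ.TwoInstCharts
import Fermat.Agent.BadQ.ReductionQM

/-!
# The component of `∞` and the Atkin–Lehner involution at level `qM`

Over the fixed field of inertia, `VInf` is the ring of functions of level `qM` integral at the
Gauss point of the component of `∞`, `redInf` its reduction to the function field of level `M`,
and `wAL` the involution (`wAL_wAL`), which exchanges `f(z)` and `f(qz)` (`wAL_incl`,
`wAL_scale`).
-/

set_option autoImplicit false
set_option linter.style.haveILetI false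
set_option linter.unusedSectionVars false
set_option synthInstance.maxHeartbeats 400000
set_option maxHeartbeats 1000000

noncomputable section

open ModularCurve FLTAgent.ModularCosets

namespace FLTAgent.BadQ.TwoInst

local notation "Qb" => AlgebraicClosure ℚ

section Generic

variable {A : ValuationSubring Qb}

/-- The expansion of a function of level `N`, as a series over `ℚ̄`. -/
def valFn (N : ℕ) : Fn A N →+* LaurentSeries Qb :=
  (modularFunctionFieldBar N).val.toRingHom.comp
    (algebraMap (Fn A N) (modularFunctionFieldBar N))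

theorem valFn_apply {N : ℕ} (y : Fn A N) :
    valFn N y = ((y : modularFunctionFieldBar N) : LaurentSeries Qb) := rfl

theorem valFn_injective {N : ℕ} : Function.Injective (valFn (A := A) N) :=
  (valFn (A := A) N).injective

/-- A homomorphism into series landing in the function field over the fixed field. -/
def liftFn {R : Type*} [CommRing R] {N : ℕ} [NeZero N] (f : R →+* LaurentSeries Qb)
    (h1 : ∀ r, f r ∈ modularFunctionFieldFullC Qb N) (h2 : ∀ r i, (f r).coeff i ∈ K0 A) :
    R →+* Fn A N where
  toFun r := mkFn (f r) (h1 r) (h2 r)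
  map_one' := ext_Fn (by rw [coe_mkFn]; exact map_one f)
  map_zero' := ext_Fn (by rw [coe_mkFn]; exact map_zero f)
  map_mul' r r' := valFn_injective (by
    rw [map_mul (valFn N), valFn_apply, valFn_apply, valFn_apply, coe_mkFn, coe_mkFn, coe_mkFn]
    exact map_mul f r r')
  map_add' r r' := valFn_injective (by
    rw [map_add (valFn N), valFn_apply, valFn_apply, valFn_apply, coe_mkFn, coe_mkFn, coe_mkFn]
    exact map_add f r r')

theorem valFn_liftFn {R : Type*} [CommRing R] {N : ℕ} [NeZero N] (f : R →+* LaurentSeries Qb)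
    (h1 : ∀ r, f r ∈ modularFunctionFieldFullC Qb N) (h2 : ∀ r i, (f r).coeff i ∈ K0 A) (r : R) :
    valFn N (liftFn f h1 h2 r) = f r :=
  coe_mkFn (f r) (h1 r) (h2 r)

end Generic

variable (A : ValuationSubring Qb) (q : ℕ) [hq : Fact q.Prime] (M : ℕ) [NeZero M]

instance instNeZeroMulSwap : NeZero (M * q) := ⟨mul_ne_zero (NeZero.ne M) hq.out.ne_zero⟩

theorem mem_bar_swap {y : LaurentSeries Qb} {N N' : ℕ} [NeZero N] [NeZero N']
    (h : N = N') (hy : y ∈ modularFunctionFieldBar N) : y ∈ modularFunctionFieldBar N' := h ▸ hy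

/-- The functions of level `qM` integral at the Gauss point of the component of `∞`. -/
def VInf : Subring (Fn A (q * M)) :=
  (gV A (IsLocalRing.residue A)).comap (valFn (q * M))

theorem mem_VInf {y : Fn A (q * M)} :
    y ∈ VInf A q M ↔ valFn (q * M) y ∈ gV A (IsLocalRing.residue A) :=
  Iff.rfl

theorem valFn_mem_bar_swap (y : Fn A (q * M)) :
    valFn (q * M) y ∈ (modularFunctionFieldBar (M * q)).toSubfield.toSubring := by
  exact mem_bar_swap (mul_comm q M) (y : modularFunctionFieldBar (q * M)).2

/-- A function of level `qM` as a function of level `Mq`. -/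
def swapHom : Fn A (q * M) →+* modularFunctionFieldBar (M * q) :=
  (valFn (q * M)).codRestrict (modularFunctionFieldBar (M * q)).toSubfield.toSubring
    (valFn_mem_bar_swap A q M)

theorem coe_swapHom (y : Fn A (q * M)) :
    (swapHom A q M y : LaurentSeries Qb) = valFn (q * M) y := rfl

variable {A q} (hA : A.LiesOverPrime q) (hqM : ¬ q ∣ M)

include hA hqM in
theorem gval_mem_fullC (y : Fn A (q * M)) :
    gval A (IsLocalRing.residue A) (valFn (q * M) y) ∈
      modularFunctionFieldFullC (kres A) M := by
  rw [← coe_swapHom]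
  exact redI_mem A M q hq.out hqM hA (swapHom A q M y)

/-- The reduction as a homomorphism into series. -/
def redInfLS : VInf A q M →+* LaurentSeries (kres A) where
  toFun y := gval A (IsLocalRing.residue A) (valFn (q * M) y.1)
  map_one' := by rw [OneMemClass.coe_one, map_one]; exact gval_one A _
  map_zero' := by rw [ZeroMemClass.coe_zero, map_zero]; exact gval_zero A _
  map_mul' y z := by rw [MulMemClass.coe_mul, map_mul]; exact gval_mul A _ y.2 z.2
  map_add' y z := by rw [AddMemClass.coe_add, map_add]; exact gval_add A _ y.2 z.2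

/-- The restriction to the component of `∞`. -/
def redInf : VInf A q M →+* modularFunctionFieldFullC (kres A) M :=
  (redInfLS M).codRestrict (modularFunctionFieldFullC (kres A) M).toSubfield.toSubring
    fun y => gval_mem_fullC M hA hqM y.1

theorem coe_redInf (y : VInf A q M) :
    ((redInf M hA hqM y : modularFunctionFieldFullC (kres A) M) : LaurentSeries (kres A)) =
      gval A (IsLocalRing.residue A) (valFn (q * M) y.1) := rfl

/-! ### The involution -/

/-- The involution as a homomorphism into series. -/
def wLS : Fn A (q * M) →+* LaurentSeries Qb :=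
  ((modularFunctionFieldBar (M * q)).val.toRingHom.comp
    (atkinLehner hq.out hqM).toRingHom).comp (swapHom A q M)

theorem wLS_apply (y : Fn A (q * M)) :
    wLS M hqM y = (atkinLehner hq.out hqM (swapHom A q M y) : LaurentSeries Qb) := rfl

theorem wLS_mem (y : Fn A (q * M)) : wLS M hqM y ∈ modularFunctionFieldFullC Qb (q * M) := by
  exact mem_bar_iff.1 (mem_bar_swap (mul_comm M q)
    (atkinLehner hq.out hqM (swapHom A q M y)).2)

theorem wLS_coeff (y : Fn A (q * M)) (i : ℤ) : (wLS M hqM y).coeff i ∈ K0 A := by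
  rw [TwoChart.mem_fixedK, wLS_apply]
  intro σ hσ
  have h1 : arithmeticGalois (modularFunctionFieldFull (M * q)) σ • swapHom A q M y =
      swapHom A q M y :=
    Subtype.ext (HahnSeries.ext (funext fun j => TwoChart.mem_fixedK.1 (coeff_mem_K0 y j) σ hσ))
  have h2 := atkinLehner_galois hq.out hqM σ (swapHom A q M y)
  rw [h1] at h2
  exact (congrArg (fun z : modularFunctionFieldBar (M * q) =>
    (z : LaurentSeries Qb).coeff i) h2).symm

/-- The Atkin–Lehner involution at `q`. -/
def wAL : Fn A (q * M) →+* Fn A (q * M) :=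
  liftFn (wLS M hqM) (wLS_mem M hqM) (wLS_coeff M hqM)

theorem valFn_wAL (y : Fn A (q * M)) : valFn (q * M) (wAL M hqM y) = wLS M hqM y :=
  valFn_liftFn _ (wLS_mem M hqM) (wLS_coeff M hqM) y

theorem swapHom_wAL (y : Fn A (q * M)) :
    swapHom A q M (wAL M hqM y) = atkinLehner hq.out hqM (swapHom A q M y) :=
  Subtype.ext (valFn_wAL M hqM y)

theorem wAL_wAL (y : Fn A (q * M)) : wAL M hqM (wAL M hqM y) = y := by
  refine valFn_injective ?_
  rw [valFn_wAL, wLS_apply, swapHom_wAL, atkinLehner_atkinLehner, coe_swapHom]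

theorem valFn_algebraMap {N : ℕ} [NeZero N] (a : K0 A) :
    valFn N (algebraMap (K0 A) (Fn A N) a) = HahnSeries.C (a : Qb) :=
  coe_algebraMap_Fn (N := N) a

theorem wAL_algebraMap (a : K0 A) :
    wAL M hqM (algebraMap (K0 A) (Fn A (q * M)) a) = algebraMap (K0 A) (Fn A (q * M)) a := by
  refine valFn_injective ?_
  have h : swapHom A q M (algebraMap (K0 A) (Fn A (q * M)) a) =
      algebraMap Qb (modularFunctionFieldBar (M * q)) (a : Qb) := by
    refine Subtype.ext ?_
    rw [coe_swapHom, valFn_algebraMap, ← algebraMap_eq_HC]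
    rfl
  rw [valFn_wAL, wLS_apply, h, AlgHom.commutes, ← h, coe_swapHom]

theorem valFn_incl {N N' : ℕ} [NeZero N] [NeZero N'] (h : N ∣ N') (y : Fn A N) :
    valFn N' (incl h y) = valFn N y := by rw [valFn_apply, valFn_apply, coe_incl]

theorem valFn_scale {N N' d : ℕ} [NeZero N] [NeZero N'] [NeZero d] (h : N * d ∣ N') (y : Fn A N) :
    valFn N' (scale d h y) = qExpand Qb d (valFn N y) := by rw [valFn_apply, valFn_apply, coe_scale]

theorem wAL_incl (y : Fn A M) :
    wAL M hqM (incl (dvd_qM q M) y) = scale q (mul_q_dvd q M) y := by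
  refine valFn_injective ?_
  have h : swapHom A q M (incl (dvd_qM q M) y) =
      heckeAlphaBar Qb M q (y : modularFunctionFieldBar M) := by
    refine Subtype.ext ?_
    rw [coe_swapHom, valFn_incl, coe_heckeAlphaBar]
    rfl
  rw [valFn_wAL, wLS_apply, h, atkinLehner_alpha, valFn_scale]
  rfl

theorem wAL_scale (y : Fn A M) :
    wAL M hqM (scale q (mul_q_dvd q M) y) = incl (dvd_qM q M) y := by
  rw [← wAL_incl M hqM, wAL_wAL]

/-! ### The coordinate -/

theorem valFn_tFn : valFn M (tFn A M) = tSer Qb M :=
  coe_mkFn (tSer Qb M) (tSer_mem_fullC (phiQ M)) (tSer_mem_subring (K0 A).toSubfield.toSubring)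

theorem incl_tFn_mem : incl (dvd_qM q M) (tFn A M) ∈ VInf A q M := by
  rw [mem_VInf, valFn_incl, valFn_tFn, ← coeffMap_tSer (M := M) A.subtype]
  exact (gval_incl A _ _).1

theorem redInf_incl_tFn :
    redInf M hA hqM ⟨incl (dvd_qM q M) (tFn A M), incl_tFn_mem M⟩ = tBar M hA hqM := by
  refine Subtype.ext ?_
  rw [coe_redInf, valFn_incl, valFn_tFn, ← coeffMap_tSer (M := M) A.subtype]
  exact ((gval_incl A _ _).2).trans (coeffMap_tSer _)

theorem scale_tFn_mem : scale q (mul_q_dvd q M) (tFn A M) ∈ VInf A q M := by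
  rw [mem_VInf, valFn_scale, valFn_tFn, ← coeffMap_tSer (M := M) A.subtype,
    ← ModularCurve.coeffMap_qExpand]
  exact (gval_incl A _ _).1

theorem redInf_scale_tFn :
    redInf M hA hqM ⟨scale q (mul_q_dvd q M) (tFn A M), scale_tFn_mem M⟩ =
      tBar M hA hqM ^ q := by
  haveI := GalCommon.charP_residueField hq.out hA
  refine Subtype.ext ?_
  rw [coe_redInf, IntermediateField.coe_pow, valFn_scale, valFn_tFn,
    ← coeffMap_tSer (M := M) A.subtype, ← ModularCurve.coeffMap_qExpand]
  refine ((gval_incl A _ _).2).trans ?_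
  show coeffMap (IsLocalRing.residue A) (qExpand A q (tSer A M)) = tSer (kres A) M ^ q
  rw [ModularCurve.coeffMap_qExpand, coeffMap_tSer, Kronecker.pow_char_eq_qExpand q,
    coeffMap_tSer]

end FLTAgent.BadQ.TwoInst
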