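import Mathlib
import Fermat.Agent.Reduction.GaussCore

/-!
# Orders of Laurent series

`ordRing σ` is the valuation ring cut out by an embedding `σ` into Laurent series and `constHom`
the constant term. `exists_ordRing_eq` is the covering lemma: a valuation ring over the zero of a
parameter is cut out by one of a full family of embeddings. `exists_poleBasis` gives bases by
pole orders of algebras in which only constants have no pole.
-/

set_option autoImplicit false
set_option linter.style.haveILetI false
set_option linter.unusedSectionVars false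

noncomputable section

open Polynomial

namespace FLTAgent.BadQ.TwoInst

section Series

variable {L : Type*} [Field L]

theorem order_add_ge {f g : LaurentSeries L} {n : ℤ} (hn : n ≤ 0) (hf : n ≤ f.order)
    (hg : n ≤ g.order) : n ≤ (f + g).order := by
  rcases eq_or_ne (f + g) 0 with h | h
  · simpa [h] using hn
  · exact (le_min hf hg).trans (HahnSeries.min_order_le_order_add h)

theorem order_mul_ge {f g : LaurentSeries L} (hf : 0 ≤ f.order) (hg : 0 ≤ g.order) :
    0 ≤ (f * g).order := by
  rcases eq_or_ne f 0 with rfl | hf0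
  · simp
  rcases eq_or_ne g 0 with rfl | hg0
  · simp
  rw [HahnSeries.order_mul hf0 hg0]
  omega

theorem order_inv' {f : LaurentSeries L} : f⁻¹.order = -f.order := by
  rcases eq_or_ne f 0 with rfl | hf
  · simp
  have h := HahnSeries.order_mul hf (inv_ne_zero hf)
  rw [mul_inv_cancel₀ hf, HahnSeries.order_one] at h
  omega

theorem order_pow' {f : LaurentSeries L} (n : ℕ) : (f ^ n).order = n * f.order := by
  rcases eq_or_ne f 0 with rfl | hf
  · rcases eq_or_ne n 0 with rfl | hn <;> simp_all
  induction n with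
  | zero => simp
  | succ n ih => rw [pow_succ, HahnSeries.order_mul (pow_ne_zero n hf) hf, ih]; push_cast; ring

theorem order_zpow' {f : LaurentSeries L} (n : ℤ) : (f ^ n).order = n * f.order := by
  obtain ⟨m, rfl | rfl⟩ := n.eq_nat_or_neg
  · rw [zpow_natCast, order_pow']
  · rw [zpow_neg, zpow_natCast, order_inv', order_pow']; ring

theorem order_sub_C_of_neg {f : LaurentSeries L} (hf : f.order < 0) (c : L) :
    f - HahnSeries.C c ≠ 0 ∧ (f - HahnSeries.C c).order = f.order := by
  have hf0 : f ≠ 0 := fun h => by simp [h] at hf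
  have hc : (f - HahnSeries.C c).coeff f.order = f.coeff f.order := by
    rw [HahnSeries.coeff_sub, HahnSeries.C_apply, HahnSeries.coeff_single_of_ne hf.ne, sub_zero]
  have hne : (f - HahnSeries.C c).coeff f.order ≠ 0 := by
    rw [hc]; exact fun h => hf0 (HahnSeries.coeff_order_eq_zero.mp h)
  have hne0 := HahnSeries.ne_zero_of_coeff_ne_zero hne
  refine ⟨hne0, le_antisymm (HahnSeries.order_le_of_coeff_ne_zero hne) ?_⟩
  rw [sub_eq_add_neg]
  exact order_add_ge hf.le le_rfl (by rw [HahnSeries.order_neg, HahnSeries.order_C]; exact hf.le)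

/-- The series without negative exponents. -/
def nonnegSub (L : Type*) [Field L] : Subring (LaurentSeries L) where
  carrier := {f | 0 ≤ f.order}
  mul_mem' := order_mul_ge
  one_mem' := by simp
  add_mem' := order_add_ge le_rfl
  zero_mem' := by simp
  neg_mem' {f} hf := by simpa [HahnSeries.order_neg] using hf

theorem mem_nonnegSub {f : LaurentSeries L} : f ∈ nonnegSub L ↔ 0 ≤ f.order := Iff.rfl

theorem C_mem_nonnegSub (c : L) : HahnSeries.C c ∈ nonnegSub L :=
  mem_nonnegSub.2 (by rw [HahnSeries.order_C])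

theorem coeff_eq_zero_of_neg {f : LaurentSeries L} (hf : 0 ≤ f.order) {i : ℤ} (hi : i < 0) :
    f.coeff i = 0 :=
  HahnSeries.coeff_eq_zero_of_lt_order (lt_of_lt_of_le hi hf)

/-- The constant term. -/
def constHom (L : Type*) [Field L] : nonnegSub L →+* L where
  toFun f := (f : LaurentSeries L).coeff 0
  map_one' := by simp
  map_zero' := by simp
  map_add' f g := by simp
  map_mul' f g := by
    rcases eq_or_ne (f : LaurentSeries L) 0 with hf | hf
    · simp [hf]
    rcases eq_or_ne (g : LaurentSeries L) 0 with hg | hg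
    · simp [hg]
    have hf' : 0 ≤ (f : LaurentSeries L).order := f.2
    have hg' : 0 ≤ (g : LaurentSeries L).order := g.2
    rcases eq_or_ne ((f : LaurentSeries L).order + (g : LaurentSeries L).order) 0 with h | h
    · have h1 : (f : LaurentSeries L).order = 0 := by omega
      have h2 : (g : LaurentSeries L).order = 0 := by omega
      have := HahnSeries.coeff_mul_order_add_order (f : LaurentSeries L) (g : LaurentSeries L)
      rw [HahnSeries.leadingCoeff_eq, HahnSeries.leadingCoeff_eq,
        h1, h2, add_zero] at this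
      exact this
    · have h3 : ((f * g : nonnegSub L) : LaurentSeries L).coeff 0 = 0 := by
        refine HahnSeries.coeff_eq_zero_of_lt_order ?_
        push_cast
        rw [HahnSeries.order_mul hf hg]
        omega
      rw [h3]
      rcases lt_or_eq_of_le hf' with h4 | h4
      · rw [HahnSeries.coeff_eq_zero_of_lt_order h4, zero_mul]
      · rw [HahnSeries.coeff_eq_zero_of_lt_order (show 0 < (g : LaurentSeries L).order by omega),
          mul_zero]

theorem constHom_apply (f : nonnegSub L) : constHom L f = (f : LaurentSeries L).coeff 0 := rfl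

theorem constHom_C (c : L) : constHom L ⟨HahnSeries.C c, C_mem_nonnegSub c⟩ = c := by
  simp [constHom_apply, HahnSeries.C_apply]

theorem constHom_eq_zero_iff {f : nonnegSub L} :
    constHom L f = 0 ↔ (f : LaurentSeries L) = 0 ∨ 0 < (f : LaurentSeries L).order := by
  constructor
  · intro h
    rcases eq_or_ne (f : LaurentSeries L) 0 with h0 | h0
    · exact Or.inl h0
    · refine Or.inr (lt_of_le_of_ne f.2 fun he => ?_)
      rw [constHom_apply, he] at h
      exact h0 (HahnSeries.coeff_order_eq_zero.mp h)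
  · rintro (h | h)
    · simp [constHom_apply, h]
    · exact HahnSeries.coeff_eq_zero_of_lt_order h

theorem order_eq_zero_of_const_ne {f : nonnegSub L} (h : constHom L f ≠ 0) :
    (f : LaurentSeries L) ≠ 0 ∧ (f : LaurentSeries L).order = 0 := by
  rw [ne_eq, constHom_eq_zero_iff, not_or] at h
  have hf : 0 ≤ (f : LaurentSeries L).order := f.2
  exact ⟨h.1, by omega⟩

/-- An algebraic Laurent series is a constant. -/
theorem eq_C_of_isAlgebraic {y : LaurentSeries L} (hy : IsAlgebraic L y) :
    ∃ c : L, y = HahnSeries.C c := by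
  have key : ∀ z : LaurentSeries L, IsAlgebraic L z → 0 ≤ z.order := by
    intro z hz
    by_contra h
    push Not at h
    obtain ⟨p, hp, hpz⟩ := hz
    refine (Reduction.order_eval₂_eq h hp).1 ?_
    rw [← Reduction.algebraMap_eq_C, ← aeval_def]
    exact hpz
  refine ⟨y.coeff 0, by_contra fun hne => ?_⟩
  set z := y - HahnSeries.C (y.coeff 0) with hz
  have hz0 : z ≠ 0 := sub_ne_zero.2 hne
  have hzalg : IsAlgebraic L z := by
    refine hy.sub ?_
    rw [← Reduction.algebraMap_eq_C]
    exact isAlgebraic_algebraMap _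
  have h1 := key z hzalg
  have h2 := key z⁻¹ hzalg.inv
  rw [order_inv'] at h2
  have h3 : z.order = 0 := by omega
  refine hz0 (HahnSeries.coeff_order_eq_zero.mp ?_)
  rw [h3]
  simp [hz, HahnSeries.C_apply]

end Series

section Ring

variable {E : Type*} [Field E] {L : Type*} [Field L] (σ : E →+* LaurentSeries L)

/-- The valuation ring of an embedding into Laurent series. -/
def ordRing : ValuationSubring E where
  toSubring := (nonnegSub L).comap σ
  mem_or_inv_mem' y := by
    simp only [Subring.mem_carrier, Subring.mem_comap, mem_nonnegSub, map_inv₀, order_inv']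
    omega

variable {σ}

theorem mem_ordRing {y : E} : y ∈ ordRing σ ↔ 0 ≤ (σ y).order := Iff.rfl

theorem mem_nonunits_ordRing {y : E} :
    y ∈ (ordRing σ).nonunits ↔ y = 0 ∨ 0 < (σ y).order := by
  rw [ValuationSubring.mem_nonunits_iff_or, mem_ordRing, map_inv₀, order_inv', Left.nonneg_neg_iff,
    not_le]

theorem order_map_pow_mul_zpow {L' : Type*} [Field L'] (τ : E →+* LaurentSeries L') {x y : E}
    (h : x ≠ 0 ∧ y ≠ 0) (n : ℕ) (m : ℤ) :
    (τ (y ^ n * x ^ m)).order = n * (τ y).order + m * (τ x).order := by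
  rw [map_mul, map_pow, map_zpow₀, HahnSeries.order_mul
    (pow_ne_zero _ ((_root_.map_ne_zero τ).2 h.2)) (zpow_ne_zero _ ((_root_.map_ne_zero τ).2 h.1)),
    order_pow', order_zpow']

theorem ord_proportional {L' : Type*} [Field L'] {σ' : E →+* LaurentSeries L'}
    (h : ordRing σ = ordRing σ') {x y : E} (hx : 0 < (σ x).order) :
    (σ' y).order * (σ x).order = (σ y).order * (σ' x).order := by
  rcases eq_or_ne y 0 with rfl | hy
  · simp
  obtain ⟨n, hn⟩ : ∃ n : ℕ, (σ x).order = n := ⟨(σ x).order.toNat, by omega⟩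
  set z := y ^ n * x ^ (-(σ y).order) with hz
  have hx0 : x ≠ 0 := fun h => by simp [h] at hx
  have hyn : y ^ n ≠ 0 := pow_ne_zero _ hy
  have hxn : x ^ (-(σ y).order) ≠ 0 := zpow_ne_zero _ hx0
  have hxy : x ≠ 0 ∧ y ≠ 0 := ⟨hx0, hy⟩
  have h1 : (σ z).order = 0 := by rw [hz, order_map_pow_mul_zpow σ hxy, hn]; ring
  have h2 : z ∈ ordRing σ' := h ▸ (mem_ordRing.2 h1.ge)
  have h3 : z⁻¹ ∈ ordRing σ' := h ▸ (mem_ordRing.2 (by rw [map_inv₀, order_inv', h1]; rfl))
  rw [mem_ordRing] at h2 h3
  rw [map_inv₀, order_inv'] at h3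
  have h4 : (σ' z).order = 0 := by omega
  rw [hz, order_map_pow_mul_zpow σ' hxy] at h4
  rw [hn]
  linear_combination h4

end Ring

section Cover

variable {L E L' : Type*} [Field L] [Field E] [Field L'] [Algebra L E] [Algebra L L']
  {ι : Type*} [Fintype ι] (σ : ι → E →+* LaurentSeries L') (x : E)

variable (hconst : ∀ i c, σ i (algebraMap L E c) = HahnSeries.C (algebraMap L L' c))
  (hx : ∀ i, 0 < (σ i x).order) {V : ValuationSubring E}
  (hV : ∀ c, algebraMap L E c ∈ V) (hxV : x ∈ V.nonunits)

include hconst hx hV hxV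

theorem exists_zpow_unit_of_mem_adjoin {r : E} (hr : r ∈ IntermediateField.adjoin L {x})
    (hr0 : r ≠ 0) : ∃ (z : ℤ) (u : E), r = x ^ z * u ∧ V.valuation u = 1 ∧
      ∀ i, (σ i u).order = 0 := by
  have hxv : V.valuation x < 1 := (ValuationSubring.mem_nonunits_iff V).1 hxV
  have hpoly : ∀ p : L[X], p.coeff 0 ≠ 0 → V.valuation (aeval x p) = 1 ∧
      ∀ i, (σ i (aeval x p)).order = 0 := by
    intro p hp
    have hsplit : aeval x p = x * aeval x p.divX + algebraMap L E (p.coeff 0) := by
      conv_lhs => rw [← X_mul_divX_add p]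
      rw [map_add, map_mul, aeval_X, aeval_C]
    have hc : V.valuation (algebraMap L E (p.coeff 0)) = 1 := by
      refine le_antisymm ((V.valuation_le_one_iff _).2 (hV _)) ?_
      have h2 := (V.valuation_le_one_iff _).2 (hV (p.coeff 0)⁻¹)
      rw [map_inv₀, map_inv₀] at h2
      exact (inv_le_one₀ (pos_of_ne_zero (by simpa using hp))).1 h2
    have hQ : aeval x p.divX ∈ V := by
      rw [aeval_eq_sum_range]
      refine sum_mem fun i _ => ?_
      rw [Algebra.smul_def]
      exact mul_mem (hV _) (pow_mem (ValuationSubring.nonunits_subset hxV) _)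
    refine ⟨?_, fun i => ?_⟩
    · rw [hsplit, Valuation.map_add_eq_of_lt_right]
      · exact hc
      · rw [hc, map_mul]
        exact mul_lt_one_of_lt_of_le hxv ((V.valuation_le_one_iff _).2 hQ)
    · have hxm : σ i x ∈ nonnegSub L' := mem_nonnegSub.2 (hx i).le
      have hQm : σ i (aeval x p.divX) ∈ nonnegSub L' := by
        rw [aeval_eq_sum_range, map_sum]
        refine sum_mem fun j _ => ?_
        rw [Algebra.smul_def, map_mul, hconst, map_pow]
        exact mul_mem (C_mem_nonnegSub _) (pow_mem hxm _)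
      have hmem : σ i (aeval x p) ∈ nonnegSub L' := by
        rw [hsplit, map_add, map_mul, hconst]
        exact add_mem (mul_mem hxm hQm) (C_mem_nonnegSub _)
      refine (order_eq_zero_of_const_ne (f := ⟨_, hmem⟩) ?_).2
      have e : (⟨_, hmem⟩ : nonnegSub L') = ⟨_, hxm⟩ * ⟨_, hQm⟩ + ⟨_, C_mem_nonnegSub
          (algebraMap L L' (p.coeff 0))⟩ := Subtype.ext (by
        show σ i (aeval x p) = σ i x * σ i (aeval x p.divX) + HahnSeries.C _
        rw [hsplit, map_add, map_mul, hconst])
      rw [e, map_add, map_mul, constHom_C, (constHom_eq_zero_iff (f := ⟨_, hxm⟩)).2 (Or.inr (hx i)),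
        zero_mul, zero_add]
      simpa using hp
  have hgen : ∀ p : L[X], aeval x p ≠ 0 → ∃ (a : ℕ) (u : E), aeval x p = x ^ a * u ∧
      V.valuation u = 1 ∧ ∀ i, (σ i u).order = 0 := by
    intro p hp
    have hp0 : p ≠ 0 := fun h => hp (by simp [h])
    obtain ⟨g, hg, hgd⟩ := exists_eq_pow_rootMultiplicity_mul_and_not_dvd p hp0 0
    rw [map_zero, sub_zero] at hg hgd
    refine ⟨p.rootMultiplicity 0, aeval x g, ?_, hpoly g fun h => hgd (X_dvd_iff.2 h)⟩
    conv_lhs => rw [hg]
    rw [map_mul, map_pow, aeval_X]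
  obtain ⟨P, Q, rfl⟩ := IntermediateField.mem_adjoin_simple_iff _ _ |>.1 hr
  obtain ⟨hP, hQ⟩ := div_ne_zero_iff.1 hr0
  obtain ⟨a, u, hu, huv, huo⟩ := hgen P hP
  obtain ⟨c, w, hw, hwv, hwo⟩ := hgen Q hQ
  rcases isEmpty_or_nonempty ι with hι | hι
  · rcases eq_or_ne x 0 with hx0 | hx0
    · refine ⟨0, _, (by rw [zpow_zero, one_mul]), ?_, fun i => isEmptyElim i⟩
      have ha : a = 0 := by
        by_contra ha
        exact hP (by rw [hu, hx0, zero_pow ha, zero_mul])
      have hc : c = 0 := by
        by_contra hc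
        exact hQ (by rw [hw, hx0, zero_pow hc, zero_mul])
      rw [hu, hw, ha, hc, pow_zero, one_mul, one_mul, map_div₀, huv, hwv, div_one]
    · refine ⟨(a : ℤ) - c, u / w, ?_, by rw [map_div₀, huv, hwv, div_one], fun i => isEmptyElim i⟩
      rw [hu, hw, zpow_sub₀ hx0, zpow_natCast, zpow_natCast, div_mul_div_comm]
  have hx0 : x ≠ 0 := fun h => by
    have := hx (Classical.arbitrary ι)
    simp [h] at this
  refine ⟨(a : ℤ) - c, u / w, ?_, by rw [map_div₀, huv, hwv, div_one], fun i => ?_⟩
  · rw [hu, hw, zpow_sub₀ hx0, zpow_natCast, zpow_natCast, div_mul_div_comm]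
  · rw [map_div₀, div_eq_mul_inv]
    rcases eq_or_ne (σ i u) 0 with h | h
    · simp [h]
    rcases eq_or_ne (σ i w) 0 with h' | h'
    · simp [h']
    rw [HahnSeries.order_mul h (inv_ne_zero h'), order_inv', huo i, hwo i]
    rfl

theorem mem_of_order_nonneg [Nonempty ι] {r : E} (hr : r ∈ IntermediateField.adjoin L {x})
    (i : ι) (h : 0 ≤ (σ i r).order) : r ∈ V := by
  rcases eq_or_ne r 0 with rfl | hr0
  · exact zero_mem _
  obtain ⟨z, u, rfl, huv, huo⟩ := exists_zpow_unit_of_mem_adjoin σ x hconst hx hV hxV hr hr0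
  obtain ⟨hxz, hu0⟩ := mul_ne_zero_iff.1 hr0
  rw [map_mul, HahnSeries.order_mul ((_root_.map_ne_zero _).2 hxz) ((_root_.map_ne_zero _).2 hu0),
    map_zpow₀, order_zpow', huo i, add_zero] at h
  have hz : 0 ≤ z := nonneg_of_mul_nonneg_left h (hx i)
  lift z to ℕ using hz
  rw [zpow_natCast]
  exact mul_mem (pow_mem (ValuationSubring.nonunits_subset hxV) _)
    ((V.valuation_le_one_iff _).1 huv.le)

theorem valuation_lt_of_order_pos [Nonempty ι] {r : E} (hr : r ∈ IntermediateField.adjoin L {x})
    (i : ι) (h : r = 0 ∨ 0 < (σ i r).order) : V.valuation r < 1 := by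
  rcases eq_or_ne r 0 with rfl | hr0
  · simp
  have h := h.resolve_left hr0
  obtain ⟨z, u, rfl, huv, huo⟩ := exists_zpow_unit_of_mem_adjoin σ x hconst hx hV hxV hr hr0
  obtain ⟨hxz, hu0⟩ := mul_ne_zero_iff.1 hr0
  rw [map_mul, HahnSeries.order_mul ((_root_.map_ne_zero _).2 hxz) ((_root_.map_ne_zero _).2 hu0),
    map_zpow₀, order_zpow', huo i, add_zero] at h
  have hz : 0 < z := pos_of_mul_pos_left h (hx i).le
  lift z to ℕ using hz.le
  rw [zpow_natCast, map_mul, huv, mul_one, map_pow]
  exact pow_lt_one₀ zero_le ((ValuationSubring.mem_nonunits_iff V).1 hxV) (by omega)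

/-- **Covering**: a valuation ring over the zero of `x` is cut out by one of the embeddings. -/
theorem exists_ordRing_eq [Infinite L] [Algebra.IsAlgebraic L L'] [Nonempty ι]
    (hchar : ∀ y : E, ∃ P : E[X], P.Monic ∧ P.eval y = 0 ∧ P.natDegree = Fintype.card ι ∧
      (∀ n, P.coeff n ∈ IntermediateField.adjoin L {x}) ∧
      ∀ i, P.map (σ i) = ∏ j, (X - C (σ j y))) :
    ∃ i, V = ordRing (σ i) := by
  classical
  let i₀ : ι := Classical.arbitrary ι
  -- functions without poles at all the embeddings
  have step : ∀ y : E, (∀ j, 0 ≤ (σ j y).order) →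
      y ∈ V ∧ ((∀ j, y = 0 ∨ 0 < (σ j y).order) → V.valuation y < 1) := by
    intro y hy
    obtain ⟨P, hPm, hPy, hPd, hPc, hPmap⟩ := hchar y
    let yO : ι → nonnegSub L' := fun j => ⟨σ j y, hy j⟩
    have hlift : P.map (σ i₀) = (∏ j, (X - C (yO j))).map (nonnegSub L').subtype := by
      rw [hPmap, Polynomial.map_prod]
      simp [yO]
    have hcm : ∀ n, 0 ≤ (σ i₀ (P.coeff n)).order := fun n => by
      rw [← coeff_map, hlift, coeff_map]
      exact ((∏ j, (X - C (yO j))).coeff n).2
    have hyV : y ∈ V := by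
      have hPV : ∀ n, P.coeff n ∈ V.toSubring := fun n =>
        mem_of_order_nonneg σ x hconst hx hV hxV (hPc n) i₀ (hcm n)
      have hint : IsIntegral V y := by
        refine ⟨P.toSubring V.toSubring (fun c hc => ?_), (monic_toSubring _ _ _).2 hPm, ?_⟩
        · obtain ⟨n, -, rfl⟩ := mem_coeffs_iff.1 hc
          exact hPV n
        · rw [← eval_map]
          exact (congrArg (eval y) (map_toSubring P V.toSubring _)).trans hPy
      obtain ⟨z, hz⟩ := IsIntegrallyClosed.isIntegral_iff.mp hint
      exact hz ▸ z.2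
    refine ⟨hyV, fun hpos => ?_⟩
    have hlt : ∀ n < Fintype.card ι, V.valuation (P.coeff n) < 1 := by
      intro n hn
      refine valuation_lt_of_order_pos σ x hconst hx hV hxV (hPc n) i₀ ?_
      have h0 : constHom L' ((∏ j, (X - C (yO j))).coeff n) = 0 := by
        rw [← coeff_map, Polynomial.map_prod]
        have : ∀ j, (X - C (yO j)).map (constHom L') = X := fun j => by
          have : constHom L' (yO j) = 0 := constHom_eq_zero_iff.2 ((hpos j).imp
            (fun h => by simp [yO, h]) id)
          simp [this]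
        rw [Finset.prod_congr rfl fun j _ => this j, Finset.prod_const, Finset.card_univ,
          coeff_X_pow, if_neg hn.ne]
      have e : ((∏ j, (X - C (yO j))).coeff n : LaurentSeries L') = σ i₀ (P.coeff n) := by
        rw [← coeff_map, hlift, coeff_map]
        rfl
      rcases constHom_eq_zero_iff.1 h0 with h1 | h1
      · exact Or.inl ((_root_.map_eq_zero (σ i₀)).1 (e ▸ h1))
      · exact Or.inr (e ▸ h1)
    by_contra hge
    have hy1 : V.valuation y = 1 := le_antisymm ((V.valuation_le_one_iff _).2 hyV) (not_lt.1 hge)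
    have hsum := hPy
    rw [eval_eq_sum_range, hPd, Finset.sum_range_succ] at hsum
    have hlead : P.coeff (Fintype.card ι) = 1 := hPd ▸ hPm.coeff_natDegree
    rw [hlead, one_mul] at hsum
    have h1 : V.valuation (∑ n ∈ Finset.range (Fintype.card ι), P.coeff n * y ^ n) < 1 := by
      refine V.valuation.map_sum_lt one_ne_zero fun n hn => ?_
      rw [map_mul, map_pow, hy1, one_pow, mul_one]
      exact hlt n (Finset.mem_range.1 hn)
    rw [eq_neg_of_add_eq_zero_left hsum, Valuation.map_neg, map_pow, hy1, one_pow] at h1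
    exact lt_irrefl _ h1
  -- one of the maximal ideals lies under that of `V`
  obtain ⟨i, hi⟩ : ∃ i, ∀ y : E, (∀ j, 0 ≤ (σ j y).order) → (y = 0 ∨ 0 < (σ i y).order) →
      V.valuation y < 1 := by
    by_contra hcon
    push Not at hcon
    choose y hy hy' hyv using hcon
    have h1 := (step (∏ i, y i) (fun j => by
      rw [map_prod]
      exact (nonnegSub L').prod_mem fun i _ => hy i j)).2 fun j => ?_
    · rw [map_prod, Finset.prod_eq_one fun i _ => le_antisymm
        ((V.valuation_le_one_iff _).2 (step (y i) (hy i)).1) (hyv i)] at h1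
      exact lt_irrefl _ h1
    · rcases hy' j with h | h
      · exact Or.inl (Finset.prod_eq_zero (Finset.mem_univ j) h)
      rcases eq_or_ne (∏ i, y i) 0 with h0 | h0
      · exact Or.inl h0
      refine Or.inr ?_
      have hne : ∀ i ∈ Finset.univ, σ j (y i) ≠ 0 := fun i hi =>
        (_root_.map_ne_zero _).2 (Finset.prod_ne_zero_iff.1 h0 i hi)
      rw [map_prod, Reduction.order_prod _ _ hne]
      exact lt_of_lt_of_le h (Finset.single_le_sum (f := fun i => (σ j (y i)).order)
        (fun i _ => hy i j) (Finset.mem_univ j))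
  -- it is maximal
  have hmax : ∀ s : E, (hs : ∀ j, 0 ≤ (σ j s).order) → V.valuation s < 1 →
      constHom L' ⟨σ i s, hs i⟩ = 0 := by
    intro s hs hsv
    by_contra ha
    set a := constHom L' ⟨σ i s, hs i⟩
    have halg : IsIntegral L a := (Algebra.IsAlgebraic.isAlgebraic a).isIntegral
    set p := minpoly L a
    have hp0 : p.coeff 0 ≠ 0 := minpoly.coeff_zero_ne_zero halg ha
    have hzm : ∀ j, σ j (aeval s p) = aeval (R := L') (σ j s) (p.map (algebraMap L L')) := by
      intro j
      rw [aeval_def, hom_eval₂, aeval_def, eval₂_map]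
      congr 1
      refine RingHom.ext fun c => ?_
      rw [RingHom.comp_apply, RingHom.comp_apply, hconst, Reduction.algebraMap_eq_C]
    have hnn : ∀ j, 0 ≤ (σ j (aeval s p)).order := by
      intro j
      rw [hzm, aeval_eq_sum_range]
      refine mem_nonnegSub.1 (sum_mem fun n _ => ?_)
      rw [Algebra.smul_def, Reduction.algebraMap_eq_C]
      exact mul_mem (C_mem_nonnegSub _) (pow_mem (mem_nonnegSub.2 (hs j)) _)
    have hz : aeval s p = 0 ∨ 0 < (σ i (aeval s p)).order := by
      have hconst0 : constHom L' ⟨_, hnn i⟩ = 0 := by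
        let Cn : L' →+* nonnegSub L' :=
          (HahnSeries.C : L' →+* LaurentSeries L').codRestrict _ C_mem_nonnegSub
        have e : (⟨_, hnn i⟩ : nonnegSub L') =
            (p.map (algebraMap L L')).eval₂ Cn ⟨σ i s, hs i⟩ := Subtype.ext (by
          show σ i (aeval s p) = (nonnegSub L').subtype _
          rw [hom_eval₂, hzm, aeval_def, Reduction.algebraMap_eq_C]
          rfl)
        rw [e, hom_eval₂, show (constHom L').comp Cn = RingHom.id L' from
          RingHom.ext fun c => constHom_C c, eval₂_id, eval_map, ← aeval_def]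
        exact minpoly.aeval L a
      rcases constHom_eq_zero_iff.1 hconst0 with h | h
      · exact Or.inl ((_root_.map_eq_zero (σ i)).1 h)
      · exact Or.inr h
    have h1 := hi _ hnn hz
    have hsplit : aeval s p = s * aeval s p.divX + algebraMap L E (p.coeff 0) := by
      conv_lhs => rw [← X_mul_divX_add p]
      rw [map_add, map_mul, aeval_X, aeval_C]
    have hsV : s ∈ V := (V.valuation_le_one_iff _).1 hsv.le
    have hQ : V.valuation (aeval s p.divX) ≤ 1 := by
      rw [V.valuation_le_one_iff, aeval_eq_sum_range]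
      refine sum_mem fun n _ => ?_
      rw [Algebra.smul_def]
      exact mul_mem (hV _) (pow_mem hsV _)
    have hc : V.valuation (algebraMap L E (p.coeff 0)) = 1 := by
      refine le_antisymm ((V.valuation_le_one_iff _).2 (hV _)) ?_
      have h2 := (V.valuation_le_one_iff _).2 (hV (p.coeff 0)⁻¹)
      rw [map_inv₀, map_inv₀] at h2
      exact (inv_le_one₀ (pos_of_ne_zero (by simpa using hp0))).1 h2
    rw [hsplit, Valuation.map_add_eq_of_lt_right, hc] at h1
    · exact lt_irrefl _ h1
    · rw [hc, map_mul]; exact mul_lt_one_of_lt_of_le hsv hQ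
  -- the ring of the embedding lies in `V`
  have hle : ∀ y : E, 0 ≤ (σ i y).order → y ∈ V := by
    intro y hy
    obtain ⟨a, ha⟩ : ∃ a : L, ∀ j, algebraMap L L' a ≠ (σ j y).coeff 0 := by
      obtain ⟨a, ha⟩ := Infinite.exists_notMem_finset
        ((Finset.univ.image fun j => (σ j y).coeff 0).preimage (algebraMap L L')
          (algebraMap L L').injective.injOn)
      refine ⟨a, fun j h => ha ?_⟩
      rw [Finset.mem_preimage, h]
      exact Finset.mem_image_of_mem _ (Finset.mem_univ j)
    set s := (y - algebraMap L E a)⁻¹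
    have hc : ∀ (j) (h : 0 ≤ (σ j y).order),
        constHom L' ⟨σ j (y - algebraMap L E a), by
          rw [map_sub, hconst]; exact sub_mem (mem_nonnegSub.2 h) (C_mem_nonnegSub _)⟩ ≠ 0 := by
      intro j h
      rw [constHom_apply]
      simp only [map_sub, hconst, HahnSeries.coeff_sub, HahnSeries.C_apply,
        HahnSeries.coeff_single_same]
      exact sub_ne_zero.2 (ha j).symm
    have hord : ∀ j, (σ j (y - algebraMap L E a)).order ≤ 0 := by
      intro j
      rcases le_or_gt 0 (σ j y).order with h | h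
      · exact (order_eq_zero_of_const_ne (hc j h)).2.le
      · rw [map_sub, hconst, (order_sub_C_of_neg h _).2]
        exact h.le
    have hne : y - algebraMap L E a ≠ 0 := by
      have h0 := (order_eq_zero_of_const_ne (hc i hy)).1
      simp only at h0
      exact fun h => h0 (by rw [h, map_zero])
    have hs : ∀ j, 0 ≤ (σ j s).order := fun j => by
      rw [map_inv₀, order_inv']
      exact neg_nonneg.2 (hord j)
    have hys : ∀ j, 0 ≤ (σ j (y * s)).order := fun j => by
      have : y * s = 1 + algebraMap L E a * s := by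
        simp only [s]
        field_simp
        ring
      rw [this, map_add, map_one, map_mul, hconst]
      exact add_mem (nonnegSub L').one_mem (mul_mem (C_mem_nonnegSub _) (mem_nonnegSub.2 (hs j)))
    have hsv : V.valuation s = 1 := by
      refine le_antisymm ((V.valuation_le_one_iff _).2 (step s hs).1) (not_lt.1 fun h => ?_)
      rcases constHom_eq_zero_iff.1 (hmax s hs h) with h1 | h1
      · exact inv_ne_zero hne ((_root_.map_eq_zero (σ i)).1 h1)
      · change 0 < (σ i (y - algebraMap L E a)⁻¹).order at h1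
        rw [map_inv₀, order_inv', (order_eq_zero_of_const_ne (hc i hy)).2] at h1
        exact absurd h1 (by simp)
    rw [← V.valuation_le_one_iff]
    have h := (V.valuation_le_one_iff _).2 (step (y * s) hys).1
    rwa [map_mul, hsv, mul_one] at h
  refine ⟨i, le_antisymm (fun y hy => ?_) hle⟩
  rw [mem_ordRing]
  by_contra h
  push Not at h
  have hy0 : y ≠ 0 := fun h0 => by simp [h0] at h
  have hx0 : x ≠ 0 := fun h0 => by have := hx i; simp [h0] at this
  obtain ⟨n, hn⟩ : ∃ n : ℕ, (σ i x).order = n := ⟨(σ i x).order.toNat, by have := hx i; omega⟩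
  obtain ⟨m, hm⟩ : ∃ m : ℕ, (σ i y).order = -(m : ℤ) := ⟨(-(σ i y).order).toNat, by omega⟩
  have hz : (σ i (y ^ n * x ^ m)⁻¹).order = 0 := by
    rw [map_inv₀, order_inv', map_mul, map_pow, map_pow, HahnSeries.order_mul
      (pow_ne_zero _ ((_root_.map_ne_zero _).2 hy0)) (pow_ne_zero _ ((_root_.map_ne_zero _).2 hx0)),
      order_pow', order_pow', hn, hm]
    ring
  have h1 := (V.valuation_le_one_iff _).2 (hle _ hz.ge)
  have h2 : V.valuation (y ^ n * x ^ m) < 1 := by
    rw [map_mul, map_pow, map_pow]
    exact mul_lt_one_of_nonneg_of_lt_one_right (pow_le_one₀ zero_le ((V.valuation_le_one_iff _).2 hy))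
      zero_le (pow_lt_one₀ zero_le ((ValuationSubring.mem_nonunits_iff V).1 hxV) (by omega))
  rw [map_inv₀] at h1
  have h3 : V.valuation (y ^ n * x ^ m) ≠ 0 := by simp [hy0, hx0]
  exact absurd h2 (not_lt.2 ((inv_le_one₀ (pos_of_ne_zero h3)).1 h1))

end Cover

section Basis

variable {L : Type*} [Field L] (R : Subalgebra L (LaurentSeries L)) {t : LaurentSeries L} {n : ℕ}
  [NeZero n]

/-- The class of the pole order. -/
def poleClass (n : ℕ) [NeZero n] (y : LaurentSeries L) : Fin n :=
  ⟨((-y.order) % (n : ℤ)).toNat, by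
    have h1 := Int.emod_nonneg (-y.order) (b := (n : ℤ)) (by exact_mod_cast NeZero.ne n)
    have h2 := Int.emod_lt_of_pos (-y.order) (b := (n : ℤ)) (by exact_mod_cast NeZero.pos n)
    omega⟩

theorem dvd_sub_of_poleClass_eq {y z : LaurentSeries L} (h : poleClass n y = poleClass n z) :
    (n : ℤ) ∣ y.order - z.order := by
  have h1 := congrArg (fun a : Fin n => ((a : ℕ) : ℤ)) h
  simp only [poleClass] at h1
  rw [Int.toNat_of_nonneg (Int.emod_nonneg _ (by exact_mod_cast NeZero.ne n)),
    Int.toNat_of_nonneg (Int.emod_nonneg _ (by exact_mod_cast NeZero.ne n))] at h1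
  have := Int.ModEq.dvd (h1 : -y.order ≡ -z.order [ZMOD n])
  simpa [neg_add_eq_sub] using this

/-- A basis over `L[t]` of an algebra of series in which only constants have no pole. -/
theorem exists_poleBasis (htR : t ∈ R) (ht : t.order = -(n : ℤ))
    (hconst : ∀ y ∈ R, 0 ≤ y.order → ∃ c : L, y = HahnSeries.C c) :
    ∃ (s : Finset (Fin n)) (e : Fin n → LaurentSeries L),
      (∀ r ∈ s, e r ∈ R ∧ e r ≠ 0 ∧ poleClass n (e r) = r ∧ (e r).order ≤ 0) ∧
      (∀ y ∈ R, y ≠ 0 → poleClass n y ∈ s) ∧
      ∀ y ∈ R, ∀ d : ℕ, -(d : ℤ) ≤ y.order → ∃ P : Fin n → L[X],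
        y = ∑ r ∈ s, aeval t (P r) * e r ∧
        ∀ r ∈ s, P r ≠ 0 → ((P r).natDegree : ℤ) * n + -(e r).order ≤ d := by
  classical
  have ht0 : t ≠ 0 := fun h => by
    rw [h, HahnSeries.order_zero] at ht
    have := NeZero.pos n
    omega
  let s : Finset (Fin n) := Finset.univ.filter fun r => ∃ y ∈ R, y ≠ 0 ∧ poleClass n y = r
  have hnonpos : ∀ y ∈ R, y ≠ 0 → y.order ≤ 0 := by
    intro y hy hy0
    by_contra h
    push Not at h
    obtain ⟨c, rfl⟩ := hconst y hy h.le
    rw [HahnSeries.order_C] at h
    exact lt_irrefl _ h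
  have hmin : ∀ r ∈ s, ∃ e ∈ R, e ≠ 0 ∧ poleClass n e = r ∧
      ∀ y ∈ R, y ≠ 0 → poleClass n y = r → y.order ≤ e.order := by
    intro r hr
    obtain ⟨y, hy, hy0, hyr⟩ := (Finset.mem_filter.1 hr).2
    have hex : ∃ d : ℕ, ∃ e ∈ R, e ≠ 0 ∧ poleClass n e = r ∧ e.order = -(d : ℤ) :=
      ⟨(-y.order).toNat, y, hy, hy0, hyr, by have := hnonpos y hy hy0; omega⟩
    obtain ⟨e, he, he0, her, heo⟩ := Nat.find_spec hex
    refine ⟨e, he, he0, her, fun z hz hz0 hzr => ?_⟩
    have h1 := hnonpos z hz hz0
    have h2 := Nat.find_min' hex (m := (-z.order).toNat) ⟨z, hz, hz0, hzr, by omega⟩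
    omega
  choose! e he using hmin
  refine ⟨s, e, fun r hr => ⟨(he r hr).1, (he r hr).2.1, (he r hr).2.2.1,
    hnonpos _ (he r hr).1 (he r hr).2.1⟩, fun y hy hy0 =>
      Finset.mem_filter.2 ⟨Finset.mem_univ _, y, hy, hy0, rfl⟩, fun y hy d => ?_⟩
  induction d using Nat.strong_induction_on generalizing y with
  | _ d ih =>
    intro hyd
    rcases eq_or_ne y 0 with rfl | hy0
    · exact ⟨fun _ => 0, by simp, fun r _ h => absurd rfl h⟩
    set r := poleClass n y with hr
    have hrs : r ∈ s := Finset.mem_filter.2 ⟨Finset.mem_univ _, y, hy, hy0, rfl⟩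
    obtain ⟨heR, he0, her, hemin⟩ := he r hrs
    have hle := hemin y hy hy0 rfl
    obtain ⟨i, hi⟩ := dvd_sub_of_poleClass_eq (n := n) (y := e r) (z := y) her
    have hn : (0 : ℤ) < n := by exact_mod_cast NeZero.pos n
    have hi0 : 0 ≤ i := by
      refine nonneg_of_mul_nonneg_right ?_ hn
      rw [← hi]
      omega
    lift i to ℕ using hi0
    set w := t ^ i * e r with hw
    have hw0 : w ≠ 0 := mul_ne_zero (pow_ne_zero _ ht0) he0
    have hwo : w.order = y.order := by
      rw [hw, HahnSeries.order_mul (pow_ne_zero _ ht0) he0, order_pow', ht]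
      linear_combination hi
    set c := y.coeff y.order / w.coeff w.order with hc
    have hcw : w.coeff w.order ≠ 0 := fun h => hw0 (HahnSeries.coeff_order_eq_zero.mp h)
    set y' := y - HahnSeries.C c * w with hy'
    have hCR : ∀ a : L, HahnSeries.C a ∈ R := fun a => by
      rw [← Reduction.algebraMap_eq_C]; exact R.algebraMap_mem a
    have hy'R : y' ∈ R := R.sub_mem hy (R.mul_mem (hCR c) (R.mul_mem (R.pow_mem htR i) heR))
    have hcoeff : ∀ j, y'.coeff j = y.coeff j - c * w.coeff j := fun j => by
      rw [hy', HahnSeries.coeff_sub, HahnSeries.C_mul_eq_smul, HahnSeries.coeff_smul, smul_eq_mul]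
    have hy'o : y' = 0 ∨ y.order < y'.order := by
      rcases eq_or_ne y' 0 with h | h
      · exact Or.inl h
      refine Or.inr ?_
      by_contra hcon
      push Not at hcon
      rcases lt_or_eq_of_le hcon with h1 | h1
      · refine h (HahnSeries.coeff_order_eq_zero.mp ?_)
        rw [hcoeff, HahnSeries.coeff_eq_zero_of_lt_order h1,
          HahnSeries.coeff_eq_zero_of_lt_order (hwo.symm ▸ h1), mul_zero, sub_zero]
      · refine h (HahnSeries.coeff_order_eq_zero.mp ?_)
        rw [hcoeff, h1, hc, ← hwo, div_mul_cancel₀ _ hcw, sub_self]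
    obtain ⟨P, hP, hPd⟩ : ∃ P : Fin n → L[X], y' = ∑ r ∈ s, aeval t (P r) * e r ∧
        ∀ r ∈ s, P r ≠ 0 → ((P r).natDegree : ℤ) * n + -(e r).order ≤ d := by
      rcases hy'o with h | h
      · exact ⟨fun _ => 0, by simp [h], fun r _ h => absurd rfl h⟩
      by_cases hd : d = 0
      · -- constants
        exfalso
        subst hd
        have h1 := hnonpos y hy hy0
        have h2 : y' ≠ 0 := fun h0 => by rw [h0, HahnSeries.order_zero] at h; omega
        have h3 := hnonpos y' hy'R h2
        simp only [Nat.cast_zero, neg_zero] at hyd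
        omega
      obtain ⟨P, hP, hPd⟩ := ih (d - 1) (by omega) y' hy'R (by omega)
      exact ⟨P, hP, fun r hr h0 => (hPd r hr h0).trans (by omega)⟩
    refine ⟨Function.update P r (P r + Polynomial.C c * X ^ i), ?_, fun r' hr' hne => ?_⟩
    · have : ∑ r' ∈ s, aeval t (Function.update P r (P r + Polynomial.C c * X ^ i) r') * e r' =
          (∑ r' ∈ s, aeval t (P r') * e r') + HahnSeries.C c * w := by
        rw [← Finset.add_sum_erase _ _ hrs, ← Finset.add_sum_erase (f := fun r' => aeval t (P r') * e r')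
          _ hrs, Function.update_self, Finset.sum_congr rfl fun r' hr' =>
            by rw [Function.update_of_ne (Finset.ne_of_mem_erase hr')]]
        rw [map_add, map_mul, map_pow, aeval_X, aeval_C, Reduction.algebraMap_eq_C, hw]
        ring
      rw [this, ← hP, hy', sub_add_cancel]
    · by_cases hrr : r' = r
      · subst hrr
        rw [Function.update_self] at hne ⊢
        have hXi : ((Polynomial.C c * X ^ i : L[X]).natDegree : ℤ) * n + -(e r).order ≤ d := by
          have : (Polynomial.C c * X ^ i : L[X]).natDegree ≤ i := natDegree_C_mul_X_pow_le c i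
          have h4 : ((Polynomial.C c * X ^ i : L[X]).natDegree : ℤ) * n ≤ (i : ℤ) * n :=
            mul_le_mul_of_nonneg_right (by exact_mod_cast this) hn.le
          have h5 : (i : ℤ) * n = (e r).order - y.order := by rw [hi, mul_comm]
          omega
        rcases eq_or_ne (P r) 0 with h0 | h0
        · rwa [h0, zero_add]
        have h6 := natDegree_add_le (P r) (Polynomial.C c * X ^ i)
        have h7 := hPd r hr' h0
        rcases le_total (P r).natDegree (Polynomial.C c * X ^ i : L[X]).natDegree with h8 | h8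
        · rw [max_eq_right h8] at h6
          have := mul_le_mul_of_nonneg_right (Int.ofNat_le.2 h6) hn.le
          omega
        · rw [max_eq_left h8] at h6
          have := mul_le_mul_of_nonneg_right (Int.ofNat_le.2 h6) hn.le
          omega
      · rw [Function.update_of_ne hrr] at hne ⊢
        exact hPd r' hr' hne

end Basis

end FLTAgent.BadQ.TwoInst
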