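import Mathlib
import Fermat.Agent.BadQ.TwoInstFields
import Fermat.Agent.Torsion.ExtC
import Fermat.Agent.ModularPlaces.Fields
import Fermat.Agent.BadQ.TwoInstOrder

/-!
# Finiteness of the charts

The function fields over the fixed field are finite over any nonconstant element
(`finiteDimensional_Fn`). Hence the charts are finite over `W0[y]` (`finite_chart`), integrally
closed, of finite type and Noetherian, with fraction field the function field.
-/

set_option autoImplicit false
set_option linter.style.haveILetI false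
set_option linter.unusedSectionVars false

noncomputable section

open ModularCurve IntermediateField Polynomial

namespace FLTAgent.BadQ.TwoInst

section General

variable {W : Type*} [CommRing W] [IsDomain W] {K : Type*} [Field K] [Algebra W K] [IsFractionRing W K]
  {F : Type*} [Field F] [Algebra K F] [Algebra W F] [IsScalarTower W K F] {s : F}

theorem transcendental_base (hs : Transcendental K s) : Transcendental W s :=
  hs.restrictScalars (IsFractionRing.injective W K)

theorem adjoin_mem_adjoinField {r : F} (hr : r ∈ Algebra.adjoin W ({s} : Set F)) : r ∈ K⟮s⟯ := by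
  refine (Algebra.adjoin_le (S := (K⟮s⟯.toSubalgebra.restrictScalars W)) ?_) hr
  exact Set.singleton_subset_iff.2 (mem_adjoin_simple_self K s)

/-- `W[s] ⊆ K(s)`. -/
def toAdjoinField : Algebra.adjoin W ({s} : Set F) →+* K⟮s⟯ :=
  (Algebra.adjoin W ({s} : Set F)).val.toRingHom.codRestrict K⟮s⟯ fun r => adjoin_mem_adjoinField r.2

local instance instAlgebraAdjoinField : Algebra (Algebra.adjoin W ({s} : Set F)) K⟮s⟯ :=
  (toAdjoinField (W := W) (K := K) (s := s)).toAlgebra

local instance instTowerAdjoinField :
    IsScalarTower (Algebra.adjoin W ({s} : Set F)) K⟮s⟯ F :=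
  IsScalarTower.of_algebraMap_eq fun _ => rfl

/-- Clearing the denominators of a polynomial over `K` evaluated at `s`. -/
theorem exists_mul_aeval_mem (p : K[X]) :
    ∃ b : W, b ≠ 0 ∧ algebraMap W F b * aeval s p ∈ Algebra.adjoin W ({s} : Set F) := by
  obtain ⟨⟨b, hb⟩, hbp⟩ := IsLocalization.integerNormalization_map_to_map (nonZeroDivisors W) p
  refine ⟨b, nonZeroDivisors.ne_zero hb, ?_⟩
  set p' := IsLocalization.integerNormalization (nonZeroDivisors W) p
  have h : aeval s (p'.map (algebraMap W K)) = algebraMap W F b * aeval s p := by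
    rw [hbp, show ((⟨b, hb⟩ : nonZeroDivisors W) : W) • p = C (algebraMap W K b) * p from
      by rw [← smul_eq_C_mul, algebraMap_smul], map_mul, aeval_C,
      ← IsScalarTower.algebraMap_apply W K F]
  rw [← h, aeval_map_algebraMap, Algebra.adjoin_singleton_eq_range_aeval]
  exact ⟨p', rfl⟩

theorem isFractionRing_adjoinField :
    IsFractionRing (Algebra.adjoin W ({s} : Set F)) K⟮s⟯ := by
  haveI : FaithfulSMul (Algebra.adjoin W ({s} : Set F)) K⟮s⟯ :=
    (faithfulSMul_iff_algebraMap_injective _ _).2 fun a b h =>
      Subtype.ext (congrArg (fun z : K⟮s⟯ => (z : F)) h :)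
  refine IsFractionRing.of_field _ _ fun z => ?_
  obtain ⟨P, Q, hPQ⟩ := (mem_adjoin_simple_iff K (z : F)).1 z.2
  obtain ⟨b, hb0, hb⟩ := exists_mul_aeval_mem (W := W) (s := s) P
  obtain ⟨c, hc0, hc⟩ := exists_mul_aeval_mem (W := W) (s := s) Q
  have hinj : Function.Injective (algebraMap W F) := by
    rw [IsScalarTower.algebraMap_eq W K F]
    exact (algebraMap K F).injective.comp (IsFractionRing.injective W K)
  have hb' : algebraMap W F b ≠ 0 := fun h => hb0 (hinj (h.trans (map_zero _).symm))
  have hc' : algebraMap W F c ≠ 0 := fun h => hc0 (hinj (h.trans (map_zero _).symm))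
  refine ⟨⟨algebraMap W F c * (algebraMap W F b * aeval s P),
    mul_mem (Subalgebra.algebraMap_mem _ c) hb⟩, ⟨algebraMap W F b * (algebraMap W F c * aeval s Q),
    mul_mem (Subalgebra.algebraMap_mem _ b) hc⟩, Subtype.ext ?_⟩
  show (z : F) =
    algebraMap W F c * (algebraMap W F b * aeval s P) / (algebraMap W F b * (algebraMap W F c * aeval s Q))
  rw [hPQ, mul_left_comm (algebraMap W F c), mul_div_mul_left _ _ hb', mul_div_mul_left _ _ hc']

/-- `W[X] ≃ W[s]`. -/
def polyEquiv (hs : Transcendental K s) : W[X] ≃ₐ[W] Algebra.adjoin W ({s} : Set F) :=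
  (AlgEquiv.ofInjective (aeval s) (transcendental_iff_injective.1 (transcendental_base hs))).trans
    (Subalgebra.equivOfEq _ _ (Algebra.adjoin_singleton_eq_range_aeval W s).symm)

variable [IsNoetherianRing W] [UniqueFactorizationMonoid W] [CharZero K]
  [FiniteDimensional K⟮s⟯ F]

theorem isNoetherianRing_adjoin : IsNoetherianRing (Algebra.adjoin W ({s} : Set F)) :=
  isNoetherianRing_of_fg (Subalgebra.fg_adjoin_finset {s} |> fun h => by simpa using h)

theorem isIntegrallyClosed_adjoin (hs : Transcendental K s) :
    IsIntegrallyClosed (Algebra.adjoin W ({s} : Set F)) :=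
  IsIntegrallyClosed.of_equiv (polyEquiv (W := W) hs).toRingEquiv

theorem isAlgebraic_adjoin (_hs : Transcendental K s) :
    Algebra.IsAlgebraic (Algebra.adjoin W ({s} : Set F)) F := by
  haveI := isFractionRing_adjoinField (W := W) (K := K) (s := s)
  exact (IsFractionRing.comap_isAlgebraic_iff (A := Algebra.adjoin W ({s} : Set F)) (K := K⟮s⟯)).2
    inferInstance

theorem finite_intCl (hs : Transcendental K s) :
    Module.Finite (Algebra.adjoin W ({s} : Set F))
      (integralClosure (Algebra.adjoin W ({s} : Set F)) F) := by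
  haveI := isFractionRing_adjoinField (W := W) (K := K) (s := s)
  haveI := isNoetherianRing_adjoin (W := W) (s := s)
  haveI := isIntegrallyClosed_adjoin (W := W) hs
  haveI : CharZero K⟮s⟯ := charZero_of_injective_algebraMap (algebraMap K K⟮s⟯).injective
  exact IsIntegralClosure.finite (Algebra.adjoin W ({s} : Set F)) K⟮s⟯ F _

theorem isFractionRing_intCl (hs : Transcendental K s) :
    IsFractionRing (TwoChart.intCl W ({s} : Set F)) F := by
  haveI := isFractionRing_adjoinField (W := W) (K := K) (s := s)
  exact integralClosure.isFractionRing_of_finite_extension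
    (A := Algebra.adjoin W ({s} : Set F)) K⟮s⟯ F

theorem isIntegrallyClosed_intCl (hs : Transcendental K s) :
    IsIntegrallyClosed (TwoChart.intCl W ({s} : Set F)) := by
  haveI := isFractionRing_intCl (W := W) hs
  refine (isIntegrallyClosed_iff F).2 fun {x} hx => ?_
  exact ⟨⟨x, TwoChart.mem_intCl_of_isIntegral hx⟩, rfl⟩

theorem finiteType_intCl (hs : Transcendental K s) :
    Algebra.FiniteType W (TwoChart.intCl W ({s} : Set F)) := by
  haveI := finite_intCl (W := W) hs
  haveI : Algebra.FiniteType W (Algebra.adjoin W ({s} : Set F)) :=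
    (Subalgebra.fg_iff_finiteType _).1 ⟨{s}, by simp⟩
  exact Algebra.FiniteType.trans (R := W) (S := Algebra.adjoin W ({s} : Set F))
    (A := integralClosure (Algebra.adjoin W ({s} : Set F)) F) ‹_› inferInstance

theorem isNoetherianRing_intCl (hs : Transcendental K s) :
    IsNoetherianRing (TwoChart.intCl W ({s} : Set F)) := by
  haveI := finiteType_intCl (W := W) hs
  exact Algebra.FiniteType.isNoetherianRing W _

end General

section Fields

open FLTAgent.ModularPlaces

local notation "Qb" => AlgebraicClosure ℚ

variable {A : ValuationSubring Qb} {N : ℕ} [NeZero N]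

theorem transcendental_coe {y : Fn A N} (hy : Transcendental (K0 A) y) :
    Transcendental Qb (y : modularFunctionFieldBar N) := by
  intro halg
  haveI : Algebra.IsAlgebraic ℚ Qb := AlgebraicClosure.isAlgebraic ℚ
  haveI : Algebra.IsAlgebraic (K0 A) Qb := Algebra.IsAlgebraic.tower_top (K := ℚ) (L := K0 A)
  refine hy ?_
  exact (isAlgebraic_algHom_iff ((Fn A N).val.restrictScalars (K0 A)) Subtype.val_injective).1
    (halg.restrictScalars (K0 A))

open IntermediateField.algebraAdjoinAdjoin in
/-- Independence over `K₀(y)` persists over `ℚ̄`. -/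
theorem linearIndependent_coe {y : Fn A N} {ι : Type*} [Fintype ι] {b : ι → Fn A N}
    (hb : LinearIndependent (K0 A)⟮y⟯ b) (hy : Transcendental (K0 A) y) :
    LinearIndependent Qb⟮(y : modularFunctionFieldBar N)⟯
      fun i => (b i : modularFunctionFieldBar N) := by
  classical
  set u : modularFunctionFieldBar N := (y : modularFunctionFieldBar N)
  -- the monomial family over `K₀`
  have hmono : ∀ d : ℕ, LinearIndependent (K0 A)
      fun p : ι × Fin d => ser A N (b p.1 * y ^ (p.2 : ℕ)) := by
    intro d
    rw [Fintype.linearIndependent_iff]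
    intro a ha
    have ha' : ∑ p : ι × Fin d, algebraMap (K0 A) (Fn A N) (a p) * (b p.1 * y ^ (p.2 : ℕ)) = 0 := by
      refine ser_injective ?_
      rw [map_sum, map_zero, ← ha]
      refine Finset.sum_congr rfl fun p _ => ?_
      rw [map_mul, AlgHom.commutes, Reduction.algebraMap_eq_C, HahnSeries.C_mul_eq_smul]
    let P : ι → (K0 A)[X] := fun i => ∑ j : Fin d, C (a (i, j)) * X ^ (j : ℕ)
    have hP : ∑ i, (⟨aeval y (P i), (mem_adjoin_simple_iff (K0 A) _).2 ⟨P i, 1, by simp⟩⟩ : (K0 A)⟮y⟯) • b i = 0 := by
      rw [← ha', Fintype.sum_prod_type]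
      refine Finset.sum_congr rfl fun i _ => ?_
      show aeval y (P i) * b i = _
      simp only [P, map_sum, map_mul, map_pow, aeval_C, aeval_X, Finset.sum_mul]
      refine Finset.sum_congr rfl fun j _ => ?_
      ring
    intro p
    have h0 : aeval y (P p.1) = 0 :=
      congrArg (fun z : (K0 A)⟮y⟯ => (z : Fn A N)) (Fintype.linearIndependent_iff.1 hb _ hP p.1)
    have hP0 : P p.1 = 0 := by
      by_contra hne
      exact hy ⟨P p.1, hne, h0⟩
    have := congrArg (fun r : (K0 A)[X] => r.coeff (p.2 : ℕ)) hP0
    simpa [P, coeff_sum, coeff_C_mul, coeff_X_pow, Fin.val_inj] using this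
  -- over `ℚ̄[u]`
  have hpoly : ∀ P : ι → Qb[X], ∑ i, aeval u (P i) * (b i : modularFunctionFieldBar N) = 0 →
      ∀ i, P i = 0 := by
    intro P hP
    obtain ⟨d, hd⟩ : ∃ d, ∀ i, (P i).natDegree < d :=
      ⟨(Finset.univ.sup fun i => (P i).natDegree) + 1, fun i =>
        Nat.lt_succ_of_le (Finset.le_sup (f := fun i => (P i).natDegree) (Finset.mem_univ i))⟩
    have hli := Torsion.linearIndependent_coeffMap (algebraMap (K0 A) Qb) (hmono d)
    rw [Fintype.linearIndependent_iff] at hli
    have h := hli (fun p => (P p.1).coeff (p.2 : ℕ)) ?_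
    · intro i
      ext j
      rw [coeff_zero]
      rcases lt_or_ge j d with hj | hj
      · exact h (i, ⟨j, hj⟩)
      · exact coeff_eq_zero_of_natDegree_lt ((hd i).trans_le hj)
    · have h' := congrArg (fun z : modularFunctionFieldBar N => (z : LaurentSeries Qb)) hP
      simp only [AddSubmonoidClass.coe_finsetSum, ZeroMemClass.coe_zero] at h'
      rw [← h', Fintype.sum_prod_type]
      refine Finset.sum_congr rfl fun i _ => ?_
      rw [aeval_def, eval₂_eq_sum_range' (algebraMap Qb (modularFunctionFieldBar N)) (hd i) u,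
        Finset.sum_mul, AddSubmonoidClass.coe_finsetSum,
        Finset.sum_range fun j => (((algebraMap Qb (modularFunctionFieldBar N) ((P i).coeff j) *
          u ^ j * (b i : modularFunctionFieldBar N) : modularFunctionFieldBar N)) : LaurentSeries Qb)]
      refine Finset.sum_congr rfl fun j _ => ?_
      rw [coeffMap_ser, ← HahnSeries.C_mul_eq_smul]
      push_cast
      rw [mul_assoc, mul_comm ((u : LaurentSeries Qb) ^ (j : ℕ))]
      congr 1
      exact (RingHom.congr_fun Reduction.algebraMap_eq_C _).symm
  rw [Fintype.linearIndependent_iff]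
  intro g hg i
  obtain ⟨⟨d, hd⟩, hint⟩ := IsLocalization.exist_integer_multiples
    (nonZeroDivisors (Algebra.adjoin Qb ({u} : Set (modularFunctionFieldBar N)))) Finset.univ g
  choose r hr using fun j => hint j (Finset.mem_univ j)
  have hr' : ∀ j, ∃ p : Qb[X], aeval u p = (r j : modularFunctionFieldBar N) := fun j =>
    (Algebra.adjoin_singleton_eq_range_aeval Qb u).le (r j).2
  choose p hp using hr'
  have hsum : ∑ j, aeval u (p j) * (b j : modularFunctionFieldBar N) = 0 := by
    have h1 : ∀ j, (r j : modularFunctionFieldBar N) =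
        (d : modularFunctionFieldBar N) * (g j : modularFunctionFieldBar N) := fun j =>
      congrArg (fun z : Qb⟮u⟯ => (z : modularFunctionFieldBar N)) (hr j) |>.trans rfl
    simp only [hp, h1, mul_assoc, ← Finset.mul_sum]
    rw [show (∑ j, (g j : modularFunctionFieldBar N) * (b j : modularFunctionFieldBar N)) = 0 from hg,
      mul_zero]
  have hpi := hp i
  rw [hpoly p hsum i, map_zero] at hpi
  have h2 := hr i
  rw [show r i = 0 from Subtype.ext hpi.symm, map_zero, Algebra.smul_def, eq_comm, mul_eq_zero] at h2
  refine h2.resolve_left fun h3 => nonZeroDivisors.ne_zero hd ?_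
  exact IsFractionRing.injective _ Qb⟮u⟯ (h3.trans (map_zero _).symm)

/-- The function fields over the fixed field are finite over any nonconstant element. -/
theorem finiteDimensional_Fn {y : Fn A N} (hy : Transcendental (K0 A) y) :
    FiniteDimensional (K0 A)⟮y⟯ (Fn A N) := by
  haveI := FF.finiteDimensional_adjoin_of_transcendental (transcendental_coe hy)
  refine Module.rank_lt_aleph0_iff.1 (lt_of_le_of_lt ?_
    (Cardinal.natCast_lt_aleph0 (n := Module.finrank Qb⟮(y : modularFunctionFieldBar N)⟯
      (modularFunctionFieldBar N))))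
  refine rank_le fun s hs => ?_
  have := (linearIndependent_coe (b := ((↑) : s → Fn A N)) hs hy).fintype_card_le_finrank
  rwa [Fintype.card_coe] at this

variable {q : ℕ} [Fact q.Prime] (hA : A.LiesOverPrime q)

include hA in
theorem ufm_W0 : UniqueFactorizationMonoid (W0 A) := by
  haveI := isDiscreteValuationRing_W0 hA
  infer_instance

variable {y : Fn A N} (hy : Transcendental (K0 A) y)

include hA hy

theorem finite_chart : Module.Finite (Algebra.adjoin (W0 A) ({y} : Set (Fn A N)))
    (integralClosure (Algebra.adjoin (W0 A) ({y} : Set (Fn A N))) (Fn A N)) := by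
  haveI := ufm_W0 hA
  haveI := isNoetherianRing_W0 hA
  haveI := finiteDimensional_Fn hy
  exact finite_intCl hy

theorem isAlgebraic_chart :
    Algebra.IsAlgebraic (Algebra.adjoin (W0 A) ({y} : Set (Fn A N))) (Fn A N) := by
  haveI := ufm_W0 hA
  haveI := isNoetherianRing_W0 hA
  haveI := finiteDimensional_Fn hy
  exact isAlgebraic_adjoin hy

theorem isFractionRing_chart : IsFractionRing (TwoChart.intCl (W0 A) ({y} : Set (Fn A N))) (Fn A N) := by
  haveI := ufm_W0 hA
  haveI := isNoetherianRing_W0 hA
  haveI := finiteDimensional_Fn hy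
  exact isFractionRing_intCl hy

theorem isIntegrallyClosed_chart :
    IsIntegrallyClosed (TwoChart.intCl (W0 A) ({y} : Set (Fn A N))) := by
  haveI := ufm_W0 hA
  haveI := isNoetherianRing_W0 hA
  haveI := finiteDimensional_Fn hy
  exact isIntegrallyClosed_intCl hy

theorem finiteType_chart : Algebra.FiniteType (W0 A) (TwoChart.intCl (W0 A) ({y} : Set (Fn A N))) := by
  haveI := ufm_W0 hA
  haveI := isNoetherianRing_W0 hA
  haveI := finiteDimensional_Fn hy
  exact finiteType_intCl hy

theorem isNoetherianRing_chart :
    IsNoetherianRing (TwoChart.intCl (W0 A) ({y} : Set (Fn A N))) := by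
  haveI := ufm_W0 hA
  haveI := isNoetherianRing_W0 hA
  haveI := finiteDimensional_Fn hy
  exact isNoetherianRing_intCl hy

end Fields

end FLTAgent.BadQ.TwoInst
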