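import Mathlib
import Fermat.Agent.BadQ.TwoInstFields
import Fermat.Agent.BadQ.TwoInstOrder
import Fermat.Agent.ModularPlaces.Fields
import Fermat.Agent.ModularCosets.Transfer

/-!
# The coordinate is not constant

At every pole of `j` the coordinate has a zero or a pole (`ord_tFn_ne_zero`): in the polynomial of
its conjugates over `ℚ̄[j]` one coefficient has dominant degree (`exists_dominant`). In particular
it is transcendental (`transcendental_tFn`, `transcendental_coord`).
-/

set_option autoImplicit false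
set_option linter.style.haveILetI false
set_option linter.unusedSectionVars false

noncomputable section

open Polynomial AlgebraicCurve ModularCurve

namespace FLTAgent.BadQ.TwoInst

open FLTAgent.Reduction FLTAgent.ModularCosets FLTAgent.ModularPlaces

local notation "Qb" => AlgebraicClosure ℚ

variable {M : ℕ} [NeZero M]

/-- The conjugates of the coordinate, as series in `q ^ (1 / M)`. -/
def tConj (c : CosetIdx M) : (LaurentSeries Qb)ˣ := gaussUnit Qb (zetaOf (phiQ M)) c

theorem tConj_cosetInf : (tConj (cosetInf M) : LaurentSeries Qb) = upHom M Qb (tSer Qb M) := by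
  rw [upHom_tSer (phiQ M), coeffMap_unit_ser]
  rfl

theorem order_tConj_pos {c : CosetIdx M} (hc : c ≠ cosetInf M) :
    0 < (tConj c : LaurentSeries Qb).order :=
  order_gaussUnit_pos _ c fun h => hc (eq_cosetInf_of_a_eq h)

theorem exists_ne_cosetInf (hM : 2 ≤ M) : ∃ c : CosetIdx M, c ≠ cosetInf M := by
  refine ⟨⟨(1, 0), mem_cosetReps.mpr ⟨one_dvd _, ?_, by simp⟩⟩, fun h => ?_⟩
  · rw [Nat.div_one]; omega
  · have := congrArg (fun c : CosetIdx M => c.a) h
    change 1 = M at this
    omega

theorem exists_coeff_poly (i : ℕ) : ∃ P : Qb[X],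
    P.eval₂ HahnSeries.C (jUp M Qb) =
      (famPoly fun c : CosetIdx M => (tConj c : LaurentSeries Qb)).coeff i := by
  have h := ((unitFamily M).isSymFamily (unitFamily M)).coeff_root i
  have h2 := coeffMap_mem_polyJ (phiQ M) h
  rw [coeffMap_jUp, ← Polynomial.coeff_map, famPoly_map,
    show (coeffMap (phiQ M) ∘ (unitFamily M).ser) = fun c => (tConj c : LaurentSeries Qb) from
      funext fun c => coeffMap_unit_ser (phiQ M) c] at h2
  exact mem_polyJ_iff.mp h2

theorem order_tConj_inf_neg (hM : 2 ≤ M) : (tConj (cosetInf M) : LaurentSeries Qb).order < 0 := by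
  classical
  obtain ⟨P, hP⟩ := exists_coeff_poly (M := M) 0
  set U : (LaurentSeries Qb)ˣ := ∏ c : CosetIdx M, -tConj c
  have hc0 : (famPoly fun c : CosetIdx M => (tConj c : LaurentSeries Qb)).coeff 0 = U := by
    simp [famPoly, coeff_zero_eq_eval_zero, eval_prod, U, Units.coe_prod]
  rw [hc0] at hP
  have hP0 : P ≠ 0 := fun h => U.ne_zero (by rw [← hP, h, eval₂_zero])
  have hU : (U : LaurentSeries Qb).order =
      ∑ c : CosetIdx M, (tConj c : LaurentSeries Qb).order := by
    rw [← ordHom_apply, map_prod, toAdd_prod]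
    refine Finset.sum_congr rfl fun c _ => ?_
    rw [ordHom_apply, Units.val_neg, HahnSeries.order_neg]
  have hle : (U : LaurentSeries Qb).order ≤ 0 := by
    rw [← hP, (order_eval₂_eq (order_jUp_neg (N := M) (k := Qb)) hP0).2]
    exact mul_nonpos_of_nonneg_of_nonpos (Int.natCast_nonneg _) (order_jUp_neg).le
  obtain ⟨c, hc⟩ := exists_ne_cosetInf hM
  have hpos : 0 < ∑ d ∈ Finset.univ.erase (cosetInf M), (tConj d : LaurentSeries Qb).order :=
    Finset.sum_pos (fun d hd => order_tConj_pos (Finset.ne_of_mem_erase hd))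
      ⟨c, Finset.mem_erase.2 ⟨hc, Finset.mem_univ c⟩⟩
  rw [hU, ← Finset.add_sum_erase _ _ (Finset.mem_univ (cosetInf M))] at hle
  omega

theorem order_tSer_neg (hM : 2 ≤ M) : (tSer Qb M).order < 0 := by
  have h := order_tConj_inf_neg hM
  rw [tConj_cosetInf, upHom_apply, order_qScale (NeZero.ne M) (show tSer Qb M ≠ 0 from (tUnit Qb M).ne_zero)] at h
  exact neg_of_mul_neg_right h (Int.natCast_nonneg M)

/-- Lower coefficients of a product over roots of positive order. -/
theorem coeff_prod_of_pos {ι : Type*} (s : Finset ι) (τ : ι → LaurentSeries Qb)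
    (hτ : ∀ d ∈ s, 0 < (τ d).order) {i : ℕ} (hi : i ≠ s.card) :
    (∏ d ∈ s, (X - C (τ d))).coeff i = 0 ∨ 0 < ((∏ d ∈ s, (X - C (τ d))).coeff i).order := by
  classical
  let f : ι → nonnegSub Qb := fun d => if h : d ∈ s then ⟨τ d, mem_nonnegSub.2 (hτ d h).le⟩ else 0
  set G : (nonnegSub Qb)[X] := ∏ d ∈ s, (X - C (f d))
  have hmap : G.map (nonnegSub Qb).subtype = ∏ d ∈ s, (X - C (τ d)) := by
    rw [Polynomial.map_prod]
    refine Finset.prod_congr rfl fun d hd => ?_
    simp [f, hd]
  have hconst : G.map (constHom Qb) = X ^ s.card := by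
    rw [Polynomial.map_prod, ← Finset.prod_const]
    refine Finset.prod_congr rfl fun d hd => ?_
    rw [Polynomial.map_sub, map_X, map_C,
      constHom_eq_zero_iff.2 (Or.inr (by simpa [f, hd] using hτ d hd)), map_zero, sub_zero]
  have h0 : constHom Qb (G.coeff i) = 0 := by
    rw [← coeff_map, hconst, coeff_X_pow, if_neg hi]
  rw [← hmap, coeff_map]
  exact constHom_eq_zero_iff.1 h0

/-- One coefficient of the polynomial of the conjugates has dominant degree in `j`. -/
theorem exists_dominant (hM : 2 ≤ M) : ∃ (m : ℕ) (P : ℕ → Qb[X]),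
    (∀ i, (P i).eval₂ HahnSeries.C (jUp M Qb) =
      (famPoly fun c : CosetIdx M => (tConj c : LaurentSeries Qb)).coeff i) ∧
    m < Fintype.card (CosetIdx M) ∧ P m ≠ 0 ∧
    ∀ i, i ≠ m → P i = 0 ∨ (P i).natDegree < (P m).natDegree := by
  classical
  choose P hP using fun i => exists_coeff_poly (M := M) i
  set τ : CosetIdx M → LaurentSeries Qb := fun c => (tConj c : LaurentSeries Qb)
  set c₀ := cosetInf M
  set T := τ c₀
  set s := Finset.univ.erase c₀
  have hT : T.order < 0 := order_tConj_inf_neg hM
  set G : (LaurentSeries Qb)[X] := ∏ d ∈ s, (X - C (τ d))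
  have hfam : famPoly τ = (X - C T) * G := by
    rw [famPoly, ← Finset.mul_prod_erase _ _ (Finset.mem_univ c₀)]
  obtain ⟨c, hc⟩ := exists_ne_cosetInf hM
  have hm1 : 1 ≤ s.card := Finset.card_pos.2 ⟨c, Finset.mem_erase.2 ⟨hc, Finset.mem_univ c⟩⟩
  have hmc : s.card < Fintype.card (CosetIdx M) := by
    rw [← Finset.card_univ]
    exact Finset.card_erase_lt_of_mem (Finset.mem_univ c₀)
  have hlow : ∀ i, i ≠ s.card → G.coeff i = 0 ∨ 0 < (G.coeff i).order := fun i hi =>
    coeff_prod_of_pos s τ (fun d hd => order_tConj_pos (Finset.ne_of_mem_erase hd)) hi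
  have hGdeg : G.natDegree = s.card := natDegree_finsetProd_X_sub_C_eq_card s τ
  have htop : G.coeff s.card = 1 := by
    rw [← hGdeg]
    exact (monic_prod_of_monic _ _ fun d _ => monic_X_sub_C (τ d)).coeff_natDegree
  have hgt : ∀ {a b : LaurentSeries Qb}, (a = 0 ∨ T.order < a.order) → (b = 0 ∨ T.order < b.order) →
      a - b = 0 ∨ T.order < (a - b).order := by
    intro a b ha hb
    rcases eq_or_ne (a - b) 0 with h | h
    · exact Or.inl h
    refine Or.inr ?_
    rcases ha with rfl | ha
    · rw [zero_sub] at h ⊢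
      rw [HahnSeries.order_neg]
      exact hb.resolve_left fun e => h (by rw [e, neg_zero])
    · rcases hb with rfl | hb
      · rwa [sub_zero]
      · rw [sub_eq_add_neg] at h ⊢
        refine lt_of_lt_of_le (lt_min ha ?_) (HahnSeries.min_order_le_order_add h)
        rwa [HahnSeries.order_neg]
  have hGi : ∀ i, G.coeff i = 0 ∨ T.order < (G.coeff i).order := fun i => by
    rcases eq_or_ne i s.card with rfl | hi
    · rw [htop]
      exact Or.inr (by rwa [HahnSeries.order_one])
    · exact (hlow i hi).imp id fun h => lt_trans hT h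
  have hmain : (famPoly τ).coeff s.card ≠ 0 ∧ ((famPoly τ).coeff s.card).order = T.order := by
    obtain ⟨k, hk⟩ : ∃ k, s.card = k + 1 := ⟨s.card - 1, by omega⟩
    have hT0 : T ≠ 0 := Units.ne_zero _
    have e : (famPoly τ).coeff s.card = G.coeff k - T := by
      rw [hfam, sub_mul, coeff_sub, coeff_C_mul, htop, mul_one, hk, coeff_X_mul]
    rw [e]
    rcases hGi k with h | h
    · rw [h, zero_sub, HahnSeries.order_neg]
      exact ⟨neg_ne_zero.2 hT0, rfl⟩
    · have hne : G.coeff k - T ≠ 0 := by
        rw [sub_ne_zero]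
        exact fun e => h.ne (by rw [e])
      refine ⟨hne, le_antisymm ?_ ?_⟩
      · refine HahnSeries.order_le_of_coeff_ne_zero ?_
        rw [HahnSeries.coeff_sub, HahnSeries.coeff_eq_zero_of_lt_order h, zero_sub, neg_ne_zero]
        exact fun e => hT0 (HahnSeries.coeff_order_eq_zero.mp e)
      · rw [sub_eq_add_neg] at hne ⊢
        refine le_trans (le_min h.le ?_) (HahnSeries.min_order_le_order_add hne)
        rw [HahnSeries.order_neg]
  have hother : ∀ i, i ≠ s.card → (famPoly τ).coeff i = 0 ∨ T.order < ((famPoly τ).coeff i).order := by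
    intro i hi
    have hTG : T * G.coeff i = 0 ∨ T.order < (T * G.coeff i).order := by
      rcases eq_or_ne (G.coeff i) 0 with h | h
      · exact Or.inl (by rw [h, mul_zero])
      · refine Or.inr ?_
        rw [HahnSeries.order_mul (Units.ne_zero _) h]
        linarith [(hlow i hi).resolve_left h]
    rw [hfam, sub_mul, coeff_sub, coeff_C_mul]
    rcases i with _ | k
    · rw [mul_coeff_zero, coeff_X_zero, zero_mul]
      exact hgt (Or.inl rfl) hTG
    · rw [coeff_X_mul]
      exact hgt (hGi k) hTG
  have hJ := order_jUp_neg (N := M) (k := Qb)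
  have hPm : P s.card ≠ 0 := fun h => hmain.1 (by rw [← hP, h, eval₂_zero])
  refine ⟨s.card, P, hP, hmc, hPm, fun i hi => or_iff_not_imp_left.2 fun hPi => ?_⟩
  have h1 := (order_eval₂_eq hJ hPi).2
  have h2 := (order_eval₂_eq hJ hPm).2
  rw [hP] at h1 h2
  have h3 : T.order < ((famPoly τ).coeff i).order :=
    (hother i hi).resolve_left fun h => (order_eval₂_eq hJ hPi).1 (by rw [hP]; exact h)
  rw [h1, ← hmain.2, h2] at h3
  by_contra hlt
  push Not at hlt
  have : ((P i).natDegree : ℤ) * (jUp M Qb).order ≤ ((P s.card).natDegree : ℤ) * (jUp M Qb).order :=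
    mul_le_mul_of_nonpos_right (by exact_mod_cast hlt) hJ.le
  omega

theorem coe_aeval_jB {N : ℕ} [NeZero N] (p : Qb[X]) :
    ((aeval (jB N) p : modularFunctionFieldBar N) : LaurentSeries Qb) = aeval (jqModC Qb) p := by
  rw [← coeffEmb_jq_eq Qb]
  exact (aeval_algHom_apply (modularFunctionFieldBar N).val (jB N) p).symm

theorem upHom_aeval_jqModC (p : Qb[X]) :
    upHom M Qb (aeval (jqModC Qb) p) = p.eval₂ HahnSeries.C (jUp M Qb) := by
  rw [← aeval_algHom_apply, upHom_apply, aeval_def, Reduction.algebraMap_eq_C]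
  rfl

variable {A : ValuationSubring Qb}

/-- At a pole of `j` the coordinate has a zero or a pole. -/
theorem ord_tFn_ne_zero (hM : 2 ≤ M) (v : Place Qb (modularFunctionFieldBar M))
    (hj : v.ord (jB M) < 0) : v.ord ((tFn A M : Fn A M) : modularFunctionFieldBar M) ≠ 0 := by
  classical
  intro ht
  set t : modularFunctionFieldBar M := ((tFn A M : Fn A M) : modularFunctionFieldBar M)
  have htser : (t : LaurentSeries Qb) = tSer Qb M := rfl
  have ht0 : t ≠ 0 := fun h => (tUnit Qb M).ne_zero (htser.symm.trans (congrArg Subtype.val h))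
  obtain ⟨m, P, hP, hm, hPm, hdeg⟩ := exists_dominant (M := M) hM
  set f : ℕ → modularFunctionFieldBar M := fun i => aeval (jB M) (P i) * t ^ i
  set n := Fintype.card (CosetIdx M)
  have hsum : ∑ i ∈ Finset.range (n + 1), f i = 0 := by
    refine Subtype.ext ?_
    refine (upHom M Qb).toRingHom.injective ?_
    change upHom M Qb _ = upHom M Qb _
    rw [ZeroMemClass.coe_zero, map_zero, AddSubmonoidClass.coe_finsetSum, map_sum]
    set τ : CosetIdx M → LaurentSeries Qb := fun c => (tConj c : LaurentSeries Qb)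
    have hroot := famPoly_eval_self τ (cosetInf M)
    have hd : (famPoly τ).natDegree < n + 1 := by
      rw [famPoly, natDegree_finsetProd_X_sub_C_eq_card, Finset.card_univ]
      omega
    rw [eval_eq_sum_range' hd] at hroot
    refine Eq.trans ?_ hroot
    refine Finset.sum_congr rfl fun i _ => ?_
    simp only [f]
    push_cast
    rw [map_mul, map_pow, coe_aeval_jB, upHom_aeval_jqModC, hP, htser, ← tConj_cosetInf]
  have hval : ∀ p : Qb[X], p ≠ 0 →
      v.adicValuation (aeval (jB M) p) = v.adicValuation (jB M) ^ p.natDegree := by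
    intro p hp
    have hj0 : jB M ≠ 0 := fun h => by rw [h, Place.ord_zero] at hj; exact lt_irrefl _ hj
    have hj1 : 1 < v.adicValuation (jB M) := by
      rw [FF.val_eq_exp v hj0, ← WithZero.exp_zero, WithZero.exp_lt_exp]
      omega
    have hc : ∀ a : Qb, a ≠ 0 → v.adicValuation (algebraMap Qb _ a) = 1 := fun a ha => by
      rw [FF.val_eq_exp v ((_root_.map_ne_zero _).2 ha), FF.ord_algebraMap, neg_zero,
        WithZero.exp_zero]
    rw [aeval_eq_sum_range, Valuation.map_sum_eq_of_lt (j := p.natDegree) _ (by simp) ?_]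
    · rw [Algebra.smul_def, map_mul, map_pow, coeff_natDegree, hc _ (leadingCoeff_ne_zero.2 hp),
        one_mul]
    · intro i hi
      rw [Finset.mem_sdiff, Finset.mem_range, Finset.mem_singleton] at hi
      rw [Algebra.smul_def, Algebra.smul_def, map_mul, map_mul, map_pow, map_pow, coeff_natDegree,
        hc _ (leadingCoeff_ne_zero.2 hp), one_mul]
      have hlt : v.adicValuation (jB M) ^ i < v.adicValuation (jB M) ^ p.natDegree :=
        pow_lt_pow_right₀ hj1 (by omega)
      rcases eq_or_ne (p.coeff i) 0 with h | h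
      · rw [h, map_zero, map_zero, zero_mul]
        exact pow_pos (lt_trans zero_lt_one hj1) _
      · rwa [hc _ h, one_mul]
  have hvt : v.adicValuation t = 1 := by
    rw [FF.val_eq_exp v ht0, ht, neg_zero, WithZero.exp_zero]
  have hj0 : jB M ≠ 0 := fun h => by rw [h, Place.ord_zero] at hj; exact lt_irrefl _ hj
  have hj1 : 1 < v.adicValuation (jB M) := by
    rw [FF.val_eq_exp v hj0, ← WithZero.exp_zero, WithZero.exp_lt_exp]
    omega
  have hfm : v.adicValuation (f m) = v.adicValuation (jB M) ^ (P m).natDegree := by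
    simp only [f]
    rw [map_mul, map_pow, hval _ hPm, hvt, one_pow, mul_one]
  have := congrArg v.adicValuation hsum
  rw [Valuation.map_sum_eq_of_lt (j := m) _ (Finset.mem_range.2 (by omega)) ?_, map_zero, hfm]
    at this
  · exact pow_ne_zero _ (ne_of_gt (lt_trans zero_lt_one hj1)) this
  · intro i hi
    rw [Finset.mem_sdiff, Finset.mem_singleton] at hi
    rw [hfm]
    simp only [f]
    rw [map_mul, map_pow, hvt, one_pow, mul_one]
    rcases hdeg i hi.2 with h | h
    · rw [h, map_zero, map_zero]
      exact pow_pos (lt_trans zero_lt_one hj1) _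
    · rcases eq_or_ne (P i) 0 with h0 | h0
      · rw [h0, map_zero, map_zero]
        exact pow_pos (lt_trans zero_lt_one hj1) _
      · rw [hval _ h0]
        exact pow_lt_pow_right₀ hj1 h

variable (A)

theorem transcendental_tFn (hM : 2 ≤ M) : Transcendental (K0 A) (tFn A M) := by
  intro h
  obtain ⟨c, hc⟩ := eq_C_of_isAlgebraic (h.algHom (ser A M))
  have h1 := congrArg (coeffMap (algebraMap (K0 A) Qb)) hc
  rw [coeffMap_ser, Reduction.coeffMap_C] at h1
  have h2 : tSer Qb M = HahnSeries.C (algebraMap (K0 A) Qb c) := h1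
  have h3 := order_tSer_neg (M := M) hM
  rw [h2, HahnSeries.order_C] at h3
  exact lt_irrefl _ h3

theorem transcendental_coord (hM : 2 ≤ M) (b : Bool) : Transcendental (K0 A) (coord A M b) := by
  unfold coord
  cases b
  · exact fun h => transcendental_tFn A hM (inv_inv (tFn A M) ▸ h.inv)
  · exact transcendental_tFn A hM

theorem transcendental_incl_coord (hM : 2 ≤ M) (b : Bool) {N : ℕ} [NeZero N] (h : M ∣ N) :
    Transcendental (K0 A) (incl h (coord A M b)) := fun halg =>
  transcendental_coord A hM b ((isAlgebraic_algHom_iff (incl h) (incl h).injective).1 halg)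

end FLTAgent.BadQ.TwoInst
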