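import Mathlib
import Fermat.Agent.BadQ.TwoInstCharts
import Fermat.Agent.BadQ.TwoInstGlobal
import Fermat.Agent.BadQ.TwoInstFinite
import Fermat.Agent.BadQ.TwoInstPole
import Fermat.Agent.TwoChart.CurveRing
import Fermat.Agent.Reduction.InputsLevel

/-!
# Independent facts about the charts and the special fibre

For `2 ≤ M` the coordinate is transcendental on the fibre and the coordinate ring of the fibre is
a Dedekind domain with fraction field the function field (`isFractionRing_fibreRing`,
`isDedekindDomain_fibreRing`). The chart of level `qM` lies in `VInf` (`chart_le_VInf`), since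
roots of monic polynomials over the Gauss ring stay in it (`mem_gV_of_monic_root`).
-/

set_option autoImplicit false
set_option linter.style.haveILetI false
set_option linter.unusedSectionVars false
set_option synthInstance.maxHeartbeats 400000
set_option maxHeartbeats 1000000

noncomputable section

open ModularCurve Polynomial

namespace FLTAgent.BadQ.TwoInst

attribute [local instance] instAlgebraAdjoinField instTowerAdjoinField

local notation "Qb" => AlgebraicClosure ℚ

variable {A : ValuationSubring Qb} {q : ℕ} [hq : Fact q.Prime] (hA : A.LiesOverPrime q) (M : ℕ)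
  [NeZero M] (hqM : ¬ q ∣ M) (b : Bool)

section Fibre

theorem coeffMap_tSer_order {R : Type*} [CommRing R] [Nontrivial R] (f : ℤ →+* R) :
    (coeffMap f (tSer ℤ M)).order = (tSer ℤ M).order := by
  have hu : IsUnit ((tSer ℤ M).leadingCoeff) := by
    refine IsUnit.of_mul_eq_one ((↑(tUnit ℤ M)⁻¹ : LaurentSeries ℤ).leadingCoeff) ?_
    rw [tSer, ← HahnSeries.leadingCoeff_mul, Units.mul_inv, HahnSeries.leadingCoeff_one]
  rw [HahnSeries.leadingCoeff_eq] at hu
  have hc : (coeffMap f (tSer ℤ M)).coeff (tSer ℤ M).order ≠ 0 := by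
    rw [coeffMap_coeff]; exact (hu.map f).ne_zero
  refine le_antisymm (HahnSeries.order_le_of_coeff_ne_zero hc) ?_
  by_contra hlt
  push Not at hlt
  have hne' : coeffMap f (tSer ℤ M) ≠ 0 := fun h => hc (by rw [h, HahnSeries.coeff_zero])
  have h1 := mt HahnSeries.leadingCoeff_eq_zero.1 hne'
  rw [HahnSeries.leadingCoeff_eq, coeffMap_coeff,
    HahnSeries.coeff_eq_zero_of_lt_order hlt, map_zero] at h1
  exact h1 rfl

theorem transcendental_tBar_of_two_le (hM2 : 2 ≤ M) :
    Transcendental (kres A) (tBar M hA hqM) := by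
  intro h
  obtain ⟨c, hc⟩ := eq_C_of_isAlgebraic
    (h.algHom (modularFunctionFieldFullC (kres A) M).val)
  have h2 : tSer (kres A) M = HahnSeries.C c := hc
  have h0 : (tSer ℤ M).order < 0 := by
    have h := order_tSer_neg (M := M) hM2
    rw [← coeffMap_tSer (M := M) (Int.castRingHom Qb), coeffMap_tSer_order] at h
    exact h
  rw [← coeffMap_tSer_order M (Int.castRingHom (kres A)), coeffMap_tSer, h2,
    HahnSeries.order_C] at h0
  exact lt_irrefl _ h0

theorem transcendental_coordBar_of_two_le (hM2 : 2 ≤ M) :
    Transcendental (kres A) (coordBar M hA hqM b) := by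
  have ht := transcendental_tBar_of_two_le hA M hqM hM2
  cases b
  · exact fun h => ht (by simpa [coordBar] using h.inv)
  · exact ht

theorem isFractionRing_fibreRing (hM2 : 2 ≤ M) :
    IsFractionRing (fibre M hA hqM b) (modularFunctionFieldFullC (kres A) M) := by
  haveI := GalCommon.isAlgClosed_residueField A hq.out hA
  haveI : FF.IsFF (kres A) (modularFunctionFieldFullC (kres A) M) :=
    Reduction.isFF_fullC_residue M A hA hqM
  have hs := transcendental_coordBar_of_two_le hA M hqM b hM2
  haveI := FF.finiteDimensional_adjoin_of_transcendental (K := kres A) hs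
  haveI := isFractionRing_adjoinField (W := kres A) (K := kres A) (s := coordBar M hA hqM b)
  exact integralClosure.isFractionRing_of_finite_extension
    (A := Algebra.adjoin (kres A)
      ({coordBar M hA hqM b} : Set (modularFunctionFieldFullC (kres A) M)))
    (IntermediateField.adjoin (kres A)
      ({coordBar M hA hqM b} : Set (modularFunctionFieldFullC (kres A) M)))
    (modularFunctionFieldFullC (kres A) M)

theorem isDedekindDomain_fibreRing (hM2 : 2 ≤ M) : IsDedekindDomain (fibre M hA hqM b) := by
  haveI := GalCommon.isAlgClosed_residueField A hq.out hA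
  haveI : FF.IsFF (kres A) (modularFunctionFieldFullC (kres A) M) :=
    Reduction.isFF_fullC_residue M A hA hqM
  haveI := isFractionRing_fibreRing hA M hqM b hM2
  exact TwoChart.isDedekindDomain_curveRing (coordBar M hA hqM b)

end Fibre

section Gauss

/-- A root of a monic polynomial with coefficients in the Gauss ring lies in it. -/
theorem mem_gV_of_monic_root {x : LaurentSeries Qb}
    (hx : x ≠ 0 → Scalable A (IsLocalRing.residue A) x)
    {p : (gV A (IsLocalRing.residue A))[X]} (hp : p.Monic)
    (h : eval₂ (gV A (IsLocalRing.residue A)).subtype x p = 0) :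
    x ∈ gV A (IsLocalRing.residue A) := by
  classical
  rcases eq_or_ne x 0 with rfl | hx0
  · exact zero_mem _
  rcases (hx hx0).mem_or_inv_mem A (IsLocalRing.residue A) IsLocalRing.residue_surjective with hmem | ⟨hi, hi0⟩
  · exact hmem
  exfalso
  set w : gV A (IsLocalRing.residue A) := ⟨x⁻¹, hi⟩
  set n := p.natDegree
  have hsum : ∑ i ∈ Finset.range (n + 1), (p.coeff i : LaurentSeries Qb) * x ^ i = 0 := by
    rw [eval₂_eq_sum_range] at h
    exact h
  have hrel : (1 : gV A (IsLocalRing.residue A)) + ∑ i ∈ Finset.range n, p.coeff i * w ^ (n - i) = 0 := by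
    refine Subtype.ext ?_
    push_cast
    have h2 := congrArg (fun y => y * (x⁻¹) ^ n) hsum
    simp only [Finset.sum_mul, zero_mul] at h2
    rw [Finset.sum_range_succ, hp.coeff_natDegree, OneMemClass.coe_one, one_mul, ← mul_pow,
      mul_inv_cancel₀ hx0, one_pow, add_comm] at h2
    rw [← h2]
    congr 1
    refine Finset.sum_congr rfl fun i hi' => ?_
    have hle : i ≤ n := (Finset.mem_range.1 hi').le
    calc (p.coeff i : LaurentSeries Qb) * x⁻¹ ^ (n - i)
        = (p.coeff i : LaurentSeries Qb) * (x * x⁻¹) ^ i * x⁻¹ ^ (n - i) := by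
          rw [mul_inv_cancel₀ hx0, one_pow, mul_one]
      _ = (p.coeff i : LaurentSeries Qb) * x ^ i * x⁻¹ ^ n := by
          rw [mul_pow, ← mul_assoc, mul_assoc _ (x⁻¹ ^ i), ← pow_add, Nat.add_sub_cancel' hle]
  let g : gV A (IsLocalRing.residue A) →+* LaurentSeries (kres A) :=
    { toFun := fun y => gval A (IsLocalRing.residue A) y
      map_one' := gval_one A (IsLocalRing.residue A)
      map_zero' := gval_zero A (IsLocalRing.residue A)
      map_mul' := fun y z => gval_mul A (IsLocalRing.residue A) y.2 z.2
      map_add' := fun y z => gval_add A (IsLocalRing.residue A) y.2 z.2 }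
  have hg : g w = 0 := hi0
  have h3 := congrArg g hrel
  rw [map_add, map_one, map_sum, map_zero, Finset.sum_eq_zero fun i hi' => by
    rw [map_mul, map_pow, hg, zero_pow (by have := Finset.mem_range.1 hi'; omega), mul_zero],
    add_zero] at h3
  exact one_ne_zero h3

theorem incl_coord_mem_VInf : incl (dvd_qM q M) (coord A M b) ∈ VInf A q M := by
  have h1 := gval_incl A (IsLocalRing.residue A) (tSer A M)
  have e1 : BadQ.incl A (tSer A M) = tSer Qb M := coeffMap_tSer (M := M) A.subtype
  have e2 : redSer A (IsLocalRing.residue A) (tSer A M) = tSer (kres A) M := coeffMap_tSer (M := M) _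
  rw [e1, e2] at h1
  rw [mem_VInf, valFn_incl]
  cases b
  · show valFn M (tFn A M)⁻¹ ∈ _
    rw [map_inv₀, valFn_tFn]
    exact (inv_mem_gV A _ h1.1 (by rw [h1.2]; exact (tUnit (kres A) M).ne_zero)).1
  · show valFn M (tFn A M) ∈ _
    rw [valFn_tFn]
    exact h1.1

include hA in
theorem chart_le_VInf (a : chart1 A q M b) : (a : Fn A (q * M)) ∈ VInf A q M := by
  obtain ⟨p, hp, hpa⟩ := a.2
  have hW : ∀ c : W0 A, algebraMap (W0 A) (Fn A (q * M)) c ∈ VInf A q M := fun c => by
    rw [mem_VInf, algebraMap_W0_Fn, valFn_algebraMap]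
    exact (gval_C A _ (toA A c)).1
  have hle : ∀ r : Algebra.adjoin (W0 A) ({incl (dvd_qM q M) (coord A M b)} : Set (Fn A (q * M))),
      (r : Fn A (q * M)) ∈ VInf A q M := by
    rintro ⟨r, hr⟩
    induction hr using Algebra.adjoin_induction with
    | mem y hy => show y ∈ VInf A q M; rw [Set.mem_singleton_iff.1 hy]; exact incl_coord_mem_VInf M b
    | algebraMap c => exact hW c
    | add y z _ _ hy hz => exact add_mem hy hz
    | mul y z _ _ hy hz => exact mul_mem hy hz
  let φ : Algebra.adjoin (W0 A) ({incl (dvd_qM q M) (coord A M b)} : Set (Fn A (q * M))) →+* gV A (IsLocalRing.residue A) :=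
    ((valFn (q * M)).comp (Algebra.adjoin (W0 A) ({incl (dvd_qM q M) (coord A M b)} : Set (Fn A (q * M)))).val.toRingHom).codRestrict
      (gV A (IsLocalRing.residue A)) fun r => hle r
  rw [mem_VInf]
  refine mem_gV_of_monic_root (fun h0 => ?_) (hp.map φ) ?_
  · rw [← coe_swapHom]
    refine scalable_coe A M q hq.out hA fun h => h0 ?_
    rw [← coe_swapHom, h]
    rfl
  · rw [eval₂_map]
    refine Eq.trans ?_ ((congrArg (valFn (q * M)) hpa).trans (map_zero _))
    exact (hom_eval₂ p (algebraMap _ (Fn A (q * M))) (valFn (q * M)) (a : Fn A (q * M))).symm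

end Gauss

end FLTAgent.BadQ.TwoInst
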