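import Mathlib
import Fermat.Agent.BadQ.TwoInstOrder
import Fermat.Agent.BadQ.TwoInstUnit
import Fermat.Agent.ModularCosets.Embeddings

/-!
# The expansions at all cosets of the function field of level `N`

Over any field with an `N`-th root of unity, `emb` gives an embedding into Laurent series in
`q^(1/N)` for each coset, through the modular equation. The orders at a coset are divisible by
`gcd (a², N)` (`gcd_dvd_order`); `eq_of_ordRing_emb_eq` says which cosets give the same valuation
ring, and `exists_eq_ordRing` that every valuation ring over `j = ∞` is given by one.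
-/

set_option autoImplicit false
set_option linter.style.haveILetI false
set_option linter.unusedSectionVars false
set_option synthInstance.maxHeartbeats 400000
set_option maxHeartbeats 1000000

noncomputable section

open ModularCurve IntermediateField Polynomial
open scoped IntermediateField

namespace FLTAgent.BadQ.TwoInst

open FLTAgent.ModularCosets FLTAgent.Reduction

variable {N : ℕ} [NeZero N] {k : Type*} [Field k]

variable (N k) in
/-- The expansion at `∞` in `u = q^(1/N)`. -/
def upVal : modularFunctionFieldFullC k N →ₐ[k] LaurentSeries k :=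
  (upHom N k).comp (modularFunctionFieldFullC k N).val

variable (N k) in
/-- The common restriction to `k(j)` of the expansions. -/
def baseHom : k⟮jF N k⟯ →+* LaurentSeries k :=
  (upVal N k).toRingHom.comp (algebraMap k⟮jF N k⟯ (modularFunctionFieldFullC k N))

theorem upVal_apply (y : modularFunctionFieldFullC k N) :
    upVal N k y = qScale k N (y : LaurentSeries k) := upHom_apply _

theorem baseHom_apply (x : k⟮jF N k⟯) :
    baseHom N k x = upVal N k (x : modularFunctionFieldFullC k N) := rfl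

theorem upVal_jF : upVal N k (jF N k) = jUp N k := upHom_apply _

theorem baseHom_algebraMap (a : k) : baseHom N k (algebraMap k _ a) = HahnSeries.C a := by
  rw [baseHom_apply, ← Reduction.algebraMap_eq_C]
  exact (upVal N k).commutes a

theorem exists_baseHom_eq {x : LaurentSeries k} (hx : x ∈ polyJ (jUp N k)) :
    ∃ y : k⟮jF N k⟯, baseHom N k y = x := by
  obtain ⟨p, rfl⟩ := mem_polyJ_iff.mp hx
  refine ⟨p.eval₂ (algebraMap k _) ⟨jF N k, mem_adjoin_simple_self k (jF N k)⟩, ?_⟩
  rw [hom_eval₂, show (baseHom N k).comp (algebraMap k _) = HahnSeries.C from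
    RingHom.ext baseHom_algebraMap, baseHom_apply, upVal_jF]

theorem upVal_aeval (P : k⟮jF N k⟯[X]) :
    upVal N k (aeval (jTopF N k) P) = (P.map (baseHom N k)).eval (upVal N k (jTopF N k)) := by
  rw [aeval_def, eval_map]
  exact hom_eval₂ P _ (upVal N k).toRingHom _

variable (φ : zetaRing N →+* k)

theorem upVal_jTopF : upVal N k (jTopF N k) = rootsOf φ (cosetInf N) := by
  rw [rootsOf_cosetInf]
  exact upHom_jTopC

include φ in
theorem map_minpoly :
    (minpoly k⟮jF N k⟯ (jTopF N k)).map (baseHom N k) = famPoly (rootsOf φ) := by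
  have hlift : famPoly (rootsOf φ) ∈ Polynomial.lifts (baseHom N k) := by
    rw [Polynomial.lifts_iff_coeff_lifts]
    intro i
    obtain ⟨y, hy⟩ := exists_baseHom_eq ((isSymFamily_map φ (jTopFamily N)).coeff_root i)
    exact ⟨y, hy⟩
  obtain ⟨P, hP, hPd, hPm⟩ :=
    Polynomial.lifts_and_natDegree_eq_and_monic hlift (famPoly_monic _)
  have hP0 : aeval (jTopF N k) P = 0 := by
    refine (upVal N k).toRingHom.injective ?_
    show upVal N k _ = upVal N k 0
    rw [map_zero, upVal_aeval, hP, upVal_jTopF φ, famPoly_eval_self]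
  have heq := eq_of_monic_of_dvd_of_natDegree_le (minpoly.monic (minpoly_jTopF φ).1) hPm
    (minpoly.dvd _ _ hP0) (by
      rw [(minpoly_jTopF φ).2, hPd, famPoly, natDegree_finsetProd_X_sub_C_eq_card,
        Finset.card_univ, card_cosetIdx])
  rw [← heq, hP]

/-- `k(X₀(N))` as `k(j)[X]` modulo the modular equation. -/
def rootEquiv : AdjoinRoot (minpoly k⟮jF N k⟯ (jTopF N k)) ≃ₐ[k⟮jF N k⟯]
    modularFunctionFieldFullC k N :=
  (adjoinRootEquivAdjoin _ (minpoly_jTopF φ).1).trans
    ((equivOfEq (adjoin_jTopF_eq_top φ)).trans topEquiv)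

theorem rootEquiv_root : rootEquiv φ (AdjoinRoot.root _) = jTopF N k := by
  simp only [rootEquiv, AlgEquiv.trans_apply, adjoinRootEquivAdjoin_apply_root]
  rfl

theorem rootEquiv_symm_aeval (P : k⟮jF N k⟯[X]) :
    (rootEquiv φ).symm (aeval (jTopF N k) P) = AdjoinRoot.mk _ P := by
  rw [AlgEquiv.symm_apply_eq, ← AdjoinRoot.aeval_eq]
  exact (congrArg (fun z => aeval z P) (rootEquiv_root φ).symm).trans
    (aeval_algHom_apply (rootEquiv φ).toAlgHom _ P)

include φ in
theorem exists_aeval_eq (y : modularFunctionFieldFullC k N) :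
    ∃ P : k⟮jF N k⟯[X], aeval (jTopF N k) P = y := by
  obtain ⟨P, hP⟩ := AdjoinRoot.mk_surjective ((rootEquiv φ).symm y)
  refine ⟨P, ?_⟩
  apply (rootEquiv φ).symm.injective
  rw [rootEquiv_symm_aeval, hP]

/-- The expansion at the coset `c` as a ring homomorphism. -/
def embRing (c : CosetIdx N) : modularFunctionFieldFullC k N →+* LaurentSeries k :=
  (AdjoinRoot.lift (baseHom N k) (rootsOf φ c)
    (by rw [← eval_map, map_minpoly φ, famPoly_eval_self])).comp
      (rootEquiv φ).symm.toAlgHom.toRingHom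

theorem embRing_aeval (c : CosetIdx N) (P : k⟮jF N k⟯[X]) :
    embRing φ c (aeval (jTopF N k) P) = (P.map (baseHom N k)).eval (rootsOf φ c) := by
  rw [embRing, RingHom.comp_apply]
  erw [rootEquiv_symm_aeval]
  rw [AdjoinRoot.lift_mk, eval_map]

theorem embRing_base (c : CosetIdx N) (x : k⟮jF N k⟯) :
    embRing φ c (algebraMap _ _ x) = baseHom N k x := by
  have h := embRing_aeval φ c (C x)
  rwa [aeval_C, Polynomial.map_C, eval_C] at h

/-- The expansion at the coset `c`. -/
def emb (c : CosetIdx N) : modularFunctionFieldFullC k N →ₐ[k] LaurentSeries k :=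
  { embRing φ c with
    commutes' := fun a => by
      show embRing φ c _ = _
      rw [IsScalarTower.algebraMap_apply k k⟮jF N k⟯ (modularFunctionFieldFullC k N),
        embRing_base, baseHom_algebraMap, Reduction.algebraMap_eq_C] }

theorem emb_aeval (c : CosetIdx N) (P : k⟮jF N k⟯[X]) :
    emb φ c (aeval (jTopF N k) P) = (P.map (baseHom N k)).eval (rootsOf φ c) :=
  embRing_aeval φ c P

theorem emb_base (c : CosetIdx N) (x : k⟮jF N k⟯) :
    emb φ c (x : modularFunctionFieldFullC k N) = baseHom N k x :=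
  embRing_base φ c x

theorem emb_jF (c : CosetIdx N) : emb φ c (jF N k) = jUp N k :=
  (emb_base φ c ⟨_, mem_adjoin_simple_self k (jF N k)⟩).trans upVal_jF

theorem emb_jTopF (c : CosetIdx N) : emb φ c (jTopF N k) = rootsOf φ c := by
  have h := emb_aeval φ c X
  rwa [aeval_X, Polynomial.map_X, eval_X] at h

theorem emb_cosetInf (y : modularFunctionFieldFullC k N) :
    emb φ (cosetInf N) y = upVal N k y := by
  obtain ⟨P, rfl⟩ := exists_aeval_eq φ y
  rw [emb_aeval, upVal_aeval, upVal_jTopF φ]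

theorem emb_injective : Function.Injective fun c => (emb φ c).toRingHom := fun c c' h => by
  refine rootsOf_injective φ ?_
  rw [← emb_jTopF, ← emb_jTopF]
  exact DFunLike.congr_fun h (jTopF N k)

theorem emb_family (V : CosetFamily N) {y : modularFunctionFieldFullC k N}
    (hy : coeffMap φ (V.ser (cosetInf N)) = upVal N k y) (c : CosetIdx N) :
    emb φ c y = coeffMap φ (V.ser c) := by
  classical
  have hlift : famLagrange (rootsOf φ) (coeffMap φ ∘ V.ser) ∈ Polynomial.lifts (baseHom N k) := by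
    rw [Polynomial.lifts_iff_coeff_lifts]
    intro i
    obtain ⟨z, hz⟩ := exists_baseHom_eq ((isSymFamily_map φ V).coeff_lagrange i)
    exact ⟨z, hz⟩
  obtain ⟨L, hL⟩ := (Polynomial.mem_lifts _).mp hlift
  set m := minpoly k⟮jF N k⟯ (jTopF N k)
  have hD : ∀ δ, (m.derivative.map (baseHom N k)).eval (rootsOf φ δ) ≠ 0 := fun δ => by
    rw [← derivative_map, map_minpoly φ, famPoly_derivative_eval]
    exact Finset.prod_ne_zero_iff.mpr fun ε hε =>
      sub_ne_zero.mpr fun h => (Finset.mem_erase.mp hε).1 (rootsOf_injective φ h).symm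
  have hid : y * aeval (jTopF N k) m.derivative = aeval (jTopF N k) L := by
    refine (upVal N k).toRingHom.injective ?_
    show upVal N k _ = upVal N k _
    rw [map_mul, upVal_aeval, upVal_aeval, hL, upVal_jTopF φ, ← hy, famLagrange_eval,
      ← derivative_map, map_minpoly φ]
    rfl
  have h := congrArg (emb φ c) hid
  rw [map_mul, emb_aeval, emb_aeval, hL, famLagrange_eval, ← map_minpoly φ, derivative_map] at h
  exact mul_right_cancel₀ (hD c) h

include φ in
theorem card_cosets : Fintype.card (CosetIdx N) =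
    Module.finrank k⟮jF N k⟯ (modularFunctionFieldFullC k N) := by
  rw [finrank_jF φ, card_cosetIdx]

include φ in
/-- The polynomial of an element with roots its expansions. -/
theorem exists_charpoly (y : modularFunctionFieldFullC k N) :
    ∃ P : k⟮jF N k⟯[X], P.Monic ∧ P.natDegree = Fintype.card (CosetIdx N) ∧
      aeval y P = 0 ∧ P.map (baseHom N k) = ∏ c, (X - C (emb φ c y)) := by
  haveI := finiteDimensional_jF φ
  have hmap := charpoly_lmul_eq_prod (baseHom N k) (fun c => (emb φ c).toRingHom)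
    (fun c x => emb_base φ c x) (emb_injective φ) (card_cosets φ) y
  refine ⟨_, LinearMap.charpoly_monic _, ?_, ?_, hmap⟩
  · rw [LinearMap.charpoly_natDegree, card_cosets φ]
  · refine (upVal N k).toRingHom.injective ?_
    show upVal N k _ = upVal N k 0
    rw [map_zero, aeval_def]
    refine (hom_eval₂ _ _ (upVal N k).toRingHom y).trans ?_
    rw [← eval_map]
    show (Polynomial.map (baseHom N k) _).eval (upVal N k y) = 0
    rw [hmap]
    rw [eval_prod]
    refine Finset.prod_eq_zero (Finset.mem_univ (cosetInf N)) ?_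
    rw [eval_sub, eval_X, eval_C, sub_eq_zero]
    exact (emb_cosetInf φ y).symm

/-! ### Orders -/

theorem order_jUp : (jUp N k).order = -(N : ℤ) := by
  rw [jUp, Reduction.order_qScale (NeZero.ne N) (jqModC_ne_zero_of_nontrivial k), order_jqModC]
  ring

theorem order_emb_jTopF (c : CosetIdx N) :
    (emb φ c (jTopF N k)).order = -((c.a * c.a : ℕ) : ℤ) := by
  rw [emb_jTopF]
  exact jConj_order _ c.a_ne_zero _

variable (k) in
/-- `j (d z)`. -/
def jdF (d : DivIdx N) : modularFunctionFieldFullC k N :=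
  ⟨qExpand k (d : ℕ) (jqModC k), jqModCd_mem_full k N d.dvd⟩

theorem order_emb_jdF (c : CosetIdx N) (d : DivIdx N) :
    (emb φ c (jdF k d)).order =
      -((Nat.gcd d c.a * Nat.gcd d c.a * (N / (d : ℕ)) : ℕ) : ℤ) := by
  have hy : coeffMap φ ((jdFamily N d).ser (cosetInf N)) = upVal N k (jdF k d) := by
    rw [jdFamily_ser_cosetInf, coeffMap_qScale, coeffMap_qScale, coeffMap_jqModC, upVal_apply,
      qScale_eq (d : ℕ)]
    rfl
  rw [emb_family φ (jdFamily N d) hy c]
  show (coeffMap φ (cuspExp _ _ _ _ _ _)).order = _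
  rw [coeffMap_cuspExp, coeffMap_jqModC, cuspExp_apply]
  set t := triData (d : ℕ) c.rep
  have hD : N / t.D = t.a * (N / (d : ℕ)) := by
    refine Nat.div_eq_of_eq_mul_right (Nat.pos_of_ne_zero t.D_ne) ?_
    rw [← mul_assoc, mul_comm t.D t.a, t.mul_eq, Nat.mul_div_cancel' d.dvd]
  rw [Reduction.order_qScale (div_pos_of_mul_eq (NeZero.ne N) (t.D_dvd.trans d.dvd) t.a_ne)
    (fun h => jqModC_ne_zero_of_nontrivial k ((map_eq_zero_iff _ (twist_injective _)).1 h)),
    order_twist, order_jqModC, hD, triData_a_rep c _ t]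
  push_cast
  ring

/-- The unit as a function. -/
def unitF : modularFunctionFieldFullC k N := ⟨tSer k N, tSer_mem_fullC φ⟩

theorem emb_unitF (c : CosetIdx N) :
    emb φ c (unitF φ) = (gaussUnit k (zetaOf φ) c : LaurentSeries k) := by
  rw [emb_family φ (unitFamily N) (y := unitF φ) (upHom_tSer φ).symm c, coeffMap_unit_ser]

theorem order_emb_unitF_pos (c : CosetIdx N) (hc : c ≠ cosetInf N) :
    0 < (emb φ c (unitF φ)).order := by
  rw [emb_unitF]
  exact order_gaussUnit_pos _ c fun h => hc (eq_cosetInf_of_a_eq h)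

/-- The order of the pole of the unit at `∞`, in the variable `q`. -/
def tDeg (N : ℕ) : ℕ := (∑ d ∈ N.divisors, unitExp N d * ((d : ℤ) - 1)).toNat

theorem order_tSer_eq (R : Type*) [Field R] :
    (tSer R N).order = -∑ d ∈ N.divisors, unitExp N d * ((d : ℤ) - 1) := by
  rw [tSer, ← ordHom_apply, tUnit, map_prod, toAdd_prod,
    ← Finset.sum_coe_sort N.divisors (fun d => unitExp N d * ((d : ℤ) - 1)),
    ← Finset.sum_neg_distrib]
  refine Finset.sum_congr rfl fun d _ => ?_
  simp only [map_zpow, map_mul, map_inv, toAdd_zpow, toAdd_mul, toAdd_inv, ordHom_apply,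
    smul_eq_mul]
  show -unitExp N d * ((qScale R (d : ℕ) (etaSer R)).order + -(etaSer R).order) = _
  rw [Reduction.order_qScale (NeZero.ne _) (show etaSer R ≠ 0 from (etaUnit R).ne_zero),
    order_etaSer]
  ring

include φ in
/-- The unit has a pole at `∞`. -/
theorem tDeg_pos (hN : 2 ≤ N) : 0 < tDeg N := by
  classical
  suffices h : (tSer k N).order < 0 by
    rw [order_tSer_eq k] at h
    simp only [tDeg]
    omega
  set v : CosetIdx N → LaurentSeries k := coeffMap φ ∘ (unitFamily N).ser with hv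
  have hv0 : ∀ c, v c ≠ 0 := fun c => by
    simp only [hv, Function.comp_apply, coeffMap_unit_ser]
    exact Units.ne_zero _
  have hpos : ∀ c, c ≠ cosetInf N → 0 < (v c).order := fun c hc => by
    have h := order_emb_unitF_pos φ c hc
    rwa [emb_unitF, ← coeffMap_unit_ser] at h
  have hle : (∏ c, v c).order ≤ 0 := by
    have h0 := order_nonpos_of_mem_polyJ (order_jUp_neg (N := N) (k := k))
      ((isSymFamily_map φ (unitFamily N)).coeff_poly 0)
    rw [coeff_zero_eq_eval_zero, famPoly, eval_prod] at h0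
    simp only [eval_sub, eval_X, eval_C, zero_sub] at h0
    rw [Finset.prod_neg] at h0
    rcases neg_one_pow_eq_or (LaurentSeries k) (Finset.univ : Finset (CosetIdx N)).card with h | h
    · rwa [h, one_mul] at h0
    · rwa [h, neg_one_mul, HahnSeries.order_neg] at h0
  rw [Reduction.order_prod _ _ fun c _ => hv0 c,
    ← Finset.add_sum_erase _ _ (Finset.mem_univ (cosetInf N))] at hle
  obtain ⟨c, hc⟩ : ∃ c : CosetIdx N, c ≠ cosetInf N := by
    refine ⟨⟨(1, 0), mem_cosetReps.mpr ⟨one_dvd N, by simpa using NeZero.pos N, by simp⟩⟩,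
      fun h => ?_⟩
    have h1 : 1 = N := congrArg CosetIdx.a h
    omega
  have hs : 0 < ∑ c ∈ Finset.univ.erase (cosetInf N), (v c).order :=
    Finset.sum_pos (fun c hc => hpos c (Finset.mem_erase.mp hc).1)
      ⟨c, Finset.mem_erase.mpr ⟨hc, Finset.mem_univ _⟩⟩
  have hinf : (v (cosetInf N)).order = (N : ℤ) * (tSer k N).order := by
    rw [hv, Function.comp_apply, ← upHom_tSer φ, upHom_apply,
      Reduction.order_qScale (NeZero.ne N) (show tSer k N ≠ 0 from (tUnit k N).ne_zero)]
  have hN0 : (0 : ℤ) < N := by exact_mod_cast NeZero.pos N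
  nlinarith

theorem order_tSer (hN : 2 ≤ N) (R : Type*) [Field R] (φ' : zetaRing N →+* R) :
    (tSer R N).order = -(tDeg N : ℤ) := by
  have h := tDeg_pos φ' hN
  rw [order_tSer_eq R]
  simp only [tDeg] at h ⊢
  omega

/-! ### The twist -/

theorem twist_baseHom (i : ℕ) (x : k⟮jF N k⟯) :
    twist (zetaOf φ ^ i) (baseHom N k x) = baseHom N k x := by
  rw [baseHom_apply, upVal_apply, twist_qScale _ (NeZero.ne N), ← pow_mul, mul_comm, pow_mul,
    (zetaOf_primitive φ).pow_eq_one, one_pow, twist_one]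

theorem twist_rootsOf {c c' : CosetIdx N} (ha : c'.a = c.a) {i : ℕ}
    (hb : c'.b ≡ c.b + i * c.a [MOD c.D]) :
    twist (zetaOf φ ^ i) (rootsOf φ c) = rootsOf φ c' := by
  rw [rootsOf, rootsOf, jConj, jConj, ha,
    twist_qScale _ (Nat.mul_ne_zero c.a_ne_zero c.a_ne_zero), twist_twist]
  congr 2
  rw [zpow_natCast, zpow_natCast, ← pow_mul, ← pow_add]
  have h : c.a * c'.b ≡ i * (c.a * c.a) + c.a * c.b [MOD N] := by
    have := hb.mul_left' (c := c.a)
    rw [c.a_mul_D] at this
    refine this.trans ?_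
    rw [show c.a * (c.b + i * c.a) = i * (c.a * c.a) + c.a * c.b by ring]
  exact congrArg _ (pow_eq_pow_iff_modEq.mpr (by rw [← (zetaOf_primitive φ).eq_orderOf]; exact h.symm))

theorem twist_emb {c c' : CosetIdx N} (ha : c'.a = c.a) {i : ℕ}
    (hb : c'.b ≡ c.b + i * c.a [MOD c.D]) (y : modularFunctionFieldFullC k N) :
    twist (zetaOf φ ^ i) (emb φ c y) = emb φ c' y := by
  obtain ⟨P, rfl⟩ := exists_aeval_eq φ y
  rw [emb_aeval, emb_aeval, ← eval₂_hom, twist_rootsOf φ ha hb, ← eval_map, Polynomial.map_map]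
  congr 2
  exact RingHom.ext (twist_baseHom φ i)

/-- All orders at `c` are divisible by `gcd (a², N)`. -/
theorem gcd_dvd_order (c : CosetIdx N) (y : modularFunctionFieldFullC k N) :
    ((c.a * Nat.gcd c.a c.D : ℕ) : ℤ) ∣ (emb φ c y).order := by
  set g := Nat.gcd c.a c.D with hg
  rcases eq_or_ne (emb φ c y) 0 with h0 | h0
  · simp [h0]
  obtain ⟨e, he⟩ : g ∣ c.D := Nat.gcd_dvd_right _ _
  obtain ⟨f, hf⟩ : g ∣ c.a := Nat.gcd_dvd_left _ _
  have hfix := twist_emb φ (c := c) (c' := c) rfl (i := e) (by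
    rw [show e * c.a = c.D * f by rw [he, hf]; ring]
    exact (Nat.add_mul_mod_self_left c.b c.D f).symm) y
  have hprim : IsPrimitiveRoot (zetaOf φ ^ e) (c.a * g) := by
    refine (zetaOf_primitive φ).pow (NeZero.pos N) ?_
    rw [mul_comm e, mul_assoc, ← he, c.a_mul_D]
  by_contra hd
  exact h0 (HahnSeries.coeff_order_eq_zero.mp (coeff_eq_zero_of_twist_eq hprim hfix hd))

/-! ### Valuation rings -/

theorem ordRing_emb_eq {c c' : CosetIdx N} (ha : c'.a = c.a)
    (hb : c'.b ≡ c.b [MOD Nat.gcd c.a c.D]) :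
    ordRing (emb φ c).toRingHom = ordRing (emb φ c').toRingHom := by
  set g := Nat.gcd c.a c.D with hg
  obtain ⟨x, y, hxy⟩ : ∃ x y : ℤ, (g : ℤ) = c.a * x + c.D * y :=
    ⟨_, _, Nat.gcd_eq_gcd_ab c.a c.D⟩
  obtain ⟨δ, hδ⟩ : (g : ℤ) ∣ (c'.b : ℤ) - c.b := Nat.modEq_iff_dvd.mp hb.symm
  set i := ((δ * x) % (c.D : ℤ)).toNat with hi
  have hD : (c.D : ℤ) ≠ 0 := by exact_mod_cast c.D_ne_zero
  have hb' : c'.b ≡ c.b + i * c.a [MOD c.D] := by
    rw [Nat.modEq_iff_dvd]
    push_cast
    rw [hi, Int.toNat_of_nonneg (Int.emod_nonneg _ hD), Int.emod_def]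
    refine ⟨-(δ * x / (c.D : ℤ)) * c.a - δ * y, ?_⟩
    linear_combination -hδ - δ * hxy
  refine SetLike.ext fun z => ?_
  rw [mem_ordRing, mem_ordRing, show (emb φ c').toRingHom z = _ from (twist_emb φ ha hb' z).symm,
    order_twist]
  rfl

theorem leadingCoeff_jUp : (jUp N k).leadingCoeff = 1 := by
  rw [HahnSeries.leadingCoeff_eq, order_jUp, jUp, show -(N : ℤ) = (N : ℤ) * (-1) by ring,
    qScale_coeff_mul (NeZero.ne N), coeff_jqModC_neg_one]

theorem leadingCoeff_rootsOf (c : CosetIdx N) :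
    (rootsOf φ c).leadingCoeff = ((zetaOf φ ^ (-((c.a * c.b : ℕ) : ℤ)) : kˣ) : k) := by
  rw [HahnSeries.leadingCoeff_eq, rootsOf, jConj_order _ c.a_ne_zero,
    jConj_coeff_neg_sq _ c.a_ne_zero]

theorem leadingCoeff_pow' (f : LaurentSeries k) (i : ℕ) :
    (f ^ i).leadingCoeff = f.leadingCoeff ^ i := by
  induction i with
  | zero => rw [pow_zero, pow_zero, HahnSeries.leadingCoeff_one]
  | succ i ih => rw [pow_succ, pow_succ, HahnSeries.leadingCoeff_mul, ih]

theorem leadingCoeff_zetaPow {f : LaurentSeries k} :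
    f⁻¹.leadingCoeff = f.leadingCoeff⁻¹ := by
  rcases eq_or_ne f 0 with rfl | hf
  · simp
  refine eq_inv_of_mul_eq_one_left ?_
  rw [← HahnSeries.leadingCoeff_mul, inv_mul_cancel₀ hf, HahnSeries.leadingCoeff_one]

theorem eq_of_ordRing_emb_eq {c c' : CosetIdx N}
    (h : ordRing (emb φ c).toRingHom = ordRing (emb φ c').toRingHom) :
    c'.a = c.a ∧ c'.b ≡ c.b [MOD Nat.gcd c.a c.D] := by
  have hN : (N : ℤ) ≠ 0 := by exact_mod_cast NeZero.ne N
  have hj : ∀ δ, ((emb φ δ).toRingHom (jF N k)⁻¹).order = (N : ℤ) := fun δ => by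
    rw [map_inv₀, order_inv']
    show -(emb φ δ (jF N k)).order = _
    rw [emb_jF, order_jUp, neg_neg]
  have hp := ord_proportional h (x := (jF N k)⁻¹) (y := jTopF N k)
    (by rw [hj]; exact_mod_cast NeZero.pos N)
  rw [hj, hj] at hp
  change (emb φ c' (jTopF N k)).order * _ = (emb φ c (jTopF N k)).order * _ at hp
  rw [order_emb_jTopF, order_emb_jTopF] at hp
  have ha : c'.a = c.a := by
    have := mul_right_cancel₀ hN hp
    exact Nat.mul_self_inj.mp (by exact_mod_cast neg_injective this)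
  refine ⟨ha, ?_⟩
  set g := Nat.gcd c.a c.D with hg
  obtain ⟨e, he⟩ : g ∣ c.D := Nat.gcd_dvd_right _ _
  obtain ⟨f, hf⟩ : g ∣ c.a := Nat.gcd_dvd_left _ _
  set z : modularFunctionFieldFullC k N := jTopF N k ^ e * (jF N k ^ f)⁻¹ with hz
  have hord : ∀ δ : CosetIdx N, δ.a = c.a → (emb φ δ z).order = 0 ∧
      (emb φ δ z).leadingCoeff = (((zetaOf φ ^ (e * (c.a * δ.b)))⁻¹ : kˣ) : k) := by
    intro δ hδ
    have h1 : emb φ δ (jTopF N k) ^ e ≠ 0 := by
      refine pow_ne_zero _ fun h0 => ?_
      have := order_emb_jTopF φ δ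
      rw [h0, HahnSeries.order_zero] at this
      have hne := Nat.mul_ne_zero δ.a_ne_zero δ.a_ne_zero
      omega
    have h2 : emb φ δ (jF N k) ^ f ≠ 0 := by
      refine pow_ne_zero _ fun h0 => ?_
      have := order_jUp (N := N) (k := k)
      rw [emb_jF] at h0
      rw [h0, HahnSeries.order_zero] at this
      exact hN (by linarith)
    rw [hz, map_mul, map_inv₀, map_pow, map_pow, HahnSeries.order_mul h1 (inv_ne_zero h2),
      order_inv', order_pow', order_pow', HahnSeries.leadingCoeff_mul, leadingCoeff_zetaPow,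
      leadingCoeff_pow', leadingCoeff_pow', emb_jF, order_jUp, leadingCoeff_jUp,
      order_emb_jTopF, emb_jTopF, leadingCoeff_rootsOf, hδ]
    refine ⟨?_, ?_⟩
    · have : e * (c.a * c.a) = f * N := by
        refine Eq.trans ?_ (congrArg (f * ·) c.a_mul_D)
        show e * (c.a * c.a) = f * (c.a * c.D)
        rw [he, mul_left_comm f, ← mul_assoc f, mul_comm f g, ← hf]
        ring
      have : (e : ℤ) * ((c.a * c.a : ℕ) : ℤ) = (f : ℤ) * N := by exact_mod_cast this
      linear_combination -this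
    · rw [one_pow, inv_one, mul_one, ← Units.val_pow_eq_pow_val, zpow_neg, zpow_natCast, inv_pow,
        ← pow_mul, mul_comm (c.a * δ.b)]
  set u : k := (((zetaOf φ ^ (e * (c.a * c.b)))⁻¹ : kˣ) : k)
  set w : modularFunctionFieldFullC k N := z - algebraMap k _ u
  have hw : ∀ δ : CosetIdx N, δ.a = c.a → (emb φ δ w).coeff 0 =
      (((zetaOf φ ^ (e * (c.a * δ.b)))⁻¹ : kˣ) : k) - u ∧ 0 ≤ (emb φ δ w).order := by
    intro δ hδ
    obtain ⟨h1, h2⟩ := hord δ hδ
    rw [HahnSeries.leadingCoeff_eq, h1] at h2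
    simp only [w, map_sub, AlgHom.commutes, Reduction.algebraMap_eq_C]
    refine ⟨by simp [h2], ?_⟩
    exact sub_mem (mem_nonnegSub.2 h1.ge) (C_mem_nonnegSub _)
  have hc : w ∈ (ordRing (emb φ c).toRingHom).nonunits := by
    rw [mem_nonunits_ordRing]
    have h0 : constHom k ⟨emb φ c w, (hw c rfl).2⟩ = 0 := by
      rw [constHom_apply]; exact (hw c rfl).1.trans (sub_self _)
    rcases constHom_eq_zero_iff.1 h0 with h1 | h1
    · exact Or.inl ((_root_.map_eq_zero _).1 h1)
    · exact Or.inr h1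
  rw [h, mem_nonunits_ordRing] at hc
  have hc' : (emb φ c' w).coeff 0 = 0 := by
    rcases hc with h1 | h1
    · rw [h1, map_zero, HahnSeries.coeff_zero]
    · exact HahnSeries.coeff_eq_zero_of_lt_order h1
  rw [(hw c' ha).1, sub_eq_zero] at hc'
  have h3 := inv_injective (Units.ext hc')
  rw [pow_eq_pow_iff_modEq, ← (zetaOf_primitive φ).eq_orderOf] at h3
  have hne : e * c.a ≠ 0 := Nat.mul_ne_zero (fun h0 => c.D_ne_zero (by rw [he, h0, mul_zero]))
    c.a_ne_zero
  refine Nat.ModEq.mul_left_cancel' hne ?_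
  rw [show e * c.a * g = N from Eq.trans (by rw [he]; ring) c.a_mul_D, mul_assoc, mul_assoc]
  exact h3

include φ in
/-- Every valuation ring over `j = ∞` is cut out by an expansion. -/
theorem exists_eq_ordRing [Infinite k] (V : ValuationSubring (modularFunctionFieldFullC k N))
    (hk : ∀ a : k, algebraMap k _ a ∈ V) (hj : jF N k ∉ V) :
    ∃ c, V = ordRing (emb φ c).toRingHom := by
  haveI : Nonempty (CosetIdx N) := ⟨cosetInf N⟩
  refine exists_ordRing_eq (L := k) (L' := k) (fun c => (emb φ c).toRingHom) (jF N k)⁻¹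
    (fun c a => by
      show emb φ c (algebraMap k _ a) = _
      rw [AlgHom.commutes, Reduction.algebraMap_eq_C]; rfl)
    (fun c => by
      rw [map_inv₀, order_inv']
      show 0 < -(emb φ c (jF N k)).order
      rw [emb_jF]
      exact neg_pos.2 order_jUp_neg)
    hk ?_ fun y => ?_
  · rw [ValuationSubring.mem_nonunits_iff_or, inv_inv]
    exact Or.inr hj
  obtain ⟨P, hPm, hPd, hP0, hPmap⟩ := exists_charpoly φ y
  refine ⟨P.map (algebraMap _ _), hPm.map _, ?_, ?_, fun n => ?_, fun c => ?_⟩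
  · rwa [eval_map, ← aeval_def]
  · rw [natDegree_map_eq_of_injective (algebraMap k⟮jF N k⟯ _).injective, hPd]
  · rw [coeff_map]
    have hle : k⟮jF N k⟯ ≤ IntermediateField.adjoin k {(jF N k)⁻¹} := by
      rw [adjoin_simple_le_iff]
      have := inv_mem (mem_adjoin_simple_self k (jF N k)⁻¹)
      rwa [inv_inv] at this
    exact hle (P.coeff n).2
  · rw [Polynomial.map_map, show (emb φ c).toRingHom.comp (algebraMap k⟮jF N k⟯ _) = baseHom N k from
      RingHom.ext (emb_base φ c), hPmap]
    rfl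

end FLTAgent.BadQ.TwoInst
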