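import Mathlib
import Fermat.Agent.BadQ.TwoInstLeaves

/-!
# The chart of level `M` at the Gauss point

The chart lies in the ring `gFn` of functions integral at the Gauss point (`chart0_le_gFn`) and
its reduction `redFn` lands in the coordinate ring of the special fibre (`redFn_mem_fibre`).
Elementary properties of that ring: it is not a field (`not_isField_fibre_of_two_le`) and closed
points are rational once it is finite (`closed_point_rational_of_finite`).
-/

set_option autoImplicit false
set_option linter.style.haveILetI false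
set_option linter.unusedSectionVars false
set_option synthInstance.maxHeartbeats 400000
set_option maxHeartbeats 1000000

noncomputable section

open ModularCurve Polynomial

namespace FLTAgent.BadQ.TwoInst

local notation "Qb" => AlgebraicClosure ℚ

variable (A : ValuationSubring Qb) (M : ℕ) [NeZero M]

/-- The functions of level `M` over the fixed field integral at the Gauss point. -/
def gFn : Subring (Fn A M) := (gV A (IsLocalRing.residue A)).comap (valFn M)

variable {A} {q : ℕ} [hq : Fact q.Prime] (hA : A.LiesOverPrime q) (hqM : ¬ q ∣ M) (b : Bool)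

theorem mem_gFn {y : Fn A M} : y ∈ gFn A M ↔ valFn M y ∈ gV A (IsLocalRing.residue A) := Iff.rfl

theorem gval_tFn : valFn M (tFn A M) ∈ gV A (IsLocalRing.residue A) ∧
    gval A (IsLocalRing.residue A) (valFn M (tFn A M)) = tSer (kres A) M := by
  rw [valFn_tFn, ← coeffMap_tSer (M := M) A.subtype]
  exact ⟨(gval_incl A _ _).1, (gval_incl A _ _).2.trans (coeffMap_tSer _)⟩

theorem coord_mem_gFn : coord A M b ∈ gFn A M := by
  cases b
  · show (tFn A M)⁻¹ ∈ gFn A M
    rw [mem_gFn, map_inv₀]
    exact (inv_mem_gV A _ (gval_tFn M).1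
      (by rw [(gval_tFn M).2]; exact (tUnit (kres A) M).ne_zero)).1
  · exact (gval_tFn M).1

theorem algebraMap_mem_gFn (w : W0 A) : algebraMap (W0 A) (Fn A M) w ∈ gFn A M := by
  rw [mem_gFn, algebraMap_W0_Fn, valFn_algebraMap]
  exact (gval_C A _ (toA A w)).1

theorem adjoin_le_gFn {r : Fn A M}
    (hr : r ∈ Algebra.adjoin (W0 A) ({coord A M b} : Set (Fn A M))) : r ∈ gFn A M := by
  induction hr using Algebra.adjoin_induction with
  | mem y hy => rw [Set.mem_singleton_iff.1 hy]; exact coord_mem_gFn M b
  | algebraMap c => exact algebraMap_mem_gFn M c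
  | add y z _ _ hy hz => exact add_mem hy hz
  | mul y z _ _ hy hz => exact mul_mem hy hz

include hA in
theorem scalable_valFn {y : Fn A M} (hy : y ≠ 0) :
    Scalable A (IsLocalRing.residue A) (valFn M y) := by
  rw [← valFn_incl (dvd_qM q M), ← coe_swapHom]
  refine scalable_coe A M q hq.out hA fun h => hy ?_
  refine valFn_injective ?_
  rw [← valFn_incl (dvd_qM q M), ← coe_swapHom, h, map_zero]
  rfl

include hA in
/-- The chart lies at the Gauss point. -/
theorem chart0_le_gFn (y : chart0 A M b) : (y : Fn A M) ∈ gFn A M := by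
  obtain ⟨p, hp, hpy⟩ := y.2
  let φ : Algebra.adjoin (W0 A) ({coord A M b} : Set (Fn A M)) →+* gV A (IsLocalRing.residue A) :=
    ((valFn M).comp (Algebra.adjoin (W0 A) ({coord A M b} : Set (Fn A M))).val.toRingHom).codRestrict
      (gV A (IsLocalRing.residue A)) fun r => adjoin_le_gFn M b r.2
  refine mem_gV_of_monic_root (fun h0 => ?_) (hp.map φ) ?_
  · exact scalable_valFn M hA fun h => h0 (by rw [h, map_zero])
  · rw [eval₂_map]
    refine Eq.trans ?_ ((congrArg (valFn M) hpy).trans (map_zero _))
    exact (hom_eval₂ p (algebraMap _ (Fn A M)) (valFn M) (y : Fn A M)).symm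

include hA hqM in
theorem gval_valFn_mem (y : Fn A M) : gval A (IsLocalRing.residue A) (valFn M y) ∈
    modularFunctionFieldFullC (kres A) M := by
  have h := gval_mem_fullC (q := q) M hA hqM (incl (dvd_qM q M) y)
  rwa [valFn_incl] at h

/-- The reduction at the Gauss point, as series. -/
def redFnLS : gFn A M →+* LaurentSeries (kres A) where
  toFun y := gval A (IsLocalRing.residue A) (valFn M y.1)
  map_one' := by rw [OneMemClass.coe_one, map_one]; exact gval_one A _
  map_zero' := by rw [ZeroMemClass.coe_zero, map_zero]; exact gval_zero A _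
  map_mul' y z := by rw [MulMemClass.coe_mul, map_mul]; exact gval_mul A _ y.2 z.2
  map_add' y z := by rw [AddMemClass.coe_add, map_add]; exact gval_add A _ y.2 z.2

/-- The reduction at the Gauss point. -/
def redFn : gFn A M →+* modularFunctionFieldFullC (kres A) M :=
  (redFnLS M).codRestrict (modularFunctionFieldFullC (kres A) M).toSubfield.toSubring
    fun y => gval_valFn_mem M hA hqM y.1

theorem coe_redFn (y : gFn A M) :
    ((redFn M hA hqM y : modularFunctionFieldFullC (kres A) M) : LaurentSeries (kres A)) =
      gval A (IsLocalRing.residue A) (valFn M y.1) := rfl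

theorem redFn_algebraMap (w : W0 A) :
    redFn M hA hqM ⟨algebraMap (W0 A) (Fn A M) w, algebraMap_mem_gFn M w⟩ =
      algebraMap (kres A) (modularFunctionFieldFullC (kres A) M) (redW A w) := by
  refine Subtype.ext ?_
  rw [coe_redFn]
  show gval A _ (valFn M (algebraMap (W0 A) (Fn A M) w)) = _
  rw [algebraMap_W0_Fn, valFn_algebraMap]
  refine (gval_C A _ (toA A w)).2.trans ?_
  rw [← Reduction.algebraMap_eq_C]
  rfl

theorem redFn_coord :
    redFn M hA hqM ⟨coord A M b, coord_mem_gFn M b⟩ = coordBar M hA hqM b := by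
  refine Subtype.ext ?_
  rw [coe_redFn]
  cases b
  · show gval A _ (valFn M (tFn A M)⁻¹) = (((tBar M hA hqM)⁻¹ :
      modularFunctionFieldFullC (kres A) M) : LaurentSeries (kres A))
    rw [map_inv₀, (inv_mem_gV A _ (gval_tFn M).1
      (by rw [(gval_tFn M).2]; exact (tUnit (kres A) M).ne_zero)).2, (gval_tFn M).2]
    rfl
  · exact (gval_tFn M).2

include hA hqM in
theorem redFn_adjoin (r : Algebra.adjoin (W0 A) ({coord A M b} : Set (Fn A M))) :
    redFn M hA hqM ⟨r, adjoin_le_gFn M b r.2⟩ ∈ Algebra.adjoin (kres A)
      ({coordBar M hA hqM b} : Set (modularFunctionFieldFullC (kres A) M)) := by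
  letI : Algebra (kres A) (modularFunctionFieldFullC (kres A) M) := inferInstance
  letI : Module (kres A) (modularFunctionFieldFullC (kres A) M) := Algebra.toModule
  obtain ⟨r, hr⟩ := r
  induction hr using Algebra.adjoin_induction with
  | mem y hy =>
    have h := Set.mem_singleton_iff.1 hy
    subst h
    rw [redFn_coord]
    exact Algebra.subset_adjoin rfl
  | algebraMap c =>
    rw [redFn_algebraMap]
    exact Subalgebra.algebraMap_mem _ _
  | add y z hy hz iy iz =>
    rw [show (⟨y + z, _⟩ : gFn A M) = ⟨y, adjoin_le_gFn M b hy⟩ + ⟨z, adjoin_le_gFn M b hz⟩ from rfl,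
      map_add]
    exact add_mem iy iz
  | mul y z hy hz iy iz =>
    rw [show (⟨y * z, _⟩ : gFn A M) = ⟨y, adjoin_le_gFn M b hy⟩ * ⟨z, adjoin_le_gFn M b hz⟩ from rfl,
      map_mul]
    exact mul_mem iy iz

/-- The reduction of a function of the chart lies in the coordinate ring of the fibre. -/
theorem redFn_mem_fibre (y : chart0 A M b) :
    redFn M hA hqM ⟨y, chart0_le_gFn M hA b y⟩ ∈ fibre M hA hqM b := by
  obtain ⟨p, hp, hpy⟩ := y.2
  let incl₀ : Algebra.adjoin (W0 A) ({coord A M b} : Set (Fn A M)) →+* gFn A M :=
    (Algebra.adjoin (W0 A) ({coord A M b} : Set (Fn A M))).val.toRingHom.codRestrict (gFn A M)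
      fun r => adjoin_le_gFn M b r.2
  let φ : Algebra.adjoin (W0 A) ({coord A M b} : Set (Fn A M)) →+* Algebra.adjoin (kres A)
      ({coordBar M hA hqM b} : Set (modularFunctionFieldFullC (kres A) M)) :=
    ((redFn M hA hqM).comp incl₀).codRestrict (Algebra.adjoin (kres A)
      ({coordBar M hA hqM b} : Set (modularFunctionFieldFullC (kres A) M))).toSubring
      fun r => redFn_adjoin M hA hqM b r
  have h0 : p.eval₂ incl₀ ⟨y, chart0_le_gFn M hA b y⟩ = 0 := by
    refine Subtype.ext ?_
    refine Eq.trans ?_ hpy
    exact hom_eval₂ p incl₀ (gFn A M).subtype _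
  refine BadQ.mem_intCl.2 ⟨p.map φ, hp.map _, ?_⟩
  rw [eval₂_map]
  refine Eq.trans ?_ ((congrArg (redFn M hA hqM) h0).trans (map_zero _))
  exact (hom_eval₂ p incl₀ (redFn M hA hqM) _).symm

theorem not_isField_fibre_of_two_le (hM2 : 2 ≤ M) : ¬ IsField (fibre M hA hqM b) := by
  letI : Algebra (kres A) (modularFunctionFieldFullC (kres A) M) := inferInstance
  letI : Module (kres A) (modularFunctionFieldFullC (kres A) M) := Algebra.toModule
  intro h
  have hint : IsField (Algebra.adjoin (kres A)
      ({coordBar M hA hqM b} : Set (modularFunctionFieldFullC (kres A) M))) := by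
    refine isField_of_isIntegral_of_isField (S := integralClosure (Algebra.adjoin (kres A)
      ({coordBar M hA hqM b} : Set (modularFunctionFieldFullC (kres A) M)))
      (modularFunctionFieldFullC (kres A) M)) ?_ h
    intro x z hxz
    have h2 := congrArg (Subtype.val : integralClosure (Algebra.adjoin (kres A)
      ({coordBar M hA hqM b} : Set (modularFunctionFieldFullC (kres A) M)))
      (modularFunctionFieldFullC (kres A) M) → modularFunctionFieldFullC (kres A) M) hxz
    exact Subtype.ext h2
  exact Polynomial.not_isField (kres A) ((polyEquiv (W := kres A) (K := kres A)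
    (transcendental_coordBar_of_two_le hA M hqM b hM2)).toRingEquiv.toMulEquiv.isField hint)

theorem exists_const_sub_mem {k C : Type*} [Field k] [IsAlgClosed k] [CommRing C] [Algebra k C]
    [Algebra.FiniteType k C] (Q : Ideal C) (hQ : Q.IsMaximal) (x : C) :
    ∃ c : k, Ideal.Quotient.mk Q (algebraMap k C c) = Ideal.Quotient.mk Q x := by
  haveI := hQ
  letI := Ideal.Quotient.field Q
  haveI : Algebra.FiniteType k (C ⧸ Q) :=
    Algebra.FiniteType.of_surjective (Ideal.Quotient.mkₐ k Q) Ideal.Quotient.mk_surjective
  haveI : Module.Finite k (C ⧸ Q) := finite_of_finite_type_of_isJacobsonRing k _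
  obtain ⟨c, hc⟩ := (IsAlgClosed.algebraMap_bijective_of_isIntegral (k := k) (K := C ⧸ Q)).2
    (Ideal.Quotient.mk Q x)
  exact ⟨c, hc⟩

theorem closed_point_rational_of_finite
    (hfin : Module.Finite
      (Algebra.adjoin (kres A) ({coordBar M hA hqM b} : Set (modularFunctionFieldFullC (kres A) M)))
      (integralClosure (Algebra.adjoin (kres A)
        ({coordBar M hA hqM b} : Set (modularFunctionFieldFullC (kres A) M)))
        (modularFunctionFieldFullC (kres A) M)))
    (Q : Ideal (fibre M hA hqM b)) (hQ : Q.IsMaximal) :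
    Function.Surjective fun w : W0 A =>
      Ideal.Quotient.mk Q (algebraMap (W0 A) (fibre M hA hqM b) w) := by
  letI : Algebra (kres A) (modularFunctionFieldFullC (kres A) M) := inferInstance
  letI : Module (kres A) (modularFunctionFieldFullC (kres A) M) := Algebra.toModule
  haveI := GalCommon.isAlgClosed_residueField A hq.out hA
  haveI : Algebra.FiniteType (kres A) (Algebra.adjoin (kres A)
      ({coordBar M hA hqM b} : Set (modularFunctionFieldFullC (kres A) M))) :=
    (Subalgebra.fg_iff_finiteType _).1 ⟨{coordBar M hA hqM b}, by simp⟩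
  haveI : Algebra.FiniteType (kres A) (fibre M hA hqM b) :=
    Algebra.FiniteType.trans (R := kres A) (S := Algebra.adjoin (kres A)
      ({coordBar M hA hqM b} : Set (modularFunctionFieldFullC (kres A) M)))
      (A := integralClosure (Algebra.adjoin (kres A)
        ({coordBar M hA hqM b} : Set (modularFunctionFieldFullC (kres A) M)))
        (modularFunctionFieldFullC (kres A) M)) ‹_› inferInstance
  intro z
  obtain ⟨x, rfl⟩ := Ideal.Quotient.mk_surjective z
  obtain ⟨c, hc⟩ := exists_const_sub_mem (k := kres A) Q hQ x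
  obtain ⟨w, rfl⟩ := redW_surjective hA c
  exact ⟨w, hc⟩

end FLTAgent.BadQ.TwoInst
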