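import Mathlib
import Fermat.Agent.BadQ.TwoInstEmb
import Fermat.Agent.BadQ.TwoInstFields
import Fermat.Agent.BadQ.TwoInstCharts
import Fermat.Agent.Reduction.GaussGenus
import Fermat.Agent.Reduction.PlacesLattice

/-!
# The coordinate of level `M` as a parameter with good reduction

Over any field with the roots of unity its only pole is the cusp `∞` (`eq_ordRing_cosetInf`), so
its polar divisor has the same degree before and after reduction: `t` and `1/t` are good
parameters for the Gauss reduction (`goodParam_tFn`, `goodParam_coord`).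
-/

set_option autoImplicit false
set_option linter.style.haveILetI false
set_option linter.unusedSectionVars false
set_option synthInstance.maxHeartbeats 400000
set_option maxHeartbeats 1000000

noncomputable section

open ModularCurve IntermediateField Polynomial AlgebraicCurve
open scoped IntermediateField

namespace FLTAgent.BadQ.TwoInst

open FLTAgent.ModularCosets FLTAgent.Reduction

section Pole

variable {N : ℕ} [NeZero N] {k : Type*} [Field k] (φ : zetaRing N →+* k)

/-- The coordinate is integral over `k[j]`. -/
theorem unitF_mem_of_jF_mem (V : ValuationSubring (modularFunctionFieldFullC k N))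
    (hk : ∀ a : k, algebraMap k _ a ∈ V) (hj : jF N k ∈ V) : unitF φ ∈ V := by
  obtain ⟨P, hPm, -, hP0, hPmap⟩ := exists_charpoly φ (unitF φ)
  have hfam : (fun c : CosetIdx N => emb φ c (unitF φ)) =
      coeffMap φ ∘ (unitFamily N).ser := funext fun c => by
    rw [emb_unitF, Function.comp_apply, coeffMap_unit_ser]
  have hcoeff : ∀ i, ((P.coeff i : k⟮jF N k⟯) : modularFunctionFieldFullC k N) ∈ V := by
    intro i
    obtain ⟨p, hp⟩ := mem_polyJ_iff.mp ((isSymFamily_map φ (unitFamily N)).coeff_poly i)
    set jj : k⟮jF N k⟯ := ⟨jF N k, mem_adjoin_simple_self k (jF N k)⟩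
    have hjj : baseHom N k jj = jUp N k := (baseHom_apply jj).trans upVal_jF
    have h1 : baseHom N k (P.coeff i) = baseHom N k (p.eval₂ (algebraMap k _) jj) := by
      rw [hom_eval₂, show (baseHom N k).comp (algebraMap k _) = HahnSeries.C from
        RingHom.ext baseHom_algebraMap, hjj, hp, ← hfam, ← Polynomial.coeff_map, hPmap]
      rfl
    have h2 : ((P.coeff i : k⟮jF N k⟯) : modularFunctionFieldFullC k N) =
        p.eval₂ (algebraMap k _) (jF N k) := by
      rw [(baseHom N k).injective h1]
      exact hom_eval₂ p (algebraMap k k⟮jF N k⟯) (k⟮jF N k⟯).val.toRingHom jj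
    rw [h2, eval₂_eq_sum_range]
    exact sum_mem fun n _ => mul_mem (hk _) (pow_mem hj n)
  suffices hint : IsIntegral V (unitF φ) by
    obtain ⟨w, hw⟩ := IsIntegrallyClosed.isIntegral_iff.mp hint
    exact hw ▸ w.2
  have hlift : P.map (algebraMap k⟮jF N k⟯ (modularFunctionFieldFullC k N)) ∈
      Polynomial.lifts (algebraMap V (modularFunctionFieldFullC k N)) :=
    (Polynomial.lifts_iff_coeff_lifts _).mpr fun i => ⟨⟨_, hcoeff i⟩, by rw [coeff_map]; rfl⟩
  obtain ⟨Q, hQ, -, hQm⟩ := Polynomial.lifts_and_natDegree_eq_and_monic hlift (hPm.map _)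
  refine ⟨Q, hQm, ?_⟩
  rw [← eval_map, hQ, eval_map, ← aeval_def]
  exact hP0

/-- The only pole of the coordinate is `∞`. -/
theorem eq_ordRing_cosetInf [Infinite k] (V : ValuationSubring (modularFunctionFieldFullC k N))
    (hk : ∀ a : k, algebraMap k _ a ∈ V) (ht : unitF φ ∉ V) :
    V = ordRing (emb φ (cosetInf N)).toRingHom := by
  obtain ⟨c, hc⟩ := exists_eq_ordRing φ V hk fun hj => ht (unitF_mem_of_jF_mem φ V hk hj)
  by_contra hne
  refine ht ?_
  rw [hc, mem_ordRing]
  exact (order_emb_unitF_pos φ c fun h => hne (h ▸ hc)).le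

/-- The place `∞` gives the order of the expansion in `q`. -/
theorem ord_eq_order_of_toValuationSubring [Infinite k]
    (v : Place k (modularFunctionFieldFullC k N))
    (hv : v.toValuationSubring = ordRing (emb φ (cosetInf N)).toRingHom)
    (y : modularFunctionFieldFullC k N) : v.ord y = (y : LaurentSeries k).order := by
  have hmem : ∀ z : modularFunctionFieldFullC k N,
      z ∈ v.toValuationSubring ↔ 0 ≤ (z : LaurentSeries k).order := by
    intro z
    rw [hv, mem_ordRing]
    show 0 ≤ (emb φ (cosetInf N) z).order ↔ _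
    rw [emb_cosetInf, upVal_apply]
    rcases eq_or_ne z 0 with rfl | hz
    · simp
    · rw [Reduction.order_qScale (NeZero.ne N) (fun h => hz (Subtype.ext h))]
      exact mul_nonneg_iff_of_pos_left (by exact_mod_cast NeZero.pos N)
  obtain ⟨π, hπ0, hπ⟩ := FF.exists_ord_eq v 1
  have hunit : ∀ z : modularFunctionFieldFullC k N, z ≠ 0 → v.ord z = 0 →
      (z : LaurentSeries k).order = 0 := by
    intro z hz hzv
    have h1 := (hmem z).mp ((FF.mem_iff v z).mpr (Or.inr hzv.ge))
    have h2 := (hmem z⁻¹).mp ((FF.mem_iff v _).mpr (Or.inr (by rw [v.ord_inv]; omega)))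
    rw [IntermediateField.coe_inv, order_inv'] at h2
    omega
  have key : ∀ z : modularFunctionFieldFullC k N, z ≠ 0 →
      (z : LaurentSeries k).order = v.ord z * (π : LaurentSeries k).order := by
    intro z hz
    have hne : π ^ (-v.ord z) ≠ 0 := zpow_ne_zero _ hπ0
    have h := hunit (z * π ^ (-v.ord z)) (mul_ne_zero hz hne)
      (by rw [v.ord_mul hz hne, v.ord_zpow, hπ]; ring)
    rw [MulMemClass.coe_mul, HahnSeries.order_mul (fun h0 => hz (Subtype.ext h0))
      (fun h0 => hne (Subtype.ext h0))] at h
    rw [show ((π ^ (-v.ord z) : modularFunctionFieldFullC k N) : LaurentSeries k) =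
      (π : LaurentSeries k) ^ (-v.ord z) from
        map_zpow₀ (modularFunctionFieldFullC k N).val π _, order_zpow'] at h
    linear_combination h
  have hπpos : 0 ≤ (π : LaurentSeries k).order :=
    (hmem π).mp ((FF.mem_iff v π).mpr (Or.inr (by omega)))
  have hj0 : jF N k ≠ 0 := fun h => jqModC_ne_zero_of_nontrivial k (congrArg Subtype.val h :)
  have hj := key _ hj0
  rw [show ((jF N k : modularFunctionFieldFullC k N) : LaurentSeries k) = jqModC k from rfl,
    order_jqModC] at hj
  have h1 : (π : LaurentSeries k).order = 1 := by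
    rcases Int.eq_one_or_neg_one_of_mul_eq_neg_one' hj.symm with ⟨-, h⟩ | ⟨-, h⟩ <;> omega
  rcases eq_or_ne y 0 with rfl | hy
  · simp
  rw [key y hy, h1, mul_one]

theorem unitF_ne_zero : unitF φ ≠ 0 := fun h => (tUnit k N).ne_zero (congrArg Subtype.val h :)

include φ in
theorem order_unitF (hN : 2 ≤ N) :
    ((unitF φ : modularFunctionFieldFullC k N) : LaurentSeries k).order = -(tDeg N : ℤ) :=
  order_tSer hN k φ

/-- The divisor of poles of the coordinate has degree the order of its pole at `∞`. -/
theorem degree_poleDiv_unitF [IsAlgClosed k] {g : ℕ}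
    (hC : CurveData k (modularFunctionFieldFullC k N) g) (hN : 2 ≤ N) :
    Divisor.degree (poleDiv (unitF φ) : Divisor k (modularFunctionFieldFullC k N)) =
      (tDeg N : ℤ) := by
  haveI : Infinite k := inferInstance
  have ht := tDeg_pos φ hN
  obtain ⟨v, hv⟩ : ∃ v : Place k (modularFunctionFieldFullC k N), v.ord (unitF φ) < 0 := by
    by_contra h
    push Not at h
    obtain ⟨c, hc⟩ := hC.const _ h
    have h1 := order_unitF φ hN
    rw [← hc, show ((algebraMap k (modularFunctionFieldFullC k N) c :
      modularFunctionFieldFullC k N) : LaurentSeries k) = algebraMap k (LaurentSeries k) c from rfl,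
      Reduction.algebraMap_eq_C, HahnSeries.order_C] at h1
    omega
  have hring : ∀ w : Place k (modularFunctionFieldFullC k N), w.ord (unitF φ) < 0 →
      w.toValuationSubring = ordRing (emb φ (cosetInf N)).toRingHom := fun w hw =>
    eq_ordRing_cosetInf φ _ w.algebraMap_mem' fun h =>
      absurd (FF.ord_nonneg_of_mem_placeRing w h) (not_le.mpr hw)
  have hordv : v.ord (unitF φ) = -(tDeg N : ℤ) :=
    (ord_eq_order_of_toValuationSubring φ v (hring v hv) _).trans (order_unitF φ hN)
  have hsingle : (poleDiv (unitF φ) : Divisor k (modularFunctionFieldFullC k N)) =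
      Finsupp.single v (tDeg N : ℤ) := by
    classical
    refine Finsupp.ext fun w => ?_
    rw [hC.poleDiv_apply, Finsupp.single_apply]
    by_cases hw : w.ord (unitF φ) < 0
    · have e : v = w := Place.ext ((hring v hv).trans (hring w hw).symm)
      subst e
      rw [if_pos rfl, hordv]
      omega
    · rw [if_neg (fun e : v = w => hw (e ▸ hv))]
      omega
  rw [hsingle, hC.degree_single]

theorem unitF_ne_algebraMap (hN : 2 ≤ N) (c : k) :
    unitF φ ≠ algebraMap k (modularFunctionFieldFullC k N) c := by
  intro h
  have h1 := order_unitF φ hN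
  have ht := tDeg_pos φ hN
  rw [h, show ((algebraMap k (modularFunctionFieldFullC k N) c :
    modularFunctionFieldFullC k N) : LaurentSeries k) = algebraMap k (LaurentSeries k) c from rfl,
    Reduction.algebraMap_eq_C, HahnSeries.order_C] at h1
  omega

end Pole

/-! ### The reduction -/

local notation "Qb" => AlgebraicClosure ℚ

variable {A : ValuationSubring Qb} {q : ℕ} [Fact q.Prime] (hA : A.LiesOverPrime q) (M : ℕ)
  [NeZero M] (hqM : ¬ q ∣ M)

include hA hqM in
theorem tSer_mem_integralExp : tSer A M ∈ integralExp A M := by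
  rw [mem_integralExp, coeffMap_tSer, coeffMap_tSer]
  exact ⟨mem_bar_iff.2 (tSer_mem_fullC (phiQ M)), tSer_mem_fullC (phiK M hA hqM)⟩

/-- The coordinate as an integral expansion. -/
def tExp : integralExp A M := ⟨tSer A M, tSer_mem_integralExp hA M hqM⟩

theorem expToBar_tExp :
    expToBar A M (tExp hA M hqM) = (tFn A M : modularFunctionFieldBar M) := by
  refine Subtype.ext ?_
  rw [coe_expToBar]
  exact (coeffMap_tSer _).trans
    (coe_mkFn (tSer Qb M) (tSer_mem_fullC (phiQ M)) (tSer_mem_subring (K0 A).toSubfield.toSubring)).symm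

theorem expToRes_tExp : expToRes A M (tExp hA M hqM) = tBar M hA hqM :=
  Subtype.ext (by rw [coe_expToRes]; exact coeffMap_tSer _)

theorem degree_poleDiv_tFn (hM2 : 2 ≤ M) :
    Divisor.degree (poleDiv ((tFn A M : modularFunctionFieldBar M)) :
      Divisor Qb (modularFunctionFieldBar M)) = (tDeg M : ℤ) := by
  have key : ∀ (E : IntermediateField Qb (LaurentSeries Qb)),
      E = modularFunctionFieldFullC Qb M → ∀ g : ℕ, CurveData Qb E g →
      ∀ y : E, (y : LaurentSeries Qb) = tSer Qb M →
      Divisor.degree (poleDiv y : Divisor Qb E) = (tDeg M : ℤ) := by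
    rintro E rfl g hC y hy
    rw [show y = unitF (phiQ M) from Subtype.ext hy]
    exact degree_poleDiv_unitF (phiQ M) hC hM2
  exact key (modularFunctionFieldBar M) (bar_eq_fullC M) _ (curveData_bar M) _
    (coe_mkFn (tSer Qb M) (tSer_mem_fullC (phiQ M)) (tSer_mem_subring (K0 A).toSubfield.toSubring))

variable (hM : GoodLevel M)

include hA hqM in
theorem tFn_mem_gauss : (tFn A M : modularFunctionFieldBar M) ∈ (modularGauss A M).V :=
  expToBar_tExp hA M hqM ▸ expToBar_mem _

include hA hqM in
theorem red_tFn : (modularGauss A M).red (tFn A M : modularFunctionFieldBar M) = tBar M hA hqM := by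
  rw [← expToBar_tExp hA M hqM, red_expToBar, expToRes_tExp]

include hA hqM hM in
/-- `t` is a good parameter. -/
theorem goodParam_tFn : GoodParam (modularGauss A M)
    (genusFF Qb (modularFunctionFieldBar M)) (tFn A M : modularFunctionFieldBar M) where
  curve := curveData_bar M
  curveBar := genusFF_fullC_residue M A hA hqM hM ▸ curveData_res A M hA hqM
  mem := tFn_mem_gauss hA M hqM
  not_const c := by
    rw [red_tFn hA M hqM, show tBar M hA hqM = unitF (phiK M hA hqM) from Subtype.ext rfl]
    exact unitF_ne_algebraMap _ hM.two_le c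
  deg_eq := by
    haveI := GalCommon.isAlgClosed_residueField A (Fact.out : q.Prime) hA
    rw [degree_poleDiv_tFn M hM.two_le, red_tFn hA M hqM,
      show tBar M hA hqM = unitF (phiK M hA hqM) from Subtype.ext rfl]
    exact (degree_poleDiv_unitF _ (curveData_res A M hA hqM) hM.two_le).symm

theorem coe_coord (b : Bool) :
    ((coord A M b : Fn A M) : modularFunctionFieldBar M) =
      if b then (tFn A M : modularFunctionFieldBar M) else (tFn A M : modularFunctionFieldBar M)⁻¹ := by
  cases b
  · simp only [coord, Bool.false_eq_true, if_false]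
    exact map_inv₀ (Fn A M).val (tFn A M)
  · rfl

include hA hqM hM in
/-- The coordinates are good parameters. -/
theorem goodParam_coord (b : Bool) : GoodParam (modularGauss A M)
    (genusFF Qb (modularFunctionFieldBar M)) (coord A M b : modularFunctionFieldBar M) := by
  rw [coe_coord]
  cases b
  · exact (goodParam_tFn hA M hqM hM).inv
  · exact goodParam_tFn hA M hqM hM

include hA hqM hM in
theorem red_coord (b : Bool) :
    (modularGauss A M).red (coord A M b : modularFunctionFieldBar M) = coordBar M hA hqM b := by
  rw [coe_coord]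
  cases b
  · simp only [coordBar, Bool.false_eq_true, if_false]
    rw [GaussRed.red_inv _ (tFn_mem_gauss hA M hqM) (goodParam_tFn hA M hqM hM).red_ne_zero,
      red_tFn hA M hqM]
  · exact red_tFn hA M hqM

end FLTAgent.BadQ.TwoInst
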