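import Mathlib
import Fermat.Agent.BadQ.TwoInstParam
import Fermat.Agent.BadQ.TwoInstGlobal

/-!
# The Gauss reduction of level `M` and the Gauss valuation of expansions

Membership in the valuation ring of `modularGauss` agrees with membership of the expansion in `gV`
(`gauss_le_gV`, `mem_gauss_of_gV`). A scalable root of a monic polynomial over `gV` lies in `gV`
(`mem_gV_of_monic`), so integral elements over a ring landing in `gV` do too
(`valFn_mem_gV_of_isIntegral`).
-/

set_option autoImplicit false
set_option linter.style.haveILetI false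
set_option linter.unusedSectionVars false
set_option synthInstance.maxHeartbeats 400000
set_option maxHeartbeats 1000000

noncomputable section

open ModularCurve Polynomial

namespace FLTAgent.BadQ

section Closed

variable {K k : Type*} [Field K] [Field k] (A : ValuationSubring K) (π : A →+* k)

theorem gval_sum {ι : Type*} (s : Finset ι) (f : ι → LaurentSeries K) (hf : ∀ i ∈ s, f i ∈ gV A π) :
    gval A π (∑ i ∈ s, f i) = ∑ i ∈ s, gval A π (f i) := by
  classical
  induction s using Finset.induction with
  | empty => simpa using gval_zero A π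
  | insert a s ha ih =>
    have hs : ∀ i ∈ s, f i ∈ gV A π := fun i hi => hf i (Finset.mem_insert_of_mem hi)
    rw [Finset.sum_insert ha, Finset.sum_insert ha,
      gval_add A π (hf a (Finset.mem_insert_self a s)) (sum_mem hs), ih hs]

theorem gval_pow {x : LaurentSeries K} (hx : x ∈ gV A π) (n : ℕ) :
    gval A π (x ^ n) = gval A π x ^ n := by
  induction n with
  | zero => simpa using gval_one A π
  | succ n ih => rw [pow_succ, gval_mul A π (pow_mem hx n) hx, ih, pow_succ]

/-- A scalable root of a monic polynomial with coefficients in `gV` lies in `gV`. -/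
theorem mem_gV_of_monic (hπ : Function.Surjective π) {x : LaurentSeries K}
    (hx : x ≠ 0 → Scalable A π x) {p : (LaurentSeries K)[X]} (hp : p.Monic)
    (hc : ∀ i, p.coeff i ∈ gV A π) (h0 : p.eval x = 0) : x ∈ gV A π := by
  rcases eq_or_ne x 0 with rfl | hx0
  · exact zero_mem _
  rcases (hx hx0).mem_or_inv_mem A π hπ with h | ⟨hi, hi0⟩
  · exact h
  exfalso
  have hterm : ∀ i ∈ Finset.range p.natDegree, p.coeff i * x⁻¹ ^ (p.natDegree - i) ∈ gV A π :=
    fun i _ => mul_mem (hc i) (pow_mem hi _)
  have hzero : ∑ i ∈ Finset.range p.natDegree, p.coeff i * x⁻¹ ^ (p.natDegree - i) = -1 := by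
    rw [eval_eq_sum_range, Finset.sum_range_succ, hp.coeff_natDegree, one_mul] at h0
    have h1 := congrArg (fun z => z * x⁻¹ ^ p.natDegree) h0
    simp only [add_mul, zero_mul, Finset.sum_mul, ← mul_pow, mul_inv_cancel₀ hx0, one_pow] at h1
    rw [← eq_neg_of_add_eq_zero_left h1]
    refine Finset.sum_congr rfl fun i hi' => ?_
    rw [mul_assoc]
    congr 1
    obtain ⟨j, hj⟩ := Nat.exists_eq_add_of_le (Finset.mem_range.1 hi').le
    rw [hj, Nat.add_sub_cancel_left, pow_add x⁻¹, ← mul_assoc, ← mul_pow, mul_inv_cancel₀ hx0,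
      one_pow, one_mul]
  have h2 := congrArg (gval A π) hzero
  rw [gval_sum A π _ _ hterm, show (-1 : LaurentSeries K) = 0 - 1 by ring] at h2
  have h3 : gval A π ((0 : LaurentSeries K) - 1) = -1 := by
    have := gval_add A π (x := (0 : LaurentSeries K) - 1) (y := 1) (sub_mem (zero_mem _) (one_mem _))
      (one_mem _)
    rw [sub_add_cancel, gval_zero, gval_one] at this
    exact eq_neg_of_add_eq_zero_left this.symm
  rw [h3, Finset.sum_eq_zero fun i hi' => ?_] at h2
  · exact one_ne_zero (neg_eq_zero.1 h2.symm)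
  rw [gval_mul A π (hc i) (pow_mem hi _), gval_pow A π hi, hi0,
    zero_pow (by have := Finset.mem_range.1 hi'; omega), mul_zero]

end Closed

namespace TwoInst

open FLTAgent.Reduction

local notation "Qb" => AlgebraicClosure ℚ

variable {A : ValuationSubring Qb} {q : ℕ} [Fact q.Prime] (hA : A.LiesOverPrime q) (M : ℕ)
  [NeZero M] (hqM : ¬ q ∣ M)

theorem coe_smul_bar {N : ℕ} (c : Qb) (y : modularFunctionFieldBar N) :
    ((c • y : modularFunctionFieldBar N) : LaurentSeries Qb) =
      HahnSeries.C c * (y : LaurentSeries Qb) := by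
  rw [Algebra.smul_def, MulMemClass.coe_mul, show ((algebraMap Qb (modularFunctionFieldBar N) c :
    modularFunctionFieldBar N) : LaurentSeries Qb) = algebraMap Qb (LaurentSeries Qb) c from rfl,
    Reduction.algebraMap_eq_C]

theorem gauss_le_gV {y : modularFunctionFieldBar M} (hy : y ∈ (modularGauss A M).V) :
    (y : LaurentSeries Qb) ∈ gV A (IsLocalRing.residue A) ∧
      gval A (IsLocalRing.residue A) (y : LaurentSeries Qb) =
        ((modularGauss A M).red y : LaurentSeries (kres A)) := by
  obtain ⟨a, b, hb, h⟩ := modularGauss_mem.mp hy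
  have hb' : redSer A (IsLocalRing.residue A) (b : LaurentSeries A) ≠ 0 := fun h0 =>
    hb (Subtype.ext h0)
  have h' : (y : LaurentSeries Qb) * BadQ.incl A (b : LaurentSeries A) =
      BadQ.incl A (a : LaurentSeries A) :=
    congrArg (fun z : modularFunctionFieldBar M => (z : LaurentSeries Qb)) h
  refine ⟨⟨_, _, hb', h'⟩, ?_⟩
  rw [gval_eq A _ hb' h', modularGauss_red hb h]
  rfl

include hA hqM in
theorem mem_gauss_of_gV {y : modularFunctionFieldBar M}
    (hy : (y : LaurentSeries Qb) ∈ gV A (IsLocalRing.residue A)) : y ∈ (modularGauss A M).V := by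
  rcases eq_or_ne y 0 with rfl | hy0
  · exact zero_mem _
  obtain ⟨c, hc, hcV, hcr⟩ := modularGauss_scale A M hA hqM y hy0
  obtain ⟨hu, hur⟩ := gauss_le_gV M hcV
  have hne : gval A (IsLocalRing.residue A) ((c • y : modularFunctionFieldBar M) : LaurentSeries Qb)
      ≠ 0 := fun h => hcr (Subtype.ext (hur.symm.trans h))
  have hcoe := coe_smul_bar c y
  have hy1 : (y : LaurentSeries Qb) ≠ 0 := fun h => hy0 (Subtype.ext h)
  have hcA : c⁻¹ ∈ A := by
    refine mem_of_C_mem_gV A (IsLocalRing.residue A) IsLocalRing.residue_surjective ?_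
    have h2 := mul_mem hy (inv_mem_gV A _ hu hne).1
    rw [hcoe, mul_inv, mul_left_comm, mul_inv_cancel₀ hy1, mul_one, ← map_inv₀ HahnSeries.C] at h2
    exact h2
  have := (modularGauss A M).smul_mem ⟨c⁻¹, hcA⟩ hcV
  rwa [smul_smul, inv_mul_cancel₀ hc, one_smul] at this

include hA hqM in
theorem scalable_bar {y : modularFunctionFieldBar M} (hy : y ≠ 0) :
    Scalable A (IsLocalRing.residue A) (y : LaurentSeries Qb) := by
  obtain ⟨c, hc, hcV, hcr⟩ := modularGauss_scale A M hA hqM y hy
  obtain ⟨hu, hur⟩ := gauss_le_gV M hcV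
  refine ⟨c⁻¹, inv_ne_zero hc, _, hu, fun h => hcr (Subtype.ext (hur.symm.trans h)), ?_⟩
  rw [coe_smul_bar, ← mul_assoc,
    ← map_mul, inv_mul_cancel₀ hc, map_one, one_mul]

include hA in
theorem scalable_qM (y : Fn A (q * M)) (hy : y ≠ 0) :
    Scalable A (IsLocalRing.residue A) (valFn (q * M) y) := by
  rw [← coe_swapHom]
  exact scalable_coe A M q (Fact.out : q.Prime) hA
    fun h => hy ((swapHom A q M).injective (h.trans (map_zero _).symm))

/-- Integral elements over a ring landing in `gV` land in `gV`. -/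
theorem valFn_mem_gV_of_isIntegral {N : ℕ}
    (hsc : ∀ y : Fn A N, y ≠ 0 → Scalable A (IsLocalRing.residue A) (valFn N y))
    {R : Type*} [CommRing R] [Algebra R (Fn A N)]
    (hR : ∀ r : R, valFn N (algebraMap R (Fn A N) r) ∈ gV A (IsLocalRing.residue A))
    {y : Fn A N} (hy : IsIntegral R y) : valFn N y ∈ gV A (IsLocalRing.residue A) := by
  obtain ⟨p, hp, hp0⟩ := hy
  refine mem_gV_of_monic A _ IsLocalRing.residue_surjective (fun h => hsc y fun h0 => h (by
    rw [h0, map_zero])) (hp.map ((valFn N).comp (algebraMap R (Fn A N))))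
    (fun i => by rw [coeff_map]; exact hR _) ?_
  rw [eval_map, ← hom_eval₂, hp0, map_zero]

end TwoInst

end FLTAgent.BadQ
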