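import Mathlib
import Fermat.Agent.BadQ.TwoInstBridge
import Fermat.Agent.TwoChart.DescentDefs
import Fermat.Agent.Torsion.ExtC

/-!
# Fixed bases with pivot coefficients, and scalability over the fixed field

`exists_pivot`: a Galois stable space of functions is spanned by fixed functions whose coordinates
are given by coefficients. Functions over the fixed field of inertia are quotients of combinations
of integer series (`exists_ser_mul_eq`), hence a fixed constant times a Gauss unit (`scalable_ser`,
`exists_eq_const_mul_unit`).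
-/

set_option autoImplicit false
set_option linter.style.haveILetI false
set_option linter.unusedSectionVars false
set_option synthInstance.maxHeartbeats 400000
set_option maxHeartbeats 1000000

noncomputable section

open ModularCurve Polynomial FLTAgent.ModularCosets

namespace FLTAgent.BadQ.TwoInst

local notation "Qb" => AlgebraicClosure ℚ
local notation "GQ" => (AlgebraicClosure ℚ ≃ₐ[ℚ] AlgebraicClosure ℚ)

section Pivot

variable {F₀ : IntermediateField ℚ (LaurentSeries ℚ)} {I : Subgroup GQ}

/-- A stable space is spanned by fixed functions, with coordinates given by coefficients. -/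
theorem exists_pivot (W : Submodule Qb (laurentBaseChange Qb F₀)) [FiniteDimensional Qb W]
    (hW : ∀ σ ∈ I, ∀ y ∈ W, arithmeticGalois F₀ σ • y ∈ W) :
    ∃ (S : Finset ℤ) (w : S → laurentBaseChange Qb F₀),
      (∀ j, w j ∈ W ∧ w j ∈ TwoChart.fixedF F₀ I) ∧
        ∀ y ∈ W, y = ∑ j : S, (y : LaurentSeries Qb).coeff j • w j := by
  classical
  let φ : ℤ → W →ₗ[Qb] Qb := fun i =>
    { toFun := fun y => ((y : laurentBaseChange Qb F₀) : LaurentSeries Qb).coeff i
      map_add' := fun y z => HahnSeries.coeff_add
      map_smul' := fun c y => by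
        show (((c • (y : laurentBaseChange Qb F₀)) : laurentBaseChange Qb F₀) :
          LaurentSeries Qb).coeff i = _
        rw [Algebra.smul_def, MulMemClass.coe_mul,
          show ((algebraMap Qb (laurentBaseChange Qb F₀) c : laurentBaseChange Qb F₀) :
            LaurentSeries Qb) = algebraMap Qb (LaurentSeries Qb) c from rfl,
          Reduction.algebraMap_eq_C, HahnSeries.C_apply, HahnSeries.coeff_single_mul, sub_zero]
        rfl }
  have hsep : ∀ z : W, (∀ i, φ i z = 0) → z = 0 := fun z hz =>
    Subtype.ext (Subtype.ext (HahnSeries.ext (funext hz)))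
  obtain ⟨κ, a, ha, hspan, hli⟩ := exists_linearIndependent' Qb φ
  have htop : Submodule.span Qb (Set.range φ) = ⊤ := by
    refine Submodule.span_eq_top_of_ne_zero fun z hz => ?_
    by_contra h
    push Not at h
    exact hz (hsep z fun i => h _ ⟨i, rfl⟩)
  haveI : Fintype κ := FiniteDimensional.fintypeBasisIndex
    (Module.Basis.mk hli (by rw [hspan, htop]))
  let S : Finset ℤ := Finset.univ.image a
  let Φ : W →ₗ[Qb] (S → Qb) := LinearMap.pi fun j => φ j
  have hinj : Function.Injective Φ := by
    rw [injective_iff_map_eq_zero]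
    intro z hz
    refine hsep z fun i => ?_
    have hmem : φ i ∈ Submodule.span Qb (Set.range (φ ∘ a)) := by
      rw [hspan, htop]; exact Submodule.mem_top
    have hle : Submodule.span Qb (Set.range (φ ∘ a)) ≤
        LinearMap.ker (LinearMap.applyₗ (R := Qb) (M := W) (M₂ := Qb) z) := by
      rw [Submodule.span_le]
      rintro _ ⟨k, rfl⟩
      rw [SetLike.mem_coe, LinearMap.mem_ker]
      exact congrFun hz ⟨a k, Finset.mem_image_of_mem a (Finset.mem_univ k)⟩
    exact LinearMap.mem_ker.1 (hle hmem)
  have hdim : Module.finrank Qb W = Module.finrank Qb (S → Qb) := by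
    refine le_antisymm (LinearMap.finrank_le_finrank_of_injective hinj) ?_
    rw [Module.finrank_pi, ← Subspace.dual_finrank_eq, Fintype.card_coe]
    refine (Finset.card_image_le).trans ?_
    rw [Finset.card_univ]
    exact hli.fintype_card_le_finrank
  let e : W ≃ₗ[Qb] (S → Qb) := LinearEquiv.ofBijective Φ
    ⟨hinj, (LinearMap.injective_iff_surjective_of_finrank_eq_finrank hdim).1 hinj⟩
  have hcoeff : ∀ (j i : S), ((e.symm (Pi.single j 1) : laurentBaseChange Qb F₀) :
      LaurentSeries Qb).coeff i = (Pi.single j (1 : Qb) : S → Qb) i := fun j i =>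
    congrFun (e.apply_symm_apply (Pi.single j 1)) i
  refine ⟨S, fun j => (e.symm (Pi.single j 1) : W), fun j => ⟨Submodule.coe_mem _, ?_⟩, ?_⟩
  · intro σ hσ
    have hmem := hW σ hσ _ (e.symm (Pi.single j 1)).2
    refine congrArg Subtype.val (a₁ := (⟨_, hmem⟩ : W)) (e.injective (funext fun i => ?_))
    show ((arithmeticGalois F₀ σ • ((e.symm (Pi.single j 1) : W) : laurentBaseChange Qb F₀) :
        laurentBaseChange Qb F₀) : LaurentSeries Qb).coeff i =
      ((e.symm (Pi.single j 1) : laurentBaseChange Qb F₀) : LaurentSeries Qb).coeff i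
    show σ (((e.symm (Pi.single j 1) : laurentBaseChange Qb F₀) : LaurentSeries Qb).coeff i) = _
    rw [hcoeff]
    rcases eq_or_ne i j with rfl | h
    · rw [Pi.single_eq_same, map_one]
    · rw [Pi.single_eq_of_ne h, map_zero]
  · intro y hy
    have h := e.symm_apply_apply ⟨y, hy⟩
    rw [pi_eq_sum_univ' (e ⟨y, hy⟩), map_sum] at h
    refine (congrArg Subtype.val h).symm.trans ?_
    rw [AddSubmonoidClass.coe_finsetSum]
    refine Finset.sum_congr rfl fun j _ => ?_
    rw [map_smul]
    rfl

end Pivot

section Scalable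

variable {A : ValuationSubring Qb} {N : ℕ} [NeZero N] {q : ℕ} [hq : Fact q.Prime]

theorem intSer_coeffMap (f : LaurentSeries ℤ) :
    coeffMap (algebraMap (K0 A) Qb) (intSer (K0 A) f) = intSer Qb f := by
  ext i
  simp

theorem coeffMap_K0_C (d : K0 A) :
    coeffMap (algebraMap (K0 A) Qb) (HahnSeries.C d) = HahnSeries.C (d : Qb) :=
  coeffMap_single _ 0 d

/-- A function over the fixed field is a quotient of combinations of integer series over it. -/
theorem exists_ser_mul_eq (y : Fn A N) : ∃ (n : ℕ) (f : Fin n → LaurentSeries ℤ) (d c : Fin n → K0 A),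
    (∑ i, HahnSeries.C (d i) * intSer (K0 A) (f i)) ≠ 0 ∧
      ser A N y * ∑ i, HahnSeries.C (d i) * intSer (K0 A) (f i) =
        ∑ i, HahnSeries.C (c i) * intSer (K0 A) (f i) := by
  classical
  rcases eq_or_ne (ser A N y) 0 with hy0 | hy0
  · exact ⟨1, fun _ => 1, fun _ => 1, fun _ => 0, by simp, by simp [hy0]⟩
  set S : Set (LaurentSeries Qb) := Set.range fun d : DivIdx N => Kronecker.jSeries Qb (d : ℕ)
  have hy : valFn N y ∈ IntermediateField.adjoin Qb S := by
    exact (Kronecker.laurentBaseChange_full_eq_adjoin (L := Qb) N).le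
      (y : modularFunctionFieldBar N).2
  have hcl : ∀ z ∈ Algebra.adjoin Qb S, z ∈ Submodule.span Qb (Set.range (intSer Qb)) := by
    intro z hz
    induction hz using Algebra.adjoin_induction with
    | mem m hm =>
      obtain ⟨d, rfl⟩ := hm
      exact Submodule.subset_span ⟨_, (jSeries_eq_intSer Qb _).symm⟩
    | algebraMap r =>
      rw [Reduction.algebraMap_eq_C, show HahnSeries.C r = r • (intSer Qb 1) by
        rw [← HahnSeries.C_mul_eq_smul, map_one, mul_one]]
      exact Submodule.smul_mem _ _ (Submodule.subset_span ⟨1, rfl⟩)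
    | add u v _ _ hu hv => exact add_mem hu hv
    | mul u v hu' hv' hu hv =>
      clear hu' hv'
      induction hu using Submodule.span_induction with
      | mem u hu =>
        obtain ⟨g, rfl⟩ := hu
        induction hv using Submodule.span_induction with
        | mem v hv =>
          obtain ⟨g', rfl⟩ := hv
          exact Submodule.subset_span ⟨g * g', map_mul _ _ _⟩
        | zero => rw [mul_zero]; exact zero_mem _
        | add v w _ _ hv hw => rw [mul_add]; exact add_mem hv hw
        | smul r v _ hv =>
          rw [← HahnSeries.C_mul_eq_smul, mul_left_comm, HahnSeries.C_mul_eq_smul]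
          exact Submodule.smul_mem _ _ hv
      | zero => rw [zero_mul]; exact zero_mem _
      | add u w _ _ hu hw => rw [add_mul]; exact add_mem hu hw
      | smul r u _ hu =>
        rw [← HahnSeries.C_mul_eq_smul, mul_assoc, HahnSeries.C_mul_eq_smul]
        exact Submodule.smul_mem _ _ hu
  obtain ⟨num, hnum, den, hden, hdiv⟩ := IntermediateField.mem_adjoin_iff_div.mp hy
  obtain ⟨T₁, hT₁, hnum'⟩ := Submodule.mem_span_finite_of_mem_span (hcl num hnum)
  obtain ⟨T₂, hT₂, hden'⟩ := Submodule.mem_span_finite_of_mem_span (hcl den hden)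
  -- an independent family of integer series spanning both
  obtain ⟨t, ht, htspan, htli⟩ := exists_linearIndependent Qb ((T₁ : Set (LaurentSeries Qb)) ∪ T₂)
  haveI : Finite t := (T₁.finite_toSet.union T₂.finite_toSet).subset ht
  haveI : Fintype t := Fintype.ofFinite t
  have htr : ∀ x : t, ∃ f, intSer Qb f = (x : LaurentSeries Qb) := fun x =>
    (ht x.2).elim (fun h => hT₁ h) fun h => hT₂ h
  choose f hf using htr
  let e := (Fintype.equivFin t).symm
  refine ⟨Fintype.card t, fun i => f (e i), ?_⟩
  set m : Fin (Fintype.card t) → LaurentSeries (K0 A) := fun i => intSer (K0 A) (f (e i))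
  have hm : ∀ i, coeffMap (algebraMap (K0 A) Qb) (m i) = (e i : LaurentSeries Qb) := fun i => by
    rw [intSer_coeffMap, hf]
  have hmli : LinearIndependent Qb fun i => coeffMap (algebraMap (K0 A) Qb) (m i) := by
    simp only [hm]
    exact htli.comp e e.injective
  have hspanm : ∀ z ∈ Submodule.span Qb ((T₁ : Set (LaurentSeries Qb)) ∪ T₂),
      ∃ a : Fin (Fintype.card t) → Qb, ∑ i, a i • coeffMap (algebraMap (K0 A) Qb) (m i) = z := by
    intro z hz
    refine (Submodule.mem_span_range_iff_exists_fun Qb).1 ?_
    rw [show (fun i => coeffMap (algebraMap (K0 A) Qb) (m i)) =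
      ((↑) : t → LaurentSeries Qb) ∘ e from funext hm, Set.range_comp, e.range_eq_univ,
      Set.image_univ, Subtype.range_coe, htspan]
    exact hz
  by_contra hcon
  push Not at hcon
  have hfam : LinearIndependent (K0 A)
      (Sum.elim (fun i => ser A N y * m i) m) := by
    rw [Fintype.linearIndependent_iff]
    intro g hg
    rw [Fintype.sum_sum_type] at hg
    simp only [Sum.elim_inl, Sum.elim_inr, ← HahnSeries.C_mul_eq_smul] at hg
    have hd : (∑ i, HahnSeries.C (g (Sum.inl i)) * m i) = 0 := by
      by_contra hne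
      refine hcon (fun i => g (Sum.inl i)) (fun i => -g (Sum.inr i)) hne ?_
      rw [Finset.mul_sum]
      simp only [map_neg, neg_mul, Finset.sum_neg_distrib]
      rw [eq_neg_iff_add_eq_zero, ← hg]
      refine congrArg (· + _) (Finset.sum_congr rfl fun i _ => ?_)
      exact mul_left_comm _ _ _
    have h1 : (∑ i, HahnSeries.C (g (Sum.inl i)) * (ser A N y * m i)) = 0 := by
      rw [show (∑ i, HahnSeries.C (g (Sum.inl i)) * (ser A N y * m i)) =
        ser A N y * ∑ i, HahnSeries.C (g (Sum.inl i)) * m i by
          rw [Finset.mul_sum]; exact Finset.sum_congr rfl fun i _ => mul_left_comm _ _ _, hd,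
        mul_zero]
    rw [h1, zero_add] at hg
    have hzero : ∀ a : Fin (Fintype.card t) → K0 A,
        (∑ i, HahnSeries.C (a i) * m i) = 0 → ∀ i, a i = 0 := by
      intro a ha i
      have h2 := congrArg (coeffMap (algebraMap (K0 A) Qb)) ha
      simp only [map_sum, map_zero, HahnSeries.C_mul_eq_smul] at h2
      exact Subtype.ext (Fintype.linearIndependent_iff.1 hmli _ h2 i)
    rintro (i | i)
    · exact hzero _ hd i
    · exact hzero _ hg i
  have hL := Torsion.linearIndependent_coeffMap (algebraMap (K0 A) Qb) hfam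
  obtain ⟨a, ha⟩ := hspanm num
    (Submodule.span_mono Set.subset_union_left hnum')
  obtain ⟨b, hb⟩ := hspanm den
    (Submodule.span_mono Set.subset_union_right hden')
  have hden0 : den ≠ 0 := fun h0 => hy0 (coeffMap_K0_injective (by
    rw [coeffMap_ser, map_zero, ← valFn_apply, hdiv, h0, div_zero]))
  have h := Fintype.linearIndependent_iff.1 hL
    (Sum.elim b fun i => -a i) (by
      rw [Fintype.sum_sum_type]
      simp only [Sum.elim_inl, Sum.elim_inr, map_mul, coeffMap_ser, ← valFn_apply, neg_smul,
        Finset.sum_neg_distrib]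
      rw [ha, show (∑ i, b i • (valFn N y * coeffMap (algebraMap (K0 A) Qb) (m i))) =
        valFn N y * ∑ i, b i • coeffMap (algebraMap (K0 A) Qb) (m i) by
          rw [Finset.mul_sum]
          refine Finset.sum_congr rfl fun i _ => ?_
          rw [← HahnSeries.C_mul_eq_smul, ← HahnSeries.C_mul_eq_smul, mul_left_comm],
        hb, hdiv, div_mul_cancel₀ _ hden0, add_neg_cancel])
  refine hden0 ?_
  rw [← hb]
  exact Finset.sum_eq_zero fun i _ => by rw [show b i = 0 from h (Sum.inl i), zero_smul]

include hq in
/-- Functions over the fixed field are scalable over it. -/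
theorem scalable_ser (hA : A.LiesOverPrime q) (y : Fn A N) (hy : y ≠ 0) :
    Scalable (W0 A) (redW A) (ser A N y) := by
  haveI := GalCommon.charP_residueField hq.out hA
  haveI : CharZero (K0 A) := inferInstance
  obtain ⟨n, f, d, c, hd, h⟩ := exists_ser_mul_eq y
  have hy' : ser A N y ≠ 0 := fun h0 => hy (ser_injective (h0.trans (map_zero _).symm))
  have hc : (∑ i, HahnSeries.C (c i) * intSer (K0 A) (f i)) ≠ 0 := h ▸ mul_ne_zero hy' hd
  rw [show ser A N y = (∑ i, HahnSeries.C (c i) * intSer (K0 A) (f i)) /
    ∑ i, HahnSeries.C (d i) * intSer (K0 A) (f i) from eq_div_iff hd |>.2 h]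
  exact ((prim_sum (W0 A) (redW A) hq.out.two_le n f c hc).scalable).div _ _
    (prim_sum (W0 A) (redW A) hq.out.two_le n f d hd).scalable

theorem gV_coeffMap {x : LaurentSeries (K0 A)} (hx : x ∈ gV (W0 A) (redW A)) :
    coeffMap (algebraMap (K0 A) Qb) x ∈ gV A (IsLocalRing.residue A) ∧
      gval A (IsLocalRing.residue A) (coeffMap (algebraMap (K0 A) Qb) x) =
        gval (W0 A) (redW A) x := by
  obtain ⟨u, v, hv, h⟩ := hx
  have hi : ∀ w, BadQ.incl A (coeffMap (toA A) w) =
      coeffMap (algebraMap (K0 A) Qb) (BadQ.incl (W0 A) w) := fun w => by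
    ext i; simp [BadQ.incl, coe_toA]
  have hr : ∀ w, redSer A (IsLocalRing.residue A) (coeffMap (toA A) w) =
      redSer (W0 A) (redW A) w := fun w => by
    ext i; simp [redSer, redW]
  have hv' : redSer A (IsLocalRing.residue A) (coeffMap (toA A) v) ≠ 0 := by rwa [hr]
  have h' : coeffMap (algebraMap (K0 A) Qb) x * BadQ.incl A (coeffMap (toA A) v) =
      BadQ.incl A (coeffMap (toA A) u) := by rw [hi, hi, ← map_mul, h]
  exact ⟨⟨_, _, hv', h'⟩, by rw [gval_eq A _ hv' h', gval_eq (W0 A) _ hv h, hr, hr]⟩

include hq in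
/-- A nonzero function over the fixed field is a fixed constant times a Gauss unit. -/
theorem exists_eq_const_mul_unit (hA : A.LiesOverPrime q) (y : Fn A N) (hy : y ≠ 0) :
    ∃ d : K0 A, d ≠ 0 ∧ ∃ u : Fn A N, valFn N u ∈ gV A (IsLocalRing.residue A) ∧
      gval A (IsLocalRing.residue A) (valFn N u) ≠ 0 ∧ y = algebraMap (K0 A) (Fn A N) d * u := by
  obtain ⟨d, hd, z, hz, hz0, hyz⟩ := scalable_ser hA y hy
  have hd' : algebraMap (K0 A) (Fn A N) d ≠ 0 := by simpa using hd
  refine ⟨d, hd, (algebraMap (K0 A) (Fn A N) d)⁻¹ * y, ?_, ?_, (mul_inv_cancel_left₀ hd' y).symm⟩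
    <;>
  · have hu : valFn N ((algebraMap (K0 A) (Fn A N) d)⁻¹ * y) =
        coeffMap (algebraMap (K0 A) Qb) z := by
      rw [map_mul, map_inv₀, valFn_algebraMap, valFn_apply, ← coeffMap_ser, hyz, map_mul,
        coeffMap_K0_C, inv_mul_cancel_left₀]
      simpa using hd
    rw [hu]
    first
      | exact (gV_coeffMap hz).1
      | exact (gV_coeffMap hz).2 ▸ hz0

end Scalable

end FLTAgent.BadQ.TwoInst
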