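import Mathlib
import Fermat.Agent.BadQ.TwoInstDescend
import Fermat.Agent.BadQ.TwoInstFinite

/-!
# Functions of level `M` with bounded poles, integral at the Gauss point

`gaussLat` is the lattice of such functions over the fixed field. It is finite over `W0`
(`finite_gaussLat`), its reduction reaches every function with bounded poles on the fibre
(`exists_lift_gaussLat`, by Nakayama) and the lattices are generated over `W0[t]` by one of them
(`gaussLat_le_span`). Hence regular functions integral at the Gauss point are in the chart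
(`mem_chart0_of_regAway`) and functions of the fibre lift to it (`exists_chart0_red`).
-/

set_option autoImplicit false
set_option linter.style.haveILetI false
set_option linter.unusedSectionVars false
set_option synthInstance.maxHeartbeats 400000
set_option maxHeartbeats 1000000

noncomputable section

open ModularCurve Polynomial AlgebraicCurve FLTAgent.Reduction

namespace FLTAgent.BadQ.TwoInst

local notation "Qb" => AlgebraicClosure ℚ

variable {A : ValuationSubring Qb} {q : ℕ} [hq : Fact q.Prime] (hA : A.LiesOverPrime q) {M : ℕ}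
  [NeZero M]

local instance (priority := high) instModuleW0FnLat {N : ℕ} : Module (W0 A) (Fn A N) :=
  Algebra.toModule

local instance instTowerAdjoinW0Lat {N : ℕ} (y : Fn A N) :
    IsScalarTower (W0 A) (Algebra.adjoin (W0 A) ({y} : Set (Fn A N))) (Fn A N) :=
  IsScalarTower.of_algebraMap_eq fun _ => rfl

include hA in
theorem exists_q_pow_mul_mem (c : Qb) : ∃ m : ℕ, (q : Qb) ^ m * c ∈ A := by
  haveI := GalCommon.charP_residueField hq.out hA
  haveI : Algebra.IsAlgebraic ℚ Qb := AlgebraicClosure.isAlgebraic ℚ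
  haveI : Algebra.IsAlgebraic ℤ Qb :=
    (IsFractionRing.comap_isAlgebraic_iff (A := ℤ) (K := ℚ) (C := Qb)).2 inferInstance
  obtain ⟨z, hz0, hz⟩ := (Algebra.IsAlgebraic.isAlgebraic (R := ℤ) c).exists_integral_multiple
  have hzc : (z : Qb) * c ∈ A := by
    rw [← zsmul_eq_mul]
    exact GalCommon.mem_of_isIntegral A hz
  obtain ⟨m, r, hr, hmr⟩ := Nat.exists_eq_pow_mul_and_not_dvd (Int.natAbs_ne_zero.2 hz0) q
    hq.out.ne_one
  refine ⟨m, ?_⟩
  have hnc : (z.natAbs : Qb) * c ∈ A := by
    rcases Int.natAbs_eq z with h | h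
    · rw [h, Int.cast_natCast] at hzc; exact hzc
    · rw [h, Int.cast_neg, Int.cast_natCast, neg_mul] at hzc
      exact (neg_mem_iff (H := A)).1 hzc
  obtain ⟨u, hu⟩ : IsUnit (r : A) := by
    by_contra h
    refine hr ((CharP.cast_eq_zero_iff (kres A) q r).1 ?_)
    rw [← map_natCast (IsLocalRing.residue A), IsLocalRing.residue_eq_zero_iff,
      IsLocalRing.mem_maximalIdeal]
    exact h
  have hru : (r : Qb) * ((↑u⁻¹ : A) : Qb) = 1 := by
    have := congrArg (fun a : A => (a : Qb)) u.mul_inv
    simp only [hu, MulMemClass.coe_mul, SubringClass.coe_natCast, OneMemClass.coe_one] at this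
    exact this
  rw [hmr, Nat.cast_mul, Nat.cast_pow] at hnc
  have h2 := mul_mem hnc (↑u⁻¹ : A).2
  rwa [show (q : Qb) ^ m * (r : Qb) * c * ((↑u⁻¹ : A) : Qb) =
    (q : Qb) ^ m * c * ((r : Qb) * ((↑u⁻¹ : A) : Qb)) by ring, hru, mul_one] at h2

theorem valFn_smul {N : ℕ} [NeZero N] (w : W0 A) (y : Fn A N) :
    valFn N (w • y) = HahnSeries.C ((w : K0 A) : Qb) * valFn N y := by
  rw [Algebra.smul_def, map_mul, algebraMap_W0_Fn, valFn_algebraMap]

theorem coe_smul_Fn {N : ℕ} [NeZero N] (w : W0 A) (y : Fn A N) :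
    ((w • y : Fn A N) : modularFunctionFieldBar N) =
      ((w : K0 A) : Qb) • (y : modularFunctionFieldBar N) := by
  refine Subtype.ext ?_
  rw [coe_smul_bar, ← valFn_apply, valFn_smul]
  rfl

theorem mem_Fn_galois {N : ℕ} (y : Fn A N) {σ : AlgebraicClosure ℚ ≃ₐ[ℚ] AlgebraicClosure ℚ}
    (hσ : σ ∈ inert A) :
    arithmeticGalois (modularFunctionFieldFull N) σ • (y : modularFunctionFieldBar N) =
      (y : modularFunctionFieldBar N) := y.2 σ hσ

variable (b : Bool)

local notation "xp" => ((coord A M b : Fn A M) : modularFunctionFieldBar M)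

theorem galois_mem_polesLe {n : ℕ} {y : modularFunctionFieldBar M}
    (hy : y ∈ (polesLe (K := Qb) xp n)) {σ : AlgebraicClosure ℚ ≃ₐ[ℚ] AlgebraicClosure ℚ}
    (hσ : σ ∈ inert A) :
    arithmeticGalois (modularFunctionFieldFull M) σ • y ∈ (polesLe (K := Qb) xp n) := by
  set g := arithmeticGalois (modularFunctionFieldFull M) σ
  rw [(curveData_bar M).mem_polesLe] at hy ⊢
  intro v
  have hord : ∀ f, v.ord (g • f) = (g⁻¹ • v).ord f := fun f => by
    have h := SemilinearAut.ord_smul g (g⁻¹ • v) f
    rwa [smul_inv_smul] at h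
  have hxv : v.ord xp = (g⁻¹ • v).ord xp := by
    conv_lhs => rw [← mem_Fn_galois (coord A M b) hσ]
    exact hord _
  rcases hy (g⁻¹ • v) with h | h
  · exact Or.inl (by rw [h, smul_zero])
  · exact Or.inr (by rw [hord, hxv]; exact h)

variable (A M) in
/-- Bounded poles and integral at the Gauss point. -/
def gaussLat (n : ℕ) : Submodule (W0 A) (Fn A M) where
  carrier := {y | (y : modularFunctionFieldBar M) ∈ (polesLe (K := Qb) xp n) ∧
    valFn M y ∈ gV A (IsLocalRing.residue A)}
  zero_mem' := ⟨by exact zero_mem _, by rw [map_zero]; exact zero_mem _⟩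
  add_mem' := fun {y z} hy hz => ⟨by exact add_mem hy.1 hz.1, by
    rw [map_add]; exact add_mem hy.2 hz.2⟩
  smul_mem' w y hy :=
    ⟨(congrArg (· ∈ (polesLe (K := Qb) xp n)) (coe_smul_Fn w y)).mpr
      (Submodule.smul_mem _ _ hy.1),
    (congrArg (· ∈ gV A (IsLocalRing.residue A)) (valFn_smul w y)).mpr
      (mul_mem (gval_C A _ (toA A w)).1 hy.2)⟩

theorem mem_gaussLat {n : ℕ} {y : Fn A M} :
    y ∈ gaussLat A M b n ↔ (y : modularFunctionFieldBar M) ∈ (polesLe (K := Qb) xp n) ∧
      valFn M y ∈ gV A (IsLocalRing.residue A) := Iff.rfl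

include hA in
/-- Divisibility by `q` of a function with zero reduction. -/
theorem exists_eq_q_smul {n : ℕ} {y : Fn A M} (hy : y ∈ gaussLat A M b n)
    (h0 : gval A (IsLocalRing.residue A) (valFn M y) = 0) :
    ∃ u ∈ gaussLat A M b n, y = qW A q • u := by
  rcases eq_or_ne y 0 with rfl | hy0
  · exact ⟨0, zero_mem _, (smul_zero _).symm⟩
  obtain ⟨d, hd, u, hu, hu0, hyu⟩ := exists_eq_const_mul_unit hA y hy0
  have hval : valFn M y = HahnSeries.C (d : Qb) * valFn M u := by
    rw [hyu, map_mul, valFn_algebraMap]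
  have hvu : valFn M u ≠ 0 := fun h => hu0 (by rw [h, gval_zero])
  have hdA : (d : Qb) ∈ A := by
    refine mem_of_C_mem_gV A _ IsLocalRing.residue_surjective ?_
    have h := mul_mem hy.2 (inv_mem_gV A _ hu hu0).1
    rwa [hval, mul_assoc, mul_inv_cancel₀ hvu, mul_one] at h
  have hres : redW A ⟨d, hdA⟩ = 0 := by
    have e : (HahnSeries.C : Qb →+* LaurentSeries Qb) (d : Qb) = (HahnSeries.C : Qb →+* LaurentSeries Qb) ((toA A ⟨d, hdA⟩ : A) : Qb) := rfl
    rw [hval, e, gval_mul A _ (gval_C A _ (toA A ⟨d, hdA⟩)).1 hu, mul_eq_zero, or_iff_left hu0,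
      (gval_C A _ (toA A ⟨d, hdA⟩)).2] at h0
    exact (map_eq_zero (HahnSeries.C : kres A →+* LaurentSeries (kres A))).1 h0
  obtain ⟨w, hw⟩ := (redW_eq_zero_iff hA _).1 hres
  have hsmul : y = qW A q • (w • u) := by
    rw [smul_smul, ← hw, hyu, Algebra.smul_def, algebraMap_W0_Fn]
  refine ⟨w • u, ⟨?_, ?_⟩, hsmul⟩
  · have h := hy.1
    rw [hsmul, coe_smul_Fn] at h
    have hq0 : ((qW A q : K0 A) : Qb) ≠ 0 := by rw [coe_qW]; exact_mod_cast hq.out.ne_zero
    have h2 := Submodule.smul_mem _ ((qW A q : K0 A) : Qb)⁻¹ h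
    rwa [smul_smul, inv_mul_cancel₀ hq0, one_smul] at h2
  · rw [valFn_smul]
    exact mul_mem (gval_C A _ (toA A w)).1 hu

variable (hqM : ¬ q ∣ M) (hM : GoodLevel M)

include hA hqM hM in
theorem finite_gaussLat (n : ℕ) : Module.Finite (W0 A) (gaussLat A M b n) := by
  classical
  have hx := goodParam_coord hA M hqM hM b
  haveI := (curveData_bar M).finite_L' (boundDiv xp n (0 : Divisor Qb (modularFunctionFieldBar M)))
  obtain ⟨S, w, -, hwy⟩ := exists_pivot (I := inert A) (polesLe (K := Qb) xp n)
    fun σ hσ y hy => galois_mem_polesLe b hy hσ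
  obtain ⟨s, hs⟩ := (Module.Finite.iff_fg.mp (hx.curve.finite_L' _) :
    (polesLe (K := Qb) xp n).FG)
  obtain ⟨ι, _, e, he, hes⟩ := hx.exists_redIndep_span s
  have hbnd : ∀ p : ι × S, ∃ m : ℕ, (q : Qb) ^ m * (e p.1 : LaurentSeries Qb).coeff p.2 ∈ A :=
    fun p => exists_q_pow_mul_mem hA _
  choose m hm using hbnd
  set m₀ := Finset.univ.sup m
  have hmem : ∀ (y : gaussLat A M b n) (j : S),
      ((q : K0 A) ^ m₀ * ⟨(valFn M (y : Fn A M)).coeff j, coeff_mem_K0 (y : Fn A M) j⟩) ∈ W0 A := by
    intro y j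
    rw [mem_W0]
    push_cast
    have hspan : ((y : Fn A M) : modularFunctionFieldBar M) ∈ Submodule.span Qb (Set.range e) := by
      refine (Submodule.span_le.2 fun f hf => ?_ : _ ≤ Submodule.span Qb (Set.range e)) (hs.symm ▸ y.2.1)
      exact hes f hf
    obtain ⟨c, hc⟩ := (Submodule.mem_span_range_iff_exists_fun Qb).1 hspan
    have hcA : ∀ i, c i ∈ A := fun i =>
      he.coeff_mem (hc ▸ mem_gauss_of_gV hA M hqM y.2.2) i
    rw [valFn_apply, ← hc, AddSubmonoidClass.coe_finsetSum, HahnSeries.coeff_sum, Finset.mul_sum]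
    refine sum_mem fun i _ => ?_
    rw [coe_smul_bar, HahnSeries.C_apply, HahnSeries.coeff_single_mul, sub_zero, mul_left_comm]
    refine mul_mem (hcA i) ?_
    obtain ⟨d, hd⟩ := Nat.exists_eq_add_of_le (Finset.le_sup (f := m) (Finset.mem_univ (i, j)))
    rw [show m₀ = d + m (i, j) from hd.trans (add_comm _ _), pow_add, mul_assoc]
    exact mul_mem (pow_mem (natCast_mem A q) d) (hm (i, j))
  let Ψ : gaussLat A M b n →ₗ[W0 A] (S → W0 A) :=
    { toFun := fun y j => ⟨_, hmem y j⟩
      map_add' := fun y z => funext fun j => Subtype.ext (Subtype.ext (by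
        simp only [map_add, HahnSeries.coeff_add, Pi.add_apply,
          AddMemClass.coe_add, MulMemClass.coe_mul]
        push_cast
        ring))
      map_smul' := fun c y => funext fun j => Subtype.ext (Subtype.ext (by
        simp only [SetLike.val_smul, valFn_smul, HahnSeries.C_apply, HahnSeries.coeff_single_mul,
          sub_zero, RingHom.id_apply, Pi.smul_apply, smul_eq_mul, MulMemClass.coe_mul]
        push_cast
        ring)) }
  haveI := isNoetherianRing_W0 hA
  refine Module.Finite.of_injective Ψ fun y z h => ?_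
  refine Subtype.ext (Subtype.ext ?_)
  rw [hwy _ y.2.1, hwy _ z.2.1]
  refine Finset.sum_congr rfl fun j _ => ?_
  have h1 := congrArg (fun f : S → W0 A => ((f j : K0 A) : Qb)) h
  simp only [Ψ, LinearMap.coe_mk, AddHom.coe_mk, MulMemClass.coe_mul] at h1
  push_cast at h1
  rw [← valFn_apply, ← valFn_apply,
    mul_left_cancel₀ (pow_ne_zero _ (by exact_mod_cast hq.out.ne_zero)) h1]

include hA hqM hM in
theorem red_mem_polesLe_coordBar {n : ℕ} {y : Fn A M} (hy : y ∈ gaussLat A M b n) :
    (modularGauss A M).red (y : modularFunctionFieldBar M) ∈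
      (polesLe (K := kres A) (coordBar M hA hqM b) n) := by
  have h := (goodParam_coord hA M hqM hM b).red_mem_polesLe (mem_gauss_of_gV hA M hqM hy.2) hy.1
  rwa [red_coord hA M hqM hM b] at h

include hA hqM hM in
/-- Every function on the fibre with bounded poles lifts. -/
theorem exists_lift_gaussLat {n : ℕ} (hn : (goodParam_coord hA M hqM hM b).bound ≤ n)
    {f : modularFunctionFieldFullC (kres A) M}
    (hf : f ∈ (polesLe (K := kres A) (coordBar M hA hqM b) n)) :
    ∃ y ∈ gaussLat A M b n, (modularGauss A M).red (y : modularFunctionFieldBar M) = f := by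
  letI : Algebra (kres A) (modularFunctionFieldFullC (kres A) M) := inferInstance
  letI : Module (kres A) (modularFunctionFieldFullC (kres A) M) := Algebra.toModule
  classical
  have hx := goodParam_coord hA M hqM hM b
  set G := modularGauss A M with hG
  haveI := finite_gaussLat hA b hqM hM n
  haveI := isDiscreteValuationRing_W0 hA
  have hV : ∀ {y : Fn A M}, y ∈ gaussLat A M b n → (y : modularFunctionFieldBar M) ∈ G.V :=
    fun hy => mem_gauss_of_gV hA M hqM hy.2
  have hredsmul : ∀ (w : W0 A) {y : Fn A M}, y ∈ gaussLat A M b n →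
      G.red ((w • y : Fn A M) : modularFunctionFieldBar M) =
        redW A w • G.red (y : modularFunctionFieldBar M) := fun w y hy => by
    rw [coe_smul_Fn]
    exact G.red_smul (toA A w) (hV hy)
  let R : Submodule (kres A) (modularFunctionFieldFullC (kres A) M) :=
    { carrier := {f | ∃ y ∈ gaussLat A M b n, G.red (y : modularFunctionFieldBar M) = f}
      zero_mem' := ⟨0, zero_mem _, by rw [ZeroMemClass.coe_zero]; exact G.red_zero⟩
      add_mem' := by
        rintro _ _ ⟨y, hy, rfl⟩ ⟨z, hz, rfl⟩
        exact ⟨y + z, add_mem hy hz, G.red_add (hV hy) (hV hz)⟩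
      smul_mem' := by
        rintro c _ ⟨y, hy, rfl⟩
        obtain ⟨w, rfl⟩ := redW_surjective hA c
        exact ⟨w • y, Submodule.smul_mem _ w hy, hredsmul w hy⟩ }
  haveI := hx.curveBar.finite_L' (boundDiv (coordBar M hA hqM b) n
    (0 : Divisor (kres A) (modularFunctionFieldFullC (kres A) M)))
  haveI : FiniteDimensional (kres A) R := Submodule.finiteDimensional_of_le
    (show R ≤ polesLe (coordBar M hA hqM b) n from by
      rintro _ ⟨y, hy, rfl⟩; exact red_mem_polesLe_coordBar hA b hqM hM hy)
  let B := Module.finBasis (kres A) R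
  choose e he hered using fun i => (B i).2
  have hei : G.RedIndep fun i => (e i : modularFunctionFieldBar M) := by
    refine ⟨fun i => hV (he i), ?_⟩
    simp only [hered]
    exact B.linearIndependent.map' R.subtype R.ker_subtype
  -- Nakayama
  have hspan : gaussLat A M b n ≤ Submodule.span (W0 A) (Set.range e) := by
    refine Submodule.le_of_le_smul_of_le_jacobson_bot (I := IsLocalRing.maximalIdeal (W0 A))
      (Module.Finite.iff_fg.1 inferInstance)
      (IsLocalRing.maximalIdeal_le_jacobson ⊥) fun y hy => ?_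
    obtain ⟨c, hc⟩ : ∃ c : Fin _ → kres A, ∑ i, c i • (B i : modularFunctionFieldFullC (kres A) M) =
        G.red (y : modularFunctionFieldBar M) := ⟨fun i => B.repr ⟨_, y, hy, rfl⟩ i, by
      have := congrArg Subtype.val (B.sum_repr ⟨_, y, hy, rfl⟩)
      rwa [Submodule.coe_sum] at this⟩
    choose w hw using fun i => redW_surjective hA (c i)
    have hz : y - ∑ i, w i • e i ∈ gaussLat A M b n :=
      sub_mem hy (sum_mem fun i _ => Submodule.smul_mem _ _ (he i))
    have hz0 : gval A (IsLocalRing.residue A) (valFn M (y - ∑ i, w i • e i)) = 0 := by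
      rw [valFn_apply, (gauss_le_gV M (hV hz)).2]
      rw [show ((y - ∑ i, w i • e i : Fn A M) : modularFunctionFieldBar M) =
        (y : modularFunctionFieldBar M) - ∑ i, ((w i • e i : Fn A M) : modularFunctionFieldBar M) by
          rw [AddSubgroupClass.coe_sub, AddSubmonoidClass.coe_finsetSum],
        ← hG, G.red_sub (hV hy) (sum_mem fun i _ => hV (Submodule.smul_mem _ _ (he i))),
        G.red_sum _ _ fun i _ => hV (Submodule.smul_mem _ _ (he i))]
      rw [Finset.sum_congr rfl fun i _ => (hredsmul (w i) (he i)).trans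
        (by rw [hw, hered]), hc, sub_self]
      rfl
    obtain ⟨u, hu, hyu⟩ := exists_eq_q_smul hA b hz hz0
    rw [← sub_add_cancel y (∑ i, w i • e i), hyu, add_comm]
    refine Submodule.add_mem_sup (sum_mem fun i _ => Submodule.smul_mem _ _
      (Submodule.subset_span ⟨i, rfl⟩)) (Submodule.smul_mem_smul ?_ hu)
    rw [(qW_irreducible hA).maximalIdeal_eq]
    exact Ideal.mem_span_singleton_self _
  -- every bounded function of the bar field is a combination of the `e i`
  obtain ⟨S, wp, hwp, hwy⟩ := exists_pivot (I := inert A) (polesLe (K := Qb) xp n)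
    fun σ hσ y hy => galois_mem_polesLe b hy hσ
  have hall : (polesLe (K := Qb) xp n) ≤
      Submodule.span Qb (Set.range fun i => (e i : modularFunctionFieldBar M)) := by
    intro y hy
    rw [hwy y hy]
    refine sum_mem fun j _ => Submodule.smul_mem _ _ ?_
    let wf : Fn A M := ⟨wp j, (hwp j).2⟩
    rcases eq_or_ne wf 0 with h0 | h0
    · rw [show wp j = (wf : modularFunctionFieldBar M) from rfl, h0]
      exact zero_mem _
    obtain ⟨d, hd, u, hu, -, hwu⟩ := exists_eq_const_mul_unit hA wf h0
    obtain ⟨v, k, hvk⟩ : ∃ (v : W0 A) (k : ℕ), (q : K0 A) ^ k * d = (v : K0 A) := by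
      obtain ⟨k, hk⟩ := exists_q_pow_mul_mem hA (d : Qb)
      refine ⟨⟨(q : K0 A) ^ k * d, ?_⟩, k, rfl⟩
      rw [mem_W0]; push_cast; exact hk
    have hvu : (qW A q ^ k) • wf = v • u := by
      rw [hwu, Algebra.smul_def, Algebra.smul_def, ← mul_assoc, algebraMap_W0_Fn, algebraMap_W0_Fn,
        ← map_mul, ← hvk]
      push_cast
      rfl
    have hlat : (qW A q ^ k) • wf ∈ gaussLat A M b n := ⟨by
      rw [coe_smul_Fn]; exact Submodule.smul_mem _ _ (hwp j).1, by
      rw [hvu, valFn_smul]; exact mul_mem (gval_C A _ (toA A v)).1 hu⟩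
    obtain ⟨a, ha⟩ := (Submodule.mem_span_range_iff_exists_fun (W0 A)).1 (hspan hlat)
    have h1 : (((qW A q ^ k : W0 A) : K0 A) : Qb) • (wp j : modularFunctionFieldBar M) ∈
        Submodule.span Qb (Set.range fun i => (e i : modularFunctionFieldBar M)) := by
      rw [show wp j = (wf : modularFunctionFieldBar M) from rfl, ← coe_smul_Fn, ← ha,
        AddSubmonoidClass.coe_finsetSum]
      refine sum_mem fun i _ => ?_
      rw [coe_smul_Fn]
      exact Submodule.smul_mem _ _ (Submodule.subset_span ⟨i, rfl⟩)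
    have hq0 : (((qW A q ^ k : W0 A) : K0 A) : Qb) ≠ 0 := by
      push_cast
      exact pow_ne_zero _ (by exact_mod_cast hq.out.ne_zero)
    have h2 := Submodule.smul_mem _ (((qW A q ^ k : W0 A) : K0 A) : Qb)⁻¹ h1
    rwa [smul_smul, inv_mul_cancel₀ hq0, one_smul] at h2
  rw [← red_coord hA M hqM hM b, ← hx.redSub_polesLe hn] at hf
  obtain ⟨y, hy, hyV, rfl⟩ := hf
  have hmem : G.red y ∈ G.redSub
      (Submodule.span Qb (Set.range fun i => (e i : modularFunctionFieldBar M))) :=
    ⟨y, hall hy, hyV, rfl⟩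
  rw [G.redSub_span_eq hei] at hmem
  have hR : G.red y ∈ R := by
    refine (Submodule.span_le (p := R)).2 ?_ hmem
    rintro _ ⟨i, rfl⟩
    exact ⟨e i, he i, rfl⟩
  exact hR

/-! ### Division by the coordinate -/

include hA hqM hM in
theorem exists_bar_decomp {n : ℕ} (hn : (goodParam_coord hA M hqM hM b).bound + 1 ≤ n)
    {f : modularFunctionFieldFullC (kres A) M}
    (hf : f ∈ (polesLe (K := kres A) (coordBar M hA hqM b) (n + 1))) :
    ∃ z u, z ∈ (polesLe (K := kres A) (coordBar M hA hqM b)
        ((goodParam_coord hA M hqM hM b).bound + 1)) ∧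
      u ∈ (polesLe (K := kres A) (coordBar M hA hqM b) n) ∧
        f = z + coordBar M hA hqM b * u := by
  letI : Algebra (kres A) (modularFunctionFieldFullC (kres A) M) := inferInstance
  letI : Module (kres A) (modularFunctionFieldFullC (kres A) M) := Algebra.toModule
  have hx := goodParam_coord hA M hqM hM b
  have hxr := red_coord hA M hqM hM b
  rw [← hxr] at hf ⊢
  obtain ⟨m, rfl⟩ := Nat.exists_eq_add_of_le (show hx.bound ≤ n by omega)
  obtain ⟨z, u, hz, hu, h⟩ := hx.exists_coprime_sum
    (h := 1) (f₀ := (modularGauss A M).red xp) (m := m) (d := 1) (n' := hx.bound) le_rfl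
    (hx.curveBar.one_mem_polesLe _ _) (hx.curveBar.self_mem_polesLe _)
    (fun Q _ => by rw [Nat.cast_one, one_mul]) one_ne_zero hx.red_ne_zero
    (fun Q _ _ => by
      rw [← map_one (algebraMap (kres A) (modularFunctionFieldFullC (kres A) M)), FF.ord_algebraMap])
    (by rwa [show hx.bound + 1 + m = hx.bound + m + 1 by omega])
  exact ⟨z, u, hz, hu, by rw [h, one_mul]⟩

theorem coord_mul_mem_gaussLat {n : ℕ} {u : Fn A M} (hx : valFn M (coord A M b) ∈ gV A (IsLocalRing.residue A))
    (hu : u ∈ gaussLat A M b n) : coord A M b * u ∈ gaussLat A M b (n + 1) := by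
  refine ⟨?_, by rw [map_mul]; exact mul_mem hx hu.2⟩
  rw [MulMemClass.coe_mul, add_comm]
  exact (curveData_bar M).mul_mem_polesLe ((curveData_bar M).self_mem_polesLe _) hu.1

include hA hqM hM in
theorem valFn_coord_mem : valFn M (coord A M b) ∈ gV A (IsLocalRing.residue A) :=
  (gauss_le_gV M (goodParam_coord hA M hqM hM b).mem).1

include hA hqM hM in
/-- The lattices are generated over `W₀[t]` by one of them. -/
theorem gaussLat_le_span (n : ℕ) :
    ((gaussLat A M b n : Submodule (W0 A) (Fn A M)) : Set (Fn A M)) ⊆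
      Submodule.span (Algebra.adjoin (W0 A) ({coord A M b} : Set (Fn A M)))
        ((gaussLat A M b ((goodParam_coord hA M hqM hM b).bound + 1) :
          Submodule (W0 A) (Fn A M)) : Set (Fn A M)) := by
  letI : Algebra (kres A) (modularFunctionFieldFullC (kres A) M) := inferInstance
  letI : Module (kres A) (modularFunctionFieldFullC (kres A) M) := Algebra.toModule
  have hx := goodParam_coord hA M hqM hM b
  have hc := valFn_coord_mem hA b hqM hM
  haveI := isDiscreteValuationRing_W0 hA
  set N := hx.bound + 1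
  set G := modularGauss A M with hG
  set T := Submodule.span (Algebra.adjoin (W0 A) ({coord A M b} : Set (Fn A M)))
    ((gaussLat A M b N : Submodule (W0 A) (Fn A M)) : Set (Fn A M))
  have hmono : ∀ {i j}, i ≤ j → ∀ {y}, y ∈ gaussLat A M b i → y ∈ gaussLat A M b j :=
    fun h y hy => ⟨(curveData_bar M).polesLe_mono _ h hy.1, hy.2⟩
  induction n with
  | zero => exact fun y hy => Submodule.subset_span (hmono (Nat.zero_le _) hy)
  | succ n ih =>
    by_cases hnN : n + 1 ≤ N
    · exact fun y hy => Submodule.subset_span (hmono hnN hy)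
    have hn : N ≤ n := by omega
    haveI := finite_gaussLat hA b hqM hM (n + 1)
    suffices h : gaussLat A M b (n + 1) ≤ T.restrictScalars (W0 A) from h
    refine Submodule.le_of_le_smul_of_le_jacobson_bot (I := IsLocalRing.maximalIdeal (W0 A))
      (Module.Finite.iff_fg.1 inferInstance) (IsLocalRing.maximalIdeal_le_jacobson ⊥) fun y hy => ?_
    obtain ⟨z, u, hz, hu, hzu⟩ := exists_bar_decomp hA b hqM hM hn
      (red_mem_polesLe_coordBar hA b hqM hM hy)
    obtain ⟨z', hz', rfl⟩ := exists_lift_gaussLat hA b hqM hM (n := N) (Nat.le_succ _) hz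
    obtain ⟨u', hu', rfl⟩ := exists_lift_gaussLat hA b hqM hM (n := n) (by omega) hu
    have hxu := coord_mul_mem_gaussLat b hc hu'
    have hd : y - (z' + coord A M b * u') ∈ gaussLat A M b (n + 1) :=
      sub_mem hy (add_mem (hmono (by omega) hz') hxu)
    have hd0 : gval A (IsLocalRing.residue A) (valFn M (y - (z' + coord A M b * u'))) = 0 := by
      have hV : ∀ {i} {v : Fn A M}, v ∈ gaussLat A M b i → (v : modularFunctionFieldBar M) ∈ G.V :=
        fun hv => mem_gauss_of_gV hA M hqM hv.2
      rw [valFn_apply, (gauss_le_gV M (hV hd)).2]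
      rw [AddSubgroupClass.coe_sub, AddMemClass.coe_add, MulMemClass.coe_mul, ← hG,
        G.red_sub (hV hy) (add_mem (hV hz') (mul_mem hx.mem (hV hu'))),
        G.red_add (hV hz') (mul_mem hx.mem (hV hu')), G.red_mul hx.mem (hV hu'),
        red_coord hA M hqM hM b, ← hzu, sub_self]
      rfl
    obtain ⟨v, hv, hyv⟩ := exists_eq_q_smul hA b hd hd0
    have hI : qW A q ∈ IsLocalRing.maximalIdeal (W0 A) := by
      rw [(qW_irreducible hA).maximalIdeal_eq]
      exact Ideal.mem_span_singleton_self _
    have h1 : qW A q • v ∈ IsLocalRing.maximalIdeal (W0 A) • gaussLat A M b (n + 1) :=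
      Submodule.smul_mem_smul hI hv
    have h2 : z' + coord A M b * u' ∈ T.restrictScalars (W0 A) := by
      rw [Submodule.restrictScalars_mem]
      refine add_mem (Submodule.subset_span hz') ?_
      exact Submodule.smul_mem T ⟨coord A M b, Algebra.subset_adjoin rfl⟩ (ih hu')
    rw [← sub_add_cancel y (z' + coord A M b * u'), hyv]
    exact add_mem (Submodule.mem_sup_right h1) (Submodule.mem_sup_left h2)

variable (A M) in
/-- Regular away from the poles of the coordinate and integral at the Gauss point. -/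
def gaussChart (hx : valFn M (coord A M b) ∈ gV A (IsLocalRing.residue A)) :
    Subalgebra (Algebra.adjoin (W0 A) ({coord A M b} : Set (Fn A M))) (Fn A M) where
  carrier := {y | RegAway (K := Qb) xp (y : modularFunctionFieldBar M) ∧
    valFn M y ∈ gV A (IsLocalRing.residue A)}
  mul_mem' := fun {y z} hy hz => ⟨fun P hP => by
    rw [MulMemClass.coe_mul]; exact (hy.1 P hP).mul_zero' (hz.1 P hP), by
    rw [map_mul]; exact mul_mem hy.2 hz.2⟩
  one_mem' := ⟨fun P _ => by rw [OneMemClass.coe_one]; exact Vanish.one, by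
    rw [map_one]; exact one_mem _⟩
  add_mem' := fun {y z} hy hz => ⟨fun P hP => by
    rw [AddMemClass.coe_add]; exact (hy.1 P hP).add (hz.1 P hP), by
    rw [map_add]; exact add_mem hy.2 hz.2⟩
  zero_mem' := ⟨fun P _ => by rw [ZeroMemClass.coe_zero]; exact Vanish.zero_left, by
    rw [map_zero]; exact zero_mem _⟩
  algebraMap_mem' := by
    rintro ⟨r, hr⟩
    show RegAway (K := Qb) xp (r : modularFunctionFieldBar M) ∧
      valFn M r ∈ gV A (IsLocalRing.residue A)
    induction hr using Algebra.adjoin_induction with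
    | mem y hy =>
      rw [Set.mem_singleton_iff.1 hy]
      exact ⟨fun P hP => Vanish.zero_iff.2 hP, hx⟩
    | algebraMap w =>
      refine ⟨fun P _ => ?_, ?_⟩
      · rw [algebraMap_W0_Fn]
        exact Vanish.const ((w : K0 A) : Qb)
      · rw [algebraMap_W0_Fn, valFn_algebraMap]
        exact (gval_C A _ (toA A w)).1
    | add y z _ _ hy hz =>
      exact ⟨fun P hP => by rw [AddMemClass.coe_add]; exact (hy.1 P hP).add (hz.1 P hP), by
        rw [map_add]; exact add_mem hy.2 hz.2⟩
    | mul y z _ _ hy hz =>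
      exact ⟨fun P hP => by rw [MulMemClass.coe_mul]; exact (hy.1 P hP).mul_zero' (hz.1 P hP), by
        rw [map_mul]; exact mul_mem hy.2 hz.2⟩

include hA hqM hM in
/-- Regular functions integral at the Gauss point are in the chart. -/
theorem mem_chart0_of_regAway {y : Fn A M}
    (hreg : RegAway (K := Qb) xp (y : modularFunctionFieldBar M))
    (hg : valFn M y ∈ gV A (IsLocalRing.residue A)) : y ∈ chart0 A M b := by
  letI : Algebra (kres A) (modularFunctionFieldFullC (kres A) M) := inferInstance
  letI : Module (kres A) (modularFunctionFieldFullC (kres A) M) := Algebra.toModule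
  have hx := goodParam_coord hA M hqM hM b
  have hc := valFn_coord_mem hA b hqM hM
  set R := gaussChart A M b hc
  refine TwoChart.mem_intCl_iff.2 (IsIntegral.of_mem_of_fg R ?_ y ⟨hreg, hg⟩)
  obtain ⟨s, hs⟩ := Module.Finite.iff_fg.1 (finite_gaussLat hA b hqM hM (hx.bound + 1))
  refine ⟨s, le_antisymm ?_ fun z hz => ?_⟩
  · rw [Submodule.span_le]
    intro z hz
    have h : z ∈ gaussLat A M b (hx.bound + 1) := hs ▸ Submodule.subset_span hz
    exact ⟨(curveData_bar M).regAway_of_mem_polesLe h.1, h.2⟩
  · obtain ⟨n, hn⟩ := (curveData_bar M).exists_mem_polesLe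
      (x := xp) (f := (z : modularFunctionFieldBar M)) hz.1
    refine (Submodule.span_le.2 ?_) (gaussLat_le_span hA b hqM hM n (show z ∈ gaussLat A M b n from ⟨hn, hz.2⟩))
    rw [← hs]
    exact Submodule.span_le_restrictScalars (W0 A) _ _

include hA hqM hM in
/-- Functions of the fibre integral over `k[t]` lift to the chart. -/
theorem exists_chart0_red {f : modularFunctionFieldFullC (kres A) M}
    (hf : RegAway (K := kres A) (coordBar M hA hqM b) f) :
    ∃ y ∈ chart0 A M b, (y : modularFunctionFieldBar M) ∈ (modularGauss A M).V ∧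
      (modularGauss A M).red (y : modularFunctionFieldBar M) = f := by
  have hx := goodParam_coord hA M hqM hM b
  obtain ⟨n, hn⟩ := hx.curveBar.exists_mem_polesLe hf
  obtain ⟨y, hy, hyf⟩ := exists_lift_gaussLat hA b hqM hM (le_max_right n hx.bound)
    (hx.curveBar.polesLe_mono _ (le_max_left n hx.bound) hn)
  exact ⟨y, mem_chart0_of_regAway hA b hqM hM ((curveData_bar M).regAway_of_mem_polesLe hy.1) hy.2,
    mem_gauss_of_gV hA M hqM hy.2, hyf⟩

include hA hqM hM in
/-- The integral closure of `k[t]` in the fibre is spanned by finitely many functions. -/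
theorem exists_finset_span_regAway : ∃ s : Finset (modularFunctionFieldFullC (kres A) M),
    (∀ g ∈ s, RegAway (K := kres A) (coordBar M hA hqM b) g) ∧
    ∀ f, RegAway (K := kres A) (coordBar M hA hqM b) f → f ∈ Submodule.span
      (Algebra.adjoin (kres A) ({coordBar M hA hqM b} : Set (modularFunctionFieldFullC (kres A) M)))
      (s : Set (modularFunctionFieldFullC (kres A) M)) := by
  letI : Algebra (kres A) (modularFunctionFieldFullC (kres A) M) := inferInstance
  letI : Module (kres A) (modularFunctionFieldFullC (kres A) M) := Algebra.toModule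
  have hx := goodParam_coord hA M hqM hM b
  set N := hx.bound + 1
  obtain ⟨s, hs⟩ := (Module.Finite.iff_fg.1 (hx.curveBar.finite_L' _) :
    (polesLe (K := kres A) (coordBar M hA hqM b) N).FG)
  refine ⟨s, fun g hg => hx.curveBar.regAway_of_mem_polesLe (n := N)
    (hs ▸ Submodule.subset_span hg), fun f hf => ?_⟩
  obtain ⟨n, hn⟩ := hx.curveBar.exists_mem_polesLe hf
  clear hf
  set T := Submodule.span
      (Algebra.adjoin (kres A) ({coordBar M hA hqM b} : Set (modularFunctionFieldFullC (kres A) M)))
      (s : Set (modularFunctionFieldFullC (kres A) M))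
  have hbase : ∀ g, g ∈ (polesLe (K := kres A) (coordBar M hA hqM b) N) → g ∈ T := fun g hg =>
    Submodule.span_le_restrictScalars (kres A) _ _ (by rw [hs]; exact hg)
  induction n generalizing f with
  | zero => exact hbase f (hx.curveBar.polesLe_mono _ (Nat.zero_le _) hn)
  | succ n ih =>
    by_cases hnN : n + 1 ≤ N
    · exact hbase f (hx.curveBar.polesLe_mono _ hnN hn)
    obtain ⟨z, u, hz, hu, rfl⟩ := exists_bar_decomp hA b hqM hM (by omega) hn
    refine add_mem (hbase z hz) ?_
    exact Submodule.smul_mem T ⟨coordBar M hA hqM b, Algebra.subset_adjoin rfl⟩ (ih u hu)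

end FLTAgent.BadQ.TwoInst
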