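import Mathlib
import Fermat.Agent.BadQ.TwoInstGlobal
import Fermat.Agent.BadQ.TwoInstFinite
import Fermat.Agent.BadQ.TwoInstPole
import Fermat.Agent.BadQ.TwoInstEmb
import Fermat.Agent.Reduction.GaussGenus
import Fermat.Agent.BadQ.TwoInstFibreBasic
import Fermat.Agent.BadQ.TwoInstLattice

/-!
# The chart of level `M` and its special fibre

An element lies in the chart when it is integral over `K₀[t]` and at the Gauss point
(`mem_chart0_of`). The reduction `red0` onto the coordinate ring of the fibre is surjective with
kernel `(q)` (`red0_surjective`, `ker_red0`); the fibre is finite over `k[t]` and its closed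
points are rational (`closed_point_rational`).
-/

set_option autoImplicit false
set_option linter.style.haveILetI false
set_option linter.unusedSectionVars false
set_option synthInstance.maxHeartbeats 400000
set_option maxHeartbeats 1000000

noncomputable section

open ModularCurve AlgebraicCurve FLTAgent.Reduction

namespace FLTAgent.BadQ.TwoInst

local notation "Qb" => AlgebraicClosure ℚ

variable {A : ValuationSubring Qb} {q : ℕ} [Fact q.Prime] (hA : A.LiesOverPrime q) (M : ℕ)
  [NeZero M] (hqM : ¬ q ∣ M) (hM : GoodLevel M) (b : Bool)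

include hA in
theorem chart0_mem_gV (y : chart0 A M b) :
    valFn M (y : Fn A M) ∈ gV A (IsLocalRing.residue A) :=
  chart0_le_gFn M hA b y

/-- An element integral over functions regular away from the poles of `x` is regular there. -/
theorem regAway_of_isIntegral {K F R : Type*} [Field K] [Field F] [Algebra K F] [CommRing R]
    [Algebra R F] {x f : F}
    (hR : ∀ (P : Place K F), 0 ≤ P.ord x → ∀ r : R, algebraMap R F r ∈ P.toValuationSubring)
    (hf : IsIntegral R f) : RegAway (K := K) x f := by
  intro P hP
  letI : Algebra R P.toValuationSubring :=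
    ((algebraMap R F).codRestrict P.toValuationSubring.toSubring (hR P hP)).toAlgebra
  haveI : IsScalarTower R P.toValuationSubring F := IsScalarTower.of_algebraMap_eq fun _ => rfl
  obtain ⟨z, hz⟩ := IsIntegrallyClosed.isIntegral_iff.mp
    (hf.tower_top (A := P.toValuationSubring))
  exact Vanish.zero_iff.2 (FF.ord_nonneg_of_mem_placeRing P (hz ▸ z.2))

theorem adjoin_mem_placeRing {K F : Type*} [Field K] [Field F] [Algebra K F] (P : Place K F)
    {x : F} (hx : 0 ≤ P.ord x) {r : F} (hr : r ∈ Algebra.adjoin K ({x} : Set F)) :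
    r ∈ P.toValuationSubring := by
  induction hr using Algebra.adjoin_induction with
  | mem z hz => rw [Set.mem_singleton_iff.1 hz]; exact (FF.mem_iff P x).2 (Or.inr hx)
  | algebraMap c => exact P.algebraMap_mem' c
  | add z w _ _ hz hw => exact add_mem hz hw
  | mul z w _ _ hz hw => exact mul_mem hz hw

theorem regAway_of_isIntegral_K0 {y : Fn A M}
    (hint : IsIntegral (Algebra.adjoin (K0 A) ({coord A M b} : Set (Fn A M))) y) :
    RegAway (K := Qb) (coord A M b : modularFunctionFieldBar M)
      (y : modularFunctionFieldBar M) := by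
  letI : Algebra (Algebra.adjoin (K0 A) ({coord A M b} : Set (Fn A M)))
      (modularFunctionFieldBar M) :=
    ((Fn A M).val.toRingHom.comp
      (Algebra.adjoin (K0 A) ({coord A M b} : Set (Fn A M))).val.toRingHom).toAlgebra
  refine regAway_of_isIntegral (R := Algebra.adjoin (K0 A) ({coord A M b} : Set (Fn A M)))
    (fun P hP r => ?_) ?_
  · obtain ⟨r, hr⟩ := r
    show (r : modularFunctionFieldBar M) ∈ P.toValuationSubring
    induction hr using Algebra.adjoin_induction with
    | mem z hz => rw [Set.mem_singleton_iff.1 hz]; exact (FF.mem_iff P _).2 (Or.inr hP)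
    | algebraMap c => exact P.algebraMap_mem' (c : Qb)
    | add z w _ _ hz hw => rw [AddMemClass.coe_add]; exact add_mem hz hw
    | mul z w _ _ hz hw => rw [MulMemClass.coe_mul]; exact mul_mem hz hw
  · obtain ⟨p, hp, hp0⟩ := hint
    refine ⟨p, hp, ?_⟩
    show p.eval₂ ((Fn A M).val.toRingHom.comp _) ((Fn A M).val y) = 0
    exact (Polynomial.hom_eval₂ p _ (Fn A M).val.toRingHom y).symm.trans
      ((congrArg (Fn A M).val hp0).trans (map_zero _))

theorem isIntegral_K0_of_mem_chart0 {y : Fn A M} (hy : y ∈ chart0 A M b) :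
    IsIntegral (Algebra.adjoin (K0 A) ({coord A M b} : Set (Fn A M))) y := by
  obtain ⟨p, hp, hp0⟩ := hy
  have hle : ∀ r : Algebra.adjoin (W0 A) ({coord A M b} : Set (Fn A M)),
      (r : Fn A M) ∈ Algebra.adjoin (K0 A) ({coord A M b} : Set (Fn A M)) := by
    rintro ⟨r, hr⟩
    induction hr using Algebra.adjoin_induction with
    | mem z hz => exact Algebra.subset_adjoin hz
    | algebraMap c =>
      show algebraMap (W0 A) (Fn A M) c ∈ _
      rw [algebraMap_W0_Fn]
      exact Subalgebra.algebraMap_mem _ _
    | add z w _ _ hz hw => exact add_mem hz hw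
    | mul z w _ _ hz hw => exact mul_mem hz hw
  refine ⟨p.map (((Algebra.adjoin (W0 A) ({coord A M b} : Set (Fn A M))).val.toRingHom).codRestrict
    (Algebra.adjoin (K0 A) ({coord A M b} : Set (Fn A M))).toSubring hle), hp.map _, ?_⟩
  rw [Polynomial.eval₂_map]
  exact hp0

include hA hqM hM in
/-- The chart of level `M`: integral over `K₀[t]` and at the Gauss point. -/
theorem mem_chart0_of (y : Fn A M)
    (hint : IsIntegral (Algebra.adjoin (K0 A) ({coord A M b} : Set (Fn A M))) y)
    (hg : valFn M y ∈ gV A (IsLocalRing.residue A)) : y ∈ chart0 A M b :=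
  mem_chart0_of_regAway hA b hqM hM (regAway_of_isIntegral_K0 M b hint) hg

include hA hqM in
theorem gval_chart0_mem (y : chart0 A M b) :
    gval A (IsLocalRing.residue A) (valFn M (y : Fn A M)) ∈
      modularFunctionFieldFullC (kres A) M := by
  have h := gval_mem_fullC (q := q) M hA hqM (incl (dvd_qM q M) (y : Fn A M))
  rwa [valFn_incl] at h

/-- The reduction as a homomorphism into series. -/
def red0LS : chart0 A M b →+* LaurentSeries (kres A) where
  toFun y := gval A (IsLocalRing.residue A) (valFn M (y : Fn A M))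
  map_one' := by rw [OneMemClass.coe_one, map_one]; exact gval_one A _
  map_zero' := by rw [ZeroMemClass.coe_zero, map_zero]; exact gval_zero A _
  map_mul' y z := by
    rw [MulMemClass.coe_mul, map_mul]
    exact gval_mul A _ (chart0_mem_gV hA M b y) (chart0_mem_gV hA M b z)
  map_add' y z := by
    rw [AddMemClass.coe_add, map_add]
    exact gval_add A _ (chart0_mem_gV hA M b y) (chart0_mem_gV hA M b z)

/-- The reduction as a homomorphism into the field. -/
def red0Ring : chart0 A M b →+* modularFunctionFieldFullC (kres A) M :=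
  (red0LS hA M b).codRestrict
    (modularFunctionFieldFullC (kres A) M).toSubfield.toSubring (gval_chart0_mem hA M hqM b)

theorem coe_red0Ring (y : chart0 A M b) :
    ((red0Ring hA M hqM b y : modularFunctionFieldFullC (kres A) M) : LaurentSeries (kres A)) =
      gval A (IsLocalRing.residue A) (valFn M (y : Fn A M)) := rfl

theorem red0Ring_mem (y : chart0 A M b) : red0Ring hA M hqM b y ∈ fibre M hA hqM b :=
  redFn_mem_fibre M hA hqM b y

theorem red0Ring_algebraMap (w : W0 A) :
    red0Ring hA M hqM b (algebraMap (W0 A) (chart0 A M b) w) =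
      algebraMap (kres A) (modularFunctionFieldFullC (kres A) M) (redW A w) :=
  redFn_algebraMap M hA hqM w

/-- The reduction at level `M`. -/
def red0 : chart0 A M b →ₐ[W0 A] fibre M hA hqM b where
  toRingHom := (red0Ring hA M hqM b).codRestrict (fibre M hA hqM b).toSubring (red0Ring_mem hA M hqM b)
  commutes' w := Subtype.ext (red0Ring_algebraMap hA M hqM b w)

theorem coe_red0 (y : chart0 A M b) :
    ((red0 hA M hqM b y : fibre M hA hqM b) : modularFunctionFieldFullC (kres A) M) =
      red0Ring hA M hqM b y := rfl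

theorem red0Ring_eq_red (y : chart0 A M b) :
    red0Ring hA M hqM b y =
      (modularGauss A M).red ((y : Fn A M) : modularFunctionFieldBar M) :=
  Subtype.ext ((coe_red0Ring hA M hqM b y).trans
    (gauss_le_gV M (mem_gauss_of_gV hA M hqM (chart0_mem_gV hA M b y))).2)

theorem regAway_of_mem_fibre {f : modularFunctionFieldFullC (kres A) M}
    (hf : f ∈ fibre M hA hqM b) : RegAway (K := kres A) (coordBar M hA hqM b) f :=
  regAway_of_isIntegral (fun P hP r => adjoin_mem_placeRing P hP r.2) (BadQ.mem_intCl.1 hf)

include hM in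
theorem red0_surjective : Function.Surjective (red0 hA M hqM b) := by
  intro c
  obtain ⟨y, hy, -, hyc⟩ := exists_chart0_red hA b hqM hM (regAway_of_mem_fibre hA M hqM b c.2)
  exact ⟨⟨y, hy⟩, Subtype.ext ((red0Ring_eq_red hA M hqM b ⟨y, hy⟩).trans hyc)⟩

include hM in
theorem ker_red0 : RingHom.ker (red0 hA M hqM b) = Ideal.span {(q : chart0 A M b)} := by
  haveI := GalCommon.charP_residueField (Fact.out : q.Prime) hA
  refine le_antisymm (fun y hy => ?_) ?_
  · have h0 : gval A (IsLocalRing.residue A) (valFn M (y : Fn A M)) = 0 :=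
      congrArg (fun z : fibre M hA hqM b =>
        ((z : modularFunctionFieldFullC (kres A) M) : LaurentSeries (kres A))) (RingHom.mem_ker.1 hy)
    obtain ⟨n, hn⟩ := (curveData_bar M).exists_mem_polesLe
      (regAway_of_isIntegral_K0 M b (isIntegral_K0_of_mem_chart0 M b y.2))
    obtain ⟨u, hu, hyu⟩ := exists_eq_q_smul (q := q) hA b (n := n)
      (show (y : Fn A M) ∈ gaussLat A M b n from ⟨hn, chart0_mem_gV hA M b y⟩) h0
    have huc : u ∈ chart0 A M b :=
      mem_chart0_of_regAway hA b hqM hM ((curveData_bar M).regAway_of_mem_polesLe hu.1) hu.2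
    rw [Ideal.mem_span_singleton]
    refine ⟨⟨u, huc⟩, Subtype.ext ?_⟩
    rw [MulMemClass.coe_mul, hyu, Algebra.smul_def, map_natCast]
    rfl
  · rw [Ideal.span_le, Set.singleton_subset_iff, SetLike.mem_coe, RingHom.mem_ker, map_natCast]
    refine Subtype.ext ?_
    rw [← map_natCast (algebraMap (kres A) (fibre M hA hqM b)), CharP.cast_eq_zero (kres A) q,
      map_zero]

include hM in
theorem finite_fibre : Module.Finite
    (Algebra.adjoin (kres A) ({coordBar M hA hqM b} : Set (modularFunctionFieldFullC (kres A) M)))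
    (integralClosure (Algebra.adjoin (kres A)
      ({coordBar M hA hqM b} : Set (modularFunctionFieldFullC (kres A) M)))
      (modularFunctionFieldFullC (kres A) M)) := by
  obtain ⟨s, hs, hspan⟩ := exists_finset_span_regAway hA b hqM hM
  have hmem : ∀ g ∈ s, g ∈ fibre M hA hqM b := fun g hg => by
    obtain ⟨y, hy, -, rfl⟩ := exists_chart0_red hA b hqM hM (hs g hg)
    exact red0Ring_eq_red hA M hqM b ⟨y, hy⟩ ▸ red0Ring_mem hA M hqM b ⟨y, hy⟩
  refine Module.Finite.of_fg (N := Subalgebra.toSubmodule (integralClosure _ _)) ⟨s, ?_⟩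
  refine le_antisymm (Submodule.span_le.2 fun g hg => BadQ.mem_intCl.1 (hmem g hg)) fun f hf => ?_
  exact hspan f (regAway_of_mem_fibre hA M hqM b (BadQ.mem_intCl.2 hf))

include hM in
theorem closed_point_rational (Q : Ideal (fibre M hA hqM b)) (hQ : Q.IsMaximal) :
    Function.Surjective fun w : W0 A =>
      Ideal.Quotient.mk Q (algebraMap (W0 A) (fibre M hA hqM b) w) :=
  closed_point_rational_of_finite M hA hqM b (finite_fibre hA M hqM hM b) Q hQ

include hM in
theorem not_isField_fibre : ¬ IsField (fibre M hA hqM b) :=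
  not_isField_fibre_of_two_le M hA hqM b hM.two_le

end FLTAgent.BadQ.TwoInst
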