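import Mathlib

/-!
# Coordinate rings that are finite over `k[x]`

A domain spanned over `k[x]` by finitely many elements is Noetherian (`isNoetherianRing_of_spans`)
and its quotients by nonzero ideals are finite over `k` (`finite_quotient_of_spans`).
-/

set_option autoImplicit false

noncomputable section

open Polynomial

namespace FLTAgent.BadQ

variable {k C : Type*} [Field k] [CommRing C] [Algebra k C] {x : C} {T : Finset C}

theorem isNoetherianRing_of_spans (hT : ∀ c : C, ∃ Q : C → k[X], c = ∑ g ∈ T, aeval x (Q g) * g) :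
    IsNoetherianRing C := by
  classical
  have hft : Algebra.FiniteType k C := by
    refine ⟨⟨insert x T, eq_top_iff.mpr fun c _ => ?_⟩⟩
    obtain ⟨Q, rfl⟩ := hT c
    refine sum_mem fun g hg => mul_mem ?_ (Algebra.subset_adjoin (by simp [hg]))
    exact Algebra.adjoin_mono (s := {x}) (by simp)
      (aeval_mem_adjoin_singleton k x)
  exact Algebra.FiniteType.isNoetherianRing k C

theorem exists_monic_aeval_mem [IsDomain C] (hint : ∀ c : C, (aeval x : k[X] →ₐ[k] C).toRingHom.IsIntegralElem c)
    {I : Ideal C} (hI : I ≠ ⊥) : ∃ R : k[X], R.Monic ∧ aeval x R ∈ I := by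
  obtain ⟨c, hcI, hc⟩ := Submodule.exists_mem_ne_zero_of_ne_bot hI
  obtain ⟨P, hPm, hP⟩ := hint c
  have key : ∀ (d : ℕ) (P : k[X][X]), P.natDegree ≤ d → P.Monic →
      eval₂ (aeval x).toRingHom c P = 0 → ∃ R : k[X], R ≠ 0 ∧ aeval x R ∈ I := by
    intro d
    induction d with
    | zero =>
      intro P hd hm h0
      rw [Polynomial.eq_one_of_monic_natDegree_zero hm (Nat.le_zero.mp hd), eval₂_one] at h0
      exact absurd h0 one_ne_zero
    | succ d ih =>
      intro P hd hm h0
      rw [← P.X_mul_divX_add, eval₂_add, eval₂_mul, eval₂_X, eval₂_C] at h0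
      by_cases h1 : P.coeff 0 = 0
      · rw [h1, map_zero, add_zero, mul_eq_zero, or_iff_right hc] at h0
        have hpos : P.natDegree ≠ 0 := fun hh => by
          have := hm.coeff_natDegree
          rw [hh, h1] at this
          exact zero_ne_one this
        refine ih P.divX (by rw [natDegree_divX_eq_natDegree_tsub_one]; omega) ?_ h0
        rw [Monic, leadingCoeff, natDegree_divX_eq_natDegree_tsub_one, coeff_divX,
          Nat.sub_add_cancel (Nat.pos_of_ne_zero hpos)]
        exact hm
      · refine ⟨P.coeff 0, h1, ?_⟩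
        have h2 : aeval x (P.coeff 0) = c * -eval₂ (aeval x).toRingHom c P.divX := by
          rw [mul_neg, eq_neg_iff_add_eq_zero, add_comm]
          exact h0
        rw [h2]
        exact I.mul_mem_right _ hcI
  obtain ⟨R, hR, hRI⟩ := key _ P le_rfl hPm hP
  refine ⟨R * Polynomial.C R.leadingCoeff⁻¹, monic_mul_leadingCoeff_inv hR, ?_⟩
  rw [map_mul]
  exact I.mul_mem_right _ hRI

theorem finite_quotient_of_spans [IsDomain C]
    (hT : ∀ c : C, ∃ Q : C → k[X], c = ∑ g ∈ T, aeval x (Q g) * g)
    (hint : ∀ c : C, (aeval x : k[X] →ₐ[k] C).toRingHom.IsIntegralElem c)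
    (I : Ideal C) (hI : I ≠ ⊥) : Module.Finite k (C ⧸ I) := by
  classical
  obtain ⟨R, hRm, hRI⟩ := exists_monic_aeval_mem hint hI
  refine ⟨⟨((Finset.range R.natDegree) ×ˢ T).image
    fun p => Ideal.Quotient.mk I (x ^ p.1 * p.2), eq_top_iff.mpr fun z _ => ?_⟩⟩
  obtain ⟨c, rfl⟩ := Ideal.Quotient.mk_surjective z
  obtain ⟨Q, hQ⟩ := hT c
  rw [hQ, map_sum]
  refine sum_mem fun g hg => ?_
  have h1 : Ideal.Quotient.mk I (aeval x (Q g) * g) =
      Ideal.Quotient.mk I (aeval x (Q g %ₘ R) * g) := by
    rw [Ideal.Quotient.mk_eq_mk_iff_sub_mem, ← sub_mul]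
    refine I.mul_mem_right _ ?_
    have h2 : aeval x (Q g) - aeval x (Q g %ₘ R) = aeval x R * aeval x (Q g /ₘ R) := by
      rw [← map_sub, ← map_mul]
      congr 1
      conv_lhs => enter [1]; rw [← modByMonic_add_div (Q g) R]
      ring
    rw [h2]
    exact I.mul_mem_right _ hRI
  rw [h1]
  rcases eq_or_ne (Q g %ₘ R) 0 with h0 | h0
  · rw [h0, map_zero, zero_mul, map_zero]
    exact zero_mem _
  · have hdeg : (Q g %ₘ R).natDegree < R.natDegree :=
      natDegree_lt_natDegree h0 (degree_modByMonic_lt _ hRm)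
    rw [aeval_eq_sum_range, Finset.sum_mul, map_sum]
    refine sum_mem fun l hl => ?_
    rw [smul_mul_assoc, ← Ideal.Quotient.mkₐ_eq_mk k, map_smul]
    refine Submodule.smul_mem _ _ (Submodule.subset_span ?_)
    rw [Finset.coe_image]
    refine ⟨(l, g), ?_, rfl⟩
    simp only [Finset.coe_product, Set.mem_prod, Finset.mem_coe, Finset.mem_range]
    exact ⟨by simp only [Finset.mem_range] at hl; omega, hg⟩

end FLTAgent.BadQ
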