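import Mathlib

/-!
# An integrality criterion over an integrally closed domain

`isIntegral_of_two`: if `p` is a prime element not dividing `h` and both `p ^ m * z` and `h * z`
are integral, then so is `z`.
-/

set_option autoImplicit false

noncomputable section

namespace FLTAgent.BadQ

/-- Integral after multiplying by a prime `p` and after multiplying by `h` with `p ∤ h`
implies integral. -/
theorem isIntegral_of_two {A F : Type*} [CommRing A] [IsDomain A] [IsIntegrallyClosed A]
    [Field F] [Algebra A F] [FaithfulSMul A F] {p h : A} (hp : Prime p) (hph : ¬ p ∣ h) {m : ℕ}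
    {z : F} (h1 : IsIntegral A (algebraMap A F (p ^ m) * z))
    (h2 : IsIntegral A (algebraMap A F h * z)) : IsIntegral A z := by
  let L := FractionRing A
  let _ : Algebra L F := FractionRing.liftAlgebra A F
  have : IsScalarTower A L F := FractionRing.isScalarTower_liftAlgebra A F
  have hinj : Function.Injective (algebraMap A F) := FaithfulSMul.algebraMap_injective A F
  have hp0 : algebraMap A F (p ^ m) ≠ 0 := fun e => pow_ne_zero m hp.ne_zero (hinj (by rw [e, map_zero]))
  have hz : IsIntegral L z := by
    have := (h1.tower_top (A := L)).mul (isIntegral_algebraMap (R := L)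
      (x := (algebraMap A L (p ^ m))⁻¹))
    rw [map_inv₀, ← IsScalarTower.algebraMap_apply, mul_comm, inv_mul_cancel_left₀ hp0] at this
    exact this
  set g := minpoly L z with hg
  have key : ∀ c : A, c ≠ 0 → IsIntegral A (algebraMap A F c * z) → ∀ i, ∃ u : A,
      algebraMap A L u = g.coeff i * algebraMap A L c ^ (g.natDegree - i) := by
    intro c hc hcz i
    have hc' : algebraMap A L c ≠ 0 := fun e =>
      hc ((IsFractionRing.injective A L) (by rw [e, map_zero]))
    have hmin : minpoly L (algebraMap A F c * z) = g.scaleRoots (algebraMap A L c) := by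
      rw [IsScalarTower.algebraMap_apply A L F]
      refine (minpoly.unique L _ ((Polynomial.monic_scaleRoots_iff _).mpr (minpoly.monic hz))
        (Polynomial.scaleRoots_aeval_eq_zero (minpoly.aeval L z)) fun r hr hr0 => ?_).symm
      rw [Polynomial.degree_scaleRoots]
      have h3 : Polynomial.aeval z (r.scaleRoots (algebraMap A L c)⁻¹) = 0 := by
        have := Polynomial.scaleRoots_aeval_eq_zero (r := (algebraMap A L c)⁻¹) hr0
        rwa [← mul_assoc, ← map_mul, inv_mul_cancel₀ hc', map_one, one_mul] at this
      have := minpoly.min L z ((Polynomial.monic_scaleRoots_iff _).mpr hr) h3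
      rwa [Polynomial.degree_scaleRoots] at this
    refine ⟨(minpoly A (algebraMap A F c * z)).coeff i, ?_⟩
    rw [← Polynomial.coeff_scaleRoots, ← hmin,
      minpoly.isIntegrallyClosed_eq_field_fractions' L hcz, Polynomial.coeff_map]
  have hcoeff : ∀ i, g.coeff i ∈ Set.range (algebraMap A L) := by
    intro i
    obtain ⟨u, hu⟩ := key (p ^ m) (pow_ne_zero m hp.ne_zero) h1 i
    obtain ⟨v, hv⟩ := key h (fun e => hph (e ▸ dvd_zero p)) h2 i
    set e := g.natDegree - i
    have huv : u * h ^ e = v * (p ^ m) ^ e := by
      apply IsFractionRing.injective A L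
      rw [map_mul, map_mul, map_pow, map_pow (algebraMap A L) (p ^ m), hu, hv]
      ring
    have hdvd : (p ^ m) ^ e ∣ u := by
      rw [← pow_mul]
      refine hp.pow_dvd_of_dvd_mul_right (b := h ^ e) _ (fun hh => hph (hp.dvd_of_dvd_pow hh)) ?_
      exact ⟨v, by rw [huv, pow_mul]; ring⟩
    obtain ⟨w, rfl⟩ := hdvd
    refine ⟨w, ?_⟩
    rw [map_mul, map_pow, mul_comm] at hu
    exact mul_right_cancel₀ (pow_ne_zero e fun e' => pow_ne_zero m hp.ne_zero
      ((IsFractionRing.injective A L) (by rw [e', map_zero]))) hu
  have hlift : g ∈ Polynomial.lifts (algebraMap A L) := (Polynomial.lifts_iff_coeff_lifts g).mpr hcoeff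
  obtain ⟨g', hg', -, hmon⟩ :=
    Polynomial.lifts_and_natDegree_eq_and_monic hlift (minpoly.monic hz)
  refine ⟨g', hmon, ?_⟩
  have := minpoly.aeval L z
  rwa [← hg, ← hg', Polynomial.aeval_map_algebraMap, Polynomial.aeval_def] at this

end FLTAgent.BadQ
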