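import Fermat.Agent.BadQ.Defs
import Fermat.Agent.BadQ.OneIntegral
import Fermat.Agent.BadQ.OneCoord

/-!
# The special fibre of a one step model: two components glued at nodes

For `D : OneModel`, an element lies in the chart exactly when it is integral over `K[x]` and at both
Gauss points (`mem_chart_iff`); its reduction `ρ` lands in two copies of the coordinate ring of
level `M` and has as image the pairs agreeing at the finitely many nodes (`exists_ρ_eq_iff`,
`nodeSet_finite`). The proof writes elements in a family adapted to the two components.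
-/

set_option autoImplicit false
set_option linter.unusedSectionVars false

noncomputable section

open Polynomial

namespace FLTAgent.BadQ

variable {K k F : Type*} [Field K] [Field k] [Field F] [Algebra K F]

namespace Base

variable (b : Base K k)

theorem π_map_eq_zero_iff (P : b.W[X]) : P.map b.π = 0 ↔ C b.ϖ ∣ P := by
  simp [Polynomial.C_dvd_iff_dvd_coeff, Polynomial.ext_iff, b.π_eq_zero_iff]

theorem ϖ_coe_ne_zero : (b.ϖ : K) ≠ 0 := fun h => b.ϖ_ne_zero (Subtype.ext h)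

theorem prime_ϖ : Prime b.ϖ := by
  rw [← Ideal.span_singleton_prime b.ϖ_ne_zero, ← b.ker_π]
  exact RingHom.ker_isPrime _

theorem exists_denom {ι : Type*} [Fintype ι] (P : ι → K[X]) :
    ∃ (a : b.W) (Q : ι → b.W[X]), a ≠ 0 ∧
      ∀ i, (Q i).map b.W.subtype = C (a : K) * P i := by
  classical
  obtain ⟨a, ha⟩ := IsLocalization.exist_integer_multiples_of_finset (nonZeroDivisors b.W)
    (Finset.univ.biUnion fun i => (P i).coeffs)
  have h : ∀ i, C ((a : b.W) : K) * P i ∈ Polynomial.lifts b.W.subtype := by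
    intro i
    rw [Polynomial.lifts_iff_coeff_lifts]
    intro j
    rw [coeff_C_mul]
    rcases eq_or_ne ((P i).coeff j) 0 with h0 | h0
    · exact ⟨0, by simp [h0]⟩
    · obtain ⟨u, hu⟩ := ha _ (Finset.mem_biUnion.mpr
        ⟨i, Finset.mem_univ i, Polynomial.coeff_mem_coeffs h0⟩)
      exact ⟨u, by rw [Algebra.smul_def] at hu; exact hu⟩
  choose Q hQ using h
  exact ⟨a, Q, nonZeroDivisors.ne_zero a.2, fun i => hQ i⟩

theorem exists_content {ι : Type*} (P : ι → b.W[X]) (hP : P ≠ 0) :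
    ∃ (m : ℕ) (P' : ι → b.W[X]), (∀ i, P i = C b.ϖ ^ m * P' i) ∧ ∃ i, (P' i).map b.π ≠ 0 := by
  have := b.dvr
  obtain ⟨i, hi⟩ := Function.ne_iff.mp hP
  have hp : Prime (C b.ϖ : b.W[X]) := Polynomial.prime_C_iff.mpr b.prime_ϖ
  obtain ⟨M, hM⟩ := FiniteMultiplicity.of_prime_left hp hi
  have key : ∀ j : ℕ, (∃ (m : ℕ) (P' : ι → b.W[X]), (∀ i, P i = C b.ϖ ^ m * P' i) ∧
      ∃ i, (P' i).map b.π ≠ 0) ∨ ∃ P' : ι → b.W[X], ∀ i, P i = C b.ϖ ^ j * P' i := by
    intro j
    induction j with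
    | zero => exact Or.inr ⟨P, fun i => by simp⟩
    | succ j ih =>
      rcases ih with h | ⟨P', hP'⟩
      · exact Or.inl h
      · by_cases h0 : ∀ i, (P' i).map b.π = 0
        · choose P'' hP'' using fun i => (b.π_map_eq_zero_iff _).mp (h0 i)
          exact Or.inr ⟨P'', fun i => by rw [hP', hP'', pow_succ, mul_assoc]⟩
        · push Not at h0
          exact Or.inl ⟨j, P', hP', h0⟩
  rcases key (M + 1) with h | ⟨P', hP'⟩
  · exact h
  · exact absurd ⟨P' i, hP' i⟩ hM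

/-- Pullback of the Gauss ring along an expansion map, with residue map. -/
theorem mem_gaussRing_of_integralElem {R : Type*} [CommRing R] (φ : R →+* LaurentSeries K)
    (hφ : ∀ r, φ r ∈ b.gaussRing) {y : LaurentSeries K} (hy : y ∈ b.fracField)
    (h : φ.IsIntegralElem y) : y ∈ b.gaussRing := by
  rcases eq_or_ne y 0 with rfl | hy0
  · exact zero_mem _
  obtain ⟨n, u, hu, rfl⟩ := b.exists_zpow_mul_unit hy hy0
  rcases le_or_gt 0 n with hn | hn
  · lift n to ℕ using hn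
    refine mul_mem ?_ u.2
    rw [zpow_natCast, ← SubmonoidClass.coe_pow]
    exact b.const_mem_gaussRing _
  exfalso
  obtain ⟨P, hPm, hP⟩ := h
  obtain ⟨m, hm⟩ : ∃ m : ℕ, n = -((m + 1 : ℕ) : ℤ) := ⟨(-n - 1).toNat, by omega⟩
  let φ' : R →+* b.gaussRing := φ.codRestrict b.gaussRing hφ
  let p : b.gaussRing := ⟨_, b.const_mem_gaussRing b.ϖ⟩
  have hroot : ((P.map φ').scaleRoots (p ^ (m + 1))).eval₂ b.gaussRing.subtype
      (b.gaussRing.subtype u) = 0 := by
    have hP' : (P.map φ').eval₂ b.gaussRing.subtype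
        (algebraMap K (LaurentSeries K) ((b.ϖ : K) ^ n) * u) = 0 := by
      rw [eval₂_map]
      exact hP
    have h2 := scaleRoots_eval₂_eq_zero (s := p ^ (m + 1)) b.gaussRing.subtype hP'
    have hmul : b.gaussRing.subtype (p ^ (m + 1)) *
        (algebraMap K (LaurentSeries K) ((b.ϖ : K) ^ n) * u) = (u : LaurentSeries K) := by
      rw [hm, zpow_neg, zpow_natCast, map_pow, map_inv₀, map_pow, ← mul_assoc]
      show (algebraMap K (LaurentSeries K) (b.ϖ : K)) ^ (m + 1) * _ * _ = _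
      rw [mul_inv_cancel₀ (pow_ne_zero _ ((_root_.map_ne_zero _).mpr b.ϖ_coe_ne_zero)), one_mul]
    rw [hmul] at h2
    exact h2
  have hroot' : ((P.map φ').scaleRoots (p ^ (m + 1))).eval u = 0 := by
    apply b.gaussRing.subtype_injective
    rw [map_zero, ← eval₂_at_apply]
    exact hroot
  have h3 := congrArg b.res hroot'
  rw [map_zero, ← eval₂_at_apply] at h3
  rw [eval₂_eq_sum_range, Finset.sum_range_succ] at h3
  rw [Finset.sum_eq_zero, zero_add, natDegree_scaleRoots, coeff_scaleRoots_natDegree,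
    (hPm.map φ').leadingCoeff, map_one, one_mul, pow_eq_zero_iff'] at h3
  · exact hu h3.1
  · intro i hi
    rw [Finset.mem_range, natDegree_scaleRoots] at hi
    have hp : b.res p = 0 := by rw [b.res_const, b.π_ϖ, map_zero]
    rw [coeff_scaleRoots, map_mul, map_pow, map_pow, hp, zero_pow (Nat.succ_ne_zero m),
      zero_pow (by omega : (P.map φ').natDegree - i ≠ 0), mul_zero, zero_mul]

end Base

namespace OneModel

variable {b : Base K k} (D : OneModel b F)

/-- the coordinate ring of each component -/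
abbrev Cbar : Subalgebra k D.E := intCl (k := k) D.xbar

theorem res_eval (ψ : F →ₐ[K] LaurentSeries K) (h : ψ D.x ∈ b.gaussRing) (P : b.W[X]) :
    ∃ hP : ψ (b.evalAt D.x P) ∈ b.gaussRing,
      b.res ⟨_, hP⟩ = aeval (b.res ⟨ψ D.x, h⟩) (P.map b.π) := by
  let φ : b.W[X] →+* b.gaussRing := eval₂RingHom
    (((algebraMap K (LaurentSeries K)).comp b.W.subtype).codRestrict b.gaussRing
      b.const_mem_gaussRing) ⟨ψ D.x, h⟩
  have h1 : b.gaussRing.subtype.comp φ = ψ.toRingHom.comp (b.evalAt D.x) := by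
    apply Polynomial.ringHom_ext
    · intro a
      simp only [φ, Base.evalAt, RingHom.comp_apply, coe_eval₂RingHom, eval₂_C]
      exact (ψ.commutes _).symm
    · simp [φ, Base.evalAt]
  have h2 : b.res.comp φ = (aeval (b.res ⟨ψ D.x, h⟩)).toRingHom.comp (mapRingHom b.π) := by
    apply Polynomial.ringHom_ext
    · intro a
      simp only [φ, RingHom.comp_apply, coe_eval₂RingHom, eval₂_C, coe_mapRingHom,
        Polynomial.map_C, AlgHom.toRingHom_eq_coe, RingHom.coe_coe, aeval_C]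
      exact b.res_const a
    · simp [φ]
  refine ⟨(RingHom.congr_fun h1 P) ▸ (φ P).2, ?_⟩
  have h3 := RingHom.congr_fun h2 P
  refine Eq.trans (congrArg b.res (Subtype.ext ?_)) h3
  exact (RingHom.congr_fun h1 P).symm

theorem coe_aeval (P : k[X]) :
    ((aeval D.xbar P : D.E) : LaurentSeries k) = aeval (D.xbar : LaurentSeries k) P :=
  (aeval_algHom_apply D.E.val D.xbar P).symm

theorem resI_eval (P : b.W[X]) : ∃ hP : D.ψI (b.evalAt D.x P) ∈ b.gaussRing,
    b.res ⟨_, hP⟩ = ((aeval D.xbar (P.map b.π) : D.E) : LaurentSeries k) := by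
  obtain ⟨hP, h⟩ := D.res_eval D.ψI D.xI_mem P
  exact ⟨hP, by rw [h, D.xI_res, D.coe_aeval]⟩

theorem resO_eval (P : b.W[X]) : ∃ hP : D.ψO (b.evalAt D.x P) ∈ b.gaussRing,
    b.res ⟨_, hP⟩ = ((D.Fr (aeval D.xbar (P.map b.π)) : D.E) : LaurentSeries k) := by
  obtain ⟨hP, h⟩ := D.res_eval D.ψO D.xO_mem P
  refine ⟨hP, ?_⟩
  rw [h, D.xO_res, ← aeval_algHom_apply D.Fr, D.Fr_xbar]
  exact aeval_algHom_apply D.E.val (D.xbar ^ D.q) _

theorem mem_chart_ψI {y : F} (hy : y ∈ b.chart D.x) : D.ψI y ∈ b.gaussRing := by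
  refine b.mem_gaussRing_of_integralElem (D.ψI.toRingHom.comp (b.evalAt D.x))
    (fun P => (D.resI_eval P).1) (D.ψI_mem y) ?_
  obtain ⟨P, hm, hP⟩ := hy
  exact ⟨P, hm, (Polynomial.hom_eval₂ P (b.evalAt D.x) D.ψI.toRingHom y).symm.trans
    (by rw [hP, map_zero])⟩

theorem mem_chart_ψO {y : F} (hy : y ∈ b.chart D.x) : D.ψO y ∈ b.gaussRing := by
  refine b.mem_gaussRing_of_integralElem (D.ψO.toRingHom.comp (b.evalAt D.x))
    (fun P => (D.resO_eval P).1) (D.ψO_mem y) ?_
  obtain ⟨P, hm, hP⟩ := hy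
  exact ⟨P, hm, (Polynomial.hom_eval₂ P (b.evalAt D.x) D.ψO.toRingHom y).symm.trans
    (by rw [hP, map_zero])⟩

/-- elements integral at both Gauss points -/
def bothInt : Subring F :=
  b.gaussRing.comap D.ψI.toRingHom ⊓ b.gaussRing.comap D.ψO.toRingHom

theorem chart_le_bothInt : b.chart D.x ≤ D.bothInt :=
  fun _ hy => ⟨D.mem_chart_ψI hy, D.mem_chart_ψO hy⟩

/-- reduction along the first component -/
def resI : D.bothInt →+* LaurentSeries k :=
  b.res.comp ((D.ψI.toRingHom.comp D.bothInt.subtype).codRestrict b.gaussRing fun y => y.2.1)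

/-- reduction along the second component -/
def resO : D.bothInt →+* LaurentSeries k :=
  b.res.comp ((D.ψO.toRingHom.comp D.bothInt.subtype).codRestrict b.gaussRing fun y => y.2.2)

theorem resI_apply (y : D.bothInt) : D.resI y = b.res ⟨D.ψI y, y.2.1⟩ := rfl

theorem resO_apply (y : D.bothInt) : D.resO y = b.res ⟨D.ψO y, y.2.2⟩ := rfl

/-- `W[x]` inside `bothInt` -/
def polyMap : b.W[X] →+* D.bothInt :=
  (b.evalAt D.x).codRestrict D.bothInt fun P => ⟨(D.resI_eval P).1, (D.resO_eval P).1⟩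

@[simp] theorem coe_polyMap (P : b.W[X]) : (D.polyMap P : F) = b.evalAt D.x P := rfl

theorem resI_polyMap (P : b.W[X]) :
    D.resI (D.polyMap P) = ((aeval D.xbar (P.map b.π) : D.E) : LaurentSeries k) :=
  (D.resI_eval P).2

theorem resO_polyMap (P : b.W[X]) :
    D.resO (D.polyMap P) = ((D.Fr (aeval D.xbar (P.map b.π)) : D.E) : LaurentSeries k) :=
  (D.resO_eval P).2

/-- a chosen lift `(c, Fr c)` -/
def yI (c : D.Cbar) : D.bothInt :=
  ⟨(D.liftI c).choose, (D.liftI c).choose_spec.2.choose,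
    (D.liftI c).choose_spec.2.choose_spec.choose⟩

/-- a chosen lift `(Fr c, c)` -/
def yO (c : D.Cbar) : D.bothInt :=
  ⟨(D.liftO c).choose, (D.liftO c).choose_spec.2.choose,
    (D.liftO c).choose_spec.2.choose_spec.choose⟩

theorem yI_mem (c : D.Cbar) : (D.yI c : F) ∈ b.chart D.x := (D.liftI c).choose_spec.1

theorem yO_mem (c : D.Cbar) : (D.yO c : F) ∈ b.chart D.x := (D.liftO c).choose_spec.1

theorem resI_yI (c : D.Cbar) : D.resI (D.yI c) = ((c : D.E) : LaurentSeries k) :=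
  (D.liftI c).choose_spec.2.choose_spec.choose_spec.1

theorem resO_yI (c : D.Cbar) : D.resO (D.yI c) = ((D.Fr c : D.E) : LaurentSeries k) :=
  (D.liftI c).choose_spec.2.choose_spec.choose_spec.2

theorem resI_yO (c : D.Cbar) : D.resI (D.yO c) = ((D.Fr c : D.E) : LaurentSeries k) :=
  (D.liftO c).choose_spec.2.choose_spec.choose_spec.1

theorem resO_yO (c : D.Cbar) : D.resO (D.yO c) = ((c : D.E) : LaurentSeries k) :=
  (D.liftO c).choose_spec.2.choose_spec.choose_spec.2

theorem xbar_mem : D.xbar ∈ D.Cbar := by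
  rw [mem_intCl]
  exact isIntegral_algebraMap (R := Algebra.adjoin k ({D.xbar} : Set D.E))
    (x := (⟨D.xbar, Algebra.self_mem_adjoin_singleton k D.xbar⟩ :
      Algebra.adjoin k ({D.xbar} : Set D.E)))

/-- `x̄` in the coordinate ring -/
def xC : D.Cbar := ⟨D.xbar, D.xbar_mem⟩

/-- vanishes on the second component only -/
def zI : D.bothInt := D.polyMap X - D.yO D.xC ^ D.q

/-- vanishes on the first component only -/
def zO : D.bothInt := D.yO D.xC - D.polyMap X ^ D.q

/-- the nonzero residue of `zI` and `zO` -/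
def ζ : D.E := D.xbar - D.xbar ^ (D.q * D.q)

theorem ζ_ne_zero : D.ζ ≠ 0 := by
  intro h
  refine D.transcendental_xbar ⟨X - X ^ (D.q * D.q), fun h0 => ?_, by simpa [ζ] using h⟩
  have h1 := congrArg (fun P : k[X] => P.coeff 1) h0
  have h4 : 1 ≠ D.q * D.q := by nlinarith [D.two_le_q]
  simp [coeff_X_pow, h4] at h1

theorem resI_X : D.resI (D.polyMap X) = (D.xbar : LaurentSeries k) := by
  rw [resI_polyMap, Polynomial.map_X, aeval_X]

theorem resO_X : D.resO (D.polyMap X) = (D.xbar : LaurentSeries k) ^ D.q := by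
  rw [resO_polyMap, Polynomial.map_X, aeval_X, D.Fr_xbar]; simp

theorem resI_zI : D.resI D.zI = (D.ζ : LaurentSeries k) := by
  rw [zI, map_sub, map_pow, resI_X, resI_yO]
  simp [ζ, xC, D.Fr_xbar, pow_mul]

theorem resO_zI : D.resO D.zI = 0 := by
  rw [zI, map_sub, map_pow, resO_X, resO_yO]
  simp [xC]

theorem resI_zO : D.resI D.zO = 0 := by
  rw [zO, map_sub, map_pow, resI_X, resI_yO]
  simp [xC, D.Fr_xbar]

theorem resO_zO : D.resO D.zO = (D.ζ : LaurentSeries k) := by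
  rw [zO, map_sub, map_pow, resO_X, resO_yO]
  simp [ζ, xC, pow_mul]

theorem zI_mem : (D.zI : F) ∈ b.chart D.x :=
  sub_mem (b.evalAt_mem_chart D.x X) (pow_mem (D.yO_mem _) _)

theorem zO_mem : (D.zO : F) ∈ b.chart D.x :=
  sub_mem (D.yO_mem _) (pow_mem (b.evalAt_mem_chart D.x X) _)

/-- index type of the adapted family -/
abbrev Idx : Type := Fin D.n ⊕ (Fin D.n × Fin D.q)

/-- the adapted family -/
def fam : D.Idx → D.bothInt
  | Sum.inl i => D.yI (D.basis i) * D.zI
  | Sum.inr (i, l) => D.yO (D.basis i * D.xC ^ (l : ℕ)) * D.zO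

theorem fam_mem (j : D.Idx) : (D.fam j : F) ∈ b.chart D.x := by
  rcases j with i | ⟨i, l⟩
  · exact mul_mem (D.yI_mem _) D.zI_mem
  · exact mul_mem (D.yO_mem _) D.zO_mem

/-- `Σ P_j(x) fam_j` -/
def comb (P : D.Idx → b.W[X]) : D.bothInt := ∑ j, D.polyMap (P j) * D.fam j

theorem comb_mem (P : D.Idx → b.W[X]) : (D.comb P : F) ∈ b.chart D.x := by
  rw [comb, AddSubmonoidClass.coe_finsetSum]
  exact sum_mem fun j _ => mul_mem (b.evalAt_mem_chart D.x _) (D.fam_mem j)

theorem resI_comb (P : D.Idx → b.W[X]) : D.resI (D.comb P) =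
    (((∑ i, aeval D.xbar ((P (Sum.inl i)).map b.π) * (D.basis i : D.E)) * D.ζ : D.E) :
      LaurentSeries k) := by
  rw [comb, map_sum, Fintype.sum_sum_type]
  simp only [fam, map_mul, resI_zO, mul_zero, Finset.sum_const_zero, add_zero]
  simp only [resI_polyMap, resI_yI, resI_zI]
  rw [IntermediateField.coe_mul, IntermediateField.coe_sum, Finset.sum_mul]
  exact Finset.sum_congr rfl fun i _ => by rw [IntermediateField.coe_mul, mul_assoc]

theorem resO_comb (P : D.Idx → b.W[X]) : D.resO (D.comb P) =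
    (((∑ i, aeval D.xbar (∑ l : Fin D.q,
      expand k D.q ((P (Sum.inr (i, l))).map b.π) * X ^ (l : ℕ)) * (D.basis i : D.E)) * D.ζ :
        D.E) : LaurentSeries k) := by
  have hFr : ∀ R : k[X], D.Fr (aeval D.xbar R) = aeval D.xbar (expand k D.q R) := by
    intro R
    rw [expand_aeval, ← D.Fr_xbar, aeval_algHom_apply]
  rw [comb, map_sum, Fintype.sum_sum_type]
  simp only [fam, map_mul, resO_zI, mul_zero, Finset.sum_const_zero, zero_add]
  simp only [resO_polyMap, resO_yO, resO_zO, hFr, Fintype.sum_prod_type]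
  rw [IntermediateField.coe_mul, IntermediateField.coe_sum, Finset.sum_mul]
  refine Finset.sum_congr rfl fun i _ => ?_
  rw [map_sum, Finset.sum_mul, IntermediateField.coe_sum, Finset.sum_mul]
  refine Finset.sum_congr rfl fun l _ => ?_
  rw [map_mul (aeval D.xbar), aeval_X_pow, Subalgebra.coe_mul, Subalgebra.coe_pow]
  simp only [xC, IntermediateField.coe_mul, IntermediateField.coe_pow]
  ring

theorem map_π_eq_zero_of_res_comb (P : D.Idx → b.W[X]) (hI : D.resI (D.comb P) = 0)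
    (hO : D.resO (D.comb P) = 0) (j : D.Idx) : (P j).map b.π = 0 := by
  rw [resI_comb, ZeroMemClass.coe_eq_zero, mul_eq_zero, or_iff_left D.ζ_ne_zero] at hI
  rw [resO_comb, ZeroMemClass.coe_eq_zero, mul_eq_zero, or_iff_left D.ζ_ne_zero] at hO
  rcases j with i | ⟨i, l⟩
  · exact congrFun (D.basis_indep _ hI) i
  · have h := congrFun (D.basis_indep _ hO) i
    have hq : 0 < D.q := by have := D.two_le_q; omega
    ext m
    have h2 := congrArg (fun R : k[X] => R.coeff (m * D.q + (l : ℕ))) h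
    simp only [Pi.zero_apply, finsetSum_coeff, coeff_zero, coeff_mul_X_pow'] at h2
    rw [Finset.sum_eq_single l] at h2
    · simpa [coeff_expand_mul hq] using h2
    · intro l' _ hl'
      split_ifs with hle
      · rw [coeff_expand hq, if_neg]
        rintro ⟨c, hc⟩
        have h1 := l'.isLt
        have h2 := l.isLt
        refine hl' (Fin.ext ?_)
        have e1 : m * D.q + (l : ℕ) = c * D.q + (l' : ℕ) := by
          rw [mul_comm c, ← hc]; omega
        have := congrArg (· % D.q) e1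
        simpa [Nat.mod_eq_of_lt h1, Nat.mod_eq_of_lt h2] using this.symm
      · rfl
    · simp

theorem card_idx : Fintype.card (Option D.Idx) = (D.q + 1) * D.n + 1 := by
  simp only [Fintype.card_option, Fintype.card_sum, Fintype.card_prod, Fintype.card_fin]
  ring

theorem aeval_x_map (Q : b.W[X]) : aeval D.x (Q.map b.W.subtype) = b.evalAt D.x Q := by
  rw [aeval_def, eval₂_map]; rfl

theorem evalAt_injective : Function.Injective (b.evalAt D.x) := by
  rw [injective_iff_map_eq_zero]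
  intro P hP
  by_contra h0
  obtain ⟨m, P', hP', i, hi⟩ := b.exists_content (fun _ : Unit => P) (fun h => h0 (congrFun h ()))
  have h1 : b.evalAt D.x (P' i) = 0 := by
    have h2 := hP
    rw [hP' i, map_mul, mul_eq_zero] at h2
    refine h2.resolve_left ?_
    simp only [Base.evalAt, coe_eval₂RingHom, eval₂_pow, eval₂_C, RingHom.comp_apply]
    exact pow_ne_zero _ ((_root_.map_ne_zero _).mpr b.ϖ_coe_ne_zero)
  have h3 := D.resI_polyMap (P' i)
  rw [show D.polyMap (P' i) = 0 from Subtype.ext h1, map_zero, eq_comm,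
    ZeroMemClass.coe_eq_zero] at h3
  exact hi (transcendental_iff.mp D.transcendental_xbar _ h3)

/-- Every element is a combination of the adapted family over `Frac W[x]`, normalised. -/
theorem exists_comb (y : F) : ∃ (h : b.W[X]) (P : D.Idx → b.W[X]),
    (h.map b.π ≠ 0 ∨ ∃ j, (P j).map b.π ≠ 0) ∧ h ≠ 0 ∧
      b.evalAt D.x h * y = D.comb P := by
  classical
  let e : Option D.Idx ≃ Fin ((D.q + 1) * D.n + 1) := Fintype.equivFinOfCardEq D.card_idx
  let v : Option D.Idx → F := fun o => o.elim y fun j => D.fam j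
  obtain ⟨P₀, hP₀, hsum⟩ := D.deg_le (v ∘ e.symm)
  obtain ⟨a, Q, ha, hQ⟩ := b.exists_denom fun o => P₀ (e o)
  have hQ0 : Q ≠ 0 := by
    intro h
    apply hP₀
    funext i
    have := hQ (e.symm i)
    rw [h, Pi.zero_apply, Polynomial.map_zero, Equiv.apply_symm_apply, eq_comm, mul_eq_zero] at this
    exact this.resolve_left (by rw [C_eq_zero]; exact fun h' => ha (Subtype.ext h'))
  obtain ⟨m, Q', hQ', hne⟩ := b.exists_content Q hQ0
  have hs : ∑ o, b.evalAt D.x (Q' o) * v o = 0 := by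
    have h1 : ∑ o, b.evalAt D.x (Q o) * v o = 0 := by
      rw [← Equiv.sum_comp e.symm]
      have : ∀ i, b.evalAt D.x (Q (e.symm i)) * v (e.symm i) =
          algebraMap K F a * (aeval D.x (P₀ i) * (v ∘ e.symm) i) := by
        intro i
        rw [← D.aeval_x_map, hQ, Equiv.apply_symm_apply, map_mul, aeval_C, mul_assoc]
        rfl
      rw [Finset.sum_congr rfl fun i _ => this i, ← Finset.mul_sum, hsum, mul_zero]
    simp only [hQ', map_mul, mul_assoc, ← Finset.mul_sum, mul_eq_zero] at h1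
    refine h1.resolve_left ?_
    simp only [Base.evalAt, coe_eval₂RingHom, eval₂_pow, eval₂_C, RingHom.comp_apply]
    exact pow_ne_zero _ ((_root_.map_ne_zero _).mpr b.ϖ_coe_ne_zero)
  rw [Fintype.sum_option] at hs
  refine ⟨Q' none, fun j => -Q' (some j), ?_, ?_, ?_⟩
  · obtain ⟨o | j, ho⟩ := hne
    · exact Or.inl ho
    · exact Or.inr ⟨j, by simpa [Polynomial.map_neg] using ho⟩
  · intro h0
    obtain ⟨o | j, ho⟩ := hne
    · exact ho (by rw [h0, Polynomial.map_zero])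
    · have hc : D.comb (fun j => Q' (some j)) = 0 := by
        refine Subtype.ext ?_
        simpa [comb, h0, v] using hs
      exact ho (D.map_π_eq_zero_of_res_comb _ (by rw [hc, map_zero]) (by rw [hc, map_zero]) j)
  · have hval : (D.comb fun j => -Q' (some j) : D.bothInt).1 =
        -∑ j, b.evalAt D.x (Q' (some j)) * v (some j) := by
      simp [comb, v]
    rw [hval, ← sub_eq_zero, sub_neg_eq_add]
    exact hs

theorem exists_comb_of_bothInt (y : D.bothInt) : ∃ (h : b.W[X]) (P : D.Idx → b.W[X]),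
    h.map b.π ≠ 0 ∧ D.polyMap h * y = D.comb P := by
  obtain ⟨h, P, hne, -, heq⟩ := D.exists_comb y
  have heq' : D.polyMap h * y = D.comb P := Subtype.ext heq
  refine ⟨h, P, fun h0 => ?_, heq'⟩
  have hI : D.resI (D.comb P) = 0 := by rw [← heq', map_mul, resI_polyMap, h0]; simp
  have hO : D.resO (D.comb P) = 0 := by rw [← heq', map_mul, resO_polyMap, h0]; simp
  obtain ⟨j, hj⟩ := hne.resolve_left (not_not_intro h0)
  exact hj (D.map_π_eq_zero_of_res_comb P hI hO j)

theorem aeval_xbar_ne_zero {R : k[X]} (hR : R ≠ 0) : aeval D.xbar R ≠ 0 :=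
  fun h => hR (transcendental_iff.mp D.transcendental_xbar R h)

theorem resI_mem_E (y : D.bothInt) : D.resI y ∈ D.E := by
  obtain ⟨h, P, hh, heq⟩ := D.exists_comb_of_bothInt y
  have h1 := congrArg D.resI heq
  rw [map_mul, resI_polyMap, resI_comb, mul_comm] at h1
  rw [(eq_div_iff (by simpa using D.aeval_xbar_ne_zero hh)).mpr h1]
  exact div_mem (SetLike.coe_mem _) (SetLike.coe_mem _)

theorem resO_mem_E (y : D.bothInt) : D.resO y ∈ D.E := by
  obtain ⟨h, P, hh, heq⟩ := D.exists_comb_of_bothInt y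
  have h1 := congrArg D.resO heq
  rw [map_mul, resO_polyMap, resO_comb, mul_comm] at h1
  rw [(eq_div_iff (by simpa using D.aeval_xbar_ne_zero hh)).mpr h1]
  exact div_mem (SetLike.coe_mem _) (SetLike.coe_mem _)

/-- reduction of the chart, valued in `E × E` -/
def ρE : b.chart D.x →+* D.E × D.E :=
  ((D.resI.codRestrict D.E.toSubfield fun y => D.resI_mem_E y).comp
      (Subring.inclusion D.chart_le_bothInt)).prod
    ((D.resO.codRestrict D.E.toSubfield fun y => D.resO_mem_E y).comp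
      (Subring.inclusion D.chart_le_bothInt))

theorem coe_ρE_fst (y : b.chart D.x) :
    ((D.ρE y).1 : LaurentSeries k) = b.res ⟨D.ψI y, D.mem_chart_ψI y.2⟩ := rfl

theorem coe_ρE_snd (y : b.chart D.x) :
    ((D.ρE y).2 : LaurentSeries k) = b.res ⟨D.ψO y, D.mem_chart_ψO y.2⟩ := rfl

theorem ρE_poly (P : b.W[X]) : D.ρE ⟨b.evalAt D.x P, b.evalAt_mem_chart D.x P⟩ =
    (aeval D.xbar (P.map b.π), D.Fr (aeval D.xbar (P.map b.π))) :=
  Prod.ext (Subtype.ext (D.resI_polyMap P)) (Subtype.ext (D.resO_polyMap P))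

theorem mem_adjoin_xbar {r : D.E} :
    r ∈ Algebra.adjoin k ({D.xbar} : Set D.E) ↔ ∃ R : k[X], aeval D.xbar R = r := by
  rw [Algebra.adjoin_singleton_eq_range_aeval]; rfl

theorem Fr_mem {c : D.E} (hc : c ∈ D.Cbar) : D.Fr c ∈ D.Cbar := by
  rw [mem_intCl] at hc ⊢
  obtain ⟨P, hPm, hP⟩ := hc
  have hle : ∀ r : Algebra.adjoin k ({D.xbar} : Set D.E),
      D.Fr (r : D.E) ∈ Algebra.adjoin k ({D.xbar} : Set D.E) := by
    intro r
    obtain ⟨R, hR⟩ := D.mem_adjoin_xbar.mp r.2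
    rw [← hR, ← aeval_algHom_apply, D.Fr_xbar, ← expand_aeval]
    exact D.mem_adjoin_xbar.mpr ⟨_, rfl⟩
  let f : Algebra.adjoin k ({D.xbar} : Set D.E) →+* Algebra.adjoin k ({D.xbar} : Set D.E) :=
    (D.Fr.toRingHom.comp (Algebra.adjoin k ({D.xbar} : Set D.E)).val.toRingHom).codRestrict
      (Algebra.adjoin k ({D.xbar} : Set D.E)).toSubring hle
  refine ⟨P.map f, hPm.map f, ?_⟩
  have := congrArg D.Fr hP
  rw [map_zero] at this
  rw [eval₂_map]
  exact (Polynomial.hom_eval₂ P _ D.Fr.toRingHom c).symm.trans this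

theorem root_mem {d : D.E} (hd : d ^ D.q ∈ D.Cbar) : d ∈ D.Cbar := by
  rw [mem_intCl] at hd ⊢
  exact IsIntegral.of_pow (by have := D.two_le_q; omega) hd

/-- the coefficient map `W[x] → k[x̄]` -/
def coeffRed : b.W[X] →+* Algebra.adjoin k ({D.xbar} : Set D.E) :=
  ((aeval D.xbar).toRingHom.comp (mapRingHom b.π)).codRestrict
    (Algebra.adjoin k ({D.xbar} : Set D.E)).toSubring
    (fun _ => D.mem_adjoin_xbar.mpr ⟨_, rfl⟩)

theorem Fr_coeff_mem (R : Algebra.adjoin k ({D.xbar} : Set D.E)) : D.Fr (R : D.E) ∈ D.Cbar := by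
  refine D.Fr_mem ?_
  rw [mem_intCl]
  exact isIntegral_algebraMap (x := R)

theorem ρE_fst_mem (y : b.chart D.x) : (D.ρE y).1 ∈ D.Cbar := by
  obtain ⟨P, hPm, hP⟩ := y.2
  rw [mem_intCl]
  refine ⟨P.map D.coeffRed, hPm.map _, ?_⟩
  rw [eval₂_map]
  let g : b.W[X] →+* b.chart D.x := (b.evalAt D.x).codRestrict _ (b.evalAt_mem_chart D.x)
  have h1 : P.eval₂ g y = 0 := by
    apply (b.chart D.x).subtype_injective
    rw [map_zero, hom_eval₂]
    exact hP
  have h2 := congrArg (fun z => (D.ρE z).1) h1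
  simp only [map_zero, Prod.fst_zero] at h2
  change ((RingHom.fst D.E D.E).comp D.ρE) (P.eval₂ g y) = 0 at h2
  rw [hom_eval₂] at h2
  refine Eq.trans ?_ h2
  refine eval₂_congr ?_ rfl rfl
  refine RingHom.ext fun Q => ?_
  exact (congrArg Prod.fst (D.ρE_poly Q)).symm

/-- the coefficient map on the second component -/
def coeffRedO : b.W[X] →+* Algebra.adjoin k ({D.xbar} : Set D.E) :=
  ((aeval D.xbar).toRingHom.comp ((expand k D.q).toRingHom.comp (mapRingHom b.π))).codRestrict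
    (Algebra.adjoin k ({D.xbar} : Set D.E)).toSubring (fun _ => D.mem_adjoin_xbar.mpr ⟨_, rfl⟩)

theorem ρE_snd_mem (y : b.chart D.x) : (D.ρE y).2 ∈ D.Cbar := by
  obtain ⟨P, hPm, hP⟩ := y.2
  rw [mem_intCl]
  refine ⟨P.map D.coeffRedO, hPm.map _, ?_⟩
  rw [eval₂_map]
  let g : b.W[X] →+* b.chart D.x := (b.evalAt D.x).codRestrict _ (b.evalAt_mem_chart D.x)
  have h1 : P.eval₂ g y = 0 := by
    apply (b.chart D.x).subtype_injective
    rw [map_zero, hom_eval₂]
    exact hP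
  have h2 : ((RingHom.snd D.E D.E).comp D.ρE) (P.eval₂ g y) = 0 := by rw [h1, map_zero]
  rw [hom_eval₂] at h2
  refine Eq.trans ?_ h2
  refine eval₂_congr ?_ rfl rfl
  refine RingHom.ext fun Q => ?_
  refine Eq.trans ?_ (congrArg Prod.snd (D.ρE_poly Q)).symm
  show aeval D.xbar (expand k D.q (Q.map b.π)) = D.Fr (aeval D.xbar (Q.map b.π))
  rw [expand_aeval, ← D.Fr_xbar, aeval_algHom_apply]

/-- reduction of the chart -/
def ρ : b.chart D.x →+* D.Cbar × D.Cbar :=
  (((RingHom.fst D.E D.E).comp D.ρE).codRestrict D.Cbar.toSubring D.ρE_fst_mem).prod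
    (((RingHom.snd D.E D.E).comp D.ρE).codRestrict D.Cbar.toSubring D.ρE_snd_mem)

theorem coe_ρ_fst (y : b.chart D.x) :
    (((D.ρ y).1 : D.E) : LaurentSeries k) = b.res ⟨D.ψI y, D.mem_chart_ψI y.2⟩ := rfl

theorem coe_ρ_snd (y : b.chart D.x) :
    (((D.ρ y).2 : D.E) : LaurentSeries k) = b.res ⟨D.ψO y, D.mem_chart_ψO y.2⟩ := rfl

theorem ρ_const (a : b.W) :
    D.ρ ⟨b.evalAt D.x (C a), b.evalAt_mem_chart D.x _⟩ = algebraMap k (D.Cbar × D.Cbar) (b.π a) := by
  have h := D.ρE_poly (C a)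
  rw [Polynomial.map_C, aeval_C, D.Fr.commutes] at h
  exact Prod.ext (Subtype.ext (congrArg Prod.fst h)) (Subtype.ext (congrArg Prod.snd h))

theorem exists_ϖ_mul_of_bothInt_int {y : D.bothInt} {m : ℕ}
    (hy : b.evalAt D.x (C b.ϖ ^ m) * (y : F) ∈ b.chart D.x) : (y : F) ∈ b.chart D.x := by
  have := b.dvr
  obtain ⟨h, P, hh, heq⟩ := D.exists_comb_of_bothInt y
  let _ : Algebra b.W[X] F := (b.evalAt D.x).toAlgebra
  have : FaithfulSMul b.W[X] F :=
    (faithfulSMul_iff_algebraMap_injective b.W[X] F).mpr D.evalAt_injective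
  have h2 : IsIntegral b.W[X] (algebraMap b.W[X] F h * (y : F)) := by
    have hc := D.comb_mem P
    rw [← heq] at hc
    exact hc
  exact isIntegral_of_two (Polynomial.prime_C_iff.mpr b.prime_ϖ)
    (fun hd => hh ((b.π_map_eq_zero_iff h).mpr hd)) hy h2

/-- The chart is cut out of `F` by integrality over `K[x]` and at the two Gauss points. -/
theorem mem_chart_iff {y : F} :
    y ∈ b.chart D.x ↔ y ∈ D.bothInt ∧ ∃ m : ℕ, algebraMap K F ((b.ϖ : K) ^ m) * y ∈ b.chart D.x := by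
  refine ⟨fun hy => ⟨D.chart_le_bothInt hy, 0, by simpa using hy⟩, fun ⟨hy, m, hm⟩ => ?_⟩
  refine D.exists_ϖ_mul_of_bothInt_int (y := ⟨y, hy⟩) (m := m) ?_
  have he : b.evalAt D.x (C b.ϖ ^ m) = algebraMap K F ((b.ϖ : K) ^ m) := by
    simp only [Base.evalAt, coe_eval₂RingHom, eval₂_C, RingHom.comp_apply, map_pow]
    rfl
  rw [he]
  exact hm

theorem ρ_eq_zero_iff (y : b.chart D.x) :
    D.ρ y = 0 ↔ ∃ z : b.chart D.x, (y : F) = algebraMap K F (b.ϖ : K) * z := by
  constructor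
  · intro h
    have hI : b.res ⟨D.ψI y, D.mem_chart_ψI y.2⟩ = 0 := by rw [← D.coe_ρ_fst, h]; rfl
    have hO : b.res ⟨D.ψO y, D.mem_chart_ψO y.2⟩ = 0 := by rw [← D.coe_ρ_snd, h]; rfl
    obtain ⟨u, hu⟩ := (b.res_eq_zero_iff _).mp hI
    obtain ⟨v, hv⟩ := (b.res_eq_zero_iff _).mp hO
    have hϖ : algebraMap K F (b.ϖ : K) ≠ 0 := (_root_.map_ne_zero _).mpr b.ϖ_coe_ne_zero
    set z : F := (algebraMap K F (b.ϖ : K))⁻¹ * y with hz
    have hne : algebraMap K (LaurentSeries K) (b.ϖ : K) ≠ 0 := (_root_.map_ne_zero _).mpr b.ϖ_coe_ne_zero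
    have hzI : D.ψI z = u := by
      rw [hz, map_mul, map_inv₀, AlgHom.commutes]
      rw [show D.ψI (y : F) = _ from hu, inv_mul_cancel_left₀ hne]
    have hzO : D.ψO z = v := by
      rw [hz, map_mul, map_inv₀, AlgHom.commutes]
      rw [show D.ψO (y : F) = _ from hv, inv_mul_cancel_left₀ hne]
    have hzm : z ∈ b.chart D.x := D.mem_chart_iff.mpr
      ⟨⟨show D.ψI z ∈ b.gaussRing from hzI ▸ u.2, show D.ψO z ∈ b.gaussRing from hzO ▸ v.2⟩, 1,
        by rw [pow_one, hz, mul_inv_cancel_left₀ hϖ]; exact y.2⟩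
    exact ⟨⟨z, hzm⟩, (mul_inv_cancel_left₀ hϖ _).symm⟩
  · rintro ⟨z, hz⟩
    have h1 : y = ⟨b.evalAt D.x (C b.ϖ), b.evalAt_mem_chart D.x _⟩ * z :=
      Subtype.ext (by rw [hz]; simp [Base.evalAt])
    rw [h1, map_mul, D.ρ_const, b.π_ϖ, map_zero, zero_mul]

/-- the image of the chart in `C × C` -/
def fibre : Subalgebra k (D.Cbar × D.Cbar) where
  carrier := Set.range D.ρ
  mul_mem' := by rintro _ _ ⟨a, rfl⟩ ⟨c, rfl⟩; exact ⟨a * c, map_mul _ _ _⟩
  add_mem' := by rintro _ _ ⟨a, rfl⟩ ⟨c, rfl⟩; exact ⟨a + c, map_add _ _ _⟩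
  algebraMap_mem' c := by
    obtain ⟨a, rfl⟩ := b.π_surjective c
    exact ⟨_, D.ρ_const a⟩

theorem mem_fibre {z : D.Cbar × D.Cbar} : z ∈ D.fibre ↔ ∃ y, D.ρ y = z := Iff.rfl

/-- the relative Frobenius on the coordinate ring -/
def FrC : D.Cbar →ₐ[k] D.Cbar := (D.Fr.comp D.Cbar.val).codRestrict D.Cbar fun c => D.Fr_mem c.2

theorem graph_left (c : D.Cbar) : (c, D.FrC c) ∈ D.fibre :=
  ⟨⟨D.yI c, D.yI_mem c⟩, Prod.ext (Subtype.ext (Subtype.ext (D.resI_yI c)))
    (Subtype.ext (Subtype.ext (D.resO_yI c)))⟩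

theorem graph_right (c : D.Cbar) : (D.FrC c, c) ∈ D.fibre :=
  ⟨⟨D.yO c, D.yO_mem c⟩, Prod.ext (Subtype.ext (Subtype.ext (D.resI_yO c)))
    (Subtype.ext (Subtype.ext (D.resO_yO c)))⟩

theorem FrC_pow (c : D.Cbar) : ∃ d : D.Cbar, D.FrC c = d ^ D.q := by
  obtain ⟨d, hd⟩ := D.Fr_pow c
  exact ⟨⟨d, D.root_mem (hd ▸ D.Fr_mem c.2)⟩, Subtype.ext hd⟩

theorem FrC_FrC_ne : ∃ c : D.Cbar, D.FrC (D.FrC c) ≠ c := by
  refine ⟨D.xC, fun h => D.ζ_ne_zero ?_⟩
  have h1 : D.Fr (D.Fr D.xbar) = D.xbar := congrArg Subtype.val h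
  rw [D.Fr_xbar, map_pow, D.Fr_xbar, ← pow_mul] at h1
  rw [ζ, h1, sub_self]

theorem adjoin_noetherian : IsNoetherianRing (Algebra.adjoin k ({D.xbar} : Set D.E)) := by
  refine isNoetherianRing_of_surjective k[X] _
    ((aeval D.xbar).toRingHom.codRestrict (Algebra.adjoin k ({D.xbar} : Set D.E)).toSubring
      (fun _ => D.mem_adjoin_xbar.mpr ⟨_, rfl⟩)) fun r => ?_
  obtain ⟨R, hR⟩ := D.mem_adjoin_xbar.mp r.2
  exact ⟨R, Subtype.ext hR⟩

theorem exists_generators : ∃ T : Finset D.Cbar, ∀ c : D.Cbar, ∃ Q : D.Cbar → k[X],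
    c = ∑ g ∈ T, aeval D.xC (Q g) * g := by
  classical
  have := D.adjoin_noetherian
  obtain ⟨s, hs⟩ := D.finite_intCl
  obtain ⟨T, hT⟩ : (Subalgebra.toSubmodule
      (integralClosure (Algebra.adjoin k ({D.xbar} : Set D.E)) D.E)).FG :=
    Submodule.FG.of_le ⟨s, rfl⟩ fun c hc => hs c (mem_intCl.mpr hc)
  have hTmem : ∀ g ∈ T, g ∈ D.Cbar := fun g hg =>
    mem_intCl.mpr (show g ∈ Subalgebra.toSubmodule
      (integralClosure (Algebra.adjoin k ({D.xbar} : Set D.E)) D.E) from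
        hT ▸ Submodule.subset_span hg)
  refine ⟨T.subtype (· ∈ D.Cbar), fun c => ?_⟩
  have hc : (c : D.E) ∈ Submodule.span (Algebra.adjoin k ({D.xbar} : Set D.E)) (T : Set D.E) := by
    rw [hT]; exact mem_intCl.mp c.2
  obtain ⟨f, -, hf⟩ := Submodule.mem_span_finset.mp hc
  choose R hR using fun g : D.E => D.mem_adjoin_xbar.mp (f g).2
  refine ⟨fun g => R g, Subtype.ext ?_⟩
  have hsum : ((∑ g ∈ T.subtype (· ∈ D.Cbar), aeval D.xC (R (g : D.E)) * g : D.Cbar) : D.E) =
      ∑ g ∈ T.subtype (· ∈ D.Cbar),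
        ((f (g : D.E) : Algebra.adjoin k ({D.xbar} : Set D.E)) : D.E) * (g : D.E) := by
    rw [AddSubmonoidClass.coe_finsetSum]
    refine Finset.sum_congr rfl fun g _ => ?_
    rw [← hR]
    exact congrArg (· * (g : D.E)) (aeval_algHom_apply D.Cbar.val D.xC (R g)).symm
  rw [hsum, Finset.sum_subtype_of_mem
    (fun g : D.E => ((f g : Algebra.adjoin k ({D.xbar} : Set D.E)) : D.E) * g) hTmem]
  exact hf.symm

theorem isIntegralElem_Cbar (c : D.Cbar) :
    (aeval D.xC : k[X] →ₐ[k] D.Cbar).toRingHom.IsIntegralElem c := by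
  obtain ⟨P, hPm, hP⟩ := mem_intCl.mp c.2
  let φ : k[X] →+* Algebra.adjoin k ({D.xbar} : Set D.E) :=
    (aeval D.xbar).toRingHom.codRestrict (Algebra.adjoin k ({D.xbar} : Set D.E)).toSubring
      (fun _ => D.mem_adjoin_xbar.mpr ⟨_, rfl⟩)
  have hφ : Function.Surjective φ := fun r => by
    obtain ⟨R, hR⟩ := D.mem_adjoin_xbar.mp r.2
    exact ⟨R, Subtype.ext hR⟩
  have hPl : P ∈ Polynomial.lifts φ :=
    (Polynomial.lifts_iff_coeff_lifts P).mpr fun n => hφ (P.coeff n)
  obtain ⟨Q, hQ, -, hQm⟩ := Polynomial.lifts_and_natDegree_eq_and_monic hPl hPm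
  refine ⟨Q, hQm, Subtype.ext ?_⟩
  rw [← hQ, eval₂_map] at hP
  refine Eq.trans ?_ (hP.trans (ZeroMemClass.coe_zero D.Cbar).symm)
  refine Eq.trans (hom_eval₂ Q _ D.Cbar.val.toRingHom c) ?_
  refine eval₂_congr ?_ rfl rfl
  exact RingHom.ext fun R => (aeval_algHom_apply D.Cbar.val D.xC R).symm

theorem finite_quotient (I : Ideal D.Cbar) (hI : I ≠ ⊥) : Module.Finite k (D.Cbar ⧸ I) := by
  obtain ⟨T, hT⟩ := D.exists_generators
  exact finite_quotient_of_spans hT D.isIntegralElem_Cbar I hI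

theorem intCl_noetherian : IsNoetherianRing D.Cbar := by
  obtain ⟨T, hT⟩ := D.exists_generators
  exact isNoetherianRing_of_spans hT

/-- the points glued in the special fibre -/
def nodeSet : Set ((D.Cbar →ₐ[k] k) × (D.Cbar →ₐ[k] k)) := nodes D.fibre

/-- **The special fibre is two copies of the level `M` curve glued at finitely many point pairs.** -/
theorem exists_ρ_eq_iff [IsAlgClosed k] (z : D.Cbar × D.Cbar) :
    (∃ y, D.ρ y = z) ↔ ∀ p ∈ D.nodeSet, p.1 z.1 = p.2 z.2 := by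
  have := D.intCl_noetherian
  exact (mem_iff_forall_nodes D.fibre D.FrC D.graph_left D.graph_right D.finite_quotient
    D.FrC_FrC_ne D.two_le_q D.FrC_pow z)

theorem nodeSet_finite [IsAlgClosed k] : D.nodeSet.Finite := by
  have := D.intCl_noetherian
  exact nodes_finite D.fibre D.FrC D.graph_left D.graph_right D.finite_quotient D.FrC_FrC_ne

theorem node_snd_FrC {p : (D.Cbar →ₐ[k] k) × (D.Cbar →ₐ[k] k)} (hp : p ∈ D.nodeSet) (c : D.Cbar) :
    p.2 (D.FrC c) = p.1 c :=
  node_right_twist D.fibre D.FrC D.graph_left D.graph_right hp c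

theorem node_fst_FrC {p : (D.Cbar →ₐ[k] k) × (D.Cbar →ₐ[k] k)} (hp : p ∈ D.nodeSet) (c : D.Cbar) :
    p.1 (D.FrC c) = p.2 c :=
  node_left_twist D.fibre D.FrC D.graph_left D.graph_right hp c

theorem node_eq_of_fst {p p' : (D.Cbar →ₐ[k] k) × (D.Cbar →ₐ[k] k)} (hp : p ∈ D.nodeSet)
    (hp' : p' ∈ D.nodeSet) (h : p.1 = p'.1) : p = p' :=
  node_ext D.fibre D.FrC D.graph_left D.graph_right hp hp' h

theorem node_eq_of_snd {p p' : (D.Cbar →ₐ[k] k) × (D.Cbar →ₐ[k] k)} (hp : p ∈ D.nodeSet)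
    (hp' : p' ∈ D.nodeSet) (h : p.2 = p'.2) : p = p' :=
  node_ext' D.fibre D.FrC D.graph_left D.graph_right hp hp' h

end OneModel

end FLTAgent.BadQ
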