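import Mathlib
import Fermat.Agent.BadQ.TwoInstFinite
import Fermat.Agent.BadQ.TwoInstCharts
import Fermat.Agent.FF.PlacesMain
import Fermat.Agent.TwoChart.Descent

/-!
# The charts at primes not over `q`: valuation rings of places

At such a prime the local ring of a chart is a valuation ring (`valuationRing_loc`) and lies under
a place (`exists_place_prime`); a function regular at such a place is a local fraction
(`exists_mul_eq_of_ord_nonneg`).
-/

set_option autoImplicit false
set_option linter.style.haveILetI false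
set_option linter.unusedSectionVars false

noncomputable section

open Polynomial AlgebraicCurve ModularCurve

namespace FLTAgent.BadQ.TwoInst

section General

theorem eq_of_prime_le_of_polynomial {W K F : Type*} [CommRing W] [IsDomain W] [Field K] [Algebra W K]
    [IsFractionRing W K] [Field F] [Algebra W F] {y : F}
    (P : Ideal (TwoChart.intCl W ({y} : Set F))) [hP : P.IsPrime]
    (hW : ∀ w : W, w ≠ 0 → algebraMap W (TwoChart.intCl W ({y} : Set F)) w ∉ P)
    {P' : Ideal (TwoChart.intCl W ({y} : Set F))} [P'.IsPrime] (hle : P' ≤ P)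
    (h0 : P' ≠ ⊥) : P' = P := by
  let T := TwoChart.intCl W ({y} : Set F)
  let yT : T := ⟨y, TwoChart.subset_intCl _ rfl⟩
  letI : Algebra W[X] T := (aeval yT).toRingHom.toAlgebra
  haveI : Algebra.IsIntegral W[X] T := by
    refine ⟨fun z => ?_⟩
    obtain ⟨p, hp, hp0⟩ := (z.2 : IsIntegral (Algebra.adjoin W ({y} : Set F)) (z : F))
    let g : W[X] →ₐ[W] Algebra.adjoin W ({y} : Set F) := aeval ⟨y, Algebra.subset_adjoin rfl⟩
    have hg : Function.Surjective g := by
      rintro ⟨r, hr⟩
      rw [Algebra.adjoin_singleton_eq_range_aeval] at hr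
      obtain ⟨P₁, rfl⟩ := hr
      refine ⟨P₁, Subtype.ext ?_⟩
      exact (aeval_algHom_apply (Algebra.adjoin W ({y} : Set F)).val _ P₁).symm
    obtain ⟨P₁, hP1, -, hmon⟩ := lifts_and_degree_eq_and_monic (f := g.toRingHom)
      ((mem_lifts p).2 (map_surjective _ hg p)) hp
    refine ⟨P₁, hmon, Subtype.val_injective ?_⟩
    refine (hom_eval₂ P₁ _ T.val.toRingHom z).trans
      (Eq.trans ?_ (hp0.trans (ZeroMemClass.coe_zero T).symm))
    rw [← hP1, eval₂_map]
    refine congrArg (fun f => eval₂ f (z : F) P₁) (Polynomial.ringHom_ext (fun w => ?_) ?_)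
    · show ((aeval yT (C w) : T) : F) = ((g (C w) : _) : F)
      rw [aeval_C, aeval_C]
      rfl
    · show ((aeval yT X : T) : F) = ((g X : _) : F)
      rw [aeval_X, aeval_X]
  set p := P.comap (algebraMap W[X] T)
  set p' := P'.comap (algebraMap W[X] T)
  have hp'0 : p' ≠ ⊥ := fun h => h0 (Ideal.eq_bot_of_comap_eq_bot h)
  have hpeq : p' = p := by
    letI : Algebra W[X] K[X] := Polynomial.algebra W K
    haveI : IsLocalization ((nonZeroDivisors W).map (C : W →+* W[X])) K[X] :=
      Polynomial.isLocalization (nonZeroDivisors W) K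
    set S := (nonZeroDivisors W).map (C : W →+* W[X])
    have hd : ∀ I : Ideal W[X], I ≤ p → Disjoint (S : Set W[X]) I := by
      intro I hI
      rw [Set.disjoint_left]
      rintro _ ⟨w, hw, rfl⟩ hwI
      refine hW w (nonZeroDivisors.ne_zero hw) ?_
      have := hI hwI
      rwa [Ideal.mem_comap, RingHom.algebraMap_toAlgebra, AlgHom.toRingHom_eq_coe, RingHom.coe_coe,
        aeval_C] at this
    have hle' : p' ≤ p := Ideal.comap_mono hle
    set m' := p'.map (algebraMap W[X] K[X])
    haveI hm' : m'.IsPrime :=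
      IsLocalization.isPrime_of_isPrime_disjoint S _ p' inferInstance (hd _ hle')
    haveI hm : (p.map (algebraMap W[X] K[X])).IsPrime :=
      IsLocalization.isPrime_of_isPrime_disjoint S _ p inferInstance (hd _ le_rfl)
    have h1 := IsLocalization.under_map_of_isPrime_disjoint S K[X] (I := p') inferInstance (hd _ hle')
    have h2 := IsLocalization.under_map_of_isPrime_disjoint S K[X] (I := p) inferInstance (hd _ le_rfl)
    have hm'0 : m' ≠ ⊥ := by
      intro h
      refine hp'0 (eq_bot_iff.2 fun x hx => ?_)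
      have hx' : algebraMap W[X] K[X] x ∈ m' := Ideal.mem_map_of_mem _ hx
      rw [h, Ideal.mem_bot, RingHom.algebraMap_toAlgebra] at hx'
      exact Ideal.mem_bot.2 (map_injective _ (IsFractionRing.injective W K)
        (hx'.trans (Polynomial.map_zero _).symm))
    have hmax : m'.IsMaximal := hm'.isMaximal hm'0
    rw [← h1, ← h2]
    exact congrArg (fun I : Ideal K[X] => I.under W[X]) (hmax.eq_of_le hm.ne_top (Ideal.map_mono hle'))
  by_contra hne
  obtain ⟨x, hxP, hxP'⟩ := SetLike.exists_of_lt (lt_of_le_of_ne hle hne)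
  exact (Ideal.comap_lt_comap_of_integral_mem_sdiff hle ⟨hxP, hxP'⟩
    (Algebra.IsIntegral.isIntegral (R := W[X]) x)).ne hpeq

variable {T : Type*} [CommRing T] [IsDomain T]

theorem valuationRing_loc_of_height [IsNoetherianRing T] [IsIntegrallyClosed T] (P : Ideal T)
    [hP : P.IsPrime] (h0 : P ≠ ⊥)
    (huniq : ∀ P' : Ideal T, P'.IsPrime → P' ≤ P → P' ≠ ⊥ → P' = P) :
    ValuationRing (Localization.AtPrime P) := by
  set L := Localization.AtPrime P
  haveI : IsNoetherianRing L := IsLocalization.isNoetherianRing P.primeCompl L inferInstance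
  haveI : IsIntegrallyClosed L :=
    isIntegrallyClosed_of_isLocalization L P.primeCompl P.primeCompl_le_nonZeroDivisors
  have hcomap : (IsLocalRing.maximalIdeal L).under _ = P :=
    IsLocalization.AtPrime.under_maximalIdeal L P
  have hm0 : IsLocalRing.maximalIdeal L ≠ ⊥ := fun h => by
    rw [h] at hcomap
    refine h0 (hcomap.symm.trans ?_)
    exact Ideal.comap_bot_of_injective _
      (IsLocalization.injective L P.primeCompl_le_nonZeroDivisors)
  have hfield : ¬ IsField L := fun h => hm0 (IsLocalRing.isField_iff_maximalIdeal_eq.1 h)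
  have hiff : ValuationRing L ↔ (IsIntegrallyClosed L ∧ ∃! P : Ideal L, P ≠ ⊥ ∧ P.IsPrime) :=
    (IsDiscreteValuationRing.TFAE L hfield).out 1 3
  refine hiff.2 ⟨inferInstance, IsLocalRing.maximalIdeal L, ⟨hm0, inferInstance⟩, ?_⟩
  rintro Q ⟨hQ0, hQ⟩
  have hle : Q.under _ ≤ P :=
    le_of_le_of_eq (Ideal.comap_mono (IsLocalRing.le_maximalIdeal hQ.ne_top)) hcomap
  have h1 : Q.under _ = P :=
    huniq _ ((IsLocalization.isPrime_iff_isPrime_disjoint P.primeCompl L Q).1 hQ).1 hle
      fun h => hQ0 (by rw [← IsLocalization.map_under P.primeCompl L Q, h, Ideal.map_bot])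
  rw [← IsLocalization.map_under P.primeCompl L Q, h1,
    ← IsLocalization.map_under P.primeCompl L (IsLocalRing.maximalIdeal L), hcomap]

variable {F E K : Type*} [Field F] [Algebra T F] [IsFractionRing T F] [Field E] [Field K]
  [Algebra K E]

/-- A function regular at a place over a prime with valuation local ring is in the local ring. -/
theorem exists_mul_eq_of_valuationRing (P : Ideal T) [hP : P.IsPrime]
    [ValuationRing (Localization.AtPrime P)] (ι : F →+* E) (v : Place K E)
    (hv : ∀ z : T, z ≠ 0 → (z ∈ P ↔ 0 < v.ord (ι (algebraMap T F z))) ∧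
      0 ≤ v.ord (ι (algebraMap T F z)))
    {x : F} (hx : x ≠ 0) (hord : 0 ≤ v.ord (ι x)) :
    ∃ s ∉ P, ∃ z : T, algebraMap T F s * x = algebraMap T F z := by
  obtain ⟨a, b, hb, rfl⟩ := IsFractionRing.div_surjective T x
  have hb0 : algebraMap T F b ≠ 0 := fun h =>
    nonZeroDivisors.ne_zero hb (IsFractionRing.injective T F (h.trans (map_zero _).symm))
  have hdiv : ∀ a b : T, algebraMap _ (Localization.AtPrime P) b ∣
      algebraMap _ (Localization.AtPrime P) a → ∃ s ∉ P, ∃ c, s * a = b * c := by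
    rintro a b ⟨c, hc⟩
    obtain ⟨c₀, s, rfl⟩ := IsLocalization.exists_mk'_eq P.primeCompl c
    refine ⟨s, s.2, c₀, IsLocalization.injective (Localization.AtPrime P)
      P.primeCompl_le_nonZeroDivisors ?_⟩
    rw [map_mul, map_mul, hc, ← IsLocalization.mk'_spec (Localization.AtPrime P) c₀ s]
    ring
  rcases ValuationRing.dvd_total (algebraMap _ (Localization.AtPrime P) b)
    (algebraMap _ (Localization.AtPrime P) a) with hd | hd
  · obtain ⟨s, hs, c, hc⟩ := hdiv a b hd
    refine ⟨s, hs, c, ?_⟩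
    rw [mul_div_assoc', div_eq_iff hb0, ← map_mul, ← map_mul, mul_comm c, hc]
  · obtain ⟨s, hs, c, hc⟩ := hdiv b a hd
    have hcx : algebraMap T F c * (algebraMap T F a / algebraMap T F b) = algebraMap T F s := by
      rw [mul_div_assoc', div_eq_iff hb0, ← map_mul, ← map_mul, hc, mul_comm]
    refine ⟨c, fun hcP => ?_, s, hcx⟩
    have hs0 : s ≠ 0 := fun h => hs (h ▸ P.zero_mem)
    have hc0 : algebraMap T F c ≠ 0 := fun h => hs0 (IsFractionRing.injective T F
      (by rw [← hcx, h, zero_mul, map_zero]))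
    have h1 : v.ord (ι (algebraMap T F s)) ≤ 0 := by
      by_contra hlt
      exact hs ((hv s hs0).1.2 (not_le.1 hlt))
    have h2 : 0 < v.ord (ι (algebraMap T F c)) :=
      (hv c fun h => hc0 (by rw [h, map_zero])).1.1 hcP
    rw [← hcx, map_mul, v.ord_mul ((_root_.map_ne_zero ι).2 hc0) ((_root_.map_ne_zero ι).2 hx)] at h1
    omega

/-- A valuation ring at a prime. -/
theorem exists_valuationSubring_prime (j : T →+* E) (hj : Function.Injective j) (P : Ideal T)
    [hP : P.IsPrime] :
    ∃ B : ValuationSubring E, (∀ z, j z ∈ B) ∧ (∀ z ∈ P, B.valuation (j z) < 1) ∧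
      ∀ z ∉ P, (j z)⁻¹ ∈ B := by
  set L := Localization.AtPrime P
  haveI : IsLocalization P.primeCompl L := Localization.isLocalization
  have hju : ∀ s : P.primeCompl, IsUnit (j s) := fun s => IsUnit.mk0 _ fun h =>
    s.2 (by rw [hj (h.trans (map_zero j).symm)]; exact P.zero_mem)
  set φ : L →+* E := IsLocalization.lift hju
  have hφ : Function.Injective φ := (IsLocalization.lift_injective_iff hju).2 fun a b =>
    ⟨fun h => congrArg j (IsLocalization.injective L P.primeCompl_le_nonZeroDivisors h),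
      fun h => congrArg _ (hj h)⟩
  set I : Ideal φ.range := (IsLocalRing.maximalIdeal L).map φ.rangeRestrict
  have hI : I ≠ ⊤ := fun h => by
    have h1 := Ideal.comap_map_of_surjective φ.rangeRestrict φ.rangeRestrict_surjective
      (IsLocalRing.maximalIdeal L)
    rw [show Ideal.map φ.rangeRestrict (IsLocalRing.maximalIdeal L) = ⊤ from h, Ideal.comap_top,
      Ideal.comap_bot_of_injective _ (fun a b hab => hφ (congrArg Subtype.val hab)), sup_bot_eq] at h1
    exact (IsLocalRing.maximalIdeal.isMaximal L).ne_top h1.symm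
  obtain ⟨B, hB, hBI⟩ := Ideal.image_subset_nonunits_valuationSubring I hI
  have hL : ∀ l : L, φ l ∈ B := fun l => hB ⟨l, rfl⟩
  refine ⟨B, fun z => IsLocalization.lift_eq (M := P.primeCompl) (S := L) hju z ▸ hL _, fun z hz => ?_, fun z hz => ?_⟩
  · refine (ValuationSubring.mem_nonunits_iff B).1 (hBI ⟨φ.rangeRestrict (algebraMap T L z),
      Ideal.mem_map_of_mem _ ((IsLocalization.AtPrime.to_map_mem_maximal_iff L P z).2 hz), ?_⟩)
    exact IsLocalization.lift_eq (M := P.primeCompl) (S := L) hju z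
  · have h1 : φ (IsLocalization.mk' L 1 (⟨z, hz⟩ : P.primeCompl)) = (j z)⁻¹ := by
      refine eq_inv_of_mul_eq_one_left ?_
      rw [← IsLocalization.lift_eq (M := P.primeCompl) (S := L) hju z, ← map_mul,
        IsLocalization.mk'_spec (M := P.primeCompl) L 1 ⟨z, hz⟩, map_one, map_one]
    exact h1 ▸ hL _

/-- The place of a valuation ring with integral constants. -/
theorem exists_place_of_valuationSubring [IsAlgClosed K] [FF.IsFF K E] {k : Type*} [Field k]
    [Algebra k K] [Algebra.IsIntegral k K] (B : ValuationSubring E)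
    (hk : ∀ a : k, algebraMap K E (algebraMap k K a) ∈ B) {x : E} (hx : x ≠ 0)
    (hxB : B.valuation x < 1) :
    ∃ v : Place K E, v.toValuationSubring = B := by
  refine FF.exists_place_eq B (fun c => ?_) fun h => ?_
  · obtain ⟨p, hp, hp0⟩ := Algebra.IsIntegral.isIntegral (R := k) c
    refine (IsIntegrallyClosed.algebraMap_eq_of_integral (R := B) (x := algebraMap K E c) ⟨p.map
      (((algebraMap K E).comp (algebraMap k K)).codRestrict B.toSubring hk), hp.map _, ?_⟩).elim
      fun b hb => hb ▸ b.2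
    rw [eval₂_map]
    refine Eq.trans ?_ ((congrArg (algebraMap K E) hp0).trans (map_zero _))
    rw [hom_eval₂]
    rfl
  · have h2 : x⁻¹ ∈ B := h ▸ ValuationSubring.mem_top _
    rw [← ValuationSubring.valuation_le_one_iff, map_inv₀,
      inv_le_one₀ (pos_of_ne_zero ((B.valuation).ne_zero_iff.2 hx))] at h2
    exact absurd hxB (not_lt.2 h2)

theorem ord_of_valuationSubring {B : ValuationSubring E} {v : Place K E}
    (hv : v.toValuationSubring = B) {x : E} (hx : x ≠ 0) (hxB : x ∈ B) :
    0 ≤ v.ord x ∧ (B.valuation x < 1 → 0 < v.ord x) ∧ (x⁻¹ ∈ B → v.ord x = 0) := by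
  subst hv
  have hnn : 0 ≤ v.ord x := (FF.mem_iff_ord_nonneg v hx).1 hxB
  refine ⟨hnn, fun h => lt_of_le_of_ne hnn fun he => ?_, fun h => ?_⟩
  · have h1 : x⁻¹ ∈ v.toValuationSubring :=
      (FF.mem_iff_ord_nonneg v (inv_ne_zero hx)).2 (by rw [v.ord_inv, ← he, neg_zero])
    rw [← ValuationSubring.valuation_le_one_iff, map_inv₀,
      inv_le_one₀ (pos_of_ne_zero ((v.toValuationSubring.valuation).ne_zero_iff.2 hx))] at h1
    exact absurd h (not_lt.2 h1)
  · have h1 := (FF.mem_iff_ord_nonneg v (inv_ne_zero hx)).1 h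
    rw [v.ord_inv] at h1
    omega

end General

local notation "Qb" => AlgebraicClosure ℚ

variable {A : ValuationSubring Qb} {q : ℕ} [Fact q.Prime] (hA : A.LiesOverPrime q)

include hA in
theorem exists_pow_mul_mem_W0 (k : K0 A) : ∃ n : ℕ, (q : K0 A) ^ n * k ∈ W0 A := by
  haveI := isDiscreteValuationRing_W0 hA
  obtain ⟨a, b, hb, rfl⟩ := IsFractionRing.div_surjective (W0 A) k
  have hb0 : b ≠ 0 := nonZeroDivisors.ne_zero hb
  obtain ⟨n, u, hu⟩ := IsDiscreteValuationRing.eq_unit_mul_pow_irreducible hb0 (qW_irreducible hA)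
  have hb' : (b : K0 A) ≠ 0 := fun h => hb0 (Subtype.ext h)
  have h1 : ((u : W0 A) : K0 A) * (((u⁻¹ : (W0 A)ˣ) : W0 A) : K0 A) = 1 :=
    congrArg (fun w : W0 A => (w : K0 A)) u.mul_inv
  have h2 : (b : K0 A) = ((u : W0 A) : K0 A) * (q : K0 A) ^ n := by
    rw [hu]; push_cast; rfl
  refine ⟨n, ?_⟩
  have h3 : (q : K0 A) ^ n * ((algebraMap (W0 A) (K0 A) a) / (algebraMap (W0 A) (K0 A) b)) =
      ((a * (u⁻¹ : (W0 A)ˣ) : W0 A) : K0 A) := by
    show (q : K0 A) ^ n * ((a : K0 A) / (b : K0 A)) = _
    push_cast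
    rw [mul_div_assoc', div_eq_iff hb', h2]
    linear_combination (-(q : K0 A) ^ n * (a : K0 A)) * h1
  rw [h3]
  exact SetLike.coe_mem _

variable {N : ℕ} [NeZero N] {y : Fn A N} (hy : Transcendental (K0 A) y)
  (P : Ideal (TwoChart.intCl (W0 A) ({y} : Set (Fn A N)))) [hP : P.IsPrime]

include hA in
theorem algebraMap_W0_notMem (hq : (q : TwoChart.intCl (W0 A) ({y} : Set (Fn A N))) ∉ P) {w : W0 A}
    (hw : w ≠ 0) : algebraMap (W0 A) (TwoChart.intCl (W0 A) ({y} : Set (Fn A N))) w ∉ P := by
  haveI := isDiscreteValuationRing_W0 hA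
  obtain ⟨n, u, rfl⟩ := IsDiscreteValuationRing.eq_unit_mul_pow_irreducible hw (qW_irreducible hA)
  intro h
  rw [map_mul, map_pow] at h
  rcases hP.mem_or_mem h with h | h
  · exact hP.ne_top (Ideal.eq_top_of_isUnit_mem _ h (u.isUnit.map _))
  · exact hq (by simpa [qW] using hP.mem_of_pow_mem n h)

include hA hy in
theorem valuationRing_loc (hq : (q : TwoChart.intCl (W0 A) ({y} : Set (Fn A N))) ∉ P)
    (h0 : P ≠ ⊥) : ValuationRing (Localization.AtPrime P) := by
  haveI := isNoetherianRing_chart hA hy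
  haveI := isIntegrallyClosed_chart hA hy
  refine valuationRing_loc_of_height P h0 fun P' hP' hle h => ?_
  exact eq_of_prime_le_of_polynomial (K := K0 A) P (fun w hw => algebraMap_W0_notMem hA P hq hw) hle h

/-- `v` lies over the prime `P`. -/
def OverPrime (v : Place Qb (modularFunctionFieldBar N)) : Prop :=
  ∀ z : TwoChart.intCl (W0 A) ({y} : Set (Fn A N)), z ≠ 0 →
    (z ∈ P ↔ 0 < v.ord ((z : Fn A N) : modularFunctionFieldBar N)) ∧
      0 ≤ v.ord ((z : Fn A N) : modularFunctionFieldBar N)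

include hA hy in
/-- A function regular at a place over a prime is in the local ring. -/
theorem exists_mul_eq_of_ord_nonneg (hq : (q : TwoChart.intCl (W0 A) ({y} : Set (Fn A N))) ∉ P)
    (h0 : P ≠ ⊥) {v : Place Qb (modularFunctionFieldBar N)} (hv : OverPrime P v)
    {x : Fn A N} (hx : x ≠ 0) (hord : 0 ≤ v.ord (x : modularFunctionFieldBar N)) :
    ∃ s ∉ P, ∃ z : TwoChart.intCl (W0 A) ({y} : Set (Fn A N)), (s : Fn A N) * x = z := by
  haveI := valuationRing_loc hA hy P hq h0
  haveI := isFractionRing_chart hA hy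
  exact exists_mul_eq_of_valuationRing P (Fn A N).val.toRingHom v hv hx hord

include hA hy in
/-- A place over a prime not over `q`. -/
theorem exists_place_prime (hq : (q : TwoChart.intCl (W0 A) ({y} : Set (Fn A N))) ∉ P)
    (h0 : P ≠ ⊥) : ∃ v : Place Qb (modularFunctionFieldBar N), OverPrime P v := by
  let T := TwoChart.intCl (W0 A) ({y} : Set (Fn A N))
  let j : T →+* modularFunctionFieldBar N := (Fn A N).val.toRingHom.comp T.val.toRingHom
  have hj : Function.Injective j := Subtype.val_injective.comp Subtype.val_injective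
  obtain ⟨B, hT, hPB, hinv⟩ := exists_valuationSubring_prime j hj P
  haveI : Algebra.IsIntegral (K0 A) Qb := ⟨TwoChart.isIntegral_fixedK (I := inert A)⟩
  have hK0 : ∀ k : K0 A,
      algebraMap Qb (modularFunctionFieldBar N) (algebraMap (K0 A) Qb k) ∈ B := by
    intro k
    obtain ⟨n, hn⟩ := exists_pow_mul_mem_W0 hA k
    have hW : j (algebraMap (W0 A) T ⟨_, hn⟩) =
        algebraMap (K0 A) (modularFunctionFieldBar N) ((q : K0 A) ^ n * k) := rfl
    have hq0 : (q : modularFunctionFieldBar N) ≠ 0 := fun h => by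
      have h1 : algebraMap Qb (modularFunctionFieldBar N) (q : Qb) = 0 := by rw [map_natCast, h]
      exact (Fact.out : q.Prime).ne_zero (by exact_mod_cast (_root_.map_eq_zero _).1 h1)
    have h1 : algebraMap Qb (modularFunctionFieldBar N) (algebraMap (K0 A) Qb k) =
        j (algebraMap (W0 A) T ⟨_, hn⟩) * ((j ((q : T) ^ n))⁻¹) := by
      rw [hW, map_pow, map_natCast, map_mul, map_pow, map_natCast, mul_right_comm,
        mul_inv_cancel₀ (pow_ne_zero _ hq0), one_mul, ← IsScalarTower.algebraMap_apply]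
    rw [h1]
    exact mul_mem (hT _) (hinv _ fun h => hq (hP.mem_of_pow_mem n h))
  obtain ⟨z₀, hz₀, hz₀0⟩ := Submodule.exists_mem_ne_zero_of_ne_bot h0
  obtain ⟨v, hv⟩ := exists_place_of_valuationSubring B hK0
    (fun h => hz₀0 (hj (h.trans (map_zero j).symm))) (hPB z₀ hz₀)
  refine ⟨v, fun z hz => ?_⟩
  have hjz : j z ≠ 0 := fun h => hz (hj (h.trans (map_zero j).symm))
  obtain ⟨h1, h2, h3⟩ := ord_of_valuationSubring hv hjz (hT z)
  refine ⟨⟨fun hzP => h2 (hPB z hzP), fun h => ?_⟩, h1⟩
  by_contra hzP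
  exact h.ne' (h3 (hinv z hzP))

end FLTAgent.BadQ.TwoInst
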