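import Mathlib
import Fermat.Agent.BadQ.TwoInstCharts
import Fermat.Agent.BadQ.TwoInstFinite
import Fermat.Agent.BadQ.TwoInstPole
import Fermat.Agent.BadQ.TwoInstGlobal
import Fermat.Agent.BadQ.TwoDefs
import Fermat.Agent.ModularCosets.Corollaries

/-!
# The step from level `qM` to level `q²M`

The maps `lamChart` (`g(z) ↦ g(z)`) and `rhoChart` (`g(z) ↦ g(qz)`) of charts are injective and
finite, the first is not surjective, and their images generate the function field of level `q²M`
(`generates_chart`, through the `j(dz)`). `mkTower` packages this as a `TowerData`.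
-/

set_option autoImplicit false
set_option linter.style.haveILetI false
set_option linter.unusedSectionVars false
set_option synthInstance.maxHeartbeats 400000
set_option maxHeartbeats 1000000

noncomputable section

open ModularCurve IntermediateField Polynomial

namespace FLTAgent.BadQ.TwoInst

open FLTAgent.Reduction FLTAgent.ModularCosets

local notation "Qb" => AlgebraicClosure ℚ

section Series

variable {k : Type*} [Field k]

theorem coeff_eq_zero_of_eq_qExpand_qExpand {q : ℕ} [NeZero q] (hq : 1 < q) {x : LaurentSeries k}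
    (h : x = qExpand k q (qExpand k q x)) :
    ∀ (n : ℕ) (i : ℤ), i.natAbs = n → i ≠ 0 → x.coeff i = 0 := by
  intro n
  induction n using Nat.strong_induction_on with
  | _ n ih =>
    intro i hi hi0
    rw [h, ← qScale_eq]
    by_cases hd : (q : ℤ) ∣ i
    · obtain ⟨j, rfl⟩ := hd
      rw [qScale_coeff_mul (NeZero.ne q)]
      by_cases hd' : (q : ℤ) ∣ j
      · obtain ⟨l, rfl⟩ := hd'
        rw [qScale_coeff_mul (NeZero.ne q)]
        have hl : l ≠ 0 := fun h0 => hi0 (by rw [h0, mul_zero, mul_zero])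
        refine ih _ ?_ l rfl hl
        rw [← hi, Int.natAbs_mul, Int.natAbs_mul, Int.natAbs_natCast, ← mul_assoc]
        have hpos : 0 < l.natAbs := Int.natAbs_pos.2 hl
        have hqq : 1 < q * q := by nlinarith
        nlinarith
      · exact qScale_coeff_of_not_dvd (NeZero.ne q) _ hd'
    · exact qScale_coeff_of_not_dvd (NeZero.ne q) _ hd

theorem eq_C_of_eq_qExpand_qExpand {q : ℕ} [NeZero q] (hq : 1 < q) {x : LaurentSeries k}
    (h : x = qExpand k q (qExpand k q x)) : x = HahnSeries.C (x.coeff 0) := by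
  refine HahnSeries.ext (funext fun i => ?_)
  rw [HahnSeries.C_apply, HahnSeries.coeff_single]
  rcases eq_or_ne i 0 with rfl | hi
  · rw [if_pos rfl]
  · rw [if_neg hi]
    exact coeff_eq_zero_of_eq_qExpand_qExpand hq h _ i rfl hi

theorem finrank_congr_gen {K Ω : Type*} [Field K] [Field Ω] [Algebra K Ω]
    {F F' : IntermediateField K Ω} (h : F = F') {x : F} {x' : F'} (hx : (x : Ω) = (x' : Ω)) :
    Module.finrank K⟮x⟯ F = Module.finrank K⟮x'⟯ F' := by
  subst h
  obtain rfl : x = x' := Subtype.ext hx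
  rfl

theorem mem_span_of_adjoin_eq_top {k E : Type*} [Field k] [Field E] [Algebra k E]
    [Algebra.IsAlgebraic k E] (G : Submonoid E)
    (h : IntermediateField.adjoin k (G : Set E) = ⊤) (z : E) :
    z ∈ Submodule.span k (G : Set E) := by
  have hz : z ∈ IntermediateField.adjoin k (G : Set E) := h ▸ IntermediateField.mem_top
  rwa [← IntermediateField.mem_toSubalgebra, IntermediateField.adjoin_toSubalgebra_of_isAlgebraic
      (fun w _ => Algebra.IsAlgebraic.isAlgebraic w), ← Subalgebra.mem_toSubmodule,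
      Algebra.adjoin_eq_span, Submonoid.closure_eq] at hz

theorem map_mem_span {K k F E ι : Type*} [Field K] [Field k] [Field F] [Field E] [Algebra K F]
    [Algebra k E] (f : F →+* E) (g : K →+* k)
    (hK : ∀ c : K, f (algebraMap K F c) = algebraMap k E (g c)) (v : ι → F) {z : F}
    (hz : z ∈ Submodule.span K (Set.range v)) : f z ∈ Submodule.span k (Set.range (f ∘ v)) := by
  induction hz using Submodule.span_induction with
  | mem w hw => obtain ⟨i, rfl⟩ := hw; exact Submodule.subset_span ⟨i, rfl⟩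
  | zero => rw [map_zero]; exact zero_mem _
  | add v w _ _ hv hw => rw [map_add]; exact add_mem hv hw
  | smul c w _ hw =>
    rw [Algebra.smul_def, map_mul, hK, ← Algebra.smul_def]
    exact Submodule.smul_mem _ _ hw

theorem not_linearIndependent_option {K k F E ι : Type*} [Field K] [Field k] [Field F] [Field E]
    [Algebra K F] [Algebra k E] [Algebra.IsAlgebraic k E] (f : F →+* E) (g : K →+* k)
    (hK : ∀ c : K, f (algebraMap K F c) = algebraMap k E (g c)) (v : ι → F) (S : Submonoid F)
    (hS : ∀ z ∈ S, z ∈ Submodule.span K (Set.range v))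
    (htop : IntermediateField.adjoin k (f '' (S : Set F)) = ⊤) (x : F) :
    ¬ LinearIndependent k (fun o : Option ι => f (Option.casesOn' o x v)) := by
  intro h
  refine (linearIndependent_option.1 h).2 ?_
  refine Submodule.span_le.2 ?_
    (mem_span_of_adjoin_eq_top (S.map f.toMonoidHom) htop _)
  rintro _ ⟨z, hz, rfl⟩
  exact map_mem_span f g hK v (hS z hz)

end Series

section IntCl

variable {W : Type*} [CommRing W] {F : Type*} [Field F] [Algebra W F] {s : Set F}

theorem isIntegralElem_of_mem_intCl {R : Type*} [CommRing R] (f : R →+* F)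
    (hf : ∀ c ∈ Algebra.adjoin W s, ∃ r, f r = c) {x : F} (hx : x ∈ TwoChart.intCl W s) :
    f.IsIntegralElem x := by
  obtain ⟨p, hp, hp0⟩ := hx
  have hlift : p.map (algebraMap (Algebra.adjoin W s) F) ∈ Polynomial.lifts f := by
    rw [Polynomial.lifts_iff_coeff_lifts]
    intro i
    rw [Polynomial.coeff_map]
    exact hf _ (p.coeff i).2
  obtain ⟨r, hr, -, hrm⟩ := Polynomial.lifts_and_degree_eq_and_monic hlift (hp.map _)
  refine ⟨r, hrm, ?_⟩
  rw [← Polynomial.eval_map, hr, Polynomial.eval_map]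
  exact hp0

theorem mem_range_of_mem_adjoin {R : Type*} [CommRing R] [Algebra W R] (f : R →ₐ[W] F)
    (hs : ∀ z ∈ s, ∃ r, f r = z) (c : F) (hc : c ∈ Algebra.adjoin W s) : ∃ r, f r = c :=
  (Algebra.adjoin_le (S := f.range) (fun z hz => hs z hz) hc : c ∈ f.range)

end IntCl

variable {A : ValuationSubring Qb} {q : ℕ} [hq : Fact q.Prime] (M : ℕ) [NeZero M] (b : Bool)

/-- `t` at level `qM`. -/
abbrev t1 (A : ValuationSubring Qb) (q M : ℕ) [Fact q.Prime] [NeZero M] (b : Bool) :
    Fn A (q * M) :=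
  incl (dvd_qM q M) (coord A M b)

/-- `t (q z)` at level `qM`. -/
abbrev t1' (A : ValuationSubring Qb) (q M : ℕ) [Fact q.Prime] [NeZero M] (b : Bool) :
    Fn A (q * M) :=
  scale q (mul_q_dvd q M) (coord A M b)

theorem incl_scale_eq (y : Fn A M) :
    incl (dvd_qqM q M) (scale q (mul_q_dvd q M) y) =
      scale q (mul_q_dvd_qq q M) (incl (dvd_qM q M) y) :=
  valFn_injective (by rw [valFn_incl, valFn_scale, valFn_scale, valFn_incl])

/-- `g (z) ↦ g (z)` on the charts of levels `qM`, `q²M`. -/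
def lamChart : chart1 A q M b →ₐ[W0 A] chart2 A q M b :=
  AlgHom.codRestrict (((incl (dvd_qqM q M)).restrictScalars (W0 A)).comp (chart1 A q M b).val)
    (chart2 A q M b) fun y =>
      map_mem_intCl (incl (dvd_qqM q M)) (TwoChart.subset_intCl _ (Set.mem_singleton _)) y.2

theorem coe_lamChart (y : chart1 A q M b) :
    ((lamChart M b y : chart2 A q M b) : Fn A (q ^ 2 * M)) =
      incl (dvd_qqM q M) (y : Fn A (q * M)) := rfl

theorem scale_t1_mem (hs : t1' A q M b ∈ chart1 A q M b) :
    scale q (mul_q_dvd_qq q M) (t1 A q M b) ∈ chart2 A q M b := by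
  rw [← incl_scale_eq]
  exact map_mem_intCl (incl (dvd_qqM q M)) (TwoChart.subset_intCl _ (Set.mem_singleton _)) hs

/-- `g (z) ↦ g (q z)` on the charts of levels `qM`, `q²M`. -/
def rhoChart (hs : t1' A q M b ∈ chart1 A q M b) : chart1 A q M b →ₐ[W0 A] chart2 A q M b :=
  AlgHom.codRestrict
    (((scale q (mul_q_dvd_qq q M)).restrictScalars (W0 A)).comp (chart1 A q M b).val)
    (chart2 A q M b) fun y => map_mem_intCl (scale q (mul_q_dvd_qq q M)) (scale_t1_mem M b hs) y.2

theorem coe_rhoChart (hs : t1' A q M b ∈ chart1 A q M b) (y : chart1 A q M b) :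
    ((rhoChart M b hs y : chart2 A q M b) : Fn A (q ^ 2 * M)) =
      scale q (mul_q_dvd_qq q M) (y : Fn A (q * M)) := rfl

theorem lamChart_injective : Function.Injective (lamChart (A := A) (q := q) M b) := fun x y h => by
  have h' := congrArg (fun z : chart2 A q M b => (z : Fn A (q ^ 2 * M))) h
  simp only [coe_lamChart] at h'
  exact Subtype.ext ((incl (dvd_qqM q M)).injective h')

theorem rhoChart_injective (hs : t1' A q M b ∈ chart1 A q M b) :
    Function.Injective (rhoChart M b hs) := fun x y h => by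
  have h' := congrArg (fun z : chart2 A q M b => (z : Fn A (q ^ 2 * M))) h
  simp only [coe_rhoChart] at h'
  exact Subtype.ext ((scale q (mul_q_dvd_qq q M)).injective h')

variable (hA : A.LiesOverPrime q) (hM : 2 ≤ M)

include hM in
theorem transcendental_t2 :
    Transcendental (K0 A) (incl (dvd_qqM q M) (incl (dvd_qM q M) (coord A M b))) := fun h =>
  transcendental_incl_coord A hM b (dvd_qM q M)
    ((isAlgebraic_algHom_iff (incl (dvd_qqM q M)) (incl (dvd_qqM q M)).injective).1 h)

include hA hM in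
theorem isFractionRing_chart2' : IsFractionRing (chart2 A q M b) (Fn A (q ^ 2 * M)) :=
  isFractionRing_chart hA (transcendental_t2 M b hM)

include hA hM in
theorem finite_of_isIntegral {f : chart1 A q M b →ₐ[W0 A] chart2 A q M b}
    (hf : ∀ x ∈ chart2 A q M b,
      (((chart2 A q M b).val.comp f).toRingHom).IsIntegralElem x) :
    f.toRingHom.Finite := by
  refine RingHom.IsIntegral.to_finite (fun x => ?_) ?_
  · obtain ⟨p, hp, hp0⟩ := hf x.1 x.2
    refine ⟨p, hp, ?_⟩
    apply Subtype.val_injective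
    exact (Polynomial.hom_eval₂ p _ (chart2 A q M b).val.toRingHom x).trans hp0
  · haveI := finiteType_chart hA (transcendental_t2 (q := q) M b hM)
    refine RingHom.FiniteType.of_comp_finiteType (f := algebraMap (W0 A) (chart1 A q M b)) ?_
    erw [AlgHom.comp_algebraMap f]
    exact RingHom.finiteType_algebraMap.2 inferInstance

include hA hM in
theorem lamChart_finite : (lamChart (A := A) (q := q) M b).toRingHom.Finite := by
  refine finite_of_isIntegral M b hA hM fun x hx => isIntegralElem_of_mem_intCl _ (fun c hc => ?_) hx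
  refine mem_range_of_mem_adjoin ((chart2 A q M b).val.comp (lamChart M b)) ?_ c hc
  intro z hz
  exact ⟨⟨t1 A q M b, TwoChart.subset_intCl _ (Set.mem_singleton _)⟩, (Set.mem_singleton_iff.1 hz).symm⟩

/-- The involution over `K₀`. -/
def wALK (hqM : ¬ q ∣ M) : Fn A (q * M) →ₐ[K0 A] Fn A (q * M) :=
  { wAL M hqM with commutes' := wAL_algebraMap M hqM }

variable (hqM : ¬ q ∣ M)

include hqM in
theorem t2_mem_intCl_scale (hs : t1' A q M b ∈ chart1 A q M b) :
    incl (dvd_qqM q M) (t1 A q M b) ∈ TwoChart.intCl (W0 A)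
      ({scale q (mul_q_dvd_qq q M) (t1 A q M b)} : Set (Fn A (q ^ 2 * M))) := by
  have h1 : t1 A q M b ∈ TwoChart.intCl (W0 A) ({t1' A q M b} : Set (Fn A (q * M))) := by
    have h := map_mem_intCl (wALK M hqM) (s' := t1' A q M b) (s := t1 A q M b) ?_ hs
    · rwa [show wALK M hqM (t1' A q M b) = t1 A q M b from wAL_scale M hqM _] at h
    · rw [show wALK M hqM (t1 A q M b) = t1' A q M b from wAL_incl M hqM _]
      exact TwoChart.subset_intCl _ (Set.mem_singleton _)
  refine map_mem_intCl (incl (dvd_qqM q M)) ?_ h1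
  rw [show incl (dvd_qqM q M) (t1' A q M b) = scale q (mul_q_dvd_qq q M) (t1 A q M b) from
    incl_scale_eq M _]
  exact TwoChart.subset_intCl _ (Set.mem_singleton _)

include hA hM hqM in
theorem rhoChart_finite (hs : t1' A q M b ∈ chart1 A q M b) :
    (rhoChart M b hs).toRingHom.Finite := by
  refine finite_of_isIntegral M b hA hM fun x hx => ?_
  have hx' : x ∈ TwoChart.intCl (W0 A)
      ({scale q (mul_q_dvd_qq q M) (t1 A q M b)} : Set (Fn A (q ^ 2 * M))) :=
    TwoChart.intCl_mono (Set.singleton_subset_iff.2 (t2_mem_intCl_scale M b hqM hs)) hx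
  refine isIntegralElem_of_mem_intCl _ (fun c hc => ?_) hx'
  refine mem_range_of_mem_adjoin ((chart2 A q M b).val.comp (rhoChart M b hs)) ?_ c hc
  intro z hz
  exact ⟨⟨t1 A q M b, TwoChart.subset_intCl _ (Set.mem_singleton _)⟩, (Set.mem_singleton_iff.1 hz).symm⟩

/-! ### The function field of level `q²M` -/

/-- `j (d z)` over the fixed field. -/
def jFn (A : ValuationSubring Qb) (N d : ℕ) [NeZero N] [NeZero d] (hd : d ∣ N) : Fn A N :=
  mkFn (qExpand Qb d (jqModC Qb)) (jqModCd_mem_full Qb N hd)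
    (qExpand_coeff_mem fun i => by
      rw [← coeffMap_jqModC (algebraMap (K0 A) Qb)]
      exact ((jqModC (K0 A)).coeff i).2)

theorem valFn_jFn {N d : ℕ} [NeZero N] [NeZero d] (hd : d ∣ N) :
    valFn N (jFn A N d hd) = qExpand Qb d (jqModC Qb) := by
  rw [valFn_apply, jFn, coe_mkFn]

theorem fullC_ne (_hqM' : ¬ q ∣ M) :
    ¬ modularFunctionFieldFullC Qb (q ^ 2 * M) ≤ modularFunctionFieldFullC Qb (q * M) := by
  intro hle
  have hbar : modularFunctionFieldBar (q ^ 2 * M) = modularFunctionFieldBar (q * M) := by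
    rw [bar_eq_fullC, bar_eq_fullC]
    exact le_antisymm hle (full_degeneracyC_le Qb (dvd_qqM q M))
  have hj : ∀ N : ℕ, ∀ _ : NeZero N,
      coeffEmb Qb jq ∈ modularFunctionFieldBar N := fun N _ => by
    rw [bar_eq_fullC, coeffEmb_jq_eq]
    exact jqModC_mem_full Qb N
  have h := finrank_congr_gen hbar (x := ⟨_, hj (q ^ 2 * M) inferInstance⟩)
    (x' := ⟨_, hj (q * M) inferInstance⟩) rfl
  rw [finrank_bar_over_j (q ^ 2 * M) _ rfl, finrank_bar_over_j (q * M) _ rfl,
    show q ^ 2 * M = q * M * q by ring, dedekindPsi_mul_prime (q * M) hq.out,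
    if_pos (dvd_mul_right q M)] at h
  have h1 := hq.out.two_le
  have h2 := dedekindPsi_pos (q * M)
  nlinarith

include hA hM hqM in
theorem lamChart_not_surjective :
    ¬ Function.Surjective (lamChart (A := A) (q := q) M b) := by
  intro hsurj
  haveI := isFractionRing_chart2' (q := q) M b hA hM
  have hincl : ∀ y : Fn A (q ^ 2 * M), ∃ x, incl (dvd_qqM q M) x = y := by
    intro y
    obtain ⟨a, s, -, rfl⟩ := IsFractionRing.div_surjective (A := chart2 A q M b) y
    obtain ⟨a', rfl⟩ := hsurj a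
    obtain ⟨s', rfl⟩ := hsurj s
    exact ⟨(a' : Fn A (q * M)) / (s' : Fn A (q * M)), map_div₀ _ _ _⟩
  refine fullC_ne (q := q) M hqM ?_
  rw [modularFunctionFieldFullC, IntermediateField.adjoin_le_iff]
  rintro x ⟨d, hd0, hd, rfl⟩
  haveI := hd0
  obtain ⟨y, hy⟩ := hincl (jFn A (q ^ 2 * M) d hd)
  have h := congrArg (valFn (q ^ 2 * M)) hy
  rw [valFn_incl, valFn_jFn, valFn_apply] at h
  exact h ▸ coe_mem_fullC y

theorem transcendental_jFn (N : ℕ) [NeZero N] :
    Transcendental (K0 A) (jFn A N 1 (one_dvd N)) := fun h => by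
  obtain ⟨c, hc⟩ := eq_C_of_isAlgebraic (h.algHom (ser A N))
  have h1 := congrArg (coeffMap (algebraMap (K0 A) Qb)) hc
  rw [coeffMap_ser, Reduction.coeffMap_C, ← valFn_apply, valFn_jFn, qExpand_one_apply] at h1
  have h2 : (jqModC Qb).order = -1 := order_jqModC
  rw [h1, HahnSeries.order_C] at h2
  omega

/-- The `ℚ̄`-field generated by elements containing the `j (d z)` is everything. -/
theorem adjoin_image_eq_top {N : ℕ} [NeZero N] (L : IntermediateField (K0 A) (Fn A N))
    (hL : ∀ (d : ℕ) (_ : NeZero d) (hd : d ∣ N), jFn A N d hd ∈ L)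
    (k : IntermediateField Qb (modularFunctionFieldBar N)) :
    IntermediateField.adjoin k ((Fn A N).val '' (L : Set (Fn A N))) = ⊤ := by
  refine eq_top_iff.2 fun z _ => ?_
  have hle : modularFunctionFieldFullC Qb N ≤
      ((IntermediateField.adjoin k ((Fn A N).val '' (L : Set (Fn A N)))).restrictScalars
        Qb).map (modularFunctionFieldBar N).val := by
    rw [modularFunctionFieldFullC, IntermediateField.adjoin_le_iff]
    rintro _ ⟨d, hd0, hd, rfl⟩
    haveI := hd0
    rw [SetLike.mem_coe, IntermediateField.mem_map]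
    refine ⟨(Fn A N).val (jFn A N d hd), ?_, ?_⟩
    · rw [IntermediateField.mem_restrictScalars]
      exact IntermediateField.subset_adjoin _ _ (Set.mem_image_of_mem _ (hL d hd0 hd))
    · exact (valFn_apply (A := A) (jFn A N d hd)).symm.trans (valFn_jFn hd)
  obtain ⟨z', hz', hzz⟩ := hle (mem_bar_iff.1 z.2)
  obtain rfl : z' = z := Subtype.ext hzz
  exact hz'

/-- `K₀(y) → ℚ̄(y)`. -/
def adjoinMap {N : ℕ} (y : Fn A N) :
    (K0 A)⟮y⟯ →+* Qb⟮(y : modularFunctionFieldBar N)⟯ :=
  ((Fn A N).val.toRingHom.comp (algebraMap (K0 A)⟮y⟯ (Fn A N))).codRestrict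
    Qb⟮(y : modularFunctionFieldBar N)⟯.toSubfield.toSubring fun c =>
      (adjoin_simple_le_iff.2 (mem_adjoin_simple_self Qb (y : modularFunctionFieldBar N)) :
        (K0 A)⟮y⟯ ≤
          (Qb⟮(y : modularFunctionFieldBar N)⟯.restrictScalars (K0 A)).comap (Fn A N).val) c.2

theorem coe_adjoinMap {N : ℕ} (y : Fn A N) (c : (K0 A)⟮y⟯) :
    ((adjoinMap y c : Qb⟮(y : modularFunctionFieldBar N)⟯) : modularFunctionFieldBar N) =
      ((c : Fn A N) : modularFunctionFieldBar N) := rfl

theorem mem_span_of_generators {N : ℕ} [NeZero N] {y : Fn A N} (hyt : Transcendental (K0 A) y)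
    [FiniteDimensional Qb⟮(y : modularFunctionFieldBar N)⟯ (modularFunctionFieldBar N)]
    {ι : Type} [Fintype ι] (v : ι → Fn A N) (hvi : LinearIndependent (K0 A)⟮y⟯ v)
    (S : Submonoid (Fn A N)) (hS : ∀ z ∈ S, z ∈ Submodule.span (K0 A)⟮y⟯ (Set.range v))
    (htop : IntermediateField.adjoin Qb⟮(y : modularFunctionFieldBar N)⟯
      ((Fn A N).val '' (S : Set (Fn A N))) = ⊤) (x : Fn A N) :
    x ∈ Submodule.span (K0 A)⟮y⟯ (Set.range v) := by
  by_contra hxv
  have hli : LinearIndependent (K0 A)⟮y⟯ (fun o => Option.casesOn' o x v) :=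
    linearIndependent_option'.2 ⟨hvi, hxv⟩
  have hli2 : LinearIndependent Qb⟮(y : modularFunctionFieldBar N)⟯
      (fun o => ((Option.casesOn' o x v : Fn A N) : modularFunctionFieldBar N)) :=
    linearIndependent_coe hli hyt
  exact not_linearIndependent_option (Fn A N).val.toRingHom (adjoinMap y)
    (fun c => (coe_adjoinMap y c).symm) v S hS htop x hli2

/-- An intermediate field containing the `j (d z)` is everything. -/
theorem eq_top_of_jFn_mem {N : ℕ} [NeZero N] (L : IntermediateField (K0 A) (Fn A N))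
    (hL : ∀ (d : ℕ) (_ : NeZero d) (hd : d ∣ N), jFn A N d hd ∈ L) : L = ⊤ := by
  classical
  set y := jFn A N 1 (one_dvd N)
  have hyt : Transcendental (K0 A) y := transcendental_jFn N
  haveI := finiteDimensional_Fn hyt
  haveI hfd : FiniteDimensional Qb⟮(y : modularFunctionFieldBar N)⟯ (modularFunctionFieldBar N) :=
    FF.finiteDimensional_adjoin_of_transcendental (transcendental_coe hyt)
  have hyL : (K0 A)⟮y⟯ ≤ L := adjoin_simple_le_iff.2 (hL 1 inferInstance (one_dvd N))
  let L' : Submodule (K0 A)⟮y⟯ (Fn A N) := (extendScalars hyL).toSubalgebra.toSubmodule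
  have hL' : ∀ z, z ∈ L' ↔ z ∈ L := fun z => Iff.rfl
  by_contra hne
  obtain ⟨x, hx⟩ : ∃ x, x ∉ L := by
    by_contra h
    push Not at h
    exact hne (eq_top_iff.2 fun z _ => h z)
  obtain ⟨t, -, htspan, hvi⟩ := exists_linearIndependent (K0 A)⟮y⟯ (L' : Set (Fn A N))
  haveI : Finite t := hvi.finite
  haveI : Fintype t := Fintype.ofFinite t
  generalize hv : ((↑) : t → Fn A N) = v at hvi
  have hB : Submodule.span (K0 A)⟮y⟯ (Set.range v) = L' := by
    rw [← hv, Subtype.range_coe, htspan, Submodule.span_eq]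
  refine hx ((hL' x).1 ?_)
  rw [← hB]
  refine mem_span_of_generators hyt v hvi L.toSubfield.toSubring.toSubmonoid (fun z hz => ?_)
    (adjoin_image_eq_top L hL _) x
  rw [hB, hL']
  exact hz

/-- `j (d z)` of level `q²M` comes from level `qM` by one of the two maps. -/
theorem jFn_mem_range {d : ℕ} [NeZero d] (hd : d ∣ q ^ 2 * M) :
    (∃ x, incl (dvd_qqM q M) x = jFn A (q ^ 2 * M) d hd) ∨
      ∃ x, scale q (mul_q_dvd_qq q M) x = jFn A (q ^ 2 * M) d hd := by
  by_cases hqd : q ∣ d
  · obtain ⟨e, rfl⟩ := hqd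
    haveI : NeZero e := ⟨fun h => NeZero.ne (q * e) (by rw [h, mul_zero])⟩
    have he : e ∣ q * M := by
      rw [pow_two, mul_assoc] at hd
      exact (mul_dvd_mul_iff_left hq.out.ne_zero).1 hd
    refine Or.inr ⟨jFn A (q * M) e he, valFn_injective ?_⟩
    rw [valFn_scale, valFn_jFn, valFn_jFn, qExpand_qExpand]
  · have hd' : d ∣ q * M :=
      Dvd.dvd.mul_left ((((Nat.Prime.coprime_iff_not_dvd hq.out).2 hqd).symm.pow_right 2).dvd_of_dvd_mul_left hd) q
    exact Or.inl ⟨jFn A (q * M) d hd', valFn_injective (by rw [valFn_incl, valFn_jFn, valFn_jFn])⟩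

include hA hM in
/-- The two images generate the function field of level `q²M`. -/
theorem generates_chart (hs : t1' A q M b ∈ chart1 A q M b) (a : chart2 A q M b) :
    ∃ s ∈ Algebra.adjoin (W0 A) (Set.range (lamChart M b) ∪ Set.range (rhoChart M b hs)),
      s ≠ 0 ∧
        s * a ∈ Algebra.adjoin (W0 A) (Set.range (lamChart M b) ∪ Set.range (rhoChart M b hs)) := by
  classical
  set B := Algebra.adjoin (W0 A) (Set.range (lamChart M b) ∪ Set.range (rhoChart M b hs))
  set R : Subring (Fn A (q ^ 2 * M)) := (B.map (chart2 A q M b).val).toSubring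
  set T : Subfield (Fn A (q ^ 2 * M)) := Subfield.closure (R : Set (Fn A (q ^ 2 * M)))
  haveI := isFractionRing_chart hA (transcendental_incl_coord A hM b (dvd_qM q M) :
    Transcendental (K0 A) (t1 A q M b))
  have hl : ∀ y : Fn A (q * M), incl (dvd_qqM q M) y ∈ T := by
    intro y
    obtain ⟨a', s', -, rfl⟩ := IsFractionRing.div_surjective (A := chart1 A q M b) y
    rw [map_div₀]
    exact div_mem (Subfield.subset_closure ⟨lamChart M b a', Algebra.subset_adjoin (Or.inl ⟨a', rfl⟩), rfl⟩)
      (Subfield.subset_closure ⟨lamChart M b s', Algebra.subset_adjoin (Or.inl ⟨s', rfl⟩), rfl⟩)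
  have hr : ∀ y : Fn A (q * M), scale q (mul_q_dvd_qq q M) y ∈ T := by
    intro y
    obtain ⟨a', s', -, rfl⟩ := IsFractionRing.div_surjective (A := chart1 A q M b) y
    rw [map_div₀]
    exact div_mem (Subfield.subset_closure ⟨rhoChart M b hs a', Algebra.subset_adjoin (Or.inr ⟨a', rfl⟩), rfl⟩)
      (Subfield.subset_closure ⟨rhoChart M b hs s', Algebra.subset_adjoin (Or.inr ⟨s', rfl⟩), rfl⟩)
  let L : IntermediateField (K0 A) (Fn A (q ^ 2 * M)) := T.toIntermediateField fun c => by
    have := hl (algebraMap (K0 A) _ c)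
    rwa [AlgHom.commutes] at this
  have hL : L = ⊤ := eq_top_of_jFn_mem L fun d hd0 hd => by
    haveI := hd0
    rcases jFn_mem_range (A := A) M hd with ⟨x, hx⟩ | ⟨x, hx⟩
    · exact hx ▸ hl x
    · exact hx ▸ hr x
  have ha : (a : Fn A (q ^ 2 * M)) ∈ T := (hL ▸ IntermediateField.mem_top : (a : Fn A (q ^ 2 * M)) ∈ L)
  obtain ⟨x, hx, s, hs', hxs⟩ := Subfield.mem_closure_iff.1 ha
  rw [Subring.closure_eq] at hx hs'
  rcases eq_or_ne s 0 with rfl | hs0
  · refine ⟨1, one_mem B, one_ne_zero, ?_⟩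
    rw [div_zero] at hxs
    rw [one_mul, show a = 0 from Subtype.ext hxs.symm]
    exact zero_mem B
  obtain ⟨s', hs'B, rfl⟩ := hs'
  obtain ⟨x', hx'B, rfl⟩ := hx
  refine ⟨s', hs'B, fun h => hs0 (by rw [h]; exact map_zero (chart2 A q M b).val), ?_⟩
  have : s' * a = x' := Subtype.ext ?_
  · exact this ▸ hx'B
  show (s' : Fn A (q ^ 2 * M)) * (a : Fn A (q ^ 2 * M)) = (x' : Fn A (q ^ 2 * M))
  rw [← hxs]
  exact mul_div_cancel₀ _ hs0

/-! ### Constants -/

theorem mem_W0_of_algebraMap_mem {N : ℕ} [NeZero N] {y : Fn A N} (hy : Transcendental (K0 A) y)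
    {c : K0 A} (hc : algebraMap (K0 A) (Fn A N) c ∈ TwoChart.intCl (W0 A) ({y} : Set (Fn A N))) :
    c ∈ W0 A := by
  obtain ⟨r, hr, hr0⟩ := isIntegralElem_of_mem_intCl (Polynomial.aeval (R := W0 A) y).toRingHom
    (fun z hz => (Algebra.adjoin_singleton_eq_range_aeval (W0 A) y).le hz) hc
  set g : (W0 A)[X] →+* (K0 A)[X] := Polynomial.mapRingHom (algebraMap (W0 A) (K0 A))
  have h1 : Polynomial.eval₂ g (C c) r = 0 := by
    refine transcendental_iff_injective.1 hy ?_
    show Polynomial.aeval y _ = Polynomial.aeval y 0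
    rw [map_zero]
    refine Eq.trans (Polynomial.hom_eval₂ _ g (Polynomial.aeval y).toRingHom (C c)) ?_
    have hcomp : (Polynomial.aeval y).toRingHom.comp g =
        (Polynomial.aeval (R := W0 A) y).toRingHom := RingHom.ext fun p => by
      exact Polynomial.aeval_map_algebraMap (K0 A) y p
    rw [hcomp, show (Polynomial.aeval y).toRingHom (C c) = algebraMap (K0 A) (Fn A N) c from
      Polynomial.aeval_C _ _]
    exact hr0
  have h2 := congrArg (Polynomial.evalRingHom (0 : K0 A)) h1
  rw [map_zero, Polynomial.hom_eval₂] at h2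
  have hint : IsIntegral (W0 A) c := by
    refine ⟨r.map (Polynomial.evalRingHom (0 : W0 A)), hr.map _, ?_⟩
    rw [Polynomial.eval₂_map]
    have hcomp : (algebraMap (W0 A) (K0 A)).comp (Polynomial.evalRingHom (0 : W0 A)) =
        (Polynomial.evalRingHom (0 : K0 A)).comp g :=
      Polynomial.ringHom_ext (fun a => by simp [g]) (by simp [g])
    rw [hcomp]
    simpa using h2
  obtain ⟨w, hw⟩ := IsIntegrallyClosed.isIntegral_iff.1 hint
  exact hw ▸ w.2

include hM in
theorem eq_algebraMap_of_incl_eq_scale {a : Fn A M} (ha : a ∈ chart0 A M b)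
    (h : incl (dvd_qqM q M) (incl (dvd_qM q M) a) =
      scale q (mul_q_dvd_qq q M) (scale q (mul_q_dvd q M) a)) :
    ∃ w : W0 A, (⟨a, ha⟩ : chart0 A M b) = algebraMap (W0 A) (chart0 A M b) w := by
  have h1 := congrArg (valFn (q ^ 2 * M)) h
  rw [valFn_incl, valFn_incl, valFn_scale, valFn_scale] at h1
  have h2 := eq_C_of_eq_qExpand_qExpand hq.out.one_lt h1
  set c : K0 A := ⟨_, coeff_mem_K0 a 0⟩
  have hac : a = algebraMap (K0 A) (Fn A M) c := valFn_injective (by
    rw [valFn_algebraMap]
    exact h2)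
  have hcW : c ∈ W0 A := mem_W0_of_algebraMap_mem (transcendental_coord A hM b) (hac ▸ ha)
  exact ⟨⟨c, hcW⟩, Subtype.ext hac⟩

/-! ### The datum -/

variable {Cs : Type*} [CommRing Cs] [Algebra (W0 A) Cs]
  (h : Two.StepData q (W0 A) (chart0 A M b) (chart1 A q M b) Cs (Fn A (q * M)))
  (hα : ∀ a, (h.α a : Fn A (q * M)) = incl (dvd_qM q M) (a : Fn A M))
  (hβ : ∀ a, (h.β a : Fn A (q * M)) = scale q (mul_q_dvd q M) (a : Fn A M))

include hβ in
theorem t1'_mem_chart1 : t1' A q M b ∈ chart1 A q M b := by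
  have h1 := hβ ⟨coord A M b, TwoChart.subset_intCl _ (Set.mem_singleton _)⟩
  show scale q (mul_q_dvd q M) (coord A M b) ∈ chart1 A q M b
  rw [← h1]
  exact (h.β ⟨coord A M b, TwoChart.subset_intCl _ (Set.mem_singleton _)⟩).2

/-- The step from level `qM` to level `q²M`. -/
def mkTower : Two.TowerData h (chart2 A q M b) where
  lam := lamChart M b
  rho := rhoChart M b (t1'_mem_chart1 M b h hβ)
  compat a := Subtype.ext (by rw [coe_lamChart, coe_rhoChart, hα, hβ, incl_scale_eq])
  lam_finite := lamChart_finite M b hA hM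
  rho_finite := rhoChart_finite M b hA hM hqM _
  lam_injective := lamChart_injective M b
  rho_injective := rhoChart_injective M b _
  lam_not_surjective := lamChart_not_surjective M b hA hM hqM
  generates := generates_chart M b hA hM _
  ne a e := by
    have e' := congrArg (fun z : chart2 A q M b => (z : Fn A (q ^ 2 * M))) e
    simp only [coe_lamChart, coe_rhoChart, hα, hβ] at e'
    obtain ⟨w, hw⟩ := eq_algebraMap_of_incl_eq_scale M b hM a.2 e'
    exact ⟨w, by rw [show a = algebraMap (W0 A) (chart0 A M b) w from hw, AlgHom.commutes]⟩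

theorem mkTower_lam (a : chart1 A q M b) :
    ((mkTower M b hA hM hqM h hα hβ).lam a : Fn A (q ^ 2 * M)) =
      incl (dvd_qqM q M) (a : Fn A (q * M)) := rfl

theorem mkTower_rho (a : chart1 A q M b) :
    ((mkTower M b hA hM hqM h hα hβ).rho a : Fn A (q ^ 2 * M)) =
      scale q (mul_q_dvd_qq q M) (a : Fn A (q * M)) := rfl

end FLTAgent.BadQ.TwoInst
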