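import Mathlib
import Fermat.Agent.BadQ.TwoInstPole
import Fermat.Agent.BadQ.TwoInstEmb
import Fermat.Agent.GalCommon.Basic

/-!
# Valuation rings of the Laurent series over `ℚ̄`

Integrality is tested on valuation rings (`isIntegral_of_forall_valuationSubring`). In such a
ring: the functions with integral conjugates, in particular `j(dz)` and the coordinate, follow
`j` (`mem_of_family`, `qExpand_jqModC_mem`, `tSer_mem`), and `j` follows the coordinate together
with its inverse (`jqModC_mem`).
-/

set_option autoImplicit false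
set_option linter.style.haveILetI false
set_option linter.unusedSectionVars false

set_option maxHeartbeats 1000000

noncomputable section

open Polynomial ModularCurve

namespace FLTAgent.BadQ.TwoInst

open FLTAgent.Reduction FLTAgent.ModularCosets

local notation "Qb" => AlgebraicClosure ℚ

/-! ### Generalities -/

section Criterion

variable {R : Type*} [CommRing R] {L : Type*} [Field L] [Algebra R L]

/-- An element of all valuation rings containing `R` is integral over `R`. -/
theorem isIntegral_of_forall_valuationSubring {y : L}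
    (h : ∀ V : ValuationSubring L, (∀ r, algebraMap R L r ∈ V) → y ∈ V) : IsIntegral R y := by
  set C : Subring L := (integralClosure R L).toSubring
  haveI : IsIntegrallyClosedIn C L := Subring.isIntegrallyClosedIn_iff.2 fun {x} hx => by
    haveI : Algebra.IsIntegral R (integralClosure R L) :=
      integralClosure.AlgebraIsIntegral
    exact isIntegral_trans (A := integralClosure R L) x hx
  by_contra hy
  obtain ⟨V, hV, hyV⟩ := Subring.exists_le_valuationSubring_of_isIntegrallyClosedIn
    (R := C) (x := y) hy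
  exact hyV (h V fun r => hV (isIntegral_algebraMap (R := R) (x := r)))

/-- The same after inverting a submonoid. -/
theorem exists_isIntegral_mul_of_forall (S : Submonoid R)
    (hS : ∀ s ∈ S, algebraMap R L s ≠ 0) {y : L}
    (h : ∀ V : ValuationSubring L, (∀ r, algebraMap R L r ∈ V) →
      (∀ s ∈ S, (algebraMap R L s)⁻¹ ∈ V) → y ∈ V) :
    ∃ s ∈ S, IsIntegral R (algebraMap R L s * y) := by
  let f : Localization S →+* L :=
    IsLocalization.lift (M := S) (S := Localization S) (g := algebraMap R L)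
      fun s => IsUnit.mk0 _ (hS s s.2)
  letI : Algebra (Localization S) L := f.toAlgebra
  haveI : IsScalarTower R (Localization S) L :=
    IsScalarTower.of_algebraMap_eq fun r => (IsLocalization.lift_eq _ r).symm
  have hy : IsIntegral (Localization S) y := by
    refine isIntegral_of_forall_valuationSubring fun V hV => h V (fun r => ?_) fun s hs => ?_
    · rw [IsScalarTower.algebraMap_apply R (Localization S) L]
      exact hV _
    · have e : algebraMap R L s * f (IsLocalization.mk' (Localization S) 1 (⟨s, hs⟩ : S)) = 1 := by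
        rw [show algebraMap R L s = f (algebraMap R (Localization S) s) from
          (IsLocalization.lift_eq _ s).symm, ← map_mul,
          IsLocalization.mk'_spec' (Localization S) 1 (⟨s, hs⟩ : S), map_one, map_one]
      rw [inv_eq_of_mul_eq_one_right e]
      exact hV _
  obtain ⟨⟨s, hs⟩, hs'⟩ := hy.exists_multiple_integral_of_isLocalization S
  refine ⟨s, hs, ?_⟩
  rwa [Submonoid.smul_def, Algebra.smul_def] at hs'

end Criterion

section Monic

variable {L : Type*} [Field L] (B : ValuationSubring L)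

/-- A root of a monic relation with coefficients in a valuation ring lies in it. -/
theorem mem_of_sum_eq_zero {n : ℕ} (c : ℕ → L) (hc : ∀ i ≤ n, c i ∈ B) (hn : c n = 1) {y : L}
    (h : ∑ i ∈ Finset.range (n + 1), c i * y ^ i = 0) : y ∈ B := by
  rcases B.mem_or_inv_mem y with hy | hy
  · exact hy
  rcases eq_or_ne y 0 with rfl | h0
  · exact zero_mem B
  rcases eq_or_ne n 0 with rfl | hn0
  · simp [hn] at h
  have e : y = -∑ i ∈ Finset.range n, c i * y⁻¹ ^ (n - 1 - i) := by
    rw [eq_neg_iff_add_eq_zero]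
    have h2 := congrArg (· * y⁻¹ ^ (n - 1)) h
    simp only [zero_mul, Finset.sum_mul] at h2
    rw [Finset.sum_range_succ, hn, one_mul, add_comm] at h2
    rw [← h2]
    congr 1
    · conv_rhs => rw [show n = (n - 1) + 1 by omega, pow_succ', Nat.add_sub_cancel, mul_assoc,
        ← mul_pow, mul_inv_cancel₀ h0, one_pow, mul_one]
    · refine Finset.sum_congr rfl fun i hi => ?_
      have := Finset.mem_range.1 hi
      rw [mul_assoc]
      congr 1
      rw [show n - 1 = i + (n - 1 - i) by omega, pow_add, ← mul_assoc, ← mul_pow,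
        mul_inv_cancel₀ h0, one_pow, one_mul, Nat.add_sub_cancel_left]
  rw [e]
  exact neg_mem (sum_mem fun i hi =>
    mul_mem (hc i (Finset.mem_range.1 hi).le) (pow_mem hy _))

/-- Integral elements lie in every valuation ring containing the ring. -/
theorem mem_of_isIntegral_of_forall {R : Type*} [CommRing R] [Algebra R L] {y : L}
    (hy : IsIntegral R y) (hR : ∀ r, algebraMap R L r ∈ B) : y ∈ B := by
  obtain ⟨p, hp, hp0⟩ := hy
  refine mem_of_sum_eq_zero B (n := p.natDegree) (fun i => algebraMap R L (p.coeff i))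
    (fun i _ => hR _) (by rw [hp.coeff_natDegree, map_one]) ?_
  rw [← hp0, eval₂_eq_sum_range]

theorem mul_mem_nonunits {x y : L} (hx : x ∈ B) (hy : y ∈ B.nonunits) : x * y ∈ B.nonunits := by
  rw [ValuationSubring.mem_nonunits_iff] at hy ⊢
  rw [map_mul, mul_comm]
  exact mul_lt_one_of_lt_of_le hy ((B.valuation_le_one_iff x).2 hx)

end Monic

/-! ### Valuation rings of `ℚ̄((q))` -/

variable (B : ValuationSubring (LaurentSeries Qb))

/-- The constants in the valuation ring. -/
def cRing : Subring Qb := B.toSubring.comap (HahnSeries.C : Qb →+* LaurentSeries Qb)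

theorem mem_cRing {x : Qb} : x ∈ cRing B ↔ HahnSeries.C x ∈ B := Iff.rfl

theorem isIntegral_mem_cRing {x : Qb} (hx : IsIntegral ℤ x) : x ∈ cRing B := by
  obtain ⟨p, hp, hp0⟩ := hx
  refine mem_of_isIntegral_of_forall B (R := ℤ) ⟨p, hp, ?_⟩ fun r => by
    rw [eq_intCast]; exact intCast_mem B r
  rw [show algebraMap ℤ (LaurentSeries Qb) =
    (HahnSeries.C : Qb →+* LaurentSeries Qb).comp (algebraMap ℤ Qb) from RingHom.ext_int _ _,
    ← hom_eval₂, hp0, map_zero]

theorem intCast_mem_cRing (n : ℤ) : (n : Qb) ∈ cRing B := intCast_mem (cRing B) n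

theorem aeval_jqModC_mem {P : Qb[X]} (hP : ∀ i, P.coeff i ∈ cRing B) (hj : jqModC Qb ∈ B) :
    aeval (jqModC Qb) P ∈ B := by
  rw [aeval_eq_sum_range]
  refine sum_mem fun i _ => ?_
  rw [Algebra.smul_def, Reduction.algebraMap_eq_C]
  exact mul_mem (hP i) (pow_mem hj i)

variable {N : ℕ} [NeZero N]

theorem phiQ_mem_cRing (hN : (N : Qb)⁻¹ ∈ cRing B) (z : zetaRing N) : phiQ N z ∈ cRing B := by
  obtain ⟨z, hz⟩ := z
  induction hz using Subring.closure_induction with
  | mem x hx =>
    rcases hx with rfl | hx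
    · refine isIntegral_mem_cRing B (IsIntegral.of_pow (NeZero.pos N) ?_)
      rw [← map_pow, show ((⟨_, zetaU_mem N⟩ : zetaRing N)) ^ N = 1 from
        Subtype.ext (zetaU_val_pow N), map_one]
      exact isIntegral_one
    · obtain rfl : x = ((N : ℂ))⁻¹ := hx
      have h1 : (N : Qb) * phiQ N ⟨_, natCast_inv_mem N⟩ = 1 := by
        rw [← map_natCast (phiQ N), ← map_mul, ← map_one (phiQ N)]
        exact congrArg _ (Subtype.ext (by
          push_cast
          exact mul_inv_cancel₀ (by exact_mod_cast NeZero.ne N)))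
      rwa [eq_inv_of_mul_eq_one_right h1]
  | zero => exact (map_zero (phiQ N)).symm ▸ zero_mem _
  | one => exact (map_one (phiQ N)).symm ▸ one_mem _
  | add x y hx hy h1 h2 => exact (map_add (phiQ N) ⟨x, hx⟩ ⟨y, hy⟩).symm ▸ add_mem h1 h2
  | neg x hx h1 => exact (map_neg (phiQ N) ⟨x, hx⟩).symm ▸ neg_mem h1
  | mul x y hx hy h1 h2 => exact (map_mul (phiQ N) ⟨x, hx⟩ ⟨y, hy⟩).symm ▸ mul_mem h1 h2

/-- The coefficients of the polynomial of a family of series. -/
theorem coeff_famPoly_mem {Γ : Type*} [Fintype Γ] (C : Subring Qb) (v : Γ → LaurentSeries Qb)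
    (hv : ∀ c i, (v c).coeff i ∈ C) (n : ℕ) (i : ℤ) : ((famPoly v).coeff n).coeff i ∈ C := by
  classical
  let w : Γ → LaurentSeries C := fun c =>
    ⟨fun i => ⟨_, hv c i⟩, (v c).isPWO_support.mono fun i hi h => hi (Subtype.ext h)⟩
  have hvw : coeffMap C.subtype ∘ w = v := funext fun c => HahnSeries.ext (funext fun i => rfl)
  rw [← hvw, ← famPoly_map, Polynomial.coeff_map, coeffMap_coeff]
  exact SetLike.coe_mem _

/-- The relation of a family: `∑ Pᵢ (j) y ^ i = 0`, monic, with coefficients in the constants. -/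
theorem exists_family_relation (V : CosetFamily N) {y : LaurentSeries Qb}
    (hy : upHom N Qb y = coeffMap (phiQ N) (V.ser (cosetInf N))) :
    ∃ P : ℕ → Qb[X], P (Fintype.card (CosetIdx N)) = 1 ∧
      ∑ i ∈ Finset.range (Fintype.card (CosetIdx N) + 1), aeval (jqModC Qb) (P i) * y ^ i = 0 ∧
      (∀ i k, (aeval (jqModC Qb) (P i)).coeff k =
        ((famPoly fun c => coeffMap (phiQ N) (V.ser c)).coeff i).coeff ((N : ℤ) * k)) ∧
      ((∀ c k, (coeffMap (phiQ N) (V.ser c)).coeff k ∈ cRing B) →
        ∀ i n, (P i).coeff n ∈ cRing B) := by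
  classical
  set v : CosetIdx N → LaurentSeries Qb := fun c => coeffMap (phiQ N) (V.ser c) with hv
  have hpoly : ∀ i, ∃ P : Qb[X], P.eval₂ HahnSeries.C (jUp N Qb) = (famPoly v).coeff i := fun i =>
    mem_polyJ_iff.mp ((isSymFamily_map (phiQ N) V).coeff_poly i)
  choose P hP using hpoly
  have hup : ∀ i, upHom N Qb (aeval (jqModC Qb) (P i)) = (famPoly v).coeff i := fun i => by
    rw [upHom_aeval_jqModC, hP]
  have hk : ∀ i k, (aeval (jqModC Qb) (P i)).coeff k = ((famPoly v).coeff i).coeff ((N : ℤ) * k) :=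
    fun i k => by rw [← hup, upHom_apply, qScale_coeff_mul (NeZero.ne N)]
  have hcard : (famPoly v).natDegree = Fintype.card (CosetIdx N) := by
    rw [famPoly, natDegree_finsetProd_X_sub_C_eq_card, Finset.card_univ]
  refine ⟨P, ?_, ?_, hk, fun hc i => ?_⟩
  · have h1 : (famPoly v).coeff (Fintype.card (CosetIdx N)) = 1 := by
      rw [← hcard]; exact (famPoly_monic v).coeff_natDegree
    have h2 := hup (Fintype.card (CosetIdx N))
    rw [h1, ← map_one (upHom N Qb)] at h2
    have h3 : aeval (jqModC Qb) (P (Fintype.card (CosetIdx N)) - 1) = 0 := by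
      rw [map_sub, map_one, (upHom N Qb).toRingHom.injective h2, sub_self]
    exact sub_eq_zero.1 (transcendental_iff.mp (transcendental_jqModC Qb) _ h3)
  · refine (upHom N Qb).toRingHom.injective ?_
    change upHom N Qb _ = upHom N Qb 0
    rw [map_zero, map_sum]
    have hroot := famPoly_eval_self v (cosetInf N)
    rw [eval_eq_sum_range' (n := Fintype.card (CosetIdx N) + 1) (by omega)] at hroot
    refine Eq.trans ?_ hroot
    refine Finset.sum_congr rfl fun i _ => ?_
    rw [map_mul, map_pow, hup, hy]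
  · exact coeff_mem_of_aeval_jqModC (cRing B) _ fun k => by
      rw [hk]; exact coeff_famPoly_mem (cRing B) v hc i _

/-- A function whose conjugates have integral coefficients is integral over `j`. -/
theorem mem_of_family (V : CosetFamily N) {y : LaurentSeries Qb}
    (hy : upHom N Qb y = coeffMap (phiQ N) (V.ser (cosetInf N)))
    (hc : ∀ c k, (coeffMap (phiQ N) (V.ser c)).coeff k ∈ cRing B) (hj : jqModC Qb ∈ B) :
    y ∈ B := by
  obtain ⟨P, hP1, hsum, -, hPc⟩ := exists_family_relation B V hy
  refine mem_of_sum_eq_zero B (fun i => aeval (jqModC Qb) (P i))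
    (fun i _ => aeval_jqModC_mem B (hPc hc i) hj) (by rw [hP1, map_one]) hsum

/-- `j (d z)` is integral over `j`. -/
theorem qExpand_jqModC_mem {d : ℕ} [NeZero d] (hj : jqModC Qb ∈ B) :
    qExpand Qb d (jqModC Qb) ∈ B := by
  refine mem_of_family B (jdFamily d (Reduction.topDiv d)) ?_ (fun c k => ?_) hj
  · rw [jdFamily_ser_cosetInf, coeffMap_qScale, coeffMap_qScale, coeffMap_jqModC, upHom_apply]
    show _ = qScale Qb d (qScale Qb d (jqModC Qb))
    rw [qScale_eq d]
  · let I : Subring Qb := (integralClosure ℤ Qb).toSubring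
    let z : zetaRing d := ⟨_, zetaU_mem d⟩
    have hz : phiQ d z ^ d = 1 := by
      rw [← map_pow, show z ^ d = 1 from Subtype.ext (zetaU_val_pow d), map_one]
    let ζI : Iˣ := Units.ofPowEqOne ⟨phiQ d z,
      IsIntegral.of_pow (NeZero.pos d) (hz ▸ isIntegral_one)⟩ d (Subtype.ext hz) (NeZero.ne d)
    have hmap : Units.map (I.subtype : I →* Qb) ζI =
        Units.map (phiQ d : zetaRing d →* Qb) (zetaB d) := Units.ext rfl
    show (coeffMap (phiQ d) (cuspExp (zetaB d) d _ _ _ (jqModC (zetaRing d)))).coeff k ∈ _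
    rw [coeffMap_cuspExp, coeffMap_jqModC, ← hmap, ← coeffMap_jqModC (I.subtype),
      ← coeffMap_cuspExp, coeffMap_coeff]
    exact isIntegral_mem_cRing B (Subtype.prop _)

/-! ### The coordinate -/

/-- The inverse of the unit. -/
def unitFamilyInv (N : ℕ) [NeZero N] : CosetFamily N where
  F γ := (unitFn N γ)⁻¹
  ser c := (((gaussUnit (zetaRing N) (zetaB N) c)⁻¹ : (LaurentSeries (zetaRing N))ˣ) :
    LaurentSeries (zetaRing N))
  smul γ γ' z := by
    show (unitFn N γ (γ' • z))⁻¹ = (unitFn N (γ * γ') z)⁻¹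
    rw [unitFn_smul]
  inv hδ γ := by
    show (unitFn N (_ * γ))⁻¹ = _
    rw [unitFn_mul_of_mem hδ γ]
  mem c := by
    have h := (unitFn_pair c).inv.1
    rw [← map_zetaB N] at h
    have e : (((gaussUnit ℂ (Units.map (zetaRing N).subtype.toMonoidHom (zetaB N)) c)⁻¹ :
        (LaurentSeries ℂ)ˣ) : LaurentSeries ℂ) = coeffMap (zetaRing N).subtype
          (((gaussUnit (zetaRing N) (zetaB N) c)⁻¹ : (LaurentSeries (zetaRing N))ˣ) :
            LaurentSeries (zetaRing N)) := by
      rw [← map_gaussUnit (zetaRing N).subtype _ (isUnit_natCast_zetaRing N), ← map_inv,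
        Units.coe_map]
      rfl
    exact e ▸ h

theorem tSer_mem (hN : (N : Qb)⁻¹ ∈ cRing B) (hj : jqModC Qb ∈ B) :
    tSer Qb N ∈ B ∧ (tSer Qb N)⁻¹ ∈ B := by
  have hc : ∀ (f : LaurentSeries (zetaRing N)) k, (coeffMap (phiQ N) f).coeff k ∈ cRing B :=
    fun f k => by rw [coeffMap_coeff]; exact phiQ_mem_cRing B hN _
  refine ⟨mem_of_family B (unitFamily N) (upHom_tSer (phiQ N)) (fun c => hc _) hj,
    mem_of_family B (unitFamilyInv N) ?_ (fun c => hc _) hj⟩
  rw [map_inv₀, upHom_tSer (phiQ N)]
  refine inv_eq_of_mul_eq_one_right ?_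
  show coeffMap (phiQ N) _ * coeffMap (phiQ N) _ = 1
  rw [← map_mul]
  exact (congrArg (coeffMap (phiQ N)) (Units.mul_inv _)).trans (map_one _)

theorem coeff_tSer_order_isUnit :
    ∃ u : ℤ, IsUnit u ∧ (tSer Qb N).coeff (tSer Qb N).order = (u : Qb) := by
  have hu : IsUnit ((tSer ℤ N).leadingCoeff) := by
    refine IsUnit.of_mul_eq_one ((↑(tUnit ℤ N)⁻¹ : LaurentSeries ℤ).leadingCoeff) ?_
    rw [tSer, ← HahnSeries.leadingCoeff_mul, Units.mul_inv, HahnSeries.leadingCoeff_one]
  rw [HahnSeries.leadingCoeff_eq] at hu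
  refine ⟨_, hu, ?_⟩
  have e := coeffMap_tSer (M := N) (Int.castRingHom Qb)
  have ho : (tSer Qb N).order = (tSer ℤ N).order := by
    rw [← e]
    refine le_antisymm (HahnSeries.order_le_of_coeff_ne_zero ?_) ?_
    · rw [coeffMap_coeff]; exact (hu.map (Int.castRingHom Qb)).ne_zero
    · refine HahnSeries.order_le_of_coeff_ne_zero fun h => ?_
      have hne : coeffMap (Int.castRingHom Qb) (tSer ℤ N) ≠ 0 := by
        rw [e]; exact (tUnit Qb N).ne_zero
      have h2 := HahnSeries.coeff_order_eq_zero.not.2 hne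
      rw [coeffMap_coeff, h, map_zero] at h2
      exact h2 rfl
  rw [ho, ← e, coeffMap_coeff]
  rfl

/-- `j` is integral over the coordinate and its inverse. -/
theorem jqModC_mem (hN2 : 2 ≤ N) (hN : (N : Qb)⁻¹ ∈ cRing B)
    (ht : tSer Qb N ∈ B) (ht' : (tSer Qb N)⁻¹ ∈ B) : jqModC Qb ∈ B := by
  classical
  by_contra hj
  set j := jqModC Qb with hjdef
  have hj0 : j ≠ 0 := jqModC_ne_zero_of_nontrivial Qb
  have hju : j⁻¹ ∈ B.nonunits := by
    rw [ValuationSubring.mem_nonunits_iff_or, inv_inv]; exact Or.inr hj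
  obtain ⟨P, -, hsum, hk, hPc⟩ := exists_family_relation B (unitFamily N) (upHom_tSer (phiQ N))
  have hPB := hPc fun c k => by rw [coeffMap_coeff]; exact phiQ_mem_cRing B hN _
  set τ : CosetIdx N → LaurentSeries Qb := fun c => coeffMap (phiQ N) ((unitFamily N).ser c)
  set T := τ (cosetInf N)
  set s := (Finset.univ : Finset (CosetIdx N)).erase (cosetInf N)
  set H : (LaurentSeries Qb)[X] := ∏ d ∈ s, (X - C (τ d))
  have hpos : ∀ d ∈ s, 0 < (τ d).order := fun d hd => by
    simp only [τ, coeffMap_unit_ser]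
    exact order_gaussUnit_pos _ d fun h => Finset.ne_of_mem_erase hd (eq_cosetInf_of_a_eq h)
  have hfam : famPoly τ = (X - C T) * H := by
    rw [famPoly, ← Finset.mul_prod_erase _ _ (Finset.mem_univ (cosetInf N))]
  set D := tDeg N
  have hD : 0 < D := tDeg_pos (phiQ N) hN2
  have hT : T.order = (N : ℤ) * (-(D : ℤ)) := by
    show (coeffMap (phiQ N) _).order = _
    rw [← upHom_tSer (phiQ N), upHom_apply,
      Reduction.order_qScale (NeZero.ne N) (show tSer Qb N ≠ 0 from (tUnit Qb N).ne_zero),
      order_tSer hN2 Qb (phiQ N)]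
  have hTneg : T.order < 0 := by
    rw [hT]; nlinarith [NeZero.pos N]
  have htop : H.coeff s.card = 1 := by
    rw [show s.card = H.natDegree from (natDegree_finsetProd_X_sub_C_eq_card s τ).symm]
    exact (monic_prod_of_monic _ _ fun d _ => monic_X_sub_C (τ d)).coeff_natDegree
  have hH : ∀ i, ∀ e : ℤ, e < 0 → (H.coeff i).coeff e = 0 := fun i e he => by
    rcases eq_or_ne i s.card with rfl | hi
    · rw [htop]; simp [HahnSeries.coeff_one, he.ne]
    · rcases coeff_prod_of_pos s τ hpos hi with h | h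
      · rw [h]; rfl
      · exact coeff_eq_zero_of_neg h.le he
  -- the coefficients up to the order of `T`
  have hlow : ∀ i, ∀ e : ℤ, e ≤ T.order →
      ((famPoly τ).coeff i).coeff e = if i = s.card then -T.coeff e else 0 := by
    intro i e he
    have hX : ((X * H).coeff i).coeff e = 0 := by
      rcases i with _ | i
      · rw [mul_coeff_zero, coeff_X_zero, zero_mul]; rfl
      · rw [coeff_X_mul]; exact hH i e (lt_of_le_of_lt he hTneg)
    rw [hfam, sub_mul, coeff_sub, coeff_C_mul, HahnSeries.coeff_sub, hX, zero_sub]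
    split_ifs with hi
    · rw [hi, htop, mul_one]
    · rcases (show H.coeff i = 0 ∨ 0 < (H.coeff i).order from coeff_prod_of_pos s τ hpos hi)
        with h | h
      · rw [h, mul_zero]; simp
      · rw [neg_eq_zero]
        refine HahnSeries.coeff_eq_zero_of_lt_order (lt_of_le_of_lt he ?_)
        rw [HahnSeries.order_mul (fun h0 => by rw [h0, HahnSeries.order_zero] at hTneg; exact lt_irrefl _ hTneg)
          (fun h0 => by rw [h0, HahnSeries.order_zero] at h; exact lt_irrefl _ h)]
        omega
  have hdeg : ∀ i, (P i).natDegree ≤ D := fun i => by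
    by_contra hlt
    push Not at hlt
    have hne : P i ≠ 0 := fun h => by rw [h, natDegree_zero] at hlt; omega
    obtain ⟨h1, h2⟩ := order_eval₂_eq (by rw [order_jqModC]; norm_num :
      (jqModC Qb).order < 0) hne
    rw [← Reduction.algebraMap_eq_C, ← aeval_def] at h1 h2
    refine h1 (HahnSeries.coeff_order_eq_zero.mp ?_)
    rw [hk, h2, order_jqModC]
    have hlt' : (N : ℤ) * ((P i).natDegree * -1) < T.order := by
      rw [hT]
      exact mul_lt_mul_of_pos_left (by omega) (by exact_mod_cast NeZero.pos N)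
    rw [hlow i _ hlt'.le]
    split_ifs with hi
    · rw [HahnSeries.coeff_eq_zero_of_lt_order hlt', neg_zero]
    · rfl
  have hlead : ∀ i, (P i).coeff D =
      if i = s.card then -(tSer Qb N).coeff (tSer Qb N).order else 0 := fun i => by
    have h1 : (aeval (jqModC Qb) (P i)).coeff (-(D : ℤ)) = (P i).coeff D := by
      rw [Polynomial.aeval_eq_sum_range' (Nat.lt_succ_of_le (hdeg i)), HahnSeries.coeff_sum,
        Finset.sum_eq_single D]
      · rw [Algebra.smul_def, coeff_algebraMap_mul, coeff_jqModC_pow_self, mul_one]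
      · intro a ha hne
        rw [Algebra.smul_def, coeff_algebraMap_mul, coeff_jqModC_pow_of_lt Qb, mul_zero]
        have := Finset.mem_range.mp ha
        omega
      · intro h
        exact absurd (Finset.mem_range.mpr (Nat.lt_succ_self D)) h
    rw [← h1, hk, hlow i _ hT.ge, order_tSer hN2 Qb (phiQ N)]
    congr 2
    show (coeffMap (phiQ N) _).coeff _ = _
    rw [← upHom_tSer (phiQ N), upHom_apply, qScale_coeff_mul (NeZero.ne N)]
  -- divide by `j ^ D`
  have hscard : s.card ∈ Finset.range (Fintype.card (CosetIdx N) + 1) := by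
    rw [Finset.mem_range, Finset.card_erase_of_mem (Finset.mem_univ _), Finset.card_univ]
    omega
  have hnu : ∀ i, aeval j (P i) * j⁻¹ ^ D - HahnSeries.C ((P i).coeff D) ∈ B.nonunits := by
    intro i
    rw [aeval_eq_sum_range' (Nat.lt_succ_of_le (hdeg i)), Finset.sum_mul, Finset.sum_range_succ,
      Algebra.smul_def, Reduction.algebraMap_eq_C, mul_assoc, ← mul_pow, mul_inv_cancel₀ hj0,
      one_pow, mul_one, add_sub_cancel_right]
    refine sum_mem fun a ha => ?_
    have hlt := Finset.mem_range.1 ha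
    rw [Algebra.smul_def, Reduction.algebraMap_eq_C, mul_assoc,
      show D = a + (D - a - 1 + 1) by omega, pow_add, ← mul_assoc (j ^ a), ← mul_pow,
      mul_inv_cancel₀ hj0, one_pow, one_mul, pow_succ, ← mul_assoc]
    exact mul_mem_nonunits B (mul_mem (hPB i a) (pow_mem
      (B.nonunits_subset hju) _)) hju
  have h0 : ∑ i ∈ Finset.range (Fintype.card (CosetIdx N) + 1),
      HahnSeries.C ((P i).coeff D) * tSer Qb N ^ i ∈ B.nonunits := by
    have h1 := congrArg (· * j⁻¹ ^ D) hsum
    simp only [zero_mul, Finset.sum_mul] at h1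
    have h2 : ∑ i ∈ Finset.range (Fintype.card (CosetIdx N) + 1),
        tSer Qb N ^ i * (aeval j (P i) * j⁻¹ ^ D - HahnSeries.C ((P i).coeff D)) ∈ B.nonunits :=
      sum_mem fun i _ => mul_mem_nonunits B (pow_mem ht _) (hnu i)
    have h3 : ∑ i ∈ Finset.range (Fintype.card (CosetIdx N) + 1),
        tSer Qb N ^ i * (aeval j (P i) * j⁻¹ ^ D - HahnSeries.C ((P i).coeff D)) =
        -∑ i ∈ Finset.range (Fintype.card (CosetIdx N) + 1),
          HahnSeries.C ((P i).coeff D) * tSer Qb N ^ i := by
      rw [← zero_sub, ← h1, ← Finset.sum_sub_distrib]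
      refine Finset.sum_congr rfl fun i _ => ?_
      ring
    rw [h3] at h2
    simpa only [neg_neg] using neg_mem h2
  rw [Finset.sum_eq_single_of_mem s.card hscard (fun i _ hi => by
    rw [hlead, if_neg hi, map_zero, zero_mul]), hlead, if_pos rfl] at h0
  obtain ⟨u, hu, hu'⟩ := coeff_tSer_order_isUnit (N := N)
  rw [hu'] at h0
  obtain ⟨v, huv⟩ := hu.exists_right_inv
  have hC : (HahnSeries.C (-(v : Qb)) : LaurentSeries Qb) ∈ B := by
    rw [map_neg]; exact neg_mem (intCast_mem_cRing B v)
  have h2 := mul_mem_nonunits B (mul_mem hC (pow_mem ht' s.card)) h0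
  have e : HahnSeries.C (-(v : Qb)) * (tSer Qb N)⁻¹ ^ s.card *
      (HahnSeries.C (-(u : Qb)) * tSer Qb N ^ s.card) = 1 := by
    rw [mul_mul_mul_comm, ← map_mul, ← mul_pow,
      inv_mul_cancel₀ (show tSer Qb N ≠ 0 from (tUnit Qb N).ne_zero), one_pow, mul_one,
      neg_mul_neg, ← Int.cast_mul, mul_comm, huv, Int.cast_one, map_one]
  have h1 : (1 : LaurentSeries Qb) ∈ B.nonunits := e ▸ h2
  rw [ValuationSubring.mem_nonunits_iff_or, inv_one] at h1
  exact h1.elim one_ne_zero fun h => h (one_mem B)

end FLTAgent.BadQ.TwoInst
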