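import Mathlib
import Fermat.Agent.BadQ.TwoInstValRel
import Fermat.Agent.BadQ.TwoInstTower
import Fermat.Agent.BadQ.TwoInstEtaleLocal
import Fermat.Agent.BadQ.OneIntegral
import Fermat.Agent.BadQ.One

/-!
# The valuative criterion for the charts of level `qM`

`scale_coord_mem_aux`: the coordinate at `qz` is integral over the one at `z`, and
`div_q_mem_chart1`: an element of the chart vanishing on both components is divisible by `q`.
Both are proved by testing valuation rings of `ℚ̄((q))`, with cases on `q` and on `j`.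
-/

set_option autoImplicit false
set_option linter.style.haveILetI false
set_option linter.unusedSectionVars false
set_option synthInstance.maxHeartbeats 400000
set_option maxHeartbeats 1000000

noncomputable section

open Polynomial ModularCurve

namespace FLTAgent.BadQ.TwoInst

open FLTAgent.Reduction FLTAgent.ModularCosets FLTAgent.Kronecker

local notation "Qb" => AlgebraicClosure ℚ

variable {A : ValuationSubring Qb} {q : ℕ} [hq : Fact q.Prime] (hA : A.LiesOverPrime q) (M : ℕ)
  [NeZero M] (hqM : ¬ q ∣ M) (hM : GoodLevel M) (b : Bool)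

variable (A) in
/-- The constants as series. -/
def cW : W0 A →+* LaurentSeries Qb :=
  (HahnSeries.C : Qb →+* LaurentSeries Qb).comp ((algebraMap (K0 A) Qb).comp (W0 A).subtype)

theorem cW_apply (w : W0 A) : cW A w = HahnSeries.C ((w : K0 A) : Qb) := rfl

section Eval

variable {N : ℕ} [NeZero N]

/-- Evaluation of polynomials over `W₀` at a function, as series. -/
def evalS (s : Fn A N) : (W0 A)[X] →+* LaurentSeries Qb := eval₂RingHom (cW A) (valFn N s)

theorem evalS_C (s : Fn A N) (w : W0 A) : evalS s (Polynomial.C w) = cW A w := eval₂_C _ _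

theorem evalS_X (s : Fn A N) : evalS s X = valFn N s := eval₂_X _ _

theorem evalS_eq (s : Fn A N) (p : (W0 A)[X]) : evalS s p = valFn N (aeval s p) := by
  rw [aeval_def, hom_eval₂]
  refine eval₂_congr (RingHom.ext fun w => ?_) rfl rfl
  rw [RingHom.comp_apply, algebraMap_W0_Fn, valFn_algebraMap]
  rfl

theorem evalS_injective {s : Fn A N} (hs : Transcendental (K0 A) s) :
    Function.Injective (evalS s) := by
  rw [injective_iff_map_eq_zero]
  intro p hp
  rw [evalS_eq, map_eq_zero_iff _ valFn_injective] at hp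
  exact transcendental_iff.mp (transcendental_base (W := W0 A) hs) p hp

theorem mem_intCl_of_isIntegralElem {s y : Fn A N}
    (h : (evalS s).IsIntegralElem (valFn N y)) : y ∈ TwoChart.intCl (W0 A) {s} := by
  obtain ⟨p, hp, hp0⟩ := h
  let ψ : (W0 A)[X] →+* Algebra.adjoin (W0 A) ({s} : Set (Fn A N)) :=
    (aeval (⟨s, Algebra.self_mem_adjoin_singleton (W0 A) s⟩ :
      Algebra.adjoin (W0 A) ({s} : Set (Fn A N)))).toRingHom
  refine ⟨p.map ψ, hp.map ψ, valFn_injective ?_⟩
  rw [eval₂_map, hom_eval₂, map_zero, ← hp0]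
  refine eval₂_congr (RingHom.ext fun r => ?_) rfl rfl
  rw [evalS_eq, RingHom.comp_apply, RingHom.comp_apply]
  exact congrArg (valFn N) ((aeval_algHom_apply (Algebra.adjoin (W0 A) ({s} : Set (Fn A N))).val
    (⟨s, Algebra.self_mem_adjoin_singleton (W0 A) s⟩ :
      Algebra.adjoin (W0 A) ({s} : Set (Fn A N))) r).symm)

variable (B : ValuationSubring (LaurentSeries Qb)) (hW : ∀ w : W0 A, cW A w ∈ B)

include hW in
theorem mem_of_mem_intCl {s y : Fn A N} (hs : valFn N s ∈ B)
    (hy : y ∈ TwoChart.intCl (W0 A) {s}) : valFn N y ∈ B := by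
  have hle : ∀ r : Algebra.adjoin (W0 A) ({s} : Set (Fn A N)), valFn N (r : Fn A N) ∈ B := by
    rintro ⟨r, hr⟩
    induction hr using Algebra.adjoin_induction with
    | mem z hz => show valFn N z ∈ B; rw [Set.mem_singleton_iff.1 hz]; exact hs
    | algebraMap w =>
      show valFn N (algebraMap (W0 A) (Fn A N) w) ∈ B
      rw [algebraMap_W0_Fn, valFn_algebraMap]
      exact hW w
    | add z w _ _ hz hw => show valFn N (z + w) ∈ B; rw [map_add]; exact add_mem hz hw
    | mul z w _ _ hz hw => show valFn N (z * w) ∈ B; rw [map_mul]; exact mul_mem hz hw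
  exact mem_of_isIntegral_of_forall (B.comap (valFn N))
    (R := Algebra.adjoin (W0 A) ({s} : Set (Fn A N))) hy hle

include hA hW in
/-- If `q` is invertible in a valuation ring then it contains all constants. -/
theorem C_mem_of_inv_mem (hqi : (q : Qb)⁻¹ ∈ cRing B) (x : Qb) : x ∈ cRing B := by
  have hK : ∀ c : K0 A, (c : Qb) ∈ cRing B := fun c => by
    obtain ⟨n, hn⟩ := exists_pow_mul_mem_W0 hA c
    have h1 : (((q : K0 A) ^ n * c : K0 A) : Qb) ∈ cRing B := hW ⟨_, hn⟩
    have h2 := mul_mem (pow_mem hqi n) h1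
    push_cast at h2
    rwa [← mul_assoc, ← mul_pow, inv_mul_cancel₀ (by exact_mod_cast hq.out.ne_zero), one_pow,
      one_mul] at h2
  refine mem_of_isIntegral_of_forall (B.comap (HahnSeries.C : Qb →+* LaurentSeries Qb)) (R := ℚ)
    (Algebra.IsAlgebraic.isAlgebraic x).isIntegral fun r => ?_
  have h := hK (r : K0 A)
  push_cast at h
  exact h

include hA hqM in
theorem inv_M_mem_W0 : ((M : K0 A))⁻¹ ∈ W0 A := by
  haveI := GalCommon.charP_residueField hq.out hA
  have h1 : redW A (M : W0 A) ≠ 0 := by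
    rw [map_natCast]
    exact fun h => hqM ((CharP.cast_eq_zero_iff (kres A) q M).1 h)
  rw [ne_eq, redW_eq_zero_iff hA, q_dvd_iff hA, not_lt] at h1
  rw [mem_W0, ← A.valuation_le_one_iff]
  push_cast
  rw [map_inv₀]
  push_cast at h1
  exact inv_le_one_of_one_le₀ h1

include hA hqM hW in
theorem inv_M_mem : (M : Qb)⁻¹ ∈ cRing B := by
  have h := hW ⟨_, inv_M_mem_W0 hA M hqM⟩
  rw [cW_apply] at h
  push_cast at h
  exact h

end Eval

section Scale

/-- The series of the coordinate. -/
theorem valFn_coord : valFn M (coord A M b) = if b then tSer Qb M else (tSer Qb M)⁻¹ := by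
  cases b
  · show valFn M (tFn A M)⁻¹ = _
    rw [map_inv₀, valFn_tFn]
    rfl
  · exact valFn_tFn M

variable (B : ValuationSubring (LaurentSeries Qb))

theorem qExpand_C (d : ℕ) [NeZero d] (x : Qb) :
    qExpand Qb d (HahnSeries.C x) = HahnSeries.C x := by
  rw [← Reduction.algebraMap_eq_C]
  exact (qExpandAlgHomC Qb d).commutes x

theorem jqModC_mem_of_coord (hM2 : 2 ≤ M) (hN : (M : Qb)⁻¹ ∈ cRing B)
    (h : valFn M (coord A M b) ∈ B) (h' : (valFn M (coord A M b))⁻¹ ∈ B) : jqModC Qb ∈ B := by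
  rw [valFn_coord] at h h'
  cases b
  · simp only [Bool.false_eq_true, if_false, inv_inv] at h h'
    exact jqModC_mem B hM2 hN h' h
  · exact jqModC_mem B hM2 hN h h'

theorem qExpand_coord_mem (hN : (M : Qb)⁻¹ ∈ cRing B) (hj : jqModC Qb ∈ B) :
    qExpand Qb q (valFn M (coord A M b)) ∈ B := by
  have h := tSer_mem (N := M) (B.comap (qExpand Qb q))
    (by show qExpand Qb q (HahnSeries.C _) ∈ B; rw [qExpand_C]; exact hN)
    (qExpand_jqModC_mem B hj)
  rw [valFn_coord]
  cases b
  · exact h.2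
  · exact h.1

variable {N : ℕ} [NeZero N]

/-- `f (z) ↦ f (z)` on the fields over `ℚ̄`. -/
def inclC (h : M ∣ N) : modularFunctionFieldFullC Qb M →+* modularFunctionFieldFullC Qb N :=
  RingHom.codRestrict (modularFunctionFieldFullC Qb M).val.toRingHom
    (modularFunctionFieldFullC Qb N).toSubfield.toSubring fun y => full_degeneracyC_le Qb h y.2

/-- `f (z) ↦ f (d z)` on the fields over `ℚ̄`. -/
def scaleC (d : ℕ) [NeZero d] (h : M * d ∣ N) :
    modularFunctionFieldFullC Qb M →+* modularFunctionFieldFullC Qb N :=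
  RingHom.codRestrict ((qExpand Qb d).comp (modularFunctionFieldFullC Qb M).val.toRingHom)
    (modularFunctionFieldFullC Qb N).toSubfield.toSubring fun y => qExpand_mem_fullC h y.2

theorem mem_iff_coset {c : CosetIdx N} {σ : modularFunctionFieldFullC Qb M →+*
      modularFunctionFieldFullC Qb N} (hσ : ∀ a, σ (algebraMap Qb _ a) = algebraMap Qb _ a)
    (hM2 : 2 ≤ M) {d₁ d₂ : DivIdx N}
    (h1 : σ (jdF (N := M) Qb ⟨1, Nat.mem_divisors.mpr ⟨one_dvd M, NeZero.ne M⟩⟩) = jdF Qb d₁)
    (h2 : σ (jdF (N := M) Qb (Reduction.topDiv M)) = jdF Qb d₂) :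
    ∃ a : ℕ, a * a * ((Nat.gcd d₁ c.a * Nat.gcd d₁ c.a * (N / (d₁ : ℕ)))) =
        (Nat.gcd d₂ c.a * Nat.gcd d₂ c.a * (N / (d₂ : ℕ))) * M ∧
      ((σ (unitF (phiQ M))) ∈ ordRing (emb (phiQ N) c).toRingHom ↔ a ≠ M) ∧
      ((σ (unitF (phiQ M)))⁻¹ ∈ ordRing (emb (phiQ N) c).toRingHom ↔ a = M) := by
  haveI : Infinite Qb := IsAlgClosed.instInfinite
  set τ := (emb (phiQ N) c).toRingHom.comp σ with hτ
  set one : DivIdx M := ⟨1, Nat.mem_divisors.mpr ⟨one_dvd M, NeZero.ne M⟩⟩
  have hone : jdF (N := M) Qb one = jF M Qb := by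
    refine Subtype.ext ?_
    show qExpand Qb 1 (jqModC Qb) = _
    rw [qExpand_one_apply]
    rfl
  have hpos : 0 < Nat.gcd d₁ c.a * Nat.gcd d₁ c.a * (N / (d₁ : ℕ)) :=
    Nat.mul_pos (Nat.mul_pos (Nat.gcd_pos_of_pos_right _ (Nat.pos_of_ne_zero c.a_ne_zero))
      (Nat.gcd_pos_of_pos_right _ (Nat.pos_of_ne_zero c.a_ne_zero)))
      (Nat.div_pos (Nat.le_of_dvd (NeZero.pos N) d₁.dvd) (NeZero.pos _))
  have ho1 : (τ (jF M Qb)).order = -((Nat.gcd d₁ c.a * Nat.gcd d₁ c.a * (N / (d₁ : ℕ)) : ℕ) : ℤ) := by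
    rw [← hone]
    show (emb (phiQ N) c (σ _)).order = _
    rw [h1, order_emb_jdF]
  have hjV : jF M Qb ∉ ordRing τ := by
    rw [mem_ordRing, ho1]
    omega
  obtain ⟨c', hc'⟩ := exists_eq_ordRing (phiQ M) (ordRing τ) (fun a => by
    show 0 ≤ (emb (phiQ N) c (σ (algebraMap Qb _ a))).order
    rw [hσ, AlgHom.commutes, Reduction.algebraMap_eq_C, HahnSeries.order_C]) hjV
  have hc0 : ((emb (phiQ M) c').toRingHom (jF M Qb)⁻¹).order = (M : ℤ) := by
    rw [map_inv₀, order_inv']
    show -(emb (phiQ M) c' (jF M Qb)).order = _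
    rw [emb_jF, order_jUp, neg_neg]
  have hp := ord_proportional hc'.symm (x := (jF M Qb)⁻¹)
    (y := jdF (N := M) Qb (Reduction.topDiv M))
    (by rw [hc0]; exact_mod_cast NeZero.pos M)
  have e2 : (τ (jdF (N := M) Qb (Reduction.topDiv M))).order =
      -((Nat.gcd d₂ c.a * Nat.gcd d₂ c.a * (N / (d₂ : ℕ)) : ℕ) : ℤ) := by
    show (emb (phiQ N) c (σ _)).order = _
    rw [h2, order_emb_jdF]
  have e3 : ((emb (phiQ M) c').toRingHom (jdF (N := M) Qb (Reduction.topDiv M))).order =
      -((c'.a * c'.a : ℕ) : ℤ) := by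
    show (emb (phiQ M) c' _).order = _
    rw [order_emb_jdF]
    show -((Nat.gcd M c'.a * Nat.gcd M c'.a * (M / M) : ℕ) : ℤ) = _
    rw [Nat.gcd_eq_right c'.a_dvd, Nat.div_self (NeZero.pos M), mul_one]
  rw [hc0, e2, e3, map_inv₀ τ, order_inv', ho1] at hp
  have hinf : (emb (phiQ M) (cosetInf M) (unitF (phiQ M))).order < 0 := by
    rw [emb_cosetInf, upVal_apply]
    show (qScale Qb M (tSer Qb M)).order < 0
    rw [Reduction.order_qScale (NeZero.ne M) (show tSer Qb M ≠ 0 from (tUnit Qb M).ne_zero)]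
    exact mul_neg_of_pos_of_neg (by exact_mod_cast NeZero.pos M) (order_tSer_neg hM2)
  have hca : c'.a = M ↔ c' = cosetInf M :=
    ⟨eq_cosetInf_of_a_eq, fun h => by rw [h]; rfl⟩
  have hmem : ∀ y, σ y ∈ ordRing (emb (phiQ N) c).toRingHom ↔
      0 ≤ (emb (phiQ M) c' y).order := fun y => by
    rw [show (0 ≤ (emb (phiQ M) c' y).order) = (y ∈ ordRing (emb (phiQ M) c').toRingHom) from rfl,
      ← hc']
    rfl
  refine ⟨c'.a, ?_, ?_, ?_⟩
  · have h4 : ((c'.a * c'.a * (Nat.gcd d₁ c.a * Nat.gcd d₁ c.a * (N / (d₁ : ℕ))) : ℕ) : ℤ) =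
        (((Nat.gcd d₂ c.a * Nat.gcd d₂ c.a * (N / (d₂ : ℕ))) * M : ℕ) : ℤ) := by
      push_cast at hp ⊢
      linear_combination hp
    exact_mod_cast h4
  · rw [hmem, ne_eq, hca]
    refine ⟨fun h he => ?_, fun h => (order_emb_unitF_pos _ c' h).le⟩
    rw [he] at h
    omega
  · rw [← map_inv₀, hmem, map_inv₀, order_inv', hca]
    refine ⟨fun h => by_contra fun he => ?_, fun h => by rw [h]; omega⟩
    have := order_emb_unitF_pos (phiQ M) c' he
    omega

include hqM in
/-- At the poles of `j` the coordinates at `z` and at `q z` have the same sign. -/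
theorem coord_mem_iff (hM2 : 2 ≤ M) (hC : ∀ x, x ∈ cRing B) (hj : jqModC Qb ∉ B) :
    valFn M (coord A M b) ∈ B ↔ qExpand Qb q (valFn M (coord A M b)) ∈ B := by
  haveI : Infinite Qb := IsAlgClosed.instInfinite
  set E := modularFunctionFieldFullC Qb (q * M)
  have hVmem : ∀ y : E, y ∈ B.comap E.val.toRingHom ↔ (y : LaurentSeries Qb) ∈ B := fun y => Iff.rfl
  obtain ⟨c, hc⟩ := exists_eq_ordRing (phiQ (q * M)) (B.comap E.val.toRingHom) (fun a => by
      rw [hVmem]
      show algebraMap Qb (LaurentSeries Qb) a ∈ B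
      rw [Reduction.algebraMap_eq_C]
      exact hC a)
    (fun h => hj h)
  have hqMd : ∀ d, d ∣ q * M → d ∈ (q * M).divisors := fun d hd =>
    Nat.mem_divisors.mpr ⟨hd, NeZero.ne _⟩
  obtain ⟨a₁, e₁, hu₁, hv₁⟩ := mem_iff_coset (c := c) (σ := inclC M (dvd_qM q M))
    (d₁ := ⟨1, hqMd 1 (one_dvd _)⟩) (d₂ := ⟨M, hqMd M (dvd_qM q M)⟩) M
    (fun a => Subtype.ext rfl) hM2 (Subtype.ext rfl) (Subtype.ext rfl)
  obtain ⟨a₂, e₂, hu₂, hv₂⟩ := mem_iff_coset (c := c) (σ := scaleC M q (mul_q_dvd q M))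
    (d₁ := ⟨q, hqMd q (dvd_mul_right q M)⟩) (d₂ := ⟨q * M, hqMd _ dvd_rfl⟩) M
    (fun a => Subtype.ext ((qExpandAlgHomC Qb q).commutes a)) hM2
    (Subtype.ext (by
      show qExpand Qb q (qExpand Qb 1 (jqModC Qb)) = qExpand Qb q (jqModC Qb)
      rw [qExpand_one_apply]))
    (Subtype.ext (by
      show qExpand Qb q (qExpand Qb M (jqModC Qb)) = qExpand Qb (q * M) (jqModC Qb)
      rw [qExpand_qExpand]))
  have hq0 := hq.out.pos
  have ha : a₁ = a₂ := by
    have hsplit : c.a = Nat.gcd c.a q * Nat.gcd c.a M := by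
      rw [← Nat.Coprime.gcd_mul c.a ((hq.out.coprime_iff_not_dvd).2 hqM), Nat.gcd_eq_left c.a_dvd]
    change a₁ * a₁ * (Nat.gcd 1 c.a * Nat.gcd 1 c.a * (q * M / 1)) =
      Nat.gcd M c.a * Nat.gcd M c.a * (q * M / M) * M at e₁
    change a₂ * a₂ * (Nat.gcd q c.a * Nat.gcd q c.a * (q * M / q)) =
      Nat.gcd (q * M) c.a * Nat.gcd (q * M) c.a * (q * M / (q * M)) * M at e₂
    rw [Nat.gcd_one_left, Nat.div_one, one_mul, one_mul, Nat.mul_div_cancel _ (NeZero.pos M),
      Nat.gcd_comm M] at e₁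
    rw [Nat.gcd_eq_right c.a_dvd, Nat.div_self (NeZero.pos _), mul_one,
      Nat.mul_div_cancel_left _ hq0, Nat.gcd_comm q] at e₂
    have hg : 0 < Nat.gcd c.a q := Nat.gcd_pos_of_pos_right _ hq0
    have h1 : a₁ = Nat.gcd c.a M := Nat.mul_self_inj.mp (Nat.eq_of_mul_eq_mul_right
      (Nat.mul_pos hq0 (NeZero.pos M)) (by linarith [e₁]))
    have h2 : a₂ * Nat.gcd c.a q = c.a := Nat.mul_self_inj.mp (Nat.eq_of_mul_eq_mul_right
      (NeZero.pos M) (by linarith [e₂]))
    rw [h1]
    refine Nat.eq_of_mul_eq_mul_right hg ?_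
    rw [h2, mul_comm]
    exact hsplit.symm
  rw [← hc] at hu₁ hv₁ hu₂ hv₂
  rw [valFn_coord]
  cases b
  · simp only [Bool.false_eq_true, if_false]
    rw [map_inv₀ (qExpand Qb q)]
    exact hv₁.trans ((by rw [ha] : a₁ = M ↔ a₂ = M).trans hv₂.symm)
  · simp only [if_true]
    exact hu₁.trans ((by rw [ha] : a₁ ≠ M ↔ a₂ ≠ M).trans hu₂.symm)

include hA hqM hM in
/-- The coordinate at `q z` is integral over the one at `z`. -/
theorem scale_coord_mem_aux :
    scale q (mul_q_dvd q M) (coord A M b) ∈ chart1 A q M b := by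
  haveI := isDiscreteValuationRing_W0 hA
  have hM2 := hM.two_le
  set s := incl (dvd_qM q M) (coord A M b) with hs
  set z := valFn (q * M) (scale q (mul_q_dvd q M) (coord A M b)) with hz
  have hinj := evalS_injective (A := A) (s := s) (transcendental_incl_coord A hM2 b (dvd_qM q M))
  letI : Algebra (W0 A)[X] (LaurentSeries Qb) := (evalS s).toAlgebra
  haveI : FaithfulSMul (W0 A)[X] (LaurentSeries Qb) :=
    (faithfulSMul_iff_algebraMap_injective _ _).2 hinj
  have hne : ∀ r : (W0 A)[X], r ≠ 0 → evalS s r ≠ 0 := fun r hr h =>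
    hr (hinj (h.trans (map_zero _).symm))
  have hsv : evalS s X = valFn M (coord A M b) := by rw [evalS_X, hs, valFn_incl]
  have hzv : z = qExpand Qb q (valFn M (coord A M b)) := valFn_scale _ _
  -- after inverting the coordinate
  obtain ⟨_, ⟨m, rfl⟩, h1⟩ := exists_isIntegral_mul_of_forall (R := (W0 A)[X])
    (L := LaurentSeries Qb) (Submonoid.powers X)
    (by rintro _ ⟨n, rfl⟩; exact hne _ (pow_ne_zero n X_ne_zero)) (y := z) (by
      intro V hV hVS
      have hW : ∀ w, cW A w ∈ V := fun w => evalS_C s w ▸ hV (Polynomial.C w)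
      rw [hzv]
      refine qExpand_coord_mem M b V (inv_M_mem hA M hqM V hW) ?_
      refine jqModC_mem_of_coord M b V hM2 (inv_M_mem hA M hqM V hW) (hsv ▸ hV X) ?_
      rw [← hsv]
      exact hVS X (Submonoid.mem_powers _))
  -- over the generic fibre
  obtain ⟨_, ⟨w, hw, rfl⟩, h2⟩ := exists_isIntegral_mul_of_forall (R := (W0 A)[X])
    (L := LaurentSeries Qb) ((nonZeroDivisors (W0 A)).map (Polynomial.C : W0 A →+* (W0 A)[X]))
    (by
      rintro _ ⟨w, hw, rfl⟩
      exact hne _ (C_eq_zero.not.2 (nonZeroDivisors.ne_zero hw)))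
    (y := z) (by
      intro V hV hVS
      have hW : ∀ w, cW A w ∈ V := fun w => evalS_C s w ▸ hV (Polynomial.C w)
      have hqi : (q : Qb)⁻¹ ∈ cRing V := by
        have h := hVS (Polynomial.C (qW A q))
          ⟨qW A q, mem_nonZeroDivisors_of_ne_zero qW_ne_zero, rfl⟩
        change (evalS s (Polynomial.C (qW A q)))⁻¹ ∈ V at h
        rw [evalS_C, cW_apply, coe_qW, ← map_inv₀] at h
        exact h
      rw [hzv]
      by_cases hj : jqModC Qb ∈ V
      · exact qExpand_coord_mem M b V (inv_M_mem hA M hqM V hW) hj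
      · exact (coord_mem_iff M hqM b V hM2 (C_mem_of_inv_mem hA V hW hqi) hj).1 (hsv ▸ hV X))
  refine mem_intCl_of_isIntegralElem ?_
  refine isIntegral_of_two (p := (X : (W0 A)[X])) (h := Polynomial.C w) Polynomial.prime_X
    (fun hd => ?_) h1 h2
  rw [X_dvd_iff, coeff_C_zero] at hd
  exact nonZeroDivisors.ne_zero hw hd

end Scale

section Split

variable (B : ValuationSubring (LaurentSeries Qb)) (hW : ∀ w : W0 A, cW A w ∈ B)

theorem mem_nonunits_of_mul {x y : LaurentSeries Qb} (hx : x ∈ B) (hy : y ∈ B)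
    (h : x * y ∈ B.nonunits) : x ∈ B.nonunits ∨ y ∈ B.nonunits := by
  simp only [ValuationSubring.mem_nonunits_iff] at h ⊢
  by_contra hne
  push Not at hne
  rw [map_mul, le_antisymm ((B.valuation_le_one_iff x).2 hx) hne.1,
    le_antisymm ((B.valuation_le_one_iff y).2 hy) hne.2, one_mul] at h
  exact lt_irrefl _ h

include hA hW in
/-- A zero modulo the maximal ideal of a polynomial which is nonzero modulo `q` is congruent to a
constant. -/
theorem exists_sub_cW_mem {x : LaurentSeries Qb} (hx : x ∈ B)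
    (hqn : cW A (qW A q) ∈ B.nonunits) (h : (W0 A)[X]) (hh : h.map (redW A) ≠ 0)
    (hz : h.eval₂ (cW A) x ∈ B.nonunits) : ∃ c : W0 A, x - cW A c ∈ B.nonunits := by
  haveI := GalCommon.isAlgClosed_residueField A hq.out hA
  have hev : ∀ r : (W0 A)[X], r.eval₂ (cW A) x ∈ B := fun r => by
    rw [eval₂_eq_sum_range]
    exact sum_mem fun i _ => mul_mem (hW _) (pow_mem hx i)
  have hcong : ∀ r r' : (W0 A)[X], r.map (redW A) = r'.map (redW A) →
      r.eval₂ (cW A) x ∈ B.nonunits → r'.eval₂ (cW A) x ∈ B.nonunits := by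
    intro r r' he hr
    have hd : Polynomial.C (qW A q) ∣ r - r' := by
      rw [C_dvd_iff_dvd_coeff]
      intro i
      rw [← redW_eq_zero_iff hA, ← coeff_map, Polynomial.map_sub, he, sub_self, coeff_zero]
    obtain ⟨u, hu⟩ := hd
    have h1 : (r - r').eval₂ (cW A) x ∈ B.nonunits := by
      rw [hu, eval₂_mul, eval₂_C, mul_comm]
      exact mul_mem_nonunits B (hev u) hqn
    rw [eval₂_sub] at h1
    simpa using sub_mem hr h1
  obtain ⟨n, hn⟩ : ∃ n, (h.map (redW A)).natDegree = n := ⟨_, rfl⟩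
  induction n using Nat.strong_induction_on generalizing h with
  | _ n ih =>
    rcases Nat.eq_zero_or_pos n with rfl | hpos
    · exfalso
      obtain ⟨u, hu⟩ := redW_surjective hA ((h.map (redW A)).coeff 0)
      have hu0 : redW A u ≠ 0 := fun h0 => hh (by
        rw [eq_C_of_natDegree_eq_zero hn, ← hu, h0, map_zero])
      have h1 := hcong h (Polynomial.C u)
        (by rw [Polynomial.map_C, hu, ← eq_C_of_natDegree_eq_zero hn]) hz
      rw [eval₂_C] at h1
      rw [ne_eq, redW_eq_zero_iff hA] at hu0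
      haveI := isDiscreteValuationRing_W0 hA
      obtain ⟨v, rfl⟩ : IsUnit u := by
        by_contra hnu
        exact hu0 (by
          have := (IsLocalRing.mem_maximalIdeal u).2 hnu
          rw [(qW_irreducible hA).maximalIdeal_eq, Ideal.mem_span_singleton] at this
          exact this)
      have h2 := mul_mem_nonunits B (hW (↑v⁻¹)) h1
      rw [← map_mul, Units.inv_mul, map_one, ValuationSubring.mem_nonunits_iff_or, inv_one] at h2
      exact h2.elim one_ne_zero fun h => h (one_mem B)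
    · obtain ⟨r, hr⟩ := IsAlgClosed.exists_root (h.map (redW A))
        (fun h0 => by rw [← natDegree_eq_zero_iff_degree_le_zero.2 (le_of_eq h0)] at hpos; omega)
      obtain ⟨c, rfl⟩ := redW_surjective hA r
      obtain ⟨g, hg⟩ := dvd_iff_isRoot.2 hr
      obtain ⟨g', rfl⟩ := Polynomial.map_surjective (redW A) (redW_surjective hA) g
      have hg0 : g'.map (redW A) ≠ 0 := fun h0 => hh (by rw [hg, h0, mul_zero])
      have h1 := hcong h ((X - Polynomial.C c) * g')
        (by rw [hg, Polynomial.map_mul, Polynomial.map_sub, map_X, Polynomial.map_C]) hz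
      rw [eval₂_mul, eval₂_sub, eval₂_X, eval₂_C] at h1
      rcases mem_nonunits_of_mul B (sub_mem hx (hW c)) (hev g') h1 with h2 | h2
      · exact ⟨c, h2⟩
      · refine ih (g'.map (redW A)).natDegree ?_ g' hg0 h2 rfl
        rw [← hn, hg, natDegree_mul (X_sub_C_ne_zero _) hg0, natDegree_X_sub_C]
        omega

end Split

section Reduced

variable (A) in
/-- The constants in `ℚ̄`. -/
def wRing : Subring Qb := (W0 A).toSubring.map (algebraMap (K0 A) Qb)

include hA hqM in
theorem phiQ_mem_wRing (z : zetaRing M) : phiQ M z ∈ wRing A := by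
  obtain ⟨z, hz⟩ := z
  induction hz using Subring.closure_induction with
  | mem x hx =>
    rcases hx with rfl | hx
    · have h1 : phiQ M ⟨_, zetaU_mem M⟩ ^ M = 1 := by
        rw [← map_pow, show ((⟨_, zetaU_mem M⟩ : zetaRing M)) ^ M = 1 from
          Subtype.ext (zetaU_val_pow M), map_one]
      exact ⟨⟨_, mem_K0_of_pow_eq_one hA hqM h1⟩, GalCommon.mem_of_isIntegral A
        (IsIntegral.of_pow (NeZero.pos M) (h1 ▸ isIntegral_one)), rfl⟩
    · obtain rfl : x = ((M : ℂ))⁻¹ := hx
      have h1 : (M : Qb) * phiQ M ⟨_, natCast_inv_mem M⟩ = 1 := by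
        rw [← map_natCast (phiQ M), ← map_mul, ← map_one (phiQ M)]
        exact congrArg _ (Subtype.ext (by
          push_cast
          exact mul_inv_cancel₀ (by exact_mod_cast NeZero.ne M)))
      rw [eq_inv_of_mul_eq_one_right h1]
      exact ⟨_, inv_M_mem_W0 hA M hqM, by simp⟩
  | zero => exact (map_zero (phiQ M)).symm ▸ zero_mem _
  | one => exact (map_one (phiQ M)).symm ▸ one_mem _
  | add x y hx hy h1 h2 => exact (map_add (phiQ M) ⟨x, hx⟩ ⟨y, hy⟩).symm ▸ add_mem h1 h2
  | neg x hx h1 => exact (map_neg (phiQ M) ⟨x, hx⟩).symm ▸ neg_mem h1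
  | mul x y hx hy h1 h2 => exact (map_mul (phiQ M) ⟨x, hx⟩ ⟨y, hy⟩).symm ▸ mul_mem h1 h2

variable (B : ValuationSubring (LaurentSeries Qb)) (hW : ∀ w : W0 A, cW A w ∈ B)

include hA hqM hW in
/-- If `j` is congruent to a constant then so is the coordinate. -/
theorem exists_sub_tSer_mem (hqn : cW A (qW A q) ∈ B.nonunits) (hj : jqModC Qb ∈ B) {c : W0 A}
    (hc : jqModC Qb - cW A c ∈ B.nonunits) :
    ∃ c' : W0 A, tSer Qb M - cW A c' ∈ B.nonunits := by
  classical
  obtain ⟨P, hP1, hsum, hk, -⟩ := exists_family_relation B (unitFamily M) (upHom_tSer (phiQ M))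
  have hcoef : ∀ i n, (P i).coeff n ∈ wRing A := fun i =>
    coeff_mem_of_aeval_jqModC (wRing A) _ fun k => by
      rw [hk]
      exact coeff_famPoly_mem (wRing A) _ (fun c k => by
        rw [coeffMap_coeff]; exact phiQ_mem_wRing hA M hqM _) i _
  set n := Fintype.card (CosetIdx M)
  have hlift : ∀ i, ∃ Q : (W0 A)[X], Q.map ((algebraMap (K0 A) Qb).comp (W0 A).subtype) = P i :=
    fun i => (Polynomial.mem_lifts _).mp ((lifts_iff_coeff_lifts _).2 fun k => by
      obtain ⟨w, hw, hwe⟩ := hcoef i k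
      exact ⟨⟨w, hw⟩, hwe⟩)
  choose Q hQ using hlift
  have hQe : ∀ i, aeval (jqModC Qb) (P i) = (Q i).eval₂ (cW A) (jqModC Qb) := fun i => by
    rw [← hQ, aeval_def, eval₂_map, Reduction.algebraMap_eq_C]
    rfl
  set g : (W0 A)[X] := ∑ i ∈ Finset.range (n + 1), Polynomial.C ((Q i).eval c) * X ^ i
  have hgn : g.coeff n = 1 := by
    have hone : Q n = 1 := Polynomial.map_injective
      ((algebraMap (K0 A) Qb).comp (W0 A).subtype)
      ((algebraMap (K0 A) Qb).injective.comp Subtype.val_injective)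
      (by rw [hQ, hP1, Polynomial.map_one])
    simp only [g, finsetSum_coeff, coeff_C_mul_X_pow]
    rw [Finset.sum_eq_single_of_mem n (Finset.mem_range.2 (Nat.lt_succ_self n))
      (fun i _ hi => by rw [if_neg (Ne.symm hi)]), if_pos rfl, hone, eval_one]
  have hg : g.map (redW A) ≠ 0 := fun h0 => by
    have h1 := congrArg (fun p : (kres A)[X] => p.coeff n) h0
    simp [coeff_map, hgn] at h1
  have ht : tSer Qb M ∈ B :=
    (tSer_mem B (inv_M_mem hA M hqM B hW) hj).1
  refine exists_sub_cW_mem hA B hW ht hqn g hg ?_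
  rw [eval₂_finsetSum]
  have h2 : ∑ i ∈ Finset.range (n + 1),
      ((Q i).eval₂ (cW A) (jqModC Qb) - cW A ((Q i).eval c)) * tSer Qb M ^ i ∈ B.nonunits := by
    refine sum_mem fun i _ => ?_
    rw [mul_comm]
    refine mul_mem_nonunits B (pow_mem ht i) ?_
    obtain ⟨r, hr⟩ := (X_sub_C_dvd_sub_C_eval (p := Q i) (a := c))
    have h3 := congrArg (fun p : (W0 A)[X] => p.eval₂ (cW A) (jqModC Qb)) hr
    simp only [eval₂_sub, eval₂_mul, eval₂_X, eval₂_C] at h3
    rw [h3, mul_comm]
    refine mul_mem_nonunits B ?_ hc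
    rw [eval₂_eq_sum_range]
    exact sum_mem fun a _ => mul_mem (hW _) (pow_mem hj a)
  simp only [sub_mul, Finset.sum_sub_distrib, ← hQe, hsum, zero_sub] at h2
  simpa [eval₂_mul, eval₂_C, eval₂_X_pow] using neg_mem h2

include hA hqM hM in
/-- The relation over `j` of an element vanishing on both components. -/
theorem exists_j_relation {a : Fn A (q * M)}
    (h1 : valFn (q * M) a ∈ gV A (IsLocalRing.residue A))
    (h1' : gval A (IsLocalRing.residue A) (valFn (q * M) a) = 0)
    (h2 : valFn (q * M) (wAL M hqM a) ∈ gV A (IsLocalRing.residue A))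
    (h2' : gval A (IsLocalRing.residue A) (valFn (q * M) (wAL M hqM a)) = 0) :
    ∃ h : (W0 A)[X], h.map (redW A) ≠ 0 ∧ ∀ V : ValuationSubring (LaurentSeries Qb),
      (∀ w, cW A w ∈ V) → jqModC Qb ∈ V →
      HahnSeries.C ((q : Qb)⁻¹) * (h.eval₂ (cW A) (jqModC Qb) * valFn (q * M) a) ∈ V := by
  classical
  set bb := base hA
  set y := jFn A (q * M) 1 (one_dvd _)
  have hyt : Transcendental (K0 A) y := transcendental_jFn (q * M)
  haveI := finiteDimensional_Fn hyt
  haveI := FF.finiteDimensional_adjoin_of_transcendental (transcendental_coe hyt)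
  let jd : ∀ d, d ∣ q * M → Fn A (q * M) := fun d hd =>
    haveI : NeZero d := ⟨ne_zero_of_dvd_ne_zero (NeZero.ne _) hd⟩
    jFn A (q * M) d hd
  have hjd : ∀ d (hd : d ∣ q * M), valFn (q * M) (jd d hd) = jSeries Qb d := fun d hd => by
    haveI : NeZero d := ⟨ne_zero_of_dvd_ne_zero (NeZero.ne _) hd⟩
    show valFn (q * M) (jFn A (q * M) d hd) = _
    rw [valFn_jFn, jSeries, qScale_eq]
  let fam : FamIdx M q → Fn A (q * M)
    | Sum.inl i => jd M (dvd_qM q M) ^ (i : ℕ) *
        (jd 1 (one_dvd _) - jd q (dvd_mul_right q M) ^ q)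
    | Sum.inr (i, l) => jd (M * q) (mul_q_dvd q M) ^ (i : ℕ) * jd q (dvd_mul_right q M) ^ (l : ℕ) *
        (jd q (dvd_mul_right q M) - jd 1 (one_dvd _) ^ q)
  have hswap : ∀ j, swapHom A q M (fam j) = (famV A M q hq.out hqM j : modularFunctionFieldBar (M * q)) := by
    have hj' : ∀ d (hd : d ∣ q * M) (hd' : d ∣ M * q), swapHom A q M (jd d hd) =
        ((jV A M q hq.out hqM d hd' : bothV A M q hq.out hqM) : modularFunctionFieldBar (M * q)) :=
      fun d hd hd' => Subtype.ext ((coe_swapHom A q M _).trans (hjd d hd))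
    rintro (i | ⟨i, l⟩) <;>
      simp [fam, famV, BadQ.zI, BadQ.zO, hj' _ _ (dvd_mul_right M q), hj' _ _ (one_dvd _),
        hj' _ _ (dvd_mul_left q M), hj' _ _ dvd_rfl]
  have hy1 : swapHom A q M y = jAt ⟨1, Nat.mem_divisors.mpr ⟨one_dvd _, NeZero.ne _⟩⟩ :=
    Subtype.ext ((coe_swapHom A q M _).trans (hjd 1 (one_dvd _)))
  let v : Option (FamIdx M q) → Fn A (q * M) := fun o => o.elim a fam
  have hrank : Module.finrank (IntermediateField.adjoin (K0 A) ({y} : Set (Fn A (q * M))))
      (Fn A (q * M)) < Fintype.card (Option (FamIdx M q)) := by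
    refine lt_of_le_of_lt (le_trans (le_of_eq (Fintype.card_fin _).symm)
      (linearIndependent_coe (Module.finBasis _ (Fn A (q * M))).linearIndependent
        hyt).fintype_card_le_finrank) ?_
    rw [finrank_bar_over_j (q * M) _ (by
      show valFn (q * M) y = _
      rw [valFn_jFn, qExpand_one_apply, coeffEmb_jq_eq]), mul_comm q M,
      dedekindPsi_mul_prime M hq.out, if_neg hqM]
    simp only [Fintype.card_option, Fintype.card_sum, Fintype.card_prod, Fintype.card_fin]
    rw [add_mul, one_mul, mul_comm q]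
    omega
  obtain ⟨P, hP, hrel⟩ := exists_poly_relation y v hrank
  obtain ⟨w, Q, hw, hQ⟩ : ∃ (w : W0 A) (Q : Option (FamIdx M q) → (W0 A)[X]), w ≠ 0 ∧
      ∀ o, (Q o).map (W0 A).subtype = Polynomial.C (w : K0 A) * P o := bb.exists_denom P
  have hQ0 : Q ≠ 0 := by
    intro h
    refine hP (funext fun o => ?_)
    have := hQ o
    rw [h, Pi.zero_apply, Polynomial.map_zero, eq_comm, mul_eq_zero] at this
    exact this.resolve_left (by rw [C_eq_zero]; exact fun h' => hw (Subtype.ext h'))
  obtain ⟨m, Q', hQ', o₀, ho₀⟩ : ∃ (m : ℕ) (Q' : Option (FamIdx M q) → (W0 A)[X]),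
      (∀ o, Q o = Polynomial.C (qW A q) ^ m * Q' o) ∧ ∃ o, (Q' o).map (redW A) ≠ 0 :=
    bb.exists_content Q hQ0
  have hev : ∀ r : (W0 A)[X], aeval y r = aeval y (r.map (W0 A).subtype) := fun r => by
    rw [aeval_def, aeval_def, eval₂_map]
    rfl
  have hsum : ∑ o, aeval y (Q' o) * v o = 0 := by
    have e : ∀ o, aeval y (Q o) * v o =
        algebraMap (K0 A) _ (w : K0 A) * (aeval y (P o) * v o) := fun o => by
      rw [hev (Q o), hQ o, map_mul, aeval_C, mul_assoc]
    have h0 : ∑ o, aeval y (Q o) * v o = 0 := by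
      rw [Finset.sum_congr rfl fun o _ => e o, ← Finset.mul_sum, hrel, mul_zero]
    simp only [hQ', map_mul, mul_assoc, ← Finset.mul_sum, mul_eq_zero] at h0
    refine h0.resolve_left ?_
    rw [map_pow, aeval_C, algebraMap_W0_Fn]
    exact pow_ne_zero _ ((_root_.map_ne_zero _).2 fun h => qW_ne_zero (A := A) (q := q) (Subtype.ext h))
  -- move to the reductions
  let toA' : (W0 A)[X] →+* A[X] := mapRingHom (toA A)
  have hpoly : ∀ r : (W0 A)[X], swapHom A q M (aeval y r) =
      ((polyV A M q hq.out hqM (toA' r) : bothV A M q hq.out hqM) :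
        modularFunctionFieldBar (M * q)) := fun r => by
    rw [coe_polyV, aeval_def, hom_eval₂, hy1]
    simp only [toA', coe_mapRingHom, Polynomial.map_map, aeval_def, eval₂_map]
    refine eval₂_congr (RingHom.ext fun w => Subtype.ext ?_) rfl rfl
    rw [RingHom.comp_apply, coe_swapHom, algebraMap_W0_Fn, valFn_algebraMap,
      ← ModularCosets.algebraMap_eq_HC]
    rfl
  have haI : swapHom A q M a ∈ VI A M q := h1
  have haO : swapHom A q M a ∈ VO A M q hq.out hqM := by
    rw [mem_VO, ← swapHom_wAL]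
    exact h2
  let aV : bothV A M q hq.out hqM := ⟨_, haI, haO⟩
  have hV : polyV A M q hq.out hqM (toA' (Q' none)) * aV +
      ∑ j, polyV A M q hq.out hqM (toA' (Q' (some j))) * famV A M q hq.out hqM j = 0 := by
    refine Subtype.ext ?_
    push_cast
    rw [← hpoly]
    simp only [← hpoly, ← hswap]
    have := congrArg (swapHom A q M) hsum
    rw [Fintype.sum_option, map_add, map_mul, map_zero, map_sum] at this
    simpa [v, map_mul] using this
  have hrI : rIHom A M q hq.out hqM aV = 0 := h1'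
  have hrO : rOHom A M q hq.out hqM aV = 0 := by
    show redI A M q (atkinLehner hq.out hqM (swapHom A q M a)) = 0
    rw [← swapHom_wAL]
    exact h2'
  have hI := congrArg (rIHom A M q hq.out hqM) hV
  have hO := congrArg (rOHom A M q hq.out hqM) hV
  simp only [map_add, map_mul, map_sum, map_zero, hrI, mul_zero, zero_add, rI_polyV] at hI
  simp only [map_add, map_mul, map_sum, map_zero, hrO, mul_zero, zero_add,
    rO_polyV A M q hq.out hqM hA] at hO
  rw [Fintype.sum_sum_type] at hI hO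
  simp only [(r_fam A M q hq.out hqM hA _).1, mul_zero, Finset.sum_const_zero, add_zero] at hI
  simp only [(r_fam A M q hq.out hqM hA _).2, mul_zero, Finset.sum_const_zero, zero_add] at hO
  simp only [← mul_assoc, ← Finset.sum_mul] at hI
  rw [Fintype.sum_prod_type] at hO
  simp only [← mul_assoc, ← Finset.sum_mul] at hO
  have hPI := indep_powers A M q hq.out hqM hA _
    ((mul_eq_zero.mp hI).resolve_right (zeta_ne_zero A q hq.out hA))
  have hO' : ∑ i : Fin (dedekindPsi M), aeval (jSeries (kres A) 1)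
      (∑ l : Fin q, expand (kres A) q ((toA' (Q' (some (Sum.inr (i, l))))).map (IsLocalRing.residue A))
        * X ^ (l : ℕ)) * jSeries (kres A) M ^ (i : ℕ) = 0 := by
    refine Eq.trans (Finset.sum_congr rfl fun i _ => ?_)
      ((mul_eq_zero.mp hO).resolve_right (zeta_ne_zero A q hq.out hA))
    rw [map_sum, Finset.sum_mul]
    exact Finset.sum_congr rfl fun l _ => by rw [map_mul, aeval_X_pow]; ring
  have hPO := indep_powers A M q hq.out hqM hA _ hO'
  have hred : ∀ r : (W0 A)[X], (toA' r).map (IsLocalRing.residue A) = r.map (redW A) := fun r => by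
    simp only [toA', coe_mapRingHom, Polynomial.map_map]
    rfl
  have hzero : ∀ j, (Q' (some j)).map (redW A) = 0 := by
    rintro (i | ⟨i, l⟩)
    · rw [← hred]; exact congrFun hPI i
    · refine Polynomial.ext fun p => ?_
      have h3 := congrArg (fun R : (kres A)[X] => R.coeff (p * q + (l : ℕ))) (congrFun hPO i)
      simp only [Pi.zero_apply, finsetSum_coeff, coeff_zero, coeff_mul_X_pow'] at h3
      rw [Finset.sum_eq_single l] at h3
      · rw [← hred]
        simpa [coeff_expand_mul hq.out.pos] using h3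
      · intro l' _ hl'
        split_ifs with hle
        · rw [coeff_expand hq.out.pos, if_neg]
          rintro ⟨t, ht⟩
          refine hl' (Fin.ext ?_)
          have h5 := l'.isLt
          have h4 := l.isLt
          have e1 : p * q + (l : ℕ) = t * q + (l' : ℕ) := by rw [mul_comm t, ← ht]; omega
          have := congrArg (· % q) e1
          simpa [Nat.mod_eq_of_lt h5, Nat.mod_eq_of_lt h4] using this.symm
        · rfl
      · simp
  refine ⟨Q' none, fun h0 => ?_, fun V hW hj => ?_⟩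
  · rcases o₀ with _ | j
    · exact ho₀ h0
    · exact ho₀ (hzero j)
  have hdiv : ∀ j, ∃ R : (W0 A)[X], Q' (some j) = Polynomial.C (qW A q) * R := fun j =>
    (bb.π_map_eq_zero_iff _).1 (show (Q' (some j)).map bb.π = 0 from hzero j)
  choose R hR using hdiv
  have hjV : ∀ d (hd : d ∣ q * M), valFn (q * M) (jd d hd) ∈ V := fun d hd => by
    haveI : NeZero d := ⟨ne_zero_of_dvd_ne_zero (NeZero.ne _) hd⟩
    show valFn (q * M) (jFn A (q * M) d hd) ∈ V
    rw [valFn_jFn]
    exact qExpand_jqModC_mem V hj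
  have hfam : ∀ j, valFn (q * M) (fam j) ∈ V := by
    rintro (i | ⟨i, l⟩) <;> simp only [fam, map_mul, map_pow, map_sub]
    · exact mul_mem (pow_mem (hjV _ _) _) (sub_mem (hjV _ _) (pow_mem (hjV _ _) _))
    · exact mul_mem (mul_mem (pow_mem (hjV _ _) _) (pow_mem (hjV _ _) _))
        (sub_mem (hjV _ _) (pow_mem (hjV _ _) _))
  have hval : ∀ r : (W0 A)[X], valFn (q * M) (aeval y r) = r.eval₂ (cW A) (jqModC Qb) := fun r => by
    rw [← evalS_eq]
    show r.eval₂ (cW A) (valFn (q * M) y) = _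
    rw [valFn_jFn, qExpand_one_apply]
  have h5 := congrArg (valFn (q * M)) hsum
  rw [Fintype.sum_option, map_add, map_mul, map_zero, map_sum, hval] at h5
  rw [show (Q' none).eval₂ (cW A) (jqModC Qb) * valFn (q * M) a =
    -∑ j, valFn (q * M) (aeval y (Q' (some j)) * v (some j)) from eq_neg_of_add_eq_zero_left h5,
    mul_neg, Finset.mul_sum]
  refine neg_mem (sum_mem fun j _ => ?_)
  have hq1 : HahnSeries.C ((q : Qb)⁻¹) * cW A (qW A q) = (1 : LaurentSeries Qb) := by
    rw [cW_apply, coe_qW, ← map_mul, inv_mul_cancel₀ (by exact_mod_cast hq.out.ne_zero), map_one]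
  rw [show v (some j) = fam j from rfl, map_mul (valFn (q * M)), hval, hR j, eval₂_mul, eval₂_C, ← mul_assoc, ← mul_assoc, hq1, one_mul]
  refine mul_mem ?_ (hfam j)
  rw [eval₂_eq_sum_range]
  exact sum_mem fun i _ => mul_mem (hW _) (pow_mem hj i)

include hA hqM hM in
/-- An element of the chart vanishing on both components is divisible by `q`. -/
theorem div_q_mem_chart1 {a : Fn A (q * M)} (ha : a ∈ chart1 A q M b)
    (h1 : valFn (q * M) a ∈ gV A (IsLocalRing.residue A))
    (h1' : gval A (IsLocalRing.residue A) (valFn (q * M) a) = 0)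
    (h2 : valFn (q * M) (wAL M hqM a) ∈ gV A (IsLocalRing.residue A))
    (h2' : gval A (IsLocalRing.residue A) (valFn (q * M) (wAL M hqM a)) = 0) :
    algebraMap (K0 A) (Fn A (q * M)) ((q : K0 A))⁻¹ * a ∈ chart1 A q M b := by
  haveI := isDiscreteValuationRing_W0 hA
  haveI := GalCommon.isAlgClosed_residueField A hq.out hA
  have hM2 := hM.two_le
  obtain ⟨h, hh, hrel⟩ := exists_j_relation hA M hqM hM h1 h1' h2 h2'
  set s := incl (dvd_qM q M) (coord A M b) with hs
  have hinj := evalS_injective (A := A) (s := s) (transcendental_incl_coord A hM2 b (dvd_qM q M))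
  letI : Algebra (W0 A)[X] (LaurentSeries Qb) := (evalS s).toAlgebra
  haveI : FaithfulSMul (W0 A)[X] (LaurentSeries Qb) :=
    (faithfulSMul_iff_algebraMap_injective _ _).2 hinj
  have hsv : evalS s X = valFn M (coord A M b) := by rw [evalS_X, hs, valFn_incl]
  set z := valFn (q * M) (algebraMap (K0 A) (Fn A (q * M)) ((q : K0 A))⁻¹ * a) with hzdef
  have hz : z = HahnSeries.C ((q : Qb)⁻¹) * valFn (q * M) a := by
    rw [hzdef, map_mul, valFn_algebraMap]
    push_cast
    rfl
  have hqz : evalS s (Polynomial.C (qW A q)) * z = valFn (q * M) a := by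
    rw [hz, evalS_C, cW_apply, coe_qW, ← mul_assoc, ← map_mul,
      mul_inv_cancel₀ (by exact_mod_cast hq.out.ne_zero), map_one, one_mul]
  have hI1 : IsIntegral (W0 A)[X] (evalS s (Polynomial.C (qW A q) ^ 1) * z) := by
    refine isIntegral_of_forall_valuationSubring fun V hV => ?_
    rw [pow_one, hqz]
    exact mem_of_mem_intCl V (fun w => evalS_C s w ▸ hV (Polynomial.C w)) (evalS_X s ▸ hV X) ha
  let S : Submonoid (W0 A)[X] :=
    { carrier := {g | g.map (redW A) ≠ 0}
      one_mem' := by simp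
      mul_mem' := fun {g g'} hg hg' => by
        show (g * g').map (redW A) ≠ 0
        rw [Polynomial.map_mul]
        exact mul_ne_zero hg hg' }
  obtain ⟨g, hg, hI2⟩ := exists_isIntegral_mul_of_forall (R := (W0 A)[X]) (L := LaurentSeries Qb) S
    (fun g hg h0 => hg (by rw [hinj (h0.trans (map_zero _).symm), Polynomial.map_zero]))
    (y := z) (by
      intro V hV hVS
      have hW : ∀ w, cW A w ∈ V := fun w => evalS_C s w ▸ hV (Polynomial.C w)
      have hsV : valFn M (coord A M b) ∈ V := hsv ▸ hV X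
      have hsi : (valFn M (coord A M b))⁻¹ ∈ V :=
        hsv ▸ hVS X (by show (X : (W0 A)[X]).map (redW A) ≠ 0; rw [map_X]; exact X_ne_zero)
      have hj := jqModC_mem_of_coord M b V hM2 (inv_M_mem hA M hqM V hW) hsV hsi
      by_cases hqu : (q : Qb)⁻¹ ∈ cRing V
      · rw [hz]
        exact mul_mem hqu (mem_of_mem_intCl V hW (by rw [valFn_incl]; exact hsV) ha)
      have hqn : cW A (qW A q) ∈ V.nonunits := by
        rw [ValuationSubring.mem_nonunits_iff_or, cW_apply, coe_qW, ← map_inv₀]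
        exact Or.inr hqu
      have hrelV := hrel V hW hj
      by_cases hhu : (h.eval₂ (cW A) (jqModC Qb))⁻¹ ∈ V ∧ h.eval₂ (cW A) (jqModC Qb) ≠ 0
      · have := mul_mem hhu.1 hrelV
        rw [hz]
        rwa [mul_left_comm, ← mul_assoc _ _ (valFn (q * M) a), inv_mul_cancel₀ hhu.2, one_mul]
          at this
      exfalso
      have hn : h.eval₂ (cW A) (jqModC Qb) ∈ V.nonunits := by
        rw [ValuationSubring.mem_nonunits_iff_or]
        tauto
      obtain ⟨c, hc⟩ := exists_sub_cW_mem hA V hW hj hqn h hh hn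
      obtain ⟨c', hc'⟩ := exists_sub_tSer_mem hA M hqM V hW hqn hj hc
      have key : ∀ g : (W0 A)[X], g.map (redW A) ≠ 0 → evalS s g ∉ V.nonunits := fun g hg hgn => by
        rw [ValuationSubring.mem_nonunits_iff_or] at hgn
        rcases hgn with h0 | h0
        · exact hg (by rw [hinj (h0.trans (map_zero _).symm), Polynomial.map_zero])
        · exact h0 (hVS g hg)
      cases b
      · refine key (1 - Polynomial.C c' * X) (fun h0 => ?_) ?_
        · have := congrArg (fun p : (kres A)[X] => p.coeff 0) h0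
          simp at this
        · have e := valFn_coord (A := A) M false
          simp only [Bool.false_eq_true, if_false] at e
          rw [map_sub, map_one, map_mul, evalS_C, hsv, e,
            show (1 : LaurentSeries Qb) - cW A c' * (tSer Qb M)⁻¹ =
              (tSer Qb M)⁻¹ * (tSer Qb M - cW A c') by
              rw [mul_sub, inv_mul_cancel₀ (show tSer Qb M ≠ 0 from (tUnit Qb M).ne_zero)]; ring]
          exact mul_mem_nonunits V (e ▸ hsV) hc'
      · refine key (X - Polynomial.C c') ?_ ?_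
        · rw [Polynomial.map_sub, map_X, Polynomial.map_C]; exact X_sub_C_ne_zero _
        · have e := valFn_coord (A := A) M true
          simp only [if_true] at e
          rw [map_sub, evalS_C, hsv, e]
          exact hc')
  refine mem_intCl_of_isIntegralElem ?_
  exact isIntegral_of_two
    (Polynomial.prime_C_iff.2 (qW_irreducible hA).prime)
    (fun hd => hg (((base hA).π_map_eq_zero_iff g).2 hd)) hI1 hI2

end Reduced

end FLTAgent.BadQ.TwoInst
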