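import Mathlib
import Fermat.Agent.BadQ.TwoInstFibre
import Fermat.Agent.BadQ.TwoInstLeaves
import Fermat.Agent.BadQ.TwoInstValChart
import Fermat.Agent.Kronecker.CoeffGalois

/-!
# The maps of the step from level `M` to level `qM`

On the charts: the degeneracy `beta0` (`f(z) ↦ f(qz)`), the involution `iota1`, the restriction
`piInf1` to the component of `∞` and the relative Frobenius `phi0` of the special fibre, whose
range is the set of `q`-th powers (`phi0_range`). `reduced_chart1`: an element vanishing on both
components is divisible by `q`.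
-/

set_option autoImplicit false
set_option linter.style.haveILetI false
set_option linter.unusedSectionVars false
set_option synthInstance.maxHeartbeats 400000
set_option maxHeartbeats 1000000

noncomputable section

open ModularCurve

namespace FLTAgent.BadQ.TwoInst

local notation "Qb" => AlgebraicClosure ℚ

/-- Roots of monic polynomials over the integral closure of `k[x]` lie in it. -/
theorem mem_intCl_of_root {k L : Type*} [Field k] [Field L] [Algebra k L] {x : L} {R : Type*}
    [CommRing R] (f : R →+* L) (hf : ∀ r, f r ∈ BadQ.intCl (k := k) x) {y : L} {p : Polynomial R}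
    (hp : p.Monic) (h : Polynomial.eval₂ f y p = 0) : y ∈ BadQ.intCl (k := k) x := by
  rw [BadQ.mem_intCl]
  let g : R →+* integralClosure (Algebra.adjoin k ({x} : Set L)) L :=
    f.codRestrict (integralClosure (Algebra.adjoin k ({x} : Set L)) L).toSubring hf
  refine isIntegral_trans (A := integralClosure (Algebra.adjoin k ({x} : Set L)) L) y
    ⟨p.map g, hp.map g, ?_⟩
  rw [Polynomial.eval₂_map]
  exact h

/-- A homomorphism on the integral closure of `W[s]` with values of `W` and `s` in the integral
closure of `k[x]` has all values there. -/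
theorem map_mem_intCl_of_gen {W E k L : Type*} [CommRing W] [Field E] [Algebra W E] [Field k]
    [Field L] [Algebra k L] {x : L} {s : E} (f : TwoChart.intCl W ({s} : Set E) →+* L)
    (hW : ∀ w, f (algebraMap W _ w) ∈ BadQ.intCl (k := k) x)
    (hs : f ⟨s, TwoChart.subset_intCl _ (Set.mem_singleton _)⟩ ∈ BadQ.intCl (k := k) x)
    (y : TwoChart.intCl W ({s} : Set E)) : f y ∈ BadQ.intCl (k := k) x := by
  obtain ⟨p, hp, hpy⟩ := y.2
  have hsub : Algebra.adjoin W ({s} : Set E) ≤ TwoChart.intCl W ({s} : Set E) :=
    Algebra.adjoin_le (TwoChart.subset_intCl _)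
  have hle : ∀ r : Algebra.adjoin W ({s} : Set E),
      f (Subalgebra.inclusion hsub r) ∈ BadQ.intCl (k := k) x := by
    rintro ⟨r, hr⟩
    induction hr using Algebra.adjoin_induction with
    | mem z hz => subst hz; exact hs
    | algebraMap c => exact hW c
    | add z w hz' hw' hz hw =>
      rw [show (⟨z + w, add_mem hz' hw'⟩ : Algebra.adjoin W ({s} : Set E)) = ⟨z, hz'⟩ + ⟨w, hw'⟩ from rfl,
        map_add, map_add]
      exact add_mem hz hw
    | mul z w hz' hw' hz hw =>
      rw [show (⟨z * w, mul_mem hz' hw'⟩ : Algebra.adjoin W ({s} : Set E)) = ⟨z, hz'⟩ * ⟨w, hw'⟩ from rfl,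
        map_mul, map_mul]
      exact mul_mem hz hw
  refine mem_intCl_of_root (f.comp (Subalgebra.inclusion hsub).toRingHom) hle hp ?_
  rw [← Polynomial.hom_eval₂, ← map_zero f]
  refine congrArg _ (Subtype.ext ?_)
  exact (Polynomial.hom_eval₂ p _ (TwoChart.intCl W ({s} : Set E)).val.toRingHom y).trans hpy

variable {A : ValuationSubring Qb} {q : ℕ} [Fact q.Prime] (hA : A.LiesOverPrime q) (M : ℕ)
  [NeZero M] (hqM : ¬ q ∣ M) (hM : GoodLevel M) (b : Bool)

include hA hqM hM in
/-- The coordinate at `q z` lies in the chart of level `qM`. -/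
theorem scale_coord_mem : scale q (mul_q_dvd q M) (coord A M b) ∈ chart1 A q M b :=
  scale_coord_mem_aux hA M hqM hM b

include hA in
theorem chart1_le_VInf_aux (a : chart1 A q M b) : (a : Fn A (q * M)) ∈ VInf A q M :=
  chart_le_VInf hA M b a

/-- `f (z) ↦ f (q z)` on the charts. -/
def beta0 : chart0 A M b →ₐ[W0 A] chart1 A q M b :=
  AlgHom.codRestrict
    (((scale q (mul_q_dvd q M)).restrictScalars (W0 A)).comp (chart0 A M b).val)
    (chart1 A q M b) fun y =>
      map_mem_intCl (scale q (mul_q_dvd q M)) (scale_coord_mem hA M hqM hM b) y.2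

theorem coe_beta0 (y : chart0 A M b) :
    ((beta0 hA M hqM hM b y : chart1 A q M b) : Fn A (q * M)) =
      scale q (mul_q_dvd q M) (y : Fn A M) := rfl

/-- The involution over `K₀`. -/
def wALAlg : Fn A (q * M) →ₐ[K0 A] Fn A (q * M) :=
  { wAL M hqM with commutes' := wAL_algebraMap M hqM }

theorem wALAlg_apply (y : Fn A (q * M)) : wALAlg M hqM y = wAL M hqM y := rfl

include hA hqM hM in
theorem wAL_mem_chart1 {y : Fn A (q * M)} (hy : y ∈ chart1 A q M b) :
    wAL M hqM y ∈ chart1 A q M b := by
  rw [← wALAlg_apply]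
  refine map_mem_intCl (wALAlg M hqM) ?_ hy
  rw [wALAlg_apply, wAL_incl]
  exact scale_coord_mem hA M hqM hM b

/-- The involution on the chart, as a homomorphism. -/
def iotaHom : chart1 A q M b →ₐ[W0 A] chart1 A q M b :=
  AlgHom.codRestrict (((wALAlg M hqM).restrictScalars (W0 A)).comp (chart1 A q M b).val)
    (chart1 A q M b) fun y => by
      rw [AlgHom.comp_apply, AlgHom.restrictScalars_apply, wALAlg_apply]
      exact wAL_mem_chart1 hA M hqM hM b y.2

theorem coe_iotaHom (y : chart1 A q M b) :
    ((iotaHom hA M hqM hM b y : chart1 A q M b) : Fn A (q * M)) =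
      wAL M hqM (y : Fn A (q * M)) := rfl

theorem iotaHom_iotaHom :
    (iotaHom hA M hqM hM b).comp (iotaHom hA M hqM hM b) = AlgHom.id (W0 A) _ :=
  AlgHom.ext fun y => Subtype.ext (by
    rw [AlgHom.comp_apply, coe_iotaHom, coe_iotaHom, wAL_wAL]
    rfl)

/-- The involution on the chart of level `qM`. -/
def iota1 : chart1 A q M b ≃ₐ[W0 A] chart1 A q M b :=
  AlgEquiv.ofAlgHom (iotaHom hA M hqM hM b) (iotaHom hA M hqM hM b)
    (iotaHom_iotaHom hA M hqM hM b) (iotaHom_iotaHom hA M hqM hM b)

theorem coe_iota1 (y : chart1 A q M b) :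
    ((iota1 hA M hqM hM b y : chart1 A q M b) : Fn A (q * M)) =
      wAL M hqM (y : Fn A (q * M)) := rfl

theorem iota1_alpha0 (y : chart0 A M b) :
    iota1 hA M hqM hM b (alpha0 A q M b y) = beta0 hA M hqM hM b y :=
  Subtype.ext (by rw [coe_iota1, coe_alpha0, coe_beta0, wAL_incl])

theorem iota1_beta0 (y : chart0 A M b) :
    iota1 hA M hqM hM b (beta0 hA M hqM hM b y) = alpha0 A q M b y :=
  Subtype.ext (by rw [coe_iota1, coe_alpha0, coe_beta0, wAL_scale])

/-- The restriction of a chart element to the component of `∞`, in the field. -/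
def piInfRing : chart1 A q M b →+* modularFunctionFieldFullC (kres A) M :=
  (redInf M hA hqM).comp ((chart1 A q M b).val.toRingHom.codRestrict (VInf A q M)
    (chart1_le_VInf_aux hA M b))

theorem coe_piInfRing (y : chart1 A q M b) :
    piInfRing hA M hqM b y =
      redInf M hA hqM ⟨(y : Fn A (q * M)), chart1_le_VInf_aux hA M b y⟩ := rfl

theorem piInfRing_algebraMap (w : W0 A) :
    piInfRing hA M hqM b (algebraMap (W0 A) (chart1 A q M b) w) =
      algebraMap (kres A) (modularFunctionFieldFullC (kres A) M) (redW A w) := by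
  refine Subtype.ext ?_
  rw [coe_piInfRing, coe_redInf]
  show gval A (IsLocalRing.residue A) (valFn (q * M) (algebraMap (W0 A) (Fn A (q * M)) w)) = _
  rw [algebraMap_W0_Fn, valFn_algebraMap]
  refine ((gval_C A (IsLocalRing.residue A) (toA A w)).2).trans ?_
  exact ((IntermediateField.coe_algebraMap_apply _ _).trans (ModularCosets.algebraMap_eq_HC _)).symm

/-- The coordinate in the chart of level `qM`. -/
theorem coordMem1 : incl (dvd_qM q M) (coord A M b) ∈ chart1 A q M b :=
  TwoChart.subset_intCl _ (Set.mem_singleton _)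

theorem piInfRing_coord :
    piInfRing hA M hqM b ⟨_, coordMem1 M b⟩ = coordBar M hA hqM b := by
  have h1 := gval_incl A (IsLocalRing.residue A) (tSer A M)
  have e1 : BadQ.incl A (tSer A M) = tSer Qb M := coeffMap_tSer (M := M) A.subtype
  have e2 : redSer A (IsLocalRing.residue A) (tSer A M) = tSer (kres A) M := coeffMap_tSer (M := M) _
  rw [e1, e2] at h1
  refine Subtype.ext ?_
  rw [coe_piInfRing, coe_redInf, valFn_incl]
  cases b
  · show gval A (IsLocalRing.residue A) (valFn M (tFn A M)⁻¹) = _
    rw [map_inv₀, valFn_tFn,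
      (inv_mem_gV A _ h1.1 (by rw [h1.2]; exact (tUnit (kres A) M).ne_zero)).2, h1.2]
    rfl
  · show gval A (IsLocalRing.residue A) (valFn M (tFn A M)) = _
    rw [valFn_tFn, h1.2]
    rfl

include hM in
theorem piInfRing_mem (y : chart1 A q M b) : piInfRing hA M hqM b y ∈ fibre M hA hqM b := by
  letI : Algebra (kres A) (modularFunctionFieldFullC (kres A) M) := inferInstance
  letI : Module (kres A) (modularFunctionFieldFullC (kres A) M) := Algebra.toModule
  refine map_mem_intCl_of_gen (piInfRing hA M hqM b) (fun w => ?_) ?_ y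
  · rw [piInfRing_algebraMap]
    exact Subalgebra.algebraMap_mem _ _
  · rw [piInfRing_coord]
    exact TwoChart.subset_intCl _ (Set.mem_singleton _)

/-- The restriction to the component of `∞`. -/
def piInf1 : chart1 A q M b →ₐ[W0 A] fibre M hA hqM b where
  toRingHom := (piInfRing hA M hqM b).codRestrict (fibre M hA hqM b).toSubring
    (piInfRing_mem hA M hqM hM b)
  commutes' w := Subtype.ext (piInfRing_algebraMap hA M hqM b w)

theorem coe_piInf1 (y : chart1 A q M b) :
    ((piInf1 hA M hqM hM b y : fibre M hA hqM b) : modularFunctionFieldFullC (kres A) M) =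
      redInf M hA hqM ⟨(y : Fn A (q * M)), chart1_le_VInf_aux hA M b y⟩ := rfl

theorem piInf1_alpha0 (y : chart0 A M b) :
    piInf1 hA M hqM hM b (alpha0 A q M b y) = red0 hA M hqM b y := by
  refine Subtype.ext (Subtype.ext ?_)
  rw [coe_piInf1, coe_redInf, coe_red0, coe_red0Ring]
  show gval A (IsLocalRing.residue A) (valFn (q * M) (incl (dvd_qM q M) (y : Fn A M))) = _
  rw [valFn_incl]

/-! ### The relative Frobenius -/

include hA in
/-- The inverse of Frobenius on coefficients. -/
theorem qExpand_eq_pow (y : LaurentSeries (kres A)) :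
    haveI := GalCommon.charP_residueField (Fact.out : q.Prime) hA
    haveI : ExpChar (kres A) q := .prime Fact.out
    haveI := GalCommon.isAlgClosed_residueField A (Fact.out : q.Prime) hA
    qExpand (kres A) q y =
      (coeffMap ((frobeniusEquiv (kres A) q).symm : kres A →+* kres A) y) ^ q := by
  haveI := GalCommon.charP_residueField (Fact.out : q.Prime) hA
  haveI : ExpChar (kres A) q := .prime Fact.out
  haveI := GalCommon.isAlgClosed_residueField A (Fact.out : q.Prime) hA
  rw [Kronecker.pow_char_eq_qExpand q, coeffMap_coeffMap]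
  refine congrArg (qExpand (kres A) q) ((coeffMap_congr (g := RingHom.id (kres A)) ?_ _).trans
    (coeffMap_id _)).symm
  refine RingHom.ext fun x => ?_
  exact (frobenius_def q _).trans (frobeniusEquiv_symm_pow_p (kres A) q x)

include hA in
theorem frobQ_mem (y : modularFunctionFieldFullC (kres A) M) :
    qExpand (kres A) q (y : LaurentSeries (kres A)) ∈ modularFunctionFieldFullC (kres A) M := by
  haveI := GalCommon.charP_residueField (Fact.out : q.Prime) hA
  haveI : ExpChar (kres A) q := .prime Fact.out
  haveI := GalCommon.isAlgClosed_residueField A (Fact.out : q.Prime) hA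
  rw [qExpand_eq_pow hA]
  exact pow_mem (Kronecker.coeffMap_mem_fullC M _ y.2) q

/-- `y (q) ↦ y (q ^ q)` on the field of the special fibre. -/
def frobQ : modularFunctionFieldFullC (kres A) M →+* modularFunctionFieldFullC (kres A) M :=
  RingHom.codRestrict ((qExpand (kres A) q).comp
    (modularFunctionFieldFullC (kres A) M).val.toRingHom)
    (modularFunctionFieldFullC (kres A) M).toSubfield.toSubring (frobQ_mem hA M)

theorem coe_frobQ (y : modularFunctionFieldFullC (kres A) M) :
    ((frobQ hA M y : modularFunctionFieldFullC (kres A) M) :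
      LaurentSeries (kres A)) = qExpand (kres A) q (y : LaurentSeries (kres A)) := rfl

theorem frobQ_algebraMap (w : kres A) :
    frobQ hA M (algebraMap (kres A) _ w) =
      algebraMap (kres A) (modularFunctionFieldFullC (kres A) M) w :=
  Subtype.ext ((qExpandAlgHomC (kres A) q).commutes w)

theorem coeffRingAut_coordBar (τ : kres A ≃+* kres A) :
    Kronecker.coeffRingAut M τ (coordBar M hA hqM b) = coordBar M hA hqM b := by
  letI : Algebra (kres A) (modularFunctionFieldFullC (kres A) M) := inferInstance
  letI : Module (kres A) (modularFunctionFieldFullC (kres A) M) := Algebra.toModule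
  have h : Kronecker.coeffRingAut M τ (tBar M hA hqM) = tBar M hA hqM :=
    Subtype.ext (coeffMap_tSer (M := M) (τ : kres A →+* kres A))
  cases b
  · show Kronecker.coeffRingAut M τ (tBar M hA hqM)⁻¹ = (tBar M hA hqM)⁻¹
    rw [map_inv₀, h]
  · exact h

/-- An automorphism of the coefficients preserves the special fibre of the chart. -/
theorem coeffRingAut_fibre_mem (τ : kres A ≃+* kres A) {c : modularFunctionFieldFullC (kres A) M}
    (hc : c ∈ fibre M hA hqM b) : Kronecker.coeffRingAut M τ c ∈ fibre M hA hqM b := by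
  letI : Algebra (kres A) (modularFunctionFieldFullC (kres A) M) := inferInstance
  letI : Module (kres A) (modularFunctionFieldFullC (kres A) M) := Algebra.toModule
  obtain ⟨p, hp, hpc⟩ := hc
  refine mem_intCl_of_root ((Kronecker.coeffRingAut M τ).toRingHom.comp
    (Subalgebra.val _).toRingHom) (fun r => ?_) hp ?_
  · obtain ⟨r, hr⟩ := r
    show Kronecker.coeffRingAut M τ r ∈ fibre M hA hqM b
    induction hr using Algebra.adjoin_induction with
    | mem z hz =>
      subst hz
      rw [coeffRingAut_coordBar]
      exact TwoChart.subset_intCl _ (Set.mem_singleton _)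
    | algebraMap a =>
      rw [show Kronecker.coeffRingAut M τ (algebraMap (kres A) _ a) = algebraMap (kres A) _ (τ a) from
        Subtype.ext (Kronecker.coeffMap_algebraMap' (τ : kres A →+* kres A) a)]
      exact Subalgebra.algebraMap_mem _ _
    | add z w _ _ hz hw => rw [map_add]; exact add_mem hz hw
    | mul z w _ _ hz hw => rw [map_mul]; exact mul_mem hz hw
  · exact (Polynomial.hom_eval₂ p _ (Kronecker.coeffRingAut M τ).toRingHom c).symm.trans
      ((congrArg _ hpc).trans (map_zero _))

theorem frobQ_eq_pow (y : modularFunctionFieldFullC (kres A) M) :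
    ∃ τ : kres A ≃+* kres A, frobQ hA M y = Kronecker.coeffRingAut M τ y ^ q ∧
      frobQ hA M (Kronecker.coeffRingAut M τ.symm y) = y ^ q := by
  haveI := GalCommon.charP_residueField (Fact.out : q.Prime) hA
  haveI : ExpChar (kres A) q := .prime Fact.out
  haveI := GalCommon.isAlgClosed_residueField A (Fact.out : q.Prime) hA
  refine ⟨(frobeniusEquiv (kres A) q).symm, Subtype.ext ?_, Subtype.ext ?_⟩
  · rw [coe_frobQ, qExpand_eq_pow hA, SubmonoidClass.coe_pow]
    rfl
  · rw [coe_frobQ, qExpand_eq_pow hA, SubmonoidClass.coe_pow, Kronecker.coe_coeffRingAut_apply,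
      coeffMap_coeffMap]
    refine congrArg (· ^ q) ((coeffMap_congr (g := RingHom.id (kres A)) ?_ _).trans (coeffMap_id _))
    exact RingHom.ext fun x => (frobeniusEquiv (kres A) q).symm_apply_apply x

theorem frobQ_fibre_mem (c : fibre M hA hqM b) :
    frobQ hA M (c : modularFunctionFieldFullC (kres A) M) ∈ fibre M hA hqM b := by
  letI : Algebra (kres A) (modularFunctionFieldFullC (kres A) M) := inferInstance
  letI : Module (kres A) (modularFunctionFieldFullC (kres A) M) := Algebra.toModule
  obtain ⟨τ, h, -⟩ := frobQ_eq_pow hA M (c : modularFunctionFieldFullC (kres A) M)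
  rw [h]
  exact pow_mem (coeffRingAut_fibre_mem hA M hqM b τ c.2) q

/-- The relative Frobenius of the special fibre. -/
def phi0 : fibre M hA hqM b →ₐ[W0 A] fibre M hA hqM b where
  toRingHom := ((frobQ hA M).comp (fibre M hA hqM b).val.toRingHom).codRestrict
    (fibre M hA hqM b).toSubring (frobQ_fibre_mem hA M hqM b)
  commutes' w := Subtype.ext (frobQ_algebraMap hA M (redW A w))

theorem coe_phi0 (c : fibre M hA hqM b) :
    ((phi0 hA M hqM b c : fibre M hA hqM b) : modularFunctionFieldFullC (kres A) M) =
      frobQ hA M (c : modularFunctionFieldFullC (kres A) M) := rfl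

theorem phi0_injective : Function.Injective (phi0 hA M hqM b) := fun _ _ h =>
  Subtype.ext ((frobQ hA M).injective (congrArg Subtype.val h))

theorem phi0_range : Set.range (phi0 hA M hqM b) = Set.range fun a : fibre M hA hqM b => a ^ q := by
  refine Set.Subset.antisymm ?_ ?_
  · rintro _ ⟨c, rfl⟩
    obtain ⟨τ, h, -⟩ := frobQ_eq_pow hA M (c : modularFunctionFieldFullC (kres A) M)
    exact ⟨⟨_, coeffRingAut_fibre_mem hA M hqM b τ c.2⟩,
      Subtype.ext (by rw [coe_phi0, h]; rfl)⟩
  · rintro _ ⟨a, rfl⟩
    obtain ⟨τ, -, h⟩ := frobQ_eq_pow hA M (a : modularFunctionFieldFullC (kres A) M)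
    exact ⟨⟨_, coeffRingAut_fibre_mem hA M hqM b τ.symm a.2⟩,
      Subtype.ext (by rw [coe_phi0, h]; rfl)⟩

theorem piInf1_beta0 (y : chart0 A M b) :
    piInf1 hA M hqM hM b (beta0 hA M hqM hM b y) = phi0 hA M hqM b (red0 hA M hqM b y) := by
  refine Subtype.ext (Subtype.ext ?_)
  rw [coe_piInf1, coe_redInf, coe_phi0, coe_frobQ, coe_red0, coe_red0Ring]
  show gval A (IsLocalRing.residue A) (valFn (q * M) (scale q (mul_q_dvd q M) (y : Fn A M))) = _
  rw [valFn_scale]
  exact (gval_qExpand A (IsLocalRing.residue A) q (chart0_mem_gV hA M b y)).2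

include hM in
/-- The special fibre of level `qM` is reduced with only the two components. -/
theorem reduced_chart1 (a : chart1 A q M b) (h1 : piInf1 hA M hqM hM b a = 0)
    (h2 : piInf1 hA M hqM hM b (iota1 hA M hqM hM b a) = 0) : (q : chart1 A q M b) ∣ a := by
  letI : Algebra (kres A) (modularFunctionFieldFullC (kres A) M) := inferInstance
  letI : Module (kres A) (modularFunctionFieldFullC (kres A) M) := Algebra.toModule
  have hgv : ∀ y : chart1 A q M b, piInf1 hA M hqM hM b y = 0 →
      valFn (q * M) (y : Fn A (q * M)) ∈ gV A (IsLocalRing.residue A) ∧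
        gval A (IsLocalRing.residue A) (valFn (q * M) (y : Fn A (q * M))) = 0 := fun y hy => by
    have h := congrArg (fun z : fibre M hA hqM b =>
      ((z : modularFunctionFieldFullC (kres A) M) : LaurentSeries (kres A))) hy
    simp only [coe_piInf1, coe_redInf, ZeroMemClass.coe_zero] at h
    exact ⟨chart1_le_VInf_aux hA M b y, h⟩
  obtain ⟨e1, e1'⟩ := hgv a h1
  obtain ⟨e2, e2'⟩ := hgv _ h2
  rw [coe_iota1] at e2 e2'
  refine ⟨⟨_, div_q_mem_chart1 hA M hqM hM b a.2 e1 e1' e2 e2'⟩, Subtype.ext ?_⟩
  push_cast
  rw [← mul_assoc,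
    mul_inv_cancel₀, one_mul]
  rw [← map_natCast (algebraMap (K0 A) (Fn A (q * M))), ne_eq, map_eq_zero]
  exact_mod_cast (Fact.out : q.Prime).ne_zero

end FLTAgent.BadQ.TwoInst
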