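import Mathlib
import Fermat.Agent.BadQ.TwoInstIota

/-!
# Two kinds of closed points of the special fibre of level `M`

`exists_ordinary0_aux` finds a point off the cusps which is not fixed by the square of the
relative Frobenius, from the infinitely many values of the coordinate; `exists_cusp0_aux` finds a
point on a cusp section.
-/

set_option autoImplicit false
set_option linter.style.haveILetI false
set_option linter.unusedSectionVars false
set_option synthInstance.maxHeartbeats 400000
set_option maxHeartbeats 1000000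

noncomputable section

open ModularCurve

namespace FLTAgent.BadQ.TwoInst

local notation "Qb" => AlgebraicClosure ℚ

/-- A maximal ideal of the integral closure of `k[x]` over the point `x = a`. -/
theorem exists_maximal_sub_mem {k L : Type*} [Field k] [Field L] [Algebra k L] {x : L}
    (hx : Transcendental k x) (a : k) (y : BadQ.intCl (k := k) x)
    (hy : (y : L) = x - algebraMap k L a) :
    ∃ Q : Ideal (BadQ.intCl (k := k) x), Q.IsMaximal ∧ y ∈ Q := by
  refine exists_max_ideal_of_mem_nonunits (fun h => ?_)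
  let r : Algebra.adjoin k ({x} : Set L) :=
    ⟨x - algebraMap k L a,
      sub_mem (Algebra.self_mem_adjoin_singleton k x) (Subalgebra.algebraMap_mem _ a)⟩
  have hr : IsUnit r := by
    refine IsUnit.of_map (algebraMap (Algebra.adjoin k ({x} : Set L))
      (integralClosure (Algebra.adjoin k ({x} : Set L)) L)) r ?_
    have e : algebraMap (Algebra.adjoin k ({x} : Set L))
        (integralClosure (Algebra.adjoin k ({x} : Set L)) L) r =
        (⟨(y : L), y.2⟩ : integralClosure (Algebra.adjoin k ({x} : Set L)) L) :=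
      Subtype.ext hy.symm
    rw [e]
    obtain ⟨v, hv⟩ := h.exists_right_inv
    exact IsUnit.of_mul_eq_one (⟨(v : L), v.2⟩ : integralClosure (Algebra.adjoin k ({x} : Set L)) L)
      (Subtype.ext (congrArg Subtype.val hv))
  obtain ⟨⟨s, hsr⟩, hs⟩ := hr.exists_right_inv
  have hsr' := hsr
  rw [Algebra.adjoin_singleton_eq_range_aeval] at hsr'
  obtain ⟨p, hp⟩ := hsr'
  have h1 : (Polynomial.X - Polynomial.C a) * p = 1 := by
    refine (transcendental_iff_injective.1 hx) ?_
    rw [map_mul, map_sub, Polynomial.aeval_X, Polynomial.aeval_C, map_one]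
    exact (congrArg (_ * ·) hp).trans (congrArg Subtype.val hs)
  exact Polynomial.not_isUnit_X_sub_C a (IsUnit.of_mul_eq_one p h1)

variable {A : ValuationSubring Qb} {q : ℕ} [Fact q.Prime] (hA : A.LiesOverPrime q) (M : ℕ)
  [NeZero M] (hqM : ¬ q ∣ M) (hM : GoodLevel M) (b : Bool)

theorem coe_red0_coord :
    ((red0 hA M hqM b ⟨coord A M b, TwoChart.subset_intCl _ (Set.mem_singleton _)⟩ :
      fibre M hA hqM b) : modularFunctionFieldFullC (kres A) M) = coordBar M hA hqM b :=
  redFn_coord M hA hqM b

theorem phi0_algebraMap_kres (a : kres A) :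
    phi0 hA M hqM b (algebraMap (kres A) (fibre M hA hqM b) a) =
      algebraMap (kres A) (fibre M hA hqM b) a :=
  Subtype.ext (by rw [coe_phi0]; exact frobQ_algebraMap hA M a)

theorem phi0_of_coe_eq {y : fibre M hA hqM b}
    (hy : (y : modularFunctionFieldFullC (kres A) M) = coordBar M hA hqM b) :
    phi0 hA M hqM b y = y ^ q := by
  refine Subtype.ext ?_
  obtain ⟨τ, h, -⟩ := frobQ_eq_pow hA M (y : modularFunctionFieldFullC (kres A) M)
  rw [coe_phi0, h, hy, coeffRingAut_coordBar, SubmonoidClass.coe_pow, hy]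

include hM in
theorem exists_ordinary0_aux : ∃ Q : Ideal (fibre M hA hqM b), Q.IsMaximal ∧
    (Q.comap (phi0 hA M hqM b)).comap (phi0 hA M hqM b) ≠ Q ∧
    red0 hA M hqM b ⟨coord A M b, TwoChart.subset_intCl _ (Set.mem_singleton _)⟩ ∉ Q := by
  classical
  haveI := infinite_kres hA
  have hqq : 2 ≤ q := (Fact.out : q.Prime).two_le
  have hq2 : 1 < q * q := by nlinarith
  let p : Polynomial (kres A) := Polynomial.X ^ (q * q) - Polynomial.X
  have hp : p ≠ 0 := FiniteField.X_pow_card_sub_X_ne_zero (kres A) hq2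
  obtain ⟨a, ha⟩ := Infinite.exists_notMem_finset p.roots.toFinset
  have ha' : a ^ (q * q) ≠ a := fun h => ha (by
    rw [Multiset.mem_toFinset, Polynomial.mem_roots hp]
    simp [p, h])
  set y := red0 hA M hqM b ⟨coord A M b, TwoChart.subset_intCl _ (Set.mem_singleton _)⟩ with hydef
  have hy : (y : modularFunctionFieldFullC (kres A) M) = coordBar M hA hqM b :=
    coe_red0_coord hA M hqM b
  obtain ⟨Q, hQ, hmem⟩ := exists_maximal_sub_mem
    (transcendental_coordBar_of_two_le hA M hqM b hM.two_le) a
    (y - algebraMap (kres A) (fibre M hA hqM b) a) (by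
      rw [AddSubgroupClass.coe_sub, hy]; rfl)
  have hc0 : ∀ c : kres A, algebraMap (kres A) (fibre M hA hqM b) c ∈ Q → c = 0 := fun c hc =>
    by_contra fun hne => hQ.ne_top (Q.eq_top_of_isUnit_mem hc ((Ne.isUnit hne).map _))
  refine ⟨Q, hQ, fun h => ?_, fun h => ?_⟩
  · have h2 := h.ge hmem
    simp only [Ideal.mem_comap, map_sub, phi0_algebraMap_kres, phi0_of_coe_eq hA M hqM b hy,
      map_pow] at h2
    rw [← pow_mul] at h2
    refine ha' (sub_eq_zero.1 (hc0 _ ?_))
    have h3 : y ^ (q * q) - algebraMap (kres A) (fibre M hA hqM b) (a ^ (q * q)) ∈ Q := by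
      rw [map_pow]
      exact Q.mem_of_dvd (sub_dvd_pow_sub_pow y _ (q * q)) hmem
    have h4 := Q.sub_mem h2 h3
    rw [sub_sub_sub_cancel_left, ← map_sub] at h4
    exact h4
  · have h2 := Q.sub_mem h hmem
    rw [sub_sub_cancel] at h2
    refine ha' ?_
    rw [hc0 a h2, zero_pow (by omega)]

include hM in
theorem exists_cusp0_aux : ∃ c : Ideal (chart0 A M b), c.IsPrime ∧ (q : chart0 A M b) ∉ c ∧
    (⟨coord A M b, TwoChart.subset_intCl _ (Set.mem_singleton _)⟩ : chart0 A M b) ∈ c ∧
    ∃ Q : Ideal (fibre M hA hqM b), Q.IsMaximal ∧ c ≤ Q.comap (red0 hA M hqM b) := by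
  haveI : IsNoetherianRing (chart0 A M b) :=
    isNoetherianRing_chart hA (transcendental_coord A hM.two_le b)
  set φ := red0 hA M hqM b
  set s : chart0 A M b := ⟨coord A M b, TwoChart.subset_intCl _ (Set.mem_singleton _)⟩
  have hy : ((φ s : fibre M hA hqM b) : modularFunctionFieldFullC (kres A) M) =
      coordBar M hA hqM b := coe_red0_coord hA M hqM b
  have htr := transcendental_coordBar_of_two_le hA M hqM b hM.two_le
  obtain ⟨Q, hQ, hyQ⟩ := exists_maximal_sub_mem htr (0 : kres A) (φ s)
    (by rw [hy, map_zero, sub_zero])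
  haveI := hQ
  have hsP : Ideal.span {s} ≤ Q.comap φ := by
    rw [Ideal.span_singleton_le_iff_mem, Ideal.mem_comap]
    exact hyQ
  obtain ⟨c, hc, hcP⟩ := Ideal.exists_minimalPrimes_le hsP
  haveI := hc.isPrime
  have hsc : s ∈ c := hc.1.2 (Ideal.mem_span_singleton_self _)
  refine ⟨c, hc.isPrime, fun hqc => ?_, hsc, Q, hQ, hcP⟩
  have hker := ker_red0 hA M hqM hM b
  have hle : RingHom.ker φ ≤ c := by
    rw [hker, Ideal.span_singleton_le_iff_mem]
    exact hqc
  haveI : (RingHom.ker φ).IsPrime := RingHom.ker_isPrime φ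
  have hne : RingHom.ker φ ≠ c := fun h => by
    have h0 : φ s = 0 := by rw [← RingHom.mem_ker, h]; exact hsc
    rw [h0, ZeroMemClass.coe_zero] at hy
    exact htr (hy ▸ isAlgebraic_zero)
  have hlt := lt_of_le_of_ne hle hne
  have hbot : (⊥ : Ideal (chart0 A M b)) < RingHom.ker φ := by
    rw [hker, bot_lt_iff_ne_bot, Ne, Ideal.span_singleton_eq_bot]
    intro h0
    have := congrArg (fun z : chart0 A M b => (valFn M (z : Fn A M) : LaurentSeries Qb)) h0
    simp only [SubringClass.coe_natCast, map_natCast, ZeroMemClass.coe_zero, map_zero] at this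
    rw [← map_natCast (algebraMap Qb (LaurentSeries Qb)), map_eq_zero] at this
    exact (Fact.out : q.Prime).ne_zero (Nat.cast_injective (this.trans Nat.cast_zero.symm))
  have h1 := Ideal.height_le_one_of_isPrincipal_of_mem_minimalPrimes _ c hc
  have h2 := Ideal.height_add_one_le_of_lt_of_isPrime hlt
  have h3 := Ideal.height_add_one_le_of_lt_of_isPrime hbot
  rw [Ideal.height_bot, zero_add] at h3
  have h4 : (2 : ℕ∞) ≤ 1 := by
    rw [← one_add_one_eq_two]
    exact (add_le_add_left h3 1).trans (h2.trans h1)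
  exact absurd h4 (by norm_num)

end FLTAgent.BadQ.TwoInst
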