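import Mathlib
import Fermat.Agent.BadQ.TwoInstIota
import Fermat.Agent.BadQ.TwoInstEtaleLocal
import Fermat.Agent.BadQ.TwoInstValChart

/-!
# Zeros of the coordinate at `z` and at `qz` at level `qM`

`cusp_iff1_coord`: a prime of the chart of level `qM` not containing `q` contains the coordinate
at `z` exactly when it contains the coordinate at `qz`. One direction is
`scale_coord_mem_prime`, proved with valuation rings at the prime.
-/

set_option autoImplicit false
set_option linter.style.haveILetI false
set_option linter.unusedSectionVars false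
set_option synthInstance.maxHeartbeats 400000
set_option maxHeartbeats 1000000

noncomputable section

open ModularCurve

namespace FLTAgent.BadQ.TwoInst

local notation "Qb" => AlgebraicClosure ℚ

variable {A : ValuationSubring Qb} {q : ℕ} [hq : Fact q.Prime] (hA : A.LiesOverPrime q) (M : ℕ)
  [NeZero M] (hqM : ¬ q ∣ M) (hM : GoodLevel M) (b : Bool)

theorem valFn_coord_not : valFn M (coord A M (!b)) = (valFn M (coord A M b))⁻¹ := by
  rw [valFn_coord, valFn_coord]
  cases b <;> simp

theorem comp_val_apply {R F L : Type*} [CommRing R] [CommRing F] [CommRing L] [Algebra R F]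
    (f : F →+* L) (S : Subalgebra R F) (y : S) : f.comp S.val.toRingHom y = f (y : F) := rfl

include hA hqM hM in
/-- A prime of the chart of level `qM` away from `q` containing the coordinate at `z` contains the
coordinate at `q z`. -/
theorem scale_coord_mem_prime (P : Ideal (chart1 A q M b)) [hP : P.IsPrime]
    (hqP : (q : chart1 A q M b) ∉ P)
    (hs : (⟨_, coordMem1 M b⟩ : chart1 A q M b) ∈ P) :
    (⟨_, scale_coord_mem hA M hqM hM b⟩ : chart1 A q M b) ∈ P := by
  let j : chart1 A q M b →+* LaurentSeries Qb :=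
    (valFn (q * M)).comp (chart1 A q M b).val.toRingHom
  obtain ⟨B, hT, hPB, hinv⟩ :=
    exists_valuationSubring_prime j (valFn_injective.comp Subtype.val_injective) P
  have hW : ∀ w : W0 A, cW A w ∈ B := fun w => by
    have h := hT (algebraMap (W0 A) (chart1 A q M b) w)
    change valFn (q * M) (algebraMap (W0 A) (Fn A (q * M)) w) ∈ B at h
    rwa [algebraMap_W0_Fn, valFn_algebraMap] at h
  have hN := inv_M_mem hA M hqM B hW
  have hqi : (q : Qb)⁻¹ ∈ cRing B := by
    have h := hinv _ hqP
    rw [map_natCast] at h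
    rw [mem_cRing, map_inv₀, map_natCast]
    exact h
  have hC : ∀ x, x ∈ cRing B := C_mem_of_inv_mem hA B hW hqi
  have hjs : j ⟨_, coordMem1 M b⟩ = valFn M (coord A M b) :=
    (comp_val_apply _ _ _).trans (valFn_incl (dvd_qM q M) (coord A M b))
  have hne : valFn M (coord A M b) ≠ 0 := fun h => by
    refine transcendental_coord (A := A) (M := M) hM.two_le b ?_
    rw [show coord A M b = 0 from valFn_injective (h.trans (map_zero _).symm)]
    exact isAlgebraic_zero
  have hni : (valFn M (coord A M b))⁻¹ ∉ B := by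
    have h := (B.mem_nonunits_iff).2 (hPB _ hs)
    rw [hjs, ValuationSubring.mem_nonunits_iff_or] at h
    exact h.resolve_left hne
  have hj : jqModC Qb ∉ B := fun hj => by
    have ht := tSer_mem (N := M) B hN hj
    refine hni ?_
    rw [valFn_coord]
    cases b
    · simp only [Bool.false_eq_true, if_false, inv_inv]; exact ht.1
    · exact ht.2
  by_contra h
  have h1 : (qExpand Qb q (valFn M (coord A M b)))⁻¹ ∈ B := by
    have h2 := hinv _ h
    rwa [show j ⟨_, scale_coord_mem hA M hqM hM b⟩ = qExpand Qb q (valFn M (coord A M b)) from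
      (comp_val_apply _ _ _).trans (valFn_scale (mul_q_dvd q M) (coord A M b))] at h2
  rw [← map_inv₀, ← valFn_coord_not, ← coord_mem_iff M hqM (!b) B hM.two_le hC hj,
    valFn_coord_not] at h1
  exact hni h1

include hA hqM hM in
/-- Away from `q` the coordinates at `z` and at `qz` have the same zeros. -/
theorem cusp_iff1_coord (P : Ideal (chart1 A q M b)) [hP : P.IsPrime]
    (hqP : (q : chart1 A q M b) ∉ P) :
    (⟨_, coordMem1 M b⟩ : chart1 A q M b) ∈ P ↔
      (⟨_, scale_coord_mem hA M hqM hM b⟩ : chart1 A q M b) ∈ P := by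
  refine ⟨scale_coord_mem_prime hA M hqM hM b P hqP, fun h => ?_⟩
  set e := iota1 hA M hqM hM b
  haveI : (P.comap e).IsPrime := Ideal.IsPrime.comap e
  have h1 : e ⟨_, coordMem1 M b⟩ = ⟨_, scale_coord_mem hA M hqM hM b⟩ :=
    iota1_alpha0 hA M hqM hM b ⟨coord A M b, TwoChart.subset_intCl _ (Set.mem_singleton _)⟩
  have h2 : e ⟨_, scale_coord_mem hA M hqM hM b⟩ = ⟨_, coordMem1 M b⟩ :=
    iota1_beta0 hA M hqM hM b ⟨coord A M b, TwoChart.subset_intCl _ (Set.mem_singleton _)⟩
  have h3 := scale_coord_mem_prime hA M hqM hM b (P.comap e)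
    (by rwa [Ideal.mem_comap, map_natCast]) (by rwa [Ideal.mem_comap, h1])
  rwa [Ideal.mem_comap, h2] at h3

end FLTAgent.BadQ.TwoInst
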