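import Mathlib
import Fermat.Agent.BadQ.TwoInstFibre
import Fermat.Agent.BadQ.TwoInstEtaleLocal
import Fermat.Agent.BadQ.TwoInstValRel
import Fermat.Agent.BadQ.TwoInstValChart
import Fermat.Agent.BadQ.TwoInstEmb

/-!
# The points of the cusp sections of level `M`

Each cusp section is cut out by an expansion at a coset (`exists_cusp_coset`), is rational over
the fixed field of inertia (`exists_sub_mem_cusp`), is cut out by one function near the special
fibre (`cusp_gen`) and meets the special fibre in a point of its own (`map_red0_ne_top`,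
`cusp_unique`). Every zero of the coordinate on the special fibre lies on one
(`exists_cusp_above`).
-/

set_option autoImplicit false
set_option linter.style.haveILetI false
set_option linter.unusedSectionVars false
set_option synthInstance.maxHeartbeats 400000
set_option maxHeartbeats 1000000

noncomputable section

open ModularCurve

namespace FLTAgent.BadQ.TwoInst

open FLTAgent.ModularCosets FLTAgent.Reduction

/-! ### Generalities -/

/-- Nakayama's lemma for a generator of an ideal near a prime. -/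
theorem exists_mul_mem_span_of_local {T : Type*} [CommRing T] [IsNoetherianRing T] (P : Ideal T)
    [P.IsPrime] (c : Ideal T) (u π : T) (hπ : π ∈ P)
    (h : ∀ a ∈ c, ∃ s ∉ P, ∃ z, ∃ d ∈ c, s * a = u * z + π * d) {a : T} (ha : a ∈ c) :
    ∃ s ∉ P, s * a ∈ Ideal.span {u} := by
  set L := Localization.AtPrime P
  set f := algebraMap T L
  have hle : c.map f ≤ (Ideal.span {u}).map f ⊔ (Ideal.span {f π}) • c.map f := by
    rw [Ideal.map_le_iff_le_comap]
    intro a ha
    obtain ⟨s, hs, z, d, hd, hsa⟩ := h a ha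
    rw [Ideal.mem_comap,
      ← Ideal.unit_mul_mem_iff_mem _ (IsLocalization.map_units L (⟨s, hs⟩ : P.primeCompl)),
      ← map_mul, hsa, map_add, map_mul, map_mul]
    refine Submodule.add_mem_sup ?_ ?_
    · exact Ideal.mul_mem_right _ _ (Ideal.mem_map_of_mem f (Ideal.mem_span_singleton_self u))
    · exact Submodule.smul_mem_smul (Ideal.mem_span_singleton_self _) (Ideal.mem_map_of_mem f hd)
  have hjac : Ideal.span {f π} ≤ Ideal.jacobson (⊥ : Ideal L) := by
    rw [IsLocalRing.jacobson_eq_maximalIdeal _ bot_ne_top, Ideal.span_le, Set.singleton_subset_iff]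
    exact (IsLocalization.AtPrime.to_map_mem_maximal_iff L P π).2 hπ
  have hfg : (c.map f).FG := Ideal.FG.map (IsNoetherian.noetherian c) f
  have := Submodule.le_of_le_smul_of_le_jacobson_bot hfg hjac hle (Ideal.mem_map_of_mem f ha)
  exact (IsLocalization.algebraMap_mem_map_algebraMap_iff P.primeCompl L _ _).1 this

/-- An ideal cut out by one function modulo `π` is cut out by one function. -/
theorem exists_mul_mem_span_of_map {T C F : Type*} [CommRing T] [IsNoetherianRing T] [CommRing C]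
    [FunLike F T C] [RingHomClass F T C] (f : F) (hf : Function.Surjective f) (π : T)
    (hker : RingHom.ker f = Ideal.span {π}) (c : Ideal T) [hc : c.IsPrime] (hπ : π ∉ c)
    (Q : Ideal C) [Q.IsPrime] (hle : c ≤ Q.comap f) (u : T) (hu : u ∈ c)
    (hgen : ∀ a ∈ Q, ∃ s ∉ Q, s * a ∈ Ideal.span {f u}) {a : T} (ha : a ∈ c) :
    ∃ s ∉ Q.comap f, s * a ∈ Ideal.span {u} := by
  refine exists_mul_mem_span_of_local _ c u π ?_ (fun a ha => ?_) ha
  · rw [Ideal.mem_comap, show f π = 0 from
      RingHom.mem_ker.1 (hker ▸ Ideal.mem_span_singleton_self π)]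
    exact Q.zero_mem
  · obtain ⟨s, hs, hsa⟩ := hgen _ (hle ha)
    obtain ⟨z, hz⟩ := Ideal.mem_span_singleton.1 hsa
    obtain ⟨s, rfl⟩ := hf s
    obtain ⟨z, rfl⟩ := hf z
    have hk : s * a - u * z ∈ RingHom.ker f := by
      rw [RingHom.mem_ker, map_sub, map_mul, map_mul, hz, sub_self]
    rw [hker, Ideal.mem_span_singleton] at hk
    obtain ⟨d, hd⟩ := hk
    refine ⟨s, hs, z, d, ?_, eq_add_of_sub_eq' hd⟩
    refine (hc.mem_or_mem ?_).resolve_left hπ
    rw [← hd]
    exact sub_mem (c.mul_mem_left _ ha) (Ideal.mul_mem_right _ _ hu)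

/-- A maximal ideal of a Dedekind domain has a generator near itself. -/
theorem exists_gen_near {C : Type*} [CommRing C] [IsDedekindDomain C] (Q : Ideal C) [hQ : Q.IsMaximal]
    (h0 : Q ≠ ⊥) : ∃ x ∈ Q, ∀ a ∈ Q, ∃ s ∉ Q, s * a ∈ Ideal.span {x} := by
  obtain ⟨x, hxQ, hx2⟩ := Set.exists_of_ssubset
    (Ideal.pow_right_strictAnti Q h0 hQ.ne_top one_lt_two : Q ^ 2 < Q ^ 1)
  replace hxQ : x ∈ Q := by simpa using hxQ
  replace hx2 : x ∉ Q ^ 2 := by simpa using hx2
  obtain ⟨J, hJ⟩ := Ideal.dvd_iff_le.2 ((Ideal.span_singleton_le_iff_mem Q).2 hxQ)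
  obtain ⟨s, hsJ, hs⟩ : ∃ s ∈ J, s ∉ Q := by
    by_contra h
    push Not at h
    refine hx2 ?_
    have h1 : x ∈ Q * J := hJ ▸ Ideal.mem_span_singleton_self x
    rw [pow_two]
    exact Ideal.mul_mono_right (fun s hs => h s hs) h1
  exact ⟨x, hxQ, fun a ha => ⟨s, hs, hJ ▸ mul_comm a s ▸ Ideal.mul_mem_mul ha hsJ⟩⟩

/-- Two valuation rings with the same centre on a Dedekind domain are equal. -/
theorem eq_of_centre {C F : Type*} [CommRing C] [IsDedekindDomain C] [Field F] [Algebra C F]
    [IsFractionRing C F] (Q : Ideal C) [hQ : Q.IsPrime] (h0 : Q ≠ ⊥) (V V' : ValuationSubring F)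
    (hV : ∀ z : C, algebraMap C F z ∈ V ∧ (z ∈ Q ↔ algebraMap C F z ∈ V.nonunits))
    (hV' : ∀ z : C, algebraMap C F z ∈ V' ∧ (z ∈ Q ↔ algebraMap C F z ∈ V'.nonunits)) :
    V = V' := by
  haveI := IsLocalization.AtPrime.isDiscreteValuationRing_of_dedekind_domain C h0
    (Localization.AtPrime Q)
  have hdiv : ∀ a b : C, algebraMap _ (Localization.AtPrime Q) b ∣
      algebraMap _ (Localization.AtPrime Q) a → ∃ s ∉ Q, ∃ c, s * a = b * c := by
    rintro a b ⟨c, hc⟩
    obtain ⟨c₀, s, rfl⟩ := IsLocalization.exists_mk'_eq Q.primeCompl c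
    refine ⟨s, s.2, c₀, IsLocalization.injective (Localization.AtPrime Q)
      Q.primeCompl_le_nonZeroDivisors ?_⟩
    rw [map_mul, map_mul, hc, ← IsLocalization.mk'_spec (Localization.AtPrime Q) c₀ s]
    ring
  suffices key : ∀ W : ValuationSubring F,
      (∀ z : C, algebraMap C F z ∈ W ∧ (z ∈ Q ↔ algebraMap C F z ∈ W.nonunits)) → ∀ x : F,
      (x ∈ W ↔ ∃ s ∉ Q, ∃ c, algebraMap C F s * x = algebraMap C F c) by
    exact SetLike.ext fun x => (key V hV x).trans (key V' hV' x).symm
  intro W hW x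
  have hunit : ∀ s ∉ Q, algebraMap C F s ≠ 0 ∧ (algebraMap C F s)⁻¹ ∈ W := fun s hs => by
    have h := mt (hW s).2.2 hs
    rw [ValuationSubring.mem_nonunits_iff_or, not_or, not_not] at h
    exact h
  constructor
  · intro hx
    obtain ⟨a, b, hb, rfl⟩ := IsFractionRing.div_surjective C x
    have hb0 : algebraMap C F b ≠ 0 := fun h =>
      nonZeroDivisors.ne_zero hb (IsFractionRing.injective C F (h.trans (map_zero _).symm))
    rcases ValuationRing.dvd_total (algebraMap _ (Localization.AtPrime Q) b)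
      (algebraMap _ (Localization.AtPrime Q) a) with hd | hd
    · obtain ⟨s, hs, c, hc⟩ := hdiv a b hd
      refine ⟨s, hs, c, ?_⟩
      rw [mul_div_assoc', div_eq_iff hb0, ← map_mul, ← map_mul, mul_comm c, hc]
    · obtain ⟨s, hs, c, hc⟩ := hdiv b a hd
      have hcx : algebraMap C F c * (algebraMap C F a / algebraMap C F b) = algebraMap C F s := by
        rw [mul_div_assoc', div_eq_iff hb0, ← map_mul, ← map_mul, hc, mul_comm]
      refine ⟨c, fun hcQ => ?_, s, hcx⟩
      have h1 : algebraMap C F s ∈ W.nonunits := by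
        rw [← hcx]
        have h2 := (hW c).2.1 hcQ
        rw [ValuationSubring.mem_nonunits_iff, map_mul]
        exact mul_lt_one_of_lt_of_le ((ValuationSubring.mem_nonunits_iff W).1 h2)
          ((W.valuation_le_one_iff _).2 hx)
      exact hs ((hW s).2.2 h1)
  · rintro ⟨s, hs, c, hc⟩
    obtain ⟨h0, h1⟩ := hunit s hs
    rw [show x = (algebraMap C F s)⁻¹ * algebraMap C F c by rw [← hc, inv_mul_cancel_left₀ h0]]
    exact mul_mem h1 (hW c).1

/-- A valuation ring containing the constants and `x` contains the integral closure of `k[x]`. -/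
theorem intCl_le_valuationSubring {k E : Type*} [Field k] [Field E] [Algebra k E] {x : E}
    (V : ValuationSubring E) (hk : ∀ a : k, algebraMap k E a ∈ V) (hx : x ∈ V) {z : E}
    (hz : z ∈ BadQ.intCl (k := k) x) : z ∈ V := by
  refine mem_of_isIntegral_of_forall V (R := Algebra.adjoin k ({x} : Set E)) (BadQ.mem_intCl.1 hz) ?_
  rintro ⟨a, ha⟩
  show a ∈ V
  induction ha using Algebra.adjoin_induction with
  | mem a ha => rw [Set.mem_singleton_iff.1 ha]; exact hx
  | algebraMap r => exact hk r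
  | add a b _ _ ha hb => exact add_mem ha hb
  | mul a b _ _ ha hb => exact mul_mem ha hb

/-! ### The expansions at the cusps commute with automorphisms of the constants -/

section Galois

variable {N : ℕ} [NeZero N] {k : Type*} [Field k] (φ : zetaRing N →+* k)

/-- An automorphism of the constants fixing the roots of unity commutes with the expansions. -/
theorem exists_coeffMap_emb (σ : k →+* k) (hσ : ∀ z, σ (φ z) = φ z) (c : CosetIdx N)
    {z : LaurentSeries k} (hz : z ∈ modularFunctionFieldFullC k N) :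
    ∃ z' : modularFunctionFieldFullC k N, (z' : LaurentSeries k) = coeffMap σ z ∧
      emb φ c z' = coeffMap σ (emb φ c ⟨z, hz⟩) := by
  induction hz using IntermediateField.adjoin_induction with
  | mem x hx =>
    obtain ⟨d, hd0, hd, rfl⟩ := hx
    let d' : DivIdx N := ⟨d, Nat.mem_divisors.mpr ⟨hd, NeZero.ne N⟩⟩
    refine ⟨jdF k d', ?_, ?_⟩
    · show qExpand k d (jqModC k) = _
      rw [ModularCurve.coeffMap_qExpand, coeffMap_jqModC]
    · have hy : coeffMap φ ((jdFamily N d').ser (cosetInf N)) = upVal N k (jdF k d') := by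
        rw [jdFamily_ser_cosetInf, coeffMap_qScale, coeffMap_qScale, coeffMap_jqModC, upVal_apply,
          qScale_eq (d' : ℕ)]
        rfl
      show emb φ c (jdF k d') = coeffMap σ (emb φ c (jdF k d'))
      rw [emb_family φ (jdFamily N d') hy c]
      exact HahnSeries.ext (funext fun i => (hσ _).symm)
  | algebraMap a =>
    refine ⟨algebraMap k _ (σ a), ?_, ?_⟩
    · show algebraMap k (LaurentSeries k) (σ a) = _
      rw [Reduction.algebraMap_eq_C, ← Reduction.coeffMap_C σ a, ← Reduction.algebraMap_eq_C]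
    · show emb φ c (algebraMap k _ (σ a)) = coeffMap σ (emb φ c (algebraMap k _ a))
      rw [AlgHom.commutes, AlgHom.commutes, Reduction.algebraMap_eq_C, Reduction.coeffMap_C]
  | add x y hx hy ihx ihy =>
    obtain ⟨x', hx', hx''⟩ := ihx
    obtain ⟨y', hy', hy''⟩ := ihy
    refine ⟨x' + y', by rw [AddMemClass.coe_add, hx', hy', map_add], ?_⟩
    rw [map_add, hx'', hy'', ← map_add, ← map_add]
    rfl
  | inv x hx ihx =>
    obtain ⟨x', hx', hx''⟩ := ihx
    refine ⟨x'⁻¹, by rw [IntermediateField.coe_inv, hx', map_inv₀], ?_⟩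
    rw [map_inv₀, hx'', ← map_inv₀, ← map_inv₀]
    rfl
  | mul x y hx hy ihx ihy =>
    obtain ⟨x', hx', hx''⟩ := ihx
    obtain ⟨y', hy', hy''⟩ := ihy
    refine ⟨x' * y', by rw [MulMemClass.coe_mul, hx', hy', map_mul], ?_⟩
    rw [map_mul, hx'', hy'', ← map_mul, ← map_mul]
    rfl

theorem coeff_emb_fixed (σ : k →+* k) (hσ : ∀ z, σ (φ z) = φ z) (c : CosetIdx N)
    (y : modularFunctionFieldFullC k N) (hy : ∀ i, σ ((y : LaurentSeries k).coeff i) =
      (y : LaurentSeries k).coeff i) (i : ℤ) :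
    σ ((emb φ c y).coeff i) = (emb φ c y).coeff i := by
  obtain ⟨z', hz, hz'⟩ := exists_coeffMap_emb φ σ hσ c y.2
  have h : z' = y := Subtype.ext (hz.trans (HahnSeries.ext (funext hy)))
  subst h
  exact (congrArg (fun f : LaurentSeries k => f.coeff i) hz').symm

/-- The sign of the order of the coordinate at a cusp. -/
theorem order_emb_unitF_neg_iff (hN : 2 ≤ N) (c : CosetIdx N) :
    ((emb φ c (unitF φ)).order < 0 ↔ c = cosetInf N) ∧
      (0 < (emb φ c (unitF φ)).order ↔ c ≠ cosetInf N) := by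
  have hinf : (emb φ (cosetInf N) (unitF φ)).order < 0 := by
    rw [emb_cosetInf, upVal_apply]
    show (qScale k N (tSer k N)).order < 0
    rw [Reduction.order_qScale (NeZero.ne N) (show tSer k N ≠ 0 from (tUnit k N).ne_zero),
      order_tSer hN k φ]
    exact mul_neg_of_pos_of_neg (by exact_mod_cast NeZero.pos N)
      (neg_neg_iff_pos.2 (by exact_mod_cast tDeg_pos φ hN))
  rcases eq_or_ne c (cosetInf N) with rfl | h
  · exact ⟨iff_of_true hinf rfl, iff_of_false (by omega) (fun h => h rfl)⟩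
  · have := order_emb_unitF_pos φ c h
    exact ⟨iff_of_false (by omega) h, iff_of_true this h⟩

variable (b : Bool)

/-- The coordinate `t` or `1 / t` as a function. -/
def coordF : modularFunctionFieldFullC k N := if b then unitF φ else (unitF φ)⁻¹

theorem coordF_nonunit_iff (hN : 2 ≤ N) (c : CosetIdx N) :
    coordF φ b ∈ (ordRing (emb φ c).toRingHom).nonunits ↔
      if b then c ≠ cosetInf N else c = cosetInf N := by
  obtain ⟨h1, h2⟩ := order_emb_unitF_neg_iff φ hN c
  rw [mem_nonunits_ordRing]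
  cases b
  · simp only [coordF, Bool.false_eq_true, if_false, inv_eq_zero, unitF_ne_zero, false_or]
    show 0 < (emb φ c (unitF φ)⁻¹).order ↔ _
    rw [map_inv₀, order_inv', ← h1]
    omega
  · simp only [coordF, if_true, unitF_ne_zero, false_or]
    exact h2

end Galois

/-! ### The cusp sections -/

local notation "Qb" => AlgebraicClosure ℚ

variable {A : ValuationSubring Qb} {q : ℕ} [hq : Fact q.Prime] (hA : A.LiesOverPrime q) (M : ℕ)
  [NeZero M] (hqM : ¬ q ∣ M) (hM : GoodLevel M) (b : Bool)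

variable (A) in
/-- The coordinate in the chart. -/
def coord0 : chart0 A M b := ⟨coord A M b, TwoChart.subset_intCl _ (Set.mem_singleton _)⟩

/-- A function over the fixed field as a function over `ℚ̄`. -/
def fnToC : Fn A M →+* modularFunctionFieldFullC Qb M :=
  RingHom.codRestrict (valFn M) (modularFunctionFieldFullC Qb M).toSubfield.toSubring coe_mem_fullC

theorem fnToC_coord : fnToC M (coord A M b) = coordF (phiQ M) b := by
  refine Subtype.ext ?_
  show valFn M (coord A M b) = _
  rw [valFn_coord]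
  cases b <;> rfl

theorem coordBar_eq : coordBar M hA hqM b = coordF (phiK M hA hqM) b := rfl

theorem red0_coord0 :
    ((red0 hA M hqM b (coord0 A M b) : fibre M hA hqM b) :
      modularFunctionFieldFullC (kres A) M) = coordBar M hA hqM b :=
  (Subtype.ext rfl : red0Ring hA M hqM b (coord0 A M b) =
    redFn M hA hqM ⟨coord A M b, coord_mem_gFn M b⟩).trans (redFn_coord M hA hqM b)

variable (c : Ideal (chart0 A M b)) [hc : c.IsPrime]

include hA hqM hM in
/-- A cusp section is cut out by an expansion. -/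
theorem exists_cusp_coset (hcq : (q : chart0 A M b) ∉ c) (hcs : coord0 A M b ∈ c) :
    ∃ γ : CosetIdx M, ∀ a : chart0 A M b,
      fnToC M (a : Fn A M) ∈ ordRing (emb (phiQ M) γ).toRingHom ∧
      (a ∈ c ↔ fnToC M (a : Fn A M) ∈ (ordRing (emb (phiQ M) γ).toRingHom).nonunits) := by
  haveI : Infinite Qb := IsAlgClosed.instInfinite
  let j : chart0 A M b →+* LaurentSeries Qb := (valFn M).comp (chart0 A M b).val.toRingHom
  obtain ⟨B, hT, hPB, hinv⟩ :=
    exists_valuationSubring_prime j (valFn_injective.comp Subtype.val_injective) c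
  have hW : ∀ w : W0 A, cW A w ∈ B := fun w => by
    have h := hT (algebraMap (W0 A) (chart0 A M b) w)
    change valFn M (algebraMap (W0 A) (Fn A M) w) ∈ B at h
    rwa [algebraMap_W0_Fn, valFn_algebraMap] at h
  have hN := inv_M_mem hA M hqM B hW
  have hqi : (q : Qb)⁻¹ ∈ cRing B := by
    have h := hinv _ hcq
    rw [map_natCast] at h
    rw [mem_cRing, map_inv₀, map_natCast]
    exact h
  have hj : jqModC Qb ∉ B := fun hj => by
    have ht := tSer_mem (N := M) B hN hj
    have h1 : (j (coord0 A M b))⁻¹ ∈ B := by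
      show (valFn M (coord A M b))⁻¹ ∈ B
      rw [valFn_coord]
      cases b
      · simp only [Bool.false_eq_true, if_false, inv_inv]; exact ht.1
      · exact ht.2
    have h2 := (B.mem_nonunits_iff).2 (hPB _ hcs)
    rw [ValuationSubring.mem_nonunits_iff_or] at h2
    rcases h2 with h2 | h2
    · refine transcendental_coord (A := A) (M := M) hM.two_le b ?_
      rw [show coord A M b = 0 from valFn_injective (h2.trans (map_zero _).symm)]
      exact isAlgebraic_zero
    · exact h2 h1
  obtain ⟨γ, hγ⟩ := exists_eq_ordRing (phiQ M)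
    (B.comap (modularFunctionFieldFullC Qb M).val.toRingHom)
    (fun a => by
      show algebraMap Qb (LaurentSeries Qb) a ∈ B
      rw [Reduction.algebraMap_eq_C]
      exact C_mem_of_inv_mem hA B hW hqi a)
    hj
  refine ⟨γ, fun a => ?_⟩
  rw [← hγ]
  refine ⟨hT a, ?_⟩
  rw [ValuationSubring.mem_nonunits_iff_or]
  constructor
  · intro ha
    refine or_iff_not_imp_left.2 fun h0 h1 => ?_
    have h2 := (B.mem_nonunits_iff).2 (hPB a ha)
    rw [ValuationSubring.mem_nonunits_iff_or] at h2
    exact h2.elim (fun h => h0 (Subtype.ext h)) fun h => h h1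
  · intro h
    by_contra ha
    rcases h with h | h
    · refine ha ?_
      rw [show a = 0 from Subtype.ext (valFn_injective ((congrArg Subtype.val h).trans
        (map_zero _).symm))]
      exact c.zero_mem
    · exact h (hinv a ha)

include hA hqM hM in
/-- The cusp sections are rational over the fixed field of inertia. -/
theorem exists_sub_mem_cusp (hcq : (q : chart0 A M b) ∉ c) (hcs : coord0 A M b ∈ c)
    (a : chart0 A M b) : ∃ w : W0 A, a - algebraMap (W0 A) (chart0 A M b) w ∈ c := by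
  obtain ⟨γ, hγ⟩ := exists_cusp_coset hA M hqM hM b c hcq hcs
  let χ : chart0 A M b →+* Qb := (constHom Qb).comp
    ((((emb (phiQ M) γ).toRingHom).comp ((fnToC M).comp (chart0 A M b).val.toRingHom)).codRestrict
      (nonnegSub Qb) fun a => (hγ a).1)
  have hχW : ∀ w : W0 A, χ (algebraMap (W0 A) (chart0 A M b) w) = ((w : K0 A) : Qb) := fun w => by
    have h1 : fnToC M (algebraMap (W0 A) (Fn A M) w) = algebraMap Qb _ ((w : K0 A) : Qb) := by
      refine Subtype.ext ?_
      show valFn M _ = algebraMap Qb (LaurentSeries Qb) _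
      rw [algebraMap_W0_Fn, valFn_algebraMap, Reduction.algebraMap_eq_C]
    show constHom Qb ⟨emb (phiQ M) γ (fnToC M (algebraMap (W0 A) (Fn A M) w)), _⟩ = _
    rw [constHom_apply]
    show (emb (phiQ M) γ (fnToC M (algebraMap (W0 A) (Fn A M) w))).coeff 0 = _
    rw [h1, AlgHom.commutes, Reduction.algebraMap_eq_C, HahnSeries.C_apply,
      HahnSeries.coeff_single_same]
  have hχc : ∀ a : chart0 A M b, a ∈ c ↔ χ a = 0 := fun a => by
    rw [(hγ a).2, mem_nonunits_ordRing]
    refine Iff.trans ?_ constHom_eq_zero_iff.symm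
    exact or_congr (_root_.map_eq_zero (emb (phiQ M) γ).toRingHom).symm Iff.rfl
  have hK : χ a ∈ K0 A := by
    rw [TwoChart.mem_fixedK]
    intro σ hσ
    refine coeff_emb_fixed (phiQ M) (σ : Qb →+* Qb) (fun z => ?_) γ (fnToC M (a : Fn A M))
      (fun i => TwoChart.mem_fixedK.1 (coeff_mem_K0 (a : Fn A M) i) σ hσ) 0
    obtain ⟨w, -, hw⟩ := phiQ_mem_wRing hA M hqM z
    exact hw ▸ TwoChart.mem_fixedK.1 w.2 σ hσ
  have hA' : χ a ∈ A := by
    let θ : Algebra.adjoin (W0 A) ({coord A M b} : Set (Fn A M)) →+* Qb := χ.comp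
      (Subalgebra.inclusion (TwoChart.adjoin_le_intCl _)).toRingHom
    letI := θ.toAlgebra
    have hint : IsIntegral (Algebra.adjoin (W0 A) ({coord A M b} : Set (Fn A M))) (χ a) := by
      obtain ⟨p, hp, hp0⟩ := a.2
      refine ⟨p, hp, ?_⟩
      show p.eval₂ (χ.comp _) (χ a) = 0
      rw [← Polynomial.hom_eval₂]
      refine (congrArg χ (Subtype.ext ?_)).trans (map_zero χ)
      exact (Polynomial.hom_eval₂ p _ (chart0 A M b).val.toRingHom a).trans hp0
    refine mem_of_isIntegral_of_forall A hint ?_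
    rintro ⟨r, hr⟩
    show χ ⟨r, TwoChart.adjoin_le_intCl _ hr⟩ ∈ A
    induction hr using Algebra.adjoin_induction with
    | mem y hy =>
      rw [Set.mem_singleton_iff] at hy
      subst hy
      rw [show (⟨coord A M b, _⟩ : chart0 A M b) = coord0 A M b from rfl, (hχc _).1 hcs]
      exact zero_mem _
    | algebraMap w =>
      rw [show (⟨algebraMap (W0 A) (Fn A M) w, _⟩ : chart0 A M b) = algebraMap (W0 A) _ w from rfl,
        hχW]
      exact w.2
    | add y z hy hz iy iz =>
      rw [show (⟨y + z, _⟩ : chart0 A M b) = ⟨y, TwoChart.adjoin_le_intCl _ hy⟩ +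
        ⟨z, TwoChart.adjoin_le_intCl _ hz⟩ from rfl, map_add]
      exact add_mem iy iz
    | mul y z hy hz iy iz =>
      rw [show (⟨y * z, _⟩ : chart0 A M b) = ⟨y, TwoChart.adjoin_le_intCl _ hy⟩ *
        ⟨z, TwoChart.adjoin_le_intCl _ hz⟩ from rfl, map_mul]
      exact mul_mem iy iz
  refine ⟨⟨⟨χ a, hK⟩, hA'⟩, (hχc _).2 ?_⟩
  rw [map_sub, hχW, sub_self]

include hM in
/-- Each function of the fibre vanishing at a point of a cusp section lifts to the section. -/
theorem exists_mem_red0_eq (hcq : (q : chart0 A M b) ∉ c) (hcs : coord0 A M b ∈ c)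
    (Q : Ideal (fibre M hA hqM b)) (hQ : Q ≠ ⊤) (hle : c ≤ Q.comap (red0 hA M hqM b))
    {x : fibre M hA hqM b} (hx : x ∈ Q) : ∃ u ∈ c, red0 hA M hqM b u = x := by
  obtain ⟨y, rfl⟩ := red0_surjective hA M hqM hM b x
  obtain ⟨w, hw⟩ := exists_sub_mem_cusp hA M hqM hM b c hcq hcs y
  refine ⟨_, hw, ?_⟩
  have h1 : red0 hA M hqM b (y - algebraMap (W0 A) (chart0 A M b) w) ∈ Q := hle hw
  rw [map_sub, AlgHom.commutes, Submodule.sub_mem_iff_right Q hx, algebraMap_sub] at h1
  rw [map_sub, AlgHom.commutes]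
  suffices h : redW A w = 0 by rw [algebraMap_sub, h, map_zero, sub_zero]
  by_contra h
  exact hQ (Ideal.eq_top_of_isUnit_mem _ h1 ((isUnit_iff_ne_zero.2 h).map _))

include hM in
theorem map_red0_eq (hcq : (q : chart0 A M b) ∉ c) (hcs : coord0 A M b ∈ c)
    (Q : Ideal (fibre M hA hqM b)) (hQ : Q ≠ ⊤) (hle : c ≤ Q.comap (red0 hA M hqM b)) :
    c.map (red0 hA M hqM b) = Q := by
  refine le_antisymm (Ideal.map_le_iff_le_comap.2 hle) fun x hx => ?_
  obtain ⟨u, hu, rfl⟩ := exists_mem_red0_eq hA M hqM hM b c hcq hcs Q hQ hle hx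
  exact Ideal.mem_map_of_mem _ hu

include hM in
/-- A cusp section meets the special fibre. -/
theorem map_red0_ne_top (hcq : (q : chart0 A M b) ∉ c) (hcs : coord0 A M b ∈ c) :
    c.map (red0 hA M hqM b) ≠ ⊤ := by
  haveI := isDiscreteValuationRing_W0 hA
  intro h
  obtain ⟨u, hu, hu1⟩ := (Ideal.mem_map_iff_of_surjective _ (red0_surjective hA M hqM hM b)).1
    ((Ideal.eq_top_iff_one _).1 h)
  have h1 : 1 - u ∈ RingHom.ker (red0 hA M hqM b) := by
    rw [RingHom.mem_ker, map_sub, map_one, hu1, sub_self]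
  rw [ker_red0 hA M hqM hM b, Ideal.mem_span_singleton] at h1
  obtain ⟨d, hd⟩ := h1
  obtain ⟨w, hw⟩ := exists_sub_mem_cusp hA M hqM hM b c hcq hcs d
  have h2 : (1 : W0 A) - qW A q * w ≠ 0 := fun h =>
    (qW_irreducible hA).not_isUnit (IsUnit.of_mul_eq_one _ (sub_eq_zero.1 h).symm)
  refine algebraMap_W0_notMem hA c hcq h2 ?_
  have h3 : algebraMap (W0 A) (chart0 A M b) (1 - qW A q * w) =
      u + (q : chart0 A M b) * (d - algebraMap (W0 A) (chart0 A M b) w) := by
    rw [map_sub, map_one, map_mul, map_natCast, mul_sub, ← hd]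
    ring
  exact h3 ▸ add_mem hu (c.mul_mem_left _ hw)

include hM in
/-- Near the special fibre a cusp section is cut out by one function, a parameter of its point. -/
theorem cusp_gen (hcq : (q : chart0 A M b) ∉ c) (hcs : coord0 A M b ∈ c)
    (Q : Ideal (fibre M hA hqM b)) (hQ : Q.IsMaximal) (hle : c ≤ Q.comap (red0 hA M hqM b)) :
    ∃ u ∈ c, (∀ a ∈ c, ∃ s ∉ Q.comap (red0 hA M hqM b), s * a ∈ Ideal.span {u}) ∧
      red0 hA M hqM b u ∈ Q ∧
      ∀ a ∈ Q, ∃ s ∉ Q, s * a ∈ Ideal.span {red0 hA M hqM b u} := by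
  haveI := hQ
  haveI := isDedekindDomain_fibreRing hA M hqM b hM.two_le
  haveI := isNoetherianRing_chart hA (transcendental_coord (A := A) (M := M) hM.two_le b)
  have hQ0 : Q ≠ ⊥ :=
    Ring.ne_bot_of_isMaximal_of_not_isField hQ (not_isField_fibre hA M hqM hM b)
  obtain ⟨x, hx, hgen⟩ := exists_gen_near Q hQ0
  obtain ⟨u, hu, rfl⟩ := exists_mem_red0_eq hA M hqM hM b c hcq hcs Q hQ.ne_top hle hx
  refine ⟨u, hu, fun a ha => ?_, hle hu, hgen⟩
  exact exists_mul_mem_span_of_map (red0 hA M hqM b) (red0_surjective hA M hqM hM b)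
    (q : chart0 A M b) (ker_red0 hA M hqM hM b) c hcq Q hle u hu hgen ha

omit hc in
include hM in
/-- Every zero of the coordinate on the special fibre lies on a cusp section. -/
theorem exists_cusp_above (Q : Ideal (fibre M hA hqM b)) (hQ : Q.IsMaximal)
    (hsQ : red0 hA M hqM b (coord0 A M b) ∈ Q) :
    ∃ c : Ideal (chart0 A M b), c.IsPrime ∧ (q : chart0 A M b) ∉ c ∧ coord0 A M b ∈ c ∧
      c ≤ Q.comap (red0 hA M hqM b) := by
  haveI := hQ
  haveI := isNoetherianRing_chart hA (transcendental_coord (A := A) (M := M) hM.two_le b)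
  obtain ⟨P, hP, hPQ⟩ := Ideal.exists_minimalPrimes_le (I := Ideal.span {coord0 A M b})
    (J := Q.comap (red0 hA M hqM b))
    ((Ideal.span_singleton_le_iff_mem _).2 hsQ)
  haveI := hP.isPrime
  have hsP : coord0 A M b ∈ P := (Ideal.span_singleton_le_iff_mem _).1 hP.le
  refine ⟨P, hP.isPrime, fun hqP => ?_, hsP, hPQ⟩
  set K := RingHom.ker (red0 hA M hqM b) with hK
  haveI : K.IsPrime := RingHom.ker_isPrime _
  have hKP : K ≤ P := by rwa [hK, ker_red0 hA M hqM hM b, Ideal.span_singleton_le_iff_mem]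
  have hK0 : ⊥ < K := by
    rw [bot_lt_iff_ne_bot, hK, ker_red0 hA M hqM hM b, Ne, Ideal.span_singleton_eq_bot]
    intro h
    have h1 : valFn M (((q : chart0 A M b) : chart0 A M b) : Fn A M) = 0 := by
      rw [h, ZeroMemClass.coe_zero, map_zero]
    push_cast at h1
    rw [map_natCast, ← map_natCast (HahnSeries.C : Qb →+* LaurentSeries Qb),
      _root_.map_eq_zero, Nat.cast_eq_zero] at h1
    exact hq.out.ne_zero h1
  have h1 := Ideal.height_le_one_of_isPrincipal_of_mem_minimalPrimes _ P hP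
  rcases hKP.eq_or_lt with e | e
  · have h2 : red0 hA M hqM b (coord0 A M b) = 0 := RingHom.mem_ker.1 (hK ▸ e ▸ hsP)
    have h3 := red0_coord0 hA M hqM b
    rw [h2, ZeroMemClass.coe_zero] at h3
    exact transcendental_coordBar_of_two_le hA M hqM b hM.two_le (h3 ▸ isAlgebraic_zero)
  · have h2 := Ideal.height_strict_mono_of_isPrime hK0
    have h3 := (Ideal.height_strict_mono_of_isPrime e).trans_le h1
    rw [Order.lt_one_iff] at h3
    rw [h3] at h2
    exact not_lt_zero h2

omit hc in
include hM in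
/-- The centre on the special fibre of a cusp where the coordinate vanishes. -/
theorem exists_centre (γ : CosetIdx M) (hγ : if b then γ ≠ cosetInf M else γ = cosetInf M) :
    ∃ Q : Ideal (fibre M hA hqM b), Q.IsMaximal ∧ red0 hA M hqM b (coord0 A M b) ∈ Q ∧
      ∀ z : fibre M hA hqM b,
        (z : modularFunctionFieldFullC (kres A) M) ∈ ordRing (emb (phiK M hA hqM) γ).toRingHom ∧
        (z ∈ Q ↔ (z : modularFunctionFieldFullC (kres A) M) ∈
          (ordRing (emb (phiK M hA hqM) γ).toRingHom).nonunits) := by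
  set V := ordRing (emb (phiK M hA hqM) γ).toRingHom
  have hs : coordBar M hA hqM b ∈ V.nonunits :=
    (coordF_nonunit_iff (phiK M hA hqM) b hM.two_le γ).2 hγ
  have hV : ∀ z : fibre M hA hqM b, (z : modularFunctionFieldFullC (kres A) M) ∈ V := fun z =>
    intCl_le_valuationSubring V (fun a => by
      rw [mem_ordRing]
      show 0 ≤ (emb (phiK M hA hqM) γ (algebraMap (kres A) _ a)).order
      rw [AlgHom.commutes, Reduction.algebraMap_eq_C, HahnSeries.order_C])
      (V.nonunits_subset hs) z.2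
  let f : fibre M hA hqM b →+* V :=
    (fibre M hA hqM b).val.toRingHom.codRestrict V.toSubring hV
  let Q := (IsLocalRing.maximalIdeal V).comap f
  have hmem : ∀ z, z ∈ Q ↔ (z : modularFunctionFieldFullC (kres A) M) ∈ V.nonunits := fun z => by
    rw [Ideal.mem_comap]
    exact (ValuationSubring.coe_mem_nonunits_iff (a := f z)).symm
  have hsQ : red0 hA M hqM b (coord0 A M b) ∈ Q := by
    rw [hmem, red0_coord0]
    exact hs
  haveI := isDedekindDomain_fibreRing hA M hqM b hM.two_le
  have hQp : Q.IsPrime := Ideal.IsPrime.comap f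
  refine ⟨Q, hQp.isMaximal fun h => ?_, hsQ, fun z => ⟨hV z, hmem z⟩⟩
  rw [h, Ideal.mem_bot] at hsQ
  have h3 := red0_coord0 hA M hqM b
  rw [hsQ, ZeroMemClass.coe_zero] at h3
  exact transcendental_coordBar_of_two_le hA M hqM b hM.two_le (h3 ▸ isAlgebraic_zero)

include hM in
/-- Two cusp sections never meet on the special fibre. -/
theorem cusp_unique (hcq : (q : chart0 A M b) ∉ c) (hcs : coord0 A M b ∈ c)
    (c' : Ideal (chart0 A M b)) [hc' : c'.IsPrime] (hcq' : (q : chart0 A M b) ∉ c')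
    (hcs' : coord0 A M b ∈ c') (Q : Ideal (fibre M hA hqM b)) (hQ : Q.IsMaximal)
    (hle : c ≤ Q.comap (red0 hA M hqM b)) (hle' : c' ≤ Q.comap (red0 hA M hqM b)) : c = c' := by
  let S := {d : Ideal (chart0 A M b) //
    d.IsPrime ∧ (q : chart0 A M b) ∉ d ∧ coord0 A M b ∈ d}
  let T := {P : Ideal (fibre M hA hqM b) //
    P.IsMaximal ∧ red0 hA M hqM b (coord0 A M b) ∈ P}
  have hmap : ∀ d : S, (d.1.map (red0 hA M hqM b)).IsMaximal := by
    rintro ⟨d, hd, hdq, hds⟩
    haveI := hd
    obtain ⟨P, hP, hdP⟩ := Ideal.exists_le_maximal _ (map_red0_ne_top hA M hqM hM b d hdq hds)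
    rw [map_red0_eq hA M hqM hM b d hdq hds P hP.ne_top (Ideal.map_le_iff_le_comap.1 hdP)]
    exact hP
  let r : S → T := fun d => ⟨_, hmap d, Ideal.mem_map_of_mem _ d.2.2.2⟩
  have hr : Function.Surjective r := by
    rintro ⟨P, hP, hsP⟩
    obtain ⟨d, hd, hdq, hds, hdP⟩ := exists_cusp_above hA M hqM hM b P hP hsP
    haveI := hd
    exact ⟨⟨d, hd, hdq, hds⟩,
      Subtype.ext (map_red0_eq hA M hqM hM b d hdq hds P hP.ne_top hdP)⟩
  have hex : ∀ d : S, ∃ γ : CosetIdx M, ∀ a : chart0 A M b,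
      fnToC M (a : Fn A M) ∈ ordRing (emb (phiQ M) γ).toRingHom ∧
      (a ∈ d.1 ↔ fnToC M (a : Fn A M) ∈ (ordRing (emb (phiQ M) γ).toRingHom).nonunits) := by
    rintro ⟨d, hd, hdq, hds⟩
    haveI := hd
    exact exists_cusp_coset hA M hqM hM b d hdq hds
  choose γ hγ using hex
  have heq : ∀ d d' : S, ordRing (emb (phiQ M) (γ d)).toRingHom =
      ordRing (emb (phiQ M) (γ d')).toRingHom → d = d' := fun d d' h =>
    Subtype.ext (Ideal.ext fun a => by rw [(hγ d a).2, (hγ d' a).2, h])
  haveI : Finite S := Finite.of_injective γ fun d d' h => heq d d' (by rw [h])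
  have hex' : ∀ d : S, ∃ P : T, ∀ z : fibre M hA hqM b,
      (z : modularFunctionFieldFullC (kres A) M) ∈ ordRing (emb (phiK M hA hqM) (γ d)).toRingHom ∧
      (z ∈ P.1 ↔ (z : modularFunctionFieldFullC (kres A) M) ∈
        (ordRing (emb (phiK M hA hqM) (γ d)).toRingHom).nonunits) := by
    intro d
    have h1 := ((hγ d (coord0 A M b)).2.1 d.2.2.2)
    rw [show fnToC M ((coord0 A M b : chart0 A M b) : Fn A M) = coordF (phiQ M) b from
      fnToC_coord M b, coordF_nonunit_iff _ _ hM.two_le] at h1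
    obtain ⟨P, hP, hsP, hP'⟩ := exists_centre hA M hqM hM b (γ d) h1
    exact ⟨⟨P, hP, hsP⟩, hP'⟩
  choose G hG using hex'
  have hGi : Function.Injective G := by
    intro d d' h
    haveI := isDedekindDomain_fibreRing hA M hqM b hM.two_le
    haveI := isFractionRing_fibreRing hA M hqM b hM.two_le
    haveI := (G d).2.1.isPrime
    have h0 : (G d).1 ≠ ⊥ := fun h0 => by
      have h1 : red0 hA M hqM b (coord0 A M b) = 0 := (Submodule.eq_bot_iff _).1 h0 _ (G d).2.2
      have h3 := red0_coord0 hA M hqM b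
      rw [h1, ZeroMemClass.coe_zero] at h3
      exact transcendental_coordBar_of_two_le hA M hqM b hM.two_le (h3 ▸ isAlgebraic_zero)
    have hV := eq_of_centre (F := modularFunctionFieldFullC (kres A) M) (G d).1 h0 _ _ (hG d)
      (h ▸ hG d')
    obtain ⟨ha, hb⟩ := eq_of_ordRing_emb_eq (phiK M hA hqM) hV
    exact heq d d' (ordRing_emb_eq (phiQ M) ha hb)
  haveI : Finite T := Finite.of_surjective r hr
  have hri : Function.Injective r :=
    ((Nat.bijective_iff_surjective_and_card r).2 ⟨hr, le_antisymm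
      (Nat.card_le_card_of_injective G hGi) (Nat.card_le_card_of_surjective r hr)⟩).1
  have h := @hri ⟨c, hc, hcq, hcs⟩ ⟨c', hc', hcq', hcs'⟩ (Subtype.ext
    ((map_red0_eq hA M hqM hM b c hcq hcs Q hQ.ne_top hle).trans
      (map_red0_eq hA M hqM hM b c' hcq' hcs' Q hQ.ne_top hle').symm))
  exact congrArg Subtype.val h

end FLTAgent.BadQ.TwoInst
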