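import Mathlib
import Fermat.Agent.BadQ.TwoInstEmb
import Fermat.Agent.BadQ.TwoInstPole
import Fermat.Agent.BadQ.TwoInstEtaleLocal
import Fermat.Agent.BadQ.TwoInstTower

/-!
# Tools for the ramification at the cusps of level `qM`

Local fractions in valuation rings, integrality of the unit and its inverse over `k[j]`
(`family_mem`, `coordF_mem`), the cosets where a coordinate vanishes (`ZeroCoset`), and the
orders attained at a coset: the multiples of `gcd (a², N)` (`exists_sigF_order_eq`).
-/

set_option autoImplicit false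
set_option linter.style.haveILetI false
set_option linter.unusedSectionVars false
set_option synthInstance.maxHeartbeats 400000
set_option maxHeartbeats 1000000

noncomputable section

open ModularCurve IntermediateField Polynomial
open scoped IntermediateField

namespace FLTAgent.BadQ.TwoInst.Ram

open FLTAgent.ModularCosets FLTAgent.Reduction

/-! ### Valuation rings over a prime with valuation ring as local ring -/

section Algebra

variable {R E : Type*} [CommRing R] [IsDomain R] [Field E] [Algebra R E] [IsFractionRing R E]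
  (Q : Ideal R) [hQ : Q.IsPrime] [ValuationRing (Localization.AtPrime Q)]
  {V : ValuationSubring E} (hR : ∀ x, algebraMap R E x ∈ V)
  (hQV : ∀ x, x ∈ Q ↔ algebraMap R E x ∈ V.nonunits)

include hR hQV in
/-- An element of the valuation ring is a fraction with denominator outside the prime. -/
theorem exists_mul_eq_of_mem_valuation {z : E} (hz : z ∈ V) :
    ∃ s ∉ Q, ∃ r, algebraMap R E s * z = algebraMap R E r := by
  obtain ⟨x, y, hy, rfl⟩ := IsFractionRing.div_surjective R z
  have hy0 : algebraMap R E y ≠ 0 :=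
    IsFractionRing.to_map_ne_zero_of_mem_nonZeroDivisors hy
  have hinj : Function.Injective (algebraMap R (Localization.AtPrime Q)) :=
    IsLocalization.injective _ Q.primeCompl_le_nonZeroDivisors
  rcases ValuationRing.dvd_total (algebraMap R (Localization.AtPrime Q) y)
    (algebraMap R (Localization.AtPrime Q) x) with ⟨w, hw⟩ | ⟨w, hw⟩
  all_goals obtain ⟨⟨r, s⟩, hrs⟩ := IsLocalization.surj Q.primeCompl w
  · have he : x * (s : R) = y * r := hinj (by rw [map_mul, map_mul, hw, mul_assoc, hrs])
    refine ⟨s, s.2, r, ?_⟩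
    rw [mul_div_assoc', div_eq_iff hy0, ← map_mul, ← map_mul, mul_comm (s : R), he, mul_comm y]
  · have he : y * (s : R) = x * r := hinj (by rw [map_mul, map_mul, hw, mul_assoc, hrs])
    have hs0 : algebraMap R E s ≠ 0 := fun h => s.2 (by
      rw [(IsFractionRing.injective R E) (h.trans (map_zero _).symm)]; exact Q.zero_mem)
    have hrz : algebraMap R E r * (algebraMap R E x / algebraMap R E y) = algebraMap R E s := by
      rw [mul_div_assoc', div_eq_iff hy0, ← map_mul, ← map_mul, mul_comm r, ← he, mul_comm y]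
    refine ⟨r, fun hr => ?_, s, hrz⟩
    have h1 : algebraMap R E (s : R) ∈ V.nonunits := by
      rw [← hrz]
      rw [hQV] at hr
      rw [ValuationSubring.mem_nonunits_iff] at hr ⊢
      rw [map_mul]
      exact mul_lt_one_of_lt_of_le hr ((V.valuation_le_one_iff _).2 hz)
    exact s.2 ((hQV _).2 h1)

include hR hQV in
/-- An element of the local ring as a quotient of elements of the ring. -/
theorem exists_mul_eq_mul_of_div_mem {x y : R} (hy : y ≠ 0)
    (h : algebraMap R E x / algebraMap R E y ∈ V) : ∃ s ∉ Q, ∃ r, s * x = r * y := by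
  obtain ⟨s, hs, r, hr⟩ := exists_mul_eq_of_mem_valuation Q hR hQV h
  refine ⟨s, hs, r, IsFractionRing.injective R E ?_⟩
  rw [map_mul, map_mul, ← hr, mul_assoc, div_mul_cancel₀ _
    fun e => hy (IsFractionRing.injective R E (e.trans (map_zero _).symm))]

end Algebra

/-! ### The unit and the coordinate over any field -/

variable {N : ℕ} [NeZero N]

/-- The inverse of the modular unit. -/
def invUnitFamily (N : ℕ) [NeZero N] : CosetFamily N where
  F γ := (unitFn N γ)⁻¹
  ser c := ((gaussUnit (zetaRing N) (zetaB N) c)⁻¹ : (LaurentSeries (zetaRing N))ˣ)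
  smul γ γ' z := by rw [Pi.inv_apply, Pi.inv_apply, unitFn_smul]
  inv hδ γ := by rw [unitFn_mul_of_mem hδ γ]
  mem c := by
    have h := (unitFn_pair c).inv.1
    rw [← show Units.map (zetaRing N).subtype.toMonoidHom (zetaB N) = zetaU N from map_zetaB N,
      ← map_gaussUnit _ _ (isUnit_natCast_zetaRing N), ← map_inv] at h
    exact h

variable {k : Type*} [Field k] (φ : zetaRing N →+* k)

theorem coeffMap_invUnit_ser (c : CosetIdx N) :
    coeffMap φ ((invUnitFamily N).ser c) = (gaussUnit k (zetaOf φ) c : LaurentSeries k)⁻¹ := by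
  refine eq_inv_of_mul_eq_one_left ?_
  rw [← coeffMap_unit_ser φ]
  show coeffMap φ _ * coeffMap φ _ = 1
  rw [← map_mul]
  show coeffMap φ (((_ : (LaurentSeries (zetaRing N))ˣ)⁻¹ :) * ((_ : (LaurentSeries (zetaRing N))ˣ) :)) = 1
  rw [Units.inv_mul, map_one]

include φ in
/-- A function with expansions over `ℤ[ζ, 1/N]` at all cosets is integral over `k[j]`. -/
theorem family_mem (Vf : CosetFamily N) {y : modularFunctionFieldFullC k N}
    (hy : coeffMap φ (Vf.ser (cosetInf N)) = upVal N k y)
    {V : ValuationSubring (modularFunctionFieldFullC k N)}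
    (hk : ∀ a : k, algebraMap k _ a ∈ V) (hj : jF N k ∈ V) : y ∈ V := by
  classical
  set ev : k[X] →+* V.toSubring :=
    eval₂RingHom ((algebraMap k (modularFunctionFieldFullC k N)).codRestrict V.toSubring hk)
      ⟨jF N k, hj⟩
  have hev : ∀ p : k[X], upVal N k ((ev p : V.toSubring) : modularFunctionFieldFullC k N) =
      p.eval₂ HahnSeries.C (jUp N k) := by
    intro p
    refine (hom_eval₂ p _ ((upVal N k).toRingHom.comp V.toSubring.subtype) _).trans ?_
    congr 1
    · refine RingHom.ext fun a => ?_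
      rw [← Reduction.algebraMap_eq_C]
      exact (upVal N k).commutes a
    · exact upVal_jF
  set v : CosetIdx N → LaurentSeries k := coeffMap φ ∘ Vf.ser
  have hlift : famPoly v ∈ Polynomial.lifts ((upVal N k).toRingHom.comp V.toSubring.subtype) := by
    rw [Polynomial.lifts_iff_coeff_lifts]
    intro i
    obtain ⟨p, hp⟩ := mem_polyJ_iff.1 ((isSymFamily_map φ Vf).coeff_poly i)
    exact ⟨ev p, (hev p).trans hp⟩
  obtain ⟨P, hP, -, hPm⟩ :=
    Polynomial.lifts_and_natDegree_eq_and_monic hlift (famPoly_monic _)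
  have hroot : eval₂ (algebraMap V (modularFunctionFieldFullC k N)) y P = 0 := by
    refine (upVal N k).toRingHom.injective ?_
    rw [map_zero, hom_eval₂, ← eval_map,
      show ((upVal N k).toRingHom.comp (algebraMap V (modularFunctionFieldFullC k N))) =
        (upVal N k).toRingHom.comp V.toSubring.subtype from rfl, hP]
    show (famPoly v).eval (upVal N k y) = 0
    rw [← hy]
    exact famPoly_eval_self v (cosetInf N)
  obtain ⟨b, hb⟩ := IsIntegrallyClosed.isIntegral_iff.1 (⟨P, hPm, hroot⟩ : IsIntegral V y)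
  exact hb ▸ b.2

/-- The two coordinates. -/
def coordF (b : Bool) : modularFunctionFieldFullC k N := if b then unitF φ else (unitF φ)⁻¹

theorem cusp_unitF_ne_zero : unitF φ ≠ 0 := fun h =>
  (tUnit k N).ne_zero (congrArg Subtype.val h)

theorem coordF_ne_zero (b : Bool) : coordF φ b ≠ 0 := by
  cases b
  · exact inv_ne_zero (cusp_unitF_ne_zero φ)
  · exact cusp_unitF_ne_zero φ

include φ in
theorem coordF_mem {V : ValuationSubring (modularFunctionFieldFullC k N)}
    (hk : ∀ a : k, algebraMap k _ a ∈ V) (hj : jF N k ∈ V) (b : Bool) : coordF φ b ∈ V := by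
  cases b
  · refine family_mem φ (invUnitFamily N) ?_ hk hj
    rw [show coordF φ false = (unitF φ)⁻¹ from rfl, map_inv₀, ← emb_cosetInf φ (unitF φ), emb_unitF,
      coeffMap_invUnit_ser]
  · refine family_mem φ (unitFamily N) ?_ hk hj
    rw [show coordF φ true = unitF φ from rfl, ← emb_cosetInf φ (unitF φ), emb_unitF,
      coeffMap_unit_ser]

/-- The cosets at which the coordinate vanishes. -/
def ZeroCoset (b : Bool) (c : CosetIdx N) : Prop := if b then c ≠ cosetInf N else c = cosetInf N

theorem zeroCoset_iff_of_a {b : Bool} {c c' : CosetIdx N} (h : c.a = N ↔ c'.a = N) :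
    ZeroCoset b c ↔ ZeroCoset b c' := by
  have key : ∀ δ : CosetIdx N, δ = cosetInf N ↔ δ.a = N :=
    fun δ => ⟨fun e => by rw [e]; rfl, eq_cosetInf_of_a_eq⟩
  cases b <;> simp [ZeroCoset, key, h]

theorem order_emb_coordF_pos_iff (hN : 2 ≤ N) (b : Bool) (c : CosetIdx N) :
    0 < (emb φ c (coordF φ b)).order ↔ ZeroCoset b c := by
  have hinf : (emb φ (cosetInf N) (unitF φ)).order < 0 := by
    have h1 : (emb φ (cosetInf N) (unitF φ)).order = (N : ℤ) * (tSer k N).order := by
      rw [emb_cosetInf, upVal_apply]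
      exact Reduction.order_qScale (NeZero.ne N) (show tSer k N ≠ 0 from (tUnit k N).ne_zero)
    rw [h1, order_tSer hN k φ]
    exact mul_neg_of_pos_of_neg (by exact_mod_cast NeZero.pos N)
      (neg_neg_of_pos (by exact_mod_cast tDeg_pos φ hN))
  cases b
  · rw [show coordF φ false = (unitF φ)⁻¹ from rfl, map_inv₀, order_inv', neg_pos]
    refine ⟨fun h => ?_, fun h => ?_⟩
    · by_contra hc
      exact (order_emb_unitF_pos φ c hc).not_gt h
    · rw [show c = cosetInf N from h]; exact hinf
  · refine ⟨fun h hc => ?_, fun h => order_emb_unitF_pos φ c h⟩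
    rw [hc] at h
    exact hinf.not_gt h

/-- The order of the products of powers of `j (N z)` and `j`. -/
theorem order_emb_jTopF_zpow_mul (c : CosetIdx N) (x y : ℤ) :
    (emb φ c (jTopF N k ^ x * jF N k ^ y)).order = -(x * (c.a * c.a : ℕ) + y * N) := by
  have h1 : emb φ c (jTopF N k) ≠ 0 := fun h => by
    have := order_emb_jTopF φ c
    rw [h, HahnSeries.order_zero] at this
    have := Nat.mul_ne_zero c.a_ne_zero c.a_ne_zero
    omega
  have h2 : emb φ c (jF N k) ≠ 0 := fun h => by
    have := order_jUp_neg (N := N) (k := k)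
    rw [← emb_jF φ c, h, HahnSeries.order_zero] at this
    exact lt_irrefl _ this
  rw [map_mul, map_zpow₀, map_zpow₀, HahnSeries.order_mul (zpow_ne_zero _ h1) (zpow_ne_zero _ h2),
    order_zpow', order_zpow', order_emb_jTopF, emb_jF, order_jUp]
  ring

/-- Exponents reaching the smallest positive order at `c`. -/
theorem exists_exponents (c : CosetIdx N) : ∃ x y : ℤ,
    -(x * (c.a * c.a : ℕ) + y * N) = ((c.a * Nat.gcd c.a c.D : ℕ) : ℤ) := by
  refine ⟨-Nat.gcdA c.a c.D, -Nat.gcdB c.a c.D, ?_⟩
  push_cast
  rw [Nat.gcd_eq_gcd_ab c.a c.D]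
  have h : (N : ℤ) = c.a * c.D := by exact_mod_cast c.a_mul_D.symm
  rw [h]
  ring

/-! ### Over the fixed field -/

local notation "Qb" => AlgebraicClosure ℚ

variable {A : ValuationSubring Qb} (N)

/-- The function field over the fixed field inside the one over `ℚ̄`. -/
def toC : Fn A N →+* modularFunctionFieldFullC Qb N :=
  ((modularFunctionFieldBar N).val.toRingHom.comp (Fn A N).val.toRingHom).codRestrict
    (modularFunctionFieldFullC Qb N).toSubfield.toSubring coe_mem_fullC

theorem coe_toC (y : Fn A N) : ((toC N y : modularFunctionFieldFullC Qb N) : LaurentSeries Qb) =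
    ((y : modularFunctionFieldBar N) : LaurentSeries Qb) := rfl

theorem toC_algebraMap (a : K0 A) :
    toC N (algebraMap (K0 A) (Fn A N) a) = algebraMap Qb _ (a : Qb) := by
  refine Subtype.ext ?_
  rw [coe_toC, coe_algebraMap_Fn, ← Reduction.algebraMap_eq_C]
  rfl

/-- The expansion at a coset, on the function field over the fixed field. -/
def sigF (c : CosetIdx N) : Fn A N →+* LaurentSeries Qb :=
  (emb (phiQ N) c).toRingHom.comp (toC N)

theorem sigF_apply (c : CosetIdx N) (y : Fn A N) : sigF N c y = emb (phiQ N) c (toC N y) := rfl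

theorem sigF_algebraMap (c : CosetIdx N) (a : K0 A) :
    sigF N c (algebraMap (K0 A) (Fn A N) a) = HahnSeries.C (a : Qb) := by
  rw [sigF_apply, toC_algebraMap, AlgHom.commutes, Reduction.algebraMap_eq_C]

theorem ordRing_sigF (c : CosetIdx N) :
    ordRing (sigF (A := A) N c) = (ordRing (emb (phiQ N) c).toRingHom).comap (toC N) := rfl

theorem toC_jFn_one (h : 1 ∣ N) : toC N (jFn A N 1 h) = jF N Qb := by
  refine Subtype.ext ?_
  show _ = jqModC Qb
  rw [coe_toC, ← valFn_apply, valFn_jFn, qExpand_one_apply]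

theorem toC_jFn_top (h : N ∣ N) : toC N (jFn A N N h) = jTopF N Qb := by
  refine Subtype.ext ?_
  rw [coe_toC, ← valFn_apply, valFn_jFn]
  rfl

theorem gcd_dvd_order_sigF (c : CosetIdx N) (y : Fn A N) :
    ((c.a * Nat.gcd c.a c.D : ℕ) : ℤ) ∣ (sigF N c y).order :=
  gcd_dvd_order (phiQ N) c (toC N y)

theorem exists_sigF_order_eq (c : CosetIdx N) :
    ∃ z : Fn A N, (sigF N c z).order = ((c.a * Nat.gcd c.a c.D : ℕ) : ℤ) := by
  obtain ⟨x, y, h⟩ := exists_exponents c
  refine ⟨jFn A N N dvd_rfl ^ x * jFn A N 1 (one_dvd N) ^ y, ?_⟩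
  rw [sigF_apply, map_mul, map_zpow₀, map_zpow₀, toC_jFn_one, toC_jFn_top,
    order_emb_jTopF_zpow_mul, h]

theorem toC_coord {A : ValuationSubring Qb} (M : ℕ) [NeZero M] (b : Bool) : toC M (coord A M b) = coordF (phiQ M) b := by
  have h : toC (A := A) M (tFn A M) = unitF (phiQ M) :=
    Subtype.ext ((coe_toC M _).trans (valFn_tFn (A := A) M))
  cases b
  · show toC M (tFn A M)⁻¹ = (unitF (phiQ M))⁻¹
    rw [map_inv₀, h]
  · exact h

end FLTAgent.BadQ.TwoInst.Ram
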