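import Mathlib
import Fermat.Agent.BadQ.TwoInstRamGen
import Fermat.Agent.BadQ.TwoInstIota

/-!
# The two degeneracy maps at a cusp of level `qM`

`exists_ramified_generators`: the two images of a cusp of level `M` are locally generated by
uniformisers, one of which is locally the `q`-th power of the other. The proof finds the cosets
below a coset of level `qM` (`exists_cosets_below`) and compares orders at a coset centred at the
prime (`exists_centred`, `exists_uniformizer`).
-/

set_option autoImplicit false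
set_option linter.style.haveILetI false
set_option linter.unusedSectionVars false
set_option synthInstance.maxHeartbeats 400000
set_option maxHeartbeats 1000000

noncomputable section

open ModularCurve IntermediateField AlgebraicCurve

namespace FLTAgent.BadQ.TwoInst.Ram

open FLTAgent.ModularCosets FLTAgent.Reduction

local notation "Qb" => AlgebraicClosure ℚ

variable {A : ValuationSubring Qb} {q : ℕ} [hq : Fact q.Prime] (hA : A.LiesOverPrime q) (M : ℕ)
  [NeZero M] (hqM : ¬ q ∣ M) (hM : GoodLevel M) (b : Bool)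

variable (A) in
/-- The coordinate in the chart of level `M`. -/
def coordC : chart0 A M b := ⟨coord A M b, TwoChart.subset_intCl _ (Set.mem_singleton _)⟩

/-- A valuation ring containing the constants and the coordinate contains the integral closure. -/
theorem mem_valuation_of_isIntegral_adjoin {W F : Type*} [CommRing W] [Field F] [Algebra W F]
    {s x : F} (V : ValuationSubring F) (hW : ∀ w, algebraMap W F w ∈ V) (hs : s ∈ V)
    (hx : IsIntegral (Algebra.adjoin W ({s} : Set F)) x) : x ∈ V := by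
  have hle : ∀ r : Algebra.adjoin W ({s} : Set F), (r : F) ∈ V := by
    rintro ⟨r, hr⟩
    induction hr using Algebra.adjoin_induction with
    | mem y hy => show y ∈ V; rw [Set.mem_singleton_iff.1 hy]; exact hs
    | algebraMap w => exact hW w
    | add y z _ _ hy hz => exact add_mem hy hz
    | mul y z _ _ hy hz => exact mul_mem hy hz
  obtain ⟨p, hp, hp0⟩ := hx
  let f : Algebra.adjoin W ({s} : Set F) →+* V :=
    (Algebra.adjoin W ({s} : Set F)).val.toRingHom.codRestrict V.toSubring hle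
  have : IsIntegral V x := ⟨p.map f, hp.map f, by rw [Polynomial.eval₂_map]; exact hp0⟩
  obtain ⟨y, hy⟩ := IsIntegrallyClosed.isIntegral_iff.1 this
  exact hy ▸ y.2

/-! ### The generic points -/

/-- The valuation ring of a coset over `ℚ̄`. -/
def ringAt (δ : CosetIdx M) : ValuationSubring (modularFunctionFieldFullC Qb M) :=
  ordRing (emb (phiQ M) δ).toRingHom

theorem order_sigF_coord_pos_iff (hN : 2 ≤ M) (δ : CosetIdx M) :
    0 < (sigF M δ (coord A M b)).order ↔ ZeroCoset b δ := by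
  rw [sigF_apply, toC_coord]
  exact order_emb_coordF_pos_iff (phiQ M) hN b δ

section Points

variable {δ δ' : CosetIdx M} (hN : 2 ≤ M) (hδ : ZeroCoset b δ) (hδ' : ZeroCoset b δ')

include hN hδ in
theorem order_chart_nonneg (y : chart0 A M b) : 0 ≤ (sigF M δ (y : Fn A M)).order := by
  refine mem_ordRing.1 (mem_valuation_of_isIntegral_adjoin (ordRing (sigF (A := A) M δ))
    (fun w => ?_) (mem_ordRing.2 ((order_sigF_coord_pos_iff M b hN δ).2 hδ).le) y.2)
  rw [mem_ordRing, algebraMap_W0_Fn, sigF_algebraMap, HahnSeries.order_C]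

/-- The value at the coset. -/
def chiQ : chart0 A M b →+* Qb :=
  (constHom Qb).comp
    (((sigF (A := A) M δ).comp (chart0 A M b).val.toRingHom).codRestrict (nonnegSub Qb)
      (order_chart_nonneg M b hN hδ))

theorem chiQ_apply (y : chart0 A M b) :
    chiQ M b hN hδ y = (sigF M δ (y : Fn A M)).coeff 0 := constHom_apply _

theorem chiQ_eq_zero_iff (y : chart0 A M b) :
    chiQ M b hN hδ y = 0 ↔ toC M (y : Fn A M) ∈ (ringAt M δ).nonunits := by
  rw [chiQ, RingHom.comp_apply, constHom_eq_zero_iff, ringAt, mem_nonunits_ordRing]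
  exact or_congr (_root_.map_eq_zero_iff (emb (phiQ M) δ).toRingHom
    (emb (phiQ M) δ).toRingHom.injective) Iff.rfl

variable (A) in
/-- The cusp of the coset. -/
def cuspAt : Ideal (chart0 A M b) := RingHom.ker (chiQ M b hN hδ)

theorem cuspAt_props :
    (cuspAt A M b hN hδ).IsPrime ∧ (q : chart0 A M b) ∉ cuspAt A M b hN hδ ∧
      coordC A M b ∈ cuspAt A M b hN hδ := by
  refine ⟨RingHom.ker_isPrime _, ?_, ?_⟩
  · rw [cuspAt, RingHom.mem_ker, map_natCast]
    exact_mod_cast hq.out.ne_zero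
  · rw [cuspAt, RingHom.mem_ker, chiQ_eq_zero_iff, ringAt, mem_nonunits_ordRing]
    exact Or.inr ((order_sigF_coord_pos_iff M b hN δ).2 hδ)

theorem coord_ne_zero : coord A M b ≠ 0 := fun h => by
  have := congrArg (toC M) h
  rw [toC_coord, map_zero] at this
  exact coordF_ne_zero _ b this

/-- `ℚ̄(X₀(M))` as the base change. -/
def toBar : modularFunctionFieldFullC Qb M →ₐ[Qb] modularFunctionFieldBar M :=
  IntermediateField.inclusion (bar_eq_fullC M).ge

theorem toBar_toC (y : Fn A M) :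
    toBar M (toC M y) = (y : modularFunctionFieldBar M) := rfl

end Points

/-- `f (z) ↦ f (z)` over `ℚ̄`. -/
def cuspInclC (q M : ℕ) [Fact q.Prime] [NeZero M] :
    modularFunctionFieldFullC Qb M →ₐ[Qb] modularFunctionFieldFullC Qb (q * M) :=
  (modularFunctionFieldFullC Qb M).val.codRestrict
    (modularFunctionFieldFullC Qb (q * M)).toSubalgebra
    fun y => full_degeneracyC_le Qb (dvd_qM q M) y.2

theorem coe_cuspInclC (y : modularFunctionFieldFullC Qb M) :
    ((cuspInclC q M y : modularFunctionFieldFullC Qb (q * M)) : LaurentSeries Qb) =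
      (y : LaurentSeries Qb) :=
  AlgHom.coe_codRestrict (modularFunctionFieldFullC Qb M).val
    (modularFunctionFieldFullC Qb (q * M)).toSubalgebra
    (fun y => full_degeneracyC_le Qb (dvd_qM q M) y.2) y

/-- `f (z) ↦ f (q z)` over `ℚ̄`. -/
def cuspScaleC (q M : ℕ) [Fact q.Prime] [NeZero M] :
    modularFunctionFieldFullC Qb M →ₐ[Qb] modularFunctionFieldFullC Qb (q * M) :=
  ((qExpandAlgHomC Qb q).comp (modularFunctionFieldFullC Qb M).val).codRestrict
    (modularFunctionFieldFullC Qb (q * M)).toSubalgebra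
    fun y => qExpand_mem_fullC (mul_q_dvd q M) y.2

theorem coe_cuspScaleC (y : modularFunctionFieldFullC Qb M) :
    ((cuspScaleC q M y : modularFunctionFieldFullC Qb (q * M)) : LaurentSeries Qb) =
      qExpand Qb q (y : LaurentSeries Qb) := rfl

theorem cuspInclC_toC (y : Fn A M) :
    cuspInclC q M (toC M y) = toC (q * M) (incl (dvd_qM q M) y) := by
  refine Subtype.ext ?_
  rw [coe_cuspInclC, coe_toC, coe_toC, coe_incl]

theorem cuspScaleC_toC (y : Fn A M) :
    cuspScaleC q M (toC M y) = toC (q * M) (scale q (mul_q_dvd q M) y) := by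
  refine Subtype.ext ?_
  rw [coe_cuspScaleC, coe_toC, coe_toC, coe_scale]

variable (q) in
/-- `q` as a divisor of `qM`. -/
def divQ : DivIdx (q * M) := ⟨q, Nat.mem_divisors.mpr ⟨dvd_mul_right q M, NeZero.ne _⟩⟩

variable (q) in
/-- `M` as a divisor of `qM`. -/
def divM : DivIdx (q * M) := ⟨M, Nat.mem_divisors.mpr ⟨dvd_mul_left M q, NeZero.ne _⟩⟩

theorem cuspInclC_jF : cuspInclC q M (jF M Qb) = jF (q * M) Qb := Subtype.ext rfl

theorem cuspInclC_jTopF : cuspInclC q M (jTopF M Qb) = jdF Qb (divM q M) := Subtype.ext rfl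

theorem cuspScaleC_jF : cuspScaleC q M (jF M Qb) = jdF Qb (divQ q M) := Subtype.ext rfl

theorem cuspScaleC_jTopF : cuspScaleC q M (jTopF M Qb) = jTopF (q * M) Qb := by
  refine Subtype.ext ?_
  show qExpand Qb q (qExpand Qb M (jqModC Qb)) = qExpand Qb (q * M) (jqModC Qb)
  rw [← qScale_eq, ← qScale_eq, ← qScale_eq, qScale_qScale (NeZero.ne q) (NeZero.ne M)]

theorem jdF_mem {N : ℕ} [NeZero N] {k : Type*} [Field k] (φ : zetaRing N →+* k) (d : DivIdx N)
    {V : ValuationSubring (modularFunctionFieldFullC k N)}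
    (hk : ∀ a : k, algebraMap k _ a ∈ V) (hj : jF N k ∈ V) : jdF k d ∈ V := by
  refine family_mem φ (jdFamily N d) ?_ hk hj
  rw [jdFamily_ser_cosetInf, coeffMap_qScale, coeffMap_qScale, coeffMap_jqModC, upVal_apply,
    qScale_eq (d : ℕ)]
  rfl

/-- The coset below, for a map whose effect on the order of `j` is known. -/
theorem exists_coset_below (F : modularFunctionFieldFullC Qb M →ₐ[Qb]
      modularFunctionFieldFullC Qb (q * M)) (δ : CosetIdx (q * M)) {r : ℕ} (hr : 0 < r)
    (hj : (emb (phiQ (q * M)) δ (F (jF M Qb))).order = -((r * M : ℕ) : ℤ)) :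
    ∃ c : CosetIdx M, ∀ y, (emb (phiQ (q * M)) δ (F y)).order =
      (r : ℤ) * (emb (phiQ M) c y).order := by
  set σ := ((emb (phiQ (q * M)) δ).comp F).toRingHom
  have hM0 : (0 : ℤ) < M := by exact_mod_cast NeZero.pos M
  have hr0 : (0 : ℤ) < r := by exact_mod_cast hr
  obtain ⟨c, hc⟩ := exists_eq_ordRing (phiQ M) (ordRing σ) (fun a => by
    rw [mem_ordRing]
    show 0 ≤ (((emb (phiQ (q * M)) δ).comp F) (algebraMap Qb _ a)).order
    rw [AlgHom.commutes, Reduction.algebraMap_eq_C, HahnSeries.order_C]) (by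
    rw [mem_ordRing]
    show ¬ 0 ≤ (emb (phiQ (q * M)) δ (F (jF M Qb))).order
    rw [hj]
    push_cast
    nlinarith)
  refine ⟨c, fun y => ?_⟩
  have hcj : ((emb (phiQ M) c).toRingHom (jF M Qb)⁻¹).order = (M : ℤ) := by
    rw [map_inv₀, order_inv']
    show -(emb (phiQ M) c (jF M Qb)).order = _
    rw [emb_jF, order_jUp, neg_neg]
  have h := ord_proportional hc.symm (x := (jF M Qb)⁻¹) (y := y) (by rw [hcj]; exact hM0)
  rw [hcj, map_inv₀ σ, order_inv'] at h
  change (emb (phiQ (q * M)) δ (F y)).order * (M : ℤ) =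
    (emb (phiQ M) c y).order * -(emb (phiQ (q * M)) δ (F (jF M Qb))).order at h
  rw [hj, neg_neg] at h
  push_cast at h
  refine mul_right_cancel₀ hM0.ne' ?_
  rw [h]
  ring

include hqM in
/-- The two cosets below have the same invariant `a`, with the indices `q` and `gcd (q, a) ^ 2`. -/
theorem exists_cosets_below (δ : CosetIdx (q * M)) : ∃ cA cB : CosetIdx M, cB.a = cA.a ∧
    (∀ y : Fn A M, (sigF (q * M) δ (incl (dvd_qM q M) y)).order =
      (q : ℤ) * (sigF M cA y).order) ∧
    (∀ y : Fn A M, (sigF (q * M) δ (scale q (mul_q_dvd q M) y)).order =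
      ((Nat.gcd q δ.a * Nat.gcd q δ.a : ℕ) : ℤ) * (sigF M cB y).order) := by
  set g := Nat.gcd q δ.a with hg
  have hg0 : 0 < g := Nat.gcd_pos_of_pos_left _ (NeZero.pos q)
  obtain ⟨cA, hcA⟩ := exists_coset_below M (cuspInclC q M) δ (r := q) (NeZero.pos q) (by
    rw [cuspInclC_jF, emb_jF, order_jUp])
  obtain ⟨cB, hcB⟩ := exists_coset_below M (cuspScaleC q M) δ (r := g * g) (Nat.mul_pos hg0 hg0) (by
    rw [cuspScaleC_jF, order_emb_jdF, hg, show ((divQ q M : DivIdx (q * M)) : ℕ) = q from rfl,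
      Nat.mul_div_cancel_left M (NeZero.pos q)])
  refine ⟨cA, cB, ?_, fun y => ?_, fun y => ?_⟩
  · have hA' := hcA (jTopF M Qb)
    rw [cuspInclC_jTopF, order_emb_jdF, order_emb_jTopF,
      show ((divM q M : DivIdx (q * M)) : ℕ) = M from rfl,
      Nat.mul_div_cancel q (NeZero.pos M)] at hA'
    have hB' := hcB (jTopF M Qb)
    rw [cuspScaleC_jTopF, order_emb_jTopF, order_emb_jTopF] at hB'
    have h1 : cA.a * cA.a = Nat.gcd M δ.a * Nat.gcd M δ.a := by
      push_cast at hA'
      have hq0 : (q : ℤ) ≠ 0 := by exact_mod_cast NeZero.ne q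
      have : ((cA.a : ℤ) * cA.a) = (Nat.gcd M δ.a : ℤ) * (Nat.gcd M δ.a : ℤ) :=
        mul_left_cancel₀ hq0 (by linear_combination hA')
      exact_mod_cast this
    have h2 : (g * cB.a) * (g * cB.a) = δ.a * δ.a := by
      push_cast at hB'
      have : ((g : ℤ) * cB.a) * ((g : ℤ) * cB.a) = (δ.a : ℤ) * δ.a := by
        linear_combination hB'
      exact_mod_cast this
    have h3 := Nat.mul_self_inj.1 h2
    have h4 : δ.a = g * Nat.gcd M δ.a := by
      rw [hg, Nat.gcd_comm q, Nat.gcd_comm M,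
        ← Nat.Coprime.gcd_mul _ ((Nat.Prime.coprime_iff_not_dvd hq.out).2 hqM)]
      exact (Nat.gcd_eq_left δ.a_dvd).symm
    rw [Nat.mul_self_inj.1 h1]
    exact Nat.eq_of_mul_eq_mul_left hg0 (h3.trans h4)
  · rw [sigF_apply, ← cuspInclC_toC]
    exact hcA _
  · rw [sigF_apply, ← cuspScaleC_toC]
    exact hcB _

/-- In a localisation, a local multiple lies in the ideal. -/
theorem mem_span_of_mul_eq {S L : Type*} [CommRing S] [CommRing L] [Algebra S L] (P : Ideal S)
    [P.IsPrime] [IsLocalization.AtPrime L P] {x y s r : S} (hs : s ∉ P) (h : s * x = r * y) :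
    algebraMap S L x ∈ Ideal.span {algebraMap S L y} := by
  rw [← Ideal.unit_mul_mem_iff_mem _ (IsLocalization.map_units L (⟨s, hs⟩ : P.primeCompl)),
    ← map_mul, h, map_mul]
  exact Ideal.mul_mem_left _ _ (Ideal.mem_span_singleton_self _)

/-- Two elements differ by a unit in the local ring at the prime. -/
def LocEq {S : Type*} [CommRing S] (P : Ideal S) (u v : S) : Prop :=
  (∃ s ∉ P, ∃ r, s * u = r * v) ∧ ∃ s ∉ P, ∃ r, s * v = r * u

variable {N : ℕ} [NeZero N] {y : Fn A N}

include hA in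
/-- A function in the valuation ring of a prime not over `q` is a local fraction. -/
theorem exists_chart_fraction (hy : Transcendental (K0 A) y)
    (Q : Ideal (TwoChart.intCl (W0 A) ({y} : Set (Fn A N)))) [Q.IsPrime]
    (hqQ : (q : TwoChart.intCl (W0 A) ({y} : Set (Fn A N))) ∉ Q) (h0 : Q ≠ ⊥)
    {V : ValuationSubring (Fn A N)}
    (hR : ∀ x : TwoChart.intCl (W0 A) ({y} : Set (Fn A N)), (x : Fn A N) ∈ V)
    (hQV : ∀ x : TwoChart.intCl (W0 A) ({y} : Set (Fn A N)),
      x ∈ Q ↔ (x : Fn A N) ∈ V.nonunits) {z : Fn A N} (hz : z ∈ V) :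
    ∃ s ∉ Q, ∃ r : TwoChart.intCl (W0 A) ({y} : Set (Fn A N)), (s : Fn A N) * z = (r : Fn A N) := by
  haveI := valuationRing_loc hA hy Q hqQ h0
  haveI := isFractionRing_chart hA hy
  exact exists_mul_eq_of_mem_valuation Q hR hQV hz

include hA in
theorem exists_chart_mul_eq (hy : Transcendental (K0 A) y)
    (Q : Ideal (TwoChart.intCl (W0 A) ({y} : Set (Fn A N)))) [Q.IsPrime]
    (hqQ : (q : TwoChart.intCl (W0 A) ({y} : Set (Fn A N))) ∉ Q) (h0 : Q ≠ ⊥)
    {V : ValuationSubring (Fn A N)}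
    (hR : ∀ x : TwoChart.intCl (W0 A) ({y} : Set (Fn A N)), (x : Fn A N) ∈ V)
    (hQV : ∀ x : TwoChart.intCl (W0 A) ({y} : Set (Fn A N)),
      x ∈ Q ↔ (x : Fn A N) ∈ V.nonunits)
    {u v : TwoChart.intCl (W0 A) ({y} : Set (Fn A N))} (hv : v ≠ 0)
    (hz : (u : Fn A N) / (v : Fn A N) ∈ V) : ∃ s ∉ Q, ∃ r, s * u = r * v := by
  haveI := valuationRing_loc hA hy Q hqQ h0
  haveI := isFractionRing_chart hA hy
  exact exists_mul_eq_mul_of_div_mem Q hR hQV hv hz

section Chart

variable (P : Ideal (chart1 A q M b)) [hP : P.IsPrime]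

/-- The expansion at a coset regular on the chart with centre `P`. -/
def Centred (δ : CosetIdx (q * M)) : Prop :=
  ∀ z : chart1 A q M b, 0 ≤ (sigF (q * M) δ (z : Fn A (q * M))).order ∧
    (z ∈ P ↔ (z : Fn A (q * M)) ∈ (ordRing (sigF (A := A) (q * M) δ)).nonunits)

include hA hqM hM in
theorem exists_centred (hqP : (q : chart1 A q M b) ∉ P)
    (ht : alpha0 A q M b (coordC A M b) ∈ P ∨ beta0 hA M hqM hM b (coordC A M b) ∈ P) :
    ∃ δ, Centred M b P δ := by
  have hN := hM.two_le
  have hy := transcendental_incl_coord A (N := q * M) hN b (dvd_qM q M)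
  have hs0 : coord A M b ≠ 0 := coord_ne_zero M b
  have ha0 : alpha0 A q M b (coordC A M b) ≠ 0 := fun h => by
    have h' := congrArg Subtype.val h
    rw [coe_alpha0] at h'
    exact hs0 ((map_eq_zero (incl (A := A) (dvd_qM q M)).toRingHom).1 h')
  have hb0 : beta0 hA M hqM hM b (coordC A M b) ≠ 0 := fun h => by
    have h' := congrArg Subtype.val h
    rw [coe_beta0] at h'
    exact hs0 ((map_eq_zero (scale (A := A) q (mul_q_dvd q M)).toRingHom).1 h')
  have h0 : P ≠ ⊥ := by
    rintro rfl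
    rcases ht with h | h
    · exact ha0 ((Submodule.mem_bot _).1 h)
    · exact hb0 ((Submodule.mem_bot _).1 h)
  obtain ⟨w, hw⟩ := exists_place_prime hA hy P hqP h0
  set V := w.toValuationSubring.comap (toBar (q * M)).toRingHom with hV
  have hmem : ∀ z : modularFunctionFieldFullC Qb (q * M), z ≠ 0 →
      (z ∈ V ↔ 0 ≤ w.ord (toBar (q * M) z)) := by
    intro z hz
    rw [hV, ValuationSubring.mem_comap]
    exact FF.mem_iff_ord_nonneg w
      ((map_ne_zero_iff _ (toBar (q * M)).toRingHom.injective).2 hz)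
  have hconst : ∀ a : Qb, algebraMap Qb _ a ∈ V := fun a => by
    rcases eq_or_ne a 0 with rfl | ha
    · rw [map_zero]; exact zero_mem _
    · rw [hmem _ ((_root_.map_ne_zero _).2 ha), AlgHom.commutes, FF.ord_algebraMap]
  have hne : ∀ z : chart1 A q M b, z ≠ 0 → toC (q * M) (z : Fn A (q * M)) ≠ 0 := fun z hz h =>
    hz (Subtype.ext ((map_eq_zero _).1 h))
  have hchart : ∀ z : chart1 A q M b, toC (q * M) (z : Fn A (q * M)) ∈ V ∧
      (z ∈ P ↔ toC (q * M) (z : Fn A (q * M)) ∈ V.nonunits) := by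
    intro z
    rcases eq_or_ne z 0 with rfl | hz
    · rw [ZeroMemClass.coe_zero, map_zero]
      exact ⟨zero_mem _,
        iff_of_true P.zero_mem ((ValuationSubring.mem_nonunits_iff_or _).2 (Or.inl rfl))⟩
    · obtain ⟨h1, h2⟩ := hw z hz
      refine ⟨(hmem _ (hne z hz)).2 (by rw [toBar_toC]; exact h2), h1.trans ?_⟩
      rw [ValuationSubring.mem_nonunits_iff_or, or_iff_right (hne z hz),
        hmem _ (inv_ne_zero (hne z hz)), map_inv₀, toBar_toC, w.ord_inv]
      omega
  have hj : jF (q * M) Qb ∉ V := by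
    intro hj
    have key : ∀ F : modularFunctionFieldFullC Qb M →ₐ[Qb] modularFunctionFieldFullC Qb (q * M),
        F (jF M Qb) ∈ V → F (coordF (phiQ M) b) ∉ V.nonunits := by
      intro F hF hn
      have hk' : ∀ a : Qb, algebraMap Qb _ a ∈ V.comap F.toRingHom := fun a => by
        rw [ValuationSubring.mem_comap]
        show F (algebraMap Qb _ a) ∈ V
        rw [F.commutes]
        exact hconst a
      have h2 : (coordF (phiQ M) b)⁻¹ ∈ V.comap F.toRingHom := by
        have := coordF_mem (phiQ M) hk' hF (!b)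
        cases b
        · simpa [coordF] using this
        · simpa [coordF] using this
      rw [ValuationSubring.mem_comap, map_inv₀] at h2
      rw [ValuationSubring.mem_nonunits_iff_or] at hn
      exact hn.elim (fun h => coordF_ne_zero _ b ((map_eq_zero F.toRingHom).1 h))
        fun h => h h2
    rcases ht with h | h
    · refine key (cuspInclC q M) (by rwa [cuspInclC_jF]) ?_
      rw [← toC_coord (A := A), cuspInclC_toC]
      exact (hchart _).2.1 h
    · refine key (cuspScaleC q M) (by rw [cuspScaleC_jF]; exact jdF_mem (phiQ (q * M)) _ hconst hj) ?_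
      rw [← toC_coord (A := A), cuspScaleC_toC]
      exact (hchart _).2.1 h
  obtain ⟨δ, hδ⟩ := exists_eq_ordRing (phiQ (q * M)) V hconst hj
  refine ⟨δ, fun z => ⟨?_, ?_⟩⟩
  · have := (hchart z).1
    rw [hδ, mem_ordRing] at this
    exact this
  · rw [(hchart z).2, hδ, mem_nonunits_ordRing, mem_nonunits_ordRing]
    exact or_congr (map_eq_zero _) Iff.rfl

variable {M b P}

theorem Centred.mem_iff {δ : CosetIdx (q * M)} (h : Centred (A := A) M b P δ)
    {z : chart1 A q M b} (hz : z ≠ 0) :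
    z ∈ P ↔ 0 < (sigF (q * M) δ (z : Fn A (q * M))).order := by
  rw [(h z).2, mem_nonunits_ordRing]
  exact or_iff_right fun e => hz (Subtype.ext e)

include hA in
/-- Elements of equal order at the centre differ by a unit of the local ring. -/
theorem Centred.loc_eq (hN : 2 ≤ M) {δ : CosetIdx (q * M)} (h : Centred (A := A) M b P δ)
    (hqP : (q : chart1 A q M b) ∉ P) (h0 : P ≠ ⊥) {x y : chart1 A q M b}
    (hx : x ≠ 0) (hy : y ≠ 0)
    (ho : (sigF (q * M) δ (x : Fn A (q * M))).order = (sigF (q * M) δ (y : Fn A (q * M))).order) :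
    LocEq P x y := by
  have hyt := transcendental_incl_coord A (N := q * M) hN b (dvd_qM q M)
  have key : ∀ {x y : chart1 A q M b}, x ≠ 0 → y ≠ 0 →
      (sigF (q * M) δ (x : Fn A (q * M))).order = (sigF (q * M) δ (y : Fn A (q * M))).order →
      ∃ s ∉ P, ∃ r, s * x = r * y := by
    intro x y hx hy ho
    have hxF : (x : Fn A (q * M)) ≠ 0 := fun e => hx (Subtype.ext e)
    have hyF : (y : Fn A (q * M)) ≠ 0 := fun e => hy (Subtype.ext e)
    have hz : (x : Fn A (q * M)) / (y : Fn A (q * M)) ∈ ordRing (sigF (A := A) (q * M) δ) := by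
      rw [mem_ordRing, div_eq_mul_inv, map_mul, map_inv₀, HahnSeries.order_mul
        ((_root_.map_ne_zero _).2 hxF) (inv_ne_zero ((_root_.map_ne_zero _).2 hyF)), order_inv',
        ho, add_neg_cancel]
    have hR : ∀ z : chart1 A q M b,
        (z : Fn A (q * M)) ∈ ordRing (sigF (A := A) (q * M) δ) := fun z => mem_ordRing.2 (h z).1
    have hQV : ∀ z : chart1 A q M b, z ∈ P ↔
        (z : Fn A (q * M)) ∈ (ordRing (sigF (A := A) (q * M) δ)).nonunits := fun z => (h z).2
    have h1 := @exists_chart_mul_eq A q _ hA (q * M) _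
      (incl (A := A) (dvd_qM q M) (coord A M b))
    have h2 := h1 hyt
    have h3 := h2 P hqP
    have h4 := @h3 h0 (ordRing (sigF (A := A) (q * M) δ)) hR hQV
    have h5 := @h4 x y hy
    exact h5 hz
  exact ⟨key hx hy ho, key hy hx ho.symm⟩

end Chart

include hA in
/-- A uniformizer of a cusp of level `M`, of smallest positive order at its coset. -/
theorem exists_uniformizer (hN : 2 ≤ M) {c : CosetIdx M} (hc : ZeroCoset b c) :
    ∃ π ∈ cuspAt A M b hN hc, π ≠ 0 ∧
      (sigF M c ((π : chart0 A M b) : Fn A M)).order = ((c.a * Nat.gcd c.a c.D : ℕ) : ℤ) ∧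
      ∀ y ∈ cuspAt A M b hN hc, ∃ s ∉ cuspAt A M b hN hc, ∃ r, s * y = r * π := by
  have hyt := transcendental_coord A hN b
  haveI : (cuspAt A M b hN hc).IsPrime := RingHom.ker_isPrime _
  have hmem : ∀ y : chart0 A M b, y ∈ cuspAt A M b hN hc ↔
      (y : Fn A M) ∈ (ordRing (sigF (A := A) M c)).nonunits := fun y => by
    rw [cuspAt, RingHom.mem_ker, chiQ_eq_zero_iff, mem_nonunits_ordRing, ringAt,
      mem_nonunits_ordRing]
    exact or_congr (map_eq_zero _) Iff.rfl
  have h0 : cuspAt A M b hN hc ≠ ⊥ := fun h => by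
    have := (cuspAt_props (A := A) (q := q) M b hN hc).2.2
    rw [h, Ideal.mem_bot] at this
    exact coord_ne_zero M b (congrArg Subtype.val this)
  have hqc := (cuspAt_props (A := A) (q := q) M b hN hc).2.1
  set n := c.a * Nat.gcd c.a c.D
  have hn : 0 < n := Nat.mul_pos (Nat.pos_of_ne_zero c.a_ne_zero)
    (Nat.gcd_pos_of_pos_left _ (Nat.pos_of_ne_zero c.a_ne_zero))
  obtain ⟨z, hz⟩ := exists_sigF_order_eq (A := A) M c
  have hz0 : z ≠ 0 := fun h => by rw [h, map_zero, HahnSeries.order_zero] at hz; omega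
  obtain ⟨s, hs, π, hπ⟩ := exists_chart_fraction hA hyt _ hqc h0
    (V := ordRing (sigF (A := A) M c))
    (fun y => mem_ordRing.2 (order_chart_nonneg M b hN hc y)) hmem
    (z := z) (mem_ordRing.2 (by rw [hz]; exact Int.natCast_nonneg _))
  have hsF : (s : Fn A M) ≠ 0 := fun h => hs (by
    rw [show s = 0 from Subtype.ext h]; exact Ideal.zero_mem _)
  have hso : (sigF M c (s : Fn A M)).order = 0 := le_antisymm (le_of_not_gt fun h =>
    hs ((hmem s).2 (mem_nonunits_ordRing.2 (Or.inr h)))) (order_chart_nonneg M b hN hc s)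
  have hπo : (sigF M c (π : Fn A M)).order = (n : ℤ) := by
    rw [← hπ, map_mul, HahnSeries.order_mul ((_root_.map_ne_zero _).2 hsF)
      ((_root_.map_ne_zero _).2 hz0), hso, hz, zero_add]
  have hπF : (π : Fn A M) ≠ 0 := hπ ▸ mul_ne_zero hsF hz0
  refine ⟨π, (hmem π).2 (mem_nonunits_ordRing.2 (Or.inr (by rw [hπo]; exact_mod_cast hn))),
    fun h => hπF (congrArg Subtype.val h), hπo, fun y hy => ?_⟩
  rcases eq_or_ne (y : Fn A M) 0 with hy0 | hy0
  · refine ⟨1, (RingHom.ker_isPrime (chiQ M b hN hc)).one_notMem, 0, ?_⟩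
    rw [show y = 0 from Subtype.ext hy0, mul_zero, zero_mul]
  have hge : (n : ℤ) ≤ (sigF M c (y : Fn A M)).order := by
    rw [hmem, mem_nonunits_ordRing, or_iff_right hy0] at hy
    exact Int.le_of_dvd hy (gcd_dvd_order_sigF M c _)
  exact exists_chart_mul_eq hA hyt _ hqc h0
    (V := ordRing (sigF (A := A) M c))
    (fun y => mem_ordRing.2 (order_chart_nonneg M b hN hc y)) hmem
    (u := y) (v := π) (fun h => hπF (congrArg Subtype.val h)) (by
      show (y : Fn A M) / (π : Fn A M) ∈ ordRing (sigF (A := A) M c)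
      rw [mem_ordRing, div_eq_mul_inv, map_mul, map_inv₀, HahnSeries.order_mul
        ((_root_.map_ne_zero _).2 hy0) (inv_ne_zero ((_root_.map_ne_zero _).2 hπF)), order_inv',
        hπo]
      omega)

/-- The ideal generated by a locally principal prime in a localisation over it. -/
theorem map_map_eq_span {R S L : Type*} [CommRing R] [CommRing S] [CommRing L] [Algebra S L]
    (f : R →+* S) (P : Ideal S) [P.IsPrime] [IsLocalization.AtPrime L P] {c : Ideal R}
    (hc : c = P.comap f) {π : R} (hπ : π ∈ c)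
    (hgen : ∀ y ∈ c, ∃ s ∉ c, ∃ r, s * y = r * π) :
    (c.map f).map (algebraMap S L) = Ideal.span {algebraMap S L (f π)} := by
  rw [Ideal.map_map]
  refine le_antisymm (Ideal.map_le_iff_le_comap.2 fun y hy => ?_)
    ((Ideal.span_singleton_le_iff_mem _).2 (Ideal.mem_map_of_mem ((algebraMap S L).comp f) hπ))
  obtain ⟨s, hs, r, hsr⟩ := hgen y hy
  have hsP : f s ∉ P := fun h => hs (by rw [hc, Ideal.mem_comap]; exact h)
  rw [Ideal.mem_comap, RingHom.comp_apply, ← Ideal.unit_mul_mem_iff_mem _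
    (IsLocalization.map_units L (⟨f s, hsP⟩ : P.primeCompl)), ← map_mul, ← map_mul, hsr, map_mul,
    map_mul]
  exact Ideal.mul_mem_left _ _ (Ideal.mem_span_singleton_self _)

variable (P : Ideal (chart1 A q M b)) [hP : P.IsPrime]

include hA hqM hM in
/-- A prime over the zero of either coordinate lies over cusps with equal invariant. -/
theorem exists_cusp_data (hqP : (q : chart1 A q M b) ∉ P)
    (ht : alpha0 A q M b (coordC A M b) ∈ P ∨ beta0 hA M hqM hM b (coordC A M b) ∈ P) :
    ∃ δ, Centred M b P δ ∧ ∃ (cA cB : CosetIdx M) (hcA : ZeroCoset b cA) (hcB : ZeroCoset b cB),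
      cB.a = cA.a ∧
      P.comap (alpha0 A q M b) = cuspAt A M b hM.two_le hcA ∧
      P.comap (beta0 hA M hqM hM b) = cuspAt A M b hM.two_le hcB ∧
      (∀ y : chart0 A M b, (sigF (q * M) δ ((alpha0 A q M b y : chart1 A q M b) : Fn A (q * M))).order =
        (q : ℤ) * (sigF M cA (y : Fn A M)).order) ∧
      (∀ y : chart0 A M b,
        (sigF (q * M) δ ((beta0 hA M hqM hM b y : chart1 A q M b) : Fn A (q * M))).order =
          ((Nat.gcd q δ.a * Nat.gcd q δ.a : ℕ) : ℤ) * (sigF M cB (y : Fn A M)).order) := by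
  obtain ⟨δ, hδ⟩ := exists_centred hA M hqM hM b P hqP ht
  obtain ⟨cA, cB, hab, hA', hB'⟩ := exists_cosets_below (A := A) M hqM δ
  have hq0 : (0 : ℤ) < q := by exact_mod_cast NeZero.pos q
  have hg0 : (0 : ℤ) < ((Nat.gcd q δ.a * Nat.gcd q δ.a : ℕ) : ℤ) := by
    have := Nat.gcd_pos_of_pos_left δ.a (NeZero.pos q)
    exact_mod_cast Nat.mul_pos this this
  have hord : ∀ {r : ℤ}, 0 < r → ∀ (y : chart0 A M b) (z : chart1 A q M b) (c : CosetIdx M),
      (y = 0 ↔ z = 0) → (sigF (q * M) δ (z : Fn A (q * M))).order =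
        r * (sigF M c (y : Fn A M)).order →
      (z ∈ P ↔ y = 0 ∨ 0 < (sigF M c (y : Fn A M)).order) := by
    intro r hr y z c h0 ho
    rcases eq_or_ne z 0 with rfl | hz
    · exact iff_of_true P.zero_mem (Or.inl (h0.2 rfl))
    · rw [hδ.mem_iff hz, ho, mul_pos_iff_of_pos_left hr, or_iff_right fun e => hz (h0.1 e)]
  have hza : ∀ y : chart0 A M b, y = 0 ↔ alpha0 A q M b y = 0 := fun y =>
    ⟨fun h => by rw [h, map_zero], fun h => Subtype.ext (by
      have h' := congrArg Subtype.val h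
      rw [coe_alpha0] at h'
      exact (map_eq_zero (incl (A := A) (dvd_qM q M)).toRingHom).1 h')⟩
  have hzb : ∀ y : chart0 A M b, y = 0 ↔ beta0 hA M hqM hM b y = 0 := fun y =>
    ⟨fun h => by rw [h, map_zero], fun h => Subtype.ext (by
      have h' := congrArg Subtype.val h
      rw [coe_beta0] at h'
      exact (map_eq_zero (scale (A := A) q (mul_q_dvd q M)).toRingHom).1 h')⟩
  have hAm := fun y : chart0 A M b => hord hq0 y (alpha0 A q M b y) cA (hza y)
    (by rw [coe_alpha0]; exact hA' _)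
  have hBm := fun y : chart0 A M b => hord hg0 y (beta0 hA M hqM hM b y) cB (hzb y)
    (by rw [coe_beta0]; exact hB' _)
  have hs0 : coordC A M b ≠ 0 := fun h => coord_ne_zero M b (congrArg Subtype.val h)
  have hz : ZeroCoset b cA ↔ ZeroCoset b cB := zeroCoset_iff_of_a (by rw [hab])
  have hcA : ZeroCoset b cA := by
    rcases ht with h | h
    · exact (order_sigF_coord_pos_iff M b hM.two_le cA).1 (((hAm _).1 h).resolve_left hs0)
    · exact hz.2 ((order_sigF_coord_pos_iff M b hM.two_le cB).1 (((hBm _).1 h).resolve_left hs0))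
  have hker : ∀ (c : CosetIdx M) (hc : ZeroCoset b c) (y : chart0 A M b),
      y ∈ cuspAt A M b hM.two_le hc ↔ y = 0 ∨ 0 < (sigF M c (y : Fn A M)).order := fun c hc y => by
    rw [cuspAt, RingHom.mem_ker, chiQ_eq_zero_iff, ringAt, mem_nonunits_ordRing]
    exact or_congr ((map_eq_zero _).trans ⟨fun h => Subtype.ext h, congrArg Subtype.val⟩) Iff.rfl
  refine ⟨δ, hδ, cA, cB, hcA, hz.1 hcA, hab, Ideal.ext fun y => ?_, Ideal.ext fun y => ?_,
    fun y => by rw [coe_alpha0]; exact hA' _, fun y => by rw [coe_beta0]; exact hB' _⟩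
  · rw [Ideal.mem_comap, hker]
    exact hAm y
  · rw [Ideal.mem_comap, hker]
    exact hBm y

/-- Powers of locally principal ideals compared through their generators. -/
theorem map_pow_eq_or {R S : Type*} [CommRing R] [CommRing S] (f g : R →+* S) (P : Ideal S)
    [P.IsPrime] (q : ℕ) {π ρ : R} (hπ : π ∈ P.comap f)
    (hπgen : ∀ y ∈ P.comap f, ∃ s ∉ P.comap f, ∃ r, s * y = r * π) (hρ : ρ ∈ P.comap g)
    (hρgen : ∀ y ∈ P.comap g, ∃ s ∉ P.comap g, ∃ r, s * y = r * ρ)
    (h : LocEq P (f π ^ q) (g ρ) ∨ LocEq P (g ρ ^ q) (f π)) :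
    (((P.comap f).map f).map (algebraMap S (Localization.AtPrime P))) ^ q =
        ((P.comap g).map g).map (algebraMap S (Localization.AtPrime P)) ∨
      (((P.comap g).map g).map (algebraMap S (Localization.AtPrime P))) ^ q =
        ((P.comap f).map f).map (algebraMap S (Localization.AtPrime P)) := by
  have key : ∀ u v : S, LocEq P u v →
      Ideal.span {algebraMap S (Localization.AtPrime P) u} =
        Ideal.span {algebraMap S (Localization.AtPrime P) v} := by
    rintro u v ⟨⟨s, hs, r, h1⟩, t, ht, w, h2⟩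
    exact le_antisymm ((Ideal.span_singleton_le_iff_mem _).2 (mem_span_of_mul_eq P hs h1))
      ((Ideal.span_singleton_le_iff_mem _).2 (mem_span_of_mul_eq P ht h2))
  rw [map_map_eq_span (L := Localization.AtPrime P) f P rfl hπ hπgen,
    map_map_eq_span (L := Localization.AtPrime P) g P rfl hρ hρgen, Ideal.span_singleton_pow,
    Ideal.span_singleton_pow, ← map_pow (algebraMap S (Localization.AtPrime P)),
    ← map_pow (algebraMap S (Localization.AtPrime P))]
  exact h.imp (key _ _) (key _ _)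

include hA hqM hM in
/-- Local generators of the two images of a cusp, one a local `q`-th power of the other. -/
theorem exists_ramified_generators (P : Ideal (chart1 A q M b)) (hP : P.IsPrime)
    (hqP : (q : chart1 A q M b) ∉ P) (ht : alpha0 A q M b (coordC A M b) ∈ P) :
    ∃ π ρ : chart0 A M b, π ∈ P.comap (alpha0 A q M b) ∧
      (∀ y ∈ P.comap (alpha0 A q M b), ∃ s ∉ P.comap (alpha0 A q M b), ∃ r, s * y = r * π) ∧
      ρ ∈ P.comap (beta0 hA M hqM hM b) ∧
      (∀ y ∈ P.comap (beta0 hA M hqM hM b),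
        ∃ s ∉ P.comap (beta0 hA M hqM hM b), ∃ r, s * y = r * ρ) ∧
      (LocEq P (alpha0 A q M b π ^ q) (beta0 hA M hqM hM b ρ) ∨
        LocEq P (beta0 hA M hqM hM b ρ ^ q) (alpha0 A q M b π)) := by
  have hdata := exists_cusp_data hA M hqM hM b P hqP (Or.inl ht)
  obtain ⟨δ, hδ, cA, cB, hcA, hcB, hab, hPA, hPB, hoA, hoB⟩ := hdata
  have huA := exists_uniformizer hA M b hM.two_le hcA
  obtain ⟨π, hπ, hπ0, hπo, hπgen⟩ := huA
  have huB := exists_uniformizer hA M b hM.two_le hcB
  obtain ⟨ρ, hρ, hρ0, hρo, hρgen⟩ := huB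
  have hn : (cB.a * Nat.gcd cB.a cB.D : ℕ) = cA.a * Nat.gcd cA.a cA.D := by
    rw [ModularCosets.CosetIdx.D_def, ModularCosets.CosetIdx.D_def, hab]
  rw [hn] at hρo
  refine ⟨π, ρ, hPA ▸ hπ, hPA ▸ hπgen, hPB ▸ hρ, hPB ▸ hρgen, ?_⟩
  obtain ⟨n, hn⟩ : ∃ n, n = cA.a * Nat.gcd cA.a cA.D := ⟨_, rfl⟩
  rw [← hn] at hπo hρo
  have hxo : (sigF (q * M) δ ((alpha0 A q M b π : chart1 A q M b) : Fn A (q * M))).order =
      (q : ℤ) * n := by rw [hoA, hπo]
  have hyo : (sigF (q * M) δ ((beta0 hA M hqM hM b ρ : chart1 A q M b) : Fn A (q * M))).order =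
      ((Nat.gcd q δ.a * Nat.gcd q δ.a : ℕ) : ℤ) * n := by rw [hoB, hρo]
  have hn0 : (0 : ℤ) < n := by
    rw [hn]
    exact_mod_cast Nat.mul_pos (Nat.pos_of_ne_zero cA.a_ne_zero)
      (Nat.gcd_pos_of_pos_left _ (Nat.pos_of_ne_zero cA.a_ne_zero))
  have hq0 : (0 : ℤ) < q := by exact_mod_cast NeZero.pos q
  have hg0 : (0 : ℤ) < ((Nat.gcd q δ.a * Nat.gcd q δ.a : ℕ) : ℤ) := by
    have := Nat.gcd_pos_of_pos_left δ.a (NeZero.pos q)
    exact_mod_cast Nat.mul_pos this this
  generalize alpha0 A q M b π = x at hxo ⊢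
  generalize beta0 hA M hqM hM b ρ = y at hyo ⊢
  have hx0 : x ≠ 0 := fun h => by
    rw [h, ZeroMemClass.coe_zero, map_zero, HahnSeries.order_zero] at hxo
    exact (mul_pos hq0 hn0).ne hxo
  have hy0 : y ≠ 0 := fun h => by
    rw [h, ZeroMemClass.coe_zero, map_zero, HahnSeries.order_zero] at hyo
    exact (mul_pos hg0 hn0).ne hyo
  have hP0 : P ≠ ⊥ := fun h => by
    have h1 := (hδ.mem_iff hx0).2 (by rw [hxo]; exact mul_pos hq0 hn0)
    rw [h, Ideal.mem_bot] at h1
    exact hx0 h1
  have hpow : ∀ z : chart1 A q M b,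
      (sigF (q * M) δ ((z ^ q : chart1 A q M b) : Fn A (q * M))).order =
        (q : ℤ) * (sigF (q * M) δ (z : Fn A (q * M))).order := fun z => by
    rw [SubmonoidClass.coe_pow, map_pow, order_pow']
  rcases (Nat.dvd_prime (Fact.out : q.Prime)).1 (Nat.gcd_dvd_left q δ.a) with hg | hg
  · refine Or.inr (hδ.loc_eq hA hM.two_le hqP hP0 (pow_ne_zero _ hy0) hx0 ?_)
    rw [hpow, hxo, hyo, hg]
    push_cast
    ring
  · refine Or.inl (hδ.loc_eq hA hM.two_le hqP hP0 (pow_ne_zero _ hx0) hy0 ?_)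
    rw [hpow, hxo, hyo, hg]
    push_cast
    ring

end FLTAgent.BadQ.TwoInst.Ram
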