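import Mathlib
import Fermat.Agent.BadQ.TwoInstIota
import Fermat.Agent.BadQ.TwoInstCusp0
import Fermat.Agent.BadQ.TwoInstCuspPoints
import Fermat.Agent.BadQ.TwoInstCuspIff1
import Fermat.Agent.BadQ.TwoInstRamUp

/-!
# The cusps of the chart of level `M` and their behaviour at level `qM`

`cuspSet` is the set of primes of `chart0` over the zero of the coordinate not containing `q`.
The lemmas here collect, in the shape required by `StepData`, the generator and uniqueness of cusp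
sections, the existence of ordinary points and of cusps, and the behaviour at level `qM`
(`cusp_iff1`, `cusp_ramified1`).
-/

set_option autoImplicit false
set_option linter.style.haveILetI false
set_option linter.unusedSectionVars false
set_option synthInstance.maxHeartbeats 400000
set_option maxHeartbeats 1000000

noncomputable section

open ModularCurve

namespace FLTAgent.BadQ.TwoInst

local notation "Qb" => AlgebraicClosure ℚ

variable {A : ValuationSubring Qb} {q : ℕ} [Fact q.Prime] (hA : A.LiesOverPrime q) (M : ℕ)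
  [NeZero M] (hqM : ¬ q ∣ M) (hM : GoodLevel M) (b : Bool)

variable (A) in
/-- The coordinate in the chart of level `M`. -/
def sC : chart0 A M b := ⟨coord A M b, TwoChart.subset_intCl _ (Set.mem_singleton _)⟩

variable (A q) in
/-- The cusp sections: the horizontal primes over the zero of the coordinate. -/
def cuspSet : Set (Ideal (chart0 A M b)) :=
  {c | c.IsPrime ∧ (q : chart0 A M b) ∉ c ∧ sC A M b ∈ c}

theorem mem_cuspSet {c : Ideal (chart0 A M b)} :
    c ∈ cuspSet A q M b ↔ c.IsPrime ∧ (q : chart0 A M b) ∉ c ∧ sC A M b ∈ c := Iff.rfl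

include hM in
theorem cusp_gen0 (c : Ideal (chart0 A M b)) (hc : c ∈ cuspSet A q M b)
    (Q : Ideal (fibre M hA hqM b)) (hQ : Q.IsMaximal) (hle : c ≤ Q.comap (red0 hA M hqM b)) :
    ∃ u ∈ c, (∀ a ∈ c, ∃ s ∉ Q.comap (red0 hA M hqM b), s * a ∈ Ideal.span {u}) ∧
      red0 hA M hqM b u ∈ Q ∧
      ∀ a ∈ Q, ∃ s ∉ Q, s * a ∈ Ideal.span {red0 hA M hqM b u} :=
  haveI := hc.1
  cusp_gen hA M hqM hM b c hc.2.1 hc.2.2 Q hQ hle

include hM in
theorem cusp_unique0 (c : Ideal (chart0 A M b)) (hc : c ∈ cuspSet A q M b)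
    (c' : Ideal (chart0 A M b)) (hc' : c' ∈ cuspSet A q M b)
    (Q : Ideal (fibre M hA hqM b)) (hQ : Q.IsMaximal) (hle : c ≤ Q.comap (red0 hA M hqM b))
    (hle' : c' ≤ Q.comap (red0 hA M hqM b)) : c = c' :=
  haveI := hc.1
  haveI := hc'.1
  cusp_unique hA M hqM hM b c hc.2.1 hc.2.2 c' hc'.2.1 hc'.2.2 Q hQ hle hle'

include hM in
theorem exists_ordinary0 : ∃ Q : Ideal (fibre M hA hqM b), Q.IsMaximal ∧
    (Q.comap (phi0 hA M hqM b)).comap (phi0 hA M hqM b) ≠ Q ∧
    ∀ c ∈ cuspSet A q M b, ¬ c ≤ Q.comap (red0 hA M hqM b) :=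
  let ⟨Q, hQ, hfix, hnot⟩ := exists_ordinary0_aux hA M hqM hM b
  ⟨Q, hQ, hfix, fun _ hc hle => hnot (hle hc.2.2)⟩

include hM in
theorem exists_cusp0 : ∃ c ∈ cuspSet A q M b, ∃ Q : Ideal (fibre M hA hqM b),
    Q.IsMaximal ∧ c ≤ Q.comap (red0 hA M hqM b) :=
  let ⟨c, hc, hq, hs, h⟩ := exists_cusp0_aux hA M hqM hM b
  ⟨c, ⟨hc, hq, hs⟩, h⟩

include hA hqM hM in
theorem cusp_iff1 (P : Ideal (chart1 A q M b)) (hP : P.IsPrime) :
    P.comap (alpha0 A q M b) ∈ cuspSet A q M b ↔
      P.comap (beta0 hA M hqM hM b) ∈ cuspSet A q M b := by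
  haveI := hP
  refine ⟨fun ⟨_, hq, hs⟩ => ⟨hP.comap _, ?_, ?_⟩, fun ⟨_, hq, hs⟩ => ⟨hP.comap _, ?_, ?_⟩⟩ <;>
    simp only [Ideal.mem_comap, map_natCast] at hq hs ⊢ <;> try exact hq
  · exact (cusp_iff1_coord hA M hqM hM b P hq).1 hs
  · exact (cusp_iff1_coord hA M hqM hM b P hq).2 hs

theorem cusp_data_alpha (P : Ideal (chart1 A q M b))
    (h : P.comap (alpha0 A q M b) ∈ cuspSet A q M b) :
    (q : chart1 A q M b) ∉ P ∧ alpha0 A q M b (Ram.coordC A M b) ∈ P := by
  have h2 := h.2.1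
  rw [Ideal.mem_comap, map_natCast] at h2
  exact ⟨h2, Ideal.mem_comap.1 h.2.2⟩

set_option maxHeartbeats 6000000 in
include hA hqM hM in
theorem cusp_ramified1 (P : Ideal (chart1 A q M b)) (hP : P.IsPrime)
    (hc : P.comap (alpha0 A q M b) ∈ cuspSet A q M b) :
    (((P.comap (alpha0 A q M b)).map (alpha0 A q M b)).map
        (algebraMap (chart1 A q M b) (Localization.AtPrime P))) ^ q =
      ((P.comap (beta0 hA M hqM hM b)).map (beta0 hA M hqM hM b)).map
        (algebraMap (chart1 A q M b) (Localization.AtPrime P)) ∨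
    (((P.comap (beta0 hA M hqM hM b)).map (beta0 hA M hqM hM b)).map
        (algebraMap (chart1 A q M b) (Localization.AtPrime P))) ^ q =
      ((P.comap (alpha0 A q M b)).map (alpha0 A q M b)).map
        (algebraMap (chart1 A q M b) (Localization.AtPrime P)) :=
  have hd : (q : chart1 A q M b) ∉ P ∧ alpha0 A q M b (Ram.coordC A M b) ∈ P :=
    cusp_data_alpha M b P hc
  (Ram.exists_ramified_generators hA M hqM hM b P hP hd.1 hd.2).elim fun π h => h.elim fun ρ h =>
    Ram.map_pow_eq_or (alpha0 A q M b).toRingHom (beta0 hA M hqM hM b).toRingHom P q (π := π)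
      (ρ := ρ) h.1 h.2.1 h.2.2.1 h.2.2.2.1 h.2.2.2.2


end FLTAgent.BadQ.TwoInst
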