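import Mathlib
import Fermat.Agent.BadQ.TwoInstTower
import Fermat.Agent.BadQ.TwoInstIota
import Fermat.Agent.MazurP.QEigenSeries

/-!
# The derivation `d/dt` on level `qM` over the fixed field of inertia

`IsDdt` defines `dy/dt` through `q d/dq` of expansions; it exists for every function as `F` is
separable algebraic over the field generated by a transcendental `t` (`exists_isDdt`). `der1` is
the derivation on the chart of level `qM` and `der1_ne` says that on the chart of level `M` it
kills only elements constant on the special fibre.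
-/

set_option autoImplicit false
set_option linter.style.haveILetI false
set_option linter.unusedSectionVars false
set_option synthInstance.maxHeartbeats 400000
set_option maxHeartbeats 1000000

noncomputable section

open ModularCurve IntermediateField Polynomial

namespace FLTAgent.BadQ.TwoInst

open FLTAgent.MazurP

local notation "Qb" => AlgebraicClosure ℚ

section Theta

variable {k : Type*} [Field k]

theorem qTheta_C_eq_zero (c : k) : qTheta (HahnSeries.C c : LaurentSeries k) = 0 := by
  rw [HahnSeries.C_apply, qTheta_single]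
  simp

theorem eq_C_of_qTheta_eq_zero [CharZero k] {x : LaurentSeries k} (h : qTheta x = 0) :
    x = HahnSeries.C (x.coeff 0) := by
  refine HahnSeries.ext (funext fun n => ?_)
  rw [HahnSeries.C_apply, HahnSeries.coeff_single]
  rcases eq_or_ne n 0 with rfl | hn
  · rw [if_pos rfl]
  · rw [if_neg hn]
    have h1 : (n : k) * x.coeff n = 0 := by rw [← qTheta_coeff, h]; rfl
    exact (mul_eq_zero.1 h1).resolve_left (Int.cast_ne_zero.2 hn)

theorem exists_ratio {K F L : Type*} [Field K] [Field F] [Field L] [Algebra K F] (σ : F →+* L)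
    (θ : L → L) (hadd : ∀ a b, θ (a + b) = θ a + θ b)
    (hmul : ∀ a b, θ (a * b) = a * θ b + b * θ a) (τ : L)
    (hK : ∀ c : K, ∃ g, θ (σ (algebraMap K F c)) = σ g * τ) {y : F} (hy : IsIntegral K y)
    (h0 : CharZero K) : ∃ g, θ (σ y) = σ g * τ := by
  have key : ∀ P : K[X], ∃ g, θ (σ (aeval y P)) =
      σ g * τ + σ (aeval y P.derivative) * θ (σ y) := by
    intro P
    induction P using Polynomial.induction_on with
    | C c =>
      obtain ⟨g, hg⟩ := hK c
      refine ⟨g, ?_⟩
      rw [derivative_C, map_zero, map_zero, zero_mul, add_zero, aeval_C]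
      exact hg
    | add P Q hP hQ =>
      obtain ⟨g, hg⟩ := hP
      obtain ⟨g', hg'⟩ := hQ
      refine ⟨g + g', ?_⟩
      rw [map_add, map_add, hadd, hg, hg', map_add, map_add, map_add, map_add]
      ring
    | monomial n c h =>
      obtain ⟨g, hg⟩ := h
      refine ⟨g * y, ?_⟩
      rw [pow_succ, ← mul_assoc]
      generalize C c * X ^ n = P at hg ⊢
      rw [derivative_mul, derivative_X, mul_one, map_add, map_mul, map_mul, aeval_X,
        map_mul, map_mul, map_add, map_mul, hmul, hg]
      simp only [aeval_X]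
      ring
  have hsep : (minpoly K y).Separable := (minpoly.irreducible hy).separable
  have hd : σ (aeval y (minpoly K y).derivative) ≠ 0 :=
    (map_ne_zero_iff _ σ.injective).2 (hsep.aeval_derivative_ne_zero (minpoly.aeval _ y))
  obtain ⟨g, hg⟩ := key (minpoly K y)
  have hz : θ 0 = 0 := by simpa using hadd 0 0
  rw [minpoly.aeval, map_zero, hz] at hg
  refine ⟨-g / aeval y (minpoly K y).derivative, ?_⟩
  rw [map_div₀, map_neg]
  field_simp
  linear_combination -hg

end Theta

variable {A : ValuationSubring Qb} {N : ℕ} [NeZero N]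

/-- `g` is `d y / d t`. -/
def IsDdt (t y g : Fn A N) : Prop := qTheta (ser A N y) = ser A N g * qTheta (ser A N t)

theorem qTheta_ser_algebraMap (c : K0 A) :
    qTheta (ser A N (algebraMap (K0 A) (Fn A N) c)) = 0 := by
  rw [AlgHom.commutes, Reduction.algebraMap_eq_C, qTheta_C_eq_zero]

theorem qTheta_ser_ne_zero {t : Fn A N} (ht : Transcendental (K0 A) t) :
    qTheta (ser A N t) ≠ 0 := by
  intro h
  have h1 : t = algebraMap (K0 A) (Fn A N) ((ser A N t).coeff 0) := ser_injective (by
    rw [AlgHom.commutes, Reduction.algebraMap_eq_C]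
    exact eq_C_of_qTheta_eq_zero h)
  exact ht (h1 ▸ isAlgebraic_algebraMap _)

variable {t : Fn A N}

theorem isDdt_self : IsDdt t t 1 := by rw [IsDdt, map_one, one_mul]

theorem isDdt_algebraMap (c : K0 A) : IsDdt t (algebraMap (K0 A) (Fn A N) c) 0 := by
  rw [IsDdt, qTheta_ser_algebraMap, map_zero, zero_mul]

theorem IsDdt.add {y y' g g' : Fn A N} (h : IsDdt t y g) (h' : IsDdt t y' g') :
    IsDdt t (y + y') (g + g') := by
  rw [IsDdt] at *
  rw [map_add, map_add, qTheta_add, h, h', add_mul]

theorem IsDdt.mul {y y' g g' : Fn A N} (h : IsDdt t y g) (h' : IsDdt t y' g') :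
    IsDdt t (y * y') (y * g' + y' * g) := by
  rw [IsDdt] at *
  rw [map_mul, map_add, map_mul, map_mul, qTheta_mul, h, h']
  ring

theorem IsDdt.inv {y g : Fn A N} (h : IsDdt t y g) : IsDdt t y⁻¹ (-g * y⁻¹ * y⁻¹) := by
  rcases eq_or_ne y 0 with rfl | hy
  · simp [IsDdt, qTheta_zero]
  have h1 : qTheta (ser A N (y * y⁻¹)) = 0 := by
    rw [mul_inv_cancel₀ hy, map_one, qTheta_one]
  have hy' : ser A N y ≠ 0 := (map_ne_zero_iff _ ser_injective).2 hy
  rw [IsDdt] at *
  rw [map_mul, map_inv₀, qTheta_mul, h] at h1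
  refine mul_left_cancel₀ hy' ?_
  rw [map_mul, map_mul, map_neg, map_inv₀]
  field_simp
  field_simp at h1
  linear_combination h1

/-- The elements with a derivative. -/
def ddtField (t : Fn A N) : IntermediateField (K0 A) (Fn A N) where
  carrier := {y | ∃ g, IsDdt t y g}
  mul_mem' := fun ⟨_, h⟩ ⟨_, h'⟩ => ⟨_, h.mul h'⟩
  one_mem' := ⟨_, map_one (algebraMap (K0 A) (Fn A N)) ▸ isDdt_algebraMap 1⟩
  add_mem' := fun ⟨_, h⟩ ⟨_, h'⟩ => ⟨_, h.add h'⟩
  zero_mem' := ⟨_, map_zero (algebraMap (K0 A) (Fn A N)) ▸ isDdt_algebraMap 0⟩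
  algebraMap_mem' c := ⟨_, isDdt_algebraMap c⟩
  inv_mem' := fun _ ⟨_, h⟩ => ⟨_, h.inv⟩

theorem adjoin_le_ddtField (t : Fn A N) : (K0 A)⟮t⟯ ≤ ddtField t :=
  adjoin_simple_le_iff.2 ⟨1, isDdt_self⟩

/-- Every function has a derivative with respect to `t`. -/
theorem exists_isDdt (ht : Transcendental (K0 A) t) (y : Fn A N) : ∃ g, IsDdt t y g := by
  haveI := finiteDimensional_Fn ht
  exact exists_ratio (ser A N).toRingHom qTheta qTheta_add qTheta_mul
    (qTheta (ser A N t)) (fun c : (K0 A)⟮t⟯ => adjoin_le_ddtField t c.2) (IsIntegral.of_finite _ y)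
    (charZero_of_injective_algebraMap (algebraMap (K0 A) (K0 A)⟮t⟯).injective)

theorem isDdt_unique (ht : Transcendental (K0 A) t) {y g g' : Fn A N} (h : IsDdt t y g)
    (h' : IsDdt t y g') : g = g' :=
  ser_injective (mul_right_cancel₀ (qTheta_ser_ne_zero ht) (h.symm.trans h'))

/-- `d y / d t`. -/
def ddt (ht : Transcendental (K0 A) t) (y : Fn A N) : Fn A N := (exists_isDdt ht y).choose

theorem isDdt_ddt (ht : Transcendental (K0 A) t) (y : Fn A N) : IsDdt t y (ddt ht y) :=
  (exists_isDdt ht y).choose_spec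

theorem ddt_add (ht : Transcendental (K0 A) t) (y y' : Fn A N) :
    ddt ht (y + y') = ddt ht y + ddt ht y' :=
  isDdt_unique ht (isDdt_ddt ht _) ((isDdt_ddt ht y).add (isDdt_ddt ht y'))

theorem ddt_mul (ht : Transcendental (K0 A) t) (y y' : Fn A N) :
    ddt ht (y * y') = y * ddt ht y' + y' * ddt ht y :=
  isDdt_unique ht (isDdt_ddt ht _) ((isDdt_ddt ht y).mul (isDdt_ddt ht y'))

theorem ddt_algebraMap (ht : Transcendental (K0 A) t) (c : K0 A) :
    ddt ht (algebraMap (K0 A) (Fn A N) c) = 0 :=
  isDdt_unique ht (isDdt_ddt ht _) (isDdt_algebraMap c)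

theorem eq_algebraMap_of_ddt_eq_zero (ht : Transcendental (K0 A) t) {y : Fn A N}
    (h : ddt ht y = 0) : ∃ c : K0 A, y = algebraMap (K0 A) (Fn A N) c := by
  have h1 := isDdt_ddt ht y
  rw [IsDdt, h, map_zero, zero_mul] at h1
  refine ⟨(ser A N y).coeff 0, ser_injective ?_⟩
  rw [AlgHom.commutes, Reduction.algebraMap_eq_C]
  exact eq_C_of_qTheta_eq_zero h1

section Chart

variable {q : ℕ} [Fact q.Prime] (M : ℕ) [NeZero M] (b : Bool) (hM : 2 ≤ M)

/-- `d/dt` on the chart of level `qM`. -/
def derChart : Derivation (W0 A) (chart1 A q M b) (Fn A (q * M)) :=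
  Derivation.mk'
    { toFun := fun a => ddt (transcendental_incl_coord A hM b (dvd_qM q M)) (a : Fn A (q * M))
      map_add' := fun a a' => ddt_add _ _ _
      map_smul' := fun w a => by
        show ddt _ ((w • a : chart1 A q M b) : Fn A (q * M)) = w • ddt _ _
        rw [Subalgebra.coe_smul, Algebra.smul_def, algebraMap_W0_Fn, ddt_mul, ddt_algebraMap,
          mul_zero, add_zero, ← algebraMap_W0_Fn]
        exact (Algebra.smul_def w _).symm }
    fun a a' => ddt_mul (transcendental_incl_coord A hM b (dvd_qM q M))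
      (a : Fn A (q * M)) (a' : Fn A (q * M))

theorem derChart_apply (a : chart1 A q M b) :
    derChart (A := A) (q := q) M b hM a = ddt (transcendental_incl_coord A hM b (dvd_qM q M)) (a : Fn A (q * M)) :=
  rfl

theorem derChart_alpha_eq_zero {a : chart0 A M b} {a' : chart1 A q M b}
    (ha : (a' : Fn A (q * M)) = incl (dvd_qM q M) (a : Fn A M))
    (h : derChart (A := A) (q := q) M b hM a' = 0) : ∃ w : W0 A, a = algebraMap (W0 A) (chart0 A M b) w := by
  obtain ⟨c, hc⟩ := eq_algebraMap_of_ddt_eq_zero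
    (transcendental_incl_coord A hM b (dvd_qM q M)) (y := (a' : Fn A (q * M))) ((derChart_apply (A := A) (q := q) M b hM a').symm.trans h)
  have hac : (a : Fn A M) = algebraMap (K0 A) (Fn A M) c :=
    (incl (dvd_qM q M)).injective (ha.symm.trans (hc.trans ((incl (dvd_qM q M)).commutes c).symm))
  exact ⟨⟨c, mem_W0_of_algebraMap_mem (transcendental_coord A hM b) (hac ▸ a.2)⟩, Subtype.ext hac⟩

end Chart

section Datum

variable {q : ℕ} [Fact q.Prime] (hA : A.LiesOverPrime q) (M : ℕ) [NeZero M] (hqM : ¬ q ∣ M)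
  (hM : GoodLevel M) (b : Bool)

/-- The derivation. -/
def der1 (hM : GoodLevel M) : Derivation (W0 A) (chart1 A q M b) (Fn A (q * M)) :=
  derChart M b hM.two_le

include hA hqM hM in
theorem der1_ne (a : chart0 A M b) (h : der1 (A := A) (q := q) M b hM (alpha0 A q M b a) = 0) :
    ∃ w : W0 A, red0 hA M hqM b a = algebraMap (W0 A) (fibre M hA hqM b) w := by
  obtain ⟨w, hw⟩ := derChart_alpha_eq_zero (A := A) (q := q) M b hM.two_le (coe_alpha0 M b a) h
  exact ⟨w, by rw [hw, AlgHom.commutes]⟩

end Datum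

end FLTAgent.BadQ.TwoInst
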