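import Mathlib

/-!
# Criteria for vanishing of differentials at a prime

`exists_smul_mem_of_local` is Nakayama for differentials. `exists_smul_D_mem` puts `D a` locally
into a given submodule when the prime is generated from below and `a` satisfies a separable
relation modulo it; `exists_smul_D_mem_of_algebraic` is the case of the zero prime.
-/

set_option autoImplicit false
set_option linter.style.haveILetI false
set_option linter.unusedSectionVars false

noncomputable section

open Polynomial

namespace FLTAgent.BadQ.TwoInst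

section General

variable {R S : Type*} [CommRing R] [CommRing S] [Algebra R S]

open KaehlerDifferential in
/-- Nakayama for differentials. -/
theorem exists_smul_mem_of_local [Algebra.EssFiniteType R S] (P : Ideal S) [hP : P.IsPrime]
    (N : Submodule S (KaehlerDifferential R S))
    (h : ∀ a, ∃ s ∉ P, s • D R S a ∈ N ⊔ P • ⊤) (m : KaehlerDifferential R S) :
    ∃ s ∉ P, s • m ∈ N := by
  classical
  have hall : ∀ x : KaehlerDifferential R S, ∃ s ∉ P, s • x ∈ N ⊔ P • ⊤ := by
    intro x
    have hx : x ∈ Submodule.span S (Set.range (D R S)) := by rw [span_range_derivation]; trivial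
    induction hx using Submodule.span_induction with
    | mem y hy => obtain ⟨a, rfl⟩ := hy; exact h a
    | zero => exact ⟨1, hP.one_notMem, by simp⟩
    | add y z _ _ hy hz =>
      obtain ⟨s, hs, hsy⟩ := hy
      obtain ⟨t, ht, htz⟩ := hz
      refine ⟨s * t, fun h => (hP.mem_or_mem h).elim hs ht, ?_⟩
      rw [smul_add]
      exact add_mem (by rw [mul_comm, mul_smul]; exact Submodule.smul_mem _ t hsy)
        (by rw [mul_smul]; exact Submodule.smul_mem _ s htz)
    | smul c y _ hy =>
      obtain ⟨s, hs, hsy⟩ := hy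
      exact ⟨s, hs, by rw [smul_comm]; exact Submodule.smul_mem _ c hsy⟩
  choose s hs hsm using hall
  obtain ⟨G, hG⟩ := Module.Finite.fg_top (R := S) (M := KaehlerDifferential R S)
  set u : S := ∏ g ∈ G, s g
  have hu : u ∉ P := fun h => by
    obtain ⟨g, -, hg⟩ := hP.prod_mem_iff.1 h
    exact hs g hg
  let f : Module.End S (KaehlerDifferential R S ⧸ N) :=
    algebraMap S (Module.End S (KaehlerDifferential R S ⧸ N)) u
  have hf : LinearMap.range f ≤ P • ⊤ := by
    rintro _ ⟨y, rfl⟩
    obtain ⟨x, rfl⟩ := Submodule.mkQ_surjective N y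
    have hx : x ∈ Submodule.span S (G : Set (KaehlerDifferential R S)) := by rw [hG]; trivial
    rw [Module.algebraMap_end_apply]
    induction hx using Submodule.span_induction with
    | mem g hg =>
      obtain ⟨r, hr⟩ := Finset.dvd_prod_of_mem s (Finset.mem_coe.1 hg)
      rw [show u = s g * r from hr, mul_comm, mul_smul, ← map_smul]
      refine Submodule.smul_mem _ r ?_
      have h1 := Submodule.mem_map_of_mem (f := N.mkQ) (hsm g)
      rw [Submodule.map_sup, Submodule.mkQ_map_self, bot_sup_eq, Submodule.map_smul''] at h1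
      exact Submodule.smul_mono le_rfl le_top h1
    | zero => simp
    | add y z _ _ hy hz => rw [map_add, smul_add]; exact add_mem hy hz
    | smul c y _ hy => rw [map_smul, smul_comm]; exact Submodule.smul_mem _ c hy
  obtain ⟨p, hp, -, hcoeff, hp0⟩ :=
    LinearMap.exists_monic_and_natDegree_eq_and_coeff_mem_pow_and_aeval_eq_zero S f P hf
  refine ⟨p.eval u, fun hmem => hu (hP.mem_of_pow_mem p.natDegree ?_), ?_⟩
  · rw [← Ideal.Quotient.eq_zero_iff_mem] at hmem ⊢
    rw [eval_eq_sum_range, map_sum, Finset.sum_eq_single p.natDegree, hp.coeff_natDegree, one_mul]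
      at hmem
    · exact hmem
    · intro k hk hkn
      rw [Ideal.Quotient.eq_zero_iff_mem]
      refine P.mul_mem_right _ (Ideal.pow_le_self ?_ (hcoeff k))
      rw [Finset.mem_range] at hk
      omega
    · exact fun h => absurd (Finset.self_mem_range_succ _) h
  · rw [aeval_algebraMap_apply_eq_algebraMap_eval] at hp0
    rw [← Submodule.Quotient.mk_eq_zero, Submodule.Quotient.mk_smul]
    exact LinearMap.congr_fun hp0 (Submodule.Quotient.mk m)

open KaehlerDifferential in
/-- The criterion: separable residues and principal maximal ideal from below. -/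
theorem exists_smul_D_mem (P : Ideal S) [hP : P.IsPrime] (N : Submodule S (KaehlerDifferential R S))
    (hres : ∀ a : S, ∃ H : R[X], aeval a H ∈ P ∧ aeval a (derivative H) ∉ P)
    {g : S} (hg : D R S g ∈ N) (hgP : g ∈ P) (hgen : ∀ p ∈ P, ∃ s ∉ P, ∃ c : S, s * p = c * g)
    (a : S) : ∃ s ∉ P, s • D R S a ∈ N ⊔ P • ⊤ := by
  obtain ⟨H, hH, hH'⟩ := hres a
  obtain ⟨s, hs, c, hc⟩ := hgen _ hH
  refine ⟨s * aeval a (derivative H), fun h => (hP.mem_or_mem h).elim hs hH', ?_⟩
  have h1 : D R S (aeval a H) = aeval a (derivative H) • D R S a := (D R S).map_aeval H a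
  have h2 := congrArg (D R S) hc
  rw [Derivation.leibniz, Derivation.leibniz, h1, ← mul_smul] at h2
  rw [eq_sub_of_add_eq h2]
  refine sub_mem (add_mem (Submodule.smul_mem _ c (Submodule.mem_sup_left hg)) ?_) ?_
  · exact Submodule.mem_sup_right (Submodule.smul_mem_smul hgP trivial)
  · exact Submodule.mem_sup_right (Submodule.smul_mem_smul hH trivial)

open KaehlerDifferential in
theorem D_eval₂_sub_mem {S₀ : Type*} [CommRing S₀] (φ : S₀ →+* S)
    (N : Submodule S (KaehlerDifferential R S)) (hN : ∀ x, D R S (φ x) ∈ N) (a : S) (G : S₀[X]) :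
    D R S (G.eval₂ φ a) - (derivative G).eval₂ φ a • D R S a ∈ N := by
  induction G using Polynomial.induction_on' with
  | add p r hp hr =>
    rw [eval₂_add, map_add, map_add, eval₂_add, add_smul, add_sub_add_comm]
    exact add_mem hp hr
  | monomial n x =>
    rw [eval₂_monomial, derivative_monomial, eval₂_monomial, Derivation.leibniz,
      Derivation.leibniz_pow, map_mul, map_natCast]
    rw [show φ x • (n : ℕ) • a ^ (n - 1) • D R S a = (φ x * (n : S) * a ^ (n - 1)) • D R S a by
      rw [← Nat.cast_smul_eq_nsmul S, ← mul_smul, ← mul_smul], add_sub_cancel_left]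
    exact Submodule.smul_mem _ _ (hN x)

open KaehlerDifferential in
theorem exists_smul_D_mem_of_algebraic {S₀ : Type*} [CommRing S₀] [IsDomain S] [CharZero S]
    (φ : S₀ →+* S) (hφ : Function.Injective φ) (N : Submodule S (KaehlerDifferential R S))
    (hN : ∀ x, D R S (φ x) ∈ N) (a : S) (hex : ∃ G : S₀[X], G ≠ 0 ∧ G.eval₂ φ a = 0) :
    ∃ s ∉ (⊥ : Ideal S), s • D R S a ∈ N := by
  classical
  haveI : IsDomain S₀ := Function.Injective.isDomain φ hφ
  haveI : CharZero S₀ :=
    ⟨fun m n h => Nat.cast_injective (R := S) (by rw [← map_natCast φ, h, map_natCast])⟩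
  have hex' : ∃ n, ∃ G : S₀[X], G ≠ 0 ∧ G.eval₂ φ a = 0 ∧ G.natDegree = n :=
    hex.elim fun G hG => ⟨_, G, hG.1, hG.2, rfl⟩
  obtain ⟨G, hG, hGa, hdeg⟩ := Nat.find_spec hex'
  have hd0 : G.natDegree ≠ 0 := by
    intro h
    obtain ⟨c, rfl⟩ := natDegree_eq_zero.1 h
    rw [eval₂_C] at hGa
    exact hG (by rw [hφ (hGa.trans (map_zero φ).symm), map_zero])
  have hG' : derivative G ≠ 0 := fun h => hd0 (natDegree_eq_zero_of_derivative_eq_zero h)
  refine ⟨(derivative G).eval₂ φ a, fun h => ?_, ?_⟩
  · exact Nat.find_min hex' (hdeg ▸ natDegree_derivative_lt hd0)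
      ⟨_, hG', Ideal.mem_bot.1 h, rfl⟩
  · have h := D_eval₂_sub_mem φ N hN a G
    rw [hGa, map_zero, zero_sub] at h
    exact neg_mem_iff.1 h

end General

end FLTAgent.BadQ.TwoInst
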