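import Mathlib
import Fermat.Agent.BadQ.TwoInstCharts
import Fermat.Agent.ModularPlaces.Genus

/-!
# Without elliptic points, inclusions of levels do not ramify over finite values of `j`

For `GoodLevel M` only `± 1` fix a point of the upper half plane (`eq_one_or_of_fixed`), so the
order of `j - θ` at a place depends only on `θ` (`ord_jB_sub_eq`); hence a place with `j` finite
lies unramified over one of lower level (`exists_restrict`).
-/

set_option autoImplicit false
set_option linter.style.haveILetI false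
set_option linter.unusedSectionVars false

noncomputable section

open Polynomial AlgebraicCurve ModularCurve

namespace FLTAgent.BadQ.TwoInst

open FLTAgent.ModularPlaces
open scoped MatrixGroups

local notation "Qb" => AlgebraicClosure ℚ

theorem no_trace_mod (M : ℕ) (hM : GoodLevel M) {a d t : ℤ} (ht : a + d = t) (ht0 : -1 ≤ t)
    (ht1 : t ≤ 1) (h : (M : ℤ) ∣ a * d - 1) : False := by
  have hd : d = t - a := by omega
  have k4 : ∀ x : ZMod 4,
      x * (-1 - x) - 1 ≠ 0 ∧ x * (0 - x) - 1 ≠ 0 ∧ x * (1 - x) - 1 ≠ 0 := by decide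
  have k9 : ∀ x : ZMod 9,
      x * (-1 - x) - 1 ≠ 0 ∧ x * (0 - x) - 1 ≠ 0 ∧ x * (1 - x) - 1 ≠ 0 := by decide
  have htc : t = -1 ∨ t = 0 ∨ t = 1 := by omega
  subst hd
  rcases hM with h4 | h9
  · have h' := (ZMod.intCast_zmod_eq_zero_iff_dvd _ 4).2
      ((Int.natCast_dvd_natCast.2 h4).trans h)
    push_cast at h'
    have := k4 (a : ZMod 4)
    rcases htc with rfl | rfl | rfl <;> push_cast at h' <;> simp_all
  · have h' := (ZMod.intCast_zmod_eq_zero_iff_dvd _ 9).2
      ((Int.natCast_dvd_natCast.2 h9).trans h)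
    push_cast at h'
    have := k9 (a : ZMod 9)
    rcases htc with rfl | rfl | rfl <;> push_cast at h' <;> simp_all

theorem smul_eq_self_eqs (g : SL(2, ℤ)) (z : UpperHalfPlane) (h : g • z = z) :
    (g 0 0 : ℝ) = 2 * (g 1 0 : ℝ) * z.re + (g 1 1 : ℝ) ∧
      (g 0 1 : ℝ) = -(g 1 0 : ℝ) * (z.re ^ 2 + z.im ^ 2) := by
  have h1 := congrArg (fun w : UpperHalfPlane => (w : ℂ)) h
  simp only [UpperHalfPlane.coe_specialLinearGroup_apply, algebraMap_int_eq, eq_intCast,
    Complex.ofReal_intCast] at h1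
  have hne : ((g 1 0 : ℂ)) * (z : ℂ) + (g 1 1 : ℂ) ≠ 0 := by
    intro h0
    rw [h0, div_zero] at h1
    exact UpperHalfPlane.ne_zero z h1.symm
  rw [div_eq_iff hne] at h1
  have hre := congrArg Complex.re h1
  have him := congrArg Complex.im h1
  simp only [Complex.add_re, Complex.add_im, Complex.mul_re, Complex.mul_im, Complex.intCast_re,
    Complex.intCast_im, UpperHalfPlane.coe_re, UpperHalfPlane.coe_im, zero_mul, add_zero,
    sub_zero] at hre him
  have hy : z.im ≠ 0 := z.im_ne_zero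
  have e1 : (g 0 0 : ℝ) = 2 * (g 1 0 : ℝ) * z.re + (g 1 1 : ℝ) :=
    mul_right_cancel₀ hy (by linear_combination him)
  exact ⟨e1, by rw [e1] at hre; linear_combination hre⟩

/-- Only `± 1` fix a point. -/
theorem eq_one_or_of_fixed {M N : ℕ} (hM : GoodLevel M) (hN : M ∣ N)
    {g : SL(2, ℤ)} (hg : g ∈ CongruenceSubgroup.Gamma0 N) {z : UpperHalfPlane} (h : g • z = z) :
    g = 1 ∨ g = -1 := by
  obtain ⟨e1, e2⟩ := smul_eq_self_eqs g z h
  have hdet : g 0 0 * g 1 1 - g 0 1 * g 1 0 = 1 :=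
    (Matrix.det_fin_two (g : Matrix (Fin 2) (Fin 2) ℤ)).symm.trans g.det_coe
  have hdetR : (g 0 0 : ℝ) * (g 1 1 : ℝ) - (g 0 1 : ℝ) * (g 1 0 : ℝ) = 1 := by exact_mod_cast hdet
  rcases eq_or_ne (g 1 0) 0 with hc | hc
  · have hb : g 0 1 = 0 := by
      have : (g 0 1 : ℝ) = 0 := by rw [e2, hc]; simp
      exact_mod_cast this
    have had : g 0 0 = g 1 1 := by
      have : (g 0 0 : ℝ) = (g 1 1 : ℝ) := by rw [e1, hc]; simp
      exact_mod_cast this
    rw [hb, zero_mul, sub_zero, ← had] at hdet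
    rcases mul_self_eq_one_iff.1 hdet with ha | ha
    · left
      ext i j
      fin_cases i <;> fin_cases j <;> simp [ha, hb, hc, ← had]
    · right
      ext i j
      fin_cases i <;> fin_cases j <;> simp [ha, hb, hc, ← had]
  · exfalso
    have hcR : (g 1 0 : ℝ) ≠ 0 := by exact_mod_cast hc
    have hlt : ((g 0 0 + g 1 1 : ℤ) : ℝ) ^ 2 < 4 := by
      push_cast
      have hpos : 0 < (g 1 0 : ℝ) ^ 2 * z.im ^ 2 := by have := z.im_pos; positivity
      rw [e1] at hdetR ⊢
      rw [e2] at hdetR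
      nlinarith
    have hlt' : (g 0 0 + g 1 1) ^ 2 < 4 := by exact_mod_cast hlt
    refine no_trace_mod M hM (a := g 0 0) (d := g 1 1) rfl (by nlinarith) (by nlinarith) ?_
    rw [CongruenceSubgroup.Gamma0_mem] at hg
    have hMc : (M : ℤ) ∣ g 1 0 := dvd_trans (Int.natCast_dvd_natCast.2 hN)
      ((ZMod.intCast_zmod_eq_zero_iff_dvd _ _).1 hg)
    rw [show g 0 0 * g 1 1 - 1 = g 0 1 * g 1 0 by linarith]
    exact dvd_mul_of_dvd_right hMc _

theorem ellOrder_eq_one {M N : ℕ} [NeZero N] (hM : GoodLevel M) (hN : M ∣ N) (z : UpperHalfPlane) :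
    Modular.ellOrder N z = 1 := by
  classical
  have hcard : Nat.card {γ : CongruenceSubgroup.Gamma0 N // (γ : SL(2, ℤ)) • z = z} ≤ 2 := by
    refine (Nat.card_le_card_of_injective
      (fun γ => if (γ.1 : SL(2, ℤ)) = 1 then (0 : Fin 2) else 1) fun x y hxy => ?_).trans
      (Nat.card_fin 2).le
    rcases eq_one_or_of_fixed hM hN x.1.2 x.2 with hx | hx <;>
      rcases eq_one_or_of_fixed hM hN y.1.2 y.2 with hy | hy <;>
      simp only at hxy <;> refine Subtype.ext (Subtype.ext (hx.trans ?_)) <;> rw [hy]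
    all_goals
      exfalso
      rw [hx, hy] at hxy
      have hne : (-1 : SL(2, ℤ)) ≠ 1 := by decide
      simp [hne] at hxy
  have h1 := ModularPlaces.card_fixed_eq N z
  have h2 := ModularPlaces.ellOrder_pos N z
  omega

/-- Over a finite value of `j` the order of `j - θ` depends only on `θ`. -/
theorem ord_jB_sub_eq {M N : ℕ} [NeZero N] (hM : GoodLevel M) (hN : M ∣ N)
    (v : Place Qb (modularFunctionFieldBar N)) (θ : Qb)
    (hv : 0 < v.ord (jB N - algebraMap _ _ θ)) (z : UpperHalfPlane)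
    (hz : ModularPlaces.jE z = ModularCosets.iotaBar θ) :
    v.ord (jB N - algebraMap _ _ θ) = Modular.ellOrder 1 z := by
  rw [← ord_placeExt_jB_sub N ModularCosets.iotaBar, ← hz] at hv ⊢
  obtain ⟨x, hx⟩ := exists_placeZ_eq (Torsion.placeExt ModularCosets.iotaBar v) z hv
  induction x using QuotientGroup.induction_on with
  | _ γ =>
    have hx' : fibreMap z (γ : Cos N) = Torsion.placeExt ModularCosets.iotaBar v := hx
    have h := degZ_mul_ord (N := N) z γ
    rw [degZ_eq, ellOrder_eq_one hM hN, hx', Nat.cast_one, one_mul] at h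
    exact h

theorem exists_theta {N : ℕ} [NeZero N] (v : Place Qb (modularFunctionFieldBar N))
    (h : 0 ≤ v.ord (jB N)) : ∃ θ : Qb, 0 < v.ord (jB N - algebraMap _ _ θ) := by
  obtain ⟨c, hc | hc⟩ := FF.exists_residue v (FF.mem_iff v _ |>.2 (Or.inr h))
  · exact absurd (hc ▸ isAlgebraic_algebraMap c) (transcendental_jB N)
  · exact ⟨c, hc⟩

/-! ### Restriction along an inclusion of levels -/

variable {N N' : ℕ} [NeZero N] [NeZero N'] (h : N ∣ N')

include h in
theorem bar_le : modularFunctionFieldBar N ≤ modularFunctionFieldBar N' := fun _ hx =>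
  mem_bar_iff.2 (full_degeneracyC_le Qb h (mem_bar_iff.1 hx))

/-- `f (z) ↦ f (z)` over `ℚ̄`. -/
def inclBar : modularFunctionFieldBar N →ₐ[Qb] modularFunctionFieldBar N' :=
  IntermediateField.inclusion (bar_le h)

theorem coe_inclBar (x : modularFunctionFieldBar N) :
    ((inclBar h x : modularFunctionFieldBar N') : LaurentSeries Qb) = (x : LaurentSeries Qb) :=
  IntermediateField.coe_inclusion (bar_le h) x

theorem coe_jB' : ((jB N : modularFunctionFieldBar N) : LaurentSeries Qb) = coeffEmb Qb jq := by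
  simp only [jB]

theorem inclBar_jB : inclBar h (jB N) = jB N' :=
  Subtype.ext ((coe_inclBar h (jB N)).trans ((coe_jB' (N := N)).trans (coe_jB' (N := N')).symm))

theorem inclBar_coe {A : ValuationSubring Qb} (y : Fn A N) :
    inclBar h (y : modularFunctionFieldBar N) = ((incl h y : Fn A N') : modularFunctionFieldBar N') :=
  Subtype.ext ((coe_inclBar h _).trans (coe_incl h y).symm)

/-- Restriction of a place along a map of function fields: the signs of the orders. -/
theorem exists_restrict_sign {K E E' : Type*} [Field K] [IsAlgClosed K] [Field E] [Algebra K E]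
    [FF.IsFF K E] [Field E'] [Algebra K E'] (f : E →ₐ[K] E') (w : Place K E') {u : E}
    (hu : 0 < w.ord (f u)) :
    ∃ v : Place K E, 0 < v.ord u ∧ ∀ x : E, x ≠ 0 → (0 ≤ v.ord x ↔ 0 ≤ w.ord (f x)) := by
  have hu0 : u ≠ 0 := fun h0 => by rw [h0, map_zero, Place.ord_zero] at hu; exact lt_irrefl _ hu
  set B : ValuationSubring E := w.toValuationSubring.comap f.toRingHom
  have hmemB : ∀ x, x ∈ B ↔ f x ∈ w.toValuationSubring := fun x => Iff.rfl
  have hf : ∀ x : E, x ≠ 0 → f x ≠ 0 := fun x hx => (_root_.map_ne_zero f).2 hx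
  have hne : B ≠ ⊤ := by
    intro hB
    have h1 : f u⁻¹ ∈ w.toValuationSubring := (hmemB _).1 (hB ▸ ValuationSubring.mem_top _)
    rw [map_inv₀, FF.mem_iff, w.ord_inv] at h1
    rcases h1 with h1 | h1
    · rw [inv_eq_zero] at h1
      exact hu0 ((_root_.map_eq_zero f).1 h1)
    · omega
  obtain ⟨v, hv⟩ := FF.exists_place_eq B
    (fun a => (hmemB _).2 (by rw [AlgHom.commutes]; exact w.algebraMap_mem' a)) hne
  have hsign : ∀ x, x ≠ 0 → (0 ≤ v.ord x ↔ 0 ≤ w.ord (f x)) := by
    intro x hx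
    rw [← FF.mem_iff_ord_nonneg v hx, hv, hmemB,
      FF.mem_iff_ord_nonneg w (hf x hx)]
  refine ⟨v, ?_, hsign⟩
  have h1 := (hsign u hu0).2 hu.le
  have h2 := hsign u⁻¹ (inv_ne_zero hu0)
  rw [v.ord_inv, map_inv₀, w.ord_inv] at h2
  rcases lt_or_eq_of_le h1 with h3 | h3
  · exact h3
  · have := h2.1 (by omega)
    omega

/-- A place lying over one with the same order at a local parameter power is unramified. -/
theorem exists_restrict_aux {K E E' : Type*} [Field K] [IsAlgClosed K] [Field E] [Algebra K E]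
    [FF.IsFF K E] [Field E'] [Algebra K E'] (f : E →ₐ[K] E') (w : Place K E') {u : E}
    (hu : 0 < w.ord (f u)) (key : ∀ v : Place K E, 0 < v.ord u → v.ord u = w.ord (f u)) :
    ∃ v : Place K E, ∀ x : E, w.ord (f x) = v.ord x := by
  have hu0 : u ≠ 0 := fun h0 => by rw [h0, map_zero, Place.ord_zero] at hu; exact lt_irrefl _ hu
  have hf : ∀ x : E, x ≠ 0 → f x ≠ 0 := fun x hx => (_root_.map_ne_zero f).2 hx
  obtain ⟨v, hvu, hsign⟩ := exists_restrict_sign f w hu
  refine ⟨v, ?_⟩
  have hk := key v hvu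
  intro x
  rcases eq_or_ne x 0 with rfl | hx
  · rw [map_zero, Place.ord_zero, Place.ord_zero]
  set k := w.ord (f u)
  set n := v.ord x
  set y : E := x ^ k * u ^ (-n)
  have hy : y ≠ 0 := mul_ne_zero (zpow_ne_zero _ hx) (zpow_ne_zero _ hu0)
  have hvy : v.ord y = 0 := by
    rw [v.ord_mul (zpow_ne_zero _ hx) (zpow_ne_zero _ hu0), v.ord_zpow, v.ord_zpow, hk]
    ring
  have h1 : 0 ≤ w.ord (f y) := (hsign y hy).1 hvy.ge
  have h2 : 0 ≤ w.ord (f y⁻¹) := (hsign _ (inv_ne_zero hy)).1 (by rw [v.ord_inv, hvy]; omega)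
  rw [map_inv₀, w.ord_inv] at h2
  have h3 : w.ord (f y) = 0 := by omega
  rw [map_mul, map_zpow₀, map_zpow₀, w.ord_mul
    (zpow_ne_zero _ (hf x hx)) (zpow_ne_zero _ (hf u hu0)),
    w.ord_zpow, w.ord_zpow] at h3
  exact mul_left_cancel₀ hu.ne' (by linarith)

/-- A place of level `N'` lies over a place of level `N` without ramification, if `j` is finite. -/
theorem exists_restrict {M : ℕ} (hM : GoodLevel M) (hMN : M ∣ N)
    (w : Place Qb (modularFunctionFieldBar N')) (hj : 0 ≤ w.ord (jB N')) :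
    ∃ v : Place Qb (modularFunctionFieldBar N),
      ∀ x : modularFunctionFieldBar N, w.ord (inclBar h x) = v.ord x := by
  obtain ⟨θ, hθ⟩ := exists_theta w hj
  have hu' : inclBar h (jB N - algebraMap _ _ θ) = jB N' - algebraMap _ _ θ := by
    rw [map_sub, inclBar_jB, AlgHom.commutes]
  obtain ⟨z, hz⟩ := exists_jE_eq (ModularCosets.iotaBar θ)
  refine exists_restrict_aux (inclBar h) w (u := jB N - algebraMap _ _ θ) (by rw [hu']; exact hθ)
    fun v hv => ?_
  rw [hu', ord_jB_sub_eq hM hMN v θ hv z hz, ord_jB_sub_eq hM (hMN.trans h) w θ hθ z hz]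

end FLTAgent.BadQ.TwoInst
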