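import Mathlib
import Fermat.Agent.BadQ.TwoInstCharts
import Fermat.Agent.BadQ.TwoInstEtaleAlg
import Fermat.Agent.BadQ.TwoInstEtaleLocal
import Fermat.Agent.BadQ.TwoInstEtalePlaces
import Fermat.Agent.BadQ.TwoInstPole
import Fermat.Agent.TwoChart.Residue

/-!
# Level `qM` over level `M` is unramified off the cusps on the generic fibre

`etale_alpha0`: at a prime of the chart of level `qM` containing neither `q` nor the coordinate,
differentials are locally spanned by those of functions of level `M`. A place there lies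
unramified over level `M` as there are no elliptic points, so a parameter from below generates the
prime and residues are separable.
-/

set_option autoImplicit false
set_option linter.style.haveILetI false
set_option linter.unusedSectionVars false
set_option synthInstance.maxHeartbeats 400000
set_option maxHeartbeats 1000000

noncomputable section

open Polynomial AlgebraicCurve ModularCurve

namespace FLTAgent.BadQ.TwoInst

open FLTAgent.ModularPlaces

local notation "Qb" => AlgebraicClosure ℚ

variable {A : ValuationSubring Qb} {q : ℕ} [Fact q.Prime] (hA : A.LiesOverPrime q)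
  (M : ℕ) [NeZero M] (b : Bool)

/-- The functions of level `qM` coming from level `M`. -/
abbrev fromBelow : Submodule (chart1 A q M b) (KaehlerDifferential (W0 A) (chart1 A q M b)) :=
  Submodule.span (chart1 A q M b)
    (Set.range fun y : chart0 A M b =>
      KaehlerDifferential.D (W0 A) (chart1 A q M b) (alpha0 A q M b y))

theorem D_alpha0_mem (x : chart0 A M b) :
    KaehlerDifferential.D (W0 A) (chart1 A q M b) (alpha0 A q M b x) ∈ fromBelow M b :=
  Submodule.subset_span ⟨x, rfl⟩

theorem alpha0_injective : Function.Injective (alpha0 A q M b) := fun x y h =>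
  Subtype.ext ((incl (dvd_qM q M)).toRingHom.injective
    ((coe_alpha0 M b x).symm.trans ((congrArg Subtype.val h).trans (coe_alpha0 M b y))))

theorem exists_eval₂_eq_zero (a : chart1 A q M b) :
    ∃ G : (chart0 A M b)[X], G ≠ 0 ∧ G.eval₂ (alpha0 A q M b).toRingHom a = 0 := by
  let φ : chart0 A M b →+* Fn A (q * M) :=
    (chart1 A q M b).val.toRingHom.comp (alpha0 A q M b).toRingHom
  have hφ : ∀ c ∈ Algebra.adjoin (W0 A) ({incl (dvd_qM q M) (coord A M b)} : Set (Fn A (q * M))),
      c ∈ φ.range := by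
    intro c hc
    refine (Algebra.adjoin_le (S := ((chart1 A q M b).val.comp (alpha0 A q M b)).range) ?_) hc
    rintro _ rfl
    exact ⟨⟨coord A M b, TwoChart.subset_intCl _ rfl⟩, coe_alpha0 M b _⟩
  obtain ⟨p, hp, hp0⟩ := a.2
  have hlift : p.map (Algebra.adjoin (W0 A)
      ({incl (dvd_qM q M) (coord A M b)} : Set (Fn A (q * M)))).val.toRingHom ∈ lifts φ := by
    rw [lifts_iff_coeff_lifts]
    intro n
    rw [coeff_map]
    exact hφ _ (p.coeff n).2
  obtain ⟨G₀, hG₀, -, hG₀m⟩ := lifts_and_degree_eq_and_monic hlift (hp.map _)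
  refine ⟨G₀, hG₀m.ne_zero, Subtype.val_injective ?_⟩
  have h1 : eval₂ φ (a : Fn A (q * M)) G₀ = 0 := by
    rw [← eval_map, hG₀, eval_map]
    exact hp0
  exact (hom_eval₂ G₀ _ (chart1 A q M b).val.toRingHom a).trans (h1.trans rfl)

/-- At the generic point. -/
theorem etale_bot (a : chart1 A q M b) :
    ∃ s ∉ (⊥ : Ideal (chart1 A q M b)),
      s • KaehlerDifferential.D (W0 A) (chart1 A q M b) a ∈ fromBelow M b := by
  haveI : CharZero (chart1 A q M b) :=
    ⟨fun m n h => Nat.cast_injective (R := Fn A (q * M))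
      (by simpa using congrArg (chart1 A q M b).val.toRingHom h)⟩
  exact exists_smul_D_mem_of_algebraic (alpha0 A q M b).toRingHom (alpha0_injective M b)
    (fromBelow M b) (D_alpha0_mem M b) a (exists_eval₂_eq_zero M b a)

variable (hM : GoodLevel M)

include hM in
/-- A place of level `qM` at which the coordinate is a unit lies unramified over level `M`. -/
theorem exists_place_below (w : Place Qb (modularFunctionFieldBar (q * M)))
    (ht : w.ord ((incl (dvd_qM q M) (tFn A M) : Fn A (q * M)) :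
      modularFunctionFieldBar (q * M)) = 0) :
    ∃ v : Place Qb (modularFunctionFieldBar M),
      ∀ x : modularFunctionFieldBar M, w.ord (inclBar (dvd_qM q M) x) = v.ord x := by
  refine exists_restrict (dvd_qM q M) hM dvd_rfl w ?_
  by_contra hneg
  rw [not_le] at hneg
  have hu : 0 < w.ord (inclBar (dvd_qM q M) (jB M)⁻¹) := by
    rw [map_inv₀, inclBar_jB, w.ord_inv]
    omega
  obtain ⟨v, hv, hsign⟩ := exists_restrict_sign (inclBar (dvd_qM q M)) w hu
  rw [v.ord_inv] at hv
  set t : modularFunctionFieldBar M := ((tFn A M : Fn A M) : modularFunctionFieldBar M)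
  have ht0 : t ≠ 0 := fun h => ord_tFn_ne_zero (A := A) hM.two_le v (by omega) (by
    show v.ord t = 0
    rw [h, Place.ord_zero])
  have ht' : w.ord (inclBar (dvd_qM q M) t) = 0 := by rw [inclBar_coe]; exact ht
  have h1 := (hsign t ht0).2 ht'.ge
  have h2 := (hsign t⁻¹ (inv_ne_zero ht0)).2 (by rw [map_inv₀, w.ord_inv, ht', neg_zero])
  rw [v.ord_inv] at h2
  exact ord_tFn_ne_zero (A := A) hM.two_le v (by omega) (show v.ord t = 0 by omega)

variable (P : Ideal (chart1 A q M b)) [hP : P.IsPrime]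

include hM in
theorem ord_tFn_eq_zero {w : Place Qb (modularFunctionFieldBar (q * M))} (hw : OverPrime P w)
    (hs : ∀ y : chart1 A q M b, (y : Fn A (q * M)) = incl (dvd_qM q M) (coord A M b) → y ∉ P) :
    w.ord ((incl (dvd_qM q M) (tFn A M) : Fn A (q * M)) : modularFunctionFieldBar (q * M)) = 0 := by
  let yT : chart1 A q M b := ⟨_, TwoChart.subset_intCl _ (Set.mem_singleton
    (incl (dvd_qM q M) (coord A M b)))⟩
  have hyT : yT ∉ P := hs yT rfl
  have h0 : yT ≠ 0 := fun h => hyT (h ▸ P.zero_mem)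
  obtain ⟨h1, h2⟩ := hw yT h0
  have h3 : w.ord ((incl (dvd_qM q M) (coord A M b) : Fn A (q * M)) :
      modularFunctionFieldBar (q * M)) = 0 :=
    le_antisymm (le_of_not_gt fun h => hyT (h1.2 h)) h2
  cases b
  · change w.ord ((incl (dvd_qM q M) (tFn A M)⁻¹ : Fn A (q * M)) :
      modularFunctionFieldBar (q * M)) = 0 at h3
    rw [map_inv₀, IntermediateField.coe_inv, w.ord_inv] at h3
    omega
  · exact h3

include hA in
theorem exists_ord_one {N : ℕ} [NeZero N] {y : Fn A N} (hy : Transcendental (K0 A) y)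
    (P₀ : Ideal (TwoChart.intCl (W0 A) ({y} : Set (Fn A N)))) [P₀.IsPrime]
    (hq : (q : TwoChart.intCl (W0 A) ({y} : Set (Fn A N))) ∉ P₀)
    {v : Place Qb (modularFunctionFieldBar N)} (hov : OverPrime P₀ v) :
    ∃ z : TwoChart.intCl (W0 A) ({y} : Set (Fn A N)), z ∈ P₀ ∧
      v.ord ((z : Fn A N) : modularFunctionFieldBar N) = 1 := by
  obtain ⟨f, hf, hf0, hf1⟩ := TwoChart.exists_fixed_ord_one (F₀ := modularFunctionFieldFull N)
    (I := inert A) v
  set x : Fn A N := ⟨f, hf⟩
  have hx0 : x ≠ 0 := fun h => hf0 (congrArg Subtype.val h)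
  haveI := isFractionRing_chart hA hy
  have hP₀ : P₀ ≠ ⊥ := by
    intro hbot
    obtain ⟨c, d, hd, hcd⟩ :=
      IsFractionRing.div_surjective (TwoChart.intCl (W0 A) ({y} : Set (Fn A N))) x
    have hd0 : d ≠ 0 := nonZeroDivisors.ne_zero hd
    have hc0 : c ≠ 0 := fun h => hx0 (by rw [← hcd, h, map_zero, zero_div])
    have hz : ∀ z : TwoChart.intCl (W0 A) ({y} : Set (Fn A N)), z ≠ 0 →
        v.ord ((z : Fn A N) : modularFunctionFieldBar N) = 0 :=
      fun z hz => le_antisymm (le_of_not_gt fun h => hz (by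
        have h2 : z ∈ P₀ := (hov z hz).1.2 h
        rwa [hbot, Ideal.mem_bot] at h2)) (hov z hz).2
    have hcd' : f = ((c : Fn A N) : modularFunctionFieldBar N) /
        ((d : Fn A N) : modularFunctionFieldBar N) := (congrArg Subtype.val hcd).symm
    rw [hcd', FF.ord_div _ (fun h => hc0 (Subtype.ext (Subtype.ext h)))
      (fun h => hd0 (Subtype.ext (Subtype.ext h))), hz c hc0, hz d hd0] at hf1
    omega
  obtain ⟨s₀, hs₀, z, hz⟩ := exists_mul_eq_of_ord_nonneg hA hy P₀ hq hP₀ hov hx0
    (by show (0 : ℤ) ≤ v.ord f; omega)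
  have hs00 : s₀ ≠ 0 := fun h => hs₀ (h ▸ P₀.zero_mem)
  have hzord : v.ord ((z : Fn A N) : modularFunctionFieldBar N) = 1 := by
    rw [← hz, IntermediateField.coe_mul,
      v.ord_mul (fun h => hs00 (Subtype.ext (Subtype.ext h))) hf0, hf1,
      le_antisymm (le_of_not_gt fun h => hs₀ ((hov s₀ hs00).1.2 h)) (hov s₀ hs00).2, zero_add]
  have hz0 : z ≠ 0 := fun h => by
    rw [h, ZeroMemClass.coe_zero, ZeroMemClass.coe_zero, Place.ord_zero] at hzord
    omega
  exact ⟨z, (hov z hz0).1.2 (by omega), hzord⟩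

include hA in
theorem exists_mul_eq_of_ord_one {N : ℕ} [NeZero N] {y : Fn A N} (hy : Transcendental (K0 A) y)
    (P₁ : Ideal (TwoChart.intCl (W0 A) ({y} : Set (Fn A N)))) [hP₁ : P₁.IsPrime]
    (hq : (q : TwoChart.intCl (W0 A) ({y} : Set (Fn A N))) ∉ P₁) (h0 : P₁ ≠ ⊥)
    {w : Place Qb (modularFunctionFieldBar N)} (hw : OverPrime P₁ w)
    {g : TwoChart.intCl (W0 A) ({y} : Set (Fn A N))}
    (hg : w.ord ((g : Fn A N) : modularFunctionFieldBar N) = 1)
    {p : TwoChart.intCl (W0 A) ({y} : Set (Fn A N))} (hp : p ∈ P₁) :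
    ∃ s ∉ P₁, ∃ c, s * p = c * g := by
  rcases eq_or_ne p 0 with rfl | hp0
  · exact ⟨1, hP₁.one_notMem, 0, by rw [mul_zero, zero_mul]⟩
  have hgF : (g : Fn A N) ≠ 0 := fun h => by
    rw [h, ZeroMemClass.coe_zero, Place.ord_zero] at hg
    omega
  have hpF : (p : Fn A N) ≠ 0 := fun h => hp0 (Subtype.ext h)
  obtain ⟨s, hs', c, hc⟩ := exists_mul_eq_of_ord_nonneg hA hy P₁ hq h0 hw
    (x := (p : Fn A N) / (g : Fn A N)) (div_ne_zero hpF hgF) (by
      rw [IntermediateField.coe_div, FF.ord_div _ (fun h => hpF (Subtype.ext h))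
        (fun h => hgF (Subtype.ext h)), hg]
      have := (hw p hp0).1.1 hp
      omega)
  refine ⟨s, hs', c, Subtype.ext ?_⟩
  rw [mul_div_assoc', div_eq_iff hgF] at hc
  exact hc

include hA hM in
theorem exists_generator (hq : (q : chart1 A q M b) ∉ P) (h0 : P ≠ ⊥)
    {w : Place Qb (modularFunctionFieldBar (q * M))} (hw : OverPrime P w)
    (hs : ∀ y : chart1 A q M b, (y : Fn A (q * M)) = incl (dvd_qM q M) (coord A M b) → y ∉ P) :
    ∃ z : chart0 A M b, alpha0 A q M b z ∈ P ∧
      ∀ p ∈ P, ∃ s ∉ P, ∃ c, s * p = c * alpha0 A q M b z := by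
  obtain ⟨v, hv⟩ := exists_place_below M hM w (ord_tFn_eq_zero M b hM P hw hs)
  have hord : ∀ z : chart0 A M b,
      v.ord ((z : Fn A M) : modularFunctionFieldBar M) =
        w.ord ((alpha0 A q M b z : Fn A (q * M)) : modularFunctionFieldBar (q * M)) := fun z => by
    rw [← hv, inclBar_coe, coe_alpha0]
  have hov : OverPrime (y := coord A M b) (P.comap (alpha0 A q M b).toRingHom) v := by
    intro z hz
    have hz' : alpha0 A q M b z ≠ 0 := fun h => hz (alpha0_injective M b (h.trans (map_zero _).symm))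
    obtain ⟨h1, h2⟩ := hw (alpha0 A q M b z) hz'
    rw [Ideal.mem_comap, AlgHom.toRingHom_eq_coe, RingHom.coe_coe, hord z]
    exact ⟨h1, h2⟩
  have hq0 : (q : chart0 A M b) ∉ P.comap (alpha0 A q M b).toRingHom := fun h => hq (by
    rw [Ideal.mem_comap, map_natCast] at h
    exact h)
  obtain ⟨z, hzP, hz⟩ := exists_ord_one hA (transcendental_coord A hM.two_le b) _ hq0 hov
  have hzP' : alpha0 A q M b z ∈ P := by
    have h := Ideal.mem_comap.1 hzP
    rw [AlgHom.toRingHom_eq_coe, RingHom.coe_coe] at h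
    exact h
  have hg : w.ord ((alpha0 A q M b z : Fn A (q * M)) : modularFunctionFieldBar (q * M)) = 1 := by
    rw [← hord z]
    exact hz
  refine ⟨z, hzP', fun p hp => ?_⟩
  exact exists_mul_eq_of_ord_one (y := incl (dvd_qM q M) (coord A M b)) hA
    (transcendental_incl_coord A hM.two_le b (dvd_qM q M)) P hq h0 (w := w) hw
    (g := alpha0 A q M b z) hg (p := p) hp

include hA in
theorem exists_separable_poly {w : Place Qb (modularFunctionFieldBar (q * M))} (hw : OverPrime P w) (a : chart1 A q M b) :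
    ∃ H : (W0 A)[X], aeval a H ∈ P ∧ aeval a (derivative H) ∉ P := by
  let j : chart1 A q M b →+* modularFunctionFieldBar (q * M) :=
    (Fn A (q * M)).val.toRingHom.comp (chart1 A q M b).val.toRingHom
  have hj0 : ∀ z, z ≠ 0 → j z ≠ 0 := fun z hz h => hz (Subtype.ext (Subtype.ext h))
  have hjB : ∀ z, j z ∈ w.toValuationSubring.toSubring := fun z => by
    rcases eq_or_ne z 0 with rfl | hz
    · rw [map_zero]; exact zero_mem _
    · exact (FF.mem_iff_ord_nonneg w (hj0 z hz)).2 (hw z hz).2
  let χ : chart1 A q M b →+* Qb :=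
    (TwoChart.evalAt w).comp (j.codRestrict w.toValuationSubring.toSubring hjB)
  have hχ : ∀ z, χ z = TwoChart.rv w (j z) := fun z => (TwoChart.rv_of_mem w _).symm
  have hker : ∀ z, χ z = 0 ↔ z ∈ P := by
    intro z
    rcases eq_or_ne z 0 with rfl | hz
    · simp
    constructor
    · intro h
      rw [hχ] at h
      refine (hw z hz).1.2 (lt_of_le_of_ne (hw z hz).2 fun he => ?_)
      exact TwoChart.rv_ne_zero w (hj0 z hz) he.symm h
    · intro h
      by_contra hne
      rw [hχ, TwoChart.rv_eq_zero_iff w (hjB z), IsLocalRing.mem_maximalIdeal, mem_nonunits_iff,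
        not_not, ← w.adicValuation_coe_eq_one_iff, FF.val_eq_exp w (hj0 z hz),
        WithZero.exp_eq_one, neg_eq_zero] at hne
      exact ((hw z hz).1.1 h).ne' hne
  have hχW : χ.comp (algebraMap (W0 A) (chart1 A q M b)) = algebraMap (W0 A) Qb := RingHom.ext fun c => by
    rw [RingHom.comp_apply, hχ]
    exact TwoChart.rv_algebraMap w ((c : K0 A) : Qb)
  haveI : Algebra.IsIntegral (K0 A) Qb := ⟨TwoChart.isIntegral_fixedK (I := inert A)⟩
  set θ : Qb := χ a
  have hg := Algebra.IsIntegral.isIntegral (R := K0 A) θ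
  obtain ⟨d, hd, hdp⟩ :=
    IsLocalization.integerNormalization_spec (nonZeroDivisors (W0 A)) (minpoly (K0 A) θ)
  set H := IsLocalization.integerNormalization (nonZeroDivisors (W0 A)) (minpoly (K0 A) θ)
  have hmap : H.map (algebraMap (W0 A) (K0 A)) = C (d : K0 A) * minpoly (K0 A) θ := by
    rw [hdp, ← smul_eq_C_mul]
    rfl
  have hev : ∀ G : (W0 A)[X], χ (aeval a G) = aeval θ (G.map (algebraMap (W0 A) (K0 A))) := by
    intro G
    rw [aeval_def, hom_eval₂, hχW, aeval_map_algebraMap, aeval_def]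
  refine ⟨H, (hker _).1 ?_, fun h => ?_⟩
  · rw [hev, hmap, map_mul, minpoly.aeval, mul_zero]
  · have h1 := (hker _).2 h
    rw [hev, ← derivative_map, hmap, derivative_C_mul, map_mul, aeval_C, mul_eq_zero] at h1
    rcases h1 with h1 | h1
    · exact nonZeroDivisors.ne_zero hd (Subtype.ext ((_root_.map_eq_zero _).1 h1))
    · exact (minpoly.irreducible hg).separable.aeval_derivative_ne_zero (minpoly.aeval _ θ) h1

set_option maxHeartbeats 4000000 in
omit hM hP in
/-- **Unramified off the cusps**: differentials come locally from level `M`. -/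
theorem etale_alpha0 {A : ValuationSubring Qb} {q : ℕ} [Fact q.Prime] (hA : A.LiesOverPrime q)
    (M : ℕ) [NeZero M] (hqM : ¬ q ∣ M) (hM : GoodLevel M) (b : Bool)
    (P : Ideal (chart1 A q M b)) (hP : P.IsPrime) (hq : (q : chart1 A q M b) ∉ P)
    (hs : ∀ y : chart1 A q M b, (y : Fn A (q * M)) = incl (dvd_qM q M) (coord A M b) → y ∉ P)
    (a : chart1 A q M b) :
    ∃ s ∉ P, s • KaehlerDifferential.D (W0 A) (chart1 A q M b) a ∈
      Submodule.span (chart1 A q M b)
        (Set.range fun y : chart0 A M b =>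
          KaehlerDifferential.D (W0 A) (chart1 A q M b) (alpha0 A q M b y)) := by
  rcases eq_or_ne P ⊥ with h0 | h0
  · subst h0
    exact etale_bot (A := A) (q := q) M b a
  have hy1 := transcendental_incl_coord A hM.two_le b (dvd_qM q M)
  haveI : Algebra.FiniteType (W0 A) (chart1 A q M b) := finiteType_chart hA hy1
  haveI hess : Algebra.EssFiniteType (W0 A) (chart1 A q M b) := inferInstance
  haveI := hP
  obtain ⟨w, hw⟩ := @exists_place_prime A q ‹_› hA (q * M) _ (incl (dvd_qM q M) (coord A M b)) hy1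
    P hP hq h0
  have hgen := exists_generator (A := A) (q := q) hA M b hM P hq h0 (w := w) hw hs
  refine hgen.elim fun z hz => ?_
  exact exists_smul_mem_of_local P (fromBelow M b) (fun a =>
    exists_smul_D_mem P (fromBelow M b) (exists_separable_poly hA M b P hw)
      (D_alpha0_mem M b z) hz.1 hz.2 a) _

end FLTAgent.BadQ.TwoInst
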