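import Mathlib
import Fermat.Agent.BadQ.TwoDefs
import Fermat.Agent.BadQ.TwoInstCusp
import Fermat.Agent.BadQ.TwoInstDer
import Fermat.Agent.BadQ.TwoInstEtale

/-!
# Assembly of the step from level `M` to level `qM`

`stepOne` is the `StepData` of the charts `chart0`, `chart1` and the fibre of level `M`. Besides
collecting the fields it proves finiteness of `alpha0` and carries unramifiedness over to `β`
along the involution (`etale_beta0`).
-/

set_option autoImplicit false
set_option linter.style.haveILetI false
set_option linter.unusedSectionVars false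
set_option synthInstance.maxHeartbeats 400000
set_option maxHeartbeats 1000000

noncomputable section

open ModularCurve

namespace FLTAgent.BadQ.TwoInst

local notation "Qb" => AlgebraicClosure ℚ

section Transport

variable {W A B : Type*} [CommRing W] [CommRing A] [CommRing B] [Algebra W A] [Algebra W B]

/-- A span of differentials is carried along a homomorphism. -/
theorem smul_D_mem_map {A' : Type*} [CommRing A'] [Algebra W A'] (f : A →ₐ[W] A') (α : B → A)
    {s x : A} (h : s • KaehlerDifferential.D W A x ∈
      Submodule.span A (Set.range fun b => KaehlerDifferential.D W A (α b))) :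
    f s • KaehlerDifferential.D W A' (f x) ∈
      Submodule.span A' (Set.range fun b => KaehlerDifferential.D W A' (f (α b))) := by
  letI : Algebra A A' := f.toRingHom.toAlgebra
  haveI : IsScalarTower W A A' := IsScalarTower.of_algebraMap_eq fun r => (f.commutes r).symm
  set L := KaehlerDifferential.map W W A A'
  have hD : ∀ y, L (KaehlerDifferential.D W A y) = KaehlerDifferential.D W A' (f y) :=
    fun y => KaehlerDifferential.map_D W W A A' y
  have hle : Submodule.span A (Set.range fun b => KaehlerDifferential.D W A (α b)) ≤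
      ((Submodule.span A' (Set.range fun b => KaehlerDifferential.D W A' (f (α b)))).restrictScalars
        A).comap L := by
    refine Submodule.span_le.2 ?_
    rintro _ ⟨b, rfl⟩
    rw [SetLike.mem_coe, Submodule.mem_comap, Submodule.restrictScalars_mem, hD]
    exact Submodule.subset_span ⟨b, rfl⟩
  have h' := hle h
  rw [Submodule.mem_comap, Submodule.restrictScalars_mem, map_smul, hD,
    ← IsScalarTower.algebraMap_smul A' s] at h'
  exact h'

/-- An unramifiedness statement is transported by an automorphism. -/
theorem exists_smul_D_mem_of_equiv (ι : A ≃ₐ[W] A) (α β : B →ₐ[W] A) (hαβ : ∀ b, ι (α b) = β b)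
    (P : Ideal A) (a : A)
    (h : ∃ s ∉ P.comap ι, s • KaehlerDifferential.D W A (ι.symm a) ∈
      Submodule.span A (Set.range fun b : B => KaehlerDifferential.D W A (α b))) :
    ∃ s ∉ P, s • KaehlerDifferential.D W A a ∈
      Submodule.span A (Set.range fun b : B => KaehlerDifferential.D W A (β b)) := by
  obtain ⟨s, hs, h⟩ := h
  refine ⟨ι s, fun hm => hs (Ideal.mem_comap.2 hm), ?_⟩
  have h' : ι s • KaehlerDifferential.D W A (ι (ι.symm a)) ∈
      Submodule.span A (Set.range fun b : B => KaehlerDifferential.D W A (ι (α b))) :=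
    smul_D_mem_map ι.toAlgHom (fun b => α b) h
  simp only [AlgEquiv.apply_symm_apply, hαβ] at h'
  exact h'

end Transport

variable {A : ValuationSubring Qb} {q : ℕ} [hq : Fact q.Prime] (hA : A.LiesOverPrime q) (M : ℕ)
  [NeZero M] (hqM : ¬ q ∣ M) (hM : GoodLevel M) (b : Bool)

theorem q_ne_zero_chart1 : (q : chart1 A q M b) ≠ 0 := by
  haveI : CharZero (Fn A (q * M)) :=
    charZero_of_injective_algebraMap (algebraMap (K0 A) (Fn A (q * M))).injective
  intro h
  exact Nat.cast_ne_zero.2 hq.out.ne_zero ((map_natCast (chart1 A q M b).val q).symm.trans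
    ((congrArg (chart1 A q M b).val h).trans (map_zero _)))

include hA hM in
theorem alpha0_finite : (alpha0 A q M b).toRingHom.Finite := by
  have ht := transcendental_incl_coord A hM.two_le b (dvd_qM q M)
  refine RingHom.IsIntegral.to_finite (fun x => ?_) ?_
  · have hx : ((chart1 A q M b).val.comp (alpha0 A q M b)).toRingHom.IsIntegralElem x.1 := by
      refine isIntegralElem_of_mem_intCl _ (fun c hc => ?_) x.2
      refine mem_range_of_mem_adjoin ((chart1 A q M b).val.comp (alpha0 A q M b)) ?_ c hc
      intro z hz
      exact ⟨sC A M b, (Set.mem_singleton_iff.1 hz).symm⟩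
    obtain ⟨p, hp, hp0⟩ := hx
    refine ⟨p, hp, ?_⟩
    apply Subtype.val_injective
    exact (Polynomial.hom_eval₂ p _ (chart1 A q M b).val.toRingHom x).trans hp0
  · haveI := finiteType_chart hA ht
    refine RingHom.FiniteType.of_comp_finiteType (f := algebraMap (W0 A) (chart0 A M b)) ?_
    erw [AlgHom.comp_algebraMap (alpha0 A q M b)]
    exact RingHom.finiteType_algebraMap.2 inferInstance

include hA hqM hM in
/-- `β` is unramified off the cusps on the generic fibre. -/
theorem etale_beta0 (P : Ideal (chart1 A q M b)) (hP : P.IsPrime)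
    (hq' : (q : chart1 A q M b) ∉ P)
    (hc : P.comap (beta0 hA M hqM hM b) ∉ cuspSet A q M b) (a : chart1 A q M b) :
    ∃ s ∉ P, s • KaehlerDifferential.D (W0 A) (chart1 A q M b) a ∈
      Submodule.span (chart1 A q M b) (Set.range fun y : chart0 A M b =>
        KaehlerDifferential.D (W0 A) (chart1 A q M b) (beta0 hA M hqM hM b y)) := by
  haveI := hP
  refine exists_smul_D_mem_of_equiv (iota1 hA M hqM hM b) (alpha0 A q M b) _
    (iota1_alpha0 hA M hqM hM b) P a ?_
  refine etale_alpha0 hA M hqM hM b _ inferInstance ?_ ?_ _
  · rwa [Ideal.mem_comap, map_natCast]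
  · intro y hy hyP
    refine hc ⟨Ideal.IsPrime.comap _, ?_, ?_⟩
    · rwa [Ideal.mem_comap, map_natCast]
    · rw [Ideal.mem_comap] at hyP ⊢
      have e : y = alpha0 A q M b (sC A M b) := Subtype.ext (by rw [hy, coe_alpha0]; rfl)
      rwa [e, iota1_alpha0] at hyP

/-- The data of the step from level `M` to level `qM`. -/
def stepOne : Two.StepData q (W0 A) (chart0 A M b) (chart1 A q M b) (fibre M hA hqM b)
    (Fn A (q * M)) where
  α := alpha0 A q M b
  β := beta0 hA M hqM hM b
  ι := iota1 hA M hqM hM b
  red := red0 hA M hqM b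
  φ := phi0 hA M hqM b
  piInf := piInf1 hA M hqM hM b
  cusp := cuspSet A q M b
  der := der1 M b hM
  prime := hq.out
  q_ne_zero := q_ne_zero_chart1 M b
  ι_α := iota1_alpha0 hA M hqM hM b
  ι_β := iota1_beta0 hA M hqM hM b
  α_finite := alpha0_finite hA M hM b
  α_injective := alpha0_injective M b
  red_surjective := red0_surjective hA M hqM hM b
  ker_red := ker_red0 hA M hqM hM b
  closed_point_rational := closed_point_rational hA M hqM hM b
  not_isField := not_isField_fibre hA M hqM hM b
  φ_injective := phi0_injective hA M hqM b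
  φ_range := phi0_range hA M hqM b
  piInf_α := piInf1_alpha0 hA M hqM hM b
  piInf_β := piInf1_beta0 hA M hqM hM b
  reduced := reduced_chart1 hA M hqM hM b
  der_ne := der1_ne hA M hqM hM b
  etale := etale_beta0 hA M hqM hM b
  cusp_prime := fun _ hc => ⟨hc.1, hc.2.1⟩
  cusp_gen := cusp_gen0 hA M hqM hM b
  cusp_unique := cusp_unique0 hA M hqM hM b
  exists_ordinary := exists_ordinary0 hA M hqM hM b
  exists_cusp := exists_cusp0 hA M hqM hM b
  cusp_iff := cusp_iff1 hA M hqM hM b
  cusp_ramified := cusp_ramified1 hA M hqM hM b

end FLTAgent.BadQ.TwoInst
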