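import Mathlib
import Fermat.Agent.BadQ.TwoInstCharts
import Fermat.Agent.BadQ.TwoInstGlobal
import Fermat.Agent.BadQ.TwoDefs
import Fermat.Agent.BadQ.TwoInstStep
import Fermat.Agent.BadQ.TwoInstTower
import Fermat.Agent.BadQ.TwoCrossNotCusp
import Fermat.Agent.TwoChart.CurveRing
import Fermat.Agent.BadQ.TwoInstLeaves

/-!
# The instantiation at the modular curves of levels `M`, `qM`, `q²M`

`stepData` and `towerData` are the data of `TwoDefs` for the chart rings over the valuation ring
of the fixed field of inertia, for `q ∤ M` and `GoodLevel M`, with the properties of the rings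
needed by the two chart machinery. `crossing_coordBar_notMem`: crossings avoid the zeros of the
coordinate of each chart.
-/

set_option autoImplicit false
set_option linter.style.haveILetI false
set_option linter.unusedSectionVars false
set_option synthInstance.maxHeartbeats 400000
set_option maxHeartbeats 1000000

noncomputable section

open ModularCurve

namespace FLTAgent.BadQ.TwoInst

local notation "Qb" => AlgebraicClosure ℚ

variable {A : ValuationSubring Qb} {q : ℕ} [Fact q.Prime] (hA : A.LiesOverPrime q) (M : ℕ)
  [NeZero M] (hqM : ¬ q ∣ M) (b : Bool) (hM : GoodLevel M)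

/-- The step from level `M` to level `qM`. -/
def stepData (hA : A.LiesOverPrime q) (hqM : ¬ q ∣ M) (hM : GoodLevel M) :
    Two.StepData q (W0 A) (chart0 A M b) (chart1 A q M b) (fibre M hA hqM b) (Fn A (q * M)) :=
  stepOne hA M hqM hM b

theorem isScalarTower_chart1 : IsScalarTower (W0 A) (chart1 A q M b) (Fn A (q * M)) :=
  IsScalarTower.of_algebraMap_eq fun _ => rfl

include hA hM in
theorem isFractionRing_chart1 : IsFractionRing (chart1 A q M b) (Fn A (q * M)) :=
  isFractionRing_chart hA (transcendental_incl_coord A hM.two_le b (dvd_qM q M))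

include hA hM in
theorem isIntegrallyClosed_chart0 : IsIntegrallyClosed (chart0 A M b) :=
  isIntegrallyClosed_chart hA (transcendental_coord A hM.two_le b)

include hA hM in
theorem isIntegrallyClosed_chart1 : IsIntegrallyClosed (chart1 A q M b) :=
  isIntegrallyClosed_chart hA (transcendental_incl_coord A hM.two_le b (dvd_qM q M))

include hA hM in
theorem isIntegrallyClosed_chart2 : IsIntegrallyClosed (chart2 A q M b) :=
  isIntegrallyClosed_chart hA (transcendental_t2 M b hM.two_le)

include hA hM in
theorem finiteType_chart0 : Algebra.FiniteType (W0 A) (chart0 A M b) :=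
  finiteType_chart hA (transcendental_coord A hM.two_le b)

theorem stepData_α (a : chart0 A M b) :
    ((stepData M b hA hqM hM).α a : Fn A (q * M)) = incl (dvd_qM q M) (a : Fn A M) :=
  coe_alpha0 M b a

theorem stepData_β (a : chart0 A M b) :
    ((stepData M b hA hqM hM).β a : Fn A (q * M)) = scale q (mul_q_dvd q M) (a : Fn A M) :=
  coe_beta0 hA M hqM hM b a

/-- The step from level `qM` to level `q²M`. -/
def towerData (hA : A.LiesOverPrime q) (hqM : ¬ q ∣ M) (hM : GoodLevel M) :
    Two.TowerData (stepData M b hA hqM hM) (chart2 A q M b) :=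
  mkTower M b hA hM.two_le hqM (stepData M b hA hqM hM) (stepData_α hA M hqM b hM)
    (stepData_β hA M hqM b hM)

theorem towerData_lam (a : chart1 A q M b) :
    ((towerData M b hA hqM hM).lam a : Fn A (q ^ 2 * M)) =
      incl (dvd_qqM q M) (a : Fn A (q * M)) :=
  mkTower_lam M b hA hM.two_le hqM _ (stepData_α hA M hqM b hM) (stepData_β hA M hqM b hM) a

theorem towerData_rho (a : chart1 A q M b) :
    ((towerData M b hA hqM hM).rho a : Fn A (q ^ 2 * M)) =
      scale q (mul_q_dvd_qq q M) (a : Fn A (q * M)) :=
  mkTower_rho M b hA hM.two_le hqM _ (stepData_α hA M hqM b hM) (stepData_β hA M hqM b hM) a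

include hA hM in
theorem isFractionRing_chart2 : IsFractionRing (chart2 A q M b) (Fn A (q ^ 2 * M)) :=
  isFractionRing_chart2' M b hA hM.two_le

include hA hqM hM in
theorem chart1_le_VInf (a : chart1 A q M b) : (a : Fn A (q * M)) ∈ VInf A q M :=
  chart1_le_VInf_aux hA M b a

theorem stepData_piInf (a : chart1 A q M b) :
    ((stepData M b hA hqM hM).piInf a : modularFunctionFieldFullC (kres A) M) =
      redInf M hA hqM ⟨(a : Fn A (q * M)), chart1_le_VInf hA M hqM b hM a⟩ :=
  coe_piInf1 hA M hqM hM b a

theorem stepData_iota (a : chart1 A q M b) :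
    ((stepData M b hA hqM hM).ι a : Fn A (q * M)) = wAL M hqM (a : Fn A (q * M)) :=
  coe_iota1 hA M hqM hM b a

theorem red0_sC :
    ((red0 hA M hqM b (sC A M b) : fibre M hA hqM b) : modularFunctionFieldFullC (kres A) M) =
      coordBar M hA hqM b := by
  have h1 := gval_incl A (IsLocalRing.residue A) (tSer A M)
  have e1 : BadQ.incl A (tSer A M) = tSer Qb M := coeffMap_tSer (M := M) A.subtype
  have e2 : redSer A (IsLocalRing.residue A) (tSer A M) = tSer (kres A) M := coeffMap_tSer (M := M) _
  rw [e1, e2] at h1
  refine Subtype.ext ?_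
  rw [coe_red0, coe_red0Ring]
  show gval A (IsLocalRing.residue A) (valFn M (coord A M b)) = _
  cases b
  · show gval A (IsLocalRing.residue A) (valFn M (tFn A M)⁻¹) = _
    rw [map_inv₀, valFn_tFn,
      (inv_mem_gV A _ h1.1 (by rw [h1.2]; exact (tUnit (kres A) M).ne_zero)).2, h1.2]
    rfl
  · show gval A (IsLocalRing.residue A) (valFn M (tFn A M)) = _
    rw [valFn_tFn, h1.2]
    rfl

/-- The crossings avoid `0` and `∞`. -/
theorem crossing_coordBar_notMem (Q : Ideal (fibre M hA hqM b)) (hQ : Q.IsMaximal)
    (hX : (stepData M b hA hqM hM).Crossing Q) (y : fibre M hA hqM b)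
    (hy : (y : modularFunctionFieldFullC (kres A) M) = coordBar M hA hqM b) : y ∉ Q := by
  intro hyQ
  haveI := hQ
  haveI := isDedekindDomain_fibreRing hA M hqM b hM.two_le
  haveI : IsNoetherianRing (chart0 A M b) :=
    isNoetherianRing_chart hA (transcendental_coord A hM.two_le b)
  haveI : IsNoetherianRing (chart1 A q M b) :=
    isNoetherianRing_chart hA (transcendental_incl_coord A hM.two_le b (dvd_qM q M))
  haveI := isIntegrallyClosed_chart1 hA M b hM (q := q)
  haveI := isFractionRing_chart1 hA M b hM (q := q)
  haveI := isScalarTower_chart1 M b (A := A) (q := q)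
  let φ := red0 hA M hqM b
  have hys : φ (sC A M b) = y := Subtype.ext ((red0_sC hA M hqM b).trans hy.symm)
  have hsP : Ideal.span {sC A M b} ≤ Q.comap φ := by
    rw [Ideal.span_singleton_le_iff_mem, Ideal.mem_comap, hys]
    exact hyQ
  obtain ⟨c, hc, hcP⟩ := Ideal.exists_minimalPrimes_le hsP
  haveI := hc.isPrime
  have hsc : sC A M b ∈ c := hc.1.2 (Ideal.mem_span_singleton_self _)
  have hker := ker_red0 hA M hqM hM b
  have hqc : (q : chart0 A M b) ∉ c := by
    intro hqc
    have hle : RingHom.ker φ ≤ c := by
      rw [hker, Ideal.span_singleton_le_iff_mem]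
      exact hqc
    haveI : (RingHom.ker φ).IsPrime := RingHom.ker_isPrime φ
    have hne : RingHom.ker φ ≠ c := fun h => by
      have : φ (sC A M b) = 0 := by rw [← RingHom.mem_ker, h]; exact hsc
      rw [hys] at this
      rw [this, ZeroMemClass.coe_zero] at hy
      exact transcendental_coordBar_of_two_le hA M hqM b hM.two_le (hy ▸ isAlgebraic_zero)
    have hlt := lt_of_le_of_ne hle hne
    have hbot : (⊥ : Ideal (chart0 A M b)) < RingHom.ker φ := by
      rw [hker, bot_lt_iff_ne_bot, Ne, Ideal.span_singleton_eq_bot]
      intro h0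
      have := congrArg (fun z : chart0 A M b => (valFn M (z : Fn A M) : LaurentSeries Qb)) h0
      simp only [SubringClass.coe_natCast, map_natCast, ZeroMemClass.coe_zero, map_zero] at this
      rw [← map_natCast (algebraMap Qb (LaurentSeries Qb)), map_eq_zero] at this
      exact (Fact.out : q.Prime).ne_zero (Nat.cast_injective (this.trans Nat.cast_zero.symm))
    have h1 := Ideal.height_le_one_of_isPrincipal_of_mem_minimalPrimes _ c hc
    have h2 := Ideal.height_add_one_le_of_lt_of_isPrime hlt
    have h3 := Ideal.height_add_one_le_of_lt_of_isPrime hbot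
    rw [Ideal.height_bot, zero_add] at h3
    have h4 : (2 : ℕ∞) ≤ 1 := by
      rw [← one_add_one_eq_two]
      exact (add_le_add_left h3 1).trans (h2.trans h1)
    exact absurd h4 (by norm_num)
  exact (stepData M b hA hqM hM).not_crossing_of_cusp (Q := Q)
    (show c ∈ cuspSet A q M b from ⟨hc.isPrime, hqc, hsc⟩) hcP hX

end FLTAgent.BadQ.TwoInst
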