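import Mathlib
import Fermat.Agent.FF.RiemannRoch
import Fermat.Agent.TwoChart.Residue

/-!
# Function field lemmas for the count of crossings

`exists_indep_family` gives as many functions as the polar degree of `x`, independent over the
polynomials in `x`; `isIntegral_of_ord_nonneg` says that a function regular where `x` is finite is
integral over `K[x]`; `finrank_glued_le` bounds the dimension of pairs of functions glued at a
finite set of places.
-/

set_option autoImplicit false
set_option linter.style.haveILetI false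
set_option linter.unusedSectionVars false

noncomputable section

open Polynomial AlgebraicCurve

namespace FLTAgent.BadQ.TwoInst

variable {K E : Type*} [Field K] [Field E] [Algebra K E]

theorem val_aeval_of_pole (v : Place K E) {x : E} (hj : v.ord x < 0) {p : K[X]} (hp : p ≠ 0) :
    v.adicValuation (aeval x p) = v.adicValuation x ^ p.natDegree := by
  classical
  have hx0 : x ≠ 0 := fun h => by rw [h, Place.ord_zero] at hj; exact lt_irrefl _ hj
  have hj1 : 1 < v.adicValuation x := by
    rw [FF.val_eq_exp v hx0, ← WithZero.exp_zero, WithZero.exp_lt_exp]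
    omega
  have hc : ∀ a : K, a ≠ 0 → v.adicValuation (algebraMap K E a) = 1 := fun a ha => by
    rw [FF.val_eq_exp v ((_root_.map_ne_zero _).2 ha), FF.ord_algebraMap, neg_zero, WithZero.exp_zero]
  rw [aeval_eq_sum_range, Valuation.map_sum_eq_of_lt (j := p.natDegree) _ (by simp) ?_]
  · rw [Algebra.smul_def, map_mul, map_pow, coeff_natDegree, hc _ (leadingCoeff_ne_zero.2 hp),
      one_mul]
  · intro i hi
    rw [Finset.mem_sdiff, Finset.mem_range, Finset.mem_singleton] at hi
    rw [Algebra.smul_def, Algebra.smul_def, map_mul, map_mul, map_pow, map_pow, coeff_natDegree,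
      hc _ (leadingCoeff_ne_zero.2 hp), one_mul]
    rcases eq_or_ne (p.coeff i) 0 with h | h
    · rw [h, map_zero, map_zero, zero_mul]
      exact pow_pos (lt_trans zero_lt_one hj1) _
    · rw [hc _ h, one_mul]
      exact pow_lt_pow_right₀ hj1 (by omega)

theorem aeval_ne_zero_of_pole (v : Place K E) {x : E} (hj : v.ord x < 0) {p : K[X]} (hp : p ≠ 0) :
    aeval x p ≠ 0 := by
  intro h
  have h1 := val_aeval_of_pole v hj hp
  rw [h, map_zero] at h1
  have hx0 : x ≠ 0 := fun h => by rw [h, Place.ord_zero] at hj; exact lt_irrefl _ hj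
  exact pow_ne_zero _ (v.adicValuation_ne_zero hx0) h1.symm

theorem ord_aeval_of_pole (v : Place K E) {x : E} (hj : v.ord x < 0) {p : K[X]} (hp : p ≠ 0) :
    v.ord (aeval x p) = p.natDegree * v.ord x := by
  have hx0 : x ≠ 0 := fun h => by rw [h, Place.ord_zero] at hj; exact lt_irrefl _ hj
  have h1 := val_aeval_of_pole v hj hp
  rw [← map_pow, FF.val_eq_exp v (aeval_ne_zero_of_pole v hj hp),
    FF.val_eq_exp v (pow_ne_zero _ hx0), WithZero.exp_inj] at h1
  rw [← zpow_natCast, v.ord_zpow] at h1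
  omega

variable [IsAlgClosed K] [FF.IsFF K E]

/-- As many functions as the polar degree, independent over the polynomials in `x`. -/
theorem exists_indep_family (x : E) : ∃ (n : ℕ) (f : Fin n → E),
    (n : ℤ) = Divisor.degree (FF.poleDivisor x : Divisor K E) ∧
      ∀ p : Fin n → K[X], ∑ i, aeval x (p i) * f i = 0 → ∀ i, p i = 0 := by
  classical
  set T : Finset (Place K E) := (FF.poleDivisor x : Divisor K E).support
  have hT : ∀ Q : T, Q.1.ord x < 0 := fun Q => by
    have h := Finsupp.mem_support_iff.1 Q.2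
    rw [FF.poleDivisor_apply] at h
    omega
  set e : T → ℕ := fun Q => (-Q.1.ord x).toNat
  choose g hg0 hg using fun (a : Σ Q : T, Fin (e Q)) => FF.exists_forall_ord_eq (K := K) T
    fun R => if R = a.1.1 then ((a.2 : ℕ) : ℤ) else -R.ord x
  refine ⟨Fintype.card (Σ Q : T, Fin (e Q)), g ∘ (Fintype.equivFin _).symm, ?_, fun p hp => ?_⟩
  · rw [FF.degree_eq_sum, Fintype.card_sigma, Finsupp.sum, ← Finset.sum_coe_sort T, Nat.cast_sum]
    refine Finset.sum_congr rfl fun Q _ => ?_
    rw [FF.poleDivisor_apply, Fintype.card_fin]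
    have := hT Q
    simp only [e]
    omega
  set p' : (Σ Q : T, Fin (e Q)) → K[X] := fun a => p (Fintype.equivFin _ a)
  suffices ∀ a, p' a = 0 by
    intro i
    simpa [p'] using this ((Fintype.equivFin _).symm i)
  have hsum : ∑ a, aeval x (p' a) * g a = 0 := by
    rw [← hp]
    refine Fintype.sum_equiv (Fintype.equivFin _) _ _ fun a => ?_
    simp [p']
  by_contra hne
  push Not at hne
  set J := Finset.univ.filter fun a => p' a ≠ 0
  have hJ : J.Nonempty := by
    obtain ⟨a, ha⟩ := hne
    exact ⟨a, Finset.mem_filter.2 ⟨Finset.mem_univ _, ha⟩⟩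
  obtain ⟨⟨Q, i₀⟩, ha₀, hmax⟩ := Finset.exists_max_image J (fun a => (p' a).natDegree) hJ
  set D := (p' ⟨Q, i₀⟩).natDegree
  set I := (Finset.univ : Finset (Fin (e Q))).filter
    fun i => p' ⟨Q, i⟩ ≠ 0 ∧ (p' ⟨Q, i⟩).natDegree = D
  obtain ⟨i₁, hi₁, hmin⟩ := Finset.exists_min_image I (fun i => (i : ℕ))
    ⟨i₀, Finset.mem_filter.2 ⟨Finset.mem_univ _, (Finset.mem_filter.1 ha₀).2, rfl⟩⟩
  obtain ⟨-, hpn, hdeg⟩ := Finset.mem_filter.1 hi₁
  have hx := hT Q
  have hord : ∀ a, p' a ≠ 0 → Q.1.ord (aeval x (p' a) * g a) =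
      (p' a).natDegree * Q.1.ord x + if Q.1 = a.1.1 then ((a.2 : ℕ) : ℤ) else -Q.1.ord x := by
    intro a ha
    rw [Q.1.ord_mul (aeval_ne_zero_of_pole Q.1 hx ha) (hg0 a), ord_aeval_of_pole Q.1 hx ha,
      hg a Q.1 Q.2]
  have hval := Valuation.map_sum_eq_of_lt (v := Q.1.adicValuation) (s := Finset.univ)
    (f := fun a => aeval x (p' a) * g a) (j := ⟨Q, i₁⟩) (Finset.mem_univ _) ?_
  · rw [hsum, map_zero] at hval
    exact Q.1.adicValuation_ne_zero (mul_ne_zero (aeval_ne_zero_of_pole Q.1 hx hpn) (hg0 _))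
      hval.symm
  intro a ha
  rw [Finset.mem_sdiff, Finset.mem_singleton] at ha
  have h1 : Q.1.ord (aeval x (p' ⟨Q, i₁⟩) * g ⟨Q, i₁⟩) = D * Q.1.ord x + (i₁ : ℕ) := by
    rw [hord _ hpn, hdeg, if_pos rfl]
  have hne1 : aeval x (p' ⟨Q, i₁⟩) * g ⟨Q, i₁⟩ ≠ 0 :=
    mul_ne_zero (aeval_ne_zero_of_pole Q.1 hx hpn) (hg0 _)
  rcases eq_or_ne (p' a) 0 with h0 | h0
  · rw [h0, map_zero, zero_mul, map_zero]
    exact pos_of_ne_zero (Q.1.adicValuation_ne_zero hne1)
  rw [FF.val_eq_exp _ hne1, FF.val_eq_exp _ (mul_ne_zero (aeval_ne_zero_of_pole Q.1 hx h0) (hg0 a)),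
    WithZero.exp_lt_exp, neg_lt_neg_iff, h1, hord a h0]
  have hle : (p' a).natDegree ≤ D := hmax a (Finset.mem_filter.2 ⟨Finset.mem_univ _, h0⟩)
  have hi : ((i₁ : ℕ) : ℤ) < -Q.1.ord x := by
    have := i₁.2
    simp only [e] at this
    omega
  have hmul : (D : ℤ) * Q.1.ord x ≤ ((p' a).natDegree : ℤ) * Q.1.ord x :=
    mul_le_mul_of_nonpos_right (by exact_mod_cast hle) hx.le
  obtain ⟨R, i⟩ := a
  rcases eq_or_ne Q R with rfl | hR
  · simp only [if_true]
    rcases lt_or_eq_of_le hle with hlt | heq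
    · have : (D : ℤ) * Q.1.ord x ≤ (((p' ⟨Q, i⟩).natDegree : ℤ) + 1) * Q.1.ord x :=
        mul_le_mul_of_nonpos_right (by exact_mod_cast hlt) hx.le
      rw [add_mul, one_mul] at this
      omega
    · have h2 := hmin i (Finset.mem_filter.2 ⟨Finset.mem_univ _, h0, heq⟩)
      have h3 : (i₁ : ℕ) ≠ i := fun h => ha.2 (by rw [Fin.ext h])
      rw [heq]
      omega
  · rw [if_neg fun h => hR (Subtype.ext h)]
    omega

theorem degree_poleDivisor_pos {x : E} (hx : Transcendental K x) :
    1 ≤ Divisor.degree (FF.poleDivisor x : Divisor K E) := by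
  obtain ⟨v, hv⟩ := FF.exists_pole (K := K) hx
  rw [← FF.degree_single_one (F := E) v]
  refine FF.degree_mono fun w => ?_
  rw [FF.poleDivisor_apply]
  by_cases h : v = w
  · subst h; simp only [Finsupp.single_eq_same]; omega
  · rw [Finsupp.single_eq_of_ne (Ne.symm h)]; omega

/-- A function regular where `x` is finite is integral over `K[x]`. -/
theorem isIntegral_of_ord_nonneg {x f : E} (h : ∀ v : Place K E, 0 ≤ v.ord x → 0 ≤ v.ord f) :
    IsIntegral (Algebra.adjoin K ({x} : Set E)) f := by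
  by_contra hf
  set R := (integralClosure (Algebra.adjoin K ({x} : Set E)) E).toSubring
  haveI : IsIntegrallyClosedIn R E := inferInstanceAs
    (IsIntegrallyClosedIn (integralClosure (Algebra.adjoin K ({x} : Set E)) E) E)
  obtain ⟨B, hRB, hfB⟩ := Subring.exists_le_valuationSubring_of_isIntegrallyClosedIn
    (K := E) (R := R) (x := f) hf
  have hA : ∀ y ∈ Algebra.adjoin K ({x} : Set E), y ∈ B := fun y hy =>
    hRB (isIntegral_algebraMap (x := (⟨y, hy⟩ : Algebra.adjoin K ({x} : Set E))))
  obtain ⟨v, hv⟩ := FF.exists_place_eq B (fun c => hA _ (Subalgebra.algebraMap_mem _ c))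
    (fun htop => hfB (htop ▸ ValuationSubring.mem_top _))
  have hx : 0 ≤ v.ord x := by
    rcases eq_or_ne x 0 with rfl | hx0
    · rw [Place.ord_zero]
    · exact (FF.mem_iff_ord_nonneg v hx0).1 (hv ▸ hA x (Algebra.subset_adjoin rfl))
  exact hfB (hv ▸ (FF.mem_iff v f).2 (Or.inr (h v hx)))

/-- The dimension of pairs with a gluing condition at each point of `S`. -/
theorem finrank_glued_le {D₁ D₂ : Divisor K E} (S : Finset (Place K E))
    (σ : Place K E → Place K E) (h1 : ∀ v ∈ S, D₁ v = 0) (h2 : ∀ v ∈ S, D₂ (σ v) ≤ 0)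
    (hdeg : 2 * (genusFF K E : ℤ) - 2 + S.card < Divisor.degree D₁)
    (G : Submodule K (E × E))
    (hG : ∀ u ∈ G, u.1 ∈ riemannRochSpace D₁ ∧ u.2 ∈ riemannRochSpace D₂ ∧
      ∀ v ∈ S, TwoChart.rv v u.1 = TwoChart.rv (σ v) u.2) :
    Module.finrank K G + S.card ≤ FF.ell D₁ + FF.ell D₂ := by
  classical
  set L₁ : Submodule K E := riemannRochSpace D₁
  set L₂ : Submodule K E := riemannRochSpace D₂
  haveI : FiniteDimensional K L₁ := inferInstanceAs (FiniteDimensional K (riemannRochSpace D₁))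
  haveI : FiniteDimensional K L₂ := inferInstanceAs (FiniteDimensional K (riemannRochSpace D₂))
  have hmem : ∀ {D : Divisor K E} {w : Place K E}, D w ≤ 0 → ∀ {y : E}, y ∈ riemannRochSpace D →
      y ∈ w.toValuationSubring := by
    intro D w hw y hy
    rcases eq_or_ne y 0 with rfl | hy0
    · exact zero_mem _
    · exact (FF.mem_iff_ord_nonneg w hy0).2 (by
        have := FF.ord_of_mem_riemannRochSpace hy hy0 w
        omega)
  have hadd : ∀ (w : Place K E) {y z : E}, y ∈ w.toValuationSubring → z ∈ w.toValuationSubring →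
      TwoChart.rv w (y + z) = TwoChart.rv w y + TwoChart.rv w z := by
    intro w y z hy hz
    rw [TwoChart.rv_of_mem w (add_mem hy hz), TwoChart.rv_of_mem w hy, TwoChart.rv_of_mem w hz,
      ← map_add]
    rfl
  have hsmul : ∀ (w : Place K E) (c : K) {y : E}, y ∈ w.toValuationSubring →
      TwoChart.rv w (c • y) = c * TwoChart.rv w y := by
    intro w c y hy
    rw [Algebra.smul_def, TwoChart.rv_mul w (w.algebraMap_mem' c) hy, TwoChart.rv_algebraMap]
  let φ : L₁ →ₗ[K] (S → K) :=
    { toFun := fun y v => TwoChart.rv v.1 (y : E)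
      map_add' := fun y z => funext fun v => hadd v.1 (hmem (h1 v.1 v.2).le y.2) (hmem (h1 v.1 v.2).le z.2)
      map_smul' := fun c y => funext fun v => hsmul v.1 c (hmem (h1 v.1 v.2).le y.2) }
  let ψ : L₂ →ₗ[K] (S → K) :=
    { toFun := fun y v => TwoChart.rv (σ v.1) (y : E)
      map_add' := fun y z => funext fun v =>
        hadd (σ v.1) (hmem (h2 v.1 v.2) y.2) (hmem (h2 v.1 v.2) z.2)
      map_smul' := fun c y => funext fun v => hsmul (σ v.1) c (hmem (h2 v.1 v.2) y.2) }
  -- the conditions are independent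
  have hφ : LinearMap.range φ = ⊤ := by
    set D₀ : Divisor K E := D₁ - ∑ v ∈ S, Finsupp.single v 1
    have hD₀ : ∀ w, D₀ w = D₁ w - if w ∈ S then 1 else 0 := fun w => by
      simp [D₀, Finsupp.single_apply, Finset.sum_ite_eq']
    have hker : (LinearMap.ker φ).map L₁.subtype ≤ riemannRochSpace D₀ := by
      rintro _ ⟨y, hy, rfl⟩
      refine mem_riemannRochSpace_iff.2 fun w => ?_
      rcases eq_or_ne (y : E) 0 with h0 | h0
      · exact Or.inl h0
      refine Or.inr ?_
      have hle := FF.ord_of_mem_riemannRochSpace y.2 h0 w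
      rw [hD₀]
      split_ifs with hw
      · have hv := congrFun (LinearMap.mem_ker.1 hy) ⟨w, hw⟩
        rcases lt_or_eq_of_le hle with hlt | heq
        · show -(D₁ w - 1) ≤ w.ord (y : E)
          omega
        · exfalso
          have h10 := h1 w hw
          have h00 : 0 ≤ w.ord (y : E) := (FF.mem_iff_ord_nonneg w h0).1 (hmem h10.le y.2)
          exact TwoChart.rv_ne_zero w h0 (by omega) hv
      · show -(D₁ w - 0) ≤ w.ord (y : E)
        omega
    haveI : FiniteDimensional K (riemannRochSpace D₀ : Submodule K E) := inferInstance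
    have hk := Submodule.finrank_mono hker
    rw [← (Submodule.equivMapOfInjective L₁.subtype L₁.subtype_injective _).finrank_eq] at hk
    have hsum := LinearMap.finrank_range_add_finrank_ker φ
    have hd₀ : Divisor.degree D₀ = Divisor.degree D₁ - S.card := by
      simp only [D₀, map_sub, map_sum, FF.degree_single_one, Finset.sum_const, nsmul_eq_mul, mul_one]
    have he₁ := FF.ell_eq_of_large (D := D₁) (by omega)
    have he₀ := FF.ell_eq_of_large (D := D₀) (by omega)
    apply Submodule.eq_top_of_finrank_eq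
    refine le_antisymm (Submodule.finrank_le _) ?_
    rw [Module.finrank_pi, Fintype.card_coe]
    have e1 : Module.finrank K L₁ = FF.ell D₁ := rfl
    have e0 : Module.finrank K (riemannRochSpace D₀ : Submodule K E) = FF.ell D₀ := rfl
    omega
  let χ : L₁ × L₂ →ₗ[K] (S → K) := φ.comp (LinearMap.fst K _ _) - ψ.comp (LinearMap.snd K _ _)
  have hχ : LinearMap.range χ = ⊤ := by
    rw [eq_top_iff, ← hφ]
    rintro _ ⟨y, rfl⟩
    exact ⟨(y, 0), by simp [χ]⟩
  let ι : L₁ × L₂ →ₗ[K] E × E := L₁.subtype.prodMap L₂.subtype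
  have hle : G ≤ (LinearMap.ker χ).map ι := fun u hu => by
    obtain ⟨ha, hb, hc⟩ := hG u hu
    refine ⟨(⟨u.1, ha⟩, ⟨u.2, hb⟩), LinearMap.mem_ker.2 (funext fun v => ?_), rfl⟩
    show TwoChart.rv v.1 u.1 - TwoChart.rv (σ v.1) u.2 = 0
    rw [hc v.1 v.2, sub_self]
  have hι : Function.Injective ι := L₁.injective_subtype.prodMap L₂.injective_subtype
  have h3 := Submodule.finrank_mono hle
  rw [← (Submodule.equivMapOfInjective ι hι _).finrank_eq] at h3
  have h4 := LinearMap.finrank_range_add_finrank_ker χ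
  rw [hχ, finrank_top, Module.finrank_pi, Fintype.card_coe, Module.finrank_prod] at h4
  show Module.finrank K G + S.card ≤ Module.finrank K L₁ + Module.finrank K L₂
  omega

end FLTAgent.BadQ.TwoInst
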