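import Mathlib
import Fermat.Agent.BadQ.TwoInstFields
import Fermat.Agent.BadQ.TwoInstFinite

/-!
# Fixed bases, lattices and bases with independent reductions

`exists_fixed_coeff_basis` gives fixed bases of Galois stable spaces of series;
`finite_inter_intCl` says that a finite dimensional space meets a chart in a finite module over
the base; `exists_red_indep` that a saturated lattice has a basis with independent reductions.
-/

set_option autoImplicit false
set_option linter.style.haveILetI false
set_option linter.unusedSectionVars false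

noncomputable section

open Polynomial IntermediateField

namespace FLTAgent.BadQ.TwoInst

section Echelon

/-- A Galois stable finite dimensional space of series has a fixed basis. -/
theorem exists_fixed_coeff_basis {L V ι : Type*} [Field L] [AddCommGroup V] [Module L V]
    [FiniteDimensional L V] (c : ι → Module.Dual L V) (hsep : ∀ v, (∀ i, c i v = 0) → v = 0)
    {G : Type*} (τ : G → L → L) (hτ0 : ∀ g, τ g 0 = 0) (hτ1 : ∀ g, τ g 1 = 1) (act : G → V → V)
    (hact : ∀ g v i, c i (act g v) = τ g (c i v)) :
    ∃ b : Fin (Module.finrank L V) → V, LinearIndependent L b ∧ ∀ g j, act g (b j) = b j := by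
  classical
  obtain ⟨B, hBs, hspan, hind⟩ := exists_linearIndependent L (Set.range c)
  haveI : Fintype B := hind.setFinite.fintype
  let Φ : V →ₗ[L] (B → L) := LinearMap.pi fun b => (b : Module.Dual L V)
  have hker : ∀ v, (∀ b ∈ B, (b : Module.Dual L V) v = 0) → v = 0 := by
    intro v hv
    refine hsep v fun i => ?_
    suffices hall : ∀ f ∈ Submodule.span L B, (f : Module.Dual L V) v = 0 from
      hall _ (by rw [hspan]; exact Submodule.subset_span ⟨i, rfl⟩)
    intro f hi
    induction hi using Submodule.span_induction with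
    | mem x hx => exact hv x hx
    | zero => rfl
    | add x y _ _ hx hy => rw [LinearMap.add_apply, hx, hy, add_zero]
    | smul a x _ hx => rw [LinearMap.smul_apply, hx, smul_zero]
  have hinj : Function.Injective Φ := (injective_iff_map_eq_zero Φ).2 fun v hv =>
    hker v fun b hb => congrFun hv ⟨b, hb⟩
  have h1 : Fintype.card B = Module.finrank L V := by
    refine le_antisymm ?_ ?_
    · have := hind.fintype_card_le_finrank
      rwa [Subspace.dual_finrank_eq] at this
    · have := LinearMap.finrank_le_finrank_of_injective hinj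
      rwa [Module.finrank_pi] at this
  have hsurj : Function.Surjective Φ :=
    (LinearMap.injective_iff_surjective_of_finrank_eq_finrank
      (by rw [Module.finrank_pi, h1])).1 hinj
  choose e he using fun b : B => hsurj (Pi.single b 1)
  let eB : Fin (Module.finrank L V) ≃ B := (Fintype.equivFinOfCardEq h1).symm
  refine ⟨e ∘ eB, ?_, fun g j => ?_⟩
  · refine LinearIndependent.comp ?_ _ eB.injective
    refine LinearIndependent.of_comp Φ ?_
    convert (Pi.basisFun L B).linearIndependent using 1
    funext b
    simp [he]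
  · refine hinj (funext fun b => ?_)
    obtain ⟨i, hi⟩ := hBs b.2
    show (b : Module.Dual L V) (act g (e (eB j))) = (b : Module.Dual L V) (e (eB j))
    rw [← hi, hact, hi]
    have h := congrFun (he (eB j)) b
    change (b : Module.Dual L V) (e (eB j)) = _ at h
    rw [h]
    by_cases hb : b = eB j
    · subst hb; rw [Pi.single_eq_same, hτ1]
    · rw [Pi.single_eq_of_ne hb, hτ0]

end Echelon

section Lattice

variable {W : Type*} [CommRing W] [IsDomain W] {K : Type*} [Field K] [Algebra W K] [IsFractionRing W K]
  {F : Type*} [Field F] [Algebra K F] [Algebra W F] [IsScalarTower W K F] {s : F}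
  [IsNoetherianRing W] [UniqueFactorizationMonoid W] [CharZero K] [FiniteDimensional K⟮s⟯ F]

theorem adjoin_le_field (p : W[X]) : aeval s p ∈ K⟮s⟯ :=
  adjoin_mem_adjoinField (W := W) (by
    rw [Algebra.adjoin_singleton_eq_range_aeval]; exact ⟨p, rfl⟩)

/-- A finite dimensional space meets the chart in a finite module over the base. -/
theorem finite_inter_intCl (hs : Transcendental K s) (U : Submodule K F) [FiniteDimensional K U] :
    Module.Finite W ↥((TwoChart.intCl W ({s} : Set F)).toSubmodule ⊓ U.restrictScalars W) := by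
  classical
  letI := instAlgebraAdjoinField (W := W) (K := K) (s := s)
  haveI := instTowerAdjoinField (W := W) (K := K) (s := s)
  haveI := isFractionRing_adjoinField (W := W) (K := K) (s := s)
  haveI := finite_intCl (W := W) hs
  set R₀ := Algebra.adjoin W ({s} : Set F)
  set Λ := (TwoChart.intCl W ({s} : Set F)).toSubmodule ⊓ U.restrictScalars W
  let bF := Module.finBasis K⟮s⟯ F
  obtain ⟨G, hG⟩ := (Module.Finite.fg_top : (⊤ : Submodule R₀ (integralClosure R₀ F)).FG)
  obtain ⟨⟨δ, hδ⟩, hint⟩ := IsLocalization.exist_integer_multiples (nonZeroDivisors R₀)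
    (G ×ˢ (Finset.univ : Finset (Fin (Module.finrank K⟮s⟯ F))))
    fun p => bF.repr ((p.1 : integralClosure R₀ F) : F) p.2
  have hδ0 : algebraMap R₀ K⟮s⟯ δ ≠ 0 := fun h => nonZeroDivisors.ne_zero hδ
    (IsFractionRing.injective R₀ K⟮s⟯ (h.trans (map_zero _).symm))
  set co : Fin (Module.finrank K⟮s⟯ F) → F →ₗ[K⟮s⟯] K⟮s⟯ :=
    fun i => algebraMap R₀ K⟮s⟯ δ • bF.coord i
  have hco : ∀ i, ∀ x ∈ TwoChart.intCl W ({s} : Set F), ∃ p : W[X], (co i x : F) = aeval s p := by
    intro i x hx
    have hx' : (⟨x, hx⟩ : integralClosure R₀ F) ∈ Submodule.span R₀ (G : Set (integralClosure R₀ F)) :=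
      hG.symm ▸ Submodule.mem_top
    have key : ∃ r : R₀, co i x = algebraMap R₀ K⟮s⟯ r := by
      suffices hall : ∀ z ∈ Submodule.span R₀ (G : Set (integralClosure R₀ F)),
          ∃ r : R₀, co i (z : F) = algebraMap R₀ K⟮s⟯ r from hall _ hx'
      intro z hz'
      induction hz' using Submodule.span_induction with
      | mem g hg =>
        obtain ⟨r, hr⟩ := hint (g, i) (Finset.mem_product.2 ⟨hg, Finset.mem_univ i⟩)
        refine ⟨r, ?_⟩
        rw [hr]
        simp only [co, LinearMap.smul_apply, Module.Basis.coord_apply, smul_eq_mul]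
        rw [Algebra.smul_def]
      | zero => exact ⟨0, by rw [ZeroMemClass.coe_zero, map_zero, map_zero]⟩
      | add y z _ _ hy hz =>
        obtain ⟨r, hr⟩ := hy
        obtain ⟨r', hr'⟩ := hz
        exact ⟨r + r', by rw [AddMemClass.coe_add, map_add, hr, hr', map_add]⟩
      | smul c y _ hy =>
        obtain ⟨r, hr⟩ := hy
        refine ⟨c * r, ?_⟩
        rw [show ((c • y : integralClosure R₀ F) : F) = algebraMap R₀ K⟮s⟯ c • (y : F) from rfl,
          map_smul, hr, map_mul, smul_eq_mul]
    obtain ⟨⟨r, hr⟩, h⟩ := key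
    have hr' := hr
    rw [show R₀ = (aeval s : W[X] →ₐ[W] F).range from Algebra.adjoin_singleton_eq_range_aeval W s]
      at hr'
    obtain ⟨p, hp⟩ := hr'
    exact ⟨p, by rw [h]; exact hp.symm⟩
  -- the polynomials occurring have bounded degree
  let evK : K[X] →ₗ[K] F := (aeval s : K[X] →ₐ[K] F).toLinearMap
  have hevK : Function.Injective evK := transcendental_iff_injective.1 hs
  have hbd : ∀ i, ∃ D : ℕ, ∀ p : K[X],
      aeval s p ∈ U.map ((K⟮s⟯.val.toLinearMap).comp ((co i).restrictScalars K)) →
        p ∈ degreeLT K D := by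
    intro i
    set Ui := U.map ((K⟮s⟯.val.toLinearMap).comp ((co i).restrictScalars K))
    set Q := Ui.comap evK
    haveI : FiniteDimensional K Q :=
      Module.Finite.of_injective ((evK.comp Q.subtype).codRestrict Ui fun p => p.2)
        fun a b h => Subtype.ext (hevK (congrArg Subtype.val h))
    obtain ⟨S, hS⟩ := (Module.Finite.iff_fg.1 (inferInstance : Module.Finite K Q))
    refine ⟨(S.sup natDegree) + 1, fun p hp => ?_⟩
    have : Submodule.span K (S : Set K[X]) ≤ degreeLT K ((S.sup natDegree) + 1) := by
      rw [Submodule.span_le]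
      intro r hr
      rw [SetLike.mem_coe, mem_degreeLT]
      exact lt_of_le_of_lt degree_le_natDegree (by
        exact_mod_cast Nat.lt_succ_of_le (Finset.le_sup (f := natDegree) hr))
    exact this (hS.symm ▸ hp)
  choose D hD using hbd
  have hpoly : ∀ (x : Λ) (i), ∃ p : W[X], (co i (x : F) : F) = aeval s p ∧
      ∀ k, D i ≤ k → p.coeff k = 0 := by
    intro x i
    obtain ⟨p, hp⟩ := hco i x x.2.1
    refine ⟨p, hp, fun k hk => ?_⟩
    have h1 := hD i (p.map (algebraMap W K))
      ⟨(x : F), x.2.2, by rw [aeval_map_algebraMap, ← hp]; rfl⟩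
    rw [mem_degreeLT] at h1
    have h2 := coeff_eq_zero_of_degree_lt (lt_of_lt_of_le h1 (by exact_mod_cast hk : (D i : WithBot ℕ) ≤ (k : WithBot ℕ)))
    rw [coeff_map] at h2
    exact IsFractionRing.injective W K (h2.trans (map_zero _).symm)
  choose P hP hPD using hpoly
  have huniq : ∀ p p' : W[X], aeval s p = aeval s p' → p = p' := fun p p' h =>
    transcendental_iff_injective.1 (transcendental_base (W := W) hs) h
  let Ψ : Λ →ₗ[W] ((i : Fin (Module.finrank K⟮s⟯ F)) → Fin (D i) → W) :=
    { toFun := fun x i k => (P x i).coeff k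
      map_add' := fun x y => by
        funext i k
        have : P (x + y) i = P x i + P y i := huniq _ _ (by
          rw [map_add, ← hP, ← hP, ← hP, Submodule.coe_add, map_add]; rfl)
        rw [this]; simp
      map_smul' := fun c x => by
        funext i k
        have : P (c • x) i = c • P x i := huniq _ _ (by
          rw [map_smul, ← hP, ← hP, SetLike.val_smul]
          rw [show (c • (x : F)) = algebraMap W K c • (x : F) from (algebraMap_smul K c (x : F)).symm,
            LinearMap.map_smul_of_tower, IntermediateField.coe_smul, algebraMap_smul])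
        rw [this]; simp }
  refine Module.Finite.of_injective Ψ fun x y h => ?_
  have hP' : ∀ i, P x i = P y i := fun i => Polynomial.ext fun k => by
    rcases lt_or_ge k (D i) with hk | hk
    · exact congrFun (congrFun h i) ⟨k, hk⟩
    · rw [hPD x i k hk, hPD y i k hk]
  refine Subtype.ext (bF.repr.injective (Finsupp.ext fun i => ?_))
  have h1 : (co i (x : F) : F) = (co i (y : F) : F) := by rw [hP, hP, hP' i]
  have h2 := Subtype.val_injective h1
  simp only [co, LinearMap.smul_apply, Module.Basis.coord_apply, smul_eq_mul] at h2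
  exact mul_left_cancel₀ hδ0 h2

end Lattice

section Saturated

/-- A saturated lattice has a basis with independent reductions. -/
theorem exists_red_indep {W : Type*} [CommRing W] [IsDomain W] [IsPrincipalIdealRing W]
    {K : Type*} [Field K] [Algebra W K] [IsFractionRing W K]
    {F : Type*} [AddCommGroup F] [Module K F] [Module W F] [IsScalarTower W K F]
    (Λ : Submodule W F) [Module.Finite W Λ] (U : Submodule K F) [FiniteDimensional K U]
    (hΛU : ∀ x ∈ Λ, x ∈ U) (hspan : ∀ x ∈ U, ∃ c : W, c ≠ 0 ∧ c • x ∈ Λ)
    {k : Type*} [Field k] (res : W →+* k) (hres : Function.Surjective res) (π : W)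
    (hker : ∀ a, res a = 0 ↔ π ∣ a) {P : Type*} [AddCommGroup P] [Module k P]
    (ρ : Λ →+ P) (hρ : ∀ (a : W) (x : Λ), ρ (a • x) = res a • ρ x)
    (hsat : ∀ x : Λ, ρ x = 0 → ∃ y : Λ, x = π • y) :
    ∃ b : Fin (Module.finrank K U) → Λ, LinearIndependent k fun i => ρ (b i) := by
  classical
  haveI : Module.IsTorsionFree W Λ := by
    refine Module.IsTorsionFree.of_smul_eq_zero fun c x h => ?_
    by_cases hc : c = 0
    · exact Or.inl hc
    refine Or.inr (Subtype.ext ?_)
    have h1 : algebraMap W K c • (x : F) = 0 := by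
      rw [algebraMap_smul]; exact congrArg Subtype.val h
    exact (smul_eq_zero.1 h1).resolve_left fun h0 => hc
      (IsFractionRing.injective W K (h0.trans (map_zero _).symm))
  obtain ⟨d, bΛ⟩ := Module.basisOfFiniteTypeTorsionFree' (R := W) (M := Λ)
  let bU : Fin d → U := fun i => ⟨bΛ i, hΛU _ (bΛ i).2⟩
  have hindF : LinearIndependent K fun i => (bΛ i : F) := by
    rw [← LinearIndependent.iff_fractionRing W K]
    exact bΛ.linearIndependent.map' Λ.subtype (LinearMap.ker_eq_bot.2 Subtype.val_injective)
  have hind : LinearIndependent K bU := LinearIndependent.of_comp U.subtype hindF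
  have hsp : ⊤ ≤ Submodule.span K (Set.range bU) := by
    rintro ⟨x, hx⟩ -
    obtain ⟨c, hc, hcx⟩ := hspan x hx
    have hsum := bΛ.sum_repr ⟨_, hcx⟩
    have h1 : algebraMap W K c • (⟨x, hx⟩ : U) ∈ Submodule.span K (Set.range bU) := by
      have : algebraMap W K c • (⟨x, hx⟩ : U) = ∑ i, algebraMap W K (bΛ.repr ⟨_, hcx⟩ i) • bU i := by
        refine Subtype.ext ?_
        rw [Submodule.coe_sum]
        simp only [algebraMap_smul, bU]
        have := congrArg Subtype.val hsum
        rw [Submodule.coe_sum] at this
        simpa using this.symm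
      rw [this]
      exact sum_mem fun i _ => Submodule.smul_mem _ _ (Submodule.subset_span ⟨i, rfl⟩)
    have hc' : algebraMap W K c ≠ 0 := fun h0 => hc
      (IsFractionRing.injective W K (h0.trans (map_zero _).symm))
    have := Submodule.smul_mem (Submodule.span K (Set.range bU)) (algebraMap W K c)⁻¹ h1
    rwa [inv_smul_smul₀ hc'] at this
  have hd : Module.finrank K U = d := by
    rw [Module.finrank_eq_card_basis (Module.Basis.mk hind hsp), Fintype.card_fin]
  suffices hli : LinearIndependent k (fun i => ρ (bΛ i)) from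
    ⟨bΛ ∘ Fin.cast hd, hli.comp _ (Fin.cast_injective hd)⟩
  rw [Fintype.linearIndependent_iff]
  intro a ha i
  choose w hw using fun i => hres (a i)
  have h0 : ρ (∑ j, w j • bΛ j) = 0 := by
    rw [map_sum, ← ha]
    exact Finset.sum_congr rfl fun j _ => by rw [hρ, hw]
  obtain ⟨y, hy⟩ := hsat _ h0
  have hrepr : w i = π * bΛ.repr y i := by
    have h2 := congrArg (fun z => bΛ.repr z i) hy
    simp only [map_smul, Finsupp.smul_apply, smul_eq_mul, bΛ.repr_sum_self] at h2
    exact h2
  have hπr : res π = 0 := (hker π).2 dvd_rfl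
  rw [← hw, hrepr, map_mul, hπr, zero_mul]

end Saturated

end FLTAgent.BadQ.TwoInst
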