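import Mathlib
import Fermat.Agent.BadQ.TwoInstCrossFF
import Fermat.Agent.BadQ.TwoInstCrossLattice
import Fermat.Agent.BadQ.TwoInstCharts
import Fermat.Agent.BadQ.TwoInstEtaleLocal
import Fermat.Agent.ModularPlaces.Fields

/-!
# Functions with bounded poles at level `N`: fixed bases and multiples in the charts

A Galois stable space of functions has a basis over the fixed field (`exists_fixed_basis`), and a
function regular where a coordinate is finite has a constant multiple in its chart
(`exists_smul_mem_chart`). Every closed point of an affine curve is the centre of a place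
(`exists_place_centre`).
-/

set_option autoImplicit false
set_option linter.style.haveILetI false
set_option linter.unusedSectionVars false
set_option synthInstance.maxHeartbeats 400000
set_option maxHeartbeats 1000000

noncomputable section

open Polynomial AlgebraicCurve ModularCurve

namespace FLTAgent.BadQ.TwoInst

section General

variable {W : Type*} [CommRing W] [IsDomain W] {K : Type*} [Field K] [Algebra W K] [IsFractionRing W K]
  {F : Type*} [Field F] [Algebra K F] [Algebra W F] [IsScalarTower W K F]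

/-- A constant multiple of a function integral over `K[s]` is integral over `W[s]`. -/
theorem exists_mul_mem_intCl_of_isIntegral {s f : F} (p : F[X]) (hp : p.Monic) (hf : p.eval f = 0)
    (hc : ∀ i, p.coeff i ∈ Algebra.adjoin K ({s} : Set F)) :
    ∃ c : W, c ≠ 0 ∧ algebraMap W F c * f ∈ TwoChart.intCl W ({s} : Set F) := by
  classical
  have hb : ∀ i, ∃ b : W, b ≠ 0 ∧ algebraMap W F b * p.coeff i ∈ Algebra.adjoin W ({s} : Set F) := by
    intro i
    have h := hc i
    rw [Algebra.adjoin_singleton_eq_range_aeval] at h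
    obtain ⟨P, hP⟩ := h
    rw [← hP]
    exact exists_mul_aeval_mem (W := W) P
  choose b hb0 hb using hb
  set c : W := ∏ i ∈ Finset.range (p.natDegree + 1), b i
  have hc0 : c ≠ 0 := Finset.prod_ne_zero_iff.2 fun i _ => hb0 i
  refine ⟨c, hc0, ?_⟩
  set p' : F[X] := p.scaleRoots (algebraMap W F c)
  have hp'f : p'.eval (algebraMap W F c * f) = 0 :=
    Polynomial.scaleRoots_eval₂_eq_zero (RingHom.id F) (by simpa [eval₂_id] using hf)
  have hlift : p' ∈ lifts (Algebra.adjoin W ({s} : Set F)).val.toRingHom := by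
    rw [lifts_iff_coeff_lifts]
    intro i
    rcases lt_trichotomy i p.natDegree with hi | hi | hi
    · refine ⟨⟨p'.coeff i, ?_⟩, rfl⟩
      rw [coeff_scaleRoots]
      obtain ⟨r, hr⟩ : b i ∣ c := Finset.dvd_prod_of_mem b (Finset.mem_range.2 (by omega))
      obtain ⟨j, hj⟩ : ∃ j, p.natDegree - i = j + 1 := ⟨p.natDegree - i - 1, by omega⟩
      rw [hj, pow_succ', ← mul_assoc]
      refine mul_mem ?_ (pow_mem (Subalgebra.algebraMap_mem _ c) j)
      rw [hr, map_mul, ← mul_assoc, mul_comm (p.coeff i)]
      exact mul_mem (hb i) (Subalgebra.algebraMap_mem _ r)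
    · refine ⟨1, ?_⟩
      subst hi
      rw [coeff_scaleRoots, hp.coeff_natDegree, Nat.sub_self, pow_zero, mul_one]
      exact map_one _
    · refine ⟨0, ?_⟩
      rw [coeff_scaleRoots, coeff_eq_zero_of_natDegree_lt hi, zero_mul]
      exact map_zero _
  obtain ⟨r, hr, -, hrm⟩ := lifts_and_degree_eq_and_monic hlift ((monic_scaleRoots_iff _).2 hp)
  refine (⟨r, hrm, ?_⟩ : IsIntegral (Algebra.adjoin W ({s} : Set F)) (algebraMap W F c * f))
  refine Eq.trans ?_ hp'f
  rw [← hr, eval_map]
  rfl

end General

local notation "Qb" => AlgebraicClosure ℚ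

variable {A : ValuationSubring Qb} {N : ℕ} [NeZero N]

open FLTAgent.ModularPlaces

/-- A Galois stable space of functions has a basis defined over the fixed field. -/
theorem exists_fixed_basis (V : Submodule Qb (modularFunctionFieldBar N)) [FiniteDimensional Qb V]
    (hV : ∀ σ ∈ inert A, ∀ y ∈ V, arithmeticGalois (modularFunctionFieldFull N) σ • y ∈ V) :
    ∃ e : Fin (Module.finrank Qb V) → Fn A N,
      LinearIndependent Qb (fun i => (e i : modularFunctionFieldBar N)) ∧
        ∀ i, (e i : modularFunctionFieldBar N) ∈ V := by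
  let cf : ℤ → Module.Dual Qb V := fun i =>
    { toFun := fun y => ((y : modularFunctionFieldBar N) : LaurentSeries Qb).coeff i
      map_add' := fun y z => rfl
      map_smul' := fun a y => by
        rw [RingHom.id_apply, smul_eq_mul, Submodule.coe_smul, Algebra.smul_def]
        show ((algebraMap Qb (modularFunctionFieldBar N) a : LaurentSeries Qb) *
          ((y : modularFunctionFieldBar N) : LaurentSeries Qb)).coeff i = _
        rw [show (algebraMap Qb (modularFunctionFieldBar N) a : LaurentSeries Qb) = HahnSeries.C a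
          from RingHom.congr_fun Reduction.algebraMap_eq_C a, HahnSeries.C_mul_eq_smul]
        rfl }
  have hsep : ∀ y : V, (∀ i, cf i y = 0) → y = 0 := fun y hy =>
    Subtype.ext (Subtype.ext (HahnSeries.ext (funext fun i => hy i)))
  obtain ⟨b, hb, hfix⟩ := exists_fixed_coeff_basis cf hsep
    (fun (σ : inert A) (a : Qb) => (σ : Qb ≃ₐ[ℚ] Qb) a) (fun σ => map_zero _) (fun σ => map_one _)
    (fun σ y => ⟨arithmeticGalois (modularFunctionFieldFull N) (σ : Qb ≃ₐ[ℚ] Qb) •
      (y : modularFunctionFieldBar N), hV _ σ.2 _ y.2⟩)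
    (fun σ y i => rfl)
  refine ⟨fun i => ⟨(b i : modularFunctionFieldBar N), TwoChart.mem_fixedF.2 fun σ hσ =>
    congrArg Subtype.val (hfix ⟨σ, hσ⟩ i)⟩, ?_, fun i => (b i).2⟩
  exact hb.map' V.subtype (LinearMap.ker_eq_bot.2 Subtype.val_injective)

variable {q : ℕ} [Fact q.Prime]

/-- A function regular where `y` is finite has a constant multiple in the chart of `y`. -/
theorem exists_smul_mem_chart {y f : Fn A N}
    (hreg : ∀ v : Place Qb (modularFunctionFieldBar N), 0 ≤ v.ord (y : modularFunctionFieldBar N) →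
      0 ≤ v.ord (f : modularFunctionFieldBar N)) :
    ∃ c : W0 A, c ≠ 0 ∧ c • f ∈ TwoChart.intCl (W0 A) ({y} : Set (Fn A N)) := by
  classical
  set yb : modularFunctionFieldBar N := (y : modularFunctionFieldBar N)
  set R := Algebra.adjoin (K0 A) ({yb} : Set (modularFunctionFieldBar N))
  set C₁ := integralClosure R (modularFunctionFieldBar N)
  haveI : Algebra.IsIntegral (K0 A) Qb := ⟨TwoChart.isIntegral_fixedK (I := inert A)⟩
  have hQ : ∀ z ∈ Algebra.adjoin Qb ({yb} : Set (modularFunctionFieldBar N)), z ∈ C₁ := by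
    intro z hz
    induction hz using Algebra.adjoin_induction with
    | mem z hz =>
      rw [Set.mem_singleton_iff.1 hz]
      exact isIntegral_algebraMap (x := (⟨yb, Algebra.subset_adjoin rfl⟩ : R))
    | algebraMap c =>
      have h1 : IsIntegral (K0 A) (algebraMap Qb (modularFunctionFieldBar N) c) :=
        (Algebra.IsIntegral.isIntegral (R := K0 A) c).map (IsScalarTower.toAlgHom (K0 A) Qb _)
      exact h1.tower_top
    | add a b _ _ ha hb => exact add_mem ha hb
    | mul a b _ _ ha hb => exact mul_mem ha hb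
  obtain ⟨P, hP, hP0⟩ := isIntegral_of_ord_nonneg (f := (f : modularFunctionFieldBar N)) hreg
  let χ : Algebra.adjoin Qb ({yb} : Set (modularFunctionFieldBar N)) →+* C₁ :=
    (Algebra.adjoin Qb ({yb} : Set (modularFunctionFieldBar N))).val.toRingHom.codRestrict C₁
      fun z => hQ z z.2
  have hfC : IsIntegral C₁ (f : modularFunctionFieldBar N) :=
    ⟨P.map χ, hP.map _, by rw [eval₂_map]; exact hP0⟩
  obtain ⟨P₁, hP₁, hP₁0⟩ := isIntegral_trans (R := R) (f : modularFunctionFieldBar N) hfC
  have hmap : R = (Algebra.adjoin (K0 A) ({y} : Set (Fn A N))).map (Fn A N).val := by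
    rw [AlgHom.map_adjoin_singleton]
    rfl
  have hlift : P₁.map R.val.toRingHom ∈
      lifts ((Fn A N).val.toRingHom.comp (Algebra.adjoin (K0 A) ({y} : Set (Fn A N))).val.toRingHom) := by
    rw [lifts_iff_coeff_lifts]
    intro i
    rw [coeff_map]
    have h : ((P₁.coeff i : R) : modularFunctionFieldBar N) ∈
        (Algebra.adjoin (K0 A) ({y} : Set (Fn A N))).map (Fn A N).val := hmap.le (P₁.coeff i).2
    obtain ⟨z, hz, hzeq⟩ := h
    exact ⟨⟨z, hz⟩, hzeq⟩
  obtain ⟨P₂, hP₂, -, hP₂m⟩ := lifts_and_degree_eq_and_monic hlift (hP₁.map _)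
  have hf0 : (P₂.map (Algebra.adjoin (K0 A) ({y} : Set (Fn A N))).val.toRingHom).eval f = 0 := by
    refine (Fn A N).val.toRingHom.injective ?_
    rw [map_zero, eval_map, hom_eval₂, ← eval_map, hP₂, eval_map]
    exact hP₁0
  obtain ⟨c, hc, hmem⟩ := exists_mul_mem_intCl_of_isIntegral (W := W0 A) (K := K0 A) (s := y) (f := f)
    (P₂.map (Algebra.adjoin (K0 A) ({y} : Set (Fn A N))).val.toRingHom) (hP₂m.map _) hf0
    (fun i => by rw [coeff_map]; exact (P₂.coeff i).2)
  exact ⟨c, hc, by rw [Algebra.smul_def]; exact hmem⟩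

theorem mem_valuationSubring_of_mem_intCl {k E : Type*} [Field k] [Field E] [Algebra k E]
    {x z : E} (v : Place k E) (hx : x ∈ v.toValuationSubring) (hz : z ∈ BadQ.intCl (k := k) x) :
    z ∈ v.toValuationSubring := by
  have hadj : ∀ a ∈ Algebra.adjoin k ({x} : Set E), a ∈ v.toValuationSubring := by
    intro a ha
    induction ha using Algebra.adjoin_induction with
    | mem a ha => rw [Set.mem_singleton_iff.1 ha]; exact hx
    | algebraMap r => exact v.algebraMap_mem' r
    | add a b _ _ ha hb => exact add_mem ha hb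
    | mul a b _ _ ha hb => exact mul_mem ha hb
  obtain ⟨p, hp, hp0⟩ := BadQ.mem_intCl.1 hz
  have hint : IsIntegral v.toValuationSubring z :=
    ⟨p.map ((Algebra.adjoin k ({x} : Set E)).val.toRingHom.codRestrict
      v.toValuationSubring.toSubring fun a => hadj a a.2), hp.map _, by rw [eval₂_map]; exact hp0⟩
  obtain ⟨w, hw⟩ := (IsIntegrallyClosed.isIntegral_iff (R := v.toValuationSubring) (K := E)).1 hint
  exact hw ▸ w.2

/-- Every closed point of an affine curve is the centre of a place. -/
theorem exists_place_centre {k E : Type*} [Field k] [IsAlgClosed k] [Field E] [Algebra k E]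
    [FF.IsFF k E] (S : Subalgebra k E) (Q : Ideal S) [Q.IsPrime] (hQ : Q ≠ ⊥) :
    ∃ v : Place k E, (∀ z : S, (z : E) ∈ v.toValuationSubring) ∧
      ∀ z : S, z ∈ Q → (z : E) = 0 ∨ 0 < v.ord (z : E) := by
  obtain ⟨B, hB, hQB, -⟩ := exists_valuationSubring_prime S.val.toRingHom Subtype.val_injective Q
  obtain ⟨z₀, hz₀, hz₀0⟩ := Submodule.exists_mem_ne_zero_of_ne_bot hQ
  obtain ⟨v, hv⟩ := exists_place_of_valuationSubring (K := k) (k := k) B
    (fun a => hB (algebraMap k S a)) (fun h => hz₀0 (Subtype.ext h)) (hQB z₀ hz₀)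
  refine ⟨v, fun z => hv ▸ hB z, fun z hz => ?_⟩
  rcases eq_or_ne (z : E) 0 with h | h
  · exact Or.inl h
  · exact Or.inr ((ord_of_valuationSubring hv h (hB z)).2.1 (hQB z hz))

theorem rv_eq_zero_of_ord_pos {k E : Type*} [Field k] [IsAlgClosed k] [Field E] [Algebra k E]
    [FF.IsFF k E] (v : Place k E) {z : E} (hz : z = 0 ∨ 0 < v.ord z) : TwoChart.rv v z = 0 := by
  rcases eq_or_ne z 0 with rfl | h0
  · rw [← map_zero (algebraMap k E), TwoChart.rv_algebraMap]
  have hord := hz.resolve_left h0
  have hmem : z ∈ v.toValuationSubring := (FF.mem_iff_ord_nonneg v h0).2 hord.le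
  rw [TwoChart.rv_eq_zero_iff v hmem, IsLocalRing.mem_maximalIdeal, mem_nonunits_iff,
    ← v.adicValuation_coe_eq_one_iff, FF.val_eq_exp v h0, WithZero.exp_eq_one, neg_eq_zero]
  exact hord.ne'

end FLTAgent.BadQ.TwoInst
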