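import Fermat.Agent.BadQ.TwoStep

/-!
# Generators of the maximal ideals at level `qM`

Away from crossings the maximal ideal of a point is generated by `q` and a parameter pulled back
from level `M` (`xI_le`, `xZ_le`); at a crossing by the two parameters (`crossing_data`).
`crossing_iff` characterises crossings. At a cusp of the component of `∞` the two cusp parameters
are related by `cusp_relation`.
-/

set_option autoImplicit false

namespace FLTAgent.BadQ.Two

open Ideal IsLocalRing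

section General

variable {R : Type*} [CommRing R]

theorem mem_sup_sq_of_mul {x : Ideal R} [hx : x.IsMaximal] {I : Ideal R} {s a : R} (hs : s ∉ x)
    (ha : a ∈ x) (h : s * a ∈ I ⊔ x ^ 2) : a ∈ I ⊔ x ^ 2 := by
  obtain ⟨y, z, hz, e⟩ := hx.exists_inv hs
  rw [show a = y * (s * a) + z * a by rw [← mul_assoc, ← add_mul, e, one_mul]]
  exact add_mem (mul_mem_left _ _ h) (Submodule.mem_sup_right (pow_two x ▸ mul_mem_mul hz ha))

theorem maximalIdeal_eq_span [IsNoetherianRing R] (x : Ideal R) [x.IsMaximal] {G : Set R}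
    (hG : G ⊆ x) (hle : x ≤ Ideal.span G ⊔ x ^ 2) :
    maximalIdeal (Localization.AtPrime x) =
      Ideal.span (algebraMap R (Localization.AtPrime x) '' G) := by
  rw [← Localization.AtPrime.map_eq_maximalIdeal (I := x), ← Ideal.map_span]
  refine le_antisymm ?_ (Ideal.map_mono (Ideal.span_le.2 hG))
  have := Ideal.map_mono (f := algebraMap R (Localization.AtPrime x)) hle
  rw [Ideal.map_sup, Ideal.map_pow, pow_two] at this
  exact Submodule.le_of_le_smul_of_le_jacobson_bot (IsNoetherian.noetherian _)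
    (le_trans le_rfl ((jacobson_eq_maximalIdeal (⊥ : Ideal (Localization.AtPrime x)) bot_ne_top).ge.trans'
      (Localization.AtPrime.map_eq_maximalIdeal (I := x)).le)) this

/-- Two primes below a regular point of dimension two containing the same parameter are equal. -/
theorem eq_of_mem_of_le [IsNoetherianRing R] [IsDomain R] {x : Ideal R} [x.IsMaximal] {a b : R}
    (ha : a ∈ x) (hb : b ∈ x) (hle : x ≤ Ideal.span {a, b} ⊔ x ^ 2) {k p p' : Ideal R}
    [k.IsPrime] [p.IsPrime] [p'.IsPrime] (hk0 : k ≠ ⊥) (hk : k < x) (hp : p < x) (hp' : p' < x)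
    (hap : a ∈ p) (hap' : a ∈ p') : p = p' := by
  let S := Localization.AtPrime x
  have : IsDomain S := IsLocalization.isDomain_localization x.primeCompl_le_nonZeroDivisors
  have hG : ({a, b} : Set R) ⊆ x := by rintro _ (rfl | rfl) <;> assumption
  have hm : maximalIdeal S = Ideal.span {algebraMap R S a, algebraMap R S b} := by
    rw [maximalIdeal_eq_span x hG hle, Set.image_pair]
  have hd : ∀ j : Ideal R, j.IsPrime → j ≤ x → Disjoint (x.primeCompl : Set R) (j : Set R) :=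
    fun j _ hj => Set.disjoint_left.2 fun z hz hzj => hz (hj hzj)
  have hprime : ∀ j : Ideal R, j.IsPrime → j ≤ x → (j.map (algebraMap R S)).IsPrime :=
    fun j hj hjx => IsLocalization.isPrime_of_isPrime_disjoint x.primeCompl S j hj (hd j hj hjx)
  have hcomap : ∀ j : Ideal R, j.IsPrime → j ≤ x → (j.map (algebraMap R S)).comap (algebraMap R S) = j :=
    fun j hj hjx => IsLocalization.under_map_of_isPrime_disjoint x.primeCompl S hj (hd j hj hjx)
  have hne : ∀ j : Ideal R, j.IsPrime → j < x → j.map (algebraMap R S) ≠ maximalIdeal S := by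
    intro j hj hjx e
    apply hjx.ne
    rw [← hcomap j hj hjx.le, e]
    exact IsLocalization.AtPrime.under_maximalIdeal S x
  have := hprime k ‹_› hk.le
  have := hprime p ‹_› hp.le
  have := hprime p' ‹_› hp'.le
  have hk0' : k.map (algebraMap R S) ≠ ⊥ := fun e => hk0 (by
    rw [← hcomap k ‹_› hk.le, e, ← RingHom.ker_eq_comap_bot,
      (RingHom.injective_iff_ker_eq_bot _).1 (IsLocalization.injective S x.primeCompl_le_nonZeroDivisors)])
  have e := eq_span_left hm hk0' (hne k ‹_› hk) (mem_map_of_mem _ hap) (hne p ‹_› hp)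
  have e' := eq_span_left hm hk0' (hne k ‹_› hk) (mem_map_of_mem _ hap') (hne p' ‹_› hp')
  rw [← hcomap p ‹_› hp.le, ← hcomap p' ‹_› hp'.le, e, e']

/-- A locally principal prime contains no smaller nonzero prime. -/
theorem eq_of_le_of_principal [IsNoetherianRing R] [IsDomain R] {p p' : Ideal R} [hp : p.IsPrime]
    [hp' : p'.IsPrime] (h0 : p' ≠ ⊥) (hle : p' ≤ p) {π : R} (hπ : π ∈ p)
    (hgen : ∀ a ∈ p, ∃ s ∉ p, s * a ∈ Ideal.span {π}) : p' = p := by
  have hmem : π ∈ p' := by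
    by_contra hπ'
    let S := Localization.AtPrime p
    have hJ : (p'.map (algebraMap R S)) ≤ maximalIdeal S • p'.map (algebraMap R S) := by
      rw [Ideal.map_le_iff_le_comap]
      intro a ha
      obtain ⟨s, hs, hsa⟩ := hgen a (hle ha)
      obtain ⟨b, hb⟩ := Ideal.mem_span_singleton'.1 hsa
      have hbp : b ∈ p' :=
        (hp'.mem_or_mem (show b * π ∈ p' from hb ▸ p'.mul_mem_left s ha)).resolve_right hπ'
      have hu : IsUnit (algebraMap R S s) := IsLocalization.map_units S (⟨s, hs⟩ : p.primeCompl)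
      rw [Ideal.mem_comap, ← Submodule.smul_mem_iff_of_isUnit _ hu]
      simp only [smul_eq_mul]
      rw [← map_mul, ← hb, map_mul, mul_comm (algebraMap R S b)]
      refine Ideal.mul_mem_mul ?_ (mem_map_of_mem _ hbp)
      rw [← Localization.AtPrime.map_eq_maximalIdeal (I := p)]
      exact mem_map_of_mem _ hπ
    have := Submodule.eq_bot_of_le_smul_of_le_jacobson_bot _ _ (IsNoetherian.noetherian _) hJ
      (jacobson_eq_maximalIdeal ⊥ bot_ne_top).ge
    apply h0
    rw [eq_bot_iff]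
    intro a ha
    have : algebraMap R S a = 0 := by
      rw [← Ideal.mem_bot, ← this]; exact mem_map_of_mem _ ha
    exact IsLocalization.injective S p.primeCompl_le_nonZeroDivisors (by rw [this, map_zero])
  refine le_antisymm hle fun a ha => ?_
  obtain ⟨s, hs, hsa⟩ := hgen a ha
  exact (hp'.mem_or_mem ((Ideal.span_singleton_le_iff_mem _).2 hmem hsa)).resolve_left fun h => hs (hle h)

end General

variable {q : ℕ} {W A₀ A₁ C F₁ : Type*} [CommRing W] [CommRing A₀] [CommRing A₁]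
  [CommRing C] [Field F₁] [Algebra W A₀] [Algebra W A₁] [Algebra W C]
  [Algebra W F₁] [Algebra A₁ F₁] [IsDedekindDomain C]

namespace StepData

variable (h : StepData q W A₀ A₁ C F₁) {Q : Ideal C} [hQ : Q.IsMaximal]
include h

theorem comap_ι_xI : (h.xI Q).comap h.ι.toAlgHom = h.xZ Q := rfl

theorem comap_ι_kI : h.kI.comap h.ι.toAlgHom = h.kZ := rfl

omit hQ in
theorem piZero_ι (a : A₁) : h.piZero (h.ι a) = h.piInf a := by
  let f : A₁ →ₐ[W] C := h.piZero.comp h.ι.toAlgHom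
  have : (RingHom.ker f).IsPrime := RingHom.ker_isPrime _
  have hker : RingHom.ker f = h.kZ.comap h.ι.toAlgHom := rfl
  have hq : (q : A₁) ∈ RingHom.ker f := by
    change f _ = 0; rw [map_natCast, h.q_eq_zero]
  have heq : h.kI ≤ RingHom.ker f := by
    refine (h.mem_or_mem_of_q_mem hq).resolve_right fun hZ => h.kI_ne_kZ ?_
    have hle : h.kI ≤ h.kZ := by
      intro b hb
      have : h.ι.symm b ∈ RingHom.ker f := hZ (by
        change h.piInf (h.ι (h.ι.symm b)) = 0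
        rw [AlgEquiv.apply_symm_apply]; exact hb)
      simpa [hker] using this
    refine le_antisymm hle fun b hb => ?_
    obtain ⟨a₀, ha₀⟩ := h.red_surjective (h.piInf b)
    have hb' : b - h.α a₀ ∈ h.kI := by
      change h.piInf _ = 0; rw [map_sub, h.piInf_α, ha₀, sub_self]
    have : h.piZero (h.α a₀) = 0 := by
      have := hle hb'
      simpa [kZ, show h.piZero b = 0 from hb] using this
    rw [h.piZero_α, map_eq_zero_iff _ h.φ_injective] at this
    change h.piInf b = 0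
    rw [← ha₀, this]
  obtain ⟨a₀, ha₀⟩ := h.red_surjective (h.piInf a)
  have := heq (show a - h.α a₀ ∈ h.kI by
    change h.piInf _ = 0; rw [map_sub, h.piInf_α, ha₀, sub_self])
  have h2 : f (a - h.α a₀) = 0 := this
  rw [map_sub, sub_eq_zero] at h2
  rw [← ha₀]
  calc h.piZero (h.ι a) = f (h.α a₀) := h2
    _ = h.red a₀ := by change h.piZero (h.ι (h.α a₀)) = _; rw [h.ι_α, h.piZero_β]

theorem comap_ι_xZ : (h.xZ Q).comap h.ι.toAlgHom = h.xI Q := by
  ext a
  change h.piZero (h.ι a) ∈ Q ↔ _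
  rw [h.piZero_ι]; rfl

omit hQ in
theorem comap_ι_kZ : h.kZ.comap h.ι.toAlgHom = h.kI := by
  ext a
  change h.piZero (h.ι a) = 0 ↔ _
  rw [h.piZero_ι]; rfl

theorem crossing_of_kZ_le (hle : h.kZ ≤ h.xI Q) : h.Crossing Q := by
  have hcm : ((h.xI Q).map h.piZero).comap h.piZero = h.xI Q := by
    rw [Ideal.comap_map_of_surjective' _ h.piZero_surjective]
    exact sup_eq_left.2 hle
  rcases Ideal.map_eq_top_or_isMaximal_of_surjective _ h.piZero_surjective
    (inferInstance : (h.xI Q).IsMaximal) with e | e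
  · exact absurd (by rw [← hcm, e, Ideal.comap_top]) (h.xI_maximal (Q := Q)).ne_top
  · exact ⟨_, e, hcm⟩

/-- Crossings are fixed by `fr ∘ fr` and have equal images on the two components. -/
theorem crossing_iff : h.Crossing Q ↔ h.fr (h.fr Q) = Q ∧ h.xZ (h.fr Q) = h.xI Q := by
  refine ⟨fun ⟨Q', hQ', e⟩ => ?_, fun ⟨_, e⟩ => ⟨_, inferInstance, e⟩⟩
  have := hQ'
  have e' : h.xZ Q' = h.xI Q := e
  have h1 : h.fr Q' = Q := h.mA_injective (by rw [← h.comap_α_xZ, e', h.comap_α_xI])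
  have h2 : Q' = h.fr Q := h.mA_injective (by rw [← h.comap_β_xZ, e', h.comap_β_xI])
  subst h2
  exact ⟨h1, e'⟩

theorem crossing_fr (hc : h.Crossing Q) : h.Crossing (h.fr Q) := by
  obtain ⟨e, e'⟩ := h.crossing_iff.1 hc
  refine ⟨Q, hQ, ?_⟩
  change h.xZ Q = h.xI (h.fr Q)
  rw [← h.comap_ι_xZ (Q := h.fr Q), e', h.comap_ι_xI]

theorem crossing_of_kI_le (hle : h.kI ≤ h.xZ Q) : h.Crossing Q := by
  refine h.crossing_of_kZ_le ?_
  rw [← h.comap_ι_kI, ← h.comap_ι_xZ]
  exact Ideal.comap_mono hle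

omit hQ in
theorem mul_mem_q {a b : A₁} (ha : a ∈ h.kI) (hb : b ∈ h.kZ) : a * b ∈ Ideal.span {(q : A₁)} :=
  Ideal.mem_span_singleton.2 <| h.reduced _
    (by rw [map_mul, show h.piInf a = 0 from ha, zero_mul])
    (by rw [map_mul, map_mul, show h.piInf (h.ι b) = 0 from hb, mul_zero])

theorem exists_sub_mem_xI (a : A₁) : ∃ w : W, a - algebraMap W A₁ w ∈ h.xI Q := by
  obtain ⟨w, hw⟩ := h.exists_sub_mem (Q := Q) (h.piInf a)
  exact ⟨w, show h.piInf _ ∈ Q by rwa [map_sub, AlgHom.commutes]⟩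

theorem exists_sub_mem_xZ (a : A₁) : ∃ w : W, a - algebraMap W A₁ w ∈ h.xZ Q := by
  obtain ⟨w, hw⟩ := h.exists_sub_mem (Q := Q) (h.piZero a)
  exact ⟨w, show h.piZero _ ∈ Q by rwa [map_sub, AlgHom.commutes]⟩

theorem exists_sub_mem_mA (a : A₀) : ∃ w : W, a - algebraMap W A₀ w ∈ h.mA Q := by
  obtain ⟨w, hw⟩ := h.exists_sub_mem (Q := Q) (h.red a)
  exact ⟨w, show h.red _ ∈ Q by rwa [map_sub, AlgHom.commutes]⟩

theorem α_mem_xI {a : A₀} (ha : h.red a ∈ Q) : h.α a ∈ h.xI Q := by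
  change h.piInf _ ∈ Q; rwa [h.piInf_α]

theorem β_mem_xI {a : A₀} (ha : h.red a ∈ h.fr Q) : h.β a ∈ h.xI Q := by
  change h.piInf _ ∈ Q; rwa [h.piInf_β]

theorem mA_le {u : A₀} (hu : IsUnif Q (h.red u)) :
    h.mA Q ≤ Ideal.span {(q : A₀), u} ⊔ h.mA Q ^ 2 := by
  intro a ha
  have hQ2 : (h.mA Q ^ 2).map h.red = Q ^ 2 := by
    rw [Ideal.map_pow, mA, Ideal.map_comap_of_surjective _ h.red_surjective]
  obtain ⟨y, hy, z, hz, e⟩ := Submodule.mem_sup.1 (hu.le_sup (show h.red a ∈ Q from ha))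
  obtain ⟨r, rfl⟩ := Ideal.mem_span_singleton'.1 hy
  obtain ⟨r, rfl⟩ := h.red_surjective r
  rw [← hQ2] at hz
  obtain ⟨z', hz', rfl⟩ := (Ideal.mem_map_iff_of_surjective _ h.red_surjective).1 hz
  clear hz
  rename' z' => z, hz' => hz
  have : a - (r * u + z) ∈ RingHom.ker h.red := by
    simp [RingHom.mem_ker, map_sub, ← e]
  rw [h.ker_red] at this
  rw [show a = (a - (r * u + z)) + r * u + z by ring]
  exact add_mem (add_mem (Submodule.mem_sup_left (span_mono (by simp) this))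
    (Submodule.mem_sup_left (mul_mem_left _ _ (subset_span (by simp))))) (Submodule.mem_sup_right hz)

theorem xI_le {u : A₀} (hu : IsUnif Q (h.red u)) (hc : ¬ h.Crossing Q) :
    h.xI Q ≤ Ideal.span {(q : A₁), h.α u} ⊔ h.xI Q ^ 2 := by
  intro a ha
  obtain ⟨a₀, ha₀⟩ := h.red_surjective (h.piInf a)
  have hm : a₀ ∈ h.mA Q := by change h.red a₀ ∈ Q; rw [ha₀]; exact ha
  have hα : h.α a₀ ∈ Ideal.span {(q : A₁), h.α u} ⊔ h.xI Q ^ 2 := by
    have := Ideal.mem_map_of_mem h.α (h.mA_le hu hm)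
    rw [Ideal.map_sup, Ideal.map_pow, Ideal.map_span, Set.image_pair, map_natCast] at this
    exact sup_le_sup_left (Ideal.pow_right_mono
      (Ideal.map_le_iff_le_comap.2 h.comap_α_xI.ge) 2) _ this
  have hk : a - h.α a₀ ∈ h.kI := by
    change h.piInf _ = 0; rw [map_sub, h.piInf_α, ha₀, sub_self]
  obtain ⟨s, hs, hsx⟩ := SetLike.not_le_iff_exists.1 fun hle => hc (h.crossing_of_kZ_le hle)
  have : a - h.α a₀ ∈ Ideal.span {(q : A₁), h.α u} ⊔ h.xI Q ^ 2 := by
    refine mem_sup_sq_of_mul hsx (h.kI_le_xI Q hk) (Submodule.mem_sup_left ?_)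
    rw [mul_comm]
    exact span_mono (by simp) (h.mul_mem_q hk hs)
  simpa using add_mem this hα

theorem xZ_le {u : A₀} (hu : IsUnif Q (h.red u)) (hc : ¬ h.Crossing Q) :
    h.xZ Q ≤ Ideal.span {(q : A₁), h.β u} ⊔ h.xZ Q ^ 2 := by
  have hmap : ∀ I : Ideal A₁, I.map (h.ι.symm : A₁ →ₐ[W] A₁) = I.comap h.ι.toAlgHom := fun I => by
    ext a
    rw [Ideal.mem_map_iff_of_surjective (h.ι.symm : A₁ →ₐ[W] A₁) h.ι.symm.surjective]
    exact ⟨fun ⟨b, hb, e⟩ => by simpa [← e] using hb, fun ha => ⟨h.ι a, ha, by simp⟩⟩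
  have := Ideal.map_mono (f := (h.ι.symm : A₁ →ₐ[W] A₁)) (h.xI_le hu hc)
  rw [Ideal.map_sup, Ideal.map_pow, Ideal.map_span, hmap, h.comap_ι_xI, Set.image_pair,
    map_natCast, show (h.ι.symm : A₁ →ₐ[W] A₁) (h.α u) = h.β u from
      h.ι.symm_apply_eq.2 (h.ι_β u).symm] at this
  exact this

/-- The generators at a crossing. -/
theorem crossing_data (hc : h.Crossing Q) {u v a₀ : A₀} (hu : IsUnif Q (h.red u))
    (hv : h.φ (h.red v) = h.red u ^ q) (ha₀ : h.φ (h.red u) = h.red a₀ ^ q) :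
    h.piInf (h.β v - h.α u ^ q) = 0 ∧ h.piZero (h.α u - h.β a₀ ^ q) = 0 ∧
      IsUnif Q (h.piInf (h.α u - h.β a₀ ^ q)) ∧
      IsUnif (h.fr Q) (h.piZero (h.β v - h.α u ^ q)) ∧
      h.β a₀ ∈ h.xI Q ∧
      h.xI Q ≤ Ideal.span {(q : A₁), h.α u, h.β v} ⊔ h.xI Q ^ 2 := by
  obtain ⟨hfr, hxz⟩ := h.crossing_iff.1 hc
  have hua : IsUnif (h.fr Q) (h.red a₀) := by
    refine h.isUnif_of_φ_eq' (Q := h.fr Q) ?_ ha₀
    rw [hfr]; exact hu
  have huv := h.isUnif_of_φ_eq hu hv
  have h1 : h.piInf (h.β v - h.α u ^ q) = 0 := by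
    rw [map_sub, map_pow, h.piInf_β, h.piInf_α, hv, sub_self]
  have h2 : h.piZero (h.α u - h.β a₀ ^ q) = 0 := by
    rw [map_sub, map_pow, h.piZero_β, h.piZero_α, ha₀, sub_self]
  have hsq : ∀ {R : Ideal C} {b : C}, b ∈ R → b ^ q ∈ R ^ 2 := fun hb =>
    Ideal.pow_le_pow_right h.prime.two_le (Ideal.pow_mem_pow hb q)
  have h3 : IsUnif Q (h.piInf (h.α u - h.β a₀ ^ q)) := by
    rw [map_sub, map_pow, h.piInf_β, h.piInf_α, sub_eq_add_neg]
    exact hu.add_mem_sq (neg_mem (hsq hua.1))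
  have h4 : IsUnif (h.fr Q) (h.piZero (h.β v - h.α u ^ q)) := by
    rw [map_sub, map_pow, h.piZero_β, h.piZero_α, sub_eq_add_neg]
    refine huv.add_mem_sq (neg_mem (hsq ?_))
    change h.red u ∈ h.fr (h.fr Q)
    rw [hfr]; exact hu.1
  have h5 : h.β a₀ ∈ h.xI Q := h.β_mem_xI hua.1
  refine ⟨h1, h2, h3, h4, h5, fun a ha => ?_⟩
  obtain ⟨e, he, her⟩ := h3.loc (show h.piInf a ∈ Q from ha)
  obtain ⟨r, hr⟩ := Ideal.mem_span_singleton'.1 her
  obtain ⟨e', he', her'⟩ := h4.loc (show h.piZero a ∈ h.fr Q by rw [← hxz] at ha; exact ha)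
  obtain ⟨r', hr'⟩ := Ideal.mem_span_singleton'.1 her'
  obtain ⟨S, rfl⟩ := h.piInf_surjective e
  obtain ⟨S', rfl⟩ := h.piZero_surjective e'
  obtain ⟨R, rfl⟩ := h.piInf_surjective r
  obtain ⟨R', rfl⟩ := h.piZero_surjective r'
  set u' := h.α u - h.β a₀ ^ q
  set v' := h.β v - h.α u ^ q
  have hd : S * S' * a - u' * (R * S') - v' * (R' * S) ∈ Ideal.span {(q : A₁)} := by
    refine Ideal.mem_span_singleton.2 (h.reduced _ ?_ ?_)
    · simp only [map_sub, map_mul, h1]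
      linear_combination -(h.piInf S') * hr
    · change h.piZero _ = 0
      simp only [map_sub, map_mul, h2]
      linear_combination -(h.piZero S) * hr'
  have hS : S * S' ∉ h.xI Q := fun hm => (Ideal.IsPrime.mem_or_mem inferInstance hm).elim
    (fun hm => he hm) (fun hm => he' (by rw [← hxz] at hm; exact hm))
  refine mem_sup_sq_of_mul hS ha ?_
  rw [show S * S' * a = (S * S' * a - u' * (R * S') - v' * (R' * S)) + u' * (R * S') + v' * (R' * S)
    by ring]
  have hu' : u' ∈ Ideal.span {(q : A₁), h.α u, h.β v} ⊔ h.xI Q ^ 2 :=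
    sub_mem (Submodule.mem_sup_left (subset_span (by simp)))
      (Submodule.mem_sup_right (Ideal.pow_le_pow_right h.prime.two_le (Ideal.pow_mem_pow h5 q)))
  have hv' : v' ∈ Ideal.span {(q : A₁), h.α u, h.β v} ⊔ h.xI Q ^ 2 :=
    sub_mem (Submodule.mem_sup_left (subset_span (by simp)))
      (Submodule.mem_sup_right (Ideal.pow_le_pow_right h.prime.two_le
        (Ideal.pow_mem_pow (h.α_mem_xI hu.1) q)))
  exact add_mem (add_mem (Submodule.mem_sup_left (span_mono (by simp) hd))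
    (mul_mem_right _ _ hu')) (mul_mem_right _ _ hv')

section Cusp

variable [IsDomain A₀] [IsDomain A₁] [IsNoetherianRing A₀] [IsNoetherianRing A₁]

omit hQ in
theorem q_ne_zero₀ : (q : A₀) ≠ 0 := fun e => h.q_ne_zero (by
  rw [← map_natCast h.α, e, map_zero])

theorem cusp_eq {c : Ideal A₀} (hc : c ∈ h.cusp) {u : A₀} (huc : u ∈ c) (hcQ : c ≤ h.mA Q)
    (hu : IsUnif Q (h.red u)) {p : Ideal A₀} [p.IsPrime] (hup : u ∈ p) (hp : p ≤ h.mA Q)
    (hq : (q : A₀) ∉ p) : p = c := by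
  obtain ⟨hcp, hqc⟩ := h.cusp_prime c hc
  have := hcp
  have hker : (RingHom.ker h.red) = Ideal.span {(q : A₀)} := h.ker_red
  have : (RingHom.ker h.red).IsPrime := RingHom.ker_isPrime _
  have hq_mem : (q : A₀) ∈ h.mA Q := by
    change h.red _ ∈ Q; rw [h.q_mem_ker_red]; exact zero_mem _
  refine eq_of_mem_of_le (x := h.mA Q) (a := u) (b := (q : A₀)) (k := RingHom.ker h.red)
    (show h.red u ∈ Q from hu.1) hq_mem ?_ ?_ ?_ (lt_of_le_of_ne hp ?_) (lt_of_le_of_ne hcQ ?_) hup huc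
  · rw [Set.pair_comm]; exact h.mA_le hu
  · intro e; exact h.q_ne_zero₀ (Ideal.mem_bot.1 (e ▸ (h.ker_red ▸ mem_span_singleton_self _)))
  · refine lt_of_le_of_ne (fun a (ha : h.red a = 0) => by
      change h.red a ∈ Q; rw [ha]; exact zero_mem _) fun e => hu.ne_zero ?_
    have : u ∈ RingHom.ker h.red := e ▸ (show h.red u ∈ Q from hu.1)
    exact this
  · intro e; exact hq (e ▸ hq_mem)
  · intro e; exact hqc (e ▸ hq_mem)

theorem exists_cusp_gen {c : Ideal A₀} (hc : c ∈ h.cusp) (hcQ : c ≤ h.mA Q) :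
    ∃ u ∈ c, IsUnif Q (h.red u) ∧ ∀ a ∈ c, ∃ s ∉ h.mA Q, s * a ∈ Ideal.span {u} := by
  obtain ⟨u, huc, hgen, huQ, hQgen⟩ := h.cusp_gen c hc Q hQ hcQ
  refine ⟨u, huc, ⟨huQ, fun h2 => ?_⟩, hgen⟩
  obtain ⟨b, hb⟩ := exists_isUnif (h.ne_bot (Q := Q))
  obtain ⟨s, hs, hsb⟩ := hQgen b hb.1
  exact hb.2 (notMem_pow_of_mul hs 2 ((Ideal.span_singleton_le_iff_mem _).2 h2 hsb))

/-- Above a cusp there is a cusp of level `qM` through every point. -/
theorem exists_prime_over {c : Ideal A₀} (hc : c ∈ h.cusp) {u : A₀} (huc : u ∈ c)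
    (hcQ : c ≤ h.mA Q) (hu : IsUnif Q (h.red u)) {x : Ideal A₁} [x.IsPrime]
    (hx : x.comap h.α = h.mA Q) :
    ∃ p : Ideal A₁, p.IsPrime ∧ p ≤ x ∧ (q : A₁) ∉ p ∧ p.comap h.α = c := by
  have hux : h.α u ∈ x := by
    have : u ∈ x.comap h.α := hx ▸ (show h.red u ∈ Q from hu.1)
    exact this
  obtain ⟨p, hp, hpx⟩ := Ideal.exists_minimalPrimes_le
    (show Ideal.span {h.α u} ≤ x from (Ideal.span_singleton_le_iff_mem _).2 hux)
  have hpp : p.IsPrime := hp.1.1
  have hup : h.α u ∈ p := hp.1.2 (mem_span_singleton_self _)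
  have hqp : (q : A₁) ∉ p := by
    intro hqp
    have : (Ideal.span {h.α u}).IsPrincipal := ⟨⟨_, rfl⟩⟩
    have h1 := Ideal.height_le_one_of_isPrincipal_of_mem_minimalPrimes _ _ hp
    have key : ∀ k : Ideal A₁, k.IsPrime → (q : A₁) ∈ k → k ≤ p → h.α u ∈ k := by
      intro k hk hqk hkp
      by_contra huk
      have hlt : k < p := lt_of_le_of_ne hkp fun e => huk (e ▸ hup)
      have h3 := (Ideal.height_strict_mono_of_isPrime hlt).trans_le h1
      rw [Order.lt_one_iff, Ideal.height_eq_zero_iff, IsDomain.minimalPrimes_eq_singleton_bot] at h3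
      exact h.q_ne_zero (Ideal.mem_bot.1 ((Set.mem_singleton_iff.1 h3) ▸ hqk))
    rcases h.mem_or_mem_of_q_mem hqp with hk | hk
    · have : h.piInf (h.α u) = 0 := key _ h.kI_prime h.q_mem_kI hk
      rw [h.piInf_α] at this; exact hu.ne_zero this
    · have : h.piZero (h.α u) = 0 := key _ h.kZ_prime h.q_mem_kZ hk
      rw [h.piZero_α, map_eq_zero_iff _ h.φ_injective] at this; exact hu.ne_zero this
  refine ⟨p, hpp, hpx, hqp, h.cusp_eq hc huc hcQ hu hup ((Ideal.comap_mono hpx).trans hx.le) ?_⟩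
  intro hq
  exact hqp (by simpa using hq)

variable [IsIntegrallyClosed A₁] [IsFractionRing A₁ F₁]

/-- At a point on the component of `∞` over a cusp, `(αu)ᵠ` and `βv` differ by a unit, where
`u`, `v` are the cusp parameters at the point and at its Frobenius image. -/
theorem cusp_relation {c : Ideal A₀} (hc : c ∈ h.cusp) (hcQ : c ≤ h.mA Q) :
    ∃ c' ∈ h.cusp, c' ≤ h.mA (h.fr Q) ∧ ∃ u v : A₀, IsUnif Q (h.red u) ∧ IsUnif (h.fr Q) (h.red v) ∧
      u ∈ c ∧ v ∈ c' ∧ ∃ s n : A₁, s ∉ h.xI Q ∧ n ∉ h.xI Q ∧ s * h.α u ^ q = n * h.β v := by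
  obtain ⟨u, huc, hu, hugen⟩ := h.exists_cusp_gen hc hcQ
  obtain ⟨p₁, hp₁, hp₁x, hqp₁, hp₁c⟩ := h.exists_prime_over hc huc hcQ hu h.comap_α_xI
  have hc' : p₁.comap h.β ∈ h.cusp := (h.cusp_iff p₁ hp₁).1 (hp₁c.symm ▸ hc)
  have hc'Q : p₁.comap h.β ≤ h.mA (h.fr Q) := (Ideal.comap_mono hp₁x).trans h.comap_β_xI.le
  obtain ⟨v, hvc, hv, hvgen⟩ := h.exists_cusp_gen hc' hc'Q
  refine ⟨_, hc', hc'Q, u, v, hu, hv, huc, hvc, ?_⟩
  have hv0 : h.β v ≠ 0 := fun e => hv.ne_zero (by rw [← h.piZero_β, e, map_zero])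
  set z : F₁ := algebraMap A₁ F₁ (h.α u) ^ q / algebraMap A₁ F₁ (h.β v) with hz
  have hvF : algebraMap A₁ F₁ (h.β v) ≠ 0 :=
    (map_ne_zero_iff _ (IsFractionRing.injective A₁ F₁)).2 hv0
  have hzmul : ∀ s r : A₁, (s • z = algebraMap A₁ F₁ r ↔ s * h.α u ^ q = r * h.β v) := by
    intro s r
    rw [hz, Algebra.smul_def, mul_div, div_eq_iff hvF, ← map_pow, ← map_mul, ← map_mul]
    exact (IsFractionRing.injective A₁ F₁).eq_iff
  have hloc : ∀ p : Ideal A₁, p.IsPrime → p ≤ h.xI Q → p ≠ ⊥ →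
      (∃ π ∈ p, ∀ a ∈ p, ∃ s ∉ p, s * a ∈ Ideal.span {π}) →
      ∃ s ∉ p, s • z ∈ (algebraMap A₁ F₁).range := by
    intro p hp hpx _ ⟨π, hπ, hgen⟩
    have := hp
    by_cases hvp : h.β v ∈ p
    swap
    · exact ⟨_, hvp, h.α u ^ q, ((hzmul _ _).2 (mul_comm _ _)).symm⟩
    have hqp : (q : A₁) ∉ p := by
      intro hqp
      rcases h.mem_or_mem_of_q_mem hqp with hk | hk
      · have := eq_of_le_of_principal (fun e => h.q_ne_zero (Ideal.mem_bot.1 (e ▸ h.q_mem_kI))) hk hπ hgen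
        have : h.piInf (h.β v) = 0 := (this ▸ hvp : h.β v ∈ h.kI)
        rw [h.piInf_β, map_eq_zero_iff _ h.φ_injective] at this
        exact hv.ne_zero this
      · have := eq_of_le_of_principal (fun e => h.q_ne_zero (Ideal.mem_bot.1 (e ▸ h.q_mem_kZ))) hk hπ hgen
        have : h.piZero (h.β v) = 0 := (this ▸ hvp : h.β v ∈ h.kZ)
        rw [h.piZero_β] at this
        exact hv.ne_zero this
    have hβ : p.comap h.β = p₁.comap h.β :=
      h.cusp_eq (Q := h.fr Q) hc' hvc hc'Q hv hvp ((Ideal.comap_mono hpx).trans h.comap_β_xI.le)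
        (fun hq => hqp (by simpa using hq))
    have hαc : p.comap h.α ∈ h.cusp := (h.cusp_iff p hp).2 (hβ ▸ hc')
    have hαe : p.comap h.α = c := h.cusp_unique _ hαc _ hc Q hQ
      ((Ideal.comap_mono hpx).trans h.comap_α_xI.le) hcQ
    let S := Localization.AtPrime p
    have hmap : ∀ (f : A₀ →ₐ[W] A₁) (R : Ideal C) (d : Ideal A₀) (g : A₀), g ∈ d →
        (∀ a ∈ d, ∃ s ∉ h.mA R, s * a ∈ Ideal.span {g}) → (∀ s ∈ p.comap f, s ∈ h.mA R) →
        (d.map f).map (algebraMap A₁ S) = Ideal.span {algebraMap A₁ S (f g)} := by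
      intro f R d g hg hgd hs
      refine le_antisymm ?_ ((span_singleton_le_iff_mem _).2 (mem_map_of_mem _ (mem_map_of_mem _ hg)))
      rw [Ideal.map_le_iff_le_comap, Ideal.map_le_iff_le_comap]
      intro a ha
      obtain ⟨t, ht, hta⟩ := hgd a ha
      obtain ⟨r, hr⟩ := Ideal.mem_span_singleton'.1 hta
      have hu' : IsUnit (algebraMap A₁ S (f t)) :=
        IsLocalization.map_units S (⟨f t, fun hm => ht (hs t hm)⟩ : p.primeCompl)
      simp only [Ideal.mem_comap]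
      rw [← Ideal.unit_mul_mem_iff_mem _ hu', ← map_mul, ← map_mul, ← hr, map_mul, map_mul]
      exact mul_mem_left _ _ (mem_span_singleton_self _)
    have hmα := hmap h.α Q _ u (hαe.symm ▸ huc) (hαe.symm ▸ hugen)
      (fun s hs => h.comap_α_xI.le (Ideal.comap_mono hpx hs))
    have hmβ := hmap h.β (h.fr Q) _ v (hβ.symm ▸ hvc) (hβ.symm ▸ hvgen)
      (fun s hs => h.comap_β_xI.le (Ideal.comap_mono hpx hs))
    have hmem : algebraMap A₁ S (h.α u) ^ q ∈ Ideal.span {algebraMap A₁ S (h.β v)} := by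
      have hr := h.cusp_ramified p hp hαc
      rw [hmα, hmβ] at hr
      rcases hr with e | e
      · rw [← e, Ideal.span_singleton_pow]; exact mem_span_singleton_self _
      · have h1 : algebraMap A₁ S (h.α u) ∈ Ideal.span {algebraMap A₁ S (h.β v)} := by
          have : algebraMap A₁ S (h.α u) ∈ (Ideal.span {algebraMap A₁ S (h.β v)}) ^ q :=
            e ▸ mem_span_singleton_self _
          exact Ideal.pow_le_self h.prime.ne_zero this
        exact Ideal.pow_mem_of_mem _ h1 _ h.prime.pos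
    obtain ⟨b, hb⟩ := Ideal.mem_span_singleton'.1 hmem
    obtain ⟨⟨r, s⟩, hrs⟩ := IsLocalization.surj p.primeCompl b
    refine ⟨s, s.2, r, ((hzmul _ _).2 ?_).symm⟩
    apply IsLocalization.injective S p.primeCompl_le_nonZeroDivisors
    rw [map_mul, map_pow, map_mul, ← hb, ← hrs]; ring
  obtain ⟨s, hs, n, hn⟩ := exists_smul_mem_range (h.xI Q) z hloc
  refine ⟨s, n, hs, fun hnx => ?_, (hzmul s n).1 hn.symm⟩
  obtain ⟨a, ha⟩ := h.exists_pow_eq_φ (h.red v)
  have haQ : IsUnif Q a := h.isUnif_of_φ_eq' hv ha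
  have e := congrArg h.piInf ((hzmul s n).1 hn.symm)
  rw [map_mul, map_mul, map_pow, h.piInf_α, h.piInf_β, ha] at e
  have hmem : h.piInf n * a ^ q ∈ Q ^ (q + 1) := by
    rw [pow_succ']
    exact mul_mem_mul hnx (Ideal.pow_mem_pow haQ.1 q)
  rw [← e] at hmem
  exact hu.pow_notMem_succ (h.ne_bot (Q := Q)) q
    (notMem_pow_of_mul (Q := Q) (fun hm => hs hm) (q + 1) hmem)

end Cusp

end StepData

end FLTAgent.BadQ.Two
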