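import Mathlib
import Fermat.Agent.BadQ.TwoGens

/-!
# Independent functions on the two components lift to independent functions

`exists_indep_lifts`, for abstract step data: families independent on each of the two components
lift to one independent family, so the degree upstairs is at least the sum of the two degrees.
-/

set_option autoImplicit false
set_option linter.style.haveILetI false
set_option linter.unusedSectionVars false

noncomputable section

open Polynomial

namespace FLTAgent.BadQ.TwoInst

theorem eq_zero_of_forall_q_pow_dvd {W : Type*} [CommRing W] [IsDomain W]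
    [IsDiscreteValuationRing W] {π a : W} (hπ : Irreducible π) (h : ∀ n, π ^ n ∣ a) : a = 0 := by
  by_contra ha
  obtain ⟨m, u, rfl⟩ := IsDiscreteValuationRing.eq_unit_mul_pow_irreducible ha hπ
  have h1 := h (m + 1)
  rw [mul_comm, IsUnit.dvd_mul_right u.isUnit, pow_dvd_pow_iff hπ.ne_zero hπ.not_isUnit] at h1
  omega

/-- Independent families on the two components lift to one independent family. -/
theorem exists_indep_lifts {q : ℕ} {W A₀ A₁ C F₁ : Type*} [CommRing W] [CommRing A₀] [CommRing A₁]
    [CommRing C] [Field F₁] [Algebra W A₀] [Algebra W A₁] [Algebra W C] [Algebra W F₁]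
    [Algebra A₁ F₁] [IsDedekindDomain C] [IsDomain A₁] (h : Two.StepData q W A₀ A₁ C F₁)
    {E k : Type*} [Field E] [Algebra C E] [IsFractionRing C E] [Field k] [Algebra k E]
    (res : W →+* k) (hres : ∀ w, algebraMap C E (algebraMap W C w) = algebraMap k E (res w))
    (hker : ∀ w, res w = 0 ↔ (q : W) ∣ w) (hsep : ∀ w : W, (∀ n, (q : W) ^ n ∣ w) → w = 0)
    (T : A₁) {n m : ℕ} {f : Fin n → E} {g : Fin m → E}
    (hf : ∀ p : Fin n → k[X], ∑ i, aeval (algebraMap C E (h.piInf T)) (p i) * f i = 0 → ∀ i, p i = 0)
    (hg : ∀ p : Fin m → k[X],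
      ∑ j, aeval (algebraMap C E (h.piZero T)) (p j) * g j = 0 → ∀ j, p j = 0) :
    ∃ B : Fin n ⊕ Fin m → A₁, ∀ p : Fin n ⊕ Fin m → W[X],
      ∑ s, aeval T (p s) * B s = 0 → ∀ s, p s = 0 := by
  classical
  -- an element vanishing on one component only
  have hinc : ¬ h.kZ ≤ h.kI := fun hle => h.kI_ne_kZ (le_antisymm (by
    have := Ideal.comap_mono (f := h.ι.toAlgHom) hle
    rwa [h.comap_ι_kZ, h.comap_ι_kI] at this) hle)
  obtain ⟨σ, hσZ, hσI⟩ := SetLike.not_le_iff_exists.1 hinc
  have hσZ' : h.piZero σ = 0 := hσZ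
  have hσI' : h.piInf σ ≠ 0 := hσI
  have hτI : h.piInf (h.ι σ) = 0 := hσZ'
  have hτZ : h.piZero (h.ι σ) ≠ 0 := by rw [h.piZero_ι]; exact hσI'
  -- common denominator
  obtain ⟨⟨b, hb⟩, hint⟩ := IsLocalization.exist_integer_multiples (nonZeroDivisors C)
    (Finset.univ : Finset (Fin n ⊕ Fin m)) (Sum.elim f g)
  choose c hc using fun s => hint s (Finset.mem_univ s)
  choose a ha using fun i => h.piInf_surjective (c (Sum.inl i))
  choose a' ha' using fun j => h.piZero_surjective (c (Sum.inr j))
  refine ⟨Sum.elim (fun i => σ * a i) (fun j => h.ι σ * a' j), ?_⟩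
  have hb0 : algebraMap C E b ≠ 0 := fun e => nonZeroDivisors.ne_zero hb
    (IsFractionRing.injective C E (e.trans (map_zero _).symm))
  have hinj : ∀ {x : C}, x ≠ 0 → algebraMap C E x ≠ 0 := fun hx e =>
    hx (IsFractionRing.injective C E (e.trans (map_zero _).symm))
  have hev : ∀ (π : A₁ →ₐ[W] C) (p : W[X]),
      algebraMap C E (π (aeval T p)) = aeval (algebraMap C E (π T)) (p.map res) := by
    intro π p
    rw [← aeval_algHom_apply, aeval_def, hom_eval₂, aeval_def, eval₂_map]
    congr 1
    exact RingHom.ext hres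
  -- the reductions of a relation are trivial
  have hstep : ∀ p : Fin n ⊕ Fin m → W[X],
      ∑ s, aeval T (p s) * (Sum.elim (fun i => σ * a i) (fun j => h.ι σ * a' j)) s = 0 →
        ∀ s, (p s).map res = 0 := by
    intro p hp
    rw [Fintype.sum_sum_type] at hp
    simp only [Sum.elim_inl, Sum.elim_inr] at hp
    have hI := congrArg (fun z => algebraMap C E (h.piInf z)) hp
    have hZ := congrArg (fun z => algebraMap C E (h.piZero z)) hp
    simp only [map_add, map_sum, map_mul, map_zero, hτI, hσZ', zero_mul, mul_zero,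
      Finset.sum_const_zero, add_zero, zero_add, hev, ha, ha', hc, Algebra.smul_def] at hI hZ
    have h1 : ∀ i, (p (Sum.inl i)).map res = 0 := by
      refine hf _ ((mul_eq_zero.1 ?_).resolve_left
        (mul_ne_zero (hinj hσI') hb0))
      rw [← hI, Finset.mul_sum]
      refine Finset.sum_congr rfl fun i _ => ?_
      simp only [Sum.elim_inl]
      ring
    have h2 : ∀ j, (p (Sum.inr j)).map res = 0 := by
      refine hg _ ((mul_eq_zero.1 ?_).resolve_left (mul_ne_zero (hinj hτZ) hb0))
      rw [← hZ, Finset.mul_sum]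
      refine Finset.sum_congr rfl fun i _ => ?_
      simp only [Sum.elim_inr]
      ring
    rintro (i | j)
    exacts [h1 i, h2 j]
  -- hence the coefficients are divisible by every power of `q`
  have hdvd : ∀ (N : ℕ) (p : Fin n ⊕ Fin m → W[X]),
      ∑ s, aeval T (p s) * (Sum.elim (fun i => σ * a i) (fun j => h.ι σ * a' j)) s = 0 →
        ∀ s, Polynomial.C ((q : W) ^ N) ∣ p s := by
    intro N
    induction N with
    | zero => intro p _ s; simp
    | succ N ih =>
      intro p hp
      have h1 : ∀ s, Polynomial.C (q : W) ∣ p s := fun s => C_dvd_iff_dvd_coeff _ _ |>.2 fun i => (hker _).1 (by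
        rw [← coeff_map, hstep p hp s, coeff_zero])
      choose p' hp' using h1
      intro s
      have h2 : ∑ s, aeval T (p' s) * (Sum.elim (fun i => σ * a i) (fun j => h.ι σ * a' j)) s = 0 := by
        refine (mul_eq_zero.1 ((?_ : (q : A₁) * _ = 0))).resolve_left h.q_ne_zero
        rw [← hp, Finset.mul_sum]
        refine Finset.sum_congr rfl fun s _ => ?_
        rw [hp' s, map_mul, aeval_C, map_natCast]
        ring_nf
      rw [hp' s, pow_succ', map_mul]
      exact mul_dvd_mul_left _ (ih p' h2 s)
  intro p hp s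
  ext i
  exact hsep _ fun N => (C_dvd_iff_dvd_coeff _ _).1 (hdvd N p hp s) i

end FLTAgent.BadQ.TwoInst
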