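import Mathlib
import Fermat.Agent.BadQ.TwoInst
import Fermat.Agent.BadQ.TwoInstCrossFF
import Fermat.Agent.BadQ.TwoInstCrossLattice
import Fermat.Agent.BadQ.TwoInstCrossDeg
import Fermat.Agent.BadQ.TwoInstCrossAux

/-!
# The lattice of functions with bounded poles and its two reductions

`crossLattice` consists of the functions in a given space whose poles are bounded along the
coordinate and which are integral in both charts of level `qM`. It is finite over `W0`
(`finite_crossLattice`); `crossRed` is the pair of its reductions on the two components, with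
kernel the multiples of `q` (`exists_eq_smul_of_crossRed_eq_zero`).
-/

set_option autoImplicit false
set_option linter.style.haveILetI false
set_option linter.unusedSectionVars false
set_option synthInstance.maxHeartbeats 400000
set_option maxHeartbeats 1000000

noncomputable section

open Polynomial AlgebraicCurve ModularCurve IntermediateField

namespace FLTAgent.BadQ.TwoInst

section General

variable {W : Type*} [CommRing W] [IsDomain W] {K : Type*} [Field K] [Algebra W K] [IsFractionRing W K]
  {F : Type*} [Field F] [Algebra K F] [Algebra W F] [IsScalarTower W K F]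

/-- Independence over the polynomials gives independence over the field they generate. -/
theorem linearIndependent_adjoinField {s : F} {ι : Type*} [Fintype ι] (B : ι → F)
    (h : ∀ p : ι → W[X], ∑ i, aeval s (p i) * B i = 0 → ∀ i, p i = 0) :
    LinearIndependent K⟮s⟯ B := by
  classical
  letI := instAlgebraAdjoinField (W := W) (K := K) (s := s)
  haveI := instTowerAdjoinField (W := W) (K := K) (s := s)
  haveI := isFractionRing_adjoinField (W := W) (K := K) (s := s)
  rw [← LinearIndependent.iff_fractionRing (Algebra.adjoin W ({s} : Set F)) K⟮s⟯,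
    Fintype.linearIndependent_iff]
  intro g hg i
  have hp : ∀ j, ∃ p : W[X], aeval s p = (g j : F) := fun j =>
    (Algebra.adjoin_singleton_eq_range_aeval W s).le (g j).2
  choose p hp using hp
  have h0 := h p ?_ i
  · exact Subtype.ext (by rw [← hp i, h0, map_zero, ZeroMemClass.coe_zero])
  · rw [← hg]
    exact Finset.sum_congr rfl fun j _ => by rw [hp j]; rfl

end General

section FunctionField

variable {k E : Type*} [Field k] [IsAlgClosed k] [Field E] [Algebra k E] [FF.IsFF k E]

/-- A function in the chart of `X` whose multiple by `X⁻ᶜ` is in the chart of `1 / X`. -/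
theorem mem_riemannRochSpace_of_charts {X e : E} (c : ℕ) (he : e ∈ BadQ.intCl (k := k) X)
    (he' : X⁻¹ ^ c * e ∈ BadQ.intCl (k := k) X⁻¹) :
    e ∈ riemannRochSpace (c • (FF.poleDivisor X : Divisor k E)) := by
  refine mem_riemannRochSpace_iff.2 fun v => ?_
  rcases eq_or_ne e 0 with h0 | h0
  · exact Or.inl h0
  refine Or.inr ?_
  rw [Finsupp.smul_apply, FF.poleDivisor_apply, nsmul_eq_mul]
  rcases le_or_gt 0 (v.ord X) with hX | hX
  · rw [max_eq_left (by omega), mul_zero, neg_zero]
    exact (FF.mem_iff_ord_nonneg v h0).1
      (mem_valuationSubring_of_mem_intCl v ((FF.mem_iff v X).2 (Or.inr hX)) he)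
  · rw [max_eq_right (by omega), mul_neg, neg_neg]
    have hX0 : X ≠ 0 := fun h => by rw [h, Place.ord_zero] at hX; exact lt_irrefl _ hX
    have h1 : 0 ≤ v.ord (X⁻¹ ^ c * e) :=
      (FF.mem_iff_ord_nonneg v (mul_ne_zero (pow_ne_zero _ (inv_ne_zero hX0)) h0)).1
        (mem_valuationSubring_of_mem_intCl v
          ((FF.mem_iff v X⁻¹).2 (Or.inr (by rw [v.ord_inv]; omega))) he')
    rw [v.ord_mul (pow_ne_zero _ (inv_ne_zero hX0)) h0, ← zpow_natCast, v.ord_zpow, v.ord_inv,
      mul_neg] at h1
    omega

theorem poleDivisor_pow (X : E) (c : ℕ) :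
    (FF.poleDivisor (X ^ c) : Divisor k E) = c • FF.poleDivisor X := by
  refine Finsupp.ext fun v => ?_
  rw [Finsupp.smul_apply, FF.poleDivisor_apply, FF.poleDivisor_apply, nsmul_eq_mul,
    ← zpow_natCast, v.ord_zpow, ← mul_neg, mul_max_of_nonneg _ _ (Int.natCast_nonneg c), mul_zero]

end FunctionField

local notation "Qb" => AlgebraicClosure ℚ

variable {A : ValuationSubring Qb}

/-- The module structure of a function field over `W₀` is the one of its algebra structure. -/
local instance (priority := high) instModuleW0Fn {N : ℕ} : Module (W0 A) (Fn A N) :=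
  Algebra.toModule

section Level

variable {N : ℕ} [NeZero N]

/-- Bounded poles along a fixed function is a Galois stable condition. -/
theorem galois_mem_riemannRochSpace (y : Fn A N) (c : ℕ) {σ : Qb ≃ₐ[ℚ] Qb} (hσ : σ ∈ inert A)
    {f : modularFunctionFieldBar N}
    (hf : f ∈ riemannRochSpace
      (c • (FF.poleDivisor (y : modularFunctionFieldBar N) : Divisor Qb (modularFunctionFieldBar N)))) :
    arithmeticGalois (modularFunctionFieldFull N) σ • f ∈ riemannRochSpace
      (c • (FF.poleDivisor (y : modularFunctionFieldBar N) : Divisor Qb (modularFunctionFieldBar N))) := by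
  haveI := FLTAgent.Reduction.isFF_bar_curve N
  set g := arithmeticGalois (modularFunctionFieldFull N) σ
  have hy : g • (y : modularFunctionFieldBar N) = (y : modularFunctionFieldBar N) :=
    TwoChart.mem_fixedF.1 y.2 σ hσ
  refine mem_riemannRochSpace_iff.2 fun v => ?_
  obtain ⟨w, rfl⟩ : ∃ w, g • w = v := ⟨g⁻¹ • v, smul_inv_smul g v⟩
  rw [Finsupp.smul_apply, FF.poleDivisor_apply]
  have h1 : (g • w).ord (g • f) = w.ord f := SemilinearAut.ord_smul g w f
  have h2 : (g • w).ord (y : modularFunctionFieldBar N) = w.ord (y : modularFunctionFieldBar N) := by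
    conv_lhs => rw [← hy]
    exact SemilinearAut.ord_smul g w _
  rw [h1, h2]
  rcases mem_riemannRochSpace_iff.1 hf w with h | h
  · exact Or.inl (by rw [h, smul_zero])
  · rw [Finsupp.smul_apply, FF.poleDivisor_apply] at h
    exact Or.inr h

end Level

variable {q : ℕ} [Fact q.Prime] (hA : A.LiesOverPrime q) (M : ℕ) [NeZero M] (hqM : ¬ q ∣ M)
  (hM : GoodLevel M)

/-- Dividing by a power of the coordinate. -/
def mulInvT (c : ℕ) : Fn A (q * M) →ₗ[W0 A] Fn A (q * M) :=
  LinearMap.mulLeft (W0 A) ((incl (dvd_qM q M) (tFn A M))⁻¹ ^ c)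

/-- The functions with poles bounded by `c` times those of the coordinate, integral in both
charts. -/
def crossLattice (c : ℕ) (U : Submodule (K0 A) (Fn A (q * M))) :
    Submodule (W0 A) (Fn A (q * M)) :=
  (chart1 A q M true).toSubmodule ⊓ (chart1 A q M false).toSubmodule.comap (mulInvT M c) ⊓
    U.restrictScalars (W0 A)

theorem incl_coord_true : incl (dvd_qM q M) (coord A M true) = incl (dvd_qM q M) (tFn A M) := rfl

theorem incl_coord_false :
    incl (dvd_qM q M) (coord A M false) = (incl (dvd_qM q M) (tFn A M))⁻¹ :=
  map_inv₀ _ _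

include hA hM in
theorem finite_crossLattice (c : ℕ) (U : Submodule (K0 A) (Fn A (q * M)))
    [FiniteDimensional (K0 A) U] : Module.Finite (W0 A) (crossLattice M c U) := by
  have hs := transcendental_incl_coord A hM.two_le true (dvd_qM q M)
  haveI := ufm_W0 hA
  haveI := isNoetherianRing_W0 hA
  haveI := finiteDimensional_Fn hs
  haveI := finite_inter_intCl (W := W0 A) hs U
  have hle : crossLattice (q := q) M c U ≤
      (chart1 A q M true).toSubmodule ⊓ U.restrictScalars (W0 A) :=
    le_inf (inf_le_left.trans inf_le_left) inf_le_right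
  exact Module.Finite.of_injective (Submodule.inclusion hle) (Submodule.inclusion_injective hle)

variable {M}

include hM in
theorem incl_tFn_ne_zero : (incl (dvd_qM q M) (tFn A M) : Fn A (q * M)) ≠ 0 := fun h =>
  transcendental_incl_coord A hM.two_le true (dvd_qM q M)
    (show IsAlgebraic (K0 A) (incl (dvd_qM q M) (tFn A M) : Fn A (q * M)) by
      rw [h]; exact isAlgebraic_zero)

/-- An element of the lattice in the chart of `t`. -/
def toChartTrue {c : ℕ} {U : Submodule (K0 A) (Fn A (q * M))} (x : crossLattice M c U) :
    chart1 A q M true :=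
  ⟨(x : Fn A (q * M)), x.2.1.1⟩

/-- An element of the lattice, divided, in the chart of `1 / t`. -/
def toChartFalse {c : ℕ} {U : Submodule (K0 A) (Fn A (q * M))} (x : crossLattice M c U) :
    chart1 A q M false :=
  ⟨mulInvT M c (x : Fn A (q * M)), x.2.1.2⟩

/-- The coordinate in its chart. -/
def chartT : chart1 A q M true :=
  ⟨incl (dvd_qM q M) (coord A M true), TwoChart.subset_intCl _ (Set.mem_singleton _)⟩

theorem piInf_chartT :
    (((stepData M true hA hqM hM).piInf chartT : fibre M hA hqM true) :
      modularFunctionFieldFullC (kres A) M) = tBar M hA hqM := by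
  rw [stepData_piInf]
  exact redInf_incl_tFn M hA hqM

theorem piZero_apply (b : Bool) (a : chart1 A q M b) :
    (((stepData M b hA hqM hM).piZero a : fibre M hA hqM b) :
      modularFunctionFieldFullC (kres A) M) =
      redInf M hA hqM ⟨_, chart1_le_VInf hA M hqM b hM ((stepData M b hA hqM hM).ι a)⟩ := by
  exact stepData_piInf hA M hqM b hM _

theorem piZero_chartT :
    (((stepData M true hA hqM hM).piZero chartT : fibre M hA hqM true) :
      modularFunctionFieldFullC (kres A) M) = tBar M hA hqM ^ q := by
  rw [piZero_apply, ← redInf_scale_tFn M hA hqM]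
  congr 1
  refine Subtype.ext ?_
  show ((stepData M true hA hqM hM).ι chartT : Fn A (q * M)) = _
  rw [stepData_iota]
  exact wAL_incl M hqM _

variable {c : ℕ} {U : Submodule (K0 A) (Fn A (q * M))}

include hA hqM hM in
theorem inv_incl_tFn_mem : (incl (dvd_qM q M) (tFn A M))⁻¹ ∈ VInf A q M :=
  incl_coord_false (A := A) (q := q) M ▸ chart1_le_VInf hA M hqM false hM
    ⟨_, TwoChart.subset_intCl _ (Set.mem_singleton (incl (dvd_qM q M) (coord A M false)))⟩

theorem piInf_toChartFalse (x : crossLattice M c U) :
    (((stepData M false hA hqM hM).piInf (toChartFalse x) : fibre M hA hqM false) :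
      modularFunctionFieldFullC (kres A) M) =
      (tBar M hA hqM)⁻¹ ^ c *
        (((stepData M true hA hqM hM).piInf (toChartTrue x) : fibre M hA hqM true) :
          modularFunctionFieldFullC (kres A) M) := by
  rw [stepData_piInf, stepData_piInf]
  let u : VInf A q M := ⟨_, inv_incl_tFn_mem hA hqM hM⟩
  have hu : redInf M hA hqM u = (tBar M hA hqM)⁻¹ := by
    refine eq_inv_of_mul_eq_one_left ?_
    rw [← redInf_incl_tFn M hA hqM, ← map_mul]
    refine Eq.trans (congrArg _ ?_) (map_one _)
    refine Subtype.ext (inv_mul_cancel₀ ?_)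
    exact incl_tFn_ne_zero hM
  rw [← hu, ← map_pow (redInf M hA hqM), ← map_mul (redInf M hA hqM)]
  exact congrArg _ (Subtype.ext rfl)

set_option maxHeartbeats 4000000 in
theorem piZero_toChartFalse (x : crossLattice M c U) :
    (((stepData M false hA hqM hM).piZero (toChartFalse x) : fibre M hA hqM false) :
      modularFunctionFieldFullC (kres A) M) =
      (tBar M hA hqM)⁻¹ ^ (q * c) *
        (((stepData M true hA hqM hM).piZero (toChartTrue x) : fibre M hA hqM true) :
          modularFunctionFieldFullC (kres A) M) := by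
  rw [piZero_apply, piZero_apply]
  have hu' : (scale q (mul_q_dvd q M) (tFn A M))⁻¹ ∈ VInf A q M := by
    have h := chart1_le_VInf hA M hqM false hM ((stepData M false hA hqM hM).ι
      ⟨_, TwoChart.subset_intCl _ (Set.mem_singleton (incl (dvd_qM q M) (coord A M false)))⟩)
    rw [stepData_iota] at h
    have e : wAL M hqM (incl (dvd_qM q M) (coord A M false) : Fn A (q * M)) =
        (scale q (mul_q_dvd q M) (tFn A M))⁻¹ := by
      rw [incl_coord_false, map_inv₀, wAL_incl]
    exact e ▸ h
  let u : VInf A q M := ⟨_, hu'⟩
  have hu : redInf M hA hqM u = (tBar M hA hqM ^ q)⁻¹ := by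
    refine eq_inv_of_mul_eq_one_left ?_
    rw [← redInf_scale_tFn M hA hqM, ← map_mul]
    refine Eq.trans (congrArg _ ?_) (map_one _)
    refine Subtype.ext (inv_mul_cancel₀ fun h => ?_)
    exact incl_tFn_ne_zero hM
      ((wAL M hqM).injective ((wAL_incl M hqM _).trans (h.trans (map_zero _).symm)))
  rw [pow_mul, inv_pow _ q, ← hu, ← map_pow (redInf M hA hqM), ← map_mul (redInf M hA hqM)]
  refine congrArg _ (Subtype.ext ?_)
  show ((stepData M false hA hqM hM).ι (toChartFalse x) : Fn A (q * M)) =
    (scale q (mul_q_dvd q M) (tFn A M))⁻¹ ^ c *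
      ((stepData M true hA hqM hM).ι (toChartTrue x) : Fn A (q * M))
  rw [stepData_iota, stepData_iota, ← wAL_incl M hqM, ← map_inv₀, ← map_pow, ← map_mul]
  rfl

variable (c U) in
/-- The two reductions of an element of the lattice. -/
def crossRed : crossLattice (A := A) (q := q) M c U →+
    modularFunctionFieldFullC (kres A) M × modularFunctionFieldFullC (kres A) M where
  toFun x :=
    ((((stepData M true hA hqM hM).piInf (toChartTrue x) : fibre M hA hqM true) :
      modularFunctionFieldFullC (kres A) M),
    (((stepData M true hA hqM hM).piZero (toChartTrue x) : fibre M hA hqM true) :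
      modularFunctionFieldFullC (kres A) M))
  map_zero' := by
    rw [show toChartTrue (0 : crossLattice (A := A) (q := q) M c U) = 0 from rfl, map_zero (stepData M true hA hqM hM).piInf,
      map_zero (stepData M true hA hqM hM).piZero]
    rfl
  map_add' x y := by
    rw [show toChartTrue (x + y) = toChartTrue x + toChartTrue y from rfl,
      map_add (stepData M true hA hqM hM).piInf, map_add (stepData M true hA hqM hM).piZero]
    rfl

theorem crossRed_smul (w : W0 A) (x : crossLattice M c U) :
    crossRed hA hqM hM c U (w • x) = redW A w • crossRed hA hqM hM c U x := by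
  show (((_ : fibre M hA hqM true) : modularFunctionFieldFullC (kres A) M), _) = _
  rw [show toChartTrue (w • x) = w • toChartTrue x from rfl, map_smul (stepData M true hA hqM hM).piInf,
    map_smul (stepData M true hA hqM hM).piZero]
  refine Prod.ext ?_ ?_ <;>
  · show ((w • _ : fibre M hA hqM true) : modularFunctionFieldFullC (kres A) M) = redW A w • _
    rw [Algebra.smul_def, Algebra.smul_def]
    rfl

include hA hqM hM in
theorem exists_eq_smul_of_crossRed_eq_zero (x : crossLattice M c U)
    (hx : crossRed hA hqM hM c U x = 0) : ∃ y : crossLattice M c U, x = (q : W0 A) • y := by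
  have h1 : (stepData M true hA hqM hM).piInf (toChartTrue x) = 0 :=
    Subtype.ext (congrArg Prod.fst hx)
  have h2 : (stepData M true hA hqM hM).piZero (toChartTrue x) = 0 :=
    Subtype.ext (congrArg Prod.snd hx)
  obtain ⟨a, ha⟩ := (stepData M true hA hqM hM).reduced _ h1 h2
  obtain ⟨a', ha'⟩ := (stepData M false hA hqM hM).reduced (toChartFalse x)
    (Subtype.ext (by
      rw [piInf_toChartFalse, h1, ZeroMemClass.coe_zero, mul_zero]
      exact (ZeroMemClass.coe_zero _).symm))
    (by
      refine Subtype.ext ?_
      show ((((stepData M false hA hqM hM).piZero (toChartFalse x)) : fibre M hA hqM false) :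
        modularFunctionFieldFullC (kres A) M) = 0
      rw [piZero_toChartFalse, h2, ZeroMemClass.coe_zero, mul_zero])
  have hax : (x : Fn A (q * M)) = (q : Fn A (q * M)) * (a : Fn A (q * M)) := by
    refine (congrArg (fun z : chart1 A q M true => (z : Fn A (q * M))) ha).trans ?_
    simp
  have hax' : mulInvT M c (x : Fn A (q * M)) = (q : Fn A (q * M)) * (a' : Fn A (q * M)) := by
    refine (congrArg (fun z : chart1 A q M false => (z : Fn A (q * M))) ha').trans ?_
    simp
  have hqF : (q : Fn A (q * M)) ≠ 0 := fun h =>
    (stepData M true hA hqM hM).q_ne_zero (Subtype.ext (by simpa using h))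
  have haU : (a : Fn A (q * M)) ∈ U := by
    have h := U.smul_mem ((q : K0 A))⁻¹ x.2.2
    rw [hax, Algebra.smul_def, map_inv₀, map_natCast, inv_mul_cancel_left₀ hqF] at h
    exact h
  refine ⟨⟨(a : Fn A (q * M)), ⟨⟨a.2, ?_⟩, haU⟩⟩, Subtype.ext ?_⟩
  · show mulInvT M c (a : Fn A (q * M)) ∈ chart1 A q M false
    have h : mulInvT M c (a : Fn A (q * M)) = (a' : Fn A (q * M)) := by
      refine mul_left_cancel₀ hqF ?_
      rw [← hax', hax]
      exact mul_left_comm _ _ _
    exact h ▸ a'.2
  · refine hax.trans ?_
    rw [SetLike.val_smul, Algebra.smul_def, map_natCast]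

end FLTAgent.BadQ.TwoInst
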