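import Mathlib
import Fermat.Agent.BadQ.TwoInst
import Fermat.Agent.BadQ.TwoInstCrossGlue
import Fermat.Prelude.Def_AlgebraicCurve_Repartitions

/-!
# The crossings at level `qM` are bounded by the genus

`card_crossing_le`: `2 g(M̄) + #crossings ≤ g(qM) + 1`, the crossings being points of the special
fibre of level `M`. Functions with bounded poles at level `qM` have fixed bases with independent
pairs of reductions, and every crossing imposes an independent gluing condition on such pairs;
Riemann–Roch on both sides gives the bound.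
-/

set_option autoImplicit false
set_option linter.unusedSectionVars false
set_option linter.style.haveILetI false
set_option synthInstance.maxHeartbeats 400000
set_option maxHeartbeats 1000000

noncomputable section

open Polynomial AlgebraicCurve ModularCurve IntermediateField

namespace FLTAgent.BadQ.TwoInst

local notation "Qb" => AlgebraicClosure ℚ

variable {A : ValuationSubring Qb} {q : ℕ} [Fact q.Prime] (hA : A.LiesOverPrime q) (M : ℕ)
  [NeZero M] (hqM : ¬ q ∣ M) (hM : GoodLevel M)

/-- The module structure of a function field over `W₀` is the one of its algebra structure. -/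
local instance (priority := high) instModuleW0FnCross {N : ℕ} : Module (W0 A) (Fn A N) :=
  Algebra.toModule

include hM in
/-- The two components of level `M` bound the degree of the coordinate at level `qM`. -/
theorem le_degree_poleDivisor [IsAlgClosed (kres A)]
    [FF.IsFF (kres A) (modularFunctionFieldFullC (kres A) M)]
    [FF.IsFF Qb (modularFunctionFieldBar (q * M))] :
    ((q : ℤ) + 1) * Divisor.degree (FF.poleDivisor (tBar M hA hqM) :
        Divisor (kres A) (modularFunctionFieldFullC (kres A) M)) ≤
      Divisor.degree (FF.poleDivisor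
        ((incl (dvd_qM q M) (tFn A M) : Fn A (q * M)) : modularFunctionFieldBar (q * M)) :
        Divisor Qb (modularFunctionFieldBar (q * M))) := by
  haveI := isFractionRing_fibreRing hA M hqM true hM.two_le
  haveI := isDedekindDomain_fibreRing hA M hqM true hM.two_le
  haveI := isDiscreteValuationRing_W0 hA
  obtain ⟨n, f, hn, hf⟩ := exists_indep_family (K := kres A) (tBar M hA hqM)
  obtain ⟨m, g, hm, hg⟩ := exists_indep_family (K := kres A) (tBar M hA hqM ^ q)
  rw [poleDivisor_pow, map_nsmul, nsmul_eq_mul] at hm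
  have hI : algebraMap (fibre M hA hqM true) (modularFunctionFieldFullC (kres A) M)
      ((stepData M true hA hqM hM).piInf chartT) = tBar M hA hqM := piInf_chartT hA hqM hM
  have hZ : algebraMap (fibre M hA hqM true) (modularFunctionFieldFullC (kres A) M)
      ((stepData M true hA hqM hM).piZero chartT) = tBar M hA hqM ^ q := piZero_chartT hA hqM hM
  obtain ⟨B, hB⟩ := exists_indep_lifts (stepData M true hA hqM hM)
    (E := modularFunctionFieldFullC (kres A) M) (k := kres A) (redW A) (fun _ => rfl)
    (redW_eq_zero_iff hA) (fun a => eq_zero_of_forall_q_pow_dvd (qW_irreducible hA))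
    (chartT (A := A) (q := q) (M := M)) (f := f) (g := g) (by rw [hI]; exact hf)
    (by rw [hZ]; exact hg)
  have ht : Transcendental (K0 A) (incl (dvd_qM q M) (tFn A M) : Fn A (q * M)) :=
    transcendental_incl_coord A hM.two_le true (dvd_qM q M)
  have hB' : ∀ p : Fin n ⊕ Fin m → (W0 A)[X],
      ∑ s, aeval (incl (dvd_qM q M) (tFn A M) : Fn A (q * M)) (p s) *
        ((B s : chart1 A q M true) : Fn A (q * M)) = 0 → ∀ s, p s = 0 := by
    intro p hp
    refine hB p (Subtype.ext ?_)
    have hev : ∀ r : (W0 A)[X], ((aeval (chartT (A := A) (q := q) (M := M)) r :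
        chart1 A q M true) : Fn A (q * M)) =
          aeval (incl (dvd_qM q M) (tFn A M) : Fn A (q * M)) r := fun r =>
      (aeval_algHom_apply (chart1 A q M true).val _ r).symm
    rw [AddSubmonoidClass.coe_finsetSum, ZeroMemClass.coe_zero, ← hp]
    exact Finset.sum_congr rfl fun s _ => by rw [← hev]; rfl
  have hli := linearIndependent_coe (linearIndependent_adjoinField (W := W0 A) (K := K0 A) _ hB') ht
  set tb : modularFunctionFieldBar (q * M) :=
    ((incl (dvd_qM q M) (tFn A M) : Fn A (q * M)) : modularFunctionFieldBar (q * M))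
  have htb : Transcendental Qb tb := transcendental_coe ht
  haveI := FF.finiteDimensional_adjoin_of_transcendental (K := Qb) htb
  haveI : CharZero Qb⟮tb⟯ := charZero_of_injective_algebraMap (algebraMap Qb Qb⟮tb⟯).injective
  have h := hli.fintype_card_le_finrank
  rw [Fintype.card_sum, Fintype.card_fin, Fintype.card_fin] at h
  rw [FF.degree_poleDivisor htb, ← hn]
  rw [← hn] at hm
  have h' : ((n : ℤ) + m) ≤ (Module.finrank Qb⟮tb⟯ (modularFunctionFieldBar (q * M)) : ℤ) := by
    exact_mod_cast h
  linarith

include hM in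
/-- Functions with bounded poles have multiples in the lattice. -/
theorem exists_smul_mem_crossLattice [FF.IsFF Qb (modularFunctionFieldBar (q * M))] (c : ℕ)
    (U : Submodule (K0 A) (Fn A (q * M))) {x : Fn A (q * M)} (hx : x ∈ U)
    (hxV : (x : modularFunctionFieldBar (q * M)) ∈ riemannRochSpace
      (c • (FF.poleDivisor ((incl (dvd_qM q M) (tFn A M) : Fn A (q * M)) :
        modularFunctionFieldBar (q * M)) : Divisor Qb (modularFunctionFieldBar (q * M))))) :
    ∃ a : W0 A, a ≠ 0 ∧ a • x ∈ crossLattice M c U := by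
  set t : Fn A (q * M) := incl (dvd_qM q M) (tFn A M)
  have hord : ∀ v : Place Qb (modularFunctionFieldBar (q * M)),
      (x : modularFunctionFieldBar (q * M)) ≠ 0 →
        -((c : ℤ) * max 0 (-v.ord (t : modularFunctionFieldBar (q * M)))) ≤
          v.ord (x : modularFunctionFieldBar (q * M)) := by
    intro v h0
    have h := FF.ord_of_mem_riemannRochSpace hxV h0 v
    rwa [Finsupp.smul_apply, FF.poleDivisor_apply, nsmul_eq_mul] at h
  obtain ⟨a₁, ha₁, hm₁⟩ := exists_smul_mem_chart (A := A) (N := q * M) (y := t) (f := x)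
    fun v hv => by
      rcases eq_or_ne (x : modularFunctionFieldBar (q * M)) 0 with h0 | h0
      · rw [h0, Place.ord_zero]
      have h := hord v h0
      rw [max_eq_left (by omega), mul_zero, neg_zero] at h
      exact h
  obtain ⟨a₂, ha₂, hm₂⟩ := exists_smul_mem_chart (A := A) (N := q * M) (y := t⁻¹)
    (f := mulInvT M c x) fun v hv => by
      rcases eq_or_ne (x : modularFunctionFieldBar (q * M)) 0 with h0 | h0
      · rw [show x = 0 from Subtype.ext h0, map_zero, ZeroMemClass.coe_zero, Place.ord_zero]
      have ht0 : (t : modularFunctionFieldBar (q * M)) ≠ 0 :=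
        fun h => incl_tFn_ne_zero hM (Subtype.ext h)
      have hvt : v.ord (t : modularFunctionFieldBar (q * M)) ≤ 0 := by
        rw [IntermediateField.coe_inv, v.ord_inv] at hv; omega
      have h := hord v h0
      rw [max_eq_right (by omega), mul_neg, neg_neg] at h
      show 0 ≤ v.ord ((t⁻¹ ^ c * x : Fn A (q * M)) : modularFunctionFieldBar (q * M))
      rw [IntermediateField.coe_mul, IntermediateField.coe_pow, IntermediateField.coe_inv,
        v.ord_mul (pow_ne_zero _ (inv_ne_zero ht0)) h0, ← zpow_natCast, v.ord_zpow, v.ord_inv,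
        mul_neg]
      omega
  rw [← incl_coord_false (A := A) (q := q) M] at hm₂
  refine ⟨a₁ * a₂, mul_ne_zero ha₁ ha₂, ⟨⟨?_, ?_⟩, ?_⟩⟩
  · rw [mul_comm a₁ a₂, mul_smul]
    exact (chart1 A q M true).toSubmodule.smul_mem a₂ hm₁
  · show mulInvT M c ((a₁ * a₂) • x) ∈ chart1 A q M false
    rw [map_smul, mul_smul]
    exact (chart1 A q M false).toSubmodule.smul_mem a₁ hm₂
  · show (a₁ * a₂) • x ∈ U
    rw [show (a₁ * a₂) • x = ((a₁ * a₂ : W0 A) : K0 A) • x by
      rw [Algebra.smul_def, Algebra.smul_def, algebraMap_W0_Fn]]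
    exact U.smul_mem _ hx

set_option maxHeartbeats 4000000 in
include hM in
/-- The branch of the second component at a crossing. -/
theorem exists_branch [IsAlgClosed (kres A)] [FF.IsFF (kres A) (modularFunctionFieldFullC (kres A) M)]
    {c : ℕ} {U : Submodule (K0 A) (Fn A (q * M))}
    (v : Place (kres A) (modularFunctionFieldFullC (kres A) M))
    (hvX : 0 ≤ v.ord (tBar M hA hqM))
    (hv : ∃ Q : Ideal (fibre M hA hqM true), Q.IsMaximal ∧ (stepData M true hA hqM hM).Crossing Q ∧
        ∀ x : fibre M hA hqM true, x ∈ Q ↔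
          ((x : modularFunctionFieldFullC (kres A) M) = 0 ∨
            0 < v.ord (x : modularFunctionFieldFullC (kres A) M))) :
    ∃ w : Place (kres A) (modularFunctionFieldFullC (kres A) M), 0 ≤ w.ord (tBar M hA hqM) ∧
      ∀ x : crossLattice M c U, TwoChart.rv v (crossRed hA hqM hM c U x).1 =
        TwoChart.rv w (crossRed hA hqM hM c U x).2 := by
  let _instAlgK : Algebra (kres A) (modularFunctionFieldFullC (kres A) M) := inferInstance
  obtain ⟨Q, hQ, ⟨Q', hQ', hQQ⟩, hQmem⟩ := hv
  set X := tBar M hA hqM
  have hX0 : X ≠ 0 := fun h => transcendental_tBar_of_two_le hA M hqM hM.two_le (show IsAlgebraic (kres A) X by rw [h]; exact isAlgebraic_zero)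
  have hQ'0 : Q' ≠ ⊥ := fun h =>
    (stepData M true hA hqM hM).not_isField (Ring.isField_iff_maximal_bot.2 (h ▸ hQ'))
  haveI := hQ'
  haveI := hQ
  obtain ⟨w, hw, hwQ⟩ := exists_place_centre (fibre M hA hqM true) Q' hQ'0
  have hXv : X ∈ v.toValuationSubring := (FF.mem_iff v X).2 (Or.inr hvX)
  have hvmem : ∀ z : fibre M hA hqM true,
      (z : modularFunctionFieldFullC (kres A) M) ∈ v.toValuationSubring :=
    fun z => mem_valuationSubring_of_mem_intCl v hXv z.2
  refine ⟨w, ?_, ?_⟩
  · exact (FF.mem_iff_ord_nonneg w hX0).1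
      (hw ⟨X, BadQ.mem_intCl.2 (isIntegral_algebraMap (x := (⟨X, Algebra.subset_adjoin rfl⟩ : Algebra.adjoin (kres A) ({X} : Set (modularFunctionFieldFullC (kres A) M)))))⟩)
  intro x
  set a := toChartTrue x
  set C := stepData M true hA hqM hM
  obtain ⟨w₀, hw₀⟩ := C.closed_point_rational Q hQ (Ideal.Quotient.mk Q (C.piInf a))
  have h1 : C.piInf (a - algebraMap (W0 A) _ w₀) ∈ Q := by
    rw [map_sub, AlgHom.commutes, ← Ideal.Quotient.eq]
    exact hw₀.symm
  have h2 : C.piZero (a - algebraMap (W0 A) _ w₀) ∈ Q' := by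
    rw [← Ideal.mem_comap, hQQ, Ideal.mem_comap]
    exact h1
  rw [map_sub, AlgHom.commutes, algebraMap_sub] at h1 h2
  have h1' := rv_eq_zero_of_ord_pos v ((hQmem _).1 h1)
  have h2' := rv_eq_zero_of_ord_pos w (hwQ _ h2)
  rw [AddSubgroupClass.coe_sub, Subalgebra.coe_algebraMap,
    TwoChart.rv_sub_eq_zero_iff v (hvmem _) (v.algebraMap_mem' _), TwoChart.rv_algebraMap] at h1'
  rw [AddSubgroupClass.coe_sub, Subalgebra.coe_algebraMap,
    TwoChart.rv_sub_eq_zero_iff w (hw _) (w.algebraMap_mem' _), TwoChart.rv_algebraMap] at h2'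
  exact h1'.trans h2'.symm

set_option maxHeartbeats 4000000 in
/-- Crossings are independent gluing conditions on the level `qM` curve. -/
theorem card_crossing_le
    (S : Finset (Place (kres A) (modularFunctionFieldFullC (kres A) M)))
    (hS : ∀ v ∈ S, 0 ≤ v.ord (coordBar M hA hqM true) ∧
      ∃ Q : Ideal (fibre M hA hqM true), Q.IsMaximal ∧ (stepData M true hA hqM hM).Crossing Q ∧
        ∀ x : fibre M hA hqM true, x ∈ Q ↔
          ((x : modularFunctionFieldFullC (kres A) M) = 0 ∨
            0 < v.ord (x : modularFunctionFieldFullC (kres A) M))) :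
    2 * genusFF (kres A) (modularFunctionFieldFullC (kres A) M) + S.card ≤
      genusFF Qb (modularFunctionFieldBar (q * M)) + 1 := by
  classical
  let _instAlgK : Algebra (kres A) (modularFunctionFieldFullC (kres A) M) := inferInstance
  haveI := GalCommon.isAlgClosed_residueField A (Fact.out : q.Prime) hA
  haveI : FF.IsFF (kres A) (modularFunctionFieldFullC (kres A) M) :=
    Reduction.isFF_fullC_residue M A hA hqM
  haveI := Reduction.isFF_bar_curve (q * M)
  haveI := isFractionRing_fibreRing hA M hqM true hM.two_le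
  haveI := isDiscreteValuationRing_W0 hA
  set X := tBar M hA hqM
  have hXt : Transcendental (kres A) X := transcendental_tBar_of_two_le hA M hqM hM.two_le
  have hX0 : X ≠ 0 := fun h => hXt (h ▸ isAlgebraic_zero)
  set g₀ := genusFF (kres A) (modularFunctionFieldFullC (kres A) M)
  set g₁ := genusFF Qb (modularFunctionFieldBar (q * M))
  set P : Divisor (kres A) (modularFunctionFieldFullC (kres A) M) := FF.poleDivisor X
  set c : ℕ := 2 * g₀ + S.card + 1
  set t : Fn A (q * M) := incl (dvd_qM q M) (tFn A M)
  set D : Divisor Qb (modularFunctionFieldBar (q * M)) :=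
    c • FF.poleDivisor (t : modularFunctionFieldBar (q * M))
  haveI : FiniteDimensional Qb (riemannRochSpace D) := inferInstance
  -- a basis over the fixed field
  obtain ⟨e, he, heV⟩ := exists_fixed_basis (A := A) (riemannRochSpace D)
    fun σ hσ y hy => galois_mem_riemannRochSpace t c hσ hy
  set U : Submodule (K0 A) (Fn A (q * M)) := Submodule.span (K0 A) (Set.range e)
  haveI : FiniteDimensional (K0 A) U := FiniteDimensional.span_of_finite _ (Set.finite_range e)
  have hU : ∀ x ∈ U, (x : modularFunctionFieldBar (q * M)) ∈ riemannRochSpace D := by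
    intro x hx
    induction hx using Submodule.span_induction with
    | mem y hy => obtain ⟨i, rfl⟩ := hy; exact heV i
    | zero => exact zero_mem _
    | add y z _ _ hy hz => exact add_mem hy hz
    | smul a y _ hy =>
      have : ((a • y : Fn A (q * M)) : modularFunctionFieldBar (q * M)) =
          (a : Qb) • (y : modularFunctionFieldBar (q * M)) := by
        rw [Algebra.smul_def, Algebra.smul_def]; rfl
      rw [this]; exact Submodule.smul_mem _ _ hy
  have hdU : Module.finrank (K0 A) U = Module.finrank Qb (riemannRochSpace D) := by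
    rw [finrank_span_eq_card, Fintype.card_fin]
    have he' : LinearIndependent (K0 A) fun i => (e i : modularFunctionFieldBar (q * M)) :=
      he.restrict_scalars (R := K0 A) (fun a b h => by simpa using h)
    exact LinearIndependent.of_comp ((Fn A (q * M)).val.toLinearMap) he'
  haveI := finite_crossLattice hA M hM c U (A := A) (q := q)
  have hspan : ∀ x ∈ U, ∃ a : W0 A, a ≠ 0 ∧ a • x ∈ crossLattice M c U := fun x hx =>
    exists_smul_mem_crossLattice M hM c U hx (hU x hx)
  obtain ⟨b, hb⟩ := exists_red_indep (W := W0 A) (K := K0 A) (crossLattice M c U) U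
    (fun x hx => hx.2) hspan (redW A) (redW_surjective hA) (qW A q) (redW_eq_zero_iff hA)
    (crossRed hA hqM hM c U) (crossRed_smul hA hqM hM)
    (exists_eq_smul_of_crossRed_eq_zero hA hqM hM)
  set G := Submodule.span (kres A) (Set.range fun i => crossRed hA hqM hM c U (b i))
  have hG0 : Module.finrank (kres A) G = Module.finrank (K0 A) U := by
    rw [finrank_span_eq_card hb, Fintype.card_fin]
  have hGrange : ∀ u ∈ G, ∃ x, crossRed hA hqM hM c U x = u := by
    intro u hu
    obtain ⟨a, rfl⟩ := (Submodule.mem_span_range_iff_exists_fun _).1 hu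
    choose w hw using fun i => redW_surjective hA (a i)
    refine ⟨∑ i, w i • b i, ?_⟩
    rw [map_sum]
    exact Finset.sum_congr rfl fun i _ => by rw [crossRed_smul, hw]
  -- the points of the second component
  have hσ : ∀ v : Place (kres A) (modularFunctionFieldFullC (kres A) M), ∃ w, v ∈ S →
      0 ≤ w.ord X ∧ ∀ u, (∃ x, crossRed hA hqM hM c U x = u) →
        TwoChart.rv v u.1 = TwoChart.rv w u.2 := by
    intro v
    by_cases hv : v ∈ S
    swap
    · exact ⟨v, fun h => absurd h hv⟩
    obtain ⟨hvX, hQ⟩ := hS v hv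
    obtain ⟨w, hw, hw'⟩ := exists_branch hA M hqM hM (c := c) (U := U) v hvX hQ
    refine ⟨w, fun _ => ⟨hw, ?_⟩⟩
    rintro u ⟨x, rfl⟩
    exact hw' x
  choose σ hσ using hσ
  have hdegP : ∀ r : ℕ, Divisor.degree (r • P) = (r : ℤ) * Divisor.degree P := fun r => by
    rw [map_nsmul, nsmul_eq_mul]
  have hn : 1 ≤ Divisor.degree P := degree_poleDivisor_pos hXt
  have hcn : (c : ℤ) ≤ (c : ℤ) * Divisor.degree P := le_mul_of_one_le_right (Int.natCast_nonneg c) hn
  have hqn : (c : ℤ) ≤ ((q * c : ℕ) : ℤ) * Divisor.degree P := by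
    refine le_trans ?_ (le_mul_of_one_le_right (Int.natCast_nonneg _) hn)
    exact_mod_cast Nat.le_mul_of_pos_left c (Fact.out : q.Prime).pos
  have hglue := finrank_glued_le (D₁ := c • P) (D₂ := (q * c) • P) S σ
    (fun v hv => by
      obtain ⟨hvX, -⟩ := hS v hv
      change 0 ≤ v.ord X at hvX
      rw [Finsupp.smul_apply, FF.poleDivisor_apply, max_eq_left (by omega), smul_zero])
    (fun v hv => by
      have hwX := (hσ v hv).1
      rw [Finsupp.smul_apply, FF.poleDivisor_apply, max_eq_left (by omega), smul_zero])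
    (by rw [hdegP]; omega) G
    (fun u hu => ⟨?_, ?_, fun v hv => (hσ v hv).2 u (hGrange u hu)⟩)
  rotate_left
  · obtain ⟨x, rfl⟩ := hGrange u hu
    refine mem_riemannRochSpace_of_charts c (SetLike.coe_mem _ : _) ?_
    show X⁻¹ ^ c * _ ∈ _
    erw [← piInf_toChartFalse hA hqM hM x]
    exact ((stepData M false hA hqM hM).piInf (toChartFalse x)).2
  · obtain ⟨x, rfl⟩ := hGrange u hu
    refine mem_riemannRochSpace_of_charts (q * c) (SetLike.coe_mem _ : _) ?_
    show X⁻¹ ^ (q * c) * _ ∈ _
    erw [← piZero_toChartFalse hA hqM hM x]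
    exact ((stepData M false hA hqM hM).piZero (toChartFalse x)).2
  have he₁ := FF.ell_eq_of_large (D := c • P) (by rw [hdegP]; omega)
  have he₂ := FF.ell_eq_of_large (D := (q * c) • P) (by rw [hdegP]; omega)
  rw [hdegP] at he₁ he₂
  have hrr := FF.riemann_roch D
  have hdeg := le_degree_poleDivisor hA M hqM hM
  have hD : Divisor.degree D = (c : ℤ) *
      Divisor.degree (FF.poleDivisor (t : modularFunctionFieldBar (q * M)) :
        Divisor Qb (modularFunctionFieldBar (q * M))) := by
    rw [map_nsmul, nsmul_eq_mul]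
  have hdD : Module.finrank Qb (riemannRochSpace D) = FF.ell D := rfl
  have hkey := mul_le_mul_of_nonneg_left hdeg (Int.natCast_nonneg c)
  rw [hG0, hdU, hdD] at hglue
  push_cast at he₂
  have hglue' : (FF.ell D : ℤ) + S.card ≤ (FF.ell (c • P) : ℤ) + (FF.ell ((q * c) • P) : ℤ) := by
    exact_mod_cast hglue
  have h1 : (FF.hOne D : ℤ) ≥ 0 := Int.natCast_nonneg _
  have : (2 * g₀ + S.card : ℤ) ≤ (g₁ : ℤ) + 1 := by nlinarith
  exact_mod_cast this

end FLTAgent.BadQ.TwoInst
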