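import Fermat.Agent.BadQ.TwoBranches

/-!
# The local structure of level `q²M`

`nonempty_modelTwo`: every `TowerData` has a `ModelTwo`, that is, three components isomorphic to
the special fibre of level `M`, regular everywhere, meeting only at the crossings, transversally.
`crossing_finite_invariant`: crossings are fixed by the square of Frobenius and are permuted by
it.
-/

set_option autoImplicit false

namespace FLTAgent.BadQ.Two

variable {q : ℕ} {W A₀ A₁ A₂ C F₁ : Type*} [CommRing W] [CommRing A₀] [CommRing A₁] [CommRing A₂]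
  [CommRing C] [Field F₁] [Algebra W A₀] [Algebra W A₁] [Algebra W A₂] [Algebra W C]
  [Algebra W F₁] [Algebra A₁ F₁] [IsScalarTower W A₁ F₁] [IsFractionRing A₁ F₁]
  [IsNoetherianRing W] [IsDomain A₀] [IsDomain A₁] [IsDomain A₂]
  [IsDedekindDomain C] [IsIntegrallyClosed A₁] [IsIntegrallyClosed A₂]
  [Algebra.FiniteType W A₀]

namespace TowerData

variable {h : StepData q W A₀ A₁ C F₁} (t : TowerData h A₂)

/-- The twin of embeddings attached to a tower. -/
def twin : Twin h A₂ where
  f := t.lam
  g := t.rho.comp h.ι.toAlgHom
  compat a := by simp [h.ι_β, t.compat]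
  f_finite := t.lam_finite
  g_finite := RingHom.Finite.comp t.rho_finite
    (RingHom.Finite.of_surjective h.ι.toAlgHom.toRingHom h.ι.surjective)
  f_injective := t.lam_injective
  g_injective := t.rho_injective.comp h.ι.injective
  generates a := by
    have : Set.range ⇑(t.rho.comp h.ι.toAlgHom) = Set.range ⇑t.rho := by
      rw [AlgHom.coe_comp, Set.range_comp]
      simp [h.ι.surjective.range_eq]
    rw [this]; exact t.generates a
  ne a e := t.ne a (e.trans (congrArg t.rho (h.ι_α a)))

theorem twin_f (a : A₁) : t.twin.f a = t.lam a := rfl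

theorem twin_g_symm (a : A₁) : t.twin.g (h.ι.symm a) = t.rho a :=
  congrArg t.rho (h.ι.apply_symm_apply a)

end TowerData

theorem finiteType_step (h : StepData q W A₀ A₁ C F₁) : Algebra.FiniteType W A₁ := by
  let := h.α.toRingHom.toAlgebra
  have : IsScalarTower W A₀ A₁ := IsScalarTower.of_algebraMap_eq fun w => (h.α.commutes w).symm
  have : Module.Finite A₀ A₁ := h.α_finite
  exact Algebra.FiniteType.trans (R := W) (S := A₀) (A := A₁) ‹_› inferInstance

/-- **The local structure of level `q²M`.** -/
theorem nonempty_modelTwo {h : StepData q W A₀ A₁ C F₁} (t : TowerData h A₂) :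
    Nonempty (ModelTwo t) := by
  have : IsNoetherianRing A₀ := Algebra.FiniteType.isNoetherianRing W A₀
  have := finiteType_step h
  have : IsNoetherianRing A₁ := Algebra.FiniteType.isNoetherianRing W A₁
  obtain ⟨c⟩ := t.twin.nonempty_comps t.lam_not_surjective
  have hz : ∀ a, h.piZero (h.ι.symm a) = h.piInf a := fun a => by
    change h.piInf (h.ι (h.ι.symm a)) = _
    rw [AlgEquiv.apply_symm_apply]
  have hi : ∀ a, h.piInf (h.ι.symm a) = h.piZero a := fun a => by
    rw [← h.piZero_ι (h.ι.symm a), AlgEquiv.apply_symm_apply]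
  have hzero : ∀ a, c.π 0 (t.rho a) = h.φ (h.piInf a) := fun a => by
    rw [← t.twin_g_symm, c.g0, hz]
  have hone : ∀ a, c.π 1 (t.rho a) = h.piZero a := fun a => by
    rw [← t.twin_g_symm, c.g1, hi]
  have htwo : ∀ a, c.π 2 (t.rho a) = h.piZero a := fun a => by
    rw [← t.twin_g_symm, c.g2, hi]
  refine ⟨{ comp := c.π, comp_surjective := c.surj, comp_lam_zero := c.f0, comp_rho_zero := hzero,
            comp_lam_one := c.f1, comp_rho_one := hone, comp_lam_two := c.f2, comp_rho_two := htwo,
            ker_injective := fun i j => c.ker_injective,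
            exists_ker_le := fun P hP hq => by have := hP; exact c.exists_ker_le hq,
            q_mem := c.q_mem, closed_point_rational := ?_, comp_ext := ?_, smooth := ?_,
            crossing := ?_,
            eq_of_comap_eq := fun i j Q Q' hQ hQ' e => by
              have := hQ; have := hQ'; exact c.eq_of_pt_eq e,
            factorial := ?_ }⟩
  · intro y hy hq
    have := hy
    intro z
    obtain ⟨a, rfl⟩ := Ideal.Quotient.mk_surjective z
    obtain ⟨w, hw⟩ := (t.twin.point_data (FractionRing A₂) hq).1 a
    exact ⟨w, (Ideal.Quotient.eq.2 hw).symm⟩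
  · intro i f hlam hrho
    refine c.hom_ext i f hlam fun a => ?_
    exact hrho (h.ι a)
  · intro i Q hQ hc
    have := hQ
    refine ⟨fun j Q' hQ' e => by have := hQ'; exact c.index_eq hc e, ?_⟩
    fin_cases i
    · exact c.smooth_zero (FractionRing A₂) hc
    · exact c.smooth_one (FractionRing A₂) hc
    · exact c.smooth_two (FractionRing A₂) hc
  · intro Q hQ hc
    have := hQ
    exact c.crossing_point (FractionRing A₂) hc
  · intro y hy hq
    have := hy
    exact ⟨inferInstance, MulEquiv.uniqueFactorizationMonoid
      (locEquiv (K := FractionRing A₂) (y := y)).toMulEquiv (t.twin.ufd_loc (FractionRing A₂) hq)⟩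

/-- Crossings are fixed by the square of Frobenius, which permutes them. -/
theorem crossing_finite_invariant {h : StepData q W A₀ A₁ C F₁} {Q : Ideal C} (hQ : Q.IsMaximal)
    (hc : h.Crossing Q) : (Q.comap h.φ).comap h.φ = Q ∧ h.Crossing (Q.comap h.φ) := by
  have : IsNoetherianRing A₀ := Algebra.FiniteType.isNoetherianRing W A₀
  have := finiteType_step h
  have : IsNoetherianRing A₁ := Algebra.FiniteType.isNoetherianRing W A₁
  have := hQ
  exact ⟨(h.crossing_iff.1 hc).1, h.crossing_fr hc⟩

end FLTAgent.BadQ.Two
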