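import Fermat.Agent.BadQ.TwoInstTie
import Fermat.Agent.BadQ.TwoInstCross
import Fermat.Agent.BadQ.TwoInstFinite
import Fermat.Agent.BadQ.TwoInstPole
import Fermat.Agent.TwoChart.ModelTwoPair
import Fermat.Agent.TwoChart.Connected
import Fermat.Agent.TwoChart.CurveRing
import Fermat.Agent.TwoChart.FixedBound
import Fermat.Agent.RedSurj.Main
import Fermat.Agent.Reduction.GaussGenus
import Fermat.Agent.Kronecker.Inputs
import Fermat.Agent.ModularPlaces.Genus
import Fermat.Agent.Degen.Model

/-!
# Inertia invariants of the Tate module at level `q²M`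

`fixed_le_two`: in a canonical model the invariants of inertia, over any field of characteristic
zero, have dimension at most `rankH M + rankH (qM)`. The two chart models at `t` and `1/t`
(`exists_tie`, `nonempty_modelTwo`) are fed into the general bound of `TwoChart.FixedBound`; the
number of crossings is controlled by `card_crossing_le`.
-/

set_option autoImplicit false
set_option linter.unusedSectionVars false
set_option linter.style.haveILetI false
set_option synthInstance.maxHeartbeats 400000
set_option maxHeartbeats 1000000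

noncomputable section

open ModularCurve AlgebraicCurve Matrix

namespace FLTAgent.BadQ.TwoInst

attribute [local instance] instAlgebraAdjoinField instTowerAdjoinField

local notation "Qb" => AlgebraicClosure ℚ

variable {A : ValuationSubring Qb} {q : ℕ} [hq : Fact q.Prime] (hA : A.LiesOverPrime q)

section Base

include hA in
theorem isUnit_natCast_W0 {p : ℕ} (hp : p.Prime) (hqp : q ≠ p) : IsUnit (p : W0 A) := by
  by_contra h
  haveI := isDiscreteValuationRing_W0 hA
  haveI := GalCommon.charP_residueField hq.out hA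
  have h1 : (p : W0 A) ∈ IsLocalRing.maximalIdeal (W0 A) := (IsLocalRing.mem_maximalIdeal _).2 h
  rw [(qW_irreducible hA).maximalIdeal_eq, Ideal.mem_span_singleton, ← redW_eq_zero_iff hA,
    map_natCast, CharP.cast_eq_zero_iff (kres A) q] at h1
  exact hqp ((Nat.prime_dvd_prime_iff_eq hq.out hp).1 h1)

include hA in
theorem exists_mul_pow_eq (c : K0 A) : ∃ (w : W0 A) (m : ℕ),
    c * algebraMap (W0 A) (K0 A) (q : W0 A) ^ m = algebraMap (W0 A) (K0 A) w := by
  rcases eq_or_ne c 0 with rfl | hc
  · exact ⟨0, 0, by simp⟩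
  obtain ⟨n, hn⟩ := exists_zpow hA hc
  have hmem : c * (q : K0 A) ^ n.natAbs ∈ W0 A := by
    rw [mem_W0, ← A.valuation_le_one_iff]
    push_cast
    rw [map_mul, map_pow, hn, ← zpow_natCast, ← zpow_add₀ (valuation_q_ne (q := q))]
    exact zpow_le_one₀ (pos_of_ne_zero (valuation_q_ne (q := q))) (valuation_q_lt hA).le (by omega)
  exact ⟨⟨_, hmem⟩, n.natAbs, by rw [map_natCast]; rfl⟩

end Base

variable (M : ℕ) [NeZero M] (hqM : ¬ q ∣ M) (hM : GoodLevel M)

theorem order_coeffMap_tSer {R : Type*} [CommRing R] [Nontrivial R] (f : ℤ →+* R) :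
    (coeffMap f (tSer ℤ M)).order = (tSer ℤ M).order := by
  have hne : (tSer ℤ M) ≠ 0 := (tUnit ℤ M).ne_zero
  have hu : IsUnit ((tSer ℤ M).leadingCoeff) := by
    refine IsUnit.of_mul_eq_one ((↑(tUnit ℤ M)⁻¹ : LaurentSeries ℤ).leadingCoeff) ?_
    rw [tSer, ← HahnSeries.leadingCoeff_mul, Units.mul_inv, HahnSeries.leadingCoeff_one]
  rw [HahnSeries.leadingCoeff_eq] at hu
  have hc : (coeffMap f (tSer ℤ M)).coeff (tSer ℤ M).order ≠ 0 := by
    rw [coeffMap_coeff]; exact (hu.map f).ne_zero
  refine le_antisymm (HahnSeries.order_le_of_coeff_ne_zero hc) ?_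
  by_contra hlt
  push Not at hlt
  have hne' : coeffMap f (tSer ℤ M) ≠ 0 := fun h => hc (by rw [h, HahnSeries.coeff_zero])
  have h1 := mt HahnSeries.leadingCoeff_eq_zero.1 hne'
  rw [HahnSeries.leadingCoeff_eq, coeffMap_coeff,
    HahnSeries.coeff_eq_zero_of_lt_order hlt, map_zero] at h1
  exact h1 rfl

theorem order_tSer_kres (hM2 : 2 ≤ M) : (tSer (kres A) M).order < 0 := by
  have h0 : (tSer ℤ M).order < 0 := by
    have h := order_tSer_neg (M := M) hM2
    rw [← coeffMap_tSer (M := M) (Int.castRingHom Qb), order_coeffMap_tSer (M := M)] at h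
    exact h
  rw [← coeffMap_tSer (M := M) (Int.castRingHom (kres A)), order_coeffMap_tSer (M := M)]
  exact h0

theorem transcendental_coordBar (hM2 : 2 ≤ M) :
    Transcendental (kres A) (coordBar M hA hqM true) := by
  let _instAlgK : Algebra (kres A) (modularFunctionFieldFullC (kres A) M) := inferInstance
  intro h
  obtain ⟨c, hc⟩ := eq_C_of_isAlgebraic
    (h.algHom (modularFunctionFieldFullC (kres A) M).val)
  have h2 : tSer (kres A) M = HahnSeries.C c := hc
  have h3 := order_tSer_kres (A := A) M hM2
  rw [h2, HahnSeries.order_C] at h3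
  exact lt_irrefl _ h3

theorem isFractionRing_fibre_of_two_le (b : Bool) (hM2 : 2 ≤ M) :
    IsFractionRing (fibre M hA hqM b) (modularFunctionFieldFullC (kres A) M) := by
  let _instAlgK : Algebra (kres A) (modularFunctionFieldFullC (kres A) M) := inferInstance
  haveI : FF.IsFF (kres A) (modularFunctionFieldFullC (kres A) M) :=
    Reduction.isFF_fullC_residue M A hA hqM
  have hs : Transcendental (kres A) (coordBar M hA hqM b) := by
    have ht := transcendental_coordBar hA M hqM hM2
    cases b
    · exact fun h => ht (by simpa [coordBar] using h.inv)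
    · exact ht
  haveI := FF.finiteDimensional_adjoin_of_transcendental (K := kres A) hs
  haveI := isFractionRing_adjoinField (W := kres A) (K := kres A) (s := coordBar M hA hqM b)
  exact integralClosure.isFractionRing_of_finite_extension
    (A := Algebra.adjoin (kres A) ({coordBar M hA hqM b} : Set (modularFunctionFieldFullC (kres A) M)))
    (IntermediateField.adjoin (kres A) ({coordBar M hA hqM b} : Set (modularFunctionFieldFullC (kres A) M)))
    (modularFunctionFieldFullC (kres A) M)

include hA hqM hM in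
/-- **Inertia invariants at level `q²M`** have dimension at most `rankH M + rankH (qM)`. -/
theorem fixed_le_two {ι : Qb →+* ℂ} {p : ℕ} [Fact p.Prime] (hqp : q ≠ p)
    (h₂ : Degen.CanModel ι (q ^ 2 * M) p) (L : Type) [Field L] [CharZero L] (f : ℤ_[p] →+* L) :
    Module.finrank L (⨅ i ∈ A.inertiaSubgroupIn ℚ,
      LinearMap.ker ((f.mapMatrix (h₂.MM i)).mulVecLin - LinearMap.id) :
        Submodule L (Fin (Period.rankH (q ^ 2 * M)) → L)) ≤
      Period.rankH M + Period.rankH (q * M) := by
  classical
  let _instAlgK : Algebra (kres A) (modularFunctionFieldFullC (kres A) M) := inferInstance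
  haveI := GalCommon.isAlgClosed_residueField A hq.out hA
  haveI := isNoetherianRing_W0 hA
  haveI : FF.IsFF (kres A) (modularFunctionFieldFullC (kres A) M) :=
    Reduction.isFF_fullC_residue M A hA hqM
  haveI : FF.IsFF Qb (laurentBaseChange Qb (modularFunctionFieldFull (q ^ 2 * M))) :=
    Kronecker.isFF_bar (q ^ 2 * M)
  have hM2 := hM.two_le
  -- the facts about the charts
  have htr0 := fun b => transcendental_coord A hM2 b
  have htr1 := fun b => transcendental_incl_coord A (M := M) hM2 b (dvd_qM q M)
  have htr2 : ∀ b, Transcendental (K0 A)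
      (incl (dvd_qqM q M) (incl (dvd_qM q M) (coord A M b))) := fun b halg =>
    htr1 b ((isAlgebraic_algHom_iff (incl (dvd_qqM q M))
      (incl (A := A) (dvd_qqM q M)).injective).1 halg)
  haveI := fun b => isFractionRing_fibre_of_two_le hA M hqM b hM2
  haveI : IsDedekindDomain (fibre M hA hqM true) :=
    TwoChart.isDedekindDomain_curveRing (coordBar M hA hqM true)
  haveI : IsDedekindDomain (fibre M hA hqM false) :=
    TwoChart.isDedekindDomain_curveRing (coordBar M hA hqM false)
  haveI := isFractionRing_chart hA (htr1 true)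
  haveI := isFractionRing_chart hA (htr1 false)
  haveI := isIntegrallyClosed_chart hA (htr1 true)
  haveI := isIntegrallyClosed_chart hA (htr1 false)
  haveI := isIntegrallyClosed_chart hA (htr2 true)
  haveI := isIntegrallyClosed_chart hA (htr2 false)
  haveI := finiteType_chart hA (htr0 true)
  haveI := finiteType_chart hA (htr0 false)
  haveI := isNoetherianRing_chart hA (htr2 true)
  haveI := isFractionRing_chart hA (htr2 true)
  obtain ⟨wAL, VI, redI, hT, hred, hredBe⟩ := exists_tie hA M hqM hM
  have hsC : ∀ b, coordBar M hA hqM b ∈ fibre M hA hqM b := fun b =>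
    mem_intCl.2 (isIntegral_algebraMap
      (x := (⟨_, Algebra.subset_adjoin rfl⟩ : Algebra.adjoin (kres A)
        ({coordBar M hA hqM b} : Set (modularFunctionFieldFullC (kres A) M)))))
  set P : Place (kres A) (modularFunctionFieldFullC (kres A) M) → Prop :=
    TwoChart.CrossAt (stepData M true hA hqM hM) (coordBar M hA hqM true) 
  obtain ⟨mdl, he⟩ := TwoChart.exists_model_of_pair
    (res := redW A) (hT true) (hT false)
    (sbar := coordBar M hA hqM true) (sbar' := coordBar M hA hqM false)
    rfl (map_inv₀ (incl (dvd_qM q M)) (tFn A M))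
    (by rw [show coord A M false = (tFn A M)⁻¹ from rfl, map_inv₀, map_inv₀]; rfl)
    rfl rfl rfl
    (fun h => htr0 true (h ▸ isAlgebraic_zero))
    (transcendental_coordBar hA M hqM hM2)
    hred hredBe (fun c hc => hc) (fun c hc => hc) (fun y hy => hy) (hsC true) (hsC false)
    (Nat.cast_ne_zero.2 hq.out.ne_zero)
    (crossing_coordBar hA M hqM hM true (hsC true))
    (crossing_coordBar hA M hqM hM false (hsC false))
    (by rintro s (rfl | rfl)
        · exact isAlgebraic_chart hA (htr2 true)
        · exact isAlgebraic_chart hA (htr2 false))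
    (by rintro s (rfl | rfl)
        · exact finite_chart hA (htr2 true)
        · exact finite_chart hA (htr2 false))
    (redW_surjective hA) (redW_eq_zero_iff hA)
  have hcard : ∀ S : Finset (Place (kres A) (modularFunctionFieldFullC (kres A) M)),
      (∀ v ∈ S, P v) → 2 * genusFF (kres A) (modularFunctionFieldFullC (kres A) M) + S.card ≤
        genusFF Qb (modularFunctionFieldBar (q * M)) + 1 :=
    fun S hS => card_crossing_le hA M hqM hM S hS
  have hfinP : {v | P v}.Finite := by
    by_contra hinf
    obtain ⟨S, hS, hSc⟩ := Set.Infinite.exists_subset_card_eq hinf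
      (genusFF Qb (modularFunctionFieldBar (q * M)) + 2)
    have := hcard S fun v hv => hS hv
    omega
  letI : Fintype {v // P v} := hfinP.fintype
  have hXcard : 2 * genusFF (kres A) (modularFunctionFieldFullC (kres A) M) +
      Fintype.card {v // P v} ≤ genusFF Qb (modularFunctionFieldBar (q * M)) + 1 := by
    have h := hcard ((Finset.univ : Finset {v // P v}).map (Function.Embedding.subtype _))
      (fun v hv => by
        obtain ⟨w, -, rfl⟩ := Finset.mem_map.1 hv
        exact w.2)
    rwa [Finset.card_map, Finset.card_univ] at h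
  have hπK : algebraMap (W0 A) (K0 A) (q : W0 A) ≠ 0 := by
    rw [map_natCast]; exact Nat.cast_ne_zero.2 hq.out.ne_zero
  haveI : Nonempty {v // P v} := TwoChart.nonempty_crossings mdl hπK (exists_mul_pow_eq hA)
    (fun x hx => TwoChart.mem_range_of_isIntegral_fixedF hx) (Fact.out : p.Prime)
    (isUnit_natCast_W0 hA Fact.out hqp)
  -- the coordinates of the torsion
  let N := q ^ 2 * M
  let ψ : ℕ → (Fin (Period.rankH N) → ℤ_[p]) →+ Pic0 Qb (modularFunctionFieldBar N) := fun m =>
    ((Pic0.torsion Qb (modularFunctionFieldBar N) (p ^ m)).subtype.comp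
      (HeckeH.heckeTorsionEquiv N ι (p ^ m)).symm.toAddMonoidHom).comp
      ((Period.evalEquiv N (ZMod (p ^ m)) (ZMod (p ^ m))).symm.toLinearMap.toAddMonoidHom.comp
        ((PadicInt.toZModPow (p := p) m).toAddMonoidHom.compLeft (Fin (Period.rankH N))))
  have hψ : ∀ m v, ∃ x : Pic0.torsion Qb (modularFunctionFieldBar N) (p ^ m), ψ m v = x ∧
      Period.evalEquiv N (ZMod (p ^ m)) (ZMod (p ^ m)) (HeckeH.heckeTorsionEquiv N ι (p ^ m) x) =
        PadicInt.toZModPow m ∘ v := fun m v =>
    ⟨(HeckeH.heckeTorsionEquiv N ι (p ^ m)).symm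
      ((Period.evalEquiv N (ZMod (p ^ m)) (ZMod (p ^ m))).symm (PadicInt.toZModPow m ∘ v)), rfl,
      by rw [AddEquiv.apply_symm_apply, LinearEquiv.apply_symm_apply]⟩
  have htor : ∀ m v, p ^ m • ψ m v = 0 := by
    intro m v
    obtain ⟨x, hx, -⟩ := hψ m v
    rw [hx, ← natCast_zsmul]
    exact Pic0.mem_torsion.1 x.2
  have hker : ∀ m v, ψ m v = 0 → ∃ w, v = ((p : ℤ_[p]) ^ m) • w := by
    intro m v hv
    obtain ⟨x, hx, hxv⟩ := hψ m v
    have hx0 : x = 0 := Subtype.ext (hx.symm.trans hv)
    rw [hx0, map_zero, map_zero] at hxv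
    have hk : ∀ j, ∃ w, v j = (p : ℤ_[p]) ^ m * w := fun j => by
      have hmem : v j ∈ RingHom.ker (PadicInt.toZModPow (p := p) m) := (congrFun hxv j).symm
      rwa [PadicInt.ker_toZModPow, Ideal.mem_span_singleton] at hmem
    choose w hw using hk
    exact ⟨w, funext hw⟩
  have hgal : ∀ m, ∀ σ ∈ inert A, ∀ v, ψ m (h₂.MM σ *ᵥ v) =
      arithmeticGalois (modularFunctionFieldFull N) σ • ψ m v := by
    intro m σ _ v
    obtain ⟨x, hx, hxv⟩ := hψ m v
    obtain ⟨y, hy, hyv⟩ := hψ m (h₂.MM σ *ᵥ v)
    have hrep : y = JZero.torsionGaloisRep N (p ^ m) σ x := by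
      apply (HeckeH.heckeTorsionEquiv N ι (p ^ m)).injective
      apply (Period.evalEquiv N (ZMod (p ^ m)) (ZMod (p ^ m))).injective
      rw [hyv, h₂.isGal m σ x, hxv]
      funext j
      exact RingHom.map_mulVec _ _ _ j
    rw [hy, hx, hrep]
    exact JZero.coe_torsionGaloisRep_apply N σ x
  obtain ⟨C, hC⟩ := RedSurj.card_kummer_residue_le A M p hA hqM
  have hmain := TwoChart.finrank_fixed_le_of_model mdl hπK (exists_mul_pow_eq hA)
    (isUnit_natCast_W0 hA Fact.out hqp) (i₀ := (0 : Fin 3)) (by rw [he]; rfl)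
    (fun _ => 2 * genusFF (kres A) (modularFunctionFieldFullC (kres A) M)) (fun _ => ⟨C, hC⟩)
    (fun σ => h₂.MM σ) ψ htor hker hgal L f
  have hg : genusFF (kres A) (modularFunctionFieldFullC (kres A) M) =
      genusFF Qb (modularFunctionFieldBar M) := Reduction.genusFF_fullC_residue M A hA hqM hM
  have hr : ∀ (n : ℕ) [NeZero n],
      Period.rankH n = 2 * genusFF Qb (modularFunctionFieldBar n) := fun n _ => by
    have h1 := Period.rankH_eq n
    rw [← ModularPlaces.genusFF_bar n] at h1
    exact_mod_cast h1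
  rw [hr M, hr (q * M), ← hg]
  have h3 : ∀ a b : ℕ, (Fintype.card (Fin 3) - 1) * (a - 1) + ∑ _i : Fin 3, b =
      2 * (a - 1) + 3 * b := fun a b => by simp
  refine le_trans hmain (le_trans (h3 _ _).le ?_)
  show 2 * (Fintype.card {v // P v} - 1) + 3 * (2 * _) ≤ _
  have := Fintype.card_pos (α := {v // P v})
  omega

end FLTAgent.BadQ.TwoInst
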