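import Fermat.Agent.BadQ.TwoComp

/-!
# Closed points on the three components of level `q²M`

Given the three restriction maps of `TwoComp`, this computes when points of different components
coincide: away from crossings a point lies on one component (`index_eq`), with the generators of
`smooth_zero`, `smooth_one`, `smooth_two`; over a crossing the three components share one point
(`pt_eq_of_crossing`, `crossing_point`).
-/

set_option autoImplicit false

namespace FLTAgent.BadQ.Two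

open Ideal IsLocalRing

variable {q : ℕ} {W A₀ A₁ A₂ C F₁ : Type*} [CommRing W] [CommRing A₀] [CommRing A₁] [CommRing A₂]
  [CommRing C] [Field F₁] [Algebra W A₀] [Algebra W A₁] [Algebra W A₂] [Algebra W C]
  [Algebra W F₁] [Algebra A₁ F₁] [IsScalarTower W A₁ F₁] [IsDedekindDomain C]
  [IsNoetherianRing W] [IsDomain A₀] [IsDomain A₁] [IsDomain A₂]
  [IsNoetherianRing A₀] [IsNoetherianRing A₁]
  [Algebra.FiniteType W A₀] [Algebra.FiniteType W A₁]
  [IsIntegrallyClosed A₁] [IsIntegrallyClosed A₂] [IsFractionRing A₁ F₁]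

namespace Twin

namespace Comps

variable {h : StepData q W A₀ A₁ C F₁} {T : Twin h A₂} (c : T.Comps)

theorem pf0 (Q : Ideal C) : (Q.comap (c.π 0)).comap T.f = h.xI Q := by
  ext a; change c.π 0 (T.f a) ∈ Q ↔ _; rw [c.f0]; rfl

theorem pg0 (Q : Ideal C) : (Q.comap (c.π 0)).comap T.g = h.xZ (h.fr Q) := by
  ext a; change c.π 0 (T.g a) ∈ Q ↔ _; rw [c.g0]; rfl

theorem pf1 (Q : Ideal C) : (Q.comap (c.π 1)).comap T.f = h.xI Q := by
  ext a; change c.π 1 (T.f a) ∈ Q ↔ _; rw [c.f1]; rfl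

theorem pg1 (Q : Ideal C) : (Q.comap (c.π 1)).comap T.g = h.xI Q := by
  ext a; change c.π 1 (T.g a) ∈ Q ↔ _; rw [c.g1]; rfl

theorem pf2 (Q : Ideal C) : (Q.comap (c.π 2)).comap T.f = h.xZ (h.fr Q) := by
  ext a; change c.π 2 (T.f a) ∈ Q ↔ _; rw [c.f2]; rfl

theorem pg2 (Q : Ideal C) : (Q.comap (c.π 2)).comap T.g = h.xI Q := by
  ext a; change c.π 2 (T.g a) ∈ Q ↔ _; rw [c.g2]; rfl

instance pt_maximal (i : Fin 3) (Q : Ideal C) [Q.IsMaximal] : (Q.comap (c.π i)).IsMaximal :=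
  Ideal.comap_isMaximal_of_surjective _ (c.surj i)

theorem q_mem_pt (i : Fin 3) (Q : Ideal C) : (q : A₂) ∈ Q.comap (c.π i) := by
  rw [Ideal.mem_comap, c.q_mem]; exact zero_mem _

theorem ker_le_pt (i : Fin 3) (Q : Ideal C) : RingHom.ker (c.π i) ≤ Q.comap (c.π i) :=
  fun _ ha => by rw [Ideal.mem_comap, (RingHom.mem_ker).1 ha]; exact zero_mem _

theorem ker_lt_pt (i : Fin 3) (Q : Ideal C) [Q.IsMaximal] : RingHom.ker (c.π i) < Q.comap (c.π i) :=
  lt_of_le_of_ne (c.ker_le_pt i Q) fun e => c.ker_not_maximal i (e ▸ inferInstance)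

theorem middle (i : Fin 3) (Q : Ideal C) [Q.IsMaximal] :
    ((Q.comap (c.π i)).comap T.f).comap h.β = h.mA (h.fr Q) := by
  fin_cases i
  · exact (congrArg (Ideal.comap h.β) (c.pf0 Q)).trans h.comap_β_xI
  · exact (congrArg (Ideal.comap h.β) (c.pf1 Q)).trans h.comap_β_xI
  · exact (congrArg (Ideal.comap h.β) (c.pf2 Q)).trans h.comap_β_xZ

theorem eq_of_pt_eq {i j : Fin 3} {Q Q' : Ideal C} [Q.IsMaximal] [Q'.IsMaximal]
    (e : Q.comap (c.π i) = Q'.comap (c.π j)) : Q = Q' := by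
  have := c.middle i Q
  rw [e, c.middle j Q'] at this
  exact (h.fr_injective (h.mA_injective this)).symm

/-- Away from crossings a point lies on one component. -/
theorem index_eq {i j : Fin 3} {Q : Ideal C} [Q.IsMaximal] (hc : ¬ h.Crossing Q) {Q' : Ideal C}
    [Q'.IsMaximal] (e : Q'.comap (c.π j) = Q.comap (c.π i)) : j = i ∧ Q' = Q := by
  obtain rfl := c.eq_of_pt_eq e
  refine ⟨?_, rfl⟩
  have ef := congrArg (Ideal.comap T.f) e
  have eg := congrArg (Ideal.comap T.g) e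
  have hne : h.xI Q' ≠ h.xZ (h.fr Q') := h.xI_ne_xZ hc
  fin_cases i <;> fin_cases j <;>
    simp only [Fin.zero_eta, Fin.mk_one, Fin.reduceFinMk, c.pf0, c.pg0, c.pf1, c.pg1, c.pf2,
      c.pg2] at ef eg ⊢
  all_goals first
    | exact rfl
    | exact absurd ef hne
    | exact absurd ef.symm hne
    | exact absurd eg hne
    | exact absurd eg.symm hne

theorem prime_lt_pt {i : Fin 3} {Q : Ideal C} [Q.IsMaximal] (hc : ¬ h.Crossing Q) {p : Ideal A₂}
    [p.IsPrime] (hq : (q : A₂) ∈ p) (hlt : p < Q.comap (c.π i)) : p = RingHom.ker (c.π i) := by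
  obtain ⟨j, hj⟩ := c.eq_ker hq fun hm => hlt.ne (hm.eq_of_le (Ideal.IsMaximal.ne_top inferInstance) hlt.le)
  have hle : RingHom.ker (c.π j) ≤ Q.comap (c.π i) := hj ▸ hlt.le
  have hcm : ((Q.comap (c.π i)).map (c.π j)).comap (c.π j) = Q.comap (c.π i) := by
    rw [Ideal.comap_map_of_surjective' _ (c.surj j)]
    exact sup_eq_left.2 hle
  rcases Ideal.map_eq_top_or_isMaximal_of_surjective _ (c.surj j)
    (inferInstance : (Q.comap (c.π i)).IsMaximal) with e | e
  · rw [e, Ideal.comap_top] at hcm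
    exact absurd hcm.symm (Ideal.IsMaximal.ne_top inferInstance)
  · have := e
    obtain ⟨rfl, -⟩ := c.index_eq hc hcm
    exact hj

variable (K : Type*) [Field K] [Algebra A₂ K] [IsFractionRing A₂ K] [Algebra W K] [IsScalarTower W A₂ K]

theorem generatesAt_point {y : Ideal A₂} [y.IsMaximal] {a b : A₂}
    (hm : maximalIdeal (loc K y) = Ideal.span {algebraMap A₂ (loc K y) a, algebraMap A₂ (loc K y) b}) :
    GeneratesAt y {a, b} y := by
  refine generatesAt_of_loc (K := K) ?_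
  rw [Set.image_pair, IsLocalization.AtPrime.map_eq_maximalIdeal y (loc K y), hm]

theorem generatesAt_ker {y : Ideal A₂} [y.IsMaximal] {a : A₂} {b : loc K y} {P : Ideal A₂} [P.IsPrime]
    (hm : maximalIdeal (loc K y) = Ideal.span {algebraMap A₂ (loc K y) a, b})
    (hP : P < y) (hqP : (q : A₂) ∈ P) (ha : a ∈ P) (T : Twin h A₂) : GeneratesAt P {a} y := by
  have := T.isNoetherian
  refine generatesAt_of_loc (K := K) ?_
  rw [Set.image_singleton]
  exact map_loc_eq_span hm hP (T.ne_bot_of_q_mem hqP) (Ideal.mem_map_of_mem _ ha)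

include K in
theorem smooth_zero {Q : Ideal C} [Q.IsMaximal] (hc : ¬ h.Crossing Q) :
    ∃ g u : A₂, c.π 0 g = 0 ∧ GeneratesAt (Q.comap (c.π 0)) {g, u} (Q.comap (c.π 0)) ∧
      GeneratesAt (RingHom.ker (c.π 0)) {g} (Q.comap (c.π 0)) ∧
      AssociatedAt (q : A₂) (g ^ 1) (Q.comap (c.π 0)) := by
  obtain ⟨u, hu⟩ := h.exists_lift_unif (Q := Q)
  obtain ⟨hm, -, -⟩ := T.regular_C20 K hc (c.pf0 Q) (c.pg0 Q) hu
  rw [← map_natCast (algebraMap A₂ (loc K (Q.comap (c.π 0))))] at hm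
  refine ⟨q, T.f (h.α u), c.q_mem 0, generatesAt_point K hm,
    generatesAt_ker K hm (c.ker_lt_pt 0 Q) (c.q_mem 0) (c.q_mem 0) T, ?_⟩
  rw [pow_one]
  exact Associated.refl _

include K in
theorem smooth_two {Q : Ideal C} [Q.IsMaximal] (hc : ¬ h.Crossing Q) :
    ∃ g u : A₂, c.π 2 g = 0 ∧ GeneratesAt (Q.comap (c.π 2)) {g, u} (Q.comap (c.π 2)) ∧
      GeneratesAt (RingHom.ker (c.π 2)) {g} (Q.comap (c.π 2)) ∧
      AssociatedAt (q : A₂) (g ^ 1) (Q.comap (c.π 2)) := by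
  obtain ⟨u, hu⟩ := h.exists_lift_unif (Q := Q)
  obtain ⟨hm, -, -⟩ := T.swap.regular_C20 K hc (c.pg2 Q) (c.pf2 Q) hu
  rw [← map_natCast (algebraMap A₂ (loc K (Q.comap (c.π 2))))] at hm
  refine ⟨q, T.g (h.α u), c.q_mem 2, generatesAt_point K hm,
    generatesAt_ker K hm (c.ker_lt_pt 2 Q) (c.q_mem 2) (c.q_mem 2) T, ?_⟩
  rw [pow_one]
  exact Associated.refl _

theorem δ_mem_ker (a : A₁) : c.π 1 (T.f a - T.g a) = 0 := by rw [map_sub, c.f1, c.g1, sub_self]

include K in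
theorem smooth_one {Q : Ideal C} [Q.IsMaximal] (hc : ¬ h.Crossing Q) :
    ∃ g u : A₂, c.π 1 g = 0 ∧ GeneratesAt (Q.comap (c.π 1)) {g, u} (Q.comap (c.π 1)) ∧
      GeneratesAt (RingHom.ker (c.π 1)) {g} (Q.comap (c.π 1)) ∧
      AssociatedAt (q : A₂) (g ^ (q - 1)) (Q.comap (c.π 1)) := by
  have := T.isNoetherian
  by_cases hnc : ∀ d ∈ h.cusp, ¬ d ≤ h.mA Q
  · obtain ⟨u, hu⟩ := h.exists_lift_unif (Q := Q)
    obtain ⟨hm, hq, -⟩ := T.regular_C11 K hc hnc (c.pf1 Q) (c.pg1 Q) hu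
    refine ⟨T.f (h.α u) - T.g (h.α u), T.f (h.α u), c.δ_mem_ker _, generatesAt_point K hm,
      generatesAt_ker K hm (c.ker_lt_pt 1 Q) (c.q_mem 1) (c.δ_mem_ker _) T,
      associatedAt_of_loc (K := K) ?_⟩
    rwa [map_natCast, map_pow]
  push Not at hnc
  obtain ⟨d, hd, hdQ⟩ := hnc
  set y := Q.comap (c.π 1)
  obtain ⟨u, r, hu, hδ, hm, -, -⟩ := T.regular_cusp K hd hdQ (c.pf1 Q) (c.pg1 Q)
  obtain ⟨s, a, hs, hsa⟩ := exists_mul_of_mem_loc r.2
  let S := loc K y
  have hsa' : algebraMap A₂ S s * r = algebraMap A₂ S a := Subtype.ext hsa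
  obtain ⟨si, hsi⟩ := (IsLocalization.map_units S (⟨s, hs⟩ : y.primeCompl)).exists_left_inv
  have hr : r = si * algebraMap A₂ S a := by rw [← hsa', ← mul_assoc, hsi, one_mul]
  have hm' : maximalIdeal S = Ideal.span {algebraMap A₂ S a, algebraMap A₂ S (T.g (h.α u))} := by
    rw [hm]
    apply le_antisymm <;> rw [Ideal.span_le, Set.insert_subset_iff, Set.singleton_subset_iff] <;>
      refine ⟨?_, Ideal.subset_span (Or.inr rfl)⟩
    · rw [hr]; exact Ideal.mul_mem_left _ _ (Ideal.subset_span (by simp))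
    · rw [← hsa']; exact Ideal.mul_mem_left _ _ (Ideal.subset_span (by simp))
  have hrel : s * (T.f (h.α u) - T.g (h.α u)) = T.g (h.α u) * a := by
    apply IsFractionRing.injective A₂ K
    have := congrArg (fun w : S => algebraMap A₂ K s * (w : K)) hδ
    simp only [MulMemClass.coe_mul] at this
    rw [map_mul, map_mul]
    refine (this :).trans ?_
    rw [mul_left_comm, hsa]
    rfl
  have ha : a ∈ RingHom.ker (c.π 1) := by
    have := congrArg (c.π 1) hrel
    rw [map_mul, map_mul, c.δ_mem_ker, mul_zero, c.g1, h.piInf_α, eq_comm] at this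
    exact (mul_eq_zero.1 this).resolve_left hu.ne_zero
  obtain ⟨e, he⟩ := assoc_pow_of_unique hm' (c.ker_lt_pt 1 Q) ha (T.q_ne_zero) (c.q_mem 1)
    fun p hp hlt hqp => c.prime_lt_pt hc hqp hlt
  -- compare with an ordinary point
  obtain ⟨Q₀, hQ₀, hc₀, hnc₀⟩ := h.exists_noncrossing
  have := hQ₀
  obtain ⟨u₀, hu₀⟩ := h.exists_lift_unif (Q := Q₀)
  obtain ⟨hm₀, hq₀, -⟩ := T.regular_C11 K hc₀ hnc₀ (c.pf1 Q₀) (c.pg1 Q₀) hu₀
  rw [← map_natCast (algebraMap A₂ (loc K (Q₀.comap (c.π 1))))] at hq₀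
  have hk0 : RingHom.ker (c.π 1) ≠ ⊥ := T.ne_bot_of_q_mem (c.q_mem 1)
  obtain rfl : e = q - 1 :=
    exponent_eq (K := K) (P := RingHom.ker (c.π 1)) (c.ker_le_pt 1 Q) (c.ker_le_pt 1 Q₀) hk0
      (map_loc_eq_span hm' (c.ker_lt_pt 1 Q) hk0 (Ideal.mem_map_of_mem _ ha))
      (map_loc_eq_span hm₀ (c.ker_lt_pt 1 Q₀) hk0 (Ideal.mem_map_of_mem _ (c.δ_mem_ker _))) he hq₀
  refine ⟨a, T.g (h.α u), ha, generatesAt_point K hm',
    generatesAt_ker K hm' (c.ker_lt_pt 1 Q) (c.q_mem 1) ha T, associatedAt_of_loc (K := K) ?_⟩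
  rwa [map_pow]

theorem pt_eq_of_crossing {Q : Ideal C} [Q.IsMaximal] (hc : h.Crossing Q) (i : Fin 3) :
    (Q.comap (c.π i)).comap T.f = h.xI Q ∧ (Q.comap (c.π i)).comap T.g = h.xI Q := by
  have e := (h.crossing_iff.1 hc).2
  fin_cases i
  · exact ⟨c.pf0 Q, (c.pg0 Q).trans e⟩
  · exact ⟨c.pf1 Q, c.pg1 Q⟩
  · exact ⟨(c.pf2 Q).trans e, c.pg2 Q⟩

include K in
theorem crossing_point {Q : Ideal C} [Q.IsMaximal] (hc : h.Crossing Q) :
    (∀ i j, Q.comap (c.π i) = Q.comap (c.π j)) ∧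
      ∃ g : Fin 3 → A₂, (∀ i, c.π i (g i) = 0) ∧
        (∀ i j, i ≠ j → GeneratesAt (Q.comap (c.π 0)) {g i, g j} (Q.comap (c.π 0))) ∧
        (∀ i, GeneratesAt (RingHom.ker (c.π i)) {g i} (Q.comap (c.π 0))) ∧
        AssociatedAt (q : A₂) (g 0 * g 1 ^ (q - 1) * g 2) (Q.comap (c.π 0)) := by
  have := T.isNoetherian
  obtain ⟨u, hu⟩ := h.exists_lift_unif (Q := Q)
  obtain ⟨v, hv⟩ := h.exists_partner u
  obtain ⟨b, hb⟩ := h.exists_pow_eq_φ (h.red u)
  obtain ⟨a₀, rfl⟩ := h.red_surjective b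
  obtain ⟨-, hzero, -, -, ha₀x, -⟩ := h.crossing_data hc hu hv hb
  obtain ⟨hf, hg⟩ := c.pt_eq_of_crossing hc 0
  obtain ⟨hm, hq, -, huniq⟩ := T.regular_crossing K hc hf hg hu hv hb
  have hall : ∀ i, Q.comap (c.π i) = Q.comap (c.π 0) := fun i =>
    huniq _ inferInstance (c.pt_eq_of_crossing hc i).1 (c.pt_eq_of_crossing hc i).2
  refine ⟨fun i j => (hall i).trans (hall j).symm, ?_⟩
  set y := Q.comap (c.π 0)
  set S := loc K y
  set u' := h.α u - h.β a₀ ^ q
  have : IsNoetherianRing S := IsLocalization.isNoetherianRing y.primeCompl _ inferInstance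
  have hmem : ∀ a : A₂, a ∈ y → algebraMap A₂ S a ∈ maximalIdeal S := fun a ha =>
    (IsLocalization.AtPrime.to_map_mem_maximal_iff S y a).2 ha
  let g : Fin 3 → A₂ := ![T.g u', T.f (h.α u) - T.g (h.α u), T.f u']
  have hg0 : ∀ i, c.π i (g i) = 0 := by
    intro i
    fin_cases i
    · change c.π 0 (T.g u') = 0; rw [c.g0, hzero, map_zero]
    · exact c.δ_mem_ker _
    · change c.π 2 (T.f u') = 0; rw [c.f2, hzero, map_zero]
  have hgy : ∀ i, algebraMap A₂ S (g i) ∈ maximalIdeal S := fun i => hmem _ (by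
    have : g i ∈ Q.comap (c.π i) := by rw [Ideal.mem_comap, hg0]; exact zero_mem _
    rwa [hall] at this)
  set B := algebraMap A₂ S (T.f (h.β a₀)) ^ q
  have hB : B ∈ maximalIdeal S ^ 2 := by
    refine Ideal.pow_le_pow_right h.prime.two_le (Ideal.pow_mem_pow (hmem _ ?_) q)
    exact (hf.ge ha₀x : h.β a₀ ∈ y.comap T.f)
  have hF : algebraMap A₂ S (T.f (h.α u)) = algebraMap A₂ S (g 2) + B := by
    simp [g, u', B]
  have hG : algebraMap A₂ S (T.g (h.α u)) = algebraMap A₂ S (g 0) + B := by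
    simp [g, u', B, T.compat]
  have hD : algebraMap A₂ S (g 1) = algebraMap A₂ S (T.f (h.α u)) - algebraMap A₂ S (T.g (h.α u)) := by
    simp [g]
  have hpairs : ∀ i j, i ≠ j →
      maximalIdeal S = Ideal.span {algebraMap A₂ S (g i), algebraMap A₂ S (g j)} := by
    intro i j hij
    refine span_pair_congr hm (hgy i) (hgy j) ?_ ?_
    all_goals
      set J := Ideal.span {algebraMap A₂ S (g i), algebraMap A₂ S (g j)} ⊔ maximalIdeal S ^ 2
      have hi : algebraMap A₂ S (g i) ∈ J := Submodule.mem_sup_left (Ideal.subset_span (by simp))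
      have hj : algebraMap A₂ S (g j) ∈ J := Submodule.mem_sup_left (Ideal.subset_span (by simp))
      have hb' : B ∈ J := Submodule.mem_sup_right hB
      fin_cases i <;> fin_cases j <;> simp only [Fin.zero_eta, Fin.mk_one, Fin.reduceFinMk] at hi hj hij
      all_goals first
        | exact absurd rfl hij
        | (rw [hF]; exact add_mem hi hb')
        | (rw [hF]; exact add_mem hj hb')
        | (rw [hG]; exact add_mem hi hb')
        | (rw [hG]; exact add_mem hj hb')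
        | (rw [show algebraMap A₂ S (T.f (h.α u)) = algebraMap A₂ S (g 1) + algebraMap A₂ S (g 0) + B by
              rw [hD, hG]; ring]; exact add_mem (add_mem hi hj) hb')
        | (rw [show algebraMap A₂ S (T.f (h.α u)) = algebraMap A₂ S (g 0) + algebraMap A₂ S (g 1) + B by
              rw [hD, hG]; ring]; exact add_mem (add_mem hi hj) hb')
        | (rw [show algebraMap A₂ S (T.g (h.α u)) = algebraMap A₂ S (g 2) - algebraMap A₂ S (g 1) + B by
              rw [hD, hF]; ring]; exact add_mem (sub_mem hi hj) hb')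
        | (rw [show algebraMap A₂ S (T.g (h.α u)) = algebraMap A₂ S (g 2) - algebraMap A₂ S (g 1) + B by
              rw [hD, hF]; ring]; exact add_mem (sub_mem hj hi) hb')
  refine ⟨g, hg0, fun i j hij => generatesAt_point K (hpairs i j hij), fun i => ?_,
    associatedAt_of_loc (K := K) ?_⟩
  · obtain ⟨j, hij⟩ : ∃ j, i ≠ j := exists_ne i |>.imp fun _ => Ne.symm
    refine generatesAt_ker K (hpairs i j hij) ?_ (c.q_mem i) (hg0 i) T
    exact (c.ker_lt_pt i Q).trans_eq (hall i)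
  · rw [map_natCast]
    simpa [g] using hq

end Comps

end Twin

end FLTAgent.BadQ.Two
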