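import Fermat.Agent.BadQ.TwoExponent

/-!
# The three components of level `q²M`

Each non-maximal prime over `q` is the kernel of a restriction map to the coordinate ring `C` of
the special fibre of level `M` (`exists_comp_of_prime`, `nonempty_comps`, `eq_ker`): the images of
the two embeddings of level `qM` generate birationally near such a prime (`birational_prime`).
-/

set_option autoImplicit false

namespace FLTAgent.BadQ.Two

open Ideal IsLocalRing

variable {q : ℕ} {W A₀ A₁ A₂ C F₁ : Type*} [CommRing W] [CommRing A₀] [CommRing A₁] [CommRing A₂]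
  [CommRing C] [Field F₁] [Algebra W A₀] [Algebra W A₁] [Algebra W A₂] [Algebra W C]
  [Algebra W F₁] [Algebra A₁ F₁] [IsScalarTower W A₁ F₁] [IsDedekindDomain C]
  [IsNoetherianRing W] [IsDomain A₀] [IsDomain A₁] [IsDomain A₂]
  [IsNoetherianRing A₀] [IsNoetherianRing A₁]
  [Algebra.FiniteType W A₀] [Algebra.FiniteType W A₁]
  [IsIntegrallyClosed A₁] [IsIntegrallyClosed A₂] [IsFractionRing A₁ F₁]

namespace Twin

variable {h : StepData q W A₀ A₁ C F₁} (T : Twin h A₂)

/-- Existence of a component of type `(∞, ∞)`. -/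
theorem exists_prime_one (hns : ¬ Function.Surjective T.f) :
    ∃ P : Ideal A₂, P.IsPrime ∧ P.comap T.f = h.kI ∧ P.comap T.g = h.kI := by
  by_contra hno
  refine hns ?_
  have := T.isNoetherian
  obtain ⟨Q, hQ, hc, -⟩ := h.exists_noncrossing
  have := hQ
  obtain ⟨u, hu⟩ := h.exists_lift_unif (Q := Q)
  -- all points over `xI Q` are of type `(∞, 0)`
  have htype : ∀ y : Ideal A₂, y.IsMaximal → y.comap T.f = h.xI Q →
      y.comap T.g = h.xZ (h.fr Q) := by
    intro y hy hyf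
    have := hy
    have hqy : (q : A₂) ∈ y := T.q_mem_of_comap hyf (h.q_mem_xI Q)
    rcases T.classify hqy with ⟨Q', hQ', ef, eg⟩ | ⟨Q', hQ', -, ef, eg⟩ | ⟨Q', hQ', hc', ef, -⟩ <;>
      have := hQ'
    · rw [hyf] at ef
      obtain rfl := h.xI_injective ef
      obtain ⟨P, hP, hlt, hPk⟩ := T.exists_prime_lt (y := y) (k := h.kI) (hyf ▸ h.kI_lt_xI (Q := Q))
      have := hP
      rcases T.prime_cases (T.q_mem_of_comap hPk h.q_mem_kI)
        (T.not_maximal_of_comap (P := P) (hPk ▸ h.kI_not_maximal)) with ⟨-, hgk⟩ | hone | ⟨hfk, -⟩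
      · exact (hc (h.crossing_of_kZ_le (eg ▸ hgk ▸ Ideal.comap_mono hlt.le))).elim
      · exact (hno ⟨P, hP, hone⟩).elim
      · exact (h.kI_ne_kZ (hPk ▸ hfk)).elim
    · rw [hyf] at ef
      obtain rfl := h.xI_injective ef
      exact eg
    · rw [hyf] at ef
      exact (h.xI_ne_xZ_fr hc' ef).elim
  obtain ⟨P, hP, hlt⟩ := T.exists_prime_over (h.xI Q)
  have := hP
  have hyM : P.IsMaximal := T.maximal_of_comap_f (hlt ▸ inferInstance)
  obtain ⟨hm, H, huniq⟩ := T.regular_C20 (FractionRing A₂) hc hlt (htype P hyM hlt) hu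
  have F : T.Frame P (h.xI Q) (h.xZ (h.fr Q)) (∅ : Set (FractionRing A₂)) :=
    frame_empty hlt (htype P hyM hlt) h.exists_sub_mem_xI h.exists_sub_mem_xZ
  -- the ideal spanned by the point below is the whole point
  set I := (h.xI Q).map T.f with hI
  have hIP : P ≤ I := by
    intro z hz
    let S := loc (FractionRing A₂) P
    have hle : maximalIdeal S ≤ I.map (algebraMap A₂ S) := by
      rw [hm, Ideal.span_le]
      rintro _ (rfl | rfl)
      · rw [← map_natCast (algebraMap A₂ S), ← map_natCast T.f]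
        exact Ideal.mem_map_of_mem _ (Ideal.mem_map_of_mem _ (h.q_mem_xI Q))
      · exact Ideal.mem_map_of_mem _ (Ideal.mem_map_of_mem _ (h.α_mem_xI hu.1))
    obtain ⟨t, ht, htz⟩ := (IsLocalization.algebraMap_mem_map_algebraMap_iff P.primeCompl S I z).1
      (hle ((IsLocalization.AtPrime.to_map_mem_maximal_iff S P z).2 hz))
    have htop : I ⊔ Ideal.span {t} = ⊤ := by
      by_contra hne
      obtain ⟨p, hp, hle'⟩ := Ideal.exists_le_maximal _ hne
      have hpx : p.comap T.f = h.xI Q := by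
        have := hp
        exact ((inferInstance : (h.xI Q).IsMaximal).eq_of_le (T.comap_f_maximal).ne_top
          (Ideal.le_comap_map.trans (Ideal.comap_mono (le_sup_left.trans hle')))).symm
      obtain rfl := huniq p hp hpx (htype p hp hpx)
      exact ht (hle' (Submodule.mem_sup_right (mem_span_singleton_self t)))
    obtain ⟨i, hi, w, hw, e⟩ := Submodule.mem_sup.1 ((Ideal.eq_top_iff_one _).1 htop)
    obtain ⟨r, rfl⟩ := Ideal.mem_span_singleton'.1 hw
    rw [show z = i * z + r * (t * z) by rw [← mul_assoc, ← add_mul, e, one_mul]]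
    exact add_mem (Ideal.mul_mem_right _ _ hi) (Ideal.mul_mem_left _ _ htz)
  let := T.f.toRingHom.toAlgebra
  have : Module.Finite A₁ A₂ := T.f_finite
  let N : Submodule A₁ A₂ := (Algebra.linearMap A₁ A₂).range
  have hsub : (⊤ : Submodule A₁ (A₂ ⧸ N)) ≤ h.xI Q • ⊤ := by
    rintro x -
    obtain ⟨c, rfl⟩ := Submodule.mkQ_surjective N x
    obtain ⟨w, hw⟩ := F.rational H c
    have h1 : c - algebraMap W A₂ w ∈ h.xI Q • (⊤ : Submodule A₁ A₂) := by
      rw [Ideal.smul_top_eq_map]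
      exact hIP hw
    have h2 : Submodule.mkQ N c = Submodule.mkQ N (c - algebraMap W A₂ w) := by
      rw [map_sub, eq_comm, sub_eq_self, Submodule.mkQ_apply, Submodule.Quotient.mk_eq_zero]
      exact ⟨algebraMap W A₁ w, T.f.commutes w⟩
    rw [h2]
    have := Submodule.mem_map_of_mem (f := Submodule.mkQ N) h1
    rwa [Submodule.map_smul'', Submodule.map_top, Submodule.range_mkQ] at this
  obtain ⟨r, hr, hrN⟩ :=
    Submodule.exists_sub_one_mem_and_smul_eq_zero_of_fg_of_le_smul (h.xI Q) _ Module.Finite.fg_top hsub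
  refine surjective_of_birational T.f.toRingHom T.f_injective T.f_integral fun c => ?_
  have hc' : r • Submodule.mkQ N c = 0 := hrN _ Submodule.mem_top
  rw [← map_smul, Submodule.mkQ_apply, Submodule.Quotient.mk_eq_zero] at hc'
  obtain ⟨a, ha⟩ := hc'
  refine ⟨r, a, fun h0 => ?_, ?_⟩
  · refine Ideal.IsPrime.ne_top (inferInstance : (h.xI Q).IsPrime) ((Ideal.eq_top_iff_one _).2 ?_)
    have := neg_mem hr
    rwa [h0, zero_sub, neg_neg] at this
  · rw [mul_comm]
    exact ha.symm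

/-- Near every component, the two images generate birationally. -/
theorem birational_prime {P : Ideal A₂} [P.IsPrime] (hq : (q : A₂) ∈ P) (hmax : ¬ P.IsMaximal)
    (c : A₂) :
    ∃ s ∈ Algebra.adjoin W (Set.range T.f ∪ Set.range T.g),
      ∃ e ∈ Algebra.adjoin W (Set.range T.f ∪ Set.range T.g), s ∉ P ∧ s * c = e := by
  obtain ⟨Q, hQ, hc, hnc⟩ := h.exists_noncrossing
  have := hQ
  obtain ⟨u, hu⟩ := h.exists_lift_unif (Q := Q)
  rcases T.prime_cases hq hmax with ⟨hf, hg⟩ | ⟨hf, hg⟩ | ⟨hf, hg⟩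
  · obtain ⟨y, hy, hPy, hyf, hyg⟩ := T.point_zero hf hg hc
    have := hy
    obtain ⟨-, H, -⟩ := T.regular_C20 (FractionRing A₂) hc hyf hyg hu
    obtain ⟨s, hs, e, he, hsy, hse⟩ := T.birational_of_frame (FractionRing A₂)
      (frame_empty hyf hyg h.exists_sub_mem_xI h.exists_sub_mem_xZ) H c
    exact ⟨s, hs, e, he, fun hm => hsy (hPy.le hm), hse⟩
  · obtain ⟨y, hy, hPy, hyf, hyg⟩ := T.point_one (Q := Q) hf hg
    have := hy
    obtain ⟨-, -, H, -⟩ := T.regular_C11 (FractionRing A₂) hc hnc hyf hyg hu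
    obtain ⟨s, hs, e, he, hsy, hse⟩ := T.birational_of_frame (FractionRing A₂)
      (frame_empty hyf hyg h.exists_sub_mem_xI h.exists_sub_mem_xI) H c
    exact ⟨s, hs, e, he, fun hm => hsy (hPy.le hm), hse⟩
  · obtain ⟨y, hy, hPy, hyf, hyg⟩ := T.swap.point_zero hg hf hc
    have := hy
    obtain ⟨-, H, -⟩ := T.swap.regular_C20 (FractionRing A₂) hc hyf hyg hu
    obtain ⟨s, hs, e, he, hsy, hse⟩ := T.swap.birational_of_frame (FractionRing A₂)
      (frame_empty hyf hyg h.exists_sub_mem_xI h.exists_sub_mem_xZ) H c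
    simp only [swap_f, swap_g, Set.union_comm (Set.range T.g)] at hs he
    exact ⟨s, hs, e, he, fun hm => hsy (hPy.le hm), hse⟩

/-- A component is isomorphic to the special fibre of level `M`. -/
theorem exists_comp_of_prime {P : Ideal A₂} [P.IsPrime] (hf : P.comap T.f = h.kI) (e : A₁ →ₐ[W] C)
    (he : ∀ a b : A₁, h.piInf b = e a → T.g a - T.f b ∈ P) :
    ∃ π : A₂ →ₐ[W] C, Function.Surjective π ∧ (∀ a, π (T.f a) = h.piInf a) ∧
      ∀ a, π (T.g a) = e a := by
  let ψ : C →ₐ[W] A₂ ⧸ P :=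
    (Ideal.quotientMapₐ P T.f (le_of_eq hf.symm)).comp
      (Ideal.quotientKerAlgEquivOfSurjective h.piInf_surjective).symm.toAlgHom
  have hψ : ∀ a, ψ (h.piInf a) = Ideal.Quotient.mk P (T.f a) := fun a => by
    have : (Ideal.quotientKerAlgEquivOfSurjective h.piInf_surjective).symm (h.piInf a) =
        Ideal.Quotient.mk _ a := by
      rw [AlgEquiv.symm_apply_eq]; rfl
    change Ideal.quotientMapₐ P T.f (le_of_eq hf.symm)
      ((Ideal.quotientKerAlgEquivOfSurjective h.piInf_surjective).symm (h.piInf a)) = _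
    rw [this]; rfl
  have hψi : Function.Injective ψ := by
    rw [injective_iff_map_eq_zero]
    intro c hc
    obtain ⟨a, rfl⟩ := h.piInf_surjective c
    rw [hψ, Ideal.Quotient.eq_zero_iff_mem] at hc
    exact hf.le hc
  have hψint : ψ.toRingHom.IsIntegral := by
    refine RingHom.IsIntegral.tower_top h.piInf.toRingHom _ ?_
    rw [show ψ.toRingHom.comp h.piInf.toRingHom = (Ideal.Quotient.mk P).comp T.f.toRingHom from
      RingHom.ext hψ]
    exact RingHom.IsIntegral.trans _ _ T.f_integral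
      (RingHom.isIntegral_of_surjective _ Ideal.Quotient.mk_surjective)
  have hle : Algebra.adjoin W (Set.range T.f ∪ Set.range T.g) ≤
      ψ.range.comap (Ideal.Quotient.mkₐ W P) := by
    refine Algebra.adjoin_le ?_
    rintro _ (⟨a, rfl⟩ | ⟨a, rfl⟩)
    · exact ⟨_, hψ a⟩
    · obtain ⟨b, hb⟩ := h.piInf_surjective (e a)
      refine ⟨_, (hψ b).trans ?_⟩
      exact (Ideal.Quotient.eq.2 (he a b hb)).symm
  have hbir := T.birational_prime (T.q_mem_of_comap hf h.q_mem_kI)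
    (T.not_maximal_of_comap (hf ▸ h.kI_not_maximal))
  have hψs : Function.Surjective ψ := by
    refine surjective_of_birational ψ.toRingHom hψi hψint fun z => ?_
    obtain ⟨c, rfl⟩ := Ideal.Quotient.mk_surjective z
    obtain ⟨s, hs, d, hd, hsP, hsd⟩ := hbir c
    obtain ⟨s', hs'⟩ := hle hs
    obtain ⟨d', hd'⟩ := hle hd
    replace hs' : ψ s' = Ideal.Quotient.mk P s := hs'
    replace hd' : ψ d' = Ideal.Quotient.mk P d := hd'
    refine ⟨s', d', fun h0 => hsP ?_, ?_⟩
    · rw [← Ideal.Quotient.eq_zero_iff_mem, ← hs', h0, map_zero]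
    · change _ * ψ s' = ψ d'
      rw [hs', hd', ← map_mul, mul_comm, hsd]
  let E := AlgEquiv.ofBijective ψ ⟨hψi, hψs⟩
  refine ⟨E.symm.toAlgHom.comp (Ideal.Quotient.mkₐ W P), E.symm.surjective.comp Ideal.Quotient.mk_surjective,
    fun a => ?_, fun a => ?_⟩
  · change E.symm (Ideal.Quotient.mk P (T.f a)) = _
    rw [AlgEquiv.symm_apply_eq]
    exact (hψ a).symm
  · obtain ⟨b, hb⟩ := h.piInf_surjective (e a)
    change E.symm (Ideal.Quotient.mk P (T.g a)) = _
    rw [AlgEquiv.symm_apply_eq, ← hb]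
    change _ = ψ _
    rw [hψ, Ideal.Quotient.eq]
    exact he a b hb

theorem exists_comp_zero :
    ∃ π : A₂ →ₐ[W] C, Function.Surjective π ∧ (∀ a, π (T.f a) = h.piInf a) ∧
      ∀ a, π (T.g a) = h.φ (h.piZero a) := by
  obtain ⟨P, hP, hf, hg⟩ := T.exists_prime_zero
  have := hP
  refine T.exists_comp_of_prime hf (h.φ.comp h.piZero) fun a b hb => ?_
  obtain ⟨a₀, ha₀⟩ := h.red_surjective (h.piZero a)
  have h1 : a - h.β a₀ ∈ h.kZ := by
    change h.piZero _ = 0
    rw [map_sub, h.piZero_β, ha₀, sub_self]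
  have h2 : h.β a₀ - b ∈ h.kI := by
    change h.piInf _ = 0
    rw [map_sub, h.piInf_β, hb, ha₀]
    exact sub_self _
  have := add_mem (s := P) (hg.ge h1 : T.g (a - h.β a₀) ∈ P) (hf.ge h2 : T.f (h.β a₀ - b) ∈ P)
  rw [map_sub, map_sub, T.compat, sub_add_sub_cancel] at this
  exact this

theorem exists_comp_one (hns : ¬ Function.Surjective T.f) :
    ∃ π : A₂ →ₐ[W] C, Function.Surjective π ∧ (∀ a, π (T.f a) = h.piInf a) ∧
      ∀ a, π (T.g a) = h.piInf a := by
  obtain ⟨P, hP, hf, hg⟩ := T.exists_prime_one hns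
  have := hP
  refine T.exists_comp_of_prime hf h.piInf fun a b hb => ?_
  have : CharP (A₂ ⧸ P) q := (CharP.charP_iff_prime_eq_zero h.prime).2 (by
    rw [← map_natCast (Ideal.Quotient.mk P), Ideal.Quotient.eq_zero_iff_mem]
    exact T.q_mem_of_comap hf h.q_mem_kI)
  have := Fact.mk h.prime
  obtain ⟨c, hc⟩ := h.exists_φ_eq_pow (h.piInf a)
  obtain ⟨b₀, rfl⟩ := h.red_surjective c
  have hd := T.δ_mem hf hg (a ^ q) (b := b₀) (by rw [map_pow, hc])
  have heq : Ideal.Quotient.mk P (T.g a) = Ideal.Quotient.mk P (T.f a) := by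
    refine frobenius_inj (A₂ ⧸ P) q ?_
    rw [frobenius_def, frobenius_def, ← map_pow, ← map_pow, ← map_pow, ← map_pow, eq_comm,
      Ideal.Quotient.eq]
    exact hd
  have h1 : a - b ∈ h.kI := by
    change h.piInf _ = 0
    rw [map_sub, hb, sub_self]
  rw [← Ideal.Quotient.eq, heq, Ideal.Quotient.eq, ← map_sub]
  exact hf.ge h1

/-- The three restriction maps. -/
structure Comps where
  /-- restriction to the component -/
  π : Fin 3 → A₂ →ₐ[W] C
  surj : ∀ i, Function.Surjective (π i)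
  f0 : ∀ a, π 0 (T.f a) = h.piInf a
  g0 : ∀ a, π 0 (T.g a) = h.φ (h.piZero a)
  f1 : ∀ a, π 1 (T.f a) = h.piInf a
  g1 : ∀ a, π 1 (T.g a) = h.piInf a
  f2 : ∀ a, π 2 (T.f a) = h.φ (h.piZero a)
  g2 : ∀ a, π 2 (T.g a) = h.piInf a

theorem nonempty_comps (hns : ¬ Function.Surjective T.f) : Nonempty T.Comps := by
  obtain ⟨π₀, s₀, f₀, g₀⟩ := T.exists_comp_zero
  obtain ⟨π₁, s₁, f₁, g₁⟩ := T.exists_comp_one hns
  obtain ⟨π₂, s₂, g₂, f₂⟩ := T.swap.exists_comp_zero
  exact ⟨⟨![π₀, π₁, π₂], fun i => by fin_cases i <;> assumption, f₀, g₀, f₁, g₁, f₂, g₂⟩⟩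

namespace Comps

variable {T} (c : T.Comps)

theorem kf0 : (RingHom.ker (c.π 0)).comap T.f = h.kI := by
  ext a; change c.π 0 (T.f a) = 0 ↔ _; rw [c.f0]; rfl

theorem kg0 : (RingHom.ker (c.π 0)).comap T.g = h.kZ := by
  ext a; change c.π 0 (T.g a) = 0 ↔ _
  rw [c.g0, map_eq_zero_iff _ h.φ_injective]; rfl

theorem kf1 : (RingHom.ker (c.π 1)).comap T.f = h.kI := by
  ext a; change c.π 1 (T.f a) = 0 ↔ _; rw [c.f1]; rfl

theorem kg1 : (RingHom.ker (c.π 1)).comap T.g = h.kI := by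
  ext a; change c.π 1 (T.g a) = 0 ↔ _; rw [c.g1]; rfl

theorem kf2 : (RingHom.ker (c.π 2)).comap T.f = h.kZ := by
  ext a; change c.π 2 (T.f a) = 0 ↔ _
  rw [c.f2, map_eq_zero_iff _ h.φ_injective]; rfl

theorem kg2 : (RingHom.ker (c.π 2)).comap T.g = h.kI := by
  ext a; change c.π 2 (T.g a) = 0 ↔ _; rw [c.g2]; rfl

theorem q_mem (i : Fin 3) : c.π i (q : A₂) = 0 := by rw [map_natCast, h.q_eq_zero]

instance ker_prime (i : Fin 3) : (RingHom.ker (c.π i)).IsPrime := RingHom.ker_isPrime _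

theorem ker_not_maximal (i : Fin 3) : ¬ (RingHom.ker (c.π i)).IsMaximal := by
  fin_cases i
  exacts [T.not_maximal_of_comap (c.kf0 ▸ h.kI_not_maximal),
    T.not_maximal_of_comap (c.kf1 ▸ h.kI_not_maximal),
    T.not_maximal_of_comap (c.kf2 ▸ h.kZ_not_maximal)]

theorem ker_injective {i j : Fin 3} (hle : RingHom.ker (c.π i) ≤ RingHom.ker (c.π j)) : i = j := by
  have hf := Ideal.comap_mono (f := T.f) hle
  have hg := Ideal.comap_mono (f := T.g) hle
  fin_cases i <;> fin_cases j <;> simp only [Fin.zero_eta, Fin.mk_one, Fin.reduceFinMk] at hf hg ⊢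
  all_goals first
    | exact rfl
    | exact absurd (c.kg0.ge.trans (hg.trans c.kg1.le)) h.not_kZ_le_kI
    | exact absurd (c.kf0.ge.trans (hf.trans c.kf2.le)) h.not_kI_le_kZ
    | exact absurd (c.kg1.ge.trans (hg.trans c.kg0.le)) h.not_kI_le_kZ
    | exact absurd (c.kf1.ge.trans (hf.trans c.kf2.le)) h.not_kI_le_kZ
    | exact absurd (c.kf2.ge.trans (hf.trans c.kf0.le)) h.not_kZ_le_kI
    | exact absurd (c.kf2.ge.trans (hf.trans c.kf1.le)) h.not_kZ_le_kI

theorem eq_ker {P : Ideal A₂} [P.IsPrime] (hq : (q : A₂) ∈ P) (hmax : ¬ P.IsMaximal) :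
    ∃ i, P = RingHom.ker (c.π i) := by
  rcases T.prime_cases hq hmax with ⟨hf, hg⟩ | ⟨hf, hg⟩ | ⟨hf, hg⟩
  · exact ⟨0, T.prime_zero_unique hf hg c.kf0 c.kg0⟩
  · exact ⟨1, T.prime_one_unique hf hg c.kf1 c.kg1⟩
  · exact ⟨2, T.swap.prime_zero_unique hg hf c.kg2 c.kf2⟩

theorem exists_ker_le {P : Ideal A₂} [P.IsPrime] (hq : (q : A₂) ∈ P) :
    ∃ i, RingHom.ker (c.π i) ≤ P := by
  by_cases hmax : P.IsMaximal
  · have := hmax
    obtain ⟨P', hP', hq', hlt⟩ := T.exists_prime_lt_of_q_mem hq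
    have := hP'
    obtain ⟨i, hi⟩ := c.eq_ker hq' fun hm => hlt.ne (hm.eq_of_le hmax.ne_top hlt.le)
    exact ⟨i, hi ▸ hlt.le⟩
  · obtain ⟨i, hi⟩ := c.eq_ker hq hmax
    exact ⟨i, hi.ge⟩

theorem hom_ext (i : Fin 3) (f : A₂ →+* C) (hf : ∀ a, f (T.f a) = c.π i (T.f a))
    (hg : ∀ a, f (T.g a) = c.π i (T.g a)) : f = (c.π i).toRingHom := by
  have hW : ∀ w, f (algebraMap W A₂ w) = algebraMap W C w := fun w => by
    rw [← AlgHom.commutes T.f w, hf, AlgHom.commutes, AlgHom.commutes]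
  let fA : A₂ →ₐ[W] C := { f with commutes' := hW }
  have hle : Algebra.adjoin W (Set.range T.f ∪ Set.range T.g) ≤ AlgHom.equalizer fA (c.π i) :=
    Algebra.adjoin_le (by
      rintro _ (⟨a, rfl⟩ | ⟨a, rfl⟩)
      exacts [hf a, hg a])
  refine RingHom.ext fun z => ?_
  obtain ⟨s, hs, e, he, hsP, hse⟩ := T.birational_prime
    (P := RingHom.ker (c.π i)) (c.q_mem i) (c.ker_not_maximal i) z
  have hs' : f s = c.π i s := hle hs
  have he' : f e = c.π i e := hle he
  rw [← hse, map_mul, map_mul, hs'] at he'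
  exact mul_left_cancel₀ hsP he'

end Comps

end Twin

end FLTAgent.BadQ.Two
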