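import Fermat.Agent.BadQ.TwoUnit

/-!
# The relation at crossings, and first order data at smooth points

At a crossing the product of the two parameters is `q` times a unit (`crossing_c`), proved by
differentiating along the derivation and its transpose. `smooth_data` gives the first order data
at a point of the component of `∞` away from crossings and cusps.
-/

set_option autoImplicit false

namespace FLTAgent.BadQ.Two

open Ideal IsLocalRing

variable {q : ℕ} {W A₀ A₁ C F₁ : Type*} [CommRing W] [CommRing A₀] [CommRing A₁]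
  [CommRing C] [Field F₁] [Algebra W A₀] [Algebra W A₁] [Algebra W C]
  [Algebra W F₁] [Algebra A₁ F₁] [IsScalarTower W A₁ F₁] [IsDedekindDomain C]
  [IsDomain A₀] [IsDomain A₁] [IsNoetherianRing A₀] [IsNoetherianRing A₁]
  [Algebra.FiniteType W A₀] [Algebra.FiniteType W A₁]
  [IsIntegrallyClosed A₁] [IsFractionRing A₁ F₁]

namespace StepData

variable (h : StepData q W A₀ A₁ C F₁) {Q : Ideal C} [hQ : Q.IsMaximal]
include h

local notation "φF" => algebraMap A₁ F₁

theorem der_kI {u : A₀} (hu : IsUnif Q (h.red u)) (a : A₁) :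
    ∃ z ∈ loc F₁ h.kI, h.der a = z * h.der (h.α u) := by
  obtain ⟨c, hc, R, hR, hcR⟩ := h.exists_cusp
  have := hR
  obtain ⟨u₀, -, hu₀, -⟩ := h.exists_cusp_gen (Q := R) hc hcR
  obtain ⟨z, hz, ez⟩ := (h.der_smooth h.der (h.not_crossing_of_cusp hc hcR) hu₀).1 a
  obtain ⟨w, hw, ew⟩ := h.der_pullback h.α h.der h.comap_α_xI hu u₀
  exact ⟨z * w, mul_mem (h.kI_loc hz) (h.kI_loc hw), by rw [ez, ew]; ring⟩

/-- At a crossing `u' v' = q c` with `c` a unit. -/
theorem crossing_c (hc : h.Crossing Q) {u v a₀ : A₀} (hu : IsUnif Q (h.red u))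
    (hv : h.φ (h.red v) = h.red u ^ q) (ha₀ : h.φ (h.red u) = h.red a₀ ^ q) :
    ∃ c, c ∉ h.xI Q ∧ (h.α u - h.β a₀ ^ q) * (h.β v - h.α u ^ q) = (q : A₁) * c := by
  obtain ⟨hfr, hxz⟩ := h.crossing_iff.1 hc
  obtain ⟨h1, h2, h3, h4, -, -⟩ := h.crossing_data hc hu hv ha₀
  obtain ⟨c, ec⟩ : (q : A₁) ∣ (h.α u - h.β a₀ ^ q) * (h.β v - h.α u ^ q) :=
    h.reduced _ (by rw [map_mul, h1, mul_zero]) (by
      rw [map_mul, map_mul, ← h.piZero_apply, h2, zero_mul])
  refine ⟨c, fun hcx => ?_, ec⟩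
  have huv := h.isUnif_of_φ_eq hu hv
  have hDu := h.α_der_ne_zero hu
  obtain ⟨z₀, hz₀, hz₀m, hz₀i, ez₀⟩ := h.der_unit hu huv
  -- the transpose
  obtain ⟨z₁, -, hz₁m, -, ez₁⟩ := h.der_unit (Q := h.fr Q) huv (v := u) (by rw [hfr]; exact hu)
  have hT1 : h.derT (h.α u) = (q : F₁) * h.ιF z₁ * h.derT (h.β v) := by
    rw [h.derT_apply, h.derT_apply, h.ι.symm_apply_eq.2 (h.ι_β u).symm,
      h.ι.symm_apply_eq.2 (h.ι_α v).symm, ez₁, map_mul, map_mul, map_natCast]
  have hTv : h.derT (h.β v) ≠ 0 := by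
    rw [h.derT_apply, h.ι.symm_apply_eq.2 (h.ι_α v).symm, map_ne_zero]
    exact h.α_der_ne_zero huv
  obtain ⟨cc, hcc, R, hR, hcR⟩ := h.exists_cusp
  have := hR
  obtain ⟨u₀, hu₀c, hu₀, -⟩ := h.exists_cusp_gen (Q := R) hcc hcR
  have hprop := h.der_proportional h.der h.derT (h.not_crossing_of_cusp hcc hcR) hu₀
    (h.α_der_ne_zero hu₀) (h.α u) (h.β v)
  have hP : h.der (h.α u) = (q : F₁) * h.ιF z₁ * h.der (h.β v) := by
    apply mul_right_cancel₀ hTv
    rw [hprop, hT1]; ring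
  have hnc : ∀ c ∈ h.cusp, ¬ c ≤ h.mA Q := fun c hcm hle => h.not_crossing_of_cusp hcm hle hc
  have hDv := h.β_der_ne_zero hu huv
  have hloc : ∀ p : Ideal A₁, p.IsPrime → p ≤ h.xI Q → p ≠ ⊥ →
      (∃ π ∈ p, ∀ a ∈ p, ∃ s ∉ p, s * a ∈ Ideal.span {π}) →
      ∃ s ∉ p, s • z₀⁻¹ ∈ (algebraMap A₁ F₁).range := by
    intro p hp hpx _ ⟨π, hπ, hgen⟩
    have := hp
    refine mem_loc_iff.1 ?_
    by_cases hqp : (q : A₁) ∈ p
    · rcases h.mem_or_mem_of_q_mem hqp with hk | hk
      · have := eq_of_le_of_principal (fun e => h.q_ne_zero (Ideal.mem_bot.1 (e ▸ h.q_mem_kI))) hk hπ hgen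
        subst this
        exact hz₀i
      · have := eq_of_le_of_principal (fun e => h.q_ne_zero (Ideal.mem_bot.1 (e ▸ h.q_mem_kZ))) hk hπ hgen
        subst this
        have e : z₀⁻¹ = (q : F₁) * ((q : F₁) * h.ιF z₁) := by
          refine inv_eq_of_mul_eq_one_right ?_
          apply mul_right_cancel₀ hDu
          linear_combination -hP - ((q : F₁) * h.ιF z₁) * ez₀
        rw [e, ← map_natCast φF]
        exact mul_mem (algebraMap_mem_loc _) (mul_mem (algebraMap_mem_loc _) (h.ιF_mem_loc hz₁m))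
    · obtain ⟨zp, hzp, ezp⟩ := h.der_generic (u := u) hnc huv hpx hqp
      have e : z₀⁻¹ = (q : F₁) * zp := by
        refine inv_eq_of_mul_eq_one_right ?_
        apply mul_right_cancel₀ hDu
        linear_combination -ezp - zp * ez₀
      rw [e, ← map_natCast φF]
      exact mul_mem (algebraMap_mem_loc _) hzp
  obtain ⟨d, hd, n, hn⟩ := exists_smul_mem_range (h.xI Q) z₀⁻¹ hloc
  rw [Algebra.smul_def] at hn
  have hnx : n ∈ h.xI Q := by
    have hkZ : h.kZ ≤ h.xI Q := hxz ▸ h.kZ_le_xZ (h.fr Q)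
    refine hkZ ?_
    obtain ⟨t, r, ht, er⟩ := exists_mul_of_mem_loc (h.ιF_mem_loc hz₁m)
    refine (Ideal.IsPrime.mem_or_mem inferInstance (show t * n ∈ h.kZ from ?_)).resolve_left ht
    have : t * n = (q : A₁) * ((q : A₁) * r * d) := by
      apply IsFractionRing.injective A₁ F₁
      rw [map_mul, map_mul, map_mul, map_mul, map_natCast, hn, ← er]
      have e : z₀⁻¹ = (q : F₁) * ((q : F₁) * h.ιF z₁) := by
        refine inv_eq_of_mul_eq_one_right ?_
        apply mul_right_cancel₀ hDu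
        linear_combination -hP - ((q : F₁) * h.ιF z₁) * ez₀
      rw [e]; ring
    rw [this]
    exact Ideal.mul_mem_right _ _ h.q_mem_kZ
  -- `h = v'/q` is regular at `Q` on the component of `∞`
  obtain ⟨e, he, her⟩ := h3.loc (show h.piInf c ∈ Q from hcx)
  obtain ⟨r, hr⟩ := Ideal.mem_span_singleton'.1 her
  obtain ⟨s, rfl⟩ := h.red_surjective e
  obtain ⟨r, rfl⟩ := h.red_surjective r
  set u' := h.α u - h.β a₀ ^ q with hu'
  set v' := h.β v - h.α u ^ q with hv'
  have hk : h.α s * c - u' * h.α r ∈ h.kI := by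
    change h.piInf _ = 0
    rw [map_sub, map_mul, map_mul, h.piInf_α, h.piInf_α]
    linear_combination -hr
  obtain ⟨σ, hσZ, hσI⟩ := SetLike.not_le_iff_exists.1 (show ¬ h.kZ ≤ h.kI from fun hle => by
    refine h.kI_ne_kZ (le_antisymm ?_ hle)
    have := Ideal.comap_mono (f := h.ι.toAlgHom) hle
    rwa [h.comap_ι_kZ, h.comap_ι_kI] at this)
  obtain ⟨g, hg⟩ := Ideal.mem_span_singleton'.1 (h.mul_mem_q hk hσZ)
  have hsx : h.α s ∉ h.xI Q := fun hm => he (h.comap_α_xI.le hm)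
  have key : σ * u' * (h.α s * v' - (q : A₁) * h.α r) = (q : A₁) * (q : A₁) * g := by
    linear_combination σ * h.α s * ec - (q : A₁) * hg
  have hMI : σ * u' ∉ h.kI := fun hm =>
    (Ideal.IsPrime.mem_or_mem inferInstance hm).elim hσI fun hm => h3.ne_zero hm
  obtain ⟨za, hza, eza⟩ := h.der_pullback h.α h.der h.comap_α_xI hu s
  obtain ⟨zb, hzb, ezb⟩ := h.der_pullback h.α h.der h.comap_α_xI hu r
  obtain ⟨zm, hzm, ezm⟩ := h.der_kI hu (σ * u')
  obtain ⟨zg, hzg, ezg⟩ := h.der_kI hu g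
  have hs0 : φF (h.α s) ≠ 0 := fun e0 => hsx (by
    rw [(map_eq_zero_iff _ (IsFractionRing.injective A₁ F₁)).1 e0]; exact zero_mem _)
  have dk := congrArg h.der key
  rw [Derivation.leibniz, ezm] at dk
  simp only [hv', Derivation.leibniz, Derivation.leibniz_pow, map_sub, Derivation.map_natCast,
    eza, ezb, ezg, ez₀, Algebra.smul_def, map_mul, map_pow,
    map_natCast] at dk
  have key' := congrArg φF key
  simp only [hv', map_mul, map_sub, map_pow, map_natCast] at key'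
  obtain ⟨p, hp⟩ := Nat.exists_eq_add_one_of_ne_zero h.prime.ne_zero
  rw [show q - 1 = p by omega] at dk
  set U := φF (h.α u); set S := φF (h.α s); set R := φF (h.α r)
  set M := φF σ * φF u' with hM
  set G := φF g
  have hUq : U ^ q = U * U ^ p := by rw [hp, pow_succ']
  rw [hUq] at dk key'
  obtain ⟨ta, a₁, hta, ea⟩ := exists_mul_of_mem_loc hza
  obtain ⟨tb, b₁, htb, eb⟩ := exists_mul_of_mem_loc hzb
  let E := h.α s ^ 2 * (σ * u') ^ 2 * d * ta * tb -
    n * (σ * u') ^ 2 * (h.α s ^ 2 * h.α u ^ p * ta * tb + b₁ * h.α s * ta - a₁ * h.α r * tb)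
  let Y := φF n * φF ta * φF tb * (zg * M * S - zm * S * G - M * za * G)
  have hE : φF E = (q : F₁) * Y := by
    have h5 : S ^ 2 * M ^ 2 * (z₀ - U ^ p) + M ^ 2 * R * za - zb * M ^ 2 * S =
        (q : F₁) * (zg * M * S - zm * S * G - M * za * G) := by
      apply mul_right_cancel₀ (mul_ne_zero h.q_ne_zero_F hDu)
      linear_combination (M * S) * dk - (zm * S * h.der (h.α u) + M * za * h.der (h.α u)) * key'
    have hz : φF n * z₀ = φF d := by rw [hn, mul_assoc, inv_mul_cancel₀ hz₀, mul_one]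
    simp only [E, Y, map_sub, map_add, map_mul, map_pow]
    linear_combination (φF n * φF ta * φF tb) * h5 - (S ^ 2 * M ^ 2 * φF ta * φF tb) * hz +
      (φF n * M ^ 2 * S * φF ta) * eb - (φF n * M ^ 2 * R * φF tb) * ea
  have hY : Y ∈ loc F₁ h.kI := by
    refine mul_mem (mul_mem (mul_mem (algebraMap_mem_loc _) (algebraMap_mem_loc _)) (algebraMap_mem_loc _)) ?_
    have hMm : M ∈ loc F₁ h.kI := mul_mem (algebraMap_mem_loc _) (algebraMap_mem_loc _)
    exact sub_mem (sub_mem (mul_mem (mul_mem hzg hMm) (algebraMap_mem_loc _))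
      (mul_mem (mul_mem hzm (algebraMap_mem_loc _)) (algebraMap_mem_loc _)))
      (mul_mem (mul_mem hMm (h.kI_loc hza)) (algebraMap_mem_loc _))
  obtain ⟨τ, y, hτ, ey⟩ := exists_mul_of_mem_loc hY
  have hEI : E ∈ h.kI := by
    refine (Ideal.IsPrime.mem_or_mem inferInstance (show τ * E ∈ h.kI from ?_)).resolve_left hτ
    have : τ * E = (q : A₁) * y := by
      apply IsFractionRing.injective A₁ F₁
      rw [map_mul, map_mul, map_natCast, hE, ← ey]; ring
    rw [this]; exact Ideal.mul_mem_right _ _ h.q_mem_kI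
  -- reduce on the component of `∞`
  have e0 : h.piInf E = 0 := hEI
  have hM0 : h.piInf (σ * u') ≠ 0 := hMI
  simp only [E, map_sub, map_mul, map_pow, map_add] at e0
  have e1 : h.piInf (h.α s) ^ 2 * h.piInf d * h.piInf ta * h.piInf tb =
      h.piInf n * (h.piInf (h.α s) ^ 2 * h.piInf (h.α u) ^ p * h.piInf ta * h.piInf tb +
        h.piInf b₁ * h.piInf (h.α s) * h.piInf ta - h.piInf a₁ * h.piInf (h.α r) * h.piInf tb) := by
    apply mul_left_cancel₀ (pow_ne_zero 2 hM0)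
    rw [map_mul]
    linear_combination e0
  have hmem : h.piInf (h.α s ^ 2 * d * ta * tb) ∈ Q := by
    simp only [map_mul, map_pow]; rw [e1]; exact Ideal.mul_mem_right _ _ hnx
  rcases Ideal.IsPrime.mem_or_mem inferInstance (show h.α s ^ 2 * d * ta * tb ∈ h.xI Q from hmem)
    with hm | hm
  · rcases Ideal.IsPrime.mem_or_mem inferInstance hm with hm | hm
    · rcases Ideal.IsPrime.mem_or_mem inferInstance hm with hm | hm
      · exact hsx (Ideal.IsPrime.mem_of_pow_mem inferInstance 2 hm)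
      · exact hd hm
    · exact hta hm
  · exact htb hm

/-- First order data at a point on the component of `∞` only, away from cusps. -/
theorem smooth_data (hc : ¬ h.Crossing Q) (hnc : ∀ c ∈ h.cusp, ¬ c ≤ h.mA Q) {u v : A₀}
    (hu : IsUnif Q (h.red u)) (hv : h.φ (h.red v) = h.red u ^ q) :
    ∃ s k : A₁, s ∉ h.xI Q ∧ s * (h.β v - h.α u ^ q) = (q : A₁) * k ∧
      ∀ s₀ ws k₀ wk : W,
        s - algebraMap W A₁ s₀ - algebraMap W A₁ ws * h.α u ∈ Ideal.span {(q : A₁)} ⊔ h.xI Q ^ 2 →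
        k - algebraMap W A₁ k₀ - algebraMap W A₁ wk * h.α u ∈ Ideal.span {(q : A₁)} ⊔ h.xI Q ^ 2 →
        algebraMap W A₁ wk * s - algebraMap W A₁ ws * k ∉ h.xI Q := by
  have huv := h.isUnif_of_φ_eq hu hv
  have hDu := h.α_der_ne_zero hu
  obtain ⟨s, hsZ, hs⟩ := SetLike.not_le_iff_exists.1 fun hle => hc (h.crossing_of_kZ_le hle)
  have hv' : h.β v - h.α u ^ q ∈ h.kI := by
    change h.piInf _ = 0; rw [map_sub, map_pow, h.piInf_β, h.piInf_α, hv, sub_self]
  obtain ⟨k, hk⟩ := Ideal.mem_span_singleton'.1 (h.mul_mem_q hv' hsZ)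
  refine ⟨s, k, hs, by linear_combination -hk, fun s₀ ws k₀ wk hsd hkd hx => ?_⟩
  obtain ⟨z₀, hz₀, hz₀m, hz₀i, ez₀⟩ := h.der_unit hu huv
  obtain ⟨D1, D2⟩ := h.der_smooth h.der hc hu
  have hloc : ∀ {w : F₁}, (w ∈ loc F₁ h.kI) →
      (∀ p : Ideal A₁, ∀ _ : p.IsPrime, p ≤ h.xI Q → (q : A₁) ∉ p → w ∈ loc F₁ p) →
      w ∈ loc F₁ (h.xI Q) := by
    intro w hw hgen
    refine mem_loc_iff.2 (exists_smul_mem_range (h.xI Q) w fun p hp hpx _ ⟨π, hπ, hpg⟩ => ?_)
    have := hp
    refine mem_loc_iff.1 ?_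
    by_cases hqp : (q : A₁) ∈ p
    · rcases h.mem_or_mem_of_q_mem hqp with hkp | hkp
      · have := eq_of_le_of_principal (fun e => h.q_ne_zero (Ideal.mem_bot.1 (e ▸ h.q_mem_kI))) hkp hπ hpg
        subst this; exact hw
      · exact absurd (h.crossing_of_kZ_le (hkp.trans hpx)) hc
    · exact hgen p hp hpx hqp
  have hzx : z₀ ∈ loc F₁ (h.xI Q) := hloc hz₀m fun p _ hpx hqp => by
    obtain ⟨zv, hzv, ezv⟩ := D1 (h.β v)
    have e : z₀ = zv * (φF (q : A₁))⁻¹ := by
      rw [eq_mul_inv_iff_mul_eq₀ (by rw [map_natCast]; exact h.q_ne_zero_F), map_natCast]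
      apply mul_right_cancel₀ hDu
      linear_combination ezv - ez₀
    rw [e]; exact mul_mem (loc_mono hpx hzv) (inv_mem_loc hqp)
  have hzi : z₀⁻¹ ∈ loc F₁ (h.xI Q) := hloc hz₀i fun p _ hpx hqp => by
    obtain ⟨zp, hzp, ezp⟩ := h.der_generic (u := u) hnc huv hpx hqp
    have e : z₀⁻¹ = (q : F₁) * zp := by
      refine inv_eq_of_mul_eq_one_right ?_
      apply mul_right_cancel₀ hDu
      linear_combination -ezp - zp * ez₀
    rw [e, ← map_natCast φF]; exact mul_mem (algebraMap_mem_loc _) hzp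
  obtain ⟨d, n, hd, hn⟩ := exists_mul_of_mem_loc hzx
  have hnx : n ∉ h.xI Q := by
    obtain ⟨d', n', hd', hn'⟩ := exists_mul_of_mem_loc hzi
    intro hm
    refine (Ideal.IsPrime.mem_or_mem inferInstance (show d * d' ∈ h.xI Q from ?_)).elim hd hd'
    have : d * d' = n * n' := by
      apply IsFractionRing.injective A₁ F₁
      rw [map_mul, map_mul, ← hn, ← hn']; field_simp
    rw [this]; exact Ideal.mul_mem_right _ _ hm
  have hfirst : ∀ a (a₀ wa : W),
      a - algebraMap W A₁ a₀ - algebraMap W A₁ wa * h.α u ∈ Ideal.span {(q : A₁)} ⊔ h.xI Q ^ 2 →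
      ∃ m t : A₁, t ∉ h.xI Q ∧ m ∈ h.xI Q ∧
        φF t * h.der a = (φF t * φF (algebraMap W A₁ wa) + φF m) * h.der (h.α u) := by
    intro a a₀ wa hd
    obtain ⟨y, hy, z, hz, e⟩ := Submodule.mem_sup.1 hd
    obtain ⟨r, rfl⟩ := Ideal.mem_span_singleton'.1 hy
    obtain ⟨zr, hzr, ezr⟩ := D1 r
    obtain ⟨tr, nr, htr, enr⟩ := exists_mul_of_mem_loc hzr
    obtain ⟨m, t, ht, hm, em⟩ := D2 z hz
    refine ⟨(q : A₁) * nr * t + m * tr, t * tr,
      fun hh => (Ideal.IsPrime.mem_or_mem inferInstance hh).elim ht htr,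
      add_mem (Ideal.mul_mem_right _ _ (Ideal.mul_mem_right _ _ (h.q_mem_xI Q)))
        (Ideal.mul_mem_right _ _ hm), ?_⟩
    have ea : a = r * (q : A₁) + z + algebraMap W A₁ a₀ + algebraMap W A₁ wa * h.α u := by
      rw [e]; ring
    rw [ea]
    simp only [map_add, Derivation.leibniz, Derivation.map_natCast, Derivation.map_algebraMap,
      add_zero, Algebra.smul_def, map_mul, map_natCast, ezr]
    linear_combination φF tr * em + (q : F₁) * φF t * h.der (h.α u) * enr
  obtain ⟨ms, ts, hts, hms, es⟩ := hfirst s s₀ ws hsd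
  obtain ⟨mk, tk, htk, hmk, ek⟩ := hfirst k k₀ wk hkd
  have dk := congrArg h.der hk
  have hk' := congrArg φF hk
  simp only [Derivation.leibniz, Derivation.leibniz_pow, map_sub, Derivation.map_natCast,
    ez₀, Algebra.smul_def, map_mul, map_pow, map_natCast] at dk hk'
  set S := φF s; set K := φF k; set U := φF (h.α u); set Du := h.der (h.α u)
  set Ws := φF (algebraMap W A₁ ws); set Wk := φF (algebraMap W A₁ wk)
  have key : s ^ 2 * n * ts * tk - d * ts * tk * (s ^ 2 * h.α u ^ (q - 1)) -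
      d * (mk * ts * s - ms * tk * k) =
      d * ts * tk * (algebraMap W A₁ wk * s - algebraMap W A₁ ws * k) := by
    apply IsFractionRing.injective A₁ F₁
    simp only [map_sub, map_mul, map_pow]
    apply mul_right_cancel₀ (mul_ne_zero h.q_ne_zero_F hDu)
    linear_combination (-(φF d * φF ts * φF tk * S)) * dk + (φF d * φF ts * φF tk * h.der s) * hk' +
      ((q : F₁) * φF d * φF ts * S) * ek - ((q : F₁) * φF d * φF tk * K) * es -
      (S ^ 2 * φF ts * φF tk * (q : F₁) * Du) * hn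
  have hmem : s ^ 2 * n * ts * tk ∈ h.xI Q := by
    have hrhs : d * ts * tk * (algebraMap W A₁ wk * s - algebraMap W A₁ ws * k) ∈ h.xI Q :=
      Ideal.mul_mem_left _ _ hx
    rw [← key] at hrhs
    have h1 : d * ts * tk * (s ^ 2 * h.α u ^ (q - 1)) ∈ h.xI Q :=
      Ideal.mul_mem_left _ _ (Ideal.mul_mem_left _ _
        (Ideal.pow_mem_of_mem _ (h.α_mem_xI hu.1) _ (Nat.sub_pos_of_lt h.prime.one_lt)))
    have h2 : d * (mk * ts * s - ms * tk * k) ∈ h.xI Q :=
      Ideal.mul_mem_left _ _ (sub_mem (Ideal.mul_mem_right _ _ (Ideal.mul_mem_right _ _ hmk))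
        (Ideal.mul_mem_right _ _ (Ideal.mul_mem_right _ _ hms)))
    simpa using add_mem (add_mem hrhs h2) h1
  rcases Ideal.IsPrime.mem_or_mem inferInstance hmem with hm | hm
  · rcases Ideal.IsPrime.mem_or_mem inferInstance hm with hm | hm
    · rcases Ideal.IsPrime.mem_or_mem inferInstance hm with hm | hm
      · exact hs (Ideal.IsPrime.mem_of_pow_mem inferInstance 2 hm)
      · exact hnx hm
    · exact hts hm
  · exact htk hm

end StepData

end FLTAgent.BadQ.Two
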