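import Fermat.Agent.BadQ.TwoCrossNotCusp

/-!
# The derivative of `f(qz)` with respect to `f(z)` on the special fibre of level `qM`

`loc` is the local ring at a prime inside the fraction field. `der_pullback` and `der_smooth` give
derivatives near a point on the component of `∞` only, and `der_unit_cusp` shows that at a cusp on
that component `dv/du` is `q` times a unit at the Gauss point.
-/

set_option autoImplicit false

namespace FLTAgent.BadQ.Two

open Ideal IsLocalRing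

section Loc

variable {R K : Type*} [CommRing R] [IsDomain R] [Field K] [Algebra R K] [IsFractionRing R K]

/-- The local ring at `x` inside the fraction field. -/
noncomputable def loc (K : Type*) [Field K] [Algebra R K] [IsFractionRing R K] (x : Ideal R)
    [x.IsPrime] : Subalgebra R K :=
  Localization.subalgebra.ofField K x.primeCompl x.primeCompl_le_nonZeroDivisors

variable {x : Ideal R} [x.IsPrime]

instance isLocalization_loc : IsLocalization.AtPrime (loc K x) x :=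
  Localization.subalgebra.isLocalization_ofField K x.primeCompl _

instance isLocalRing_loc : IsLocalRing (loc K x) := IsLocalization.AtPrime.isLocalRing (loc K x) x

theorem mem_loc_iff {z : K} : z ∈ loc K x ↔ ∃ s ∉ x, s • z ∈ (algebraMap R K).range := by
  constructor
  · rintro ⟨a, s, hs, rfl⟩
    refine ⟨s, hs, a, ?_⟩
    have hs0 : algebraMap R K s ≠ 0 :=
      IsFractionRing.to_map_ne_zero_of_mem_nonZeroDivisors (x.primeCompl_le_nonZeroDivisors hs)
    rw [Algebra.smul_def]; field_simp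
  · rintro ⟨s, hs, a, ha⟩
    refine ⟨a, s, hs, ?_⟩
    have hs0 : algebraMap R K s ≠ 0 :=
      IsFractionRing.to_map_ne_zero_of_mem_nonZeroDivisors (x.primeCompl_le_nonZeroDivisors hs)
    rw [ha, Algebra.smul_def]; field_simp

theorem mem_loc_of_mul {z : K} {s a : R} (hs : s ∉ x)
    (e : algebraMap R K s * z = algebraMap R K a) : z ∈ loc K x :=
  mem_loc_iff.2 ⟨s, hs, a, by rw [Algebra.smul_def, e]⟩

theorem exists_mul_of_mem_loc {z : K} (hz : z ∈ loc K x) :
    ∃ s a : R, s ∉ x ∧ algebraMap R K s * z = algebraMap R K a := by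
  obtain ⟨s, hs, a, ha⟩ := mem_loc_iff.1 hz
  exact ⟨s, a, hs, by rw [ha, Algebra.smul_def]⟩

theorem loc_mono {y : Ideal R} [y.IsPrime] (hle : y ≤ x) : loc K x ≤ loc K y := by
  intro z hz
  obtain ⟨s, hs, h⟩ := mem_loc_iff.1 hz
  exact mem_loc_iff.2 ⟨s, fun hm => hs (hle hm), h⟩

theorem algebraMap_mem_loc (a : R) : algebraMap R K a ∈ loc K x := Subalgebra.algebraMap_mem _ a

theorem inv_mem_loc {a : R} (ha : a ∉ x) : (algebraMap R K a)⁻¹ ∈ loc K x := by
  refine mem_loc_of_mul ha (a := 1) ?_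
  rw [map_one, mul_inv_cancel₀]
  exact IsFractionRing.to_map_ne_zero_of_mem_nonZeroDivisors (x.primeCompl_le_nonZeroDivisors ha)

end Loc

variable {q : ℕ} {W A₀ A₁ C F₁ : Type*} [CommRing W] [CommRing A₀] [CommRing A₁]
  [CommRing C] [Field F₁] [Algebra W A₀] [Algebra W A₁] [Algebra W C]
  [Algebra W F₁] [Algebra A₁ F₁] [IsScalarTower W A₁ F₁] [IsDedekindDomain C]
  [IsDomain A₀] [IsDomain A₁] [IsNoetherianRing A₀] [IsNoetherianRing A₁]
  [Algebra.FiniteType W A₀] [Algebra.FiniteType W A₁]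
  [IsIntegrallyClosed A₁] [IsFractionRing A₁ F₁]

namespace StepData

variable (h : StepData q W A₀ A₁ C F₁) {Q : Ideal C} [hQ : Q.IsMaximal]
include h

local notation "φF" => algebraMap A₁ F₁

omit hQ in
theorem q_ne_zero_F : (q : F₁) ≠ 0 := by
  rw [← map_natCast φF]
  exact (map_ne_zero_iff _ (IsFractionRing.injective A₁ F₁)).2 h.q_ne_zero

/-- Derivatives along a map of level `M` near a point. -/
theorem der_pullback (f : A₀ →ₐ[W] A₁) (D : Derivation W A₁ F₁) {x : Ideal A₁} [x.IsPrime]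
    (hx : x.comap f = h.mA Q) {u : A₀} (hu : IsUnif Q (h.red u)) (a : A₀) :
    ∃ z ∈ loc F₁ x, D (f a) = z * D (f u) := by
  let g : A₀ →ₐ[W] loc F₁ x := (IsScalarTower.toAlgHom W A₁ (loc F₁ x)).comp f
  have hg : ∀ b ∈ h.mA Q, g b ∈ maximalIdeal (loc F₁ x) := fun b hb => by
    refine (IsLocalization.AtPrime.to_map_mem_maximal_iff (loc F₁ x) x (f b)).2 ?_
    rw [← hx] at hb; exact hb
  obtain ⟨H, -⟩ := leibniz_mem_span g g (D.toLinearMap.comp f.toLinearMap)
    (fun a b => by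
      change D (f (a * b)) = _
      rw [map_mul, D.leibniz]
      simp only [LinearMap.comp_apply, AlgHom.toLinearMap_apply, Derivation.coeFn_coe]
      rw [Subalgebra.smul_def, Subalgebra.smul_def, add_comm]
      simp only [smul_eq_mul]
      rw [Algebra.smul_def, Algebra.smul_def]
      rfl)
    (h.mA Q) hg hg (h.exists_sub_mem_mA (Q := Q)) {(q : A₀), u}
    (by
      rintro _ (rfl | rfl)
      · change h.red _ ∈ Q; rw [h.q_mem_ker_red]; exact zero_mem _
      · exact hu.1)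
    (h.mA_le hu)
  have := H a
  rw [Set.image_pair] at this
  simp only [LinearMap.comp_apply, AlgHom.toLinearMap_apply, map_natCast,
    Derivation.coeFn_coe, Derivation.map_natCast] at this
  rw [Submodule.span_insert_zero, Submodule.mem_span_singleton] at this
  obtain ⟨⟨z, hz⟩, e⟩ := this
  exact ⟨z, hz, by rw [← e]; rfl⟩

/-- Derivatives near a point lying on the component of `∞` only, with the first order term. -/
theorem der_smooth (D : Derivation W A₁ F₁) (hc : ¬ h.Crossing Q) {u : A₀}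
    (hu : IsUnif Q (h.red u)) :
    (∀ a, ∃ z ∈ loc F₁ (h.xI Q), D a = z * D (h.α u)) ∧
      ∀ a ∈ h.xI Q ^ 2, ∃ n t, t ∉ h.xI Q ∧ n ∈ h.xI Q ∧ φF t * D a = φF n * D (h.α u) := by
  let S := loc F₁ (h.xI Q)
  let g : A₁ →ₐ[W] S := IsScalarTower.toAlgHom W A₁ S
  have hg : ∀ b ∈ h.xI Q, g b ∈ maximalIdeal S := fun b hb =>
    (IsLocalization.AtPrime.to_map_mem_maximal_iff S (h.xI Q) b).2 hb
  obtain ⟨H, H2⟩ := leibniz_mem_span g g D.toLinearMap
    (fun a b => by
      change D (a * b) = _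
      rw [D.leibniz]
      simp only [Derivation.coeFn_coe]
      rw [Subalgebra.smul_def, Subalgebra.smul_def, add_comm]
      simp only [smul_eq_mul]
      rw [Algebra.smul_def, Algebra.smul_def]
      rfl)
    (h.xI Q) hg hg (h.exists_sub_mem_xI (Q := Q)) {(q : A₁), h.α u}
    (by
      rintro _ (rfl | rfl)
      · exact h.q_mem_xI Q
      · exact h.α_mem_xI hu.1)
    (h.xI_le hu hc)
  simp only [Set.image_pair, Derivation.coeFn_coe, Derivation.map_natCast,
    Submodule.span_insert_zero] at H H2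
  refine ⟨fun a => ?_, fun a ha => ?_⟩
  · obtain ⟨⟨z, hz⟩, e⟩ := Submodule.mem_span_singleton.1 (H a)
    exact ⟨z, hz, by rw [← e]; rfl⟩
  · have h2 := H2 a ha
    have : ∃ z ∈ maximalIdeal S, D a = (z : F₁) * D (h.α u) := by
      refine Submodule.smul_induction_on h2 (fun r hr m hm => ?_) ?_
      · obtain ⟨z, rfl⟩ := Submodule.mem_span_singleton.1 hm
        exact ⟨r * z, Ideal.mul_mem_right _ _ hr, by
          simp only [Subalgebra.smul_def, MulMemClass.coe_mul, smul_eq_mul, mul_assoc]⟩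
      · rintro _ _ ⟨z, hz, rfl⟩ ⟨z', hz', rfl⟩
        exact ⟨z + z', add_mem hz hz', by rw [AddMemClass.coe_add, add_mul]⟩
    obtain ⟨z, hz, e⟩ := this
    obtain ⟨⟨n, t⟩, hnt⟩ := IsLocalization.surj (h.xI Q).primeCompl z
    refine ⟨n, t, t.2, ?_, ?_⟩
    · exact (IsLocalization.AtPrime.to_map_mem_maximal_iff S (h.xI Q) n).1
        (hnt ▸ Ideal.mul_mem_right _ _ hz)
    · have e' := congrArg (fun w : S => (w : F₁)) hnt
      simp only [MulMemClass.coe_mul] at e'
      have c1 : ∀ b : A₁, ((algebraMap A₁ S b : S) : F₁) = φF b := fun b => rfl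
      rw [c1, c1] at e'
      rw [e, ← e']; ring

theorem kI_loc {z : F₁} (hz : z ∈ loc F₁ (h.xI Q)) : z ∈ loc F₁ h.kI := loc_mono (h.kI_le_xI Q) hz

theorem α_der_ne_zero {u : A₀} (hu : IsUnif Q (h.red u)) : h.der (h.α u) ≠ 0 := by
  intro e
  obtain ⟨w, hw⟩ := h.der_ne u e
  obtain ⟨b, hb⟩ := h.exists_pow_eq_φ (h.red u)
  have hu' : h.red u = b ^ q := by rw [← hb, hw, AlgHom.commutes]
  refine hu.2 ?_
  rw [hu']
  exact Ideal.pow_le_pow_right h.prime.two_le
    (Ideal.pow_mem_pow (hQ.isPrime.mem_of_pow_mem q (hu' ▸ hu.1)) q)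

/-- At a cusp on the component of `∞`, `dv/du = q ·` a unit of the Gauss point. -/
theorem der_unit_cusp {c : Ideal A₀} (hc : c ∈ h.cusp) (hcQ : c ≤ h.mA Q) :
    ∃ u v : A₀, IsUnif Q (h.red u) ∧ IsUnif (h.fr Q) (h.red v) ∧
      ∃ z : F₁, z ≠ 0 ∧ z ∈ loc F₁ h.kI ∧ z⁻¹ ∈ loc F₁ h.kI ∧
        h.der (h.β v) = (q : F₁) * z * h.der (h.α u) := by
  have hnc := h.not_crossing_of_cusp hc hcQ
  obtain ⟨c', hc', hc'Q, u, v, hu, hv, -, -, s, n, hs, hn, e⟩ := h.cusp_relation hc hcQ
  obtain ⟨D1, -⟩ := h.der_smooth h.der hnc hu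
  obtain ⟨zs, hzs, ezs⟩ := D1 s
  obtain ⟨zn, hzn, ezn⟩ := D1 n
  obtain ⟨a, ha⟩ := h.exists_pow_eq_φ (h.red v)
  obtain ⟨t, ht, hta⟩ := hu.loc (h.isUnif_of_φ_eq' hv ha).1
  obtain ⟨r, hr⟩ := Ideal.mem_span_singleton'.1 hta
  obtain ⟨t, rfl⟩ := h.red_surjective t
  obtain ⟨r, rfl⟩ := h.red_surjective r
  have hk : s * h.α t ^ q - n * h.α r ^ q ∈ h.kI := by
    change h.piInf _ = 0
    have e1 := congrArg h.piInf e
    simp only [map_mul, map_pow, h.piInf_α, h.piInf_β, ha] at e1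
    have hne : h.red u ^ q ≠ 0 := pow_ne_zero _ hu.ne_zero
    apply mul_left_cancel₀ hne
    have e2 := congrArg (· ^ q) hr
    simp only [mul_pow] at e2
    simp only [map_sub, map_mul, map_pow, h.piInf_α]
    linear_combination h.red t ^ q * e1 - h.piInf n * e2
  obtain ⟨σ, hσ, hσx⟩ := SetLike.not_le_iff_exists.1 fun hle => hnc (h.crossing_of_kZ_le hle)
  obtain ⟨g, hg⟩ := Ideal.mem_span_singleton'.1 (h.mul_mem_q hk hσ)
  obtain ⟨zσ, hzσ, ezσ⟩ := D1 σ
  obtain ⟨zg, hzg, ezg⟩ := D1 g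
  obtain ⟨zt, hzt, ezt⟩ := D1 (h.α t)
  obtain ⟨zr, hzr, ezr⟩ := D1 (h.α r)
  have hDu := h.α_der_ne_zero hu
  set Du := h.der (h.α u) with hDu'
  have hσ0 : φF σ ≠ 0 := fun e0 => hσx (by
    rw [(map_eq_zero_iff _ (IsFractionRing.injective A₁ F₁)).1 e0]; exact zero_mem _)
  have hn0 : φF n ≠ 0 := fun e0 => hn (by
    rw [(map_eq_zero_iff _ (IsFractionRing.injective A₁ F₁)).1 e0]; exact zero_mem _)
  have htx : h.α t ∉ h.xI Q := fun hm => ht (h.comap_α_xI.le hm)
  have ht0 : φF (h.α t) ≠ 0 := fun e0 => htx (by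
    rw [(map_eq_zero_iff _ (IsFractionRing.injective A₁ F₁)).1 e0]; exact zero_mem _)
  -- differentiate the two relations
  have dk := congrArg h.der hg
  have de := congrArg h.der e
  simp only [Derivation.leibniz, Derivation.leibniz_pow, map_sub, Derivation.map_natCast,
    ezs, ezn, ezσ, ezg, ezt, ezr, Algebra.smul_def, map_mul, map_pow,
    map_natCast] at dk de
  rw [← hDu'] at de
  have hg' := congrArg φF hg
  have e' := congrArg φF e
  simp only [map_mul, map_sub, map_pow, map_natCast] at hg' e'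
  obtain ⟨p, rfl⟩ := Nat.exists_eq_add_one_of_ne_zero h.prime.ne_zero
  simp only [Nat.add_sub_cancel] at dk de
  set T := φF (h.α t); set R := φF (h.α r); set S := φF s; set Nn := φF n; set U := φF (h.α u)
  set G := φF g; set Sg := φF σ
  -- `y` measures the derivative of the unit `s/n` divided by `q`
  let y : F₁ := (Nn * ((zg - G * zσ / Sg) / Sg - S * T ^ p * zt + Nn * R ^ p * zr) -
      zn * (G / Sg)) / T ^ (p + 1)
  have hy : zs * Nn - zn * S = ((p + 1 : ℕ) : F₁) * y := by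
    have h1 : (zs * T ^ (p + 1) - zn * R ^ (p + 1)) * Sg * Sg =
        ((p + 1 : ℕ) : F₁) * ((zg * Sg - G * zσ) - (S * T ^ p * zt - Nn * R ^ p * zr) * (Sg * Sg)) := by
      apply mul_right_cancel₀ hDu
      linear_combination (-Sg) * dk - (-zσ * Du) * hg'
    simp only [y]
    rw [← mul_div_assoc, eq_div_iff (pow_ne_zero _ ht0)]
    apply mul_right_cancel₀ (mul_ne_zero hσ0 hσ0)
    have e1 : ((p + 1 : ℕ) : F₁) * (Nn * ((zg - G * zσ / Sg) / Sg - S * T ^ p * zt + Nn * R ^ p * zr) -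
        zn * (G / Sg)) * (Sg * Sg) = ((p + 1 : ℕ) : F₁) *
        (Nn * (zg * Sg - G * zσ - (S * T ^ p * zt - Nn * R ^ p * zr) * (Sg * Sg)) - zn * G * Sg) := by
      field_simp
      ring
    rw [e1]
    linear_combination Nn * h1 + zn * Sg * hg'
  have hiσ : Sg⁻¹ ∈ loc F₁ (h.xI Q) := inv_mem_loc hσx
  have hiT : (T ^ (p + 1))⁻¹ ∈ loc F₁ (h.xI Q) := by rw [← inv_pow]; exact pow_mem (inv_mem_loc htx) _
  have hA : ∀ a : A₁, φF a ∈ loc F₁ (h.xI Q) := fun a => algebraMap_mem_loc a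
  have hymem : y ∈ loc F₁ (h.xI Q) := by
    simp only [y, div_eq_mul_inv]
    exact mul_mem (sub_mem (mul_mem (hA _) (add_mem (sub_mem (mul_mem (sub_mem hzg
      (mul_mem (mul_mem (hA _) hzσ) hiσ)) hiσ) (mul_mem (mul_mem (hA _) (pow_mem (hA _) _)) hzt))
      (mul_mem (mul_mem (hA _) (pow_mem (hA _) _)) hzr))) (mul_mem hzn (mul_mem (hA _) hiσ))) hiT
  obtain ⟨b, c, hb, hbc⟩ := exists_mul_of_mem_loc hymem
  -- the unit `(s + u y / n)`
  have hw : b * n * s + h.α u * c ∉ h.xI Q := fun hm => by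
    have := sub_mem hm (mul_mem_right c _ (h.α_mem_xI hu.1))
    simp only [add_sub_cancel_right] at this
    exact (Ideal.IsPrime.mem_or_mem inferInstance this).elim
      (fun h' => (Ideal.IsPrime.mem_or_mem inferInstance h').elim hb hn) hs
  have hnum : h.α u ^ p * (b * n * s + h.α u * c) ∉ h.kI := fun hm => by
    rcases Ideal.IsPrime.mem_or_mem inferInstance hm with hm | hm
    · exact hu.ne_zero (by
        rw [← h.piInf_α]; exact Ideal.IsPrime.mem_of_pow_mem inferInstance p hm)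
    · exact hw (h.kI_le_xI Q hm)
  have hden : b * n * n ∉ h.kI := fun hm =>
    (Ideal.IsPrime.mem_or_mem inferInstance hm).elim
      (fun h' => (Ideal.IsPrime.mem_or_mem inferInstance h').elim
        (fun h'' => hb (h.kI_le_xI Q h'')) (fun h'' => hn (h.kI_le_xI Q h'')))
      (fun h'' => hn (h.kI_le_xI Q h''))
  have hz : φF (b * n * n) * (U ^ p * (S + U * y / Nn) / Nn) =
      φF (h.α u ^ p * (b * n * s + h.α u * c)) := by
    simp only [map_mul, map_pow, map_add]
    have e1 : φF b * Nn * Nn * (U ^ p * (S + U * y / Nn) / Nn) = U ^ p * (φF b * Nn * S + U * (φF b * y)) := by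
      field_simp
    rw [e1, hbc]
  have hz0 : U ^ p * (S + U * y / Nn) / Nn ≠ 0 := fun e0 => by
    rw [e0, mul_zero, eq_comm, map_eq_zero_iff _ (IsFractionRing.injective A₁ F₁)] at hz
    exact hnum (hz ▸ zero_mem _)
  refine ⟨u, v, hu, hv, _, hz0, mem_loc_of_mul hden hz, mem_loc_of_mul hnum (a := b * n * n) ?_, ?_⟩
  · rw [← hz, mul_assoc, mul_inv_cancel₀ hz0, mul_one]
  · apply mul_right_cancel₀ (mul_ne_zero hn0 hn0)
    have e1 : ((p + 1 : ℕ) : F₁) * (U ^ p * (S + U * y / Nn) / Nn) * Du * (Nn * Nn) =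
        ((p + 1 : ℕ) : F₁) * U ^ p * (S * Nn + U * y) * Du := by
      field_simp
    rw [e1]
    linear_combination (-(Nn : F₁)) * de + (U ^ (p + 1) * Du) * hy + (zn * Du) * e'

end StepData

end FLTAgent.BadQ.Two
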