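import Fermat.Agent.BadQ.TwoPoint

/-!
# The exponent of a component in an element, read at closed points

If a component is the only branch through a point containing `a`, then `a` is a power of its local
generator (`assoc_pow_of_unique`); the exponent does not depend on the point (`exponent_eq`).
-/

set_option autoImplicit false

namespace FLTAgent.BadQ.Two

open Ideal IsLocalRing

variable {R : Type*} [CommRing R] [IsDomain R] [IsNoetherianRing R]
  {K : Type*} [Field K] [Algebra R K] [IsFractionRing R K]

theorem algebraMap_loc_ne_zero {y : Ideal R} [y.IsPrime] {x : R} (hx : x ≠ 0) :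
    algebraMap R (loc K y) x ≠ 0 := fun e => hx <| by
  refine IsFractionRing.injective R K ?_
  rw [map_zero]
  exact (congrArg (fun w : loc K y => (w : K)) e :)

/-- If `P` is the only branch through `y` containing `x`, then `x` is a power of its generator. -/
theorem assoc_pow_of_unique {y : Ideal R} [y.IsPrime] {a : R} {b : loc K y}
    (hm : maximalIdeal (loc K y) = Ideal.span {algebraMap R (loc K y) a, b})
    {P : Ideal R} [P.IsPrime] (hP : P < y) (haP : a ∈ P) {x : R} (hx0 : x ≠ 0) (hxP : x ∈ P)
    (only : ∀ p : Ideal R, p.IsPrime → p < y → x ∈ p → p = P) :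
    ∃ e : ℕ, Associated (algebraMap R (loc K y) x) (algebraMap R (loc K y) a ^ e) := by
  have : IsNoetherianRing (loc K y) := IsLocalization.isNoetherianRing y.primeCompl _ inferInstance
  have hP0 : P ≠ ⊥ := fun e => hx0 (Ideal.mem_bot.1 (e ▸ hxP))
  set a' := algebraMap R (loc K y) a
  set P' := P.map (algebraMap R (loc K y))
  have : P'.IsPrime := map_loc_isPrime hP.le
  have hP' : P' = Ideal.span {a'} := map_loc_eq_span hm hP hP0 (Ideal.mem_map_of_mem _ haP)
  have hP'0 : P' ≠ ⊥ := fun e => algebraMap_loc_ne_zero (K := K) (y := y) hx0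
    (Ideal.mem_bot.1 (e ▸ Ideal.mem_map_of_mem _ hxP))
  have : UniqueFactorizationMonoid (loc K y) :=
    ufd_of_two_generated hm hP'0 (map_loc_ne_maximal hP)
  have ha0 : a' ≠ 0 := left_ne_zero hm hP'0 (map_loc_ne_maximal hP)
  have haprime : Prime a' := (Ideal.span_singleton_prime ha0).1 (hP' ▸ inferInstance)
  obtain ⟨e, c, hac, hc⟩ :=
    WfDvdMonoid.max_power_factor (algebraMap_loc_ne_zero (K := K) (y := y) hx0) haprime.irreducible
  refine ⟨e, ?_⟩
  suffices hu : IsUnit c by rw [hc]; exact associated_mul_unit_left _ _ hu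
  by_contra hu
  have hc0 : c ≠ 0 := fun h => hac (h ▸ dvd_zero _)
  obtain ⟨p, hp, hpc⟩ := WfDvdMonoid.exists_irreducible_factor hu hc0
  have hp' : Prime p := UniqueFactorizationMonoid.irreducible_iff_prime.1 hp
  let I : Ideal (loc K y) := Ideal.span {p}
  have hI : I.IsPrime := (Ideal.span_singleton_prime hp'.ne_zero).2 hp'
  have hIm : I ≠ maximalIdeal (loc K y) := by
    intro e'
    have ha : a' ∈ I := e' ▸ hm ▸ Ideal.subset_span (by simp)
    have : Associated p a' := hp'.associated_of_dvd haprime (Ideal.mem_span_singleton.1 ha)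
    refine map_loc_ne_maximal (K := K) hP (hP'.trans ?_)
    rw [← e', Ideal.span_singleton_eq_span_singleton]
    exact this.symm
  let p₀ := I.comap (algebraMap R (loc K y))
  have : p₀.IsPrime := Ideal.IsPrime.comap _
  have hmap : p₀.map (algebraMap R (loc K y)) = I := IsLocalization.map_under y.primeCompl (loc K y) I
  have hp₀y : p₀ < y := by
    refine lt_of_le_of_ne (fun z hz => (IsLocalization.AtPrime.to_map_mem_maximal_iff (loc K y) y z).1
      (le_maximalIdeal hI.ne_top hz)) fun e' => hIm ?_
    rw [← hmap, e']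
    exact IsLocalization.AtPrime.map_eq_maximalIdeal y (loc K y)
  have hxp : x ∈ p₀ := by
    change algebraMap R (loc K y) x ∈ I
    rw [hc]
    exact Ideal.mem_span_singleton.2 (hpc.mul_left _)
  have hp₀ : p₀ = P := only p₀ inferInstance hp₀y hxp
  have : Associated p a' := by
    rw [← Ideal.span_singleton_eq_span_singleton, ← hP']
    exact hmap.symm.trans (by rw [hp₀])
  exact hac (this.symm.dvd.trans hpc)

/-- The exponent does not depend on the point. -/
theorem exponent_eq {y y' P : Ideal R} [y.IsPrime] [y'.IsPrime] [P.IsPrime] (hy : P ≤ y) (hy' : P ≤ y')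
    (hP0 : P ≠ ⊥) {a : loc K y} {a' : loc K y'}
    (ha : P.map (algebraMap R (loc K y)) = Ideal.span {a})
    (ha' : P.map (algebraMap R (loc K y')) = Ideal.span {a'}) {x : R} {e n : ℕ}
    (h : Associated (algebraMap R (loc K y) x) (a ^ e))
    (h' : Associated (algebraMap R (loc K y') x) (a' ^ n)) : e = n := by
  let i : loc K y →ₐ[R] loc K P := Subalgebra.inclusion (loc_mono hy)
  let i' : loc K y' →ₐ[R] loc K P := Subalgebra.inclusion (loc_mono hy')
  have e1 : P.map (algebraMap R (loc K P)) = Ideal.span {i a} := by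
    rw [← i.comp_algebraMap, ← Ideal.map_map, ha, Ideal.map_span, Set.image_singleton]; rfl
  have e2 : P.map (algebraMap R (loc K P)) = Ideal.span {i' a'} := by
    rw [← i'.comp_algebraMap, ← Ideal.map_map, ha', Ideal.map_span, Set.image_singleton]; rfl
  have hass : Associated (i a) (i' a') := Ideal.span_singleton_eq_span_singleton.1 (e1.symm.trans e2)
  have h1 := h.map i
  have h2 := h'.map i'
  rw [AlgHom.commutes, map_pow] at h1 h2
  have h3 : Associated (i a ^ e) (i a ^ n) :=
    (h1.symm.trans h2).trans (hass.symm.pow_pow (n := n))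
  have hne : i a ≠ 0 := by
    intro h0
    obtain ⟨z, hz, hz0⟩ := Submodule.exists_mem_ne_zero_of_ne_bot hP0
    refine algebraMap_loc_ne_zero (K := K) (y := P) hz0 ?_
    have := Ideal.mem_map_of_mem (algebraMap R (loc K P)) hz
    rwa [e1, h0, Ideal.span_singleton_zero, Ideal.mem_bot] at this
  have hnu : ¬ IsUnit (i a) := by
    intro hu
    have hm : P.map (algebraMap R (loc K P)) = maximalIdeal (loc K P) :=
      IsLocalization.AtPrime.map_eq_maximalIdeal P (loc K P)
    rw [e1, Ideal.span_singleton_eq_top.2 hu] at hm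
    exact (maximalIdeal.isMaximal (loc K P)).ne_top hm.symm
  exact le_antisymm ((pow_dvd_pow_iff hne hnu).1 h3.dvd) ((pow_dvd_pow_iff hne hnu).1 h3.symm.dvd)

end FLTAgent.BadQ.Two
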