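import Fermat.Agent.BadQ.TwoTwin

/-!
# The local ring spanned by the two embeddings near a closed point

A `Frame` at a point of level `q²M` gives the local ring of the subalgebra generated near the point
by the two images of level `qM`. `criterion` deduces from two generators of its maximal ideal that
the local ring upstairs is the same regular ring, and `point_unique` that the two projections
determine the point.
-/

set_option autoImplicit false

namespace FLTAgent.BadQ.Two

open Ideal IsLocalRing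

variable {q : ℕ} {W A₀ A₁ A₂ C F₁ : Type*} [CommRing W] [CommRing A₀] [CommRing A₁] [CommRing A₂]
  [CommRing C] [Field F₁] [Algebra W A₀] [Algebra W A₁] [Algebra W A₂] [Algebra W C]
  [Algebra W F₁] [Algebra A₁ F₁] [IsDedekindDomain C]
  [IsNoetherianRing W] [IsDomain A₀] [IsDomain A₁] [IsDomain A₂]
  [IsNoetherianRing A₀] [IsNoetherianRing A₁]
  [Algebra.FiniteType W A₀] [Algebra.FiniteType W A₁]
  [IsIntegrallyClosed A₁] [IsIntegrallyClosed A₂] [IsFractionRing A₁ F₁]

namespace Twin

variable {h : StepData q W A₀ A₁ C F₁} {T : Twin h A₂}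
  {K : Type*} [Field K] [Algebra A₂ K] [IsFractionRing A₂ K] [Algebra W K] [IsScalarTower W A₂ K]

variable (T) in
/-- Hypotheses for the local computation at `y`. -/
structure Frame (y : Ideal A₂) [y.IsMaximal] (x x' : Ideal A₁) (X : Set K) : Prop where
  comap_f : y.comap T.f = x
  comap_g : y.comap T.g = x'
  rat_f : ∀ a : A₁, ∃ w : W, a - algebraMap W A₁ w ∈ x
  rat_g : ∀ a : A₁, ∃ w : W, a - algebraMap W A₁ w ∈ x'
  finite : X.Finite
  mem : ∀ z ∈ X, ∃ hz : z ∈ loc K y, (⟨z, hz⟩ : loc K y) ∈ maximalIdeal (loc K y)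

variable {y : Ideal A₂} [y.IsMaximal] {x x' : Ideal A₁} {X : Set K}

variable (T K) in
/-- the ideal of the point in `near` -/
noncomputable def nearIdeal (x x' : Ideal A₁) (X : Set K) : Ideal (T.near K x x' X) :=
  Ideal.span {e : T.near K x x' X | (e : K) ∈ T.gens K x x' X}

namespace Frame

variable (F : T.Frame y x x' X)
include F

theorem gens_mem : ∀ e ∈ T.gens K x x' X,
    ∃ he : e ∈ loc K y, (⟨e, he⟩ : loc K y) ∈ maximalIdeal (loc K y) := by
  rintro e ((⟨a, ha, rfl⟩ | ⟨a, ha, rfl⟩) | hz)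
  · exact ⟨T.fK_mem_loc y a, (IsLocalization.AtPrime.to_map_mem_maximal_iff (loc K y) y (T.f a)).2
      (F.comap_f.ge ha)⟩
  · exact ⟨T.gK_mem_loc y a, (IsLocalization.AtPrime.to_map_mem_maximal_iff (loc K y) y (T.g a)).2
      (F.comap_g.ge ha)⟩
  · exact F.mem e hz

theorem near_le : T.near K x x' X ≤ (loc K y).restrictScalars W :=
  Algebra.adjoin_le fun e he => (F.gens_mem e he).1

/-- inclusion in the local ring -/
noncomputable def incl : T.near K x x' X →ₐ[W] loc K y := Subalgebra.inclusion F.near_le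

theorem nearIdeal_eq : T.nearIdeal K x x' X = (maximalIdeal (loc K y)).comap F.incl := by
  refine le_antisymm (Ideal.span_le.2 fun e he => (F.gens_mem _ he).2) ?_
  rintro ⟨z, hz⟩ hm
  obtain ⟨w, hw⟩ := T.exists_const hz
  obtain ⟨hy, hiff⟩ := T.mem_maximal_iff hz F.gens_mem hw
  have hwy : algebraMap W A₂ w ∈ y := hiff.1 hm
  have hwx : algebraMap W A₁ w ∈ x := F.comap_f.le (by
    change T.f _ ∈ y; rwa [AlgHom.commutes])
  have : algebraMap W (T.near K x x' X) w ∈ T.nearIdeal K x x' X := by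
    refine Ideal.subset_span (Or.inl (Or.inl ⟨_, hwx, ?_⟩))
    rw [AlgHom.commutes]; rfl
  have h1 : (⟨z, hz⟩ : T.near K x x' X) - algebraMap W _ w ∈ T.nearIdeal K x x' X := hw
  simpa using add_mem h1 this

theorem nearIdeal_prime : (T.nearIdeal K x x' X).IsPrime := by
  rw [F.nearIdeal_eq]; infer_instance

end Frame

variable (T K) in
/-- The local ring of `near` at the point. -/
abbrev NearLoc (x x' : Ideal A₁) (X : Set K) [(T.nearIdeal K x x' X).IsPrime] :=
  Localization.AtPrime (T.nearIdeal K x x' X)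

namespace Frame

variable (F : T.Frame y x x' X) [hp : (T.nearIdeal K x x' X).IsPrime]

include F in
theorem isNoetherianRing_near : IsNoetherianRing (T.near K x x' X) := by
  have : Algebra.FiniteType W (T.near K x x' X) :=
    (Subalgebra.fg_iff_finiteType _).1 (T.near_fg F.finite F.rat_f F.rat_g)
  exact Algebra.FiniteType.isNoetherianRing W _

include F in
theorem isNoetherianRing_nearLoc : IsNoetherianRing (T.NearLoc K x x' X) := by
  have := F.isNoetherianRing_near
  exact IsLocalization.isNoetherianRing (T.nearIdeal K x x' X).primeCompl _ inferInstance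

instance isDomain_nearLoc : IsDomain (T.NearLoc K x x' X) :=
  IsLocalization.isDomain_localization (T.nearIdeal K x x' X).primeCompl_le_nonZeroDivisors

/-- the map to the local ring at `y` -/
noncomputable def toLoc : T.NearLoc K x x' X →ₐ[W] loc K y :=
  IsLocalization.liftAlgHom (M := (T.nearIdeal K x x' X).primeCompl) (f := F.incl) fun e => by
    have : F.incl e ∉ maximalIdeal (loc K y) := fun hm => e.2 ((SetLike.ext_iff.1 F.nearIdeal_eq (e : T.near K x x' X)).2 hm)
    exact IsLocalRing.notMem_maximalIdeal.1 this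

theorem toLoc_algebraMap (e : T.near K x x' X) : F.toLoc (algebraMap _ _ e) = F.incl e :=
  IsLocalization.lift_eq _ e

theorem toLoc_injective : Function.Injective F.toLoc := by
  change Function.Injective (IsLocalization.lift _)
  rw [IsLocalization.lift_injective_iff]
  intro a b
  constructor
  · intro e
    exact congrArg F.incl (IsLocalization.injective (T.NearLoc K x x' X)
      (T.nearIdeal K x x' X).primeCompl_le_nonZeroDivisors e)
  · intro e
    rw [Subalgebra.inclusion_injective F.near_le e]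

theorem toLoc_mem_maximal {b : T.NearLoc K x x' X} :
    F.toLoc b ∈ maximalIdeal (loc K y) ↔ b ∈ maximalIdeal (T.NearLoc K x x' X) := by
  obtain ⟨n, d, rfl⟩ := IsLocalization.exists_mk'_eq (T.nearIdeal K x x' X).primeCompl b
  rw [IsLocalization.AtPrime.mk'_mem_maximal_iff (T.NearLoc K x x' X) (T.nearIdeal K x x' X), SetLike.ext_iff.1 F.nearIdeal_eq n, Ideal.mem_comap,
    ← F.toLoc_algebraMap, ← IsLocalization.mk'_spec _ n d, map_mul]
  have hu : IsUnit (F.toLoc (algebraMap _ _ (d : T.near K x x' X))) :=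
    (IsLocalization.map_units _ d).map F.toLoc
  exact ((maximalIdeal (loc K y)).mul_unit_mem_iff_mem hu).symm

end Frame

variable [(T.nearIdeal K x x' X).IsPrime]

variable (T K x x' X) in
/-- `f` into the local ring of `near` -/
noncomputable def fB (hrat : ∀ a : A₁, ∃ w : W, a - algebraMap W A₁ w ∈ x) :
    A₁ →ₐ[W] T.NearLoc K x x' X :=
  (IsScalarTower.toAlgHom W _ _).comp ((T.fK K).codRestrict (T.near K x x' X) (T.fK_mem_near hrat))

variable (T K x x' X) in
/-- `g` into the local ring of `near` -/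
noncomputable def gB (hrat : ∀ a : A₁, ∃ w : W, a - algebraMap W A₁ w ∈ x') :
    A₁ →ₐ[W] T.NearLoc K x x' X :=
  (IsScalarTower.toAlgHom W _ _).comp ((T.gK K).codRestrict (T.near K x x' X) (T.gK_mem_near hrat))

namespace Frame

variable (F : T.Frame y x x' X)

/-- `f` -/
noncomputable def bf : A₁ →ₐ[W] T.NearLoc K x x' X := T.fB K x x' X F.rat_f

/-- `g` -/
noncomputable def bg : A₁ →ₐ[W] T.NearLoc K x x' X := T.gB K x x' X F.rat_g

theorem toLoc_bf (a : A₁) : (F.toLoc (F.bf a) : K) = T.fK K a := by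
  exact congrArg Subtype.val (F.toLoc_algebraMap ⟨T.fK K a, T.fK_mem_near F.rat_f a⟩)

theorem toLoc_bg (a : A₁) : (F.toLoc (F.bg a) : K) = T.gK K a := by
  exact congrArg Subtype.val (F.toLoc_algebraMap ⟨T.gK K a, T.gK_mem_near F.rat_g a⟩)

theorem ext_toLoc {b b' : T.NearLoc K x x' X} (e : (F.toLoc b : K) = F.toLoc b') : b = b' :=
  F.toLoc_injective (Subtype.ext e)

theorem bf_β (a : A₀) : F.bf (h.β a) = F.bg (h.β a) := F.ext_toLoc (by
  rw [F.toLoc_bf, F.toLoc_bg, fK_apply, gK_apply, T.compat])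

theorem bf_ne_bg {u : A₀} {Q : Ideal C} [Q.IsMaximal] (hu : IsUnif Q (h.red u)) :
    F.bf (h.α u) - F.bg (h.α u) ≠ 0 := by
  rw [sub_ne_zero]
  intro e
  have := congrArg (fun b => (F.toLoc b : K)) e
  simp only [F.toLoc_bf, F.toLoc_bg, fK_apply, gK_apply] at this
  obtain ⟨w, hw⟩ := T.ne u (IsFractionRing.injective A₂ K this)
  exact h.not_const hu hw

theorem bf_mem {a : A₁} (ha : a ∈ x) : F.bf a ∈ maximalIdeal _ :=
  F.toLoc_mem_maximal.1 (by
    obtain ⟨he, hm⟩ := F.gens_mem (T.fK K a) (Or.inl (Or.inl ⟨a, ha, rfl⟩))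
    rwa [show F.toLoc (F.bf a) = ⟨_, he⟩ from Subtype.ext (F.toLoc_bf a)])

theorem bg_mem {a : A₁} (ha : a ∈ x') : F.bg a ∈ maximalIdeal _ :=
  F.toLoc_mem_maximal.1 (by
    obtain ⟨he, hm⟩ := F.gens_mem (T.gK K a) (Or.inl (Or.inr ⟨a, ha, rfl⟩))
    rwa [show F.toLoc (F.bg a) = ⟨_, he⟩ from Subtype.ext (F.toLoc_bg a)])

omit F in
theorem map_mem_of_le {R B : Type*} [CommRing R] [CommRing B] [Algebra W R] [Algebra W B]
    (e : R →ₐ[W] B) {I : Ideal R} {G : Set R} {J m : Ideal B} (hle : I ≤ Ideal.span G ⊔ I ^ 2)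
    (hG : ∀ g ∈ G, e g ∈ J) (hI : ∀ a ∈ I, e a ∈ m) {a : R} (ha : a ∈ I) : e a ∈ J ⊔ m ^ 2 := by
  have := Ideal.mem_map_of_mem e (hle ha)
  rw [Ideal.map_sup, Ideal.map_pow] at this
  refine sup_le_sup ?_ (Ideal.pow_right_mono (Ideal.map_le_iff_le_comap.2 hI) 2) this
  rw [Ideal.map_le_iff_le_comap, Ideal.span_le]
  exact hG

/-- Regularity criterion. -/
theorem criterion {a b : T.NearLoc K x x' X} (ha : a ∈ maximalIdeal _) (hb : b ∈ maximalIdeal _)
    (hf : ∀ c ∈ x, F.bf c ∈ Ideal.span {a, b} ⊔ maximalIdeal _ ^ 2)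
    (hg : ∀ c ∈ x', F.bg c ∈ Ideal.span {a, b} ⊔ maximalIdeal _ ^ 2)
    (hX : ∀ e : T.near K x x' X, (e : K) ∈ X →
      algebraMap _ (T.NearLoc K x x' X) e ∈ Ideal.span {a, b} ⊔ maximalIdeal _ ^ 2)
    {k : Ideal A₁} [k.IsPrime] (hk : k < x) (hq : (q : A₁) ∈ k) :
    maximalIdeal (T.NearLoc K x x' X) = Ideal.span {a, b} ∧
    maximalIdeal (loc K y) = Ideal.span {F.toLoc a, F.toLoc b} ∧
    Function.Surjective F.toLoc ∧
    ∀ c : A₂, ∃ e s : T.near K x x' X, s ∉ T.nearIdeal K x x' X ∧
      (s : K) * algebraMap A₂ K c = e := by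
  have := F.isNoetherianRing_nearLoc
  let B := T.NearLoc K x x' X
  have hm : maximalIdeal B = Ideal.span {a, b} := by
    refine le_antisymm ?_ (Ideal.span_le.2 (Set.insert_subset_iff.2 ⟨ha, Set.singleton_subset_iff.2 hb⟩))
    refine Submodule.le_of_le_smul_of_le_jacobson_bot (IsNoetherian.noetherian _)
      (jacobson_eq_maximalIdeal ⊥ bot_ne_top).ge ?_
    rw [smul_eq_mul, ← pow_two]
    conv_lhs => rw [← Localization.AtPrime.map_eq_maximalIdeal (I := T.nearIdeal K x x' X)]
    refine Ideal.map_le_iff_le_comap.2 (Ideal.span_le.2 ?_)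
    intro e he
    rw [SetLike.mem_coe, Ideal.mem_comap]
    rcases (he : (e : K) ∈ T.gens K x x' X) with (⟨c, hc, hce⟩ | ⟨c, hc, hce⟩) | hz
    · rw [show e = ⟨T.fK K c, T.fK_mem_near F.rat_f c⟩ from Subtype.ext hce.symm]
      exact hf c hc
    · rw [show e = ⟨T.gK K c, T.gK_mem_near F.rat_g c⟩ from Subtype.ext hce.symm]
      exact hg c hc
    · exact hX e hz
  obtain ⟨P, hP, hPy, hPk⟩ := T.exists_prime_lt (y := y) (k := k) (F.comap_f.symm ▸ hk)
  have := hP
  let S := loc K y
  let PS : Ideal S := P.map (algebraMap A₂ S)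
  have hd : Disjoint (y.primeCompl : Set A₂) (P : Set A₂) :=
    Set.disjoint_left.2 fun z hz hzP => hz (hPy.le hzP)
  have hPS : PS.IsPrime := IsLocalization.isPrime_of_isPrime_disjoint y.primeCompl S P hP hd
  have hcm : PS.comap (algebraMap A₂ S) = P :=
    IsLocalization.under_map_of_isPrime_disjoint y.primeCompl S hP hd
  let PB : Ideal B := PS.comap F.toLoc
  have : PB.IsPrime := Ideal.IsPrime.comap _
  have hqne : (q : B) ≠ 0 := fun e => T.q_ne_zero (by
    have := congrArg (fun b => (F.toLoc b : K)) e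
    simp only [map_natCast, map_zero] at this
    apply IsFractionRing.injective A₂ K
    rw [map_natCast, map_zero]
    simpa using this)
  have hqP : (q : B) ∈ PB := by
    change F.toLoc _ ∈ PS
    rw [map_natCast, ← map_natCast (algebraMap A₂ S)]
    refine Ideal.mem_map_of_mem _ ?_
    have : (q : A₁) ∈ P.comap T.f := hPk.symm ▸ hq
    simpa using this
  have hP0 : PB ≠ ⊥ := fun e => hqne (Ideal.mem_bot.1 (e ▸ hqP))
  have hPm : PB ≠ maximalIdeal B := by
    obtain ⟨c, hc, hck⟩ := SetLike.exists_of_lt hk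
    intro e
    have : F.bf c ∈ PB := e ▸ F.bf_mem hc
    apply hck
    rw [← hPk, Ideal.mem_comap, ← hcm, Ideal.mem_comap]
    convert (show F.toLoc (F.bf c) ∈ PS from this) using 1
    exact Subtype.ext (F.toLoc_bf c).symm
  have : UniqueFactorizationMonoid B := ufd_of_two_generated hm hP0 hPm
  let : Algebra B K := ((loc K y).val.toRingHom.comp F.toLoc.toRingHom).toAlgebra
  have halg : ∀ b : B, algebraMap B K b = (F.toLoc b : K) := fun _ => rfl
  let i : B →+* integralClosure B K := algebraMap B (integralClosure B K)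
  have hi : Function.Injective i := fun b b' e => F.ext_toLoc (congrArg (fun z : integralClosure B K => (z : K)) e)
  have hfrac₀ : ∀ c : A₂, ∃ d d' : B, d ≠ 0 ∧ algebraMap A₂ K c * (F.toLoc d : K) = F.toLoc d' := by
    intro c
    obtain ⟨s, hs, hs0, hsc⟩ := T.generates c
    have hN : ∀ z ∈ Algebra.adjoin W (Set.range T.f ∪ Set.range T.g),
        algebraMap A₂ K z ∈ T.near K x x' X := by
      intro z hz
      have : Algebra.adjoin W (Set.range T.f ∪ Set.range T.g) ≤
          (T.near K x x' X).comap (IsScalarTower.toAlgHom W A₂ K) := Algebra.adjoin_le (by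
        rintro _ (⟨a, rfl⟩ | ⟨a, rfl⟩)
        · exact T.fK_mem_near F.rat_f a
        · exact T.gK_mem_near F.rat_g a)
      exact this hz
    refine ⟨algebraMap _ _ (⟨_, hN s hs⟩ : T.near K x x' X), algebraMap _ _ (⟨_, hN _ hsc⟩ : T.near K x x' X), ?_, ?_⟩
    · intro e0
      rw [← map_zero (algebraMap (T.near K x x' X) B)] at e0
      have := congrArg Subtype.val
        (IsLocalization.injective B (T.nearIdeal K x x' X).primeCompl_le_nonZeroDivisors e0)
      exact hs0 (IsFractionRing.injective A₂ K (by rw [map_zero]; exact this))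
    · rw [F.toLoc_algebraMap, F.toLoc_algebraMap]
      change algebraMap A₂ K c * algebraMap A₂ K s = algebraMap A₂ K (s * c)
      rw [map_mul, mul_comm]
  have hfrac : ∀ z : integralClosure B K, ∃ d d' : B, d ≠ 0 ∧ z * i d = i d' := by
    intro z
    obtain ⟨n, m, hm', e⟩ := IsFractionRing.div_surjective (A := A₂) (z : K)
    obtain ⟨d₁, d₁', h₁, e₁⟩ := hfrac₀ n
    obtain ⟨d₂, d₂', h₂, e₂⟩ := hfrac₀ m
    have hm0 : algebraMap A₂ K m ≠ 0 := IsFractionRing.to_map_ne_zero_of_mem_nonZeroDivisors hm'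
    have hd₂ : d₂' ≠ 0 := fun e0 => by
      rw [e0, map_zero, ZeroMemClass.coe_zero] at e₂
      rcases mul_eq_zero.1 e₂ with e₃ | e₃
      · exact hm0 e₃
      · exact h₂ (F.ext_toLoc (by rw [e₃, map_zero, ZeroMemClass.coe_zero]))
    refine ⟨d₂' * d₁, d₁' * d₂, mul_ne_zero hd₂ h₁, Subtype.ext ?_⟩
    change (z : K) * algebraMap B K (d₂' * d₁) = algebraMap B K (d₁' * d₂)
    rw [halg, halg, map_mul, map_mul, MulMemClass.coe_mul, MulMemClass.coe_mul, ← e, ← e₁, ← e₂]
    field_simp
  have hsurj : Function.Surjective i := by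
    refine surjective_of_birational (B := B) (S := ↥(integralClosure B K)) i hi ?_ hfrac
    intro z
    exact IsIntegralClosure.isIntegral B K z
  have hA₂ : ∀ c : A₂, ∃ b : B, (F.toLoc b : K) = algebraMap A₂ K c := by
    intro c
    obtain ⟨p, hp, hpc⟩ := T.f_integral c
    have : IsIntegral B (algebraMap A₂ K c) := by
      refine ⟨p.map F.bf.toRingHom, hp.map _, ?_⟩
      rw [Polynomial.eval₂_map,
        show (algebraMap B K).comp F.bf.toRingHom = (algebraMap A₂ K).comp T.f.toRingHom from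
          RingHom.ext fun a => F.toLoc_bf a, ← Polynomial.hom_eval₂, hpc, map_zero]
    obtain ⟨b, hb⟩ := hsurj ⟨_, this⟩
    exact ⟨b, congrArg Subtype.val hb⟩
  have hsurjS : Function.Surjective F.toLoc := by
    intro z
    obtain ⟨⟨c, t⟩, hct⟩ := IsLocalization.surj y.primeCompl z
    obtain ⟨bc, hbc⟩ := hA₂ c
    obtain ⟨bt, hbt⟩ := hA₂ t
    have hbt' : F.toLoc bt = algebraMap A₂ S t := Subtype.ext hbt
    have hu : IsUnit bt := IsLocalRing.notMem_maximalIdeal.1 fun hm' => t.2 (by
      have := F.toLoc_mem_maximal.2 hm'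
      rw [hbt'] at this
      exact (IsLocalization.AtPrime.to_map_mem_maximal_iff S y _).1 this)
    obtain ⟨v, hv⟩ := hu.exists_right_inv
    refine ⟨bc * v, ?_⟩
    rw [map_mul, show F.toLoc bc = algebraMap A₂ S c from Subtype.ext hbc, ← hct, ← hbt', mul_assoc,
      ← map_mul, hv, map_one, mul_one]
  refine ⟨hm, ?_, hsurjS, fun c => ?_⟩
  · refine le_antisymm (fun z hz => ?_) ?_
    · obtain ⟨bz, rfl⟩ := hsurjS z
      have := F.toLoc_mem_maximal.1 hz
      rw [hm, Ideal.mem_span_pair] at this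
      obtain ⟨r, s, rfl⟩ := this
      rw [map_add, map_mul, map_mul]
      exact add_mem (Ideal.mul_mem_left _ _ (subset_span (by simp)))
        (Ideal.mul_mem_left _ _ (subset_span (by simp)))
    · rw [Ideal.span_le]
      rintro _ (rfl | rfl)
      · exact F.toLoc_mem_maximal.2 ha
      · exact F.toLoc_mem_maximal.2 hb
  · obtain ⟨bz, hbz⟩ := hA₂ c
    obtain ⟨⟨e, s⟩, hes⟩ := IsLocalization.surj (T.nearIdeal K x x' X).primeCompl bz
    refine ⟨e, s, s.2, ?_⟩
    have := congrArg (fun b => (F.toLoc b : K)) hes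
    simp only [map_mul, MulMemClass.coe_mul, hbz] at this
    have h' : algebraMap A₂ K c * (F.incl s : K) = F.incl e := by
      rw [← F.toLoc_algebraMap, ← F.toLoc_algebraMap]; exact this
    rw [mul_comm]; exact h'

include F in
/-- Two points with the same projections are equal. -/
theorem point_unique {y' : Ideal A₂} [y'.IsMaximal] (F' : T.Frame y' x x' X)
    (H : ∀ c : A₂, ∃ e s : T.near K x x' X, s ∉ T.nearIdeal K x x' X ∧
      (s : K) * algebraMap A₂ K c = e) : y = y' := by
  have key : ∀ {z : Ideal A₂} [z.IsMaximal] (G : T.Frame z x x' X) (c : A₂) (e s : T.near K x x' X),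
      s ∉ T.nearIdeal K x x' X → (s : K) * algebraMap A₂ K c = e →
      (c ∈ z ↔ e ∈ T.nearIdeal K x x' X) := by
    intro z _ G c e s hs hes
    rw [G.nearIdeal_eq, Ideal.mem_comap] at hs ⊢
    have : G.incl e = G.incl s * algebraMap A₂ (loc K z) c := Subtype.ext hes.symm
    rw [this, Ideal.unit_mul_mem_iff_mem _ (IsLocalRing.notMem_maximalIdeal.1 hs),
      IsLocalization.AtPrime.to_map_mem_maximal_iff (loc K z) z]
  refine Ideal.ext fun c => ?_
  obtain ⟨e, s, hs, hes⟩ := H c
  rw [key F c e s hs hes, key F' c e s hs hes]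

end Frame

end Twin

end FLTAgent.BadQ.Two
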