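import Mathlib
import Fermat.Agent.BadQ.TwoDefs

/-!
# General commutative algebra for the local structure of level `q²M`

`leibniz_mem_span` spans the values of a twisted derivation near a point, `ufd_of_two_generated`
gives unique factorisation in a local ring with two generators, `surjective_of_birational` is
triviality of birational integral extensions of integrally closed domains, and
`exists_smul_mem_range` tests membership in a localisation on locally principal primes below it.
-/

set_option autoImplicit false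

namespace FLTAgent.BadQ.Two

open IsLocalRing Ideal

section Leibniz

/-- If `x` is generated by `G` modulo `x²` and the residue field is the image of `W`, then the
values of a twisted derivation are generated by its values on `G`, near `x`. -/
theorem leibniz_mem_span {W R S M : Type*} [CommRing W] [CommRing R] [CommRing S] [IsLocalRing S]
    [Algebra W R] [Algebra.FiniteType W R] [Algebra W S] [AddCommGroup M] [Module S M]
    [Module W M] [IsScalarTower W S M]
    (f g : R →ₐ[W] S) (δ : R →ₗ[W] M) (hδ : ∀ a b, δ (a * b) = f b • δ a + g a • δ b)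
    (x : Ideal R) (hf : ∀ a ∈ x, f a ∈ maximalIdeal S) (hg : ∀ a ∈ x, g a ∈ maximalIdeal S)
    (hrat : ∀ a : R, ∃ w : W, a - algebraMap W R w ∈ x)
    (G : Set R) (hGx : G ⊆ x) (hG : x ≤ Ideal.span G ⊔ x ^ 2) :
    (∀ a, δ a ∈ Submodule.span S (δ '' G)) ∧
      ∀ a ∈ x ^ 2, δ a ∈ maximalIdeal S • Submodule.span S (δ '' G) := by
  set N := Submodule.span S (Set.range δ) with hN
  set N₀ := Submodule.span S (δ '' G) with hN₀
  have h1 : δ 1 = 0 := by
    have := hδ 1 1
    simp only [mul_one, map_one, one_smul] at this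
    exact left_eq_add.mp this
  have hc : ∀ w : W, δ (algebraMap W R w) = 0 := fun w => by
    rw [Algebra.algebraMap_eq_smul_one, map_smul, h1, smul_zero]
  have hmem : ∀ a, δ a ∈ N := fun a => Submodule.subset_span ⟨a, rfl⟩
  have hfg : N.FG := by
    obtain ⟨T, hT⟩ := (Algebra.FiniteType.out : (⊤ : Subalgebra W R).FG)
    classical
    refine ⟨T.image δ, le_antisymm (Submodule.span_mono (by simp)) ?_⟩
    rw [hN, Submodule.span_le]
    rintro _ ⟨a, rfl⟩
    have ha : a ∈ Algebra.adjoin W (T : Set R) := hT ▸ Algebra.mem_top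
    induction ha using Algebra.adjoin_induction with
    | mem z hz => exact Submodule.subset_span (by simpa using ⟨z, hz, rfl⟩)
    | algebraMap w => rw [hc]; exact zero_mem _
    | add a b _ _ ha hb => rw [map_add]; exact add_mem ha hb
    | mul a b _ _ ha hb => rw [hδ]; exact add_mem (Submodule.smul_mem _ _ ha) (Submodule.smul_mem _ _ hb)
  have hsq : ∀ a ∈ x ^ 2, δ a ∈ maximalIdeal S • N := by
    intro a ha
    rw [pow_two] at ha
    refine Submodule.mul_induction_on ha (fun b hb b' hb' => ?_) (fun b b' hb hb' => ?_)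
    · rw [hδ]
      exact add_mem (Submodule.smul_mem_smul (hf _ hb') (hmem _))
        (Submodule.smul_mem_smul (hg _ hb) (hmem _))
    · rw [map_add]; exact add_mem hb hb'
  have hgen : ∀ a, δ a ∈ N₀ ⊔ maximalIdeal S • N := by
    intro a
    obtain ⟨w, hw⟩ := hrat a
    obtain ⟨b, hb, c, hc', e⟩ := Submodule.mem_sup.1 (hG hw)
    have : δ a = δ b + δ c := by
      rw [← map_add, e, map_sub, hc, sub_zero]
    rw [this]
    refine add_mem ?_ (Submodule.mem_sup_right (hsq c hc'))
    clear e this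
    induction hb using Submodule.span_induction with
    | mem z hz => exact Submodule.mem_sup_left (Submodule.subset_span ⟨z, hz, rfl⟩)
    | zero => simp
    | add _ _ _ _ h h' => rw [map_add]; exact add_mem h h'
    | smul r z hz h =>
      rw [smul_eq_mul, hδ]
      refine add_mem (Submodule.mem_sup_right (Submodule.smul_mem_smul (hf z ?_) (hmem r)))
        (Submodule.smul_mem _ _ h)
      exact (Ideal.span_le.2 hGx) hz
  have hle : N ≤ N₀ := by
    refine Submodule.le_of_le_smul_of_le_jacobson_bot hfg (jacobson_eq_maximalIdeal ⊥ bot_ne_top).ge ?_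
    exact Submodule.span_le.2 (Set.range_subset_iff.2 hgen)
  have heq : N = N₀ := le_antisymm hle (Submodule.span_mono (Set.image_subset_range _ _))
  exact ⟨fun a => hle (hmem a), fun a ha => heq ▸ hsq a ha⟩

end Leibniz

section TwoGenerated

variable {B : Type*} [CommRing B] [IsLocalRing B] [IsNoetherianRing B] [IsDomain B]
  {a b : B} (hm : maximalIdeal B = Ideal.span {a, b})
  {P : Ideal B} [hP : P.IsPrime] (hP0 : P ≠ ⊥) (hPm : P ≠ maximalIdeal B)

include hm hP0 hPm

private lemma not_pow_mem (i : ℕ) : b ^ i ∉ Ideal.span {a} := by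
  intro hi
  have hb : b ∈ (Ideal.span {a}).radical := ⟨i, hi⟩
  have hmin : maximalIdeal B ∈ (Ideal.span {a}).minimalPrimes := by
    refine ⟨⟨inferInstance, ?_⟩, fun p hp hpm => ?_⟩
    · rw [hm]; exact Ideal.span_mono (by simp)
    · rw [hm, Ideal.span_le]
      rintro _ (rfl | rfl)
      · exact hp.2 (Ideal.mem_span_singleton_self _)
      · exact (hp.1.radical_le_iff.2 hp.2) hb
  have : (Ideal.span {a}).IsPrincipal := ⟨⟨a, rfl⟩⟩
  have h1 := Ideal.height_le_one_of_isPrincipal_of_mem_minimalPrimes _ _ hmin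
  have hlt : P < maximalIdeal B := lt_of_le_of_ne (le_maximalIdeal hP.ne_top) hPm
  have h2 := Ideal.height_strict_mono_of_isPrime hlt
  have h3 : P.height < 1 := h2.trans_le h1
  rw [Order.lt_one_iff, Ideal.height_eq_zero_iff, IsDomain.minimalPrimes_eq_singleton_bot] at h3
  exact hP0 h3

private lemma exists_unit_mul_pow {x : B} (hx : x ∉ Ideal.span {a}) :
    ∃ (i : ℕ) (ε : B), IsUnit ε ∧ x - ε * b ^ i ∈ Ideal.span {a} := by
  classical
  have hne : Ideal.span {a} ≠ ⊤ := fun h => by
    have : Ideal.span {a} ≤ maximalIdeal B := by rw [hm]; exact Ideal.span_mono (by simp)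
    exact (maximalIdeal.isMaximal B).ne_top (top_le_iff.1 (h ▸ this))
  have : Nontrivial (B ⧸ Ideal.span {a}) := Ideal.Quotient.nontrivial_iff.2 hne
  have : IsLocalRing (B ⧸ Ideal.span {a}) :=
    .of_surjective' (Ideal.Quotient.mk _) Ideal.Quotient.mk_surjective
  have hbm : b ∈ maximalIdeal B := hm ▸ Ideal.subset_span (by simp)
  have hbm' : Ideal.span {Ideal.Quotient.mk (Ideal.span {a}) b} ≠ ⊤ := by
    rw [Ne, Ideal.span_singleton_eq_top]
    intro hu
    obtain ⟨c, hc⟩ := hu.exists_left_inv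
    obtain ⟨c, rfl⟩ := Ideal.Quotient.mk_surjective c
    rw [← map_mul, ← map_one (Ideal.Quotient.mk _), Ideal.Quotient.mk_eq_mk_iff_sub_mem] at hc
    have : (1 : B) ∈ maximalIdeal B := by
      have hle : Ideal.span {a} ≤ maximalIdeal B := by rw [hm]; exact Ideal.span_mono (by simp)
      have := sub_mem ((maximalIdeal B).mul_mem_left c hbm) (hle hc)
      simp at this
    exact (maximalIdeal.isMaximal B).ne_top ((Ideal.eq_top_iff_one _).2 this)
  have hx0 : Ideal.Quotient.mk (Ideal.span {a}) x ≠ 0 := by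
    rwa [Ne, Ideal.Quotient.eq_zero_iff_mem]
  have hex : ∃ n, Ideal.Quotient.mk (Ideal.span {a}) x ∉
      Ideal.span {Ideal.Quotient.mk (Ideal.span {a}) b} ^ n := by
    by_contra h
    push Not at h
    refine hx0 ?_
    rw [← Ideal.mem_bot, ← Ideal.iInf_pow_eq_bot_of_isLocalRing _ hbm', Ideal.mem_iInf]
    exact h
  have hn0 : Nat.find hex ≠ 0 := fun h => by
    have := Nat.find_spec hex
    rw [h] at this
    simp at this
  obtain ⟨i, hi⟩ := Nat.exists_eq_succ_of_ne_zero hn0
  have hmem := not_not.1 (Nat.find_min hex (show i < Nat.find hex by omega))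
  rw [Ideal.span_singleton_pow, Ideal.mem_span_singleton'] at hmem
  obtain ⟨c, hc⟩ := hmem
  obtain ⟨c, rfl⟩ := Ideal.Quotient.mk_surjective c
  rw [← map_pow, ← map_mul, eq_comm, Ideal.Quotient.mk_eq_mk_iff_sub_mem] at hc
  refine ⟨i, c, ?_, hc⟩
  by_contra hu
  have hcm : c ∈ maximalIdeal B := hu
  rw [hm, Ideal.mem_span_pair] at hcm
  obtain ⟨r, s, rfl⟩ := hcm
  apply Nat.find_spec hex
  rw [hi, Ideal.span_singleton_pow, Ideal.mem_span_singleton']
  refine ⟨Ideal.Quotient.mk _ s, ?_⟩
  rw [← map_pow, ← map_mul, eq_comm, Ideal.Quotient.mk_eq_mk_iff_sub_mem]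
  have e : x - s * b ^ (i + 1) = (x - (r * a + s * b) * b ^ i) + (r * b ^ i) * a := by ring
  rw [e]
  exact add_mem hc (Ideal.mul_mem_left _ _ (Ideal.mem_span_singleton_self a))

theorem left_ne_zero : a ≠ 0 := by
  intro ha
  subst ha
  obtain ⟨x, hxP, hx0⟩ := Submodule.exists_mem_ne_zero_of_ne_bot hP0
  obtain ⟨i, ε, hε, hx⟩ := exists_unit_mul_pow hm hP0 hPm (x := x) (by simpa using hx0)
  simp only [Ideal.span_singleton_eq_bot.2, Ideal.mem_bot, sub_eq_zero] at hx
  apply hPm
  refine le_antisymm (le_maximalIdeal hP.ne_top) ?_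
  rw [hm, Ideal.span_le]
  rintro _ (rfl | rfl)
  · exact zero_mem _
  · subst hx
    exact hP.mem_of_pow_mem i ((Ideal.unit_mul_mem_iff_mem _ hε).1 hxP)

theorem isPrime_span_left : (Ideal.span {a}).IsPrime := by
  refine ⟨fun h => ?_, fun {x y} hxy => ?_⟩
  · exact not_pow_mem hm hP0 hPm 0 (h ▸ Submodule.mem_top)
  · by_contra hcon
    push Not at hcon
    obtain ⟨i, ε, hε, hx⟩ := exists_unit_mul_pow hm hP0 hPm hcon.1
    obtain ⟨j, η, hη, hy⟩ := exists_unit_mul_pow hm hP0 hPm hcon.2
    apply not_pow_mem hm hP0 hPm (i + j)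
    refine (Ideal.unit_mul_mem_iff_mem _ (hε.mul hη)).1 ?_
    have : ε * η * b ^ (i + j) = x * y - (x - ε * b ^ i) * y - ε * b ^ i * (y - η * b ^ j) := by
      rw [pow_add]; ring
    rw [this]
    exact sub_mem (sub_mem hxy (Ideal.mul_mem_right _ _ hx)) (Ideal.mul_mem_left _ _ hy)

theorem eq_span_left {p : Ideal B} [p.IsPrime] (ha : a ∈ p) (hp : p ≠ maximalIdeal B) :
    p = Ideal.span {a} := by
  refine le_antisymm (fun x hx => ?_) ((Ideal.span_singleton_le_iff_mem _).2 ha)
  by_contra hxa
  obtain ⟨i, ε, hε, hxi⟩ := exists_unit_mul_pow hm hP0 hPm hxa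
  have hb : b ∈ p := by
    refine ‹p.IsPrime›.mem_of_pow_mem i ((Ideal.unit_mul_mem_iff_mem _ hε).1 ?_)
    have := sub_mem hx (((Ideal.span_singleton_le_iff_mem _).2 ha) hxi)
    simpa using this
  apply hp
  refine le_antisymm (le_maximalIdeal ‹p.IsPrime›.ne_top) ?_
  rw [hm, Ideal.span_le]
  rintro _ (rfl | rfl) <;> assumption

theorem ufd_of_two_generated : UniqueFactorizationMonoid B := by
  classical
  refine UniqueFactorizationMonoid.iff_exists_prime_mem_of_isPrime.mpr (fun p h₁ h₂ ↦ ?_)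
  have := h₂
  have ha0 := left_ne_zero hm hP0 hPm
  have hpa := isPrime_span_left hm hP0 hPm
  by_cases hap : a ∈ p
  · exact ⟨a, hap, (Ideal.span_singleton_prime ha0).1 hpa⟩
  have hex : ∃ i : ℕ, ∃ x ∈ p, ∃ ε, IsUnit ε ∧ x - ε * b ^ i ∈ Ideal.span {a} := by
    have : ¬ p ≤ Ideal.span {a} := by
      intro hle
      apply h₁
      refine Submodule.eq_bot_of_le_smul_of_le_jacobson_bot (maximalIdeal B) p (IsNoetherian.noetherian p) ?_
        (jacobson_eq_maximalIdeal ⊥ bot_ne_top).ge
      intro x hx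
      obtain ⟨c, hc⟩ := Ideal.mem_span_singleton'.1 (hle hx)
      have hcp : c ∈ p := (h₂.mem_or_mem (show c * a ∈ p from hc ▸ hx)).resolve_right hap
      rw [← hc, mul_comm, ← smul_eq_mul]
      exact Submodule.smul_mem_smul (hm ▸ Ideal.subset_span (by simp)) hcp
    obtain ⟨x, hx, hxa⟩ := SetLike.not_le_iff_exists.1 this
    obtain ⟨i, ε, hε, h⟩ := exists_unit_mul_pow hm hP0 hPm hxa
    exact ⟨i, x, hx, ε, hε, h⟩
  obtain ⟨z, hz, ε, hε, hzi⟩ := Nat.find_spec hex
  have key : p = Ideal.span {z} := by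
    refine le_antisymm ?_ ((Ideal.span_singleton_le_iff_mem _).2 hz)
    refine Submodule.le_of_le_smul_of_le_jacobson_bot (IsNoetherian.noetherian p)
      (jacobson_eq_maximalIdeal ⊥ bot_ne_top).ge (I := maximalIdeal B) ?_
    intro f hf
    have hsplit : ∃ r, f - r * z ∈ Ideal.span {a} := by
      by_cases hfa : f ∈ Ideal.span {a}
      · exact ⟨0, by simpa using hfa⟩
      · obtain ⟨j, η, hη, hfj⟩ := exists_unit_mul_pow hm hP0 hPm hfa
        have hij : Nat.find hex ≤ j := Nat.find_min' hex ⟨f, hf, η, hη, hfj⟩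
        obtain ⟨k, rfl⟩ := Nat.exists_eq_add_of_le hij
        obtain ⟨ε', hε'⟩ := hε.exists_left_inv
        refine ⟨η * ε' * b ^ k, ?_⟩
        have : f - η * ε' * b ^ k * z = (f - η * b ^ (Nat.find hex + k)) -
            η * ε' * b ^ k * (z - ε * b ^ Nat.find hex) := by
          rw [pow_add]; linear_combination -(η * b ^ k * b ^ Nat.find hex) * hε'
        rw [this]
        exact sub_mem hfj (Ideal.mul_mem_left _ _ hzi)
    obtain ⟨r, hr⟩ := hsplit
    obtain ⟨c, hc⟩ := Ideal.mem_span_singleton'.1 hr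
    have hcp : c ∈ p := (h₂.mem_or_mem (show c * a ∈ p from hc ▸ sub_mem hf (p.mul_mem_left r hz))
      ).resolve_right hap
    rw [show f = r * z + a • c by rw [smul_eq_mul]; linear_combination -hc]
    exact add_mem (Submodule.mem_sup_left (Ideal.mul_mem_left _ _ (Ideal.mem_span_singleton_self z)))
      (Submodule.mem_sup_right (Submodule.smul_mem_smul (hm ▸ Ideal.subset_span (by simp)) hcp))
  refine ⟨z, hz, (Ideal.span_singleton_prime ?_).1 (key ▸ h₂)⟩
  rintro rfl
  exact h₁ (key.trans (Ideal.span_singleton_eq_bot.2 rfl))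

end TwoGenerated

section Birational

/-- A birational integral extension of an integrally closed domain is trivial. -/
theorem surjective_of_birational {B S : Type*} [CommRing B] [IsDomain B] [IsIntegrallyClosed B]
    [CommRing S] [IsDomain S] (i : B →+* S) (hi : Function.Injective i) (hint : i.IsIntegral)
    (hfrac : ∀ s, ∃ b b' : B, b ≠ 0 ∧ s * i b = i b') : Function.Surjective i := by
  intro s
  obtain ⟨b, b', hb, he⟩ := hfrac s
  let K := FractionRing B
  let L := FractionRing S
  let j : K →+* L := IsFractionRing.map (K := K) (L := L) hi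
  have hj : ∀ c, j (algebraMap B K c) = algebraMap S L (i c) := fun c =>
    IsLocalization.map_eq _ c
  let z : K := algebraMap B K b' / algebraMap B K b
  have hz : j z = algebraMap S L s := by
    rw [map_div₀, hj, hj, div_eq_iff, ← map_mul, he]
    rw [Ne, IsFractionRing.to_map_eq_zero_iff, map_eq_zero_iff _ hi]
    exact hb
  obtain ⟨p, hp, hps⟩ := hint s
  have : IsIntegral B z := by
    refine ⟨p, hp, ?_⟩
    apply j.injective
    rw [map_zero, Polynomial.hom_eval₂, hz, show j.comp (algebraMap B K) = (algebraMap S L).comp i from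
      RingHom.ext hj, ← Polynomial.hom_eval₂, hps, map_zero]
  obtain ⟨c, hc⟩ := IsIntegrallyClosed.isIntegral_iff.1 this
  exact ⟨c, IsFractionRing.injective S L (by rw [← hj, hc, hz])⟩

/-- An element of the fraction field lies in the localisation at `x` if it does so at all locally
principal primes below `x`. -/
theorem exists_smul_mem_range {R K : Type*} [CommRing R] [IsDomain R] [IsNoetherianRing R]
    [IsIntegrallyClosed R] [Field K] [Algebra R K] [IsFractionRing R K] (x : Ideal R) [x.IsPrime]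
    (z : K) (h : ∀ p : Ideal R, p.IsPrime → p ≤ x → p ≠ ⊥ →
      (∃ π ∈ p, ∀ a ∈ p, ∃ s ∉ p, s * a ∈ Ideal.span {π}) →
      ∃ s ∉ p, s • z ∈ (algebraMap R K).range) :
    ∃ s ∉ x, s • z ∈ (algebraMap R K).range := by
  by_contra hcon
  let I : K → Ideal R := fun w =>
    { carrier := {a | a • w ∈ (algebraMap R K).range}
      add_mem' := fun {a b} (ha : a • w ∈ (algebraMap R K).range)
          (hb : b • w ∈ (algebraMap R K).range) => by
        change (a + b) • w ∈ (algebraMap R K).range
        rw [add_smul]; exact add_mem ha hb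
      zero_mem' := by simp
      smul_mem' := fun c a (ha : a • w ∈ (algebraMap R K).range) => by
        change (c * a) • w ∈ (algebraMap R K).range
        obtain ⟨r, hr⟩ := ha
        exact ⟨c * r, by rw [map_mul, hr, mul_smul, Algebra.smul_def c]⟩ }
  have hI : ∀ w a, a ∈ I w ↔ a • w ∈ (algebraMap R K).range := fun _ _ => Iff.rfl
  let S : Set (Ideal R) := {J | J ≤ x ∧ ∃ r : R, J = I (r • z)}
  have hS : S.Nonempty := by
    refine ⟨I ((1 : R) • z), ?_, 1, rfl⟩
    intro a ha
    by_contra hax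
    exact hcon ⟨a, hax, by simpa [hI] using ha⟩
  obtain ⟨p, ⟨hpx, r, rfl⟩, hmax⟩ :=
    set_has_maximal_iff_noetherian.mpr (inferInstanceAs (IsNoetherian R R)) S hS
  have hgrow : ∀ t, ¬ I (r • z) < I ((t * r) • z) ∨ ∃ s ∉ x, s * t ∈ I (r • z) := by
    intro t
    by_cases hle : I ((t * r) • z) ≤ x
    · exact Or.inl (hmax _ ⟨hle, t * r, rfl⟩)
    · obtain ⟨s, hs, hsx⟩ := SetLike.not_le_iff_exists.1 hle
      exact Or.inr ⟨s, hsx, by simpa [hI, mul_smul] using hs⟩
  have hmono : ∀ t, I (r • z) ≤ I ((t * r) • z) := fun t a ha => by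
    rw [hI] at ha ⊢
    obtain ⟨c, hc⟩ := ha
    exact ⟨t * c, by simp only [map_mul, hc, Algebra.smul_def]; ring⟩
  have hprime : (I (r • z)).IsPrime := by
    refine ⟨fun ht => (‹x.IsPrime›).ne_top (top_le_iff.1 (ht ▸ hpx)), fun {a b} hab => ?_⟩
    by_contra hne
    push Not at hne
    have hlt : I (r • z) < I ((a * r) • z) := lt_of_le_not_ge (hmono a) fun hle =>
      hne.2 (hle (by rw [hI] at hab ⊢; rwa [smul_smul, ← mul_assoc, mul_comm b a, mul_smul]))
    obtain ⟨t, htx, hta⟩ := (hgrow a).resolve_left (not_not.2 hlt)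
    have hlt' : I (r • z) < I ((t * r) • z) := lt_of_le_not_ge (hmono t) fun hle =>
      hne.1 (hle (by rw [hI] at hta ⊢; rwa [smul_smul, ← mul_assoc, mul_comm a t, mul_smul]))
    obtain ⟨s, hsx, hst⟩ := (hgrow t).resolve_left (not_not.2 hlt')
    exact ((‹x.IsPrime›).mem_or_mem (hpx hst)).elim hsx htx
  set p := I (r • z) with hp
  set w := r • z with hw
  have hne0 : p ≠ ⊥ := by
    obtain ⟨n, d, hd, e⟩ := IsFractionRing.div_surjective (A := R) w
    intro h0
    have : d ∈ p := by
      rw [hp, hI]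
      refine ⟨n, ?_⟩
      rw [Algebra.smul_def, ← e, mul_div_cancel₀ _ (IsFractionRing.to_map_ne_zero_of_mem_nonZeroDivisors hd)]
    rw [h0, Ideal.mem_bot] at this
    exact nonZeroDivisors.ne_zero hd this
  -- the ideal `p • w`
  have hpw : ∃ π ∈ p, ∃ s ∉ p, π • w = algebraMap R K s := by
    by_contra hno
    push Not at hno
    let M : Submodule R K := Submodule.map (Algebra.linearMap R K) p
    have hMfg : M.FG := (IsNoetherian.noetherian p).map _
    have hMne : M ≠ ⊥ := by
      intro hM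
      refine absurd hM ?_
      change Submodule.map (Algebra.linearMap R K) p ≠ ⊥
      obtain ⟨a, ha, ha0⟩ := Submodule.exists_mem_ne_zero_of_ne_bot hne0
      refine (Submodule.ne_bot_iff _).2 ⟨algebraMap R K a, ⟨a, ha, rfl⟩, ?_⟩
      exact fun h => ha0 (IsFractionRing.injective R K (by rw [h, map_zero]))
    have hint : IsIntegral R w := by
      refine isIntegral_of_smul_mem_submodule M hMne hMfg w ?_
      rintro _ ⟨a, ha, rfl⟩
      obtain ⟨c, hc⟩ := (hI w a).1 ha
      refine ⟨c, by_contra fun hcp => hno a ha c hcp hc.symm, ?_⟩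
      simp only [Algebra.linearMap_apply, smul_eq_mul, hc, Algebra.smul_def, mul_comm]
    obtain ⟨c, hc⟩ := IsIntegrallyClosed.isIntegral_iff.1 hint
    exact hprime.ne_top ((Ideal.eq_top_iff_one _).2 ((hI w 1).2 ⟨c, by rw [one_smul, hc]⟩))
  obtain ⟨π, hπ, s, hs, hsw⟩ := hpw
  have hgen : ∀ a ∈ p, ∃ s ∉ p, s * a ∈ Ideal.span {π} := by
    intro a ha
    obtain ⟨c, hc⟩ := (hI w a).1 ha
    refine ⟨s, hs, Ideal.mem_span_singleton'.2 ⟨c, IsFractionRing.injective R K ?_⟩⟩
    rw [map_mul, map_mul, hc, ← hsw]; simp only [Algebra.smul_def]; ring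
  obtain ⟨t, ht, hti⟩ := h p hprime hpx hne0 ⟨π, hπ, hgen⟩
  refine ht ((hI w t).2 ?_)
  obtain ⟨c, hc⟩ := hti
  exact ⟨r * c, by simp only [map_mul, hc, hw, Algebra.smul_def]; ring⟩

end Birational

end FLTAgent.BadQ.Two
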