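import Fermat.Agent.BadQ.TwoDefs
import Fermat.Agent.BadQ.TwoLocal

/-!
# Points and components of the special fibre at level `qM`

For `h : StepData`: the two components `kI`, `kZ`, the points `xI`, `xZ` on them over a closed
point `Q` of the fibre of level `M`, the action `fr` of Frobenius on closed points, and
uniformisers (`IsUnif`) under Frobenius.
-/

set_option autoImplicit false

namespace FLTAgent.BadQ.Two

open Ideal

/-- A uniformiser at a closed point. -/
def IsUnif {C : Type*} [CommRing C] (Q : Ideal C) (u : C) : Prop := u ∈ Q ∧ u ∉ Q ^ 2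

section Dedekind

variable {C : Type*} [CommRing C] [IsDedekindDomain C] {Q : Ideal C} [hQ : Q.IsMaximal]

theorem notMem_pow_of_mul {s b : C} (hs : s ∉ Q) (n : ℕ) (h : s * b ∈ Q ^ n) : b ∈ Q ^ n := by
  have htop : Ideal.span {s} ⊔ Q = ⊤ := by
    by_contra hne
    have := hQ.eq_of_le hne le_sup_right
    exact hs (this ▸ Submodule.mem_sup_left (mem_span_singleton_self s))
  have htop' : Ideal.span {s} ⊔ Q ^ n = ⊤ := Ideal.sup_pow_eq_top htop
  obtain ⟨y, hy, z, hz, e⟩ := Submodule.mem_sup.1 ((Ideal.eq_top_iff_one _).1 htop')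
  obtain ⟨c, rfl⟩ := Ideal.mem_span_singleton'.1 hy
  rw [show b = c * (s * b) + z * b by rw [← mul_assoc, ← add_mul, e, one_mul]]
  exact add_mem (mul_mem_left _ _ h) (mul_mem_right _ _ hz)

theorem exists_isUnif (h0 : Q ≠ ⊥) : ∃ u, IsUnif Q u := by
  have : Q ^ 2 < Q := by simpa using Ideal.pow_right_strictAnti Q h0 hQ.ne_top (show 1 < 2 by norm_num)
  obtain ⟨u, hu, hu'⟩ := SetLike.exists_of_lt this
  exact ⟨u, hu, hu'⟩

theorem IsUnif.loc {u : C} (hu : IsUnif Q u) {b : C} (hb : b ∈ Q) :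
    ∃ s ∉ Q, s * b ∈ Ideal.span {u} := by
  obtain ⟨I, hI⟩ := Ideal.dvd_iff_le.2 ((span_singleton_le_iff_mem (I := Q)).2 hu.1)
  have hIQ : ¬ I ≤ Q := fun hle => hu.2 (by
    rw [pow_two]
    exact Ideal.mul_mono_right hle (hI ▸ mem_span_singleton_self u))
  obtain ⟨s, hsI, hs⟩ := SetLike.not_le_iff_exists.1 hIQ
  exact ⟨s, hs, by rw [hI, mul_comm Q I]; exact mul_mem_mul hsI hb⟩

theorem IsUnif.le_sup {u : C} (hu : IsUnif Q u) : Q ≤ Ideal.span {u} ⊔ Q ^ 2 := by
  intro b hb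
  obtain ⟨s, hs, hsb⟩ := hu.loc hb
  have htop : Ideal.span {s} ⊔ Q = ⊤ := by
    by_contra hne
    have := hQ.eq_of_le hne le_sup_right
    exact hs (this ▸ Submodule.mem_sup_left (mem_span_singleton_self s))
  obtain ⟨y, hy, z, hz, e⟩ := Submodule.mem_sup.1 ((Ideal.eq_top_iff_one _).1 htop)
  obtain ⟨c, rfl⟩ := Ideal.mem_span_singleton'.1 hy
  rw [show b = c * (s * b) + z * b by rw [← mul_assoc, ← add_mul, e, one_mul]]
  exact add_mem (Submodule.mem_sup_left (mul_mem_left _ _ hsb))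
    (Submodule.mem_sup_right (pow_two Q ▸ mul_mem_mul hz hb))

theorem IsUnif.ne_zero {u : C} (hu : IsUnif Q u) : u ≠ 0 := fun h => hu.2 (h ▸ zero_mem _)

theorem IsUnif.pow_notMem_succ {u : C} (hu : IsUnif Q u) (h0 : Q ≠ ⊥) (n : ℕ) :
    u ^ n ∉ Q ^ (n + 1) := by
  intro h
  obtain ⟨I, hI⟩ := Ideal.dvd_iff_le.2 ((span_singleton_le_iff_mem (I := Q)).2 hu.1)
  have := Ideal.dvd_iff_le.2 ((span_singleton_le_iff_mem _).2 h)
  rw [← Ideal.span_singleton_pow, hI, mul_pow, pow_succ,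
    mul_dvd_mul_iff_left (pow_ne_zero n h0)] at this
  have hle : I ≤ Q := hQ.isPrime.le_of_pow_le (Ideal.dvd_iff_le.1 this)
  exact hu.2 (by
    rw [pow_two]
    exact Ideal.mul_mono_right hle (hI ▸ mem_span_singleton_self u))

theorem IsUnif.pow_notMem {u : C} (hu : IsUnif Q u) {n : ℕ} (hn : n ≠ 0) :
    u ^ n ∉ (Q ^ 2) ^ n := by
  intro h
  have := Ideal.dvd_iff_le.2 ((span_singleton_le_iff_mem _).2 h)
  rw [← Ideal.span_singleton_pow, UniqueFactorizationMonoid.pow_dvd_pow_iff_dvd hn] at this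
  exact hu.2 (Ideal.dvd_iff_le.1 this (mem_span_singleton_self u))

theorem IsUnif.add_mem_sq {u v : C} (hu : IsUnif Q u) (hv : v ∈ Q ^ 2) : IsUnif Q (u + v) :=
  ⟨add_mem hu.1 (Ideal.pow_le_self two_ne_zero hv),
    fun h => hu.2 (by simpa using sub_mem h hv)⟩

end Dedekind

variable {q : ℕ} {W A₀ A₁ C F₁ : Type*} [CommRing W] [CommRing A₀] [CommRing A₁]
  [CommRing C] [Field F₁] [Algebra W A₀] [Algebra W A₁] [Algebra W C]
  [Algebra W F₁] [Algebra A₁ F₁] [IsDedekindDomain C]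

namespace StepData

variable (h : StepData q W A₀ A₁ C F₁)
include h

/-- kernel of the restriction to the component of `∞` -/
def kI : Ideal A₁ := RingHom.ker h.piInf

/-- kernel of the restriction to the component of `0` -/
def kZ : Ideal A₁ := RingHom.ker h.piZero

/-- the image of a closed point under Frobenius -/
def fr (Q : Ideal C) : Ideal C := Q.comap h.φ

/-- the point on the component of `∞` -/
def xI (Q : Ideal C) : Ideal A₁ := Q.comap h.piInf

/-- the point on the component of `0` -/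
def xZ (Q : Ideal C) : Ideal A₁ := Q.comap h.piZero

/-- the point of level `M` -/
def mA (Q : Ideal C) : Ideal A₀ := Q.comap h.red

theorem piZero_apply (a : A₁) : h.piZero a = h.piInf (h.ι a) := rfl

theorem piZero_β (a : A₀) : h.piZero (h.β a) = h.red a := by
  rw [piZero_apply, h.ι_β, h.piInf_α]

theorem piZero_α (a : A₀) : h.piZero (h.α a) = h.φ (h.red a) := by
  rw [piZero_apply, h.ι_α, h.piInf_β]

theorem piInf_surjective : Function.Surjective h.piInf := fun c => by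
  obtain ⟨a, rfl⟩ := h.red_surjective c
  exact ⟨h.α a, h.piInf_α a⟩

theorem piZero_surjective : Function.Surjective h.piZero := fun c => by
  obtain ⟨a, rfl⟩ := h.red_surjective c
  exact ⟨h.β a, h.piZero_β a⟩

instance kI_prime : h.kI.IsPrime := RingHom.ker_isPrime _
instance kZ_prime : h.kZ.IsPrime := RingHom.ker_isPrime _

theorem q_mem_ker_red : h.red (q : A₀) = 0 := by
  have : (q : A₀) ∈ RingHom.ker h.red := h.ker_red ▸ mem_span_singleton_self _
  exact this

theorem q_eq_zero : (q : C) = 0 := by rw [← map_natCast h.red, h.q_mem_ker_red]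

theorem q_mem_kI : (q : A₁) ∈ h.kI := by
  change h.piInf _ = 0; rw [map_natCast, h.q_eq_zero]

theorem q_mem_kZ : (q : A₁) ∈ h.kZ := by
  change h.piZero _ = 0; rw [map_natCast, h.q_eq_zero]

theorem q_mem_xI (Q : Ideal C) : (q : A₁) ∈ h.xI Q := by
  change h.piInf _ ∈ Q; rw [map_natCast, h.q_eq_zero]; exact zero_mem _

theorem q_mem_xZ (Q : Ideal C) : (q : A₁) ∈ h.xZ Q := by
  change h.piZero _ ∈ Q; rw [map_natCast, h.q_eq_zero]; exact zero_mem _

theorem pow_q_injective {a b : C} (hab : a ^ q = b ^ q) : a = b := by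
  have := Fact.mk h.prime
  have : CharP C q := (CharP.charP_iff_prime_eq_zero h.prime).2 h.q_eq_zero
  exact frobenius_inj C q hab

theorem exists_pow_eq_φ (a : C) : ∃ b, h.φ a = b ^ q := by
  have : h.φ a ∈ Set.range fun a : C => a ^ q := h.φ_range ▸ Set.mem_range_self a
  obtain ⟨b, hb⟩ := this
  exact ⟨b, hb.symm⟩

theorem exists_φ_eq_pow (b : C) : ∃ a, h.φ a = b ^ q := by
  have : b ^ q ∈ Set.range h.φ := h.φ_range.symm ▸ ⟨b, rfl⟩
  exact this

variable {Q Q' : Ideal C} [hQ : Q.IsMaximal]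

theorem exists_sub_mem (a : C) : ∃ w : W, a - algebraMap W C w ∈ Q := by
  obtain ⟨w, hw⟩ := h.closed_point_rational Q hQ (Ideal.Quotient.mk Q a)
  exact ⟨w, Ideal.Quotient.eq.1 hw.symm⟩

include hQ in
theorem ne_bot : Q ≠ ⊥ := Ring.ne_bot_of_isMaximal_of_not_isField hQ h.not_isField

instance fr_maximal : (h.fr Q).IsMaximal := by
  refine Ideal.isMaximal_iff.2 ⟨fun h1 => hQ.ne_top ((Ideal.eq_top_iff_one _).2
    (by simpa [fr] using h1)), fun J a hle ha haJ => ?_⟩
  obtain ⟨w, hw⟩ := h.exists_sub_mem (Q := Q) (h.φ a)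
  have hmem : a - algebraMap W C w ∈ h.fr Q := by
    change h.φ _ ∈ Q
    rw [map_sub, AlgHom.commutes]; exact hw
  have hwJ : algebraMap W C w ∈ J := by simpa using sub_mem haJ (hle hmem)
  have hwQ : algebraMap W C w ∉ Q := fun hm => ha (by
    change h.φ a ∈ Q
    simpa using add_mem hw hm)
  obtain ⟨y, z, hz, e⟩ := hQ.exists_inv hwQ
  obtain ⟨w', hw'⟩ := h.exists_sub_mem (Q := Q) y
  have : algebraMap W C w' * algebraMap W C w - 1 ∈ h.fr Q := by
    change h.φ _ ∈ Q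
    rw [map_sub, map_mul, AlgHom.commutes, AlgHom.commutes, map_one]
    have := sub_mem (neg_mem hz) (mul_mem_right (algebraMap W C w) _ hw')
    convert this using 1
    linear_combination e
  simpa using sub_mem (mul_mem_left J (algebraMap W C w') hwJ) (hle this)

instance xI_maximal : (h.xI Q).IsMaximal :=
  Ideal.comap_isMaximal_of_surjective _ h.piInf_surjective

instance xZ_maximal : (h.xZ Q).IsMaximal :=
  Ideal.comap_isMaximal_of_surjective _ h.piZero_surjective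

instance mA_maximal : (h.mA Q).IsMaximal :=
  Ideal.comap_isMaximal_of_surjective _ h.red_surjective

theorem comap_α_xI : (h.xI Q).comap h.α = h.mA Q := by
  ext a; simp [xI, mA, h.piInf_α]

theorem comap_β_xI : (h.xI Q).comap h.β = h.mA (h.fr Q) := by
  ext a; simp [xI, mA, fr, h.piInf_β]

theorem comap_α_xZ : (h.xZ Q).comap h.α = h.mA (h.fr Q) := by
  ext a; simp [xZ, mA, fr, h.piZero_α]

theorem comap_β_xZ : (h.xZ Q).comap h.β = h.mA Q := by
  ext a; simp [xZ, mA, h.piZero_β]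

theorem mA_injective : Function.Injective h.mA :=
  Ideal.comap_injective_of_surjective _ h.red_surjective

theorem xI_injective : Function.Injective h.xI :=
  Ideal.comap_injective_of_surjective _ h.piInf_surjective

theorem xZ_injective : Function.Injective h.xZ :=
  Ideal.comap_injective_of_surjective _ h.piZero_surjective

theorem kI_le_xI (Q : Ideal C) : h.kI ≤ h.xI Q := fun a (ha : h.piInf a = 0) => by
  change h.piInf a ∈ Q; rw [ha]; exact zero_mem _

theorem kZ_le_xZ (Q : Ideal C) : h.kZ ≤ h.xZ Q := fun a (ha : h.piZero a = 0) => by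
  change h.piZero a ∈ Q; rw [ha]; exact zero_mem _

include hQ in
theorem kI_lt_xI : h.kI < h.xI Q := by
  refine lt_of_le_of_ne (h.kI_le_xI Q) fun e => ?_
  obtain ⟨c, hc, hc0⟩ := Submodule.exists_mem_ne_zero_of_ne_bot (h.ne_bot (Q := Q))
  obtain ⟨a, rfl⟩ := h.piInf_surjective c
  exact hc0 (e.symm ▸ (show a ∈ h.xI Q from hc) : a ∈ h.kI)

theorem fr_injective {R R' : Ideal C} [hR : R.IsMaximal] [R'.IsMaximal]
    (e : h.fr R = h.fr R') : R = R' := by
  refine hR.eq_of_le (Ideal.IsMaximal.ne_top ‹_›) fun a ha => ?_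
  obtain ⟨b, hb⟩ := h.exists_φ_eq_pow a
  have : b ∈ h.fr R' := e ▸ (show h.φ b ∈ R from hb ▸ pow_mem_of_mem _ ha _ h.prime.pos)
  exact Ideal.IsPrime.mem_of_pow_mem inferInstance q (hb ▸ this)

/-- `φ v = aᵠ` relates uniformisers. -/
theorem isUnif_of_φ_eq {a v : C} (ha : IsUnif Q a) (e : h.φ v = a ^ q) : IsUnif (h.fr Q) v := by
  refine ⟨show h.φ v ∈ Q from e ▸ pow_mem_of_mem _ ha.1 _ h.prime.pos, fun hv => ?_⟩
  have hmap : (h.fr Q).map h.φ ≤ Q ^ q := Ideal.map_le_iff_le_comap.2 fun b (hb : h.φ b ∈ Q) => by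
    obtain ⟨c, hc⟩ := h.exists_pow_eq_φ b
    change h.φ b ∈ Q ^ q
    rw [hc] at hb ⊢
    exact Ideal.pow_mem_pow (hQ.isPrime.mem_of_pow_mem q hb) q
  have : h.φ v ∈ (Q ^ q) ^ 2 := by
    refine Ideal.pow_right_mono hmap 2 ?_
    rw [← Ideal.map_pow]
    exact Ideal.mem_map_of_mem _ hv
  rw [e, ← pow_mul, mul_comm, pow_mul] at this
  exact ha.pow_notMem h.prime.ne_zero this

theorem isUnif_of_φ_eq' {a v : C} (hv : IsUnif (h.fr Q) v) (e : h.φ v = a ^ q) : IsUnif Q a := by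
  refine ⟨hQ.isPrime.mem_of_pow_mem q (e ▸ hv.1), fun ha => ?_⟩
  obtain ⟨b, hb⟩ := exists_isUnif (h.ne_bot (Q := Q))
  obtain ⟨v₀, hv₀⟩ := h.exists_φ_eq_pow b
  obtain ⟨s, hs, hsv⟩ := hv.loc ((h.isUnif_of_φ_eq hb hv₀).1)
  obtain ⟨r, hr⟩ := Ideal.mem_span_singleton'.1 hsv
  have : h.φ s * b ^ q ∈ (Q ^ 2) ^ q := by
    rw [← hv₀, ← map_mul, ← hr, map_mul, e]
    exact mul_mem_left _ _ (Ideal.pow_mem_pow ha q)
  rw [← pow_mul] at this
  have := notMem_pow_of_mul (fun hs' => hs hs') (2 * q) (Q := Q) this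
  rw [pow_mul] at this
  exact hb.pow_notMem h.prime.ne_zero this

omit hQ in
theorem mem_or_mem_of_q_mem {P : Ideal A₁} [hP : P.IsPrime] (hq : (q : A₁) ∈ P) :
    h.kI ≤ P ∨ h.kZ ≤ P := by
  by_contra hc
  push Not at hc
  obtain ⟨a, ha, haP⟩ := SetLike.not_le_iff_exists.1 hc.1
  obtain ⟨b, hb, hbP⟩ := SetLike.not_le_iff_exists.1 hc.2
  have : (q : A₁) ∣ a * b := h.reduced _ (by rw [map_mul, show h.piInf a = 0 from ha, zero_mul])
    (by rw [map_mul, map_mul, show h.piInf (h.ι b) = 0 from hb, mul_zero])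
  obtain ⟨c, hc⟩ := this
  exact (hP.mem_or_mem (hc ▸ P.mul_mem_right c hq)).elim haP hbP

omit hQ in
theorem kI_ne_kZ : h.kI ≠ h.kZ := by
  intro e
  obtain ⟨Q, hQ⟩ := Ideal.exists_maximal C
  obtain ⟨a, ha⟩ := exists_isUnif (h.ne_bot (Q := Q))
  obtain ⟨v, hv⟩ := h.exists_φ_eq_pow a
  obtain ⟨a₀, rfl⟩ := h.red_surjective a
  obtain ⟨v₀, rfl⟩ := h.red_surjective v
  have h1 : h.β v₀ - h.α a₀ ^ q ∈ h.kI := by
    change h.piInf _ = 0
    rw [map_sub, map_pow, h.piInf_β, h.piInf_α, hv, sub_self]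
  rw [e] at h1
  have h2 : h.red v₀ = h.φ (h.red a₀) ^ q := by
    have : h.piZero (h.β v₀ - h.α a₀ ^ q) = 0 := h1
    rw [map_sub, map_pow, h.piZero_β, h.piZero_α, sub_eq_zero] at this
    exact this
  have hu := h.isUnif_of_φ_eq ha hv
  apply hu.2
  rw [h2]
  have hm : h.φ (h.red a₀) ∈ h.fr Q :=
    Ideal.IsPrime.mem_of_pow_mem inferInstance q (h2 ▸ hu.1)
  exact Ideal.pow_le_pow_right h.prime.two_le (Ideal.pow_mem_pow hm q)

end StepData

end FLTAgent.BadQ.Two
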