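import Fermat.Agent.BadQ.TwoInst
import Fermat.Agent.TwoChart.CompatTwo

/-!
# The two charts are restrictions of one datum

`exists_tie`: one involution and one reduction on functions of level `qM` restrict to the data of
both charts (at `t` and at `1/t`), in the sense of `TwoChart.Tie`. `crossing_coordBar`: crossings
lie in both charts.
-/

set_option autoImplicit false
set_option linter.unusedSectionVars false
set_option synthInstance.maxHeartbeats 400000
set_option maxHeartbeats 1000000

noncomputable section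

open ModularCurve

namespace FLTAgent.BadQ.TwoInst

local notation "Qb" => AlgebraicClosure ℚ

variable {A : ValuationSubring Qb} {q : ℕ} [Fact q.Prime] (hA : A.LiesOverPrime q) (M : ℕ)
  [NeZero M] (hqM : ¬ q ∣ M) (hM : GoodLevel M)

/-- `f (z) ↦ f (z)` from level `M` to level `qM`, over `W₀`. -/
abbrev inclW (A : ValuationSubring Qb) (q M : ℕ) [Fact q.Prime] [NeZero M] :
    Fn A M →ₐ[W0 A] Fn A (q * M) :=
  (incl (dvd_qM q M)).restrictScalars (W0 A)

/-- `f (z) ↦ f (q z)` from level `M` to level `qM`, over `W₀`. -/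
abbrev scaleW (A : ValuationSubring Qb) (q M : ℕ) [Fact q.Prime] [NeZero M] :
    Fn A M →ₐ[W0 A] Fn A (q * M) :=
  (scale q (mul_q_dvd q M)).restrictScalars (W0 A)

/-- `f (z) ↦ f (z)` from level `qM` to level `q²M`, over `W₀`. -/
abbrev inclW₂ (A : ValuationSubring Qb) (q M : ℕ) [Fact q.Prime] [NeZero M] :
    Fn A (q * M) →ₐ[W0 A] Fn A (q ^ 2 * M) :=
  (incl (dvd_qqM q M)).restrictScalars (W0 A)

/-- `f (z) ↦ f (q z)` from level `qM` to level `q²M`, over `W₀`. -/
abbrev scaleW₂ (A : ValuationSubring Qb) (q M : ℕ) [Fact q.Prime] [NeZero M] :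
    Fn A (q * M) →ₐ[W0 A] Fn A (q ^ 2 * M) :=
  (scale q (mul_q_dvd_qq q M)).restrictScalars (W0 A)

/-- One involution and one reduction restrict to the data of both charts. -/
theorem exists_tie :
    ∃ (wAL : Fn A (q * M) →+* Fn A (q * M)) (VI : Subring (Fn A (q * M)))
      (redI : VI →+* modularFunctionFieldFullC (kres A) M),
      (∀ b, TwoChart.Tie (res := redW A) (towerData M b hA hqM hM) (inclW A q M) (scaleW A q M)
        wAL (inclW₂ A q M) (scaleW₂ A q M) VI redI) ∧
      (∀ hm : inclW A q M (coord A M true) ∈ VI, redI ⟨_, hm⟩ = coordBar M hA hqM true) ∧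
      (∀ hm : scaleW A q M (coord A M true) ∈ VI,
        redI ⟨_, hm⟩ = coordBar M hA hqM true ^ q) := by
  refine ⟨wAL M hqM, VInf A q M, redInf M hA hqM, fun b => ?_, fun hm => ?_, fun hm => ?_⟩
  · exact
      { algebraMap_fibre := fun w => rfl
        alpha := fun a => stepData_α hA M hqM b hM a
        beta := fun a => stepData_β hA M hqM b hM a
        iota := fun a => stepData_iota hA M hqM b hM a
        lam := fun a => towerData_lam hA M hqM b hM a
        rho := fun a => towerData_rho hA M hqM b hM a
        piInf := fun a => ⟨chart1_le_VInf hA M hqM b hM a, stepData_piInf hA M hqM b hM a⟩ }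
  · refine Eq.trans ?_ (redInf_incl_tFn M hA hqM)
    rfl
  · refine Eq.trans ?_ (redInf_scale_tFn M hA hqM)
    rfl

/-- Crossings lie in both charts: the coordinate does not vanish there. -/
theorem crossing_coordBar (b : Bool) (h : coordBar M hA hqM b ∈ fibre M hA hqM b)
    (Q : Ideal (fibre M hA hqM b)) (hQ : Q.IsMaximal)
    (hc : (stepData M b hA hqM hM).Crossing Q) :
    (⟨coordBar M hA hqM b, h⟩ : fibre M hA hqM b) ∉ Q := by
  exact crossing_coordBar_notMem hA M hqM b hM Q hQ hc _ rfl

end FLTAgent.BadQ.TwoInst
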