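import Fermat.Agent.BadQ.TwoRegular

/-!
# Primes containing `q` at level `q²M`

There are three types of non-maximal ones (`prime_cases`), each realised by exactly one prime
(`exists_prime_zero`, `prime_zero_unique`, `prime_one_unique`). Every closed point is rational
with maximal ideal generated by two elements (`point_data`), and its local ring has unique
factorisation (`ufd_loc`).
-/

set_option autoImplicit false

namespace FLTAgent.BadQ.Two

open Ideal IsLocalRing

section General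

/-- A prime above the kernel of a surjection onto a Dedekind domain is the kernel or maximal. -/
theorem eq_ker_of_le {R C E : Type*} [CommRing R] [CommRing C] [IsDedekindDomain C] [FunLike E R C]
    [RingHomClass E R C] {π : E} (hπ : Function.Surjective π) {P : Ideal R} [hP : P.IsPrime]
    (hle : RingHom.ker π ≤ P) (hmax : ¬ P.IsMaximal) : P = RingHom.ker π := by
  refine le_antisymm (fun a ha => ?_) hle
  by_contra hna
  have := Ideal.map_isPrime_of_surjective hπ hle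
  have hne : P.map π ≠ ⊥ := fun e => hna ((RingHom.mem_ker).2 (Ideal.mem_bot.1 (e ▸ Ideal.mem_map_of_mem π ha)))
  have := Ideal.IsPrime.isMaximal (inferInstance : (P.map π).IsPrime) hne
  refine hmax ?_
  have hcm : (P.map π).comap π = P := by
    rw [Ideal.comap_map_of_surjective' _ hπ]
    exact sup_eq_left.2 hle
  rw [← hcm]
  exact Ideal.comap_isMaximal_of_surjective π hπ

variable {R : Type*} [CommRing R] [IsDomain R] {K : Type*} [Field K] [Algebra R K] [IsFractionRing R K]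
  {y : Ideal R} [y.IsPrime]

/-- The two models of the local ring. -/
noncomputable def locEquiv : loc K y ≃ₐ[R] Localization.AtPrime y :=
  IsLocalization.algEquiv y.primeCompl _ _

theorem generatesAt_of_loc {I : Ideal R} {s : Set R}
    (e : I.map (algebraMap R (loc K y)) = Ideal.span (algebraMap R (loc K y) '' s)) :
    GeneratesAt I s y := by
  rw [← Ideal.map_span] at e
  have := congrArg (Ideal.map (locEquiv : loc K y ≃ₐ[R] _).toAlgHom.toRingHom) e
  rw [Ideal.map_map, Ideal.map_map, AlgHom.toRingHom_eq_coe, AlgHom.comp_algebraMap] at this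
  exact this

theorem associatedAt_of_loc {a b : R}
    (e : Associated (algebraMap R (loc K y) a) (algebraMap R (loc K y) b)) : AssociatedAt a b y := by
  have := e.map (locEquiv : loc K y ≃ₐ[R] Localization.AtPrime y).toAlgHom
  simpa [AssociatedAt] using this

theorem mem_map_loc_iff {P : Ideal R} [P.IsPrime] (hP : P ≤ y) {z : R} :
    algebraMap R (loc K y) z ∈ P.map (algebraMap R (loc K y)) ↔ z ∈ P := by
  refine ⟨fun hz => ?_, Ideal.mem_map_of_mem _⟩
  exact (IsLocalization.under_map_of_isPrime_disjoint y.primeCompl (loc K y) (I := P) inferInstance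
    (Set.disjoint_left.2 fun a ha haP => ha (hP haP))).le hz

theorem map_loc_isPrime {P : Ideal R} [hp : P.IsPrime] (hP : P ≤ y) :
    (P.map (algebraMap R (loc K y))).IsPrime :=
  IsLocalization.isPrime_of_isPrime_disjoint y.primeCompl (loc K y) P hp
    (Set.disjoint_left.2 fun _ ha haP => ha (hP haP))

theorem map_loc_ne_maximal {P : Ideal R} [hp : P.IsPrime] (hP : P < y) :
    P.map (algebraMap R (loc K y)) ≠ maximalIdeal (loc K y) := by
  obtain ⟨z, hz, hzP⟩ := SetLike.exists_of_lt hP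
  exact fun e => hzP ((mem_map_loc_iff hP.le).1
    (e.symm ▸ (IsLocalization.AtPrime.to_map_mem_maximal_iff (loc K y) y z).2 hz))

theorem map_loc_eq_span [IsNoetherianRing R] {a b : loc K y}
    (hm : maximalIdeal (loc K y) = Ideal.span {a, b}) {P : Ideal R} [hp : P.IsPrime] (hP : P < y)
    (h0 : P ≠ ⊥) (ha : a ∈ P.map (algebraMap R (loc K y))) :
    P.map (algebraMap R (loc K y)) = Ideal.span {a} := by
  have : IsNoetherianRing (loc K y) := IsLocalization.isNoetherianRing y.primeCompl _ inferInstance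
  have := map_loc_isPrime (K := K) hP.le
  refine eq_span_left hm (P := P.map (algebraMap R (loc K y))) ?_ (map_loc_ne_maximal hP) ha
    (map_loc_ne_maximal hP)
  obtain ⟨z, hz, hz0⟩ := Submodule.exists_mem_ne_zero_of_ne_bot h0
  intro e
  refine hz0 (IsFractionRing.injective R K ?_)
  have h1 : algebraMap R (loc K y) z = 0 :=
    Ideal.mem_bot.1 (e ▸ Ideal.mem_map_of_mem (algebraMap R (loc K y)) hz)
  rw [map_zero]
  exact (congrArg (fun w : loc K y => (w : K)) h1 :)

end General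

variable {q : ℕ} {W A₀ A₁ A₂ C F₁ : Type*} [CommRing W] [CommRing A₀] [CommRing A₁] [CommRing A₂]
  [CommRing C] [Field F₁] [Algebra W A₀] [Algebra W A₁] [Algebra W A₂] [Algebra W C]
  [Algebra W F₁] [Algebra A₁ F₁] [IsScalarTower W A₁ F₁] [IsDedekindDomain C]
  [IsNoetherianRing W] [IsDomain A₀] [IsDomain A₁] [IsDomain A₂]
  [IsNoetherianRing A₀] [IsNoetherianRing A₁]
  [Algebra.FiniteType W A₀] [Algebra.FiniteType W A₁]
  [IsIntegrallyClosed A₁] [IsIntegrallyClosed A₂] [IsFractionRing A₁ F₁]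

namespace StepData

variable (h : StepData q W A₀ A₁ C F₁)
include h

theorem exists_noncrossing : ∃ Q : Ideal C, ∃ _ : Q.IsMaximal, ¬ h.Crossing Q ∧
    ∀ c ∈ h.cusp, ¬ c ≤ h.mA Q := by
  obtain ⟨Q, hQ, hne, hnc⟩ := h.exists_ordinary
  have := hQ
  exact ⟨Q, hQ, fun hc => hne (h.crossing_iff.1 hc).1, hnc⟩

theorem kI_not_maximal : ¬ h.kI.IsMaximal := fun hm => by
  obtain ⟨Q, hQ, -⟩ := h.exists_noncrossing
  have := hQ
  exact (h.kI_lt_xI (Q := Q)).ne (hm.eq_of_le (Ideal.IsMaximal.ne_top inferInstance) (h.kI_le_xI Q))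

theorem kZ_lt_xZ {Q : Ideal C} [Q.IsMaximal] : h.kZ < h.xZ Q := by
  refine lt_of_le_of_ne (h.kZ_le_xZ Q) fun e => ?_
  obtain ⟨c, hc, hc0⟩ := Submodule.exists_mem_ne_zero_of_ne_bot (h.ne_bot (Q := Q))
  obtain ⟨a, rfl⟩ := h.piZero_surjective c
  exact hc0 (e.symm ▸ (show a ∈ h.xZ Q from hc) : a ∈ h.kZ)

theorem kZ_not_maximal : ¬ h.kZ.IsMaximal := fun hm => by
  obtain ⟨Q, hQ, -⟩ := h.exists_noncrossing
  have := hQ
  exact (h.kZ_lt_xZ (Q := Q)).ne (hm.eq_of_le (Ideal.IsMaximal.ne_top inferInstance) (h.kZ_le_xZ Q))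

theorem eq_kI_or_kZ {P : Ideal A₁} [P.IsPrime] (hq : (q : A₁) ∈ P) (hmax : ¬ P.IsMaximal) :
    P = h.kI ∨ P = h.kZ := by
  rcases h.mem_or_mem_of_q_mem hq with hk | hk
  · exact Or.inl (eq_ker_of_le h.piInf_surjective hk hmax)
  · exact Or.inr (eq_ker_of_le h.piZero_surjective hk hmax)

theorem not_kI_le_kZ : ¬ h.kI ≤ h.kZ := fun hle =>
  h.kI_ne_kZ (eq_ker_of_le h.piInf_surjective hle h.kZ_not_maximal).symm

theorem not_kZ_le_kI : ¬ h.kZ ≤ h.kI := fun hle =>
  h.kI_ne_kZ (eq_ker_of_le h.piZero_surjective hle h.kI_not_maximal)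

theorem xI_ne_xZ {Q R : Ideal C} [Q.IsMaximal] [R.IsMaximal] (hc : ¬ h.Crossing Q) :
    h.xI Q ≠ h.xZ R := fun e => hc (h.crossing_of_kZ_le (e ▸ h.kZ_le_xZ R))

theorem xI_ne_xZ_fr {Q R : Ideal C} [Q.IsMaximal] [R.IsMaximal] (hc : ¬ h.Crossing R) :
    h.xI Q ≠ h.xZ (h.fr R) := fun e =>
  hc (h.crossing_of_fr (h.crossing_of_kI_le (e ▸ h.kI_le_xI Q)))

end StepData

namespace Twin

variable {h : StepData q W A₀ A₁ C F₁} (T : Twin h A₂)

include T in
theorem q_mem_of_comap {P : Ideal A₂} {k : Ideal A₁} (hk : P.comap T.f = k) (hq : (q : A₁) ∈ k) :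
    (q : A₂) ∈ P := by
  rw [← hk, Ideal.mem_comap, map_natCast] at hq
  exact hq

theorem maximal_of_comap_f {P : Ideal A₂} [P.IsPrime] (hm : (P.comap T.f).IsMaximal) : P.IsMaximal :=
  Ideal.isMaximal_of_isIntegral_of_isMaximal_comap' T.f.toRingHom T.f_integral P hm

theorem not_maximal_of_comap {P : Ideal A₂} (hm : ¬ (P.comap T.f).IsMaximal) : ¬ P.IsMaximal :=
  fun h' => hm (by have := h'; exact T.comap_f_maximal)

theorem comap_cases {P : Ideal A₂} [P.IsPrime] (hq : (q : A₂) ∈ P) (hmax : ¬ P.IsMaximal) :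
    P.comap T.f = h.kI ∨ P.comap T.f = h.kZ :=
  h.eq_kI_or_kZ (T.q_mem_comap hq).1 fun hm => hmax (T.maximal_of_comap_f hm)

/-- No component has type `(0, 0)`. -/
theorem not_zero_zero {P : Ideal A₂} [P.IsPrime] (hf : P.comap T.f = h.kZ)
    (hg : P.comap T.g = h.kZ) : False := by
  obtain ⟨R, hR, hc, -⟩ := h.exists_noncrossing
  have := hR
  obtain ⟨y, hy, hPy, hyf⟩ := T.exists_maximal_ge P (h.xZ R) (hf ▸ h.kZ_le_xZ R)
  have := hy
  have hgy : h.kZ ≤ y.comap T.g := hg ▸ Ideal.comap_mono hPy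
  rcases T.classify (hPy (T.q_mem_of_comap hf h.q_mem_kZ)) with ⟨Q, hQ, ef, -⟩ | ⟨Q, hQ, -, ef, -⟩ |
    ⟨Q, hQ, hcQ, -, eg⟩ <;> have := hQ
  · rw [hyf] at ef
    exact hc (h.crossing_of_kI_le (ef ▸ h.kI_le_xI Q))
  · rw [hyf] at ef
    exact hc (h.crossing_of_kI_le (ef ▸ h.kI_le_xI Q))
  · exact hcQ (h.crossing_of_kZ_le (eg ▸ hgy))

/-- The three types of components. -/
theorem prime_cases {P : Ideal A₂} [P.IsPrime] (hq : (q : A₂) ∈ P) (hmax : ¬ P.IsMaximal) :
    (P.comap T.f = h.kI ∧ P.comap T.g = h.kZ) ∨ (P.comap T.f = h.kI ∧ P.comap T.g = h.kI) ∨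
      (P.comap T.f = h.kZ ∧ P.comap T.g = h.kI) := by
  rcases T.comap_cases hq hmax with ef | ef <;> rcases T.swap.comap_cases hq hmax with eg | eg
  · exact Or.inr (Or.inl ⟨ef, eg⟩)
  · exact Or.inl ⟨ef, eg⟩
  · exact Or.inr (Or.inr ⟨ef, eg⟩)
  · exact (T.not_zero_zero ef eg).elim

/-- Existence of a component of type `(∞, 0)`. -/
theorem exists_prime_zero : ∃ P : Ideal A₂, P.IsPrime ∧ P.comap T.f = h.kI ∧ P.comap T.g = h.kZ := by
  obtain ⟨P, hP, hg⟩ := T.swap.exists_prime_over h.kZ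
  have := hP
  have hq := T.swap.q_mem_of_comap hg h.q_mem_kZ
  have hmax := T.swap.not_maximal_of_comap (P := P) (hg ▸ h.kZ_not_maximal)
  rcases T.comap_cases hq hmax with ef | ef
  · exact ⟨P, hP, ef, hg⟩
  · exact (T.not_zero_zero ef hg).elim

theorem point_zero {P : Ideal A₂} [P.IsPrime] (hf : P.comap T.f = h.kI) (hg : P.comap T.g = h.kZ)
    {Q : Ideal C} [Q.IsMaximal] (hc : ¬ h.Crossing Q) :
    ∃ y : Ideal A₂, y.IsMaximal ∧ P < y ∧ y.comap T.f = h.xI Q ∧ y.comap T.g = h.xZ (h.fr Q) := by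
  obtain ⟨y, hy, hPy, hyf⟩ := T.exists_maximal_ge P (h.xI Q) (hf ▸ h.kI_le_xI Q)
  have := hy
  have hlt : P < y := lt_of_le_of_ne hPy fun e =>
    T.not_maximal_of_comap (P := P) (hf ▸ h.kI_not_maximal) (e ▸ hy)
  refine ⟨y, hy, hlt, hyf, ?_⟩
  have hgy : h.kZ ≤ y.comap T.g := hg ▸ Ideal.comap_mono hPy
  rcases T.classify (hPy (T.q_mem_of_comap hf h.q_mem_kI)) with ⟨Q', hQ', ef, eg⟩ |
    ⟨Q', hQ', -, ef, eg⟩ | ⟨Q', hQ', hc', -, eg⟩ <;> have := hQ'
  · rw [hyf] at ef
    obtain rfl := h.xI_injective ef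
    exact (hc (h.crossing_of_kZ_le (eg ▸ hgy))).elim
  · rw [hyf] at ef
    obtain rfl := h.xI_injective ef
    exact eg
  · exact (hc' (h.crossing_of_kZ_le (eg ▸ hgy))).elim

theorem point_one {P : Ideal A₂} [P.IsPrime] (hf : P.comap T.f = h.kI) (hg : P.comap T.g = h.kI)
    {Q : Ideal C} [Q.IsMaximal] :
    ∃ y : Ideal A₂, y.IsMaximal ∧ P < y ∧ y.comap T.f = h.xI Q ∧ y.comap T.g = h.xI Q := by
  obtain ⟨y, hy, hPy, hyf⟩ := T.exists_maximal_ge P (h.xI Q) (hf ▸ h.kI_le_xI Q)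
  have := hy
  have hlt : P < y := lt_of_le_of_ne hPy fun e =>
    T.not_maximal_of_comap (P := P) (hf ▸ h.kI_not_maximal) (e ▸ hy)
  refine ⟨y, hy, hlt, hyf, ?_⟩
  have hgy : h.kI ≤ y.comap T.g := hg ▸ Ideal.comap_mono hPy
  rcases T.classify (hPy (T.q_mem_of_comap hf h.q_mem_kI)) with ⟨Q', hQ', ef, eg⟩ |
    ⟨Q', hQ', hc', -, eg⟩ | ⟨Q', hQ', hc', ef, -⟩ <;> have := hQ'
  · rw [hyf] at ef
    obtain rfl := h.xI_injective ef
    exact eg
  · exact (hc' (h.crossing_of_fr (h.crossing_of_kI_le (eg ▸ hgy)))).elim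
  · rw [hyf] at ef
    exact (h.xI_ne_xZ_fr hc' ef).elim

variable (K : Type*) [Field K] [Algebra A₂ K] [IsFractionRing A₂ K] [Algebra W K] [IsScalarTower W A₂ K]

include T in
theorem ne_bot_of_q_mem {P : Ideal A₂} (hq : (q : A₂) ∈ P) : P ≠ ⊥ := fun e =>
  T.q_ne_zero (Ideal.mem_bot.1 (e ▸ hq))

theorem δ_mem {P : Ideal A₂} [P.IsPrime] (hf : P.comap T.f = h.kI) (hg : P.comap T.g = h.kI)
    (a : A₁) {b : A₀} (hb : h.piInf a = h.φ (h.red b)) : T.f a - T.g a ∈ P := by
  have h1 : a - h.β b ∈ h.kI := by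
    change h.piInf _ = 0
    rw [map_sub, h.piInf_β, hb, sub_self]
  have hf1 : T.f (a - h.β b) ∈ P := hf.ge h1
  have hg1 : T.g (a - h.β b) ∈ P := hg.ge h1
  have := sub_mem hf1 hg1
  rw [map_sub, map_sub, T.compat, sub_sub_sub_cancel_right] at this
  exact this

theorem prime_zero_unique {P P' : Ideal A₂} [P.IsPrime] [P'.IsPrime] (hf : P.comap T.f = h.kI)
    (hg : P.comap T.g = h.kZ) (hf' : P'.comap T.f = h.kI) (hg' : P'.comap T.g = h.kZ) : P = P' := by
  have := T.isNoetherian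
  obtain ⟨Q, hQ, hc, -⟩ := h.exists_noncrossing
  have := hQ
  obtain ⟨u, hu⟩ := h.exists_lift_unif (Q := Q)
  obtain ⟨y, hy, hPy, hyf, hyg⟩ := T.point_zero hf hg hc
  obtain ⟨y', hy', hPy', hyf', hyg'⟩ := T.point_zero hf' hg' hc
  have := hy
  obtain ⟨hm, -, huniq⟩ := T.regular_C20 (FractionRing A₂) hc hyf hyg hu
  obtain rfl := huniq y' hy' hyf' hyg'
  have key : ∀ R : Ideal A₂, R.IsPrime → R < y' → (q : A₂) ∈ R →
      R.map (algebraMap A₂ (loc (FractionRing A₂) y')) = Ideal.span {(q : loc (FractionRing A₂) y')} :=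
    fun R hR hlt hq => map_loc_eq_span hm hlt (T.ne_bot_of_q_mem hq)
      (map_natCast (algebraMap A₂ (loc (FractionRing A₂) y')) q ▸ Ideal.mem_map_of_mem _ hq)
  refine Ideal.ext fun z => ?_
  rw [← mem_map_loc_iff (K := FractionRing A₂) hPy.le,
    ← mem_map_loc_iff (K := FractionRing A₂) (P := P') hPy'.le,
    key P inferInstance hPy (T.q_mem_of_comap hf h.q_mem_kI),
    key P' inferInstance hPy' (T.q_mem_of_comap hf' h.q_mem_kI)]

theorem prime_one_unique {P P' : Ideal A₂} [P.IsPrime] [P'.IsPrime] (hf : P.comap T.f = h.kI)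
    (hg : P.comap T.g = h.kI) (hf' : P'.comap T.f = h.kI) (hg' : P'.comap T.g = h.kI) : P = P' := by
  have := T.isNoetherian
  obtain ⟨Q, hQ, hc, hnc⟩ := h.exists_noncrossing
  have := hQ
  obtain ⟨u, hu⟩ := h.exists_lift_unif (Q := Q)
  obtain ⟨y, hy, hPy, hyf, hyg⟩ := T.point_one (Q := Q) hf hg
  obtain ⟨y', hy', hPy', hyf', hyg'⟩ := T.point_one (Q := Q) hf' hg'
  have := hy
  obtain ⟨hm, hq, -, huniq⟩ := T.regular_C11 (FractionRing A₂) hc hnc hyf hyg hu
  obtain rfl := huniq y' hy' hyf' hyg'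
  have key : ∀ R : Ideal A₂, R.IsPrime → R < y' → (q : A₂) ∈ R →
      R.map (algebraMap A₂ (loc (FractionRing A₂) y')) = Ideal.span
        {algebraMap A₂ (loc (FractionRing A₂) y') (T.f (h.α u) - T.g (h.α u))} := by
    intro R hR hlt hqR
    have := map_loc_isPrime (K := FractionRing A₂) hlt.le
    refine map_loc_eq_span hm hlt (T.ne_bot_of_q_mem hqR) ?_
    refine Ideal.IsPrime.mem_of_pow_mem inferInstance (q - 1) ?_
    refine Ideal.mem_of_dvd _ hq.dvd ?_
    rw [← map_natCast (algebraMap A₂ (loc (FractionRing A₂) y'))]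
    exact Ideal.mem_map_of_mem _ hqR
  refine Ideal.ext fun z => ?_
  rw [← mem_map_loc_iff (K := FractionRing A₂) hPy.le,
    ← mem_map_loc_iff (K := FractionRing A₂) (P := P') hPy'.le,
    key P inferInstance hPy (T.q_mem_of_comap hf h.q_mem_kI),
    key P' inferInstance hPy' (T.q_mem_of_comap hf' h.q_mem_kI)]

namespace Frame

variable {T} {K} {y : Ideal A₂} [y.IsMaximal] {x x' : Ideal A₁} {X : Set K}

theorem rational (F : T.Frame y x x' X)
    (H : ∀ c : A₂, ∃ e s : T.near K x x' X, s ∉ T.nearIdeal K x x' X ∧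
      (s : K) * algebraMap A₂ K c = e) (c : A₂) :
    ∃ w : W, c - algebraMap W A₂ w ∈ y := by
  obtain ⟨e, s, hs, hes⟩ := H c
  obtain ⟨we, hwe⟩ := T.exists_const e.2
  obtain ⟨ws, hws⟩ := T.exists_const s.2
  let S := loc K y
  have he' : F.incl e - algebraMap W S we ∈ maximalIdeal S := by
    have := F.nearIdeal_eq.le hwe
    rwa [Ideal.mem_comap, map_sub, AlgHom.commutes] at this
  have hs' : F.incl s - algebraMap W S ws ∈ maximalIdeal S := by
    have := F.nearIdeal_eq.le hws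
    rwa [Ideal.mem_comap, map_sub, AlgHom.commutes] at this
  have hinc : F.incl e = F.incl s * algebraMap A₂ S c := Subtype.ext hes.symm
  have h1 : algebraMap W A₂ ws * c - algebraMap W A₂ we ∈ y := by
    rw [← IsLocalization.AtPrime.to_map_mem_maximal_iff S y, map_sub, map_mul,
      ← IsScalarTower.algebraMap_apply W A₂ S, ← IsScalarTower.algebraMap_apply W A₂ S]
    have := sub_mem he' (Ideal.mul_mem_right (algebraMap A₂ S c) _ hs')
    rw [hinc] at this
    convert this using 1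
    ring
  have hws' : algebraMap W A₂ ws ∉ y := fun hm => hs (F.nearIdeal_eq.ge (by
    have := (IsLocalization.AtPrime.to_map_mem_maximal_iff S y _).2 hm
    rw [← IsScalarTower.algebraMap_apply W A₂ S] at this
    have h := add_mem hs' this
    rwa [sub_add_cancel] at h))
  have hx : x.IsMaximal := F.comap_f ▸ T.comap_f_maximal (y := y)
  have hwx : algebraMap W A₁ ws ∉ x := fun hm => hws' (by
    have := F.comap_f.ge hm
    rwa [Ideal.mem_comap, AlgHom.commutes] at this)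
  obtain ⟨b, z, hz, e1⟩ := hx.exists_inv hwx
  obtain ⟨wb, hwb⟩ := F.rat_f b
  have h2 : algebraMap W A₁ wb * algebraMap W A₁ ws - 1 ∈ x := by
    have := neg_mem (add_mem (Ideal.mul_mem_right (algebraMap W A₁ ws) _ hwb) hz)
    convert this using 1
    linear_combination e1
  have h2' : algebraMap W A₂ wb * algebraMap W A₂ ws - 1 ∈ y := by
    have := F.comap_f.ge h2
    rwa [Ideal.mem_comap, map_sub, map_mul, map_one, AlgHom.commutes, AlgHom.commutes] at this
  refine ⟨wb * we, ?_⟩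
  have := sub_mem (Ideal.mul_mem_left y (algebraMap W A₂ wb) h1) (Ideal.mul_mem_left y c h2')
  convert this using 1
  rw [map_mul]
  ring

end Frame

theorem mem_adjoin_near {x x' : Ideal A₁} {z : K} (hz : z ∈ T.near K x x' (∅ : Set K)) :
    ∃ a ∈ Algebra.adjoin W (Set.range T.f ∪ Set.range T.g), algebraMap A₂ K a = z := by
  have : T.near K x x' (∅ : Set K) ≤
      (Algebra.adjoin W (Set.range T.f ∪ Set.range T.g)).map (IsScalarTower.toAlgHom W A₂ K) := by
    refine Algebra.adjoin_le ?_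
    rintro _ ((⟨a, -, rfl⟩ | ⟨a, -, rfl⟩) | hz)
    · exact ⟨T.f a, Algebra.subset_adjoin (Or.inl ⟨a, rfl⟩), rfl⟩
    · exact ⟨T.g a, Algebra.subset_adjoin (Or.inr ⟨a, rfl⟩), rfl⟩
    · exact hz.elim
  exact this hz

theorem birational_of_frame {y : Ideal A₂} [y.IsMaximal] {x x' : Ideal A₁}
    (F : T.Frame y x x' (∅ : Set K))
    (H : ∀ c : A₂, ∃ e s : T.near K x x' (∅ : Set K), s ∉ T.nearIdeal K x x' ∅ ∧
      (s : K) * algebraMap A₂ K c = e) (c : A₂) :
    ∃ s ∈ Algebra.adjoin W (Set.range T.f ∪ Set.range T.g),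
      ∃ e ∈ Algebra.adjoin W (Set.range T.f ∪ Set.range T.g), s ∉ y ∧ s * c = e := by
  obtain ⟨e, s, hs, hes⟩ := H c
  obtain ⟨e', he', hee⟩ := T.mem_adjoin_near K e.2
  obtain ⟨s', hs', hss⟩ := T.mem_adjoin_near K s.2
  refine ⟨s', hs', e', he', fun hm => hs (F.nearIdeal_eq.ge ?_), IsFractionRing.injective A₂ K ?_⟩
  · rw [Ideal.mem_comap, show F.incl s = algebraMap A₂ (loc K y) s' from Subtype.ext hss.symm]
    exact (IsLocalization.AtPrime.to_map_mem_maximal_iff (loc K y) y s').2 hm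
  · rw [map_mul, hss, hee, hes]

include T in
/-- Every closed point with `q` is rational, and its maximal ideal has two generators. -/
theorem point_data {y : Ideal A₂} [y.IsMaximal] (hq : (q : A₂) ∈ y) :
    (∀ c : A₂, ∃ w : W, c - algebraMap W A₂ w ∈ y) ∧
      ∃ a b : loc K y, maximalIdeal (loc K y) = Ideal.span {a, b} := by
  rcases T.classify hq with ⟨Q, hQ, hf, hg⟩ | ⟨Q, hQ, hc, hf, hg⟩ | ⟨Q, hQ, hc, hf, hg⟩ <;>
    have := hQ <;> obtain ⟨u, hu⟩ := h.exists_lift_unif (Q := Q)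
  · have F : T.Frame y (h.xI Q) (h.xI Q) (∅ : Set K) :=
      frame_empty hf hg h.exists_sub_mem_xI h.exists_sub_mem_xI
    by_cases hc : h.Crossing Q
    · obtain ⟨v, hv⟩ := h.exists_partner u
      obtain ⟨b, hb⟩ := h.exists_pow_eq_φ (h.red u)
      obtain ⟨a₀, rfl⟩ := h.red_surjective b
      obtain ⟨hm, -, H, -⟩ := T.regular_crossing K hc hf hg hu hv hb
      exact ⟨F.rational H, _, _, hm⟩
    · by_cases hcu : ∀ c ∈ h.cusp, ¬ c ≤ h.mA Q
      · obtain ⟨hm, -, H, -⟩ := T.regular_C11 K hc hcu hf hg hu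
        exact ⟨F.rational H, _, _, hm⟩
      · push Not at hcu
        obtain ⟨c, hcm, hcQ⟩ := hcu
        obtain ⟨u', r, -, -, hm, H, -⟩ := T.regular_cusp K hcm hcQ hf hg
        have F' : T.Frame y (h.xI Q) (h.xI Q) ({(r : K)} : Set K) :=
          ⟨hf, hg, h.exists_sub_mem_xI, h.exists_sub_mem_xI, Set.finite_singleton _,
            fun z hz => by
              obtain rfl : z = (r : K) := hz
              exact ⟨r.2, by rw [hm]; exact subset_span (by simp)⟩⟩
        exact ⟨F'.rational H, _, _, hm⟩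
  · have F : T.Frame y (h.xI Q) (h.xZ (h.fr Q)) (∅ : Set K) :=
      frame_empty hf hg h.exists_sub_mem_xI h.exists_sub_mem_xZ
    obtain ⟨hm, H, -⟩ := T.regular_C20 K hc hf hg hu
    exact ⟨F.rational H, _, _, hm⟩
  · have F : T.swap.Frame y (h.xI Q) (h.xZ (h.fr Q)) (∅ : Set K) :=
      frame_empty (T := T.swap) hg hf h.exists_sub_mem_xI h.exists_sub_mem_xZ
    obtain ⟨hm, H, -⟩ := T.swap.regular_C20 K hc hg hf hu
    exact ⟨F.rational H, _, _, hm⟩

include T in
/-- Every closed point with `q` contains one of the components, properly. -/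
theorem exists_prime_lt_of_q_mem {y : Ideal A₂} [y.IsMaximal] (hq : (q : A₂) ∈ y) :
    ∃ P : Ideal A₂, P.IsPrime ∧ (q : A₂) ∈ P ∧ P < y := by
  have := T.comap_f_maximal (y := y)
  rcases h.mem_or_mem_of_q_mem (T.q_mem_comap hq).1 with hk | hk
  · obtain ⟨P, hP, hlt, hPk⟩ := T.exists_prime_lt (y := y) (k := h.kI)
      (lt_of_le_of_ne hk fun e => h.kI_not_maximal (e ▸ inferInstance))
    exact ⟨P, hP, T.q_mem_of_comap hPk h.q_mem_kI, hlt⟩
  · obtain ⟨P, hP, hlt, hPk⟩ := T.exists_prime_lt (y := y) (k := h.kZ)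
      (lt_of_le_of_ne hk fun e => h.kZ_not_maximal (e ▸ inferInstance))
    exact ⟨P, hP, T.q_mem_of_comap hPk h.q_mem_kZ, hlt⟩

include T in
theorem ufd_loc {y : Ideal A₂} [y.IsMaximal] (hq : (q : A₂) ∈ y) :
    UniqueFactorizationMonoid (loc K y) := by
  have := T.isNoetherian
  have : IsNoetherianRing (loc K y) := IsLocalization.isNoetherianRing y.primeCompl _ inferInstance
  obtain ⟨-, a, b, hm⟩ := T.point_data K hq
  obtain ⟨P, hP, hqP, hlt⟩ := T.exists_prime_lt_of_q_mem hq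
  have := hP
  have := map_loc_isPrime (K := K) hlt.le
  refine ufd_of_two_generated hm (P := P.map (algebraMap A₂ (loc K y))) (fun e => T.q_ne_zero ?_)
    (map_loc_ne_maximal hlt)
  apply IsFractionRing.injective A₂ K
  have h1 : algebraMap A₂ (loc K y) (q : A₂) = 0 :=
    Ideal.mem_bot.1 (e ▸ Ideal.mem_map_of_mem (algebraMap A₂ (loc K y)) hqP)
  rw [map_zero]
  exact (congrArg (fun w : loc K y => (w : K)) h1 :)

end Twin

end FLTAgent.BadQ.Two
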