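import Fermat.Agent.BadQ.TwoFrame

/-!
# Regularity of level `q²M` at the four kinds of closed points

`regular_C20` (type `(∞, 0)` off crossings), `regular_C11` (type `(∞, ∞)` off crossings and
cusps), `regular_cusp` (cusps on the diagonal component) and `regular_crossing`: in each case two
explicit generators of the maximal ideal, fed into `criterion` of `TwoFrame`.
-/

set_option autoImplicit false

namespace FLTAgent.BadQ.Two

open Ideal IsLocalRing

section Identity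

/-- `(xⁿ - yⁿ)/(x - y) = (x - y)ⁿ⁻¹ + n·(…)` for prime `n`. -/
theorem geom_sum₂_congr {R : Type*} [CommRing R] {p : ℕ} (hp : p.Prime) (a b : R) :
    ∃ S ∈ Ideal.span {a, b},
      ∑ i ∈ Finset.range p, a ^ i * b ^ (p - 1 - i) = (a - b) ^ (p - 1) + (p : R) * S := by
  have := Fact.mk hp
  let X : MvPolynomial (Fin 2) ℤ := MvPolynomial.X 0
  let Y : MvPolynomial (Fin 2) ℤ := MvPolynomial.X 1
  let D := ∑ i ∈ Finset.range p, X ^ i * Y ^ (p - 1 - i) - (X - Y) ^ (p - 1)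
  have hD : MvPolynomial.map (Int.castRingHom (ZMod p)) D = 0 := by
    simp only [D, X, Y, map_sub, map_sum, map_mul, map_pow, MvPolynomial.map_X]
    rw [sub_eq_zero]
    refine mul_right_cancel₀ (sub_ne_zero.2 fun e => ?_) (b := (MvPolynomial.X 0 - MvPolynomial.X 1)) ?_
    · exact zero_ne_one (α := Fin 2) (MvPolynomial.X_injective e)
    · rw [geom_sum₂_mul, ← pow_succ, Nat.sub_add_cancel hp.one_le, sub_pow_char]
  have hdvd : MvPolynomial.C (p : ℤ) ∣ D :=
    (MvPolynomial.C_dvd_iff_map_hom_eq_zero (Int.castRingHom (ZMod p)) (p : ℤ)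
      (fun z => by simp [ZMod.intCast_zmod_eq_zero_iff_dvd]) D).2 hD
  obtain ⟨S, hS⟩ := hdvd
  have hS0 : MvPolynomial.constantCoeff S = 0 := by
    have h0 := congrArg MvPolynomial.constantCoeff hS
    simp only [D, X, Y, map_sub, map_sum, map_mul, map_pow, MvPolynomial.constantCoeff_X,
      MvPolynomial.constantCoeff_C, sub_zero] at h0
    rw [zero_pow (Nat.sub_ne_zero_of_lt hp.one_lt)] at h0
    have hsum : ∑ i ∈ Finset.range p, (0 : ℤ) ^ i * 0 ^ (p - 1 - i) = 0 :=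
      Finset.sum_eq_zero fun i hi => by
        rcases Nat.eq_zero_or_pos i with rfl | hi'
        · rw [Nat.sub_zero, zero_pow (Nat.sub_ne_zero_of_lt hp.one_lt), mul_zero]
        · rw [zero_pow hi'.ne', zero_mul]
    rw [hsum, sub_zero] at h0
    exact (mul_eq_zero.1 h0.symm).resolve_left (by exact_mod_cast hp.ne_zero)
  refine ⟨MvPolynomial.aeval ![a, b] S, ?_, ?_⟩
  · rw [← Ideal.Quotient.eq_zero_iff_mem]
    have e : (Ideal.Quotient.mkₐ ℤ (Ideal.span {a, b})).comp (MvPolynomial.aeval ![a, b]) =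
        MvPolynomial.aeval (fun _ => (0 : R ⧸ Ideal.span {a, b})) := by
      refine MvPolynomial.algHom_ext fun i => ?_
      simp only [AlgHom.comp_apply, MvPolynomial.aeval_X, Ideal.Quotient.mkₐ_eq_mk,
        Ideal.Quotient.eq_zero_iff_mem]
      fin_cases i <;> exact Ideal.subset_span (by simp)
    have := DFunLike.congr_fun e S
    simp only [AlgHom.comp_apply, Ideal.Quotient.mkₐ_eq_mk, MvPolynomial.aeval_zero', hS0,
      map_zero] at this
    exact this
  · have := congrArg (MvPolynomial.aeval ![a, b]) hS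
    simp only [D, X, Y, map_sub, map_sum, map_mul, map_pow, MvPolynomial.aeval_X,
      map_natCast] at this
    simp only [Matrix.cons_val_zero, Matrix.cons_val_one] at this
    linear_combination this

/-- Perturbing generators of the maximal ideal modulo its square. -/
theorem span_pair_congr {R : Type*} [CommRing R] [IsLocalRing R] [IsNoetherianRing R] {a b a' b' : R}
    (hm : maximalIdeal R = Ideal.span {a, b}) (ha' : a' ∈ maximalIdeal R) (hb' : b' ∈ maximalIdeal R)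
    (ha : a ∈ Ideal.span {a', b'} ⊔ maximalIdeal R ^ 2)
    (hb : b ∈ Ideal.span {a', b'} ⊔ maximalIdeal R ^ 2) :
    maximalIdeal R = Ideal.span {a', b'} := by
  refine le_antisymm ?_ (Ideal.span_le.2 (Set.insert_subset_iff.2 ⟨ha', Set.singleton_subset_iff.2 hb'⟩))
  refine Submodule.le_of_le_smul_of_le_jacobson_bot (IsNoetherian.noetherian _)
    (jacobson_eq_maximalIdeal ⊥ bot_ne_top).ge ?_
  rw [smul_eq_mul, ← pow_two]
  conv_lhs => rw [hm]
  exact Ideal.span_le.2 (Set.insert_subset_iff.2 ⟨ha, Set.singleton_subset_iff.2 hb⟩)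

end Identity

variable {q : ℕ} {W A₀ A₁ A₂ C F₁ : Type*} [CommRing W] [CommRing A₀] [CommRing A₁] [CommRing A₂]
  [CommRing C] [Field F₁] [Algebra W A₀] [Algebra W A₁] [Algebra W A₂] [Algebra W C]
  [Algebra W F₁] [Algebra A₁ F₁] [IsScalarTower W A₁ F₁] [IsDedekindDomain C]
  [IsNoetherianRing W] [IsDomain A₀] [IsDomain A₁] [IsDomain A₂]
  [IsNoetherianRing A₀] [IsNoetherianRing A₁]
  [Algebra.FiniteType W A₀] [Algebra.FiniteType W A₁]
  [IsIntegrallyClosed A₁] [IsIntegrallyClosed A₂] [IsFractionRing A₁ F₁]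

namespace StepData

variable (h : StepData q W A₀ A₁ C F₁) {Q : Ideal C} [hQ : Q.IsMaximal]

theorem crossing_of_fr (hc : h.Crossing (h.fr Q)) : h.Crossing Q := by
  have e := h.fr_injective (h.crossing_iff.1 hc).1
  have := h.crossing_fr hc
  rwa [e] at this

/-- first order expansion at a smooth point of the component of `∞` -/
theorem exists_taylor (hc : ¬ h.Crossing Q) {u : A₀} (hu : IsUnif Q (h.red u)) (a : A₁) :
    ∃ a₀ w : W, a - algebraMap W A₁ a₀ - algebraMap W A₁ w * h.α u ∈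
      Ideal.span {(q : A₁)} ⊔ h.xI Q ^ 2 := by
  obtain ⟨a₀, ha⟩ := h.exists_sub_mem_xI (Q := Q) a
  obtain ⟨y, hy, z, hz, e⟩ := Submodule.mem_sup.1 (h.xI_le hu hc ha)
  obtain ⟨r, r', rfl⟩ := Ideal.mem_span_pair.1 hy
  obtain ⟨w, hw⟩ := h.exists_sub_mem_xI (Q := Q) r'
  refine ⟨a₀, w, ?_⟩
  rw [show a - algebraMap W A₁ a₀ - algebraMap W A₁ w * h.α u =
    r * (q : A₁) + ((r' - algebraMap W A₁ w) * h.α u + z) by linear_combination -e]
  exact add_mem (Submodule.mem_sup_left (Ideal.mul_mem_left _ _ (mem_span_singleton_self _)))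
    (Submodule.mem_sup_right (add_mem (pow_two (h.xI Q) ▸ Ideal.mul_mem_mul hw (h.α_mem_xI hu.1)) hz))

theorem exists_partner (a : A₀) : ∃ v : A₀, h.φ (h.red v) = h.red a ^ q := by
  obtain ⟨b, hb⟩ := h.exists_φ_eq_pow (h.red a)
  obtain ⟨v, rfl⟩ := h.red_surjective b
  exact ⟨v, hb⟩

theorem exists_lift_unif : ∃ u : A₀, IsUnif Q (h.red u) := by
  obtain ⟨c, hc⟩ := exists_isUnif (h.ne_bot (Q := Q))
  obtain ⟨u, rfl⟩ := h.red_surjective c
  exact ⟨u, hc⟩

end StepData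

namespace Twin

variable {h : StepData q W A₀ A₁ C F₁} {T : Twin h A₂}
  {K : Type*} [Field K] [Algebra A₂ K] [IsFractionRing A₂ K] [Algebra W K] [IsScalarTower W A₂ K]
  {y : Ideal A₂} [y.IsMaximal]

namespace Frame

variable {x : Ideal A₁} {X : Set K}

/-- On the diagonal, all differences are multiples of `f u - g u`. -/
theorem diag (F : T.Frame y x x X) [(T.nearIdeal K x x X).IsPrime] {u v : A₀}
    (hG : ({(q : A₁), h.α u, h.β v} : Set A₁) ⊆ x)
    (hle : x ≤ Ideal.span {(q : A₁), h.α u, h.β v} ⊔ x ^ 2) :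
    (∀ a, ∃ z, F.bf a - F.bg a = z * (F.bf (h.α u) - F.bg (h.α u))) ∧
      ∀ a ∈ x ^ 2, ∃ z ∈ maximalIdeal (T.NearLoc K x x X),
        F.bf a - F.bg a = z * (F.bf (h.α u) - F.bg (h.α u)) := by
  let δ := F.bf.toLinearMap - F.bg.toLinearMap
  obtain ⟨H, H2⟩ := leibniz_mem_span F.bf F.bg δ
    (fun a b => by
      simp only [δ, LinearMap.sub_apply, AlgHom.toLinearMap_apply, map_mul, smul_eq_mul]
      ring)
    x (fun a ha => F.bf_mem ha) (fun a ha => F.bg_mem ha) F.rat_f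
    {(q : A₁), h.α u, h.β v} hG hle
  have hspan : Submodule.span (T.NearLoc K x x X) (δ '' {(q : A₁), h.α u, h.β v}) ≤
      Ideal.span {F.bf (h.α u) - F.bg (h.α u)} := by
    rw [Submodule.span_le]
    rintro _ ⟨a, ha, rfl⟩
    rcases ha with rfl | rfl | rfl
    · simp only [δ, LinearMap.sub_apply, AlgHom.toLinearMap_apply, map_natCast, sub_self]
      exact zero_mem _
    · exact mem_span_singleton_self _
    · simp only [δ, LinearMap.sub_apply, AlgHom.toLinearMap_apply, F.bf_β, sub_self]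
      exact zero_mem _
  refine ⟨fun a => ?_, fun a ha => ?_⟩
  · obtain ⟨z, hz⟩ := Ideal.mem_span_singleton'.1 (hspan (H a))
    exact ⟨z, hz.symm⟩
  · have h2 := Submodule.smul_mono (le_refl (maximalIdeal _)) hspan (H2 a ha)
    rw [smul_eq_mul, mul_comm] at h2
    obtain ⟨z, hz, e⟩ := Ideal.mem_span_singleton_mul.1 h2
    exact ⟨z, hz, by rw [mul_comm]; exact e.symm⟩

end Frame

variable {Q : Ideal C} [hQ : Q.IsMaximal]

theorem frame_empty {x x' : Ideal A₁} (hf : y.comap T.f = x) (hg : y.comap T.g = x')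
    (rf : ∀ a : A₁, ∃ w : W, a - algebraMap W A₁ w ∈ x)
    (rg : ∀ a : A₁, ∃ w : W, a - algebraMap W A₁ w ∈ x') : T.Frame y x x' (∅ : Set K) :=
  ⟨hf, hg, rf, rg, Set.finite_empty, fun _ h => h.elim⟩

theorem toLocal_mem (z : A₂) (hz : z ∈ y) :
    algebraMap A₂ (loc K y) z ∈ maximalIdeal (loc K y) :=
  (IsLocalization.AtPrime.to_map_mem_maximal_iff (loc K y) y z).2 hz

variable (K)

/-- Points of type `(∞, 0)`: the component `C₂₀`. -/
theorem regular_C20 (hc : ¬ h.Crossing Q) (hf : y.comap T.f = h.xI Q)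
    (hg : y.comap T.g = h.xZ (h.fr Q)) {u : A₀} (hu : IsUnif Q (h.red u)) :
    maximalIdeal (loc K y) =
        Ideal.span {(q : loc K y), algebraMap A₂ (loc K y) (T.f (h.α u))} ∧
      (∀ c : A₂, ∃ e s : T.near K (h.xI Q) (h.xZ (h.fr Q)) (∅ : Set K),
        s ∉ T.nearIdeal K (h.xI Q) (h.xZ (h.fr Q)) ∅ ∧ (s : K) * algebraMap A₂ K c = e) ∧
      ∀ y' : Ideal A₂, ∀ _ : y'.IsMaximal, y'.comap T.f = h.xI Q →
        y'.comap T.g = h.xZ (h.fr Q) → y' = y := by
  have F : T.Frame y (h.xI Q) (h.xZ (h.fr Q)) (∅ : Set K) :=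
    frame_empty hf hg h.exists_sub_mem_xI h.exists_sub_mem_xZ
  have := F.nearIdeal_prime
  have hc' : ¬ h.Crossing (h.fr Q) := fun hh => hc (h.crossing_of_fr hh)
  obtain ⟨v, hv⟩ := h.exists_lift_unif (Q := h.fr Q)
  set B := T.NearLoc K (h.xI Q) (h.xZ (h.fr Q)) (∅ : Set K)
  have ha : (q : B) ∈ maximalIdeal B := by
    rw [← map_natCast F.bf]; exact F.bf_mem (h.q_mem_xI Q)
  have hb : F.bf (h.α u) ∈ maximalIdeal B := F.bf_mem (h.α_mem_xI hu.1)
  have hfJ : ∀ c ∈ h.xI Q, F.bf c ∈ Ideal.span {(q : B), F.bf (h.α u)} ⊔ maximalIdeal B ^ 2 := by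
    intro c hcm
    refine Frame.map_mem_of_le F.bf (h.xI_le hu hc) ?_ (fun a ha => F.bf_mem ha) hcm
    rintro _ (rfl | rfl)
    · rw [map_natCast]; exact subset_span (by simp)
    · exact subset_span (by simp)
  have hgJ : ∀ c ∈ h.xZ (h.fr Q),
      F.bg c ∈ Ideal.span {(q : B), F.bf (h.α u)} ⊔ maximalIdeal B ^ 2 := by
    intro c hcm
    have := Frame.map_mem_of_le F.bg (h.xZ_le hv hc')
      (J := Ideal.span {(q : B), F.bf (h.α u)} ⊔ maximalIdeal B ^ 2) ?_ (fun a ha => F.bg_mem ha) hcm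
    · rwa [sup_assoc, sup_idem] at this
    rintro _ (rfl | rfl)
    · rw [map_natCast]; exact Submodule.mem_sup_left (subset_span (by simp))
    · rw [← F.bf_β]; exact hfJ _ (h.β_mem_xI hv.1)
  obtain ⟨-, hm, -, H⟩ := F.criterion ha hb hfJ hgJ (fun e he => he.elim) (h.kI_lt_xI (Q := Q)) h.q_mem_kI
  refine ⟨?_, H, fun y' _ hf' hg' =>
    (F.point_unique (frame_empty hf' hg' h.exists_sub_mem_xI h.exists_sub_mem_xZ) H).symm⟩
  rw [hm, map_natCast,
    show F.toLoc (F.bf (h.α u)) = algebraMap A₂ (loc K y) (T.f (h.α u)) from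
      Subtype.ext (F.toLoc_bf _)]

/-- Points of type `(∞, ∞)` away from crossings and cusps: the component `C₁₁`. -/
theorem regular_C11 (hc : ¬ h.Crossing Q) (hnc : ∀ c ∈ h.cusp, ¬ c ≤ h.mA Q)
    (hf : y.comap T.f = h.xI Q) (hg : y.comap T.g = h.xI Q) {u : A₀} (hu : IsUnif Q (h.red u)) :
    maximalIdeal (loc K y) = Ideal.span {algebraMap A₂ (loc K y) (T.f (h.α u) - T.g (h.α u)),
        algebraMap A₂ (loc K y) (T.f (h.α u))} ∧
      Associated (q : loc K y)
        (algebraMap A₂ (loc K y) (T.f (h.α u) - T.g (h.α u)) ^ (q - 1)) ∧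
      (∀ c : A₂, ∃ e s : T.near K (h.xI Q) (h.xI Q) (∅ : Set K),
        s ∉ T.nearIdeal K (h.xI Q) (h.xI Q) ∅ ∧ (s : K) * algebraMap A₂ K c = e) ∧
      ∀ y' : Ideal A₂, ∀ _ : y'.IsMaximal, y'.comap T.f = h.xI Q →
        y'.comap T.g = h.xI Q → y' = y := by
  have F : T.Frame y (h.xI Q) (h.xI Q) (∅ : Set K) :=
    frame_empty hf hg h.exists_sub_mem_xI h.exists_sub_mem_xI
  have := F.nearIdeal_prime
  set B := T.NearLoc K (h.xI Q) (h.xI Q) (∅ : Set K)
  obtain ⟨v, hv⟩ := h.exists_partner u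
  have hvQ := h.isUnif_of_φ_eq hu hv
  have hG : ({(q : A₁), h.α u, h.β v} : Set A₁) ⊆ h.xI Q := by
    rintro _ (rfl | rfl | rfl)
    exacts [h.q_mem_xI Q, h.α_mem_xI hu.1, h.β_mem_xI hvQ.1]
  obtain ⟨D1, D2⟩ := F.diag hG ((h.xI_le hu hc).trans (sup_le_sup_right (span_mono (by
    rintro _ (rfl | rfl) <;> simp)) _))
  obtain ⟨s, k, hs, hsk, Hres⟩ := h.smooth_data hc hnc hu hv
  obtain ⟨s₀, ws, hsd⟩ := h.exists_taylor hc hu s
  obtain ⟨k₀, wk, hkd⟩ := h.exists_taylor hc hu k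
  have hcoef : ∀ a (a₀ w : W), a - algebraMap W A₁ a₀ - algebraMap W A₁ w * h.α u ∈
      Ideal.span {(q : A₁)} ⊔ h.xI Q ^ 2 → ∃ m ∈ maximalIdeal B,
        F.bf a - F.bg a = (algebraMap W B w + m) * (F.bf (h.α u) - F.bg (h.α u)) := by
    intro a a₀ w hd
    obtain ⟨y', hy, z, hz, e⟩ := Submodule.mem_sup.1 hd
    obtain ⟨r, rfl⟩ := Ideal.mem_span_singleton'.1 hy
    obtain ⟨zr, hzr⟩ := D1 r
    obtain ⟨zz, hzz, hez⟩ := D2 z hz
    refine ⟨(q : B) * zr + zz, add_mem (Ideal.mul_mem_right _ _ ?_) hzz, ?_⟩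
    · rw [← map_natCast F.bf]; exact F.bf_mem (h.q_mem_xI Q)
    · have ea : a = r * (q : A₁) + z + algebraMap W A₁ a₀ + algebraMap W A₁ w * h.α u := by
        rw [e]; ring
      rw [ea]
      simp only [map_add, map_mul, map_natCast, AlgHom.commutes]
      linear_combination hez + (q : B) * hzr
  obtain ⟨m₁, hm₁, e₁⟩ := hcoef s s₀ ws hsd
  obtain ⟨m₂, hm₂, e₂⟩ := hcoef k k₀ wk hkd
  obtain ⟨S, hS, eS⟩ := geom_sum₂_congr h.prime (F.bf (h.α u)) (F.bg (h.α u))
  have hgs := geom_sum₂_mul (F.bf (h.α u)) (F.bg (h.α u)) q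
  have hfk := congrArg F.bf hsk
  have hgk := congrArg F.bg hsk
  simp only [map_mul, map_sub, map_pow, map_natCast] at hfk hgk
  rw [← F.bf_β] at hgk
  set fu := F.bf (h.α u); set gu := F.bg (h.α u)
  set U := (algebraMap W B ws + m₁) * F.bf k - F.bf s * (algebraMap W B wk + m₂) -
    F.bf s * F.bg s * S with hU
  have hδ : fu - gu ≠ 0 := F.bf_ne_bg hu
  have key : F.bf s * F.bg s * (fu - gu) ^ (q - 1) = (q : B) * U := by
    apply mul_right_cancel₀ hδ
    linear_combination (-(F.bf s * F.bg s * (fu - gu))) * eS + (F.bf s * F.bg s) * hgs -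
      (F.bf s) * hfk + F.bf s * hgk + (F.bf s * (F.bf (h.β v) - fu ^ q)) * e₁ -
      (q : B) * F.bf s * e₂ + ((algebraMap W B ws + m₁) * (fu - gu)) * hfk
  have hSm : S ∈ maximalIdeal B := (Ideal.span_le.2 (Set.insert_subset_iff.2
    ⟨F.bf_mem (h.α_mem_xI hu.1), Set.singleton_subset_iff.2 (F.bg_mem (h.α_mem_xI hu.1))⟩)) hS
  have hUu : IsUnit U := by
    refine IsLocalRing.notMem_maximalIdeal.1 fun hUm => ?_
    have hrest : m₁ * F.bf k - F.bf s * m₂ - F.bf s * F.bg s * S ∈ maximalIdeal B :=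
      sub_mem (sub_mem (Ideal.mul_mem_right _ _ hm₁) (Ideal.mul_mem_left _ _ hm₂))
        (Ideal.mul_mem_left _ _ hSm)
    have hmain : F.bf (algebraMap W A₁ ws * k - algebraMap W A₁ wk * s) ∈ maximalIdeal B := by
      have := sub_mem hUm hrest
      simp only [hU, map_sub, map_mul, AlgHom.commutes] at this ⊢
      convert this using 1; ring
    refine Hres s₀ ws k₀ wk hsd hkd ?_
    have hneg : algebraMap W A₁ wk * s - algebraMap W A₁ ws * k =
        -(algebraMap W A₁ ws * k - algebraMap W A₁ wk * s) := by ring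
    rw [hneg, Submodule.neg_mem_iff]
    by_contra hx
    have hu' : IsUnit (F.bf (algebraMap W A₁ ws * k - algebraMap W A₁ wk * s)) := by
      refine IsLocalRing.notMem_maximalIdeal.1 fun _ => hx ?_
      have h2 := F.toLoc_mem_maximal.2 hmain
      rw [show F.toLoc (F.bf (algebraMap W A₁ ws * k - algebraMap W A₁ wk * s)) =
        algebraMap A₂ (loc K y) (T.f (algebraMap W A₁ ws * k - algebraMap W A₁ wk * s)) from
          Subtype.ext (F.toLoc_bf _),
        IsLocalization.AtPrime.to_map_mem_maximal_iff (loc K y) y] at h2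
      exact hf.le h2
    exact IsLocalRing.notMem_maximalIdeal.2 hu' hmain
  have hsu : IsUnit (F.bf s * F.bg s) := by
    have : ∀ e : A₁ →ₐ[W] B, (∀ a, a ∉ h.xI Q → IsUnit (e a)) → IsUnit (e s) := fun e he => he s hs
    have hnot : ∀ a : A₁, a ∉ h.xI Q → IsUnit (F.bf a) ∧ IsUnit (F.bg a) := by
      intro a ha
      obtain ⟨b, z, hz, e⟩ := Ideal.IsMaximal.exists_inv (inferInstance : (h.xI Q).IsMaximal) ha
      refine ⟨IsLocalRing.notMem_maximalIdeal.1 fun hm => ?_, IsLocalRing.notMem_maximalIdeal.1 fun hm => ?_⟩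
      · have := add_mem (Ideal.mul_mem_left _ (F.bf b) hm) (F.bf_mem hz)
        rw [← map_mul, ← map_add, e, map_one] at this
        exact (maximalIdeal.isMaximal B).ne_top ((Ideal.eq_top_iff_one _).2 this)
      · have := add_mem (Ideal.mul_mem_left _ (F.bg b) hm) (F.bg_mem hz)
        rw [← map_mul, ← map_add, e, map_one] at this
        exact (maximalIdeal.isMaximal B).ne_top ((Ideal.eq_top_iff_one _).2 this)
    exact (hnot s hs).1.mul (hnot s hs).2
  have hassoc : Associated (q : B) ((fu - gu) ^ (q - 1)) := by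
    refine (associated_mul_unit_right (q : B) U hUu).trans ?_
    rw [← key]
    exact associated_unit_mul_left _ _ hsu
  have hqd : (q : B) ∈ Ideal.span {fu - gu} := by
    obtain ⟨w, hw⟩ := hassoc.symm
    rw [← hw]
    exact Ideal.mul_mem_right _ _ (Ideal.pow_mem_of_mem _ (mem_span_singleton_self _) _
      (Nat.sub_pos_of_lt h.prime.one_lt))
  have ha : fu - gu ∈ maximalIdeal B :=
    sub_mem (F.bf_mem (h.α_mem_xI hu.1)) (F.bg_mem (h.α_mem_xI hu.1))
  have hfJ : ∀ c ∈ h.xI Q, F.bf c ∈ Ideal.span {fu - gu, fu} ⊔ maximalIdeal B ^ 2 := by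
    intro c hcm
    refine Frame.map_mem_of_le F.bf (h.xI_le hu hc) ?_ (fun a ha => F.bf_mem ha) hcm
    rintro _ (rfl | rfl)
    · rw [map_natCast]; exact span_mono (by simp) hqd
    · exact subset_span (by simp [fu])
  have hgJ : ∀ c ∈ h.xI Q, F.bg c ∈ Ideal.span {fu - gu, fu} ⊔ maximalIdeal B ^ 2 := by
    intro c hcm
    obtain ⟨z, hz⟩ := D1 c
    rw [show F.bg c = F.bf c - z * (fu - gu) by rw [← hz]; ring]
    exact sub_mem (hfJ c hcm) (Submodule.mem_sup_left (Ideal.mul_mem_left _ _ (subset_span (by simp))))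
  obtain ⟨-, hm, -, H⟩ := F.criterion ha (F.bf_mem (h.α_mem_xI hu.1)) hfJ hgJ (fun e he => he.elim)
    (h.kI_lt_xI (Q := Q)) h.q_mem_kI
  have e1 : F.toLoc (fu - gu) = algebraMap A₂ (loc K y) (T.f (h.α u) - T.g (h.α u)) := by
    rw [map_sub, map_sub]
    exact congrArg₂ (· - ·) (Subtype.ext (F.toLoc_bf _)) (Subtype.ext (F.toLoc_bg _))
  refine ⟨?_, ?_, H, fun y' _ hf' hg' =>
    (F.point_unique (frame_empty hf' hg' h.exists_sub_mem_xI h.exists_sub_mem_xI) H).symm⟩
  · rw [hm, e1, show F.toLoc fu = algebraMap A₂ (loc K y) (T.f (h.α u)) from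
      Subtype.ext (F.toLoc_bf _)]
  · have := hassoc.map F.toLoc
    rwa [map_pow, e1, map_natCast] at this

/-- At a cusp on the diagonal, `f u / g u` is integral and congruent to `1`. -/
theorem ratio_mem (hf : y.comap T.f = h.xI Q) (hg : y.comap T.g = h.xI Q) {u v : A₀} {s n : A₁}
    (hu : IsUnif Q (h.red u)) (hs : s ∉ h.xI Q) (hn : n ∉ h.xI Q)
    (e : s * h.α u ^ q = n * h.β v) :
    ∃ hr : T.fK K (h.α u) / T.gK K (h.α u) - 1 ∈ loc K y,
      (⟨_, hr⟩ : loc K y) ∈ maximalIdeal (loc K y) := by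
  set S := loc K y
  have hunit : ∀ (e : A₁ →ₐ[W] A₂), y.comap e = h.xI Q → ∀ a, a ∉ h.xI Q →
      IsUnit (algebraMap A₂ S (e a)) := fun e he a ha =>
    IsLocalization.map_units S (⟨e a, fun hm => ha (he.le hm)⟩ : y.primeCompl)
  have hε₂ : IsUnit (algebraMap A₂ S (T.f s * T.g n)) := by
    rw [map_mul]; exact (hunit _ hf s hs).mul (hunit _ hg n hn)
  obtain ⟨i, hi⟩ := hε₂.exists_right_inv
  let ε : S := algebraMap A₂ S (T.f n * T.g s) * i
  set r := T.fK K (h.α u) / T.gK K (h.α u) with hrdef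
  have hgu : T.gK K (h.α u) ≠ 0 := by
    rw [gK_apply, Ne, map_eq_zero_iff _ (IsFractionRing.injective A₂ K), map_eq_zero_iff _ T.g_injective]
    exact fun e0 => hu.ne_zero (by rw [← h.piInf_α, e0, map_zero])
  have hr : r ^ q = (ε : K) := by
    have ef := congrArg T.f e
    have eg := congrArg T.g e
    simp only [map_mul, map_pow, ← T.compat] at ef eg
    have key : algebraMap A₂ K (T.f (h.α u)) ^ q * algebraMap A₂ K (T.f s * T.g n) =
        algebraMap A₂ K (T.g (h.α u)) ^ q * algebraMap A₂ K (T.f n * T.g s) := by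
      rw [← map_pow (algebraMap A₂ K), ← map_pow (algebraMap A₂ K), ← map_mul, ← map_mul]
      congr 1
      linear_combination T.g n * ef - T.f n * eg
    have hi' : algebraMap A₂ K (T.f s * T.g n) * (i : K) = 1 :=
      (congrArg (fun z : S => (z : K)) hi :)
    change _ = algebraMap A₂ K (T.f n * T.g s) * (i : K)
    rw [hrdef, div_pow, div_eq_iff (pow_ne_zero _ hgu), fK_apply, gK_apply]
    linear_combination (i : K) * key - algebraMap A₂ K (T.f (h.α u)) ^ q * hi'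
  have : IsIntegrallyClosed S :=
    isIntegrallyClosed_of_isLocalization S y.primeCompl y.primeCompl_le_nonZeroDivisors
  have : IsFractionRing S K := Localization.subalgebra.isFractionRing_ofField K y.primeCompl _
  have hint : IsIntegral S r := IsIntegral.of_pow h.prime.pos (by rw [hr]; exact isIntegral_algebraMap (x := ε))
  obtain ⟨rS, hrS⟩ := IsIntegrallyClosed.isIntegral_iff.1 hint
  have hrS' : (rS : K) = r := hrS
  refine ⟨sub_mem (hrS' ▸ rS.2) (one_mem _), ?_⟩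
  rw [show (⟨r - 1, _⟩ : S) = rS - 1 from Subtype.ext (by simp [hrS'])]
  rw [← residue_eq_zero_iff, map_sub, map_one]
  have hrq : residue S rS ^ q = 1 := by
    rw [← map_pow, show rS ^ q = ε from Subtype.ext (by rw [SubmonoidClass.coe_pow, hrS', hr]),
      map_mul]
    have : residue S (algebraMap A₂ S (T.f n * T.g s)) = residue S (algebraMap A₂ S (T.f s * T.g n)) := by
      rw [← sub_eq_zero, ← map_sub, residue_eq_zero_iff, ← map_sub,
        IsLocalization.AtPrime.to_map_mem_maximal_iff S y]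
      obtain ⟨wn, hwn⟩ := h.exists_sub_mem_xI (Q := Q) n
      obtain ⟨wsc, hws⟩ := h.exists_sub_mem_xI (Q := Q) s
      have hmem : ∀ (e : A₁ →ₐ[W] A₂), y.comap e = h.xI Q → ∀ a, a ∈ h.xI Q → e a ∈ y :=
        fun e he a ha => he.ge ha
      have h1 := hmem _ hf _ hwn
      have h2 := hmem _ hg _ hwn
      have h3 := hmem _ hf _ hws
      have h4 := hmem _ hg _ hws
      simp only [map_sub, AlgHom.commutes] at h1 h2 h3 h4
      rw [show T.f n * T.g s - T.f s * T.g n = (T.f n - algebraMap W A₂ wn) * T.g s +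
        algebraMap W A₂ wn * (T.g s - algebraMap W A₂ wsc) - ((T.f s - algebraMap W A₂ wsc) * T.g n +
        algebraMap W A₂ wsc * (T.g n - algebraMap W A₂ wn)) by ring]
      exact sub_mem (add_mem (Ideal.mul_mem_right _ _ h1) (Ideal.mul_mem_left _ _ h4))
        (add_mem (Ideal.mul_mem_right _ _ h3) (Ideal.mul_mem_left _ _ h2))
    rw [this, ← map_mul, hi, map_one]
  have : CharP (ResidueField S) q := (CharP.charP_iff_prime_eq_zero h.prime).2 (by
    rw [← map_natCast (residue S), residue_eq_zero_iff, ← map_natCast (algebraMap A₂ S),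
      IsLocalization.AtPrime.to_map_mem_maximal_iff S y]
    have : T.f (q : A₁) ∈ y := hf.ge (h.q_mem_xI Q)
    simpa using this)
  have := Fact.mk h.prime
  exact pow_eq_zero_iff h.prime.ne_zero |>.1 (by rw [sub_pow_char, hrq, one_pow, sub_self])

/-- Cusps on `C₁₁`: generators `g u`, `f u/g u - 1`. -/
theorem regular_cusp {c : Ideal A₀} (hc : c ∈ h.cusp) (hcQ : c ≤ h.mA Q)
    (hf : y.comap T.f = h.xI Q) (hg : y.comap T.g = h.xI Q) :
    ∃ (u : A₀) (r : loc K y), IsUnif Q (h.red u) ∧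
      algebraMap A₂ (loc K y) (T.f (h.α u) - T.g (h.α u)) =
        algebraMap A₂ (loc K y) (T.g (h.α u)) * r ∧
      maximalIdeal (loc K y) = Ideal.span {r, algebraMap A₂ (loc K y) (T.g (h.α u))} ∧
      (∀ c : A₂, ∃ e s : T.near K (h.xI Q) (h.xI Q) ({(r : K)} : Set K),
        s ∉ T.nearIdeal K (h.xI Q) (h.xI Q) {(r : K)} ∧ (s : K) * algebraMap A₂ K c = e) ∧
      ∀ y' : Ideal A₂, ∀ _ : y'.IsMaximal, y'.comap T.f = h.xI Q →
        y'.comap T.g = h.xI Q → y' = y := by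
  obtain ⟨c', hc', hc'Q, u, v, hu, hv, -, -, s, n, hs, hn, e⟩ := h.cusp_relation hc hcQ
  obtain ⟨hr, hrm⟩ := T.ratio_mem K hf hg hu hs hn e
  set ρ := T.fK K (h.α u) / T.gK K (h.α u) - 1 with hρ
  have F : T.Frame y (h.xI Q) (h.xI Q) ({ρ} : Set K) :=
    ⟨hf, hg, h.exists_sub_mem_xI, h.exists_sub_mem_xI, Set.finite_singleton _,
      fun z hz => by obtain rfl : z = ρ := hz; exact ⟨hr, hrm⟩⟩
  have := F.nearIdeal_prime
  set B := T.NearLoc K (h.xI Q) (h.xI Q) ({ρ} : Set K)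
  have hgu0 : T.gK K (h.α u) ≠ 0 := by
    rw [gK_apply, Ne, map_eq_zero_iff _ (IsFractionRing.injective A₂ K), map_eq_zero_iff _ T.g_injective]
    exact fun e0 => hu.ne_zero (by rw [← h.piInf_α, e0, map_zero])
  let eρ : T.near K (h.xI Q) (h.xI Q) ({ρ} : Set K) :=
    ⟨ρ, Algebra.subset_adjoin (Or.inr rfl)⟩
  set R : B := algebraMap _ B eρ with hR
  have hRK : (F.toLoc R : K) = ρ := congrArg Subtype.val (F.toLoc_algebraMap eρ)
  have hRm : R ∈ maximalIdeal B := F.toLoc_mem_maximal.1 (by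
    rwa [show F.toLoc R = ⟨ρ, hr⟩ from Subtype.ext hRK])
  have hδR : F.bf (h.α u) - F.bg (h.α u) = F.bg (h.α u) * R := F.ext_toLoc (by
    rw [map_sub, map_mul, AddSubgroupClass.coe_sub, MulMemClass.coe_mul, F.toLoc_bf, F.toLoc_bg, hRK,
      hρ, mul_sub, mul_div_cancel₀ _ hgu0, mul_one])
  have hc0 := h.not_crossing_of_cusp hc hcQ
  have hG : ({(q : A₁), h.α u, h.β v} : Set A₁) ⊆ h.xI Q := by
    rintro _ (rfl | rfl | rfl)
    exacts [h.q_mem_xI Q, h.α_mem_xI hu.1, h.β_mem_xI hv.1]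
  obtain ⟨D1, -⟩ := F.diag hG ((h.xI_le hu hc0).trans (sup_le_sup_right (span_mono (by
    rintro _ (rfl | rfl) <;> simp)) _))
  obtain ⟨zn, hzn⟩ := D1 n
  obtain ⟨zs, hzs⟩ := D1 s
  have ef := congrArg F.bf e
  have eg := congrArg F.bg e
  simp only [map_mul, map_pow] at ef eg
  rw [← F.bf_β] at eg
  set fu := F.bf (h.α u); set gu := F.bg (h.α u)
  have hnot : ∀ a : A₁, a ∉ h.xI Q → IsUnit (F.bf a) ∧ IsUnit (F.bg a) := by
    intro a ha
    obtain ⟨b, z, hz, e⟩ := Ideal.IsMaximal.exists_inv (inferInstance : (h.xI Q).IsMaximal) ha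
    refine ⟨IsLocalRing.notMem_maximalIdeal.1 fun hm => ?_, IsLocalRing.notMem_maximalIdeal.1 fun hm => ?_⟩
    · have := add_mem (Ideal.mul_mem_left _ (F.bf b) hm) (F.bf_mem hz)
      rw [← map_mul, ← map_add, e, map_one] at this
      exact (maximalIdeal.isMaximal B).ne_top ((Ideal.eq_top_iff_one _).2 this)
    · have := add_mem (Ideal.mul_mem_left _ (F.bg b) hm) (F.bg_mem hz)
      rw [← map_mul, ← map_add, e, map_one] at this
      exact (maximalIdeal.isMaximal B).ne_top ((Ideal.eq_top_iff_one _).2 this)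
  have hgu : gu ≠ 0 := fun e0 => hgu0 (by
    rw [← F.toLoc_bg, show F.bg (h.α u) = 0 from e0, map_zero, ZeroMemClass.coe_zero])
  have hR0 : R ≠ 0 := fun e0 => F.bf_ne_bg hu (by rw [hδR, e0, mul_zero])
  have hgeom := geom_sum_mul (R + 1) q
  obtain ⟨t, ht⟩ : R ∣ (∑ i ∈ Finset.range q, (R + 1) ^ i) - (q : B) := by
    rw [show (q : B) = ∑ _i ∈ Finset.range q, (1 : B) by simp, ← Finset.sum_sub_distrib]
    refine Finset.dvd_sum fun i _ => ?_
    simpa using sub_dvd_pow_sub_pow (R + 1) 1 i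
  have key : F.bf s * F.bg n * (∑ i ∈ Finset.range q, (R + 1) ^ i) =
      gu * (zn * F.bg s - F.bg n * zs) := by
    apply mul_right_cancel₀ hR0
    apply mul_left_cancel₀ (pow_ne_zero q hgu)
    have hpow : fu ^ q = gu ^ q * (R + 1) ^ q := by
      rw [← mul_pow, mul_add, mul_one, ← hδR, sub_add_cancel]
    rw [add_sub_cancel_right] at hgeom
    linear_combination (F.bf s * F.bg n * gu ^ q) * hgeom - (F.bf s * F.bg n) * hpow +
      F.bg n * ef - F.bf n * eg + (F.bg s * gu ^ q) * hzn - (F.bg n * gu ^ q) * hzs +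
      ((zn * F.bg s - F.bg n * zs) * gu ^ q) * hδR
  have hq : (q : B) ∈ Ideal.span {R, gu} := by
    refine (Ideal.unit_mul_mem_iff_mem _ ((hnot s hs).1.mul (hnot n hn).2)).1 ?_
    rw [show F.bf s * F.bg n * (q : B) =
      gu * (zn * F.bg s - F.bg n * zs) - R * (F.bf s * F.bg n * t) by
        linear_combination key - (F.bf s * F.bg n) * ht]
    exact sub_mem (Ideal.mul_mem_right _ _ (subset_span (by simp)))
      (Ideal.mul_mem_right _ _ (subset_span (by simp)))
  have hfu : fu ∈ Ideal.span {R, gu} := by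
    rw [show fu = gu * R + gu by rw [← hδR, sub_add_cancel]]
    exact add_mem (Ideal.mul_mem_left _ _ (subset_span (by simp))) (subset_span (by simp))
  have hfJ : ∀ c ∈ h.xI Q, F.bf c ∈ Ideal.span {R, gu} ⊔ maximalIdeal B ^ 2 := by
    intro c hcm
    refine Frame.map_mem_of_le F.bf (h.xI_le hu hc0) ?_ (fun a ha => F.bf_mem ha) hcm
    rintro _ (rfl | rfl)
    · rw [map_natCast]; exact hq
    · exact hfu
  have hgJ : ∀ c ∈ h.xI Q, F.bg c ∈ Ideal.span {R, gu} ⊔ maximalIdeal B ^ 2 := by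
    intro c hcm
    refine Frame.map_mem_of_le F.bg (h.xI_le hu hc0) ?_ (fun a ha => F.bg_mem ha) hcm
    rintro _ (rfl | rfl)
    · rw [map_natCast]; exact hq
    · exact subset_span (by simp [gu])
  obtain ⟨-, hm, -, H⟩ := F.criterion hRm (F.bg_mem (h.α_mem_xI hu.1)) hfJ hgJ
    (fun e he => by
      rw [show e = eρ from Subtype.ext he]
      exact Submodule.mem_sup_left (subset_span (Or.inl rfl)))
    (h.kI_lt_xI (Q := Q)) h.q_mem_kI
  have hgL : F.toLoc gu = algebraMap A₂ (loc K y) (T.g (h.α u)) := Subtype.ext (F.toLoc_bg _)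
  refine ⟨u, ⟨ρ, hr⟩, hu, ?_, ?_, H, fun y' _ hf' hg' => ?_⟩
  · have := congrArg F.toLoc hδR
    rw [map_sub, map_mul, hgL, show F.toLoc R = ⟨ρ, hr⟩ from Subtype.ext hRK] at this
    rw [← this, map_sub]
    exact congrArg (· - _) (Subtype.ext (F.toLoc_bf _)).symm
  · rw [hm, hgL, show F.toLoc R = ⟨ρ, hr⟩ from Subtype.ext hRK]
  · obtain ⟨hr', hrm'⟩ := T.ratio_mem K hf' hg' hu hs hn e
    exact (F.point_unique ⟨hf', hg', h.exists_sub_mem_xI, h.exists_sub_mem_xI, Set.finite_singleton _,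
      fun z hz => by obtain rfl : z = ρ := hz; exact ⟨hr', hrm'⟩⟩ H).symm

/-- Crossings. -/
theorem regular_crossing (hc : h.Crossing Q) (hf : y.comap T.f = h.xI Q)
    (hg : y.comap T.g = h.xI Q) {u v a₀ : A₀} (hu : IsUnif Q (h.red u))
    (hv : h.φ (h.red v) = h.red u ^ q) (ha₀ : h.φ (h.red u) = h.red a₀ ^ q) :
    maximalIdeal (loc K y) = Ideal.span {algebraMap A₂ (loc K y) (T.f (h.α u)),
        algebraMap A₂ (loc K y) (T.g (h.α u))} ∧
      Associated (q : loc K y)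
        (algebraMap A₂ (loc K y) (T.g (h.α u - h.β a₀ ^ q)) *
          algebraMap A₂ (loc K y) (T.f (h.α u) - T.g (h.α u)) ^ (q - 1) *
          algebraMap A₂ (loc K y) (T.f (h.α u - h.β a₀ ^ q))) ∧
      (∀ c : A₂, ∃ e s : T.near K (h.xI Q) (h.xI Q) (∅ : Set K),
        s ∉ T.nearIdeal K (h.xI Q) (h.xI Q) ∅ ∧ (s : K) * algebraMap A₂ K c = e) ∧
      ∀ y' : Ideal A₂, ∀ _ : y'.IsMaximal, y'.comap T.f = h.xI Q →
        y'.comap T.g = h.xI Q → y' = y := by
  have F : T.Frame y (h.xI Q) (h.xI Q) (∅ : Set K) :=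
    frame_empty hf hg h.exists_sub_mem_xI h.exists_sub_mem_xI
  have := F.nearIdeal_prime
  set B := T.NearLoc K (h.xI Q) (h.xI Q) (∅ : Set K)
  obtain ⟨h1, h2, h3, h4, ha₀x, hle⟩ := h.crossing_data hc hu hv ha₀
  obtain ⟨c, hcx, ec⟩ := h.crossing_c hc hu hv ha₀
  have hvQ := h.isUnif_of_φ_eq hu hv
  have hG : ({(q : A₁), h.α u, h.β v} : Set A₁) ⊆ h.xI Q := by
    rintro _ (rfl | rfl | rfl)
    exacts [h.q_mem_xI Q, h.α_mem_xI hu.1, h.β_mem_xI hvQ.1]
  obtain ⟨D1, -⟩ := F.diag hG hle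
  obtain ⟨η, hη⟩ := D1 c
  obtain ⟨S, hS, eS⟩ := geom_sum₂_congr h.prime (F.bf (h.α u)) (F.bg (h.α u))
  have hgs := geom_sum₂_mul (F.bf (h.α u)) (F.bg (h.α u)) q
  have efc := congrArg F.bf ec
  have egc := congrArg F.bg ec
  simp only [map_mul, map_sub, map_pow, map_natCast, ← F.bf_β] at efc egc
  set fu := F.bf (h.α u); set gu := F.bg (h.α u)
  set b := F.bf (h.β a₀) with hb
  set Sg := ∑ i ∈ Finset.range q, fu ^ i * gu ^ (q - 1 - i)
  have hδ : fu - gu ≠ 0 := F.bf_ne_bg hu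
  have hfv : F.bf (h.β v) - fu ^ q = (gu - b ^ q) * Sg + (q : B) * η := by
    apply mul_right_cancel₀ hδ
    linear_combination efc - egc + (q : B) * hη - (gu - b ^ q) * hgs
  have hfum : fu ∈ maximalIdeal B := F.bf_mem (h.α_mem_xI hu.1)
  have hgum : gu ∈ maximalIdeal B := F.bg_mem (h.α_mem_xI hu.1)
  have hbm : b ∈ maximalIdeal B := F.bf_mem ha₀x
  have hsq : ∀ {a : B}, a ∈ maximalIdeal B → a ^ q ∈ maximalIdeal B ^ 2 := fun ha =>
    Ideal.pow_le_pow_right h.prime.two_le (Ideal.pow_mem_pow ha q)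
  have hfu' : fu - b ^ q ∈ maximalIdeal B := sub_mem hfum (Ideal.pow_le_self two_ne_zero (hsq hbm))
  have hgu' : gu - b ^ q ∈ maximalIdeal B := sub_mem hgum (Ideal.pow_le_self two_ne_zero (hsq hbm))
  have hSm : S ∈ maximalIdeal B := (Ideal.span_le.2 (Set.insert_subset_iff.2
    ⟨hfum, Set.singleton_subset_iff.2 hgum⟩)) hS
  have hfc : IsUnit (F.bf c) := by
    refine IsLocalRing.notMem_maximalIdeal.1 fun hm => hcx ?_
    have := F.toLoc_mem_maximal.2 hm
    rw [show F.toLoc (F.bf c) = algebraMap A₂ (loc K y) (T.f c) from Subtype.ext (F.toLoc_bf _),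
      IsLocalization.AtPrime.to_map_mem_maximal_iff (loc K y) y] at this
    exact hf.le this
  have hq2 : (q : B) ∈ maximalIdeal B ^ 2 := by
    refine (Ideal.mul_unit_mem_iff_mem _ hfc).1 ?_
    rw [← efc, pow_two]
    exact Ideal.mul_mem_mul hfu' (sub_mem (F.bf_mem (h.β_mem_xI hvQ.1))
      (Ideal.pow_le_self two_ne_zero (hsq hfum)))
  have hSg : Sg ∈ maximalIdeal B := by
    rw [show Sg = (fu - gu) ^ (q - 1) + (q : B) * S from eS]
    exact add_mem (Ideal.pow_mem_of_mem _ (sub_mem hfum hgum) _ (Nat.sub_pos_of_lt h.prime.one_lt))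
      (Ideal.mul_mem_left _ _ hSm)
  have hfv2 : F.bf (h.β v) ∈ maximalIdeal B ^ 2 := by
    rw [show F.bf (h.β v) = ((gu - b ^ q) * Sg + (q : B) * η) + fu ^ q by rw [← hfv]; ring]
    exact add_mem (add_mem (pow_two (maximalIdeal B) ▸ Ideal.mul_mem_mul hgu' hSg)
      (Ideal.mul_mem_right _ _ hq2)) (hsq hfum)
  have hfJ : ∀ c ∈ h.xI Q, F.bf c ∈ Ideal.span {fu, gu} ⊔ maximalIdeal B ^ 2 := by
    intro c hcm
    have := Frame.map_mem_of_le F.bf hle (J := Ideal.span {fu, gu} ⊔ maximalIdeal B ^ 2) ?_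
      (fun a ha => F.bf_mem ha) hcm
    · rwa [sup_assoc, sup_idem] at this
    rintro _ (rfl | rfl | rfl)
    · rw [map_natCast]; exact Submodule.mem_sup_right hq2
    · exact Submodule.mem_sup_left (subset_span (by simp [fu]))
    · exact Submodule.mem_sup_right hfv2
  have hgJ : ∀ c ∈ h.xI Q, F.bg c ∈ Ideal.span {fu, gu} ⊔ maximalIdeal B ^ 2 := by
    intro c hcm
    obtain ⟨z, hz⟩ := D1 c
    rw [show F.bg c = F.bf c - z * (fu - gu) by rw [← hz]; ring]
    exact sub_mem (hfJ c hcm) (Submodule.mem_sup_left (Ideal.mul_mem_left _ _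
      (sub_mem (subset_span (by simp)) (subset_span (by simp)))))
  have hU : IsUnit (F.bf c - (fu - b ^ q) * η - (fu - b ^ q) * (gu - b ^ q) * S) := by
    refine IsLocalRing.notMem_maximalIdeal.1 fun hm => IsLocalRing.notMem_maximalIdeal.2 hfc ?_
    have := add_mem (add_mem hm (Ideal.mul_mem_right η _ hfu'))
      (Ideal.mul_mem_right S _ (Ideal.mul_mem_right (gu - b ^ q) _ hfu'))
    convert this using 1; ring
  have key : (q : B) * (F.bf c - (fu - b ^ q) * η - (fu - b ^ q) * (gu - b ^ q) * S) =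
      (gu - b ^ q) * (fu - gu) ^ (q - 1) * (fu - b ^ q) := by
    linear_combination -efc + (fu - b ^ q) * hfv + ((fu - b ^ q) * (gu - b ^ q)) * eS
  obtain ⟨-, hm, -, H⟩ := F.criterion hfum hgum hfJ hgJ (fun e he => he.elim)
    (h.kI_lt_xI (Q := Q)) h.q_mem_kI
  have hfL : F.toLoc fu = algebraMap A₂ (loc K y) (T.f (h.α u)) := Subtype.ext (F.toLoc_bf _)
  have hgL : F.toLoc gu = algebraMap A₂ (loc K y) (T.g (h.α u)) := Subtype.ext (F.toLoc_bg _)
  have hbL : F.toLoc b = algebraMap A₂ (loc K y) (T.f (h.β a₀)) := Subtype.ext (F.toLoc_bf _)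
  refine ⟨by rw [hm, hfL, hgL], ?_, H, fun y' _ hf' hg' =>
    (F.point_unique (frame_empty hf' hg' h.exists_sub_mem_xI h.exists_sub_mem_xI) H).symm⟩
  have := ((associated_mul_unit_right _ _ hU).trans (Associated.of_eq key)).map F.toLoc
  simpa [map_natCast, map_sub, map_mul, map_pow, hfL, hgL, hbL, ← T.compat] using this

end Twin

end FLTAgent.BadQ.Two
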