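import Fermat.Agent.BadQ.TwoCrossing

/-!
# Level `q²M` as two embeddings of level `qM` agreeing on the middle level `M`

`Twin` packages the two embeddings. `classify` lists the three kinds of closed points over `q`,
`no_zero_zero` excludes the fourth, and `near` is the ring spanned near a point by the two images,
used for the regularity criterion in `TwoFrame`.
-/

set_option autoImplicit false

namespace FLTAgent.BadQ.Two

open Ideal IsLocalRing

variable {q : ℕ} {W A₀ A₁ A₂ C F₁ : Type*} [CommRing W] [CommRing A₀] [CommRing A₁] [CommRing A₂]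
  [CommRing C] [Field F₁] [Algebra W A₀] [Algebra W A₁] [Algebra W A₂] [Algebra W C]
  [Algebra W F₁] [Algebra A₁ F₁] [IsDedekindDomain C]
  [IsNoetherianRing W] [IsDomain A₀] [IsDomain A₁] [IsDomain A₂]
  [IsNoetherianRing A₀] [IsNoetherianRing A₁]
  [Algebra.FiniteType W A₀] [Algebra.FiniteType W A₁]
  [IsIntegrallyClosed A₁] [IsIntegrallyClosed A₂] [IsFractionRing A₁ F₁]

/-- Two embeddings of level `qM` into level `q²M` agreeing on the middle level `M`. -/
structure Twin (h : StepData q W A₀ A₁ C F₁) (A₂ : Type*) [CommRing A₂] [Algebra W A₂] where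
  /-- the first embedding -/
  f : A₁ →ₐ[W] A₂
  /-- the second embedding -/
  g : A₁ →ₐ[W] A₂
  compat : ∀ a, f (h.β a) = g (h.β a)
  f_finite : f.toRingHom.Finite
  g_finite : g.toRingHom.Finite
  f_injective : Function.Injective f
  g_injective : Function.Injective g
  generates : ∀ a : A₂, ∃ s ∈ Algebra.adjoin W (Set.range f ∪ Set.range g), s ≠ 0 ∧
    s * a ∈ Algebra.adjoin W (Set.range f ∪ Set.range g)
  ne : ∀ a : A₀, f (h.α a) = g (h.α a) → ∃ w : W, h.red a = algebraMap W C w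

namespace Twin

variable {h : StepData q W A₀ A₁ C F₁} (T : Twin h A₂)

/-- Exchanging the two embeddings. -/
def swap : Twin h A₂ where
  f := T.g
  g := T.f
  compat a := (T.compat a).symm
  f_finite := T.g_finite
  g_finite := T.f_finite
  f_injective := T.g_injective
  g_injective := T.f_injective
  generates a := by simpa [Set.union_comm] using T.generates a
  ne a e := T.ne a e.symm

@[simp] theorem swap_f : T.swap.f = T.g := rfl
@[simp] theorem swap_g : T.swap.g = T.f := rfl

include T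

theorem f_integral : T.f.toRingHom.IsIntegral := T.f_finite.to_isIntegral
theorem g_integral : T.g.toRingHom.IsIntegral := T.g_finite.to_isIntegral

theorem isNoetherian : IsNoetherianRing A₂ := by
  let := T.f.toRingHom.toAlgebra
  have : Module.Finite A₁ A₂ := T.f_finite
  exact Algebra.FiniteType.isNoetherianRing A₁ A₂

theorem q_ne_zero : (q : A₂) ≠ 0 := fun e => h.q_ne_zero (T.f_injective (by
  rw [map_natCast, e, map_zero]))

theorem comap_f_maximal {y : Ideal A₂} [y.IsMaximal] : (y.comap T.f).IsMaximal :=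
  Ideal.isMaximal_comap_of_isIntegral_of_isMaximal' T.f.toRingHom T.f_integral y

theorem comap_g_maximal {y : Ideal A₂} [y.IsMaximal] : (y.comap T.g).IsMaximal :=
  Ideal.isMaximal_comap_of_isIntegral_of_isMaximal' T.g.toRingHom T.g_integral y

/-- going down along `f` -/
theorem exists_prime_lt {y : Ideal A₂} [y.IsPrime] {k : Ideal A₁} [k.IsPrime]
    (hk : k < y.comap T.f) : ∃ P : Ideal A₂, P.IsPrime ∧ P < y ∧ P.comap T.f = k := by
  let := T.f.toRingHom.toAlgebra
  have : Algebra.IsIntegral A₁ A₂ := ⟨T.f_integral⟩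
  have : FaithfulSMul A₁ A₂ := (faithfulSMul_iff_algebraMap_injective A₁ A₂).2 T.f_injective
  have : y.LiesOver (y.comap T.f) := ⟨rfl⟩
  obtain ⟨P, hPy, hP, hPk⟩ := Ideal.exists_ideal_lt_liesOver_of_lt y hk
  exact ⟨P, hP, hPy, hPk.over.symm⟩

/-- lying over along `f` -/
theorem exists_prime_over (k : Ideal A₁) [k.IsPrime] :
    ∃ P : Ideal A₂, P.IsPrime ∧ P.comap T.f = k := by
  let := T.f.toRingHom.toAlgebra
  have : Algebra.IsIntegral A₁ A₂ := ⟨T.f_integral⟩
  exact Ideal.exists_ideal_over_prime_of_isIntegral_of_isDomain k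
    (by rw [show RingHom.ker (algebraMap A₁ A₂) = ⊥ from
      (RingHom.injective_iff_ker_eq_bot _).1 T.f_injective]; exact bot_le)

/-- going up along `f` -/
theorem exists_maximal_ge (P : Ideal A₂) [P.IsPrime] (x : Ideal A₁) [x.IsMaximal]
    (hx : P.comap T.f ≤ x) : ∃ y : Ideal A₂, y.IsMaximal ∧ P ≤ y ∧ y.comap T.f = x := by
  let := T.f.toRingHom.toAlgebra
  have : Algebra.IsIntegral A₁ A₂ := ⟨T.f_integral⟩
  obtain ⟨y, hy, hyp, hyx⟩ :=
    Ideal.exists_ideal_over_prime_of_isIntegral_of_isPrime x P hx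
  refine ⟨y, ?_, hy, hyx⟩
  exact Ideal.isMaximal_of_isIntegral_of_isMaximal_comap y (by
    rw [show y.comap (algebraMap A₁ A₂) = x from hyx]; infer_instance)

/-- `f` and `g` agree on `β` of level `M`, so a point determines a single point of level `M`. -/
theorem comap_β_eq (y : Ideal A₂) : (y.comap T.f).comap h.β = (y.comap T.g).comap h.β := by
  ext a; simp [T.compat]

omit T in
theorem _root_.FLTAgent.BadQ.Two.StepData.eq_xI_or_xZ (h : StepData q W A₀ A₁ C F₁) {x : Ideal A₁}
    [x.IsMaximal] (hq : (q : A₁) ∈ x) :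
    (∃ Q : Ideal C, Q.IsMaximal ∧ x = h.xI Q) ∨ ∃ Q : Ideal C, Q.IsMaximal ∧ x = h.xZ Q := by
  rcases h.mem_or_mem_of_q_mem hq with hk | hk
  · left
    have hcm : (x.map h.piInf).comap h.piInf = x := by
      rw [Ideal.comap_map_of_surjective' _ h.piInf_surjective]; exact sup_eq_left.2 hk
    rcases Ideal.map_eq_top_or_isMaximal_of_surjective _ h.piInf_surjective
      (inferInstance : x.IsMaximal) with e | e
    · exact absurd (by rw [← hcm, e, Ideal.comap_top]) (Ideal.IsMaximal.ne_top ‹x.IsMaximal›)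
    · exact ⟨_, e, hcm.symm⟩
  · right
    have hcm : (x.map h.piZero).comap h.piZero = x := by
      rw [Ideal.comap_map_of_surjective' _ h.piZero_surjective]; exact sup_eq_left.2 hk
    rcases Ideal.map_eq_top_or_isMaximal_of_surjective _ h.piZero_surjective
      (inferInstance : x.IsMaximal) with e | e
    · exact absurd (by rw [← hcm, e, Ideal.comap_top]) (Ideal.IsMaximal.ne_top ‹x.IsMaximal›)
    · exact ⟨_, e, hcm.symm⟩

omit T in
theorem _root_.FLTAgent.BadQ.Two.StepData.not_const (h : StepData q W A₀ A₁ C F₁) {Q : Ideal C}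
    [hQ : Q.IsMaximal] {u : A₀} (hu : IsUnif Q (h.red u)) {w : W} : h.red u ≠ algebraMap W C w := by
  intro hw
  obtain ⟨b, hb⟩ := h.exists_pow_eq_φ (h.red u)
  have hu' : h.red u = b ^ q := by rw [← hb, hw, AlgHom.commutes]
  refine hu.2 ?_
  rw [hu']
  exact Ideal.pow_le_pow_right h.prime.two_le
    (Ideal.pow_mem_pow (hQ.isPrime.mem_of_pow_mem q (hu' ▸ hu.1)) q)

section Local

variable {K : Type*} [Field K] [Algebra A₂ K] [IsFractionRing A₂ K] [Algebra W K]
  [IsScalarTower W A₂ K]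

variable (K) in
/-- the first embedding into the function field -/
noncomputable def fK : A₁ →ₐ[W] K := (IsScalarTower.toAlgHom W A₂ K).comp T.f

variable (K) in
/-- the second embedding into the function field -/
noncomputable def gK : A₁ →ₐ[W] K := (IsScalarTower.toAlgHom W A₂ K).comp T.g

theorem fK_apply (a : A₁) : T.fK K a = algebraMap A₂ K (T.f a) := rfl
theorem gK_apply (a : A₁) : T.gK K a = algebraMap A₂ K (T.g a) := rfl

theorem fK_mem_loc (y : Ideal A₂) [y.IsPrime] (a : A₁) : T.fK K a ∈ loc K y := algebraMap_mem_loc _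
theorem gK_mem_loc (y : Ideal A₂) [y.IsPrime] (a : A₁) : T.gK K a ∈ loc K y := algebraMap_mem_loc _

/-- No closed point lies on two non-crossing branches of type `0`. -/
theorem no_zero_zero {y : Ideal A₂} [y.IsMaximal] {R : Ideal C} [R.IsMaximal]
    (hR : ¬ h.Crossing R) (hf : y.comap T.f = h.xZ R) (hg : y.comap T.g = h.xZ R) : False := by
  let S := loc (FractionRing A₂) y
  let fS : A₁ →ₐ[W] S := (IsScalarTower.toAlgHom W A₂ S).comp T.f
  let gS : A₁ →ₐ[W] S := (IsScalarTower.toAlgHom W A₂ S).comp T.g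
  obtain ⟨u', hu'⟩ := exists_isUnif (h.ne_bot (Q := R))
  obtain ⟨u, rfl⟩ := h.red_surjective u'
  have hx : ∀ (e : A₁ →ₐ[W] A₂), y.comap e = h.xZ R → ∀ b ∈ h.xZ R,
      (IsScalarTower.toAlgHom W A₂ S).comp e b ∈ maximalIdeal S := fun e he b hb => by
    refine (IsLocalization.AtPrime.to_map_mem_maximal_iff S y (e b)).2 ?_
    rw [← he] at hb; exact hb
  have hδ : ∀ a b, (fS.toLinearMap - gS.toLinearMap) (a * b) =
      fS b • (fS.toLinearMap - gS.toLinearMap) a + gS a • (fS.toLinearMap - gS.toLinearMap) b := by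
    intro a b
    simp only [LinearMap.sub_apply, AlgHom.toLinearMap_apply, map_mul, smul_eq_mul]
    ring
  obtain ⟨H, -⟩ := leibniz_mem_span fS gS (fS.toLinearMap - gS.toLinearMap) hδ (h.xZ R) (hx _ hf) (hx _ hg)
    (h.exists_sub_mem_xZ (Q := R)) {(q : A₁), h.β u}
    (by
      rintro _ (rfl | rfl)
      · exact h.q_mem_xZ R
      · change h.piZero _ ∈ R; rw [h.piZero_β]; exact hu'.1)
    (h.xZ_le hu' hR)
  have e := H (h.α u)
  rw [Set.image_pair] at e
  simp only [LinearMap.sub_apply, AlgHom.toLinearMap_apply, map_natCast, sub_self,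
    show fS (h.β u) = gS (h.β u) from congrArg (algebraMap A₂ S) (T.compat u),
    Submodule.span_insert_zero, Submodule.span_singleton_eq_bot.2, Submodule.mem_bot, sub_eq_zero] at e
  have e' : T.f (h.α u) = T.g (h.α u) :=
    IsFractionRing.injective A₂ (FractionRing A₂) (congrArg Subtype.val e)
  obtain ⟨w, hw⟩ := T.ne u e'
  exact h.not_const hu' hw

theorem q_mem_comap {y : Ideal A₂} (hq : (q : A₂) ∈ y) :
    (q : A₁) ∈ y.comap T.f ∧ (q : A₁) ∈ y.comap T.g :=
  ⟨show T.f _ ∈ y by rwa [map_natCast], show T.g _ ∈ y by rwa [map_natCast]⟩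

/-- The three kinds of closed points. -/
theorem classify {y : Ideal A₂} [y.IsMaximal] (hq : (q : A₂) ∈ y) :
    (∃ Q : Ideal C, Q.IsMaximal ∧ y.comap T.f = h.xI Q ∧ y.comap T.g = h.xI Q) ∨
    (∃ Q : Ideal C, Q.IsMaximal ∧ ¬ h.Crossing Q ∧ y.comap T.f = h.xI Q ∧ y.comap T.g = h.xZ (h.fr Q)) ∨
    ∃ Q : Ideal C, Q.IsMaximal ∧ ¬ h.Crossing Q ∧ y.comap T.f = h.xZ (h.fr Q) ∧ y.comap T.g = h.xI Q := by
  have := T.comap_f_maximal (y := y)
  have := T.comap_g_maximal (y := y)
  obtain ⟨hqf, hqg⟩ := T.q_mem_comap hq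
  have hβ := T.comap_β_eq y
  rcases h.eq_xI_or_xZ hqf with ⟨Q, hQ, ef⟩ | ⟨Q, hQ, ef⟩ <;>
    rcases h.eq_xI_or_xZ hqg with ⟨Q', hQ', eg⟩ | ⟨Q', hQ', eg⟩ <;> have := hQ <;> have := hQ'
  · rw [ef, eg, h.comap_β_xI, h.comap_β_xI] at hβ
    obtain rfl := h.fr_injective (h.mA_injective hβ)
    exact Or.inl ⟨Q, hQ, ef, eg⟩
  · rw [ef, eg, h.comap_β_xI, h.comap_β_xZ] at hβ
    obtain rfl := h.mA_injective hβ
    by_cases hc : h.Crossing Q
    · exact Or.inl ⟨Q, hQ, ef, eg.trans (h.crossing_iff.1 hc).2⟩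
    · exact Or.inr (Or.inl ⟨Q, hQ, hc, ef, eg⟩)
  · rw [ef, eg, h.comap_β_xI, h.comap_β_xZ] at hβ
    obtain rfl := h.mA_injective hβ
    by_cases hc : h.Crossing Q'
    · exact Or.inl ⟨Q', hQ', ef.trans (h.crossing_iff.1 hc).2, eg⟩
    · exact Or.inr (Or.inr ⟨Q', hQ', hc, ef, eg⟩)
  · rw [ef, eg, h.comap_β_xZ, h.comap_β_xZ] at hβ
    obtain rfl := h.mA_injective hβ
    by_cases hc : h.Crossing Q
    · obtain ⟨hfr, -⟩ := h.crossing_iff.1 hc
      have hc' := h.crossing_fr hc
      have hx := (h.crossing_iff.1 hc').2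
      rw [hfr] at hx
      exact Or.inl ⟨h.fr Q, inferInstance, ef.trans hx, eg.trans hx⟩
    · exact (T.no_zero_zero hc ef eg).elim

variable (K) in
/-- the chosen generators of the ring spanned near a point -/
def gens (x x' : Ideal A₁) (X : Set K) : Set K := T.fK K '' x ∪ T.gK K '' x' ∪ X

variable (K) in
/-- the ring spanned near a point -/
noncomputable def near (x x' : Ideal A₁) (X : Set K) : Subalgebra W K :=
  Algebra.adjoin W (T.gens K x x' X)

variable {x x' : Ideal A₁} {X : Set K}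

theorem fK_mem_near (hrat : ∀ a : A₁, ∃ w : W, a - algebraMap W A₁ w ∈ x) (a : A₁) :
    T.fK K a ∈ T.near K x x' X := by
  obtain ⟨w, hw⟩ := hrat a
  have : T.fK K a = T.fK K (a - algebraMap W A₁ w) + algebraMap W K w := by
    rw [map_sub, AlgHom.commutes, sub_add_cancel]
  rw [this]
  exact add_mem (Algebra.subset_adjoin (Or.inl (Or.inl ⟨_, hw, rfl⟩))) (Subalgebra.algebraMap_mem _ w)

theorem gK_mem_near (hrat : ∀ a : A₁, ∃ w : W, a - algebraMap W A₁ w ∈ x') (a : A₁) :
    T.gK K a ∈ T.near K x x' X := by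
  obtain ⟨w, hw⟩ := hrat a
  have : T.gK K a = T.gK K (a - algebraMap W A₁ w) + algebraMap W K w := by
    rw [map_sub, AlgHom.commutes, sub_add_cancel]
  rw [this]
  exact add_mem (Algebra.subset_adjoin (Or.inl (Or.inr ⟨_, hw, rfl⟩))) (Subalgebra.algebraMap_mem _ w)

theorem near_fg (hX : X.Finite) (hf : ∀ a : A₁, ∃ w : W, a - algebraMap W A₁ w ∈ x)
    (hg : ∀ a : A₁, ∃ w : W, a - algebraMap W A₁ w ∈ x') : (T.near K x x' X).FG := by
  have : T.near K x x' X = (T.fK K).range ⊔ (T.gK K).range ⊔ Algebra.adjoin W X := by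
    refine le_antisymm ?_ (sup_le (sup_le ?_ ?_) ?_)
    · rw [near, Algebra.adjoin_le_iff]
      rintro z ((⟨a, -, rfl⟩ | ⟨a, -, rfl⟩) | hz)
      · exact le_sup_left (α := Subalgebra W K) (le_sup_left (α := Subalgebra W K) ⟨a, rfl⟩)
      · exact le_sup_left (α := Subalgebra W K) (le_sup_right (α := Subalgebra W K) ⟨a, rfl⟩)
      · exact le_sup_right (α := Subalgebra W K) (Algebra.subset_adjoin hz)
    · rintro _ ⟨a, rfl⟩; exact T.fK_mem_near hf a
    · rintro _ ⟨a, rfl⟩; exact T.gK_mem_near hg a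
    · exact Algebra.adjoin_mono Set.subset_union_right
  rw [this]
  have hr : ∀ e : A₁ →ₐ[W] K, e.range.FG := fun e => by
    rw [← Algebra.map_top]; exact Subalgebra.FG.map _ Algebra.FiniteType.out
  refine ((hr _).sup (hr _)).sup ?_
  exact ⟨hX.toFinset, by rw [Set.Finite.coe_toFinset]⟩

/-- Every element of `near` is a constant plus a combination of the generators. -/
theorem exists_const {z : K} (hz : z ∈ T.near K x x' X) :
    ∃ w : W, (⟨z, hz⟩ : T.near K x x' X) - algebraMap W _ w ∈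
      Ideal.span {e : T.near K x x' X | (e : K) ∈ T.gens K x x' X} := by
  induction hz using Algebra.adjoin_induction with
  | mem z hz => exact ⟨0, by simpa using Ideal.subset_span (α := T.near K x x' X) hz⟩
  | algebraMap w =>
    refine ⟨w, ?_⟩
    rw [show (⟨algebraMap W K w, Subalgebra.algebraMap_mem _ w⟩ : T.near K x x' X) -
      algebraMap W _ w = 0 from sub_eq_zero.2 rfl]
    exact zero_mem _
  | add a b _ _ ha hb =>
    obtain ⟨u, hu⟩ := ha
    obtain ⟨v, hv⟩ := hb
    refine ⟨u + v, ?_⟩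
    convert add_mem hu hv using 1
    rw [map_add]; ext; simp only [Subalgebra.coe_sub, Subalgebra.coe_add]; ring
  | mul a b ha' hb' ha hb =>
    obtain ⟨u, hu⟩ := ha
    obtain ⟨v, hv⟩ := hb
    refine ⟨u * v, ?_⟩
    convert add_mem (Ideal.mul_mem_right ⟨b, hb'⟩ _ hu)
      (Ideal.mul_mem_left _ (algebraMap W (T.near K x x' X) u) hv) using 1
    rw [map_mul]; ext
    simp only [Subalgebra.coe_sub, Subalgebra.coe_add, Subalgebra.coe_mul]; ring

/-- Points with the same projections agree on `near`. -/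
theorem mem_maximal_iff {y : Ideal A₂} [y.IsPrime] {z : K} (hz : z ∈ T.near K x x' X)
    (hgens : ∀ e ∈ T.gens K x x' X, ∃ he : e ∈ loc K y, (⟨e, he⟩ : loc K y) ∈ maximalIdeal (loc K y))
    {w : W} (hw : (⟨z, hz⟩ : T.near K x x' X) - algebraMap W _ w ∈
      Ideal.span {e : T.near K x x' X | (e : K) ∈ T.gens K x x' X}) :
    ∃ hy : z ∈ loc K y, ((⟨z, hy⟩ : loc K y) ∈ maximalIdeal (loc K y) ↔ algebraMap W A₂ w ∈ y) := by
  have hle : T.near K x x' X ≤ (loc K y).restrictScalars W :=
    Algebra.adjoin_le fun e he => (hgens e he).1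
  let i : T.near K x x' X →ₐ[W] loc K y := Subalgebra.inclusion hle
  have hsp : Ideal.span {e : T.near K x x' X | (e : K) ∈ T.gens K x x' X} ≤
      (maximalIdeal (loc K y)).comap i :=
    Ideal.span_le.2 fun e he => (hgens _ he).2
  refine ⟨hle hz, ?_⟩
  have h1 : i ⟨z, hz⟩ - algebraMap W (loc K y) w ∈ maximalIdeal (loc K y) := by
    have := hsp hw
    rw [Ideal.mem_comap, map_sub, AlgHom.commutes] at this
    exact this
  rw [← IsLocalization.AtPrime.to_map_mem_maximal_iff (loc K y) y,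
    ← IsScalarTower.algebraMap_apply W A₂ (loc K y)]
  rw [show i ⟨z, hz⟩ = (⟨z, hle hz⟩ : loc K y) from rfl] at h1
  refine ⟨fun hm => ?_, fun hm => ?_⟩
  · simpa using sub_mem hm h1
  · simpa using add_mem h1 hm

end Local

end Twin

end FLTAgent.BadQ.Two
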