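import Fermat.Agent.BadQ.TwoDiff

/-!
# `dv/du` is `q` times a unit at the Gauss point, and the transposed derivation

`der_unit` holds for all closed points and parameters; `der_generic` says that `β` is unramified
off the cusps on the generic fibre; `der_proportional` that all derivations are proportional near
a smooth point; `derT` is the derivation transposed by the Atkin–Lehner involution.
-/

set_option autoImplicit false

namespace FLTAgent.BadQ.Two

open Ideal IsLocalRing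

variable {q : ℕ} {W A₀ A₁ C F₁ : Type*} [CommRing W] [CommRing A₀] [CommRing A₁]
  [CommRing C] [Field F₁] [Algebra W A₀] [Algebra W A₁] [Algebra W C]
  [Algebra W F₁] [Algebra A₁ F₁] [IsScalarTower W A₁ F₁] [IsDedekindDomain C]
  [IsDomain A₀] [IsDomain A₁] [IsNoetherianRing A₀] [IsNoetherianRing A₁]
  [Algebra.FiniteType W A₀] [Algebra.FiniteType W A₁]
  [IsIntegrallyClosed A₁] [IsFractionRing A₁ F₁]

namespace StepData

variable (h : StepData q W A₀ A₁ C F₁) {Q : Ideal C} [hQ : Q.IsMaximal]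
include h

local notation "φF" => algebraMap A₁ F₁

/-- `dv/du` is `q` times a unit at the Gauss point, for all closed points and all parameters. -/
theorem der_unit {u v : A₀} (hu : IsUnif Q (h.red u)) (hv : IsUnif (h.fr Q) (h.red v)) :
    ∃ z : F₁, z ≠ 0 ∧ z ∈ loc F₁ h.kI ∧ z⁻¹ ∈ loc F₁ h.kI ∧
      h.der (h.β v) = (q : F₁) * z * h.der (h.α u) := by
  obtain ⟨c, hc, R, hR, hcR⟩ := h.exists_cusp
  have := hR
  obtain ⟨u₀, v₀, hu₀, hv₀, z₀, hz₀, hz₀m, hz₀i, e₀⟩ := h.der_unit_cusp (Q := R) hc hcR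
  have hzne : (q : F₁) * z₀ * h.der (h.α u₀) ≠ 0 :=
    mul_ne_zero (mul_ne_zero h.q_ne_zero_F hz₀) (h.α_der_ne_zero hu₀)
  obtain ⟨a, ha, ea⟩ := h.der_pullback h.α h.der h.comap_α_xI hu u₀
  obtain ⟨a', ha', ea'⟩ := h.der_pullback h.α h.der h.comap_α_xI hu₀ u
  obtain ⟨b, hb, eb⟩ := h.der_pullback h.β h.der (h.comap_β_xI (Q := Q)) hv v₀
  obtain ⟨b', hb', eb'⟩ := h.der_pullback h.β h.der (h.comap_β_xI (Q := R)) hv₀ v
  have haa : a * a' = 1 := by
    apply mul_right_cancel₀ (h.α_der_ne_zero hu₀)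
    linear_combination -ea - a * ea'
  have hbb : b * b' = 1 := by
    apply mul_right_cancel₀ (e₀ ▸ hzne : h.der (h.β v₀) ≠ 0)
    linear_combination -eb - b * eb'
  refine ⟨b' * z₀ * a, ?_, ?_, ?_, ?_⟩
  · exact mul_ne_zero (mul_ne_zero (right_ne_zero_of_mul_eq_one hbb) hz₀)
      (left_ne_zero_of_mul_eq_one haa)
  · exact mul_mem (mul_mem (h.kI_loc hb') hz₀m) (h.kI_loc ha)
  · rw [mul_inv, mul_inv, inv_eq_of_mul_eq_one_left hbb, inv_eq_of_mul_eq_one_right haa]
    exact mul_mem (mul_mem (h.kI_loc hb) hz₀i) (h.kI_loc ha')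
  · linear_combination eb' + b' * e₀ + (b' * (q : F₁) * z₀) * ea

theorem β_der_ne_zero {u v : A₀} (hu : IsUnif Q (h.red u)) (hv : IsUnif (h.fr Q) (h.red v)) :
    h.der (h.β v) ≠ 0 := by
  obtain ⟨z, hz, -, -, e⟩ := h.der_unit hu hv
  rw [e]
  exact mul_ne_zero (mul_ne_zero h.q_ne_zero_F hz) (h.α_der_ne_zero hu)

/-- Off the cusps, on the generic fibre, `β` is unramified. -/
theorem der_generic (hnc : ∀ c ∈ h.cusp, ¬ c ≤ h.mA Q) {u v : A₀}
    (hv : IsUnif (h.fr Q) (h.red v)) {p : Ideal A₁} [p.IsPrime] (hp : p ≤ h.xI Q)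
    (hqp : (q : A₁) ∉ p) :
    ∃ z ∈ loc F₁ p, h.der (h.α u) = z * h.der (h.β v) := by
  have hβ : p.comap h.β ∉ h.cusp := fun hc => by
    exact hnc _ ((h.cusp_iff p inferInstance).2 hc) ((Ideal.comap_mono hp).trans h.comap_α_xI.le)
  obtain ⟨s, hs, hspan⟩ := h.etale p inferInstance hqp hβ (h.α u)
  let N : Submodule A₁ F₁ :=
    { carrier := {m | ∃ z ∈ loc F₁ p, m = z * h.der (h.β v)}
      add_mem' := by
        rintro _ _ ⟨z, hz, rfl⟩ ⟨z', hz', rfl⟩
        exact ⟨z + z', add_mem hz hz', by ring⟩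
      zero_mem' := ⟨0, zero_mem _, by ring⟩
      smul_mem' := by
        rintro a _ ⟨z, hz, rfl⟩
        exact ⟨a • z, Subalgebra.smul_mem _ hz a, by rw [smul_mul_assoc]⟩ }
  let L := h.der.liftKaehlerDifferential
  have hle : Submodule.span A₁ (Set.range fun b : A₀ => KaehlerDifferential.D W A₁ (h.β b)) ≤
      N.comap L := by
    rw [Submodule.span_le]
    rintro _ ⟨b, rfl⟩
    obtain ⟨z, hz, e⟩ := h.der_pullback h.β h.der h.comap_β_xI hv b
    exact ⟨z, loc_mono hp hz, by rw [Derivation.liftKaehlerDifferential_comp_D]; exact e⟩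
  obtain ⟨z, hz, e⟩ := hle hspan
  rw [map_smul, Derivation.liftKaehlerDifferential_comp_D, Algebra.smul_def] at e
  refine ⟨(φF s)⁻¹ * z, mul_mem (inv_mem_loc hs) hz, ?_⟩
  have hs0 : φF s ≠ 0 :=
    IsFractionRing.to_map_ne_zero_of_mem_nonZeroDivisors (p.primeCompl_le_nonZeroDivisors hs)
  rw [mul_assoc, ← e, ← mul_assoc, inv_mul_cancel₀ hs0, one_mul]

/-- All derivations are proportional. -/
theorem der_proportional (D D' : Derivation W A₁ F₁) (hc : ¬ h.Crossing Q) {u : A₀}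
    (hu : IsUnif Q (h.red u)) (hD : D (h.α u) ≠ 0) (a b : A₁) : D a * D' b = D b * D' a := by
  let S := loc F₁ (h.xI Q)
  let g : A₁ →ₐ[W] S := IsScalarTower.toAlgHom W A₁ S
  have hg : ∀ c ∈ h.xI Q, g c ∈ maximalIdeal S := fun c hc =>
    (IsLocalization.AtPrime.to_map_mem_maximal_iff S (h.xI Q) c).2 hc
  obtain ⟨H, -⟩ := leibniz_mem_span g g (D.toLinearMap.prod D'.toLinearMap)
    (fun c d => by
      change (D (c * d), D' (c * d)) = _
      rw [D.leibniz, D'.leibniz]
      simp only [LinearMap.prod_apply, Function.prod_apply, Derivation.coeFn_coe, Prod.smul_mk,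
        Prod.mk_add_mk]
      rw [Subalgebra.smul_def, Subalgebra.smul_def, Subalgebra.smul_def, Subalgebra.smul_def]
      simp only [smul_eq_mul, Algebra.smul_def]
      rw [add_comm (φF c * D d), add_comm (φF c * D' d)]
      rfl)
    (h.xI Q) hg hg (h.exists_sub_mem_xI (Q := Q)) {(q : A₁), h.α u}
    (by
      rintro _ (rfl | rfl)
      · exact h.q_mem_xI Q
      · exact h.α_mem_xI hu.1)
    (h.xI_le hu hc)
  have H' : ∀ c, ∃ z : S, z • (D (h.α u), D' (h.α u)) = (D c, D' c) := fun c => by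
    have := H c
    simp only [Set.image_pair, LinearMap.prod_apply, Function.prod_apply, Derivation.coeFn_coe,
      Derivation.map_natCast, Prod.mk_zero_zero, Submodule.span_insert_zero] at this
    exact Submodule.mem_span_singleton.1 this
  obtain ⟨z, hz⟩ := H' a
  obtain ⟨z', hz'⟩ := H' b
  simp only [Prod.smul_mk, Prod.mk.injEq, Subalgebra.smul_def, smul_eq_mul] at hz hz'
  rw [← hz.1, ← hz.2, ← hz'.1, ← hz'.2]; ring

/-- The Atkin–Lehner involution on the function field. -/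
noncomputable def ιF : F₁ ≃+* F₁ := IsFractionRing.ringEquivOfRingEquiv h.ι.toRingEquiv

omit hQ in
@[simp] theorem ιF_algebraMap (a : A₁) : h.ιF (φF a) = φF (h.ι a) :=
  IsFractionRing.ringEquivOfRingEquiv_algebraMap _ _

omit hQ in
theorem ιF_smul (w : W) (z : F₁) : h.ιF (w • z) = w • h.ιF z := by
  rw [Algebra.smul_def, Algebra.smul_def, map_mul, IsScalarTower.algebraMap_apply W A₁ F₁,
    h.ιF_algebraMap, AlgEquiv.commutes]

/-- The transposed derivation. -/
noncomputable def derT : Derivation W A₁ F₁ :=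
  Derivation.mk'
    { toFun := fun a => h.ιF (h.der (h.ι.symm a))
      map_add' := fun a b => by simp
      map_smul' := fun w a => by simp [h.ιF_smul] }
    fun a b => by
      simp only [LinearMap.coe_mk, AddHom.coe_mk, map_mul, Derivation.leibniz, Algebra.smul_def,
        map_add, h.ιF_algebraMap, AlgEquiv.apply_symm_apply]

omit hQ in
theorem derT_apply (a : A₁) : h.derT a = h.ιF (h.der (h.ι.symm a)) := rfl

omit hQ in
theorem ιF_mem_loc {z : F₁} (hz : z ∈ loc F₁ h.kI) : h.ιF z ∈ loc F₁ h.kZ := by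
  obtain ⟨s, a, hs, e⟩ := exists_mul_of_mem_loc hz
  refine mem_loc_of_mul (s := h.ι s) (a := h.ι a) (fun hm => hs (h.comap_ι_kZ.le hm)) ?_
  rw [← h.ιF_algebraMap, ← h.ιF_algebraMap, ← map_mul, e]

end StepData

end FLTAgent.BadQ.Two
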